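/-
J-A, package KRULL, helper1. A noetherian integrally closed domain is the intersection of its
localisations at the primes of height one, and these localisations are discrete valuation rings.

* `isDiscreteValuationRing_atPrime_of_colon` : if `P = (b : c)` is a prime ideal of a noetherian
  integrally closed domain (`b ≠ 0`), then `R_P` is a discrete valuation ring.
* `exists_algebraMap_eq_of_forall_dvr` : an element of the fraction field lying in `R_P` for every
  prime `P` with `R_P` a discrete valuation ring lies in `R`.
* `exists_algebraMap_eq_of_forall_height_one` : the same with the primes of height one.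
-/
import Mathlib

set_option autoImplicit false
set_option linter.unusedSectionVars false
set_option linter.style.haveILetI false

namespace Fermat.Agent.JA

open IsLocalRing

section LocalCore

variable {S : Type*} [CommRing S] [IsDomain S] [IsLocalRing S] [IsNoetherianRing S]
  [IsIntegrallyClosed S]

/-- the local core: in a noetherian integrally closed local domain, if `(c / b) 𝔪 ⊆ S` but
`c / b ∉ S`, then `𝔪` is principal and `S` is a discrete valuation ring. -/
theorem isDiscreteValuationRing_of_colon_local (hnf : ¬ IsField S) {b' c' : S} (hb' : b' ≠ 0)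
    (hb'm : b' ∈ maximalIdeal S) (h1 : ∀ m ∈ maximalIdeal S, b' ∣ c' * m) (h2 : ¬ b' ∣ c') :
    IsDiscreteValuationRing S := by
  classical
  have hprinc : (maximalIdeal S).IsPrincipal := by
    by_cases hcase : ∀ m ∈ maximalIdeal S, ∀ y, c' * m = b' * y → y ∈ maximalIdeal S
    · -- integrality
      exfalso
      apply h2
      set x : FractionRing S :=
        algebraMap S (FractionRing S) c' / algebraMap S (FractionRing S) b' with hx
      have hbL : algebraMap S (FractionRing S) b' ≠ 0 :=
        (map_ne_zero_iff _ (IsFractionRing.injective S (FractionRing S))).2 hb'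
      set Nm : Submodule S (FractionRing S) :=
        Submodule.map (Algebra.linearMap S (FractionRing S)) (maximalIdeal S) with hNm
      have hNfg : Nm.FG := Submodule.FG.map _ (IsNoetherian.noetherian (maximalIdeal S))
      have hNne : Nm ≠ ⊥ := by
        intro h0
        have h3 : algebraMap S (FractionRing S) b' ∈ Nm := ⟨b', hb'm, rfl⟩
        rw [h0, Submodule.mem_bot] at h3
        exact hbL h3
      have hstab : ∀ n ∈ Nm, x • n ∈ Nm := by
        rintro _ ⟨m, hm, rfl⟩
        obtain ⟨y, hy⟩ := h1 m hm
        refine ⟨y, hcase m hm y hy, ?_⟩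
        show algebraMap S (FractionRing S) y = x • algebraMap S (FractionRing S) m
        rw [hx, smul_eq_mul, div_mul_eq_mul_div, eq_div_iff hbL, ← map_mul, ← map_mul, hy,
          mul_comm]
      have hint : IsIntegral S x := isIntegral_of_smul_mem_submodule Nm hNne hNfg x hstab
      obtain ⟨y, hy⟩ := IsIntegrallyClosed.algebraMap_eq_of_integral hint
      refine ⟨y, ?_⟩
      apply IsFractionRing.injective S (FractionRing S)
      rw [map_mul, hy, hx, mul_div_cancel₀ _ hbL]
    · -- the maximal ideal is principal
      push Not at hcase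
      obtain ⟨m₀, hm₀, y₀, hy₀, hy₀m⟩ := hcase
      have hu : IsUnit y₀ := by
        by_contra hnu
        exact hy₀m ((IsLocalRing.mem_maximalIdeal _).2 hnu)
      obtain ⟨u, rfl⟩ := hu
      refine ⟨⟨m₀, le_antisymm ?_ ?_⟩⟩
      · intro m hm
        obtain ⟨y, hy⟩ := h1 m hm
        rw [Ideal.submodule_span_eq, Ideal.mem_span_singleton]
        refine ⟨↑u⁻¹ * y, ?_⟩
        have h3 : b' * ((u : S) * m) = b' * (y * m₀) := by
          calc b' * ((u : S) * m) = (b' * u) * m := by ring
            _ = c' * m₀ * m := by rw [← hy₀]
            _ = (c' * m) * m₀ := by ring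
            _ = b' * y * m₀ := by rw [hy]
            _ = b' * (y * m₀) := by ring
        have h4 := mul_left_cancel₀ hb' h3
        calc m = ↑u⁻¹ * ((u : S) * m) := by rw [← mul_assoc, Units.inv_mul, one_mul]
          _ = ↑u⁻¹ * (y * m₀) := by rw [h4]
          _ = m₀ * (↑u⁻¹ * y) := by ring
      · rw [Ideal.submodule_span_eq, Ideal.span_le, Set.singleton_subset_iff]
        exact hm₀
  exact ((IsDiscreteValuationRing.TFAE S hnf).out 4 0).mp hprinc

end LocalCore

section Colon

variable {R : Type*} [CommRing R] [IsDomain R] [IsNoetherianRing R] [IsIntegrallyClosed R]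

/-- **associated primes of principal ideals**: if the prime `P` is the colon ideal `(b : c)`,
`b ≠ 0`, of a noetherian integrally closed domain, then `R_P` is a discrete valuation ring. -/
theorem isDiscreteValuationRing_atPrime_of_colon (P : Ideal R) [hPp : P.IsPrime] {b c : R}
    (hb : b ≠ 0) (hP : ∀ r, r ∈ P ↔ b ∣ r * c) :
    IsDiscreteValuationRing (Localization.AtPrime P) := by
  classical
  haveI : IsIntegrallyClosed (Localization.AtPrime P) :=
    isIntegrallyClosed_of_isLocalization (Localization.AtPrime P) P.primeCompl
      P.primeCompl_le_nonZeroDivisors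
  haveI : IsDomain (Localization.AtPrime P) :=
    IsLocalization.isDomain_localization P.primeCompl_le_nonZeroDivisors
  haveI : IsNoetherianRing (Localization.AtPrime P) :=
    IsLocalization.isNoetherianRing P.primeCompl (Localization.AtPrime P) inferInstance
  have hinj : Function.Injective (algebraMap R (Localization.AtPrime P)) :=
    IsLocalization.injective (Localization.AtPrime P) P.primeCompl_le_nonZeroDivisors
  have hbP : b ∈ P := (hP b).2 ⟨c, rfl⟩
  have hb' : algebraMap R (Localization.AtPrime P) b ≠ 0 := (map_ne_zero_iff _ hinj).2 hb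
  have hb'm : algebraMap R (Localization.AtPrime P) b ∈ maximalIdeal (Localization.AtPrime P) :=
    (IsLocalization.AtPrime.to_map_mem_maximal_iff (Localization.AtPrime P) P b).2 hbP
  have hnf : ¬ IsField (Localization.AtPrime P) := by
    intro hf
    have h0 := (IsLocalRing.isField_iff_maximalIdeal_eq.mp hf)
    rw [h0] at hb'm
    exact hb' hb'm
  refine isDiscreteValuationRing_of_colon_local hnf hb' hb'm
    (c' := algebraMap R (Localization.AtPrime P) c) ?_ ?_
  · intro m hm
    obtain ⟨p, s, rfl⟩ := IsLocalization.exists_mk'_eq P.primeCompl m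
    have hpP : p ∈ P :=
      (IsLocalization.AtPrime.mk'_mem_maximal_iff (Localization.AtPrime P) P p s).1 hm
    obtain ⟨r, hr⟩ := (hP p).1 hpP
    refine ⟨IsLocalization.mk' (Localization.AtPrime P) r s, ?_⟩
    rw [IsLocalization.mul_mk'_eq_mk'_of_mul, IsLocalization.mul_mk'_eq_mk'_of_mul,
      mul_comm c p, hr]
  · rintro ⟨y, hy⟩
    obtain ⟨a, s, rfl⟩ := IsLocalization.exists_mk'_eq P.primeCompl y
    rw [IsLocalization.mul_mk'_eq_mk'_of_mul, eq_comm, IsLocalization.mk'_eq_iff_eq_mul,
      ← map_mul] at hy
    have h3 := hinj hy
    have h4 : (s : R) ∈ P := (hP s).2 ⟨a, by rw [mul_comm, ← h3]⟩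
    exact s.2 h4

end Colon

section Inter

variable {R : Type*} [CommRing R] [IsDomain R] [IsNoetherianRing R] [IsIntegrallyClosed R]
  {K : Type*} [Field K] [Algebra R K] [IsFractionRing R K]

/-- **Krull**: an element of the fraction field of a noetherian integrally closed domain `R` which
lies in `R_P` for every prime `P` such that `R_P` is a discrete valuation ring lies in `R`. -/
theorem exists_algebraMap_eq_of_forall_dvr (x : K)
    (h : ∀ (P : Ideal R) [P.IsPrime], IsDiscreteValuationRing (Localization.AtPrime P) →
      ∃ a s : R, s ∉ P ∧ x * algebraMap R K s = algebraMap R K a) :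
    ∃ r : R, algebraMap R K r = x := by
  classical
  have hinj : Function.Injective (algebraMap R K) := IsFractionRing.injective R K
  obtain ⟨a, b, hb, rfl⟩ := IsFractionRing.div_surjective (A := R) x
  have hb0 : b ≠ 0 := nonZeroDivisors.ne_zero hb
  have hbK : algebraMap R K b ≠ 0 := (map_ne_zero_iff _ hinj).2 hb0
  by_cases hdiv : b ∣ a
  · obtain ⟨r, rfl⟩ := hdiv
    refine ⟨r, ?_⟩
    rw [map_mul, mul_div_cancel_left₀ _ hbK]
  · exfalso
    set I : Ideal R := Submodule.comap (LinearMap.mulRight R a) (Ideal.span {b}) with hIdef
    have hI : ∀ r, r ∈ I ↔ b ∣ r * a := by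
      intro r
      rw [hIdef, Submodule.mem_comap, LinearMap.mulRight_apply, Ideal.mem_span_singleton]
    have hne : I ≠ ⊤ := by
      intro htop
      have h1 : (1 : R) ∈ I := htop ▸ Submodule.mem_top
      rw [hI, one_mul] at h1
      exact hdiv h1
    haveI : Nontrivial (R ⧸ I) := Ideal.Quotient.nontrivial_iff.mpr hne
    obtain ⟨P, hPass⟩ := associatedPrimes.nonempty R (R ⧸ I)
    obtain ⟨hPprime, m, hm⟩ := isAssociatedPrime_iff.1 hPass
    obtain ⟨r₀, rfl⟩ := Ideal.Quotient.mk_surjective m
    have hPmem : ∀ s, s ∈ P ↔ b ∣ s * (r₀ * a) := by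
      intro s
      rw [hm, Submodule.mem_colon_singleton, Submodule.mem_bot, ← mul_assoc, ← hI,
        ← Ideal.Quotient.eq_zero_iff_mem, map_mul]
      rfl
    haveI := hPprime
    have hdvr := isDiscreteValuationRing_atPrime_of_colon P hb0 hPmem
    obtain ⟨a', s, hs, hxs⟩ := h P hdvr
    apply hs
    rw [hPmem]
    have h2 : algebraMap R K (s * a) = algebraMap R K (b * a') := by
      rw [map_mul, map_mul, ← hxs]
      field_simp
    have h3 : s * a = b * a' := hinj h2
    exact ⟨r₀ * a', by rw [← mul_assoc, mul_comm s r₀, mul_assoc, h3]; ring⟩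

/-- a prime `P` such that `R_P` is a discrete valuation ring has height one. -/
theorem height_eq_one_of_isDiscreteValuationRing {R : Type*} [CommRing R] [IsDomain R]
    (P : Ideal R) [P.IsPrime]
    (h : IsDiscreteValuationRing (Localization.AtPrime P)) : P.height = 1 := by
  haveI : IsDomain (Localization.AtPrime P) :=
    IsLocalization.isDomain_localization P.primeCompl_le_nonZeroDivisors
  have h1 := IsLocalization.AtPrime.ringKrullDim_eq_height P (Localization.AtPrime P)
  rw [IsDiscreteValuationRing.ringKrullDim_eq_one] at h1
  exact_mod_cast h1.symm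

/-- **Krull**, height-one form. -/
theorem exists_algebraMap_eq_of_forall_height_one (x : K)
    (h : ∀ P : Ideal R, P.IsPrime → P.height = 1 →
      ∃ a s : R, s ∉ P ∧ x * algebraMap R K s = algebraMap R K a) :
    ∃ r : R, algebraMap R K r = x :=
  exists_algebraMap_eq_of_forall_dvr x fun P hP hdvr =>
    h P hP (height_eq_one_of_isDiscreteValuationRing P hdvr)

omit [IsFractionRing R K] [Algebra R K] in
/-- the localisation of a noetherian integrally closed domain at a prime of height one is a
discrete valuation ring. -/
theorem isDiscreteValuationRing_atPrime_of_height_eq_one (P : Ideal R) [P.IsPrime]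
    (h : P.height = 1) : IsDiscreteValuationRing (Localization.AtPrime P) := by
  haveI : IsIntegrallyClosed (Localization.AtPrime P) :=
    isIntegrallyClosed_of_isLocalization (Localization.AtPrime P) P.primeCompl
      P.primeCompl_le_nonZeroDivisors
  haveI : IsDomain (Localization.AtPrime P) :=
    IsLocalization.isDomain_localization P.primeCompl_le_nonZeroDivisors
  haveI : IsNoetherianRing (Localization.AtPrime P) :=
    IsLocalization.isNoetherianRing P.primeCompl (Localization.AtPrime P) inferInstance
  have h1 : ringKrullDim (Localization.AtPrime P) = 1 := by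
    rw [IsLocalization.AtPrime.ringKrullDim_eq_height P (Localization.AtPrime P), h]
    rfl
  have hnf : ¬ IsField (Localization.AtPrime P) := by
    intro hf
    rw [ringKrullDim_eq_zero_of_isField hf] at h1
    exact zero_ne_one h1
  haveI : Ring.KrullDimLE 1 (Localization.AtPrime P) := Ring.krullDimLE_iff.mpr (le_of_eq h1)
  haveI : Ring.DimensionLEOne (Localization.AtPrime P) :=
    ⟨fun hp hp' => Ring.krullDimLE_one_iff_of_noZeroDivisors.mp inferInstance _ hp hp'⟩
  have hded : IsDedekindDomain (Localization.AtPrime P) := { }
  exact ((IsDiscreteValuationRing.TFAE (Localization.AtPrime P) hnf).out 2 0).mp hded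

end Inter

end Fermat.Agent.JA
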