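/-
J-A package ABH+EBC — helper4.
(EIS) An Eisenstein–Kummer step: if `D` is a Dedekind domain in which `ϖ` generates every maximal
ideal locally, `S = D[s]` is a domain with `s ^ m = ϖ · unit`, then `S` is a Dedekind domain in
which `s` generates every maximal ideal locally.
-/
import Mathlib

set_option autoImplicit false
set_option linter.style.haveILetI false
set_option linter.unusedSectionVars false

open Polynomial

namespace Fermat.Agent.JA

section Eis

variable {D S : Type*} [CommRing D] [IsDedekindDomain D] [CommRing S] [IsDomain S] [Algebra D S]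

/-- `ϖ` generates every maximal ideal of `D` locally. -/
def IsLocalGenerator {R : Type*} [CommRing R] (ϖ : R) : Prop :=
  ∀ P : Ideal R, P.IsPrime → P ≠ ⊥ → ϖ ∈ P ∧ ∀ x ∈ P, ∃ t, t ∉ P ∧ ∃ x', t * x = ϖ * x'

variable (ϖ : D) (u : Dˣ) (s : S) (m : ℕ)

include u in
/-- the elementwise form of (EIS). -/
theorem isLocalGenerator_of_pow_eq (hm : 0 < m) (hsm : s ^ m = algebraMap D S (ϖ * u))
    (hgen : Algebra.adjoin D {s} = ⊤) (hϖ : IsLocalGenerator ϖ)
    (hne : ∀ P : Ideal S, P.IsPrime → P ≠ ⊥ → P.comap (algebraMap D S) ≠ ⊥) :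
    IsLocalGenerator s := by
  intro P hP hP0
  haveI := hP
  have h𝔪 : (P.comap (algebraMap D S)).IsPrime := Ideal.comap_isPrime _ _
  obtain ⟨hϖmem, hϖgen⟩ := hϖ _ h𝔪 (hne P hP hP0)
  -- `algebraMap ϖ = s ^ m * algebraMap u⁻¹`
  have hϖs : algebraMap D S ϖ = s ^ m * algebraMap D S (↑u⁻¹ : D) := by
    rw [hsm, ← map_mul, mul_assoc, Units.mul_inv, mul_one]
  have hsP : s ∈ P := by
    have h1 : s ^ m ∈ P := by
      rw [hsm, map_mul]
      exact P.mul_mem_right _ hϖmem
    exact hP.mem_of_pow_mem m h1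
  refine ⟨hsP, fun x hx => ?_⟩
  -- `x = algebraMap d₀ + s * x'`
  have hx' : x ∈ Algebra.adjoin D {s} := by rw [hgen]; exact Algebra.mem_top
  rw [Algebra.adjoin_singleton_eq_range_aeval] at hx'
  obtain ⟨q, rfl⟩ := hx'
  change aeval s q ∈ P at hx
  have hq : aeval s q = algebraMap D S (q.coeff 0) + s * aeval s q.divX := by
    conv_lhs => rw [← Polynomial.divX_mul_X_add q]
    rw [map_add, map_mul, aeval_X, aeval_C]
    ring
  have hd₀ : q.coeff 0 ∈ P.comap (algebraMap D S) := by
    rw [Ideal.mem_comap]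
    have : algebraMap D S (q.coeff 0) = aeval s q - s * aeval s q.divX := by rw [hq]; ring
    rw [this]
    exact P.sub_mem hx (P.mul_mem_right _ hsP)
  obtain ⟨t, ht, d', hd'⟩ := hϖgen _ hd₀
  refine ⟨algebraMap D S t, ht, s ^ (m - 1) * algebraMap D S (↑u⁻¹ * d') +
    algebraMap D S t * aeval s q.divX, ?_⟩
  have hpow : s ^ m = s * s ^ (m - 1) := by
    rw [← pow_succ', Nat.sub_add_cancel hm]
  show algebraMap D S t * aeval s q = _
  rw [hq, mul_add, ← map_mul, hd', map_mul, hϖs, hpow, map_mul]
  ring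

include u in
/-- **(EIS)** `S = D[s]`, `s ^ m = ϖ · u`, is a Dedekind domain. -/
theorem isDedekindDomain_of_pow_eq (hm : 0 < m) (hsm : s ^ m = algebraMap D S (ϖ * u))
    (hgen : Algebra.adjoin D {s} = ⊤) (hϖ : IsLocalGenerator ϖ) [Module.IsTorsionFree D S] :
    IsDedekindDomain S ∧ IsLocalGenerator s := by
  -- `s` is integral, `S` is finite over `D`
  have hsint : IsIntegral D s := by
    refine ⟨X ^ m - C (ϖ * u), monic_X_pow_sub_C _ hm.ne', ?_⟩
    rw [eval₂_sub, eval₂_X_pow, eval₂_C, hsm, sub_self]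
  haveI : Module.Finite D S := by
    have h1 := hsint.fg_adjoin_singleton
    rw [hgen] at h1
    exact ⟨by simpa using h1⟩
  haveI : Algebra.IsIntegral D S := Algebra.IsIntegral.of_finite D S
  haveI : IsNoetherianRing S := IsNoetherianRing.of_finite D S
  haveI : Ring.DimensionLEOne S := Ring.DimensionLEOne.of_isIntegral D S
  have hne : ∀ P : Ideal S, P.IsPrime → P ≠ ⊥ → P.comap (algebraMap D S) ≠ ⊥ := by
    intro P hP hP0
    exact Ideal.IsIntegral.comap_ne_bot D hP0
  have hloc := isLocalGenerator_of_pow_eq ϖ u s m hm hsm hgen hϖ hne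
  refine ⟨?_, hloc⟩
  haveI : IsDedekindDomainDvr S :=
    { is_dvr_at_nonzero_prime := by
        intro P hP0 hP
        haveI := hP
        obtain ⟨hsP, hgenP⟩ := hloc P hP hP0
        suffices h : (IsLocalRing.maximalIdeal (Localization.AtPrime P)).IsPrincipal from
          ((IsDiscreteValuationRing.TFAE (Localization.AtPrime P)
            (IsLocalization.AtPrime.not_isField S hP0 (Localization.AtPrime P))).out 4 0).mp h
        refine ⟨⟨algebraMap S (Localization.AtPrime P) s, ?_⟩⟩
        rw [← Localization.AtPrime.map_eq_maximalIdeal]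
        apply le_antisymm
        · rw [Ideal.map_le_iff_le_comap]
          intro x hx
          obtain ⟨t, ht, x', hx'⟩ := hgenP x hx
          rw [Ideal.mem_comap]
          show algebraMap S (Localization.AtPrime P) x ∈ Ideal.span {_}
          rw [Ideal.mem_span_singleton']
          refine ⟨IsLocalization.mk' (Localization.AtPrime P) x'
            (⟨t, (show t ∈ P.primeCompl from ht)⟩ : P.primeCompl), ?_⟩
          rw [mul_comm, IsLocalization.mul_mk'_eq_mk'_of_mul, IsLocalization.mk'_eq_iff_eq_mul,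
            ← map_mul, ← hx', mul_comm]
        · rw [Ideal.span_le, Set.singleton_subset_iff]
          exact Ideal.mem_map_of_mem _ hsP }
  infer_instance

end Eis

end Fermat.Agent.JA
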