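/-
J-A package ABH+EBC — helper4.
(DOM) If `s` generates every maximal ideal of the Dedekind domain `S` locally, then for every
valuation `ν` of `Frac S` which is `≤ 1` on `S` and `< 1` at `s`, every element of valuation `< 1`
has valuation `≤ ν s` (`s` is a uniformizer of `ν`).
-/
import Fermat.Agent.JA.ABH_helper4_Eis

set_option autoImplicit false
set_option linter.style.haveILetI false
set_option linter.unusedSectionVars false

namespace Fermat.Agent.JA

section Dom

variable {S E' Γ₀ : Type*} [CommRing S] [IsDedekindDomain S] [Field E'] [Algebra S E']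
  [IsFractionRing S E'] [LinearOrderedCommGroupWithZero Γ₀] (ν : Valuation E' Γ₀)

/-- the centre of a valuation which is `≤ 1` on `S`. -/
def valCentre (hν : ∀ x : S, ν (algebraMap S E' x) ≤ 1) : Ideal S where
  carrier := {x | ν (algebraMap S E' x) < 1}
  zero_mem' := by
    show ν (algebraMap S E' 0) < 1
    rw [map_zero, map_zero]
    exact zero_lt_one
  add_mem' {a b} ha hb := by
    show ν (algebraMap S E' (a + b)) < 1
    rw [map_add]
    exact lt_of_le_of_lt (ν.map_add _ _) (max_lt ha hb)
  smul_mem' c x hx := by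
    show ν (algebraMap S E' (c • x)) < 1
    rw [smul_eq_mul, map_mul, map_mul]
    exact lt_of_le_of_lt (mul_le_of_le_one_left zero_le (hν c)) hx

theorem mem_valCentre (hν : ∀ x : S, ν (algebraMap S E' x) ≤ 1) (x : S) :
    x ∈ valCentre ν hν ↔ ν (algebraMap S E' x) < 1 := Iff.rfl

theorem val_eq_one_of_not_mem_valCentre (hν : ∀ x : S, ν (algebraMap S E' x) ≤ 1) {x : S}
    (hx : x ∉ valCentre ν hν) : ν (algebraMap S E' x) = 1 :=
  le_antisymm (hν x) (not_lt.mp hx)

theorem valCentre_isPrime (hν : ∀ x : S, ν (algebraMap S E' x) ≤ 1) :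
    (valCentre ν hν).IsPrime := by
  refine ⟨fun h => ?_, fun {a b} hab => ?_⟩
  · have h1 : (1 : S) ∈ valCentre ν hν := by rw [h]; trivial
    rw [mem_valCentre, map_one, map_one] at h1
    exact lt_irrefl _ h1
  · by_contra hcon
    rw [not_or] at hcon
    rw [mem_valCentre, map_mul, map_mul, val_eq_one_of_not_mem_valCentre ν hν hcon.1,
      val_eq_one_of_not_mem_valCentre ν hν hcon.2, one_mul] at hab
    exact lt_irrefl _ hab

/-- in a Dedekind domain where `s` is a local generator, every nonzero element has valuation a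
power of `ν s`. -/
theorem exists_val_eq_pow (s : S) (hs : IsLocalGenerator s)
    (hν : ∀ x : S, ν (algebraMap S E' x) ≤ 1) (h0 : valCentre ν hν ≠ ⊥) (a : S) (ha : a ≠ 0) :
    ∃ i : ℕ, ν (algebraMap S E' a) = ν (algebraMap S E' s) ^ i := by
  set P := valCentre ν hν with hP
  haveI hPp : P.IsPrime := valCentre_isPrime ν hν
  obtain ⟨hsP, hgenP⟩ := hs P hPp h0
  let L := Localization.AtPrime P
  haveI : IsDiscreteValuationRing L :=
    IsLocalization.AtPrime.isDiscreteValuationRing_of_dedekind_domain S h0 L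
  -- `s` is a uniformizer of `L`
  have hmax : IsLocalRing.maximalIdeal L = Ideal.span {algebraMap S L s} := by
    rw [← Localization.AtPrime.map_eq_maximalIdeal]
    apply le_antisymm
    · rw [Ideal.map_le_iff_le_comap]
      intro x hx
      obtain ⟨t, ht, x', hx'⟩ := hgenP x hx
      rw [Ideal.mem_comap, Ideal.mem_span_singleton']
      refine ⟨IsLocalization.mk' L x' (⟨t, (show t ∈ P.primeCompl from ht)⟩ : P.primeCompl), ?_⟩
      rw [mul_comm, IsLocalization.mul_mk'_eq_mk'_of_mul, IsLocalization.mk'_eq_iff_eq_mul,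
        ← map_mul, ← hx', mul_comm]
    · rw [Ideal.span_le, Set.singleton_subset_iff]
      exact Ideal.mem_map_of_mem _ hsP
  have hirr : Irreducible (algebraMap S L s) :=
    (IsDiscreteValuationRing.irreducible_iff_uniformizer _).mpr hmax
  have hinj : Function.Injective (algebraMap S L) :=
    IsLocalization.injective L P.primeCompl_le_nonZeroDivisors
  have haL : algebraMap S L a ≠ 0 := (map_ne_zero_iff _ hinj).mpr ha
  obtain ⟨i, u, hu⟩ := IsDiscreteValuationRing.associated_pow_irreducible haL hirr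
  -- `u = c / t`
  obtain ⟨c, t, hct⟩ := IsLocalization.exists_mk'_eq P.primeCompl (u : L)
  have hc : c ∈ P.primeCompl := by
    rw [← IsLocalization.AtPrime.isUnit_mk'_iff L P c t, hct]
    exact u.isUnit
  -- `a * c = s ^ i * t` up to a factor outside `P`
  have h1 : algebraMap S L (a * c) = algebraMap S L (s ^ i * t) := by
    rw [map_mul, map_mul, map_pow, ← hu, mul_assoc]
    congr 1
    rw [← hct, mul_comm, IsLocalization.mk'_spec']
  have h2 : a * c = s ^ i * t := hinj h1
  refine ⟨i, ?_⟩
  have h3 := congrArg (fun z => ν (algebraMap S E' z)) h2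
  simp only [map_mul, map_pow] at h3
  rw [val_eq_one_of_not_mem_valCentre ν hν hc, val_eq_one_of_not_mem_valCentre ν hν t.2,
    mul_one, mul_one] at h3
  exact h3

/-- **(DOM)** `s` is a uniformizer for every valuation centred on `S` with `ν s < 1`. -/
theorem val_le_of_isLocalGenerator (s : S) (hs : IsLocalGenerator s)
    (hν : ∀ x : S, ν (algebraMap S E' x) ≤ 1) (hνs : ν (algebraMap S E' s) < 1)
    (hs0 : s ≠ 0) (τ : E') (hτ : ν τ < 1) : ν τ ≤ ν (algebraMap S E' s) := by
  by_cases hτ0 : τ = 0
  · rw [hτ0, map_zero]; exact zero_le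
  have hinj : Function.Injective (algebraMap S E') := IsFractionRing.injective S E'
  have h0 : valCentre ν hν ≠ ⊥ := by
    intro h
    have : s ∈ valCentre ν hν := hνs
    rw [h, Ideal.mem_bot] at this
    exact hs0 this
  obtain ⟨a, b, hb, rfl⟩ := IsFractionRing.div_surjective (A := S) τ
  have hb0 : b ≠ 0 := nonZeroDivisors.ne_zero hb
  have ha0 : a ≠ 0 := by
    rintro rfl
    rw [map_zero, zero_div] at hτ0
    exact hτ0 rfl
  obtain ⟨i, hi⟩ := exists_val_eq_pow ν s hs hν h0 a ha0
  obtain ⟨j, hj⟩ := exists_val_eq_pow ν s hs hν h0 b hb0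
  have hs' : ν (algebraMap S E' s) ≠ 0 := by
    rw [Ne, map_eq_zero, map_eq_zero_iff _ hinj]
    exact hs0
  rw [map_div₀, hi, hj] at hτ ⊢
  have hij : j < i := by
    by_contra hcon
    rw [not_lt] at hcon
    have h1 : ν (algebraMap S E' s) ^ j ≤ ν (algebraMap S E' s) ^ i :=
      pow_le_pow_of_le_one zero_le hνs.le hcon
    have h2 : (1 : Γ₀) ≤ ν (algebraMap S E' s) ^ i / ν (algebraMap S E' s) ^ j := by
      rw [le_div_iff₀ (pow_pos (zero_lt_iff.mpr hs') j), one_mul]
      exact h1
    exact not_le.mpr hτ h2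
  obtain ⟨d, rfl⟩ : ∃ d, i = j + 1 + d := ⟨i - (j + 1), by omega⟩
  rw [pow_add, pow_add, pow_one, mul_assoc, mul_div_cancel_left₀ _ (pow_ne_zero j hs')]
  exact mul_le_of_le_one_right zero_le (pow_le_one₀ zero_le hνs.le)

end Dom

end Fermat.Agent.JA
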