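/-
J-A package ABH+EBC — helper4.
(ER) étale roots: if `O` is a DVR, `ε` a unit, `e` invertible in `O` and `y ^ e = ε` in a field
`E' ⊇ O`, then `O[y]` is a Dedekind domain, finite over `O`, in which a uniformizer of `O`
generates every maximal ideal locally.
-/
import Fermat.Agent.JA.ABH_helper4_Eis

set_option autoImplicit false
set_option linter.style.haveILetI false
set_option linter.unusedSectionVars false

open Polynomial

namespace Fermat.Agent.JA

section StdEtale

variable {O : Type*} [CommRing O]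

/-- the standard étale pair `(X ^ e - ε, 1)`. -/
noncomputable def kummerPair (ε : Oˣ) (e : ℕ) (he0 : 0 < e) (he : IsUnit (e : O)) :
    StandardEtalePair O where
  f := X ^ e - C (ε : O)
  monic_f := monic_X_pow_sub_C _ he0.ne'
  g := 1
  cond := by
    refine ⟨C ((he.unit⁻¹ : Oˣ) * (ε⁻¹ : Oˣ) : O) * X, - C ((ε⁻¹ : Oˣ) : O), 0, ?_⟩
    have h1 : derivative (X ^ e - C (ε : O)) = C (e : O) * X ^ (e - 1) := by
      rw [derivative_sub, derivative_C, sub_zero, derivative_X_pow]
    have h2 : (X : O[X]) ^ (e - 1) * X = X ^ e := by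
      rw [← pow_succ, Nat.sub_add_cancel he0]
    have h3 : (e : O) * ((he.unit⁻¹ : Oˣ) * (ε⁻¹ : Oˣ) : O) = ((ε⁻¹ : Oˣ) : O) := by
      rw [← mul_assoc]
      have : (e : O) * ((he.unit⁻¹ : Oˣ) : O) = 1 := by
        have := he.unit.mul_inv
        rwa [IsUnit.unit_spec] at this
      rw [this, one_mul]
    have h4 : C (ε : O) * C ((ε⁻¹ : Oˣ) : O) = 1 := by
      rw [← C_mul, Units.mul_inv, C_1]
    have key : C (e : O) * C ((he.unit⁻¹ : Oˣ) * (ε⁻¹ : Oˣ) : O) = C ((ε⁻¹ : Oˣ) : O) := by
      rw [← C_mul, h3]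
    rw [h1, pow_zero]
    calc C (e : O) * X ^ (e - 1) * (C ((he.unit⁻¹ : Oˣ) * (ε⁻¹ : Oˣ) : O) * X) +
          (X ^ e - C (ε : O)) * -C ((ε⁻¹ : Oˣ) : O)
        = (C (e : O) * C ((he.unit⁻¹ : Oˣ) * (ε⁻¹ : Oˣ) : O)) * (X ^ (e - 1) * X) -
          X ^ e * C ((ε⁻¹ : Oˣ) : O) + C (ε : O) * C ((ε⁻¹ : Oˣ) : O) := by ring
      _ = 1 := by rw [key, h2, h4]; ring

theorem kummerPair_finite (ε : Oˣ) (e : ℕ) (he0 : 0 < e) (he : IsUnit (e : O)) :
    Module.Finite O (kummerPair ε e he0 he).Ring := by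
  set P := kummerPair ε e he0 he with hP
  haveI : Module.Finite O (AdjoinRoot P.f) := P.monic_f.finite_adjoinRoot
  have hx : IsUnit (AdjoinRoot.mk P.f P.g) := by
    have : P.g = 1 := rfl
    rw [this, map_one]
    exact isUnit_one
  let e₂ := IsLocalization.atUnit (AdjoinRoot P.f) (Localization.Away (AdjoinRoot.mk P.f P.g))
    (AdjoinRoot.mk P.f P.g) hx
  haveI : Module.Finite O (Localization.Away (AdjoinRoot.mk P.f P.g)) :=
    Module.Finite.equiv (e₂.restrictScalars O).toLinearEquiv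
  exact Module.Finite.equiv P.equivAwayAdjoinRoot.symm.toLinearEquiv

end StdEtale

section ER

variable {O E' : Type*} [CommRing O] [IsDomain O] [IsDiscreteValuationRing O] [Field E']
  [Algebra O E']

/-- **(ER)** étale roots of units. -/
theorem exists_dedekind_of_root (hinj : Function.Injective (algebraMap O E'))
    (π₀ : O) (hπ₀ : Irreducible π₀) (ε : Oˣ) (e : ℕ) (he0 : 0 < e) (he : IsUnit (e : O))
    (y : E') (hy : y ^ e = algebraMap O E' ε) :
    ∃ D₀ : Subalgebra O E', y ∈ D₀ ∧ IsDedekindDomain D₀ ∧ Module.Finite O D₀ ∧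
      IsLocalGenerator (algebraMap O D₀ π₀) := by
  classical
  set P := kummerPair ε e he0 he with hP
  have hPf : P.f = X ^ e - C (ε : O) := rfl
  have hPg : P.g = 1 := rfl
  have hmap : P.HasMap y := by
    refine ⟨?_, ?_⟩
    · rw [hPf, map_sub, map_pow, aeval_X, aeval_C, hy, sub_self]
    · rw [hPg, map_one]; exact isUnit_one
  let ψ₀ : P.Ring →ₐ[O] E' := P.lift y hmap
  let D₀ : Subalgebra O E' := ψ₀.range
  haveI : Module.Finite O P.Ring := kummerPair_finite ε e he0 he
  haveI hfin : Module.Finite O D₀ :=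
    Module.Finite.of_surjective ψ₀.rangeRestrict.toLinearMap ψ₀.rangeRestrict_surjective
  haveI : Algebra.FormallyUnramified O D₀ :=
    .of_surjective ψ₀.rangeRestrict ψ₀.rangeRestrict_surjective
  haveI hded : IsDedekindDomain D₀ := isDedekindDomain.of_formallyUnramified O D₀
  have hyD : y ∈ D₀ := ⟨P.X, P.lift_X y hmap⟩
  refine ⟨D₀, hyD, hded, hfin, ?_⟩
  -- local generator
  have hinjD : Function.Injective (algebraMap O D₀) := by
    intro a b hab
    apply hinj
    exact congrArg (fun z : D₀ => (z : E')) hab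
  haveI : Algebra.IsIntegral O D₀ := Algebra.IsIntegral.of_finite O D₀
  haveI : Module.IsTorsionFree O D₀ := by
    rw [Module.isTorsionFree_iff_algebraMap_injective]
    exact hinjD
  intro Q hQ hQ0
  haveI := hQ
  have hcomap : Q.comap (algebraMap O D₀) = IsLocalRing.maximalIdeal O := by
    have h1 : Q.comap (algebraMap O D₀) ≠ ⊥ := Ideal.IsIntegral.comap_ne_bot O hQ0
    have h2 : (Q.comap (algebraMap O D₀)).IsPrime := Ideal.comap_isPrime _ _
    exact IsLocalRing.eq_maximalIdeal (h2.isMaximal h1)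
  have hπQ : algebraMap O D₀ π₀ ∈ Q := by
    rw [← Ideal.mem_comap, hcomap]
    exact hπ₀.not_isUnit
  refine ⟨hπQ, fun x hx => ?_⟩
  let L := Localization.AtPrime Q
  haveI : Algebra.FormallyUnramified D₀ L := .of_isLocalization Q.primeCompl
  haveI : Algebra.FormallyUnramified O L := .comp O D₀ L
  haveI : IsLocalHom (algebraMap O L) := by
    refine ⟨fun a ha => ?_⟩
    by_contra hna
    have h1 : a ∈ IsLocalRing.maximalIdeal O := hna
    rw [← hcomap, Ideal.mem_comap] at h1
    rw [IsScalarTower.algebraMap_apply O D₀ L] at ha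
    exact ((IsLocalization.AtPrime.isUnit_to_map_iff L Q _).mp ha) h1
  have hmax : (IsLocalRing.maximalIdeal O).map (algebraMap O L) = IsLocalRing.maximalIdeal L :=
    Algebra.FormallyUnramified.map_maximalIdeal
  rw [hπ₀.maximalIdeal_eq, Ideal.map_span, Set.image_singleton] at hmax
  have hxL : algebraMap D₀ L x ∈ IsLocalRing.maximalIdeal L := by
    rw [← Localization.AtPrime.map_eq_maximalIdeal]
    exact Ideal.mem_map_of_mem _ hx
  rw [← hmax, Ideal.mem_span_singleton'] at hxL
  obtain ⟨z, hz⟩ := hxL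
  obtain ⟨x', t, rfl⟩ := IsLocalization.exists_mk'_eq Q.primeCompl z
  have hinjL : Function.Injective (algebraMap D₀ L) :=
    IsLocalization.injective L Q.primeCompl_le_nonZeroDivisors
  refine ⟨t.1, t.2, x', ?_⟩
  apply hinjL
  rw [map_mul, map_mul, ← hz, IsScalarTower.algebraMap_apply O D₀ L]
  rw [mul_comm (IsLocalization.mk' L x' t), mul_left_comm, mul_comm _ (IsLocalization.mk' L x' t),
    IsLocalization.mk'_spec]

end ER

end Fermat.Agent.JA
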