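/-
J-A package ABH+EBC — helper4.
(ABH-loc) the local form of Abhyankar's lemma in Kummer form, in terms of valuations: if `O` is a
DVR with fraction field `E`, uniformizer `π₀`, `E' = E[s]` with `s ^ (m * e) = ε · π₀ ^ e`
(`ε` a unit, `e` invertible in `O`), then `s` is a uniformizer for every valuation of `E'` which is
`≤ 1` on `O` and `< 1` at `s`.
-/
import Fermat.Agent.JA.ABH_helper4_Etale
import Fermat.Agent.JA.ABH_helper4_Dom

set_option autoImplicit false
set_option linter.style.haveILetI false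
set_option linter.unusedSectionVars false

open Polynomial

namespace Fermat.Agent.JA

section Aux

variable {O E' Γ₀ : Type*} [CommRing O] [Field E'] [Algebra O E']
  [LinearOrderedCommGroupWithZero Γ₀] (ν : Valuation E' Γ₀)

/-- a valuation which is `≤ 1` on `O` is `≤ 1` on the elements integral over `O`. -/
theorem val_le_one_of_isIntegral (hνO : ∀ a : O, ν (algebraMap O E' a) ≤ 1) {x : E'}
    (hx : IsIntegral O x) : ν x ≤ 1 := by
  let g : O →+* ν.integer := (algebraMap O E').codRestrict ν.integer hνO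
  have hcomp : algebraMap O E' = (ν.integer.subtype).comp g := by
    ext a; rfl
  have hx' : (ν.integer.subtype).IsIntegralElem x := by
    have : (algebraMap O E').IsIntegralElem x := hx
    rw [hcomp] at this
    exact RingHom.IsIntegralElem.of_comp this
  exact (Valuation.integer.integers ν).mem_of_integral hx'

end Aux

section Frac

variable {O E E' : Type*} [CommRing O] [IsDomain O] [Field E] [Algebra O E] [IsFractionRing O E]
  [Field E'] [Algebra E E'] [Algebra O E'] [IsScalarTower O E E']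

/-- elements of `E[s]` are `O`-polynomials in `s` divided by nonzero elements of `O`. -/
theorem exists_aeval_eq_of_adjoin_eq_top (s : E') (hgen : Algebra.adjoin E {s} = ⊤) (z : E') :
    ∃ (q₀ : O[X]) (r : O), r ≠ 0 ∧ algebraMap O E' r * z = aeval s q₀ := by
  have hz : z ∈ Algebra.adjoin E {s} := by rw [hgen]; exact Algebra.mem_top
  rw [Algebra.adjoin_singleton_eq_range_aeval] at hz
  obtain ⟨q, rfl⟩ := hz
  obtain ⟨b, hbM, hb⟩ := IsLocalization.integerNormalization_spec (nonZeroDivisors O) q
  refine ⟨IsLocalization.integerNormalization (nonZeroDivisors O) q, b,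
    nonZeroDivisors.ne_zero hbM, ?_⟩
  have h1 := congrArg (aeval s) hb
  rw [aeval_map_algebraMap, Algebra.smul_def, Polynomial.algebraMap_apply, map_mul, aeval_C,
    ← IsScalarTower.algebraMap_apply O E E'] at h1
  rw [h1]
  rfl

end Frac

section AbhLocal

variable {O E E' Γ₀ : Type*} [CommRing O] [IsDomain O] [IsDiscreteValuationRing O] [Field E]
  [Algebra O E] [IsFractionRing O E] [Field E'] [Algebra E E'] [Algebra O E']
  [IsScalarTower O E E'] [LinearOrderedCommGroupWithZero Γ₀]

/-- **(ABH-loc)** -/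
theorem abh_local_val (π₀ : O) (hπ₀ : Irreducible π₀) (ε : Oˣ) (e m : ℕ) (he0 : 0 < e)
    (he : IsUnit (e : O)) (hm : 0 < m) (s : E')
    (hs : s ^ (m * e) = algebraMap O E' ((ε : O) * π₀ ^ e))
    (hgen : Algebra.adjoin E {s} = ⊤)
    (ν : Valuation E' Γ₀) (hνO : ∀ a : O, ν (algebraMap O E' a) ≤ 1) (hνs : ν s < 1)
    (τ : E') (hτ : ν τ < 1) : ν τ ≤ ν s := by
  classical
  have hinj : Function.Injective (algebraMap O E') := by
    rw [IsScalarTower.algebraMap_eq O E E']
    exact (algebraMap E E').injective.comp (IsFractionRing.injective O E)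
  have hπ0 : algebraMap O E' π₀ ≠ 0 := (map_ne_zero_iff _ hinj).mpr hπ₀.ne_zero
  -- the étale root `y`
  set y : E' := s ^ m / algebraMap O E' π₀ with hy
  have hye : y ^ e = algebraMap O E' ε := by
    rw [hy, div_pow, ← pow_mul, hs, map_mul, map_pow, mul_div_assoc,
      div_self (pow_ne_zero e hπ0), mul_one]
  have hsm : s ^ m = algebraMap O E' π₀ * y := by
    rw [hy, mul_div_cancel₀ _ hπ0]
  obtain ⟨D₀, hyD, hded, hfin, hgenD⟩ :=
    exists_dedekind_of_root hinj π₀ hπ₀ ε e he0 he y hye
  haveI := hded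
  haveI := hfin
  -- `y` is a unit of `D₀`
  have hε' : (algebraMap O E' ((ε⁻¹ : Oˣ) : O)) * algebraMap O E' ε = 1 := by
    rw [← map_mul, Units.inv_mul, map_one]
  let y' : D₀ := ⟨y, hyD⟩
  let yi : D₀ := y' ^ (e - 1) * algebraMap O D₀ ((ε⁻¹ : Oˣ) : O)
  have hyyi : y' * yi = 1 := by
    apply Subtype.ext
    show y * (y ^ (e - 1) * algebraMap O E' ((ε⁻¹ : Oˣ) : O)) = 1
    rw [← mul_assoc, ← pow_succ', Nat.sub_add_cancel he0, hye, mul_comm, hε']
  let u : D₀ˣ := ⟨y', yi, hyyi, by rw [mul_comm]; exact hyyi⟩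
  -- the ring `S₀ = D₀[s]`
  let S₀ : Subalgebra D₀ E' := Algebra.adjoin D₀ {s}
  have hsS : s ∈ S₀ := Algebra.subset_adjoin (Set.mem_singleton s)
  let s' : S₀ := ⟨s, hsS⟩
  have hgenS : Algebra.adjoin D₀ {s'} = ⊤ := by
    have h1 := Algebra.adjoin_adjoin_coe_preimage (R := D₀) (s := ({s} : Set E'))
    have h2 : ((↑) : S₀ → E') ⁻¹' {s} = {s'} := by
      ext z
      simp only [Set.mem_preimage, Set.mem_singleton_iff]
      exact ⟨fun h => Subtype.ext h, fun h => by rw [h]⟩
    rw [h2] at h1
    exact h1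
  have hs'm : s' ^ m = algebraMap D₀ S₀ (algebraMap O D₀ π₀ * u) := by
    apply Subtype.ext
    show s ^ m = algebraMap O E' π₀ * y
    exact hsm
  have hinjDS : Function.Injective (algebraMap D₀ S₀) := by
    intro a b hab
    apply Subtype.ext
    exact congrArg (fun z : S₀ => (z : E')) hab
  haveI : Module.IsTorsionFree D₀ S₀ := by
    rw [Module.isTorsionFree_iff_algebraMap_injective]
    exact hinjDS
  obtain ⟨hdedS, hgenS'⟩ := isDedekindDomain_of_pow_eq (algebraMap O D₀ π₀) u s' m hm hs'm hgenS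
    hgenD
  haveI := hdedS
  -- integrality over `O`
  haveI : Algebra.IsIntegral O D₀ := Algebra.IsIntegral.of_finite O D₀
  have hsint : IsIntegral D₀ s := by
    refine ⟨X ^ m - C (algebraMap O D₀ π₀ * u), monic_X_pow_sub_C _ hm.ne', ?_⟩
    rw [eval₂_sub, eval₂_X_pow, eval₂_C, sub_eq_zero]
    exact hsm
  have hintS : ∀ x : S₀, IsIntegral O (x : E') := by
    intro x
    have h1 : IsIntegral D₀ (x : E') := by
      have h2 : Algebra.adjoin D₀ {s} ≤ integralClosure D₀ E' :=
        Algebra.adjoin_le (Set.singleton_subset_iff.mpr hsint)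
      exact h2 x.2
    exact isIntegral_trans _ h1
  -- the fraction field
  have hinjS : Function.Injective (algebraMap S₀ E') := Subtype.val_injective
  haveI : FaithfulSMul S₀ E' := (faithfulSMul_iff_algebraMap_injective S₀ E').mpr hinjS
  haveI : IsFractionRing S₀ E' := IsFractionRing.of_field (R := S₀) E' (fun z => by
    obtain ⟨q₀, r, hr, hz⟩ := exists_aeval_eq_of_adjoin_eq_top (O := O) (E := E) s hgen z
    have hq : aeval s q₀ ∈ S₀ := by
      have h1 : aeval s q₀ = aeval s (q₀.map (algebraMap O D₀)) := by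
        rw [aeval_map_algebraMap]
      rw [h1]
      have : aeval s (q₀.map (algebraMap O D₀)) ∈ Algebra.adjoin D₀ {s} := by
        rw [Algebra.adjoin_singleton_eq_range_aeval]
        exact ⟨_, rfl⟩
      exact this
    have hrS : algebraMap O E' r ∈ S₀ := by
      have : algebraMap O E' r = algebraMap D₀ E' (algebraMap O D₀ r) := rfl
      rw [this]
      exact S₀.algebraMap_mem _
    refine ⟨⟨aeval s q₀, hq⟩, ⟨algebraMap O E' r, hrS⟩, ?_⟩
    show z = aeval s q₀ / algebraMap O E' r
    rw [eq_div_iff ((map_ne_zero_iff _ hinj).mpr hr), ← hz, mul_comm])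
  -- apply (DOM)
  have hνS : ∀ x : S₀, ν (algebraMap S₀ E' x) ≤ 1 := fun x =>
    val_le_one_of_isIntegral ν hνO (hintS x)
  have hs0 : s' ≠ 0 := by
    intro h
    have h1 : s = 0 := congrArg (fun z : S₀ => (z : E')) h
    rw [h1, zero_pow hm.ne'] at hsm
    have : y ≠ 0 := by
      intro hy0
      rw [hy0, zero_pow he0.ne'] at hye
      exact (map_ne_zero_iff _ hinj).mpr ε.ne_zero hye.symm
    exact (mul_ne_zero hπ0 this) hsm.symm
  exact val_le_of_isLocalGenerator ν s' hgenS' hνS hνs hs0 τ hτ

end AbhLocal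

end Fermat.Agent.JA
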