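/-
J-A programme, GEO (lead): the valuation-subring currency.

All geometric statements of the J-A programme about ramification of a finite extension `E / K`
of function fields at a place are phrased with valuation subrings `𝒱` of `K` and the
Mathlib-native integral closure `integralClosure ↥𝒱 E` (all instances canonical).
-/
import Mathlib

set_option autoImplicit false

open Polynomial

namespace Fermat.Agent.JA

/-- `E / K` is unramified over the valuation subring `𝒱` of `K`. -/
def Unr {K : Type*} [Field K] (𝒱 : ValuationSubring K) (E : Type*) [Field E] [Algebra K E] :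
    Prop :=
  Algebra.FormallyUnramified ↥𝒱 ↥(integralClosure ↥𝒱 E)

/-- All ramification indices of `E / K` over `𝒱` divide `n`. -/
def TameAt {K : Type*} [Field K] (𝒱 : ValuationSubring K) (E : Type*) [Field E] [Algebra K E]
    (n : ℕ) : Prop :=
  ∀ Q : Ideal ↥(integralClosure ↥𝒱 E), Q.IsMaximal → Q.ramificationIdx ↥𝒱 ∣ n

/-- `𝒱` is the Gauss valuation subring of `K = Frac R[t]` with respect to the prime `π` of `R`:
it contains `R[t]`, `π` is a non-unit, and every polynomial in `t` not divisible by `π` is a
unit. -/
def IsGaussAt (R : Type*) [CommRing R] {K : Type*} [Field K] [Algebra R K] (π : R) (t : K)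
    (𝒱 : ValuationSubring K) : Prop :=
  (∀ f : R[X], aeval t f ∈ 𝒱) ∧ (algebraMap R K π)⁻¹ ∉ 𝒱 ∧
    ∀ f : R[X], ¬ (C π ∣ f) → (aeval t f)⁻¹ ∈ 𝒱

end Fermat.Agent.JA
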