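/-
J-A — helper6 — CHART-ADJ (i), (ii), (vi): the polynomial subring `R[t] ⊆ K` for `t` transcendental
over `K₁ = Frac R` is a polynomial ring, `Frac R[t] = K₁(t)`, and the Gauss valuation subring with
respect to `t` is also Gauss with respect to `t⁻¹`.
-/
import Mathlib
import Fermat.Agent.JA.GEO_lead_Spec

set_option autoImplicit false
set_option linter.unusedSectionVars false
set_option linter.style.haveILetI false

open Polynomial

namespace Fermat.Agent.JA

section ChartAdj

variable {R : Type*} [CommRing R] [IsDomain R] {K₁ : Type*} [Field K₁] [Algebra R K₁]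
  [IsFractionRing R K₁] {K : Type*} [Field K] [Algebra K₁ K] [Algebra R K] [IsScalarTower R K₁ K]

omit [IsDomain R] [IsFractionRing R K₁] [Algebra K₁ K] [IsScalarTower R K₁ K] in
/-- the coercion of a polynomial expression in the generator of `R[t]` -/
theorem coe_aeval_adjoin_gen (t : K) (p : R[X]) :
    ((Polynomial.aeval (⟨t, Algebra.self_mem_adjoin_singleton R t⟩ : ↥(Algebra.adjoin R {t})) p :
      ↥(Algebra.adjoin R {t})) : K) = Polynomial.aeval t p := by
  have := Polynomial.aeval_algHom_apply (Algebra.adjoin R {t}).val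
    (⟨t, Algebra.self_mem_adjoin_singleton R t⟩ : ↥(Algebra.adjoin R {t})) p
  exact this.symm

/-- **CHART-ADJ (i)**: `R[X] ≃ R[t]` for `t` transcendental over `K₁ = Frac R`. -/
theorem aeval_adjoin_bijective (t : K) (ht : Transcendental K₁ t) :
    Function.Bijective
      (Polynomial.aeval (⟨t, Algebra.self_mem_adjoin_singleton R t⟩ : ↥(Algebra.adjoin R {t})) :
        R[X] →ₐ[R] ↥(Algebra.adjoin R {t})) := by
  have htR : Transcendental R t := ht.restrictScalars (IsFractionRing.injective R K₁)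
  constructor
  · intro p q hpq
    have h := congrArg (fun x : ↥(Algebra.adjoin R {t}) => (x : K)) hpq
    simp only [coe_aeval_adjoin_gen] at h
    exact (transcendental_iff_injective.1 htR) h
  · intro x
    have hx : (x : K) ∈ (Polynomial.aeval t : R[X] →ₐ[R] K).range := by
      rw [← Algebra.adjoin_singleton_eq_range_aeval]; exact x.2
    obtain ⟨p, hp⟩ := hx
    refine ⟨p, Subtype.ext ?_⟩
    rw [coe_aeval_adjoin_gen]
    exact hp

/-- a polynomial over `K₁ = Frac R`, evaluated at `t`, is a fraction with numerator in `R[t]` and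
denominator in `R` -/
theorem exists_algebraMap_mul_aeval_eq_aeval (t : K) (r : K₁[X]) :
    ∃ b : R, b ≠ 0 ∧ ∃ r' : R[X], algebraMap R K b * aeval t r = aeval t r' := by
  obtain ⟨b, hb, hb'⟩ := IsLocalization.integerNormalization_spec (nonZeroDivisors R) r
  refine ⟨b, nonZeroDivisors.ne_zero hb, IsLocalization.integerNormalization (nonZeroDivisors R) r,
    ?_⟩
  have h1 := congrArg (aeval t) hb'
  rw [aeval_map_algebraMap] at h1
  rw [h1, Algebra.smul_def, map_mul]
  congr 1
  rw [Polynomial.algebraMap_apply, aeval_C, ← IsScalarTower.algebraMap_apply]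

/-- **CHART-ADJ (ii)**: `K = K₁(t)` is the fraction field of `R[t]`. -/
theorem isFractionRing_adjoin (t : K) (hK : IntermediateField.adjoin K₁ {t} = ⊤) :
    IsFractionRing ↥(Algebra.adjoin R {t}) K := by
  have hinj : Function.Injective (algebraMap R K) := by
    rw [IsScalarTower.algebraMap_eq R K₁ K]
    exact (algebraMap K₁ K).injective.comp (IsFractionRing.injective R K₁)
  haveI : FaithfulSMul ↥(Algebra.adjoin R {t}) K :=
    (faithfulSMul_iff_algebraMap_injective _ _).2 Subtype.val_injective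
  refine IsFractionRing.of_field _ _ (fun z => ?_)
  have hz : z ∈ IntermediateField.adjoin K₁ {t} := by rw [hK]; trivial
  obtain ⟨r, s, rfl⟩ := (IntermediateField.mem_adjoin_simple_iff K₁ z).1 hz
  obtain ⟨b, hb, r', hr'⟩ := exists_algebraMap_mul_aeval_eq_aeval (R := R) t r
  obtain ⟨c, hc, s', hs'⟩ := exists_algebraMap_mul_aeval_eq_aeval (R := R) t s
  have hbK : algebraMap R K b ≠ 0 := (map_ne_zero_iff _ hinj).2 hb
  have hcK : algebraMap R K c ≠ 0 := (map_ne_zero_iff _ hinj).2 hc
  have hr'm : aeval t r' ∈ Algebra.adjoin R {t} := by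
    rw [Algebra.adjoin_singleton_eq_range_aeval]; exact ⟨r', rfl⟩
  have hs'm : aeval t s' ∈ Algebra.adjoin R {t} := by
    rw [Algebra.adjoin_singleton_eq_range_aeval]; exact ⟨s', rfl⟩
  refine ⟨algebraMap R ↥(Algebra.adjoin R {t}) c * ⟨aeval t r', hr'm⟩,
    algebraMap R ↥(Algebra.adjoin R {t}) b * ⟨aeval t s', hs'm⟩, ?_⟩
  show aeval t r / aeval t s =
    (algebraMap R K c * aeval t r') / (algebraMap R K b * aeval t s')
  rw [← hr', ← hs']
  by_cases hs0 : aeval t s = 0
  · rw [hs0, div_zero, mul_zero, mul_zero, div_zero]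
  · field_simp

end ChartAdj

section GaussInv

variable {R : Type*} [CommRing R] {K : Type*} [Field K] [Algebra R K]

theorem C_dvd_reflect_iff (N : ℕ) (r : R) (f : R[X]) : C r ∣ reflect N f ↔ C r ∣ f := by
  rw [C_dvd_iff_dvd_coeff, C_dvd_iff_dvd_coeff]
  constructor
  · intro h i
    have := h (revAt N i)
    rwa [coeff_reflect, revAt_invol] at this
  · intro h i
    rw [coeff_reflect]
    exact h _

theorem aeval_inv_eq_aeval_reflect_mul (t : K) (ht : t ≠ 0) (f : R[X]) :
    aeval t⁻¹ f = aeval t (reflect f.natDegree f) * (t⁻¹) ^ f.natDegree := by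
  haveI : Invertible t⁻¹ := invertibleOfNonzero (inv_ne_zero ht)
  have h := eval₂_reflect_mul_pow (algebraMap R K) t⁻¹ f.natDegree f le_rfl
  rw [invOf_eq_inv, inv_inv] at h
  rw [aeval_def, aeval_def, h]

/-- **CHART-ADJ (vi)**: the Gauss valuation subring for `t` is the Gauss valuation subring for
`t⁻¹`. -/
theorem isGaussAt_inv (π : R) (hπ : Prime π) (t : K) (𝒱 : ValuationSubring K)
    (h : IsGaussAt R π t 𝒱) : IsGaussAt R π t⁻¹ 𝒱 := by
  obtain ⟨h1, h2, h3⟩ := h
  have htmem : t ∈ 𝒱 := by simpa using h1 X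
  have hXndvd : ¬ (C π ∣ (X : R[X])) := by
    intro hd
    rw [C_dvd_iff_dvd_coeff] at hd
    have := hd 1
    rw [coeff_X_one] at this
    exact hπ.not_isUnit (isUnit_of_dvd_one this)
  have htinv : t⁻¹ ∈ 𝒱 := by simpa using h3 X hXndvd
  have hcoef : ∀ r : R, algebraMap R K r ∈ 𝒱 := fun r => by simpa using h1 (C r)
  refine ⟨fun f => ?_, h2, fun f hf => ?_⟩
  · rw [aeval_eq_sum_range]
    refine Subring.sum_mem 𝒱.toSubring (fun i _ => ?_)
    rw [Algebra.smul_def]
    exact 𝒱.mul_mem _ _ (hcoef _) (pow_mem htinv i)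
  · by_cases ht : t = 0
    · rw [ht, inv_zero] at htinv ⊢
      rw [← ht]
      rw [ht]
      have := h3 f hf
      rwa [ht] at this
    · rw [aeval_inv_eq_aeval_reflect_mul t ht, mul_inv, ← inv_pow, inv_inv]
      exact 𝒱.mul_mem _ _ (h3 _ (fun hd => hf ((C_dvd_reflect_iff _ _ _).1 hd))) (pow_mem htmem _)

end GaussInv

end Fermat.Agent.JA
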