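/-
J-A programme, package PUR (lead): the localisation of a UFD at a principal prime ideal is a DVR.
-/
import Mathlib

set_option autoImplicit false

namespace Fermat.Agent.JA

variable {A : Type*} [CommRing A] [IsDomain A] [UniqueFactorizationMonoid A]

/-- In the localisation of a UFD at `P = (p)`, every nonzero element is a unit times a power
of `p`. -/
theorem exists_associated_pow_of_localization {p : A} (hp : Prime p) (P : Ideal A) [P.IsPrime]
    (hP : P = Ideal.span {p}) (V : Type*) [CommRing V] [Algebra A V] [IsLocalization.AtPrime V P]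
    (x : V) (hx : x ≠ 0) : ∃ n : ℕ, Associated (algebraMap A V p ^ n) x := by
  obtain ⟨⟨a, s⟩, has⟩ := IsLocalization.surj P.primeCompl x
  have has' : x * algebraMap A V ↑s = algebraMap A V a := has
  have hinj : Function.Injective (algebraMap A V) :=
    IsLocalization.injective V (P.primeCompl_le_nonZeroDivisors)
  have hsu : IsUnit (algebraMap A V ↑s) := IsLocalization.map_units V s
  have ha : a ≠ 0 := by
    rintro rfl
    rw [map_zero] at has'
    exact hx ((hsu.mul_left_eq_zero).mp has')
  obtain ⟨n, a₁, hna, hn⟩ := WfDvdMonoid.max_power_factor' ha hp.not_isUnit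
  have ha₁ : IsUnit (algebraMap A V a₁) := by
    rw [IsLocalization.AtPrime.isUnit_to_map_iff V P]
    intro hmem
    rw [hP] at hmem
    exact hna (Ideal.mem_span_singleton.mp hmem)
  obtain ⟨u, hu⟩ := ha₁
  obtain ⟨v, hv⟩ := hsu
  refine ⟨n, u * v⁻¹, ?_⟩
  have h1 : x = algebraMap A V a * ↑v⁻¹ := by
    rw [← has', ← hv, mul_assoc, Units.mul_inv, mul_one]
  rw [h1, hn, map_mul, map_pow, ← hu, Units.val_mul]
  ring

/-- The localisation of a UFD at a principal prime ideal is a discrete valuation ring. -/
theorem isDiscreteValuationRing_of_prime {p : A} (hp : Prime p) (P : Ideal A) [P.IsPrime]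
    (hP : P = Ideal.span {p}) (V : Type*) [CommRing V] [IsDomain V] [Algebra A V]
    [IsLocalization.AtPrime V P] : IsDiscreteValuationRing V := by
  have hfac := exists_associated_pow_of_localization hp P hP V
  have hinj : Function.Injective (algebraMap A V) :=
    IsLocalization.injective V (P.primeCompl_le_nonZeroDivisors)
  set q := algebraMap A V p with hq
  have hq0 : q ≠ 0 := by
    rw [hq, Ne, map_eq_zero_iff _ hinj]; exact hp.ne_zero
  have hqnu : ¬ IsUnit q := by
    rw [hq, IsLocalization.AtPrime.isUnit_to_map_iff V P]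
    intro h
    apply h
    rw [hP]
    exact Ideal.mem_span_singleton_self p
  apply IsDiscreteValuationRing.ofHasUnitMulPowIrreducibleFactorization
  refine ⟨q, ⟨hqnu, ?_⟩, fun {x} hx => hfac x hx⟩
  intro a b hab
  have ha0 : a ≠ 0 := by rintro rfl; rw [zero_mul] at hab; exact hq0 hab
  have hb0 : b ≠ 0 := by rintro rfl; rw [mul_zero] at hab; exact hq0 hab
  obtain ⟨m, u, hm⟩ := hfac a ha0
  obtain ⟨n, v, hn⟩ := hfac b hb0
  rcases Nat.eq_zero_or_pos m with rfl | hmpos
  · left
    rw [pow_zero, one_mul] at hm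
    exact hm ▸ u.isUnit
  rcases Nat.eq_zero_or_pos n with rfl | hnpos
  · right
    rw [pow_zero, one_mul] at hn
    exact hn ▸ v.isUnit
  exfalso
  -- `q = q ^ (m+n) * unit` with `m + n ≥ 2`
  have h1 : q * 1 = q * (q ^ (m + n - 1) * (↑u * ↑v)) := by
    have h2 : q ^ (m + n) = q * q ^ (m + n - 1) := by
      rw [← pow_succ']; congr 1; omega
    rw [mul_one, ← mul_assoc, ← h2, pow_add]
    calc q = a * b := hab
      _ = (q ^ m * ↑u) * (q ^ n * ↑v) := by rw [hm, hn]
      _ = q ^ m * q ^ n * (↑u * ↑v) := by ring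
  have h3 := mul_left_cancel₀ hq0 h1
  have h4 : IsUnit (q ^ (m + n - 1)) := by
    exact IsUnit.of_mul_eq_one (↑u * ↑v) h3.symm
  have h5 : m + n - 1 ≠ 0 := by omega
  exact hqnu ((isUnit_pow_iff h5).mp h4)

end Fermat.Agent.JA
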