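/-
J-A programme, GEO (lead): the valuation subring of `K = Frac A` attached to a prime element `p`
of a UFD `A`, and its identification with the localisation `A_(p)`.
-/
import Mathlib
import Fermat.Agent.JA.PUR_lead_DVR

set_option autoImplicit false

namespace Fermat.Agent.JA

section Def

variable {A : Type*} [CommRing A] [IsDomain A] [UniqueFactorizationMonoid A]
  (K : Type*) [Field K] [Algebra A K] [IsFractionRing A K]

/-- The valuation subring of `K = Frac A` attached to the prime element `p` of the UFD `A`: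
fractions `a / b` with `p ∤ b`. -/
def primeValSubring {p : A} (hp : Prime p) : ValuationSubring K where
  carrier := {x | ∃ a b : A, ¬ p ∣ b ∧ x * algebraMap A K b = algebraMap A K a}
  mul_mem' := by
    rintro x y ⟨a, b, hb, hx⟩ ⟨a', b', hb', hy⟩
    refine ⟨a * a', b * b', fun h => (hp.dvd_or_dvd h).elim hb hb', ?_⟩
    rw [map_mul, map_mul, ← hx, ← hy]; ring
  one_mem' := ⟨1, 1, fun h => hp.not_isUnit (isUnit_of_dvd_one h), by simp⟩
  add_mem' := by
    rintro x y ⟨a, b, hb, hx⟩ ⟨a', b', hb', hy⟩
    refine ⟨a * b' + a' * b, b * b', fun h => (hp.dvd_or_dvd h).elim hb hb', ?_⟩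
    rw [map_mul, map_add, map_mul, map_mul, ← hx, ← hy]; ring
  zero_mem' := ⟨0, 1, fun h => hp.not_isUnit (isUnit_of_dvd_one h), by simp⟩
  neg_mem' := by
    rintro x ⟨a, b, hb, hx⟩
    exact ⟨-a, b, hb, by rw [map_neg, ← hx]; ring⟩
  mem_or_inv_mem' := by
    intro x
    obtain ⟨a, b, hb0, rfl⟩ := IsFractionRing.div_surjective (A := A) x
    have hb0' : b ≠ 0 := nonZeroDivisors.ne_zero hb0
    have hbK : algebraMap A K b ≠ 0 := by
      rwa [Ne, map_eq_zero_iff _ (IsFractionRing.injective A K)]
    by_cases ha0 : a = 0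
    · left
      exact ⟨0, 1, fun h => hp.not_isUnit (isUnit_of_dvd_one h), by simp [ha0]⟩
    have haK : algebraMap A K a ≠ 0 := by
      rwa [Ne, map_eq_zero_iff _ (IsFractionRing.injective A K)]
    obtain ⟨i, a', ha', hi⟩ := WfDvdMonoid.max_power_factor' ha0 hp.not_isUnit
    obtain ⟨j, b', hb', hj⟩ := WfDvdMonoid.max_power_factor' hb0' hp.not_isUnit
    have hpK : algebraMap A K p ≠ 0 := by
      rw [Ne, map_eq_zero_iff _ (IsFractionRing.injective A K)]; exact hp.ne_zero
    rcases le_total j i with hji | hij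
    · left
      refine ⟨p ^ (i - j) * a', b', hb', ?_⟩
      obtain ⟨d, rfl⟩ := Nat.exists_eq_add_of_le hji
      rw [Nat.add_sub_cancel_left, div_mul_eq_mul_div, div_eq_iff hbK, hi, hj]
      simp only [map_mul, map_pow]
      ring
    · right
      refine ⟨p ^ (j - i) * b', a', ha', ?_⟩
      obtain ⟨d, rfl⟩ := Nat.exists_eq_add_of_le hij
      rw [Nat.add_sub_cancel_left, inv_div, div_mul_eq_mul_div, div_eq_iff haK, hi, hj]
      simp only [map_mul, map_pow]
      ring

variable {K}

theorem mem_primeValSubring_iff {p : A} (hp : Prime p) (x : K) :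
    x ∈ primeValSubring K hp ↔
      ∃ a b : A, ¬ p ∣ b ∧ x * algebraMap A K b = algebraMap A K a := Iff.rfl

theorem algebraMap_mem_primeValSubring {p : A} (hp : Prime p) (a : A) :
    algebraMap A K a ∈ primeValSubring K hp :=
  ⟨a, 1, fun h => hp.not_isUnit (isUnit_of_dvd_one h), by simp⟩

theorem inv_algebraMap_mem_primeValSubring {p : A} (hp : Prime p) {b : A} (hb : ¬ p ∣ b) :
    (algebraMap A K b)⁻¹ ∈ primeValSubring K hp := by
  have hb0 : b ≠ 0 := by rintro rfl; exact hb (dvd_zero p)
  have hbK : algebraMap A K b ≠ 0 := by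
    rwa [Ne, map_eq_zero_iff _ (IsFractionRing.injective A K)]
  exact ⟨1, b, hb, by rw [inv_mul_cancel₀ hbK, map_one]⟩

/-- Elements of `A` divisible by `p` are non-units of the valuation subring. -/
theorem inv_algebraMap_not_mem_primeValSubring {p : A} (hp : Prime p) {a : A} (ha0 : a ≠ 0)
    (ha : p ∣ a) : (algebraMap A K a)⁻¹ ∉ primeValSubring K hp := by
  rintro ⟨c, b, hb, h⟩
  have haK : algebraMap A K a ≠ 0 := by
    rwa [Ne, map_eq_zero_iff _ (IsFractionRing.injective A K)]
  have h1 : algebraMap A K b = algebraMap A K (a * c) := by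
    rw [map_mul, ← h]; field_simp
  have h2 : b = a * c := IsFractionRing.injective A K h1
  exact hb (h2 ▸ Dvd.dvd.mul_right ha c)

theorem primeValSubring_ne_top {p : A} (hp : Prime p) : primeValSubring K hp ≠ ⊤ := by
  intro h
  have : (algebraMap A K p)⁻¹ ∈ primeValSubring K hp := by rw [h]; trivial
  exact inv_algebraMap_not_mem_primeValSubring hp hp.ne_zero dvd_rfl this

end Def

section Loc

variable {A : Type*} [CommRing A] [IsDomain A] [UniqueFactorizationMonoid A]
  {K : Type*} [Field K] [Algebra A K] [IsFractionRing A K]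

/-- The algebra structure `A → 𝒱_p`. -/
@[reducible] def primeValSubringAlgebra {p : A} (hp : Prime p) :
    Algebra A ↥(primeValSubring K hp) :=
  ((algebraMap A K).codRestrict (primeValSubring K hp).toSubring
    (fun a => algebraMap_mem_primeValSubring hp a)).toAlgebra

theorem primeValSubring_isScalarTower {p : A} (hp : Prime p) :
    letI := primeValSubringAlgebra (K := K) hp
    IsScalarTower A ↥(primeValSubring K hp) K :=
  letI := primeValSubringAlgebra (K := K) hp
  IsScalarTower.of_algebraMap_eq (fun _ => rfl)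

theorem primeValSubring_isLocalization {p : A} (hp : Prime p) (P : Ideal A) [P.IsPrime]
    (hP : P = Ideal.span {p}) :
    letI := primeValSubringAlgebra (K := K) hp
    IsLocalization.AtPrime ↥(primeValSubring K hp) P := by
  letI := primeValSubringAlgebra (K := K) hp
  have hmem : ∀ b : A, b ∈ P.primeCompl ↔ ¬ p ∣ b := by
    intro b
    rw [Ideal.mem_primeCompl_iff, hP, Ideal.mem_span_singleton]
  refine ⟨⟨?_, ?_, ?_⟩⟩
  · rintro ⟨b, hb⟩
    have hb' : ¬ p ∣ b := (hmem b).mp hb
    have hb0 : b ≠ 0 := by rintro rfl; exact hb' (dvd_zero p)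
    have hbK : algebraMap A K b ≠ 0 := by
      rwa [Ne, map_eq_zero_iff _ (IsFractionRing.injective A K)]
    refine isUnit_iff_exists_inv.mpr ⟨⟨(algebraMap A K b)⁻¹,
      inv_algebraMap_mem_primeValSubring hp hb'⟩, ?_⟩
    apply Subtype.ext
    change algebraMap A K b * (algebraMap A K b)⁻¹ = 1
    exact mul_inv_cancel₀ hbK
  · rintro ⟨x, a, b, hb, hx⟩
    refine ⟨(a, ⟨b, (hmem b).mpr hb⟩), ?_⟩
    apply Subtype.ext
    exact hx
  · intro a b hab
    have h1 : algebraMap A K a = algebraMap A K b := congrArg Subtype.val hab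
    have h2 : a = b := IsFractionRing.injective A K h1
    exact ⟨1, by rw [h2]⟩

theorem isDiscreteValuationRing_primeValSubring {p : A} (hp : Prime p) :
    IsDiscreteValuationRing ↥(primeValSubring K hp) := by
  have hP : (Ideal.span {p}).IsPrime := (Ideal.span_singleton_prime hp.ne_zero).mpr hp
  let _ := primeValSubringAlgebra (K := K) hp
  have := primeValSubring_isLocalization (K := K) hp (Ideal.span {p}) rfl
  exact isDiscreteValuationRing_of_prime hp (Ideal.span {p}) rfl _

/-- `p` is a uniformizer of `𝒱_p`. -/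
theorem irreducible_primeValSubring {p : A} (hp : Prime p) :
    Irreducible (⟨algebraMap A K p, algebraMap_mem_primeValSubring hp p⟩ :
      ↥(primeValSubring K hp)) := by
  have hP : (Ideal.span {p}).IsPrime := (Ideal.span_singleton_prime hp.ne_zero).mpr hp
  let _ := primeValSubringAlgebra (K := K) hp
  have hloc := primeValSubring_isLocalization (K := K) hp (Ideal.span {p}) rfl
  have hdvr := isDiscreteValuationRing_primeValSubring (K := K) hp
  rw [IsDiscreteValuationRing.irreducible_iff_uniformizer,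
    ← IsLocalization.AtPrime.map_eq_maximalIdeal (Ideal.span {p}) ↥(primeValSubring K hp),
    Ideal.map_span, Set.image_singleton]
  rfl

/-- Uniqueness: a valuation subring containing `A` in which exactly the multiples of `p` are
non-units is `𝒱_p`. -/
theorem eq_primeValSubring {p : A} (hp : Prime p) (𝒱 : ValuationSubring K)
    (hA : ∀ a : A, algebraMap A K a ∈ 𝒱)
    (hu : ∀ b : A, ¬ p ∣ b → (algebraMap A K b)⁻¹ ∈ 𝒱)
    (hp𝒱 : (algebraMap A K p)⁻¹ ∉ 𝒱) : 𝒱 = primeValSubring K hp := by
  have hle : primeValSubring K hp ≤ 𝒱 := by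
    rintro x ⟨a, b, hb, hx⟩
    have hb0 : b ≠ 0 := by rintro rfl; exact hb (dvd_zero p)
    have hbK : algebraMap A K b ≠ 0 := by
      rwa [Ne, map_eq_zero_iff _ (IsFractionRing.injective A K)]
    have : x = algebraMap A K a * (algebraMap A K b)⁻¹ := by
      rw [← hx]; field_simp
    rw [this]
    exact 𝒱.mul_mem _ _ (hA a) (hu b hb)
  apply le_antisymm _ hle
  intro x hx
  by_contra hx'
  have hx0 : x ≠ 0 := by rintro rfl; exact hx' (primeValSubring K hp).zero_mem
  obtain ⟨a, b, hb, hab⟩ := ((primeValSubring K hp).mem_or_inv_mem x).resolve_left hx'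
  -- `x⁻¹ = a / b`, `p ∤ b`; `p ∣ a` since `x ∉ 𝒱_p`
  have hb0 : b ≠ 0 := by rintro rfl; exact hb (dvd_zero p)
  have hbK : algebraMap A K b ≠ 0 := by
    rwa [Ne, map_eq_zero_iff _ (IsFractionRing.injective A K)]
  have ha0 : a ≠ 0 := by
    rintro rfl
    rw [map_zero, mul_eq_zero] at hab
    rcases hab with h | h
    · exact hx0 (inv_eq_zero.mp h)
    · exact hbK h
  have haK : algebraMap A K a ≠ 0 := by
    rwa [Ne, map_eq_zero_iff _ (IsFractionRing.injective A K)]
  have hxab : x = algebraMap A K b * (algebraMap A K a)⁻¹ := by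
    have : x⁻¹ = algebraMap A K a * (algebraMap A K b)⁻¹ := by
      rw [← hab]; field_simp
    rw [← inv_inv x, this, mul_inv, inv_inv, mul_comm]
  have hpa : p ∣ a := by
    by_contra hpa
    apply hx'
    rw [hxab]
    exact (primeValSubring K hp).mul_mem _ _ (algebraMap_mem_primeValSubring hp b)
      (inv_algebraMap_mem_primeValSubring hp hpa)
  obtain ⟨i, a', ha', hi⟩ := WfDvdMonoid.max_power_factor' ha0 hp.not_isUnit
  have hi0 : i ≠ 0 := by
    rintro rfl
    rw [pow_zero, one_mul] at hi
    exact ha' (hi ▸ hpa)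
  have hpK : algebraMap A K p ≠ 0 := by
    rw [Ne, map_eq_zero_iff _ (IsFractionRing.injective A K)]; exact hp.ne_zero
  have ha'0 : a' ≠ 0 := by rintro rfl; exact ha' (dvd_zero p)
  have ha'K : algebraMap A K a' ≠ 0 := by
    rwa [Ne, map_eq_zero_iff _ (IsFractionRing.injective A K)]
  -- `p⁻¹ = p^(i-1) * a' * b⁻¹ * x ∈ 𝒱`
  apply hp𝒱
  have hpinv : (algebraMap A K p)⁻¹ =
      algebraMap A K (p ^ (i - 1) * a') * (algebraMap A K b)⁻¹ * x := by
    obtain ⟨k, rfl⟩ := Nat.exists_eq_succ_of_ne_zero hi0
    rw [hxab, hi, Nat.succ_sub_one]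
    simp only [map_mul, map_pow, pow_succ]
    field_simp
  rw [hpinv]
  exact 𝒱.mul_mem _ _ (𝒱.mul_mem _ _ (hA _) (hu b hb)) hx

theorem primeValSubring_eq_of_associated {p q : A} (hp : Prime p) (hq : Prime q)
    (h : Associated p q) : primeValSubring K hp = primeValSubring K hq := by
  apply eq_primeValSubring hq
  · exact fun a => algebraMap_mem_primeValSubring hp a
  · intro b hb
    exact inv_algebraMap_mem_primeValSubring hp (fun hpb => hb (h.symm.dvd.trans hpb))
  · exact inv_algebraMap_not_mem_primeValSubring hp hq.ne_zero h.dvd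

end Loc

end Fermat.Agent.JA
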