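/-
J-A programme, package PUR (lead): saturation lemma.

`A` integrally closed domain, `π ∈ A` prime, `a ∈ A` with `π ∤ a`.  If `π z` and `a z` are integral
over `A` (for `z` in a field extension of `Frac A`) then `z` is integral over `A`.  Consequence, in
the `(A, B)` form: if `B` is an integrally closed domain, integral over `A`, then `a • x ∈ π B`
implies `x ∈ π B`, i.e. `B / π B` is torsion-free over `A / π`.
-/
import Mathlib
import Fermat.Agent.Igusa.K_lead_Core

set_option autoImplicit false

open Polynomial

namespace Fermat.Agent.JA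

section Elem

variable {A : Type*} [CommRing A] [IsDomain A]
  {K : Type*} [Field K] [Algebra A K] [IsFractionRing A K]

/-- If `p` is prime, `p ∤ a`, and both `p ^ n * c` and `a ^ m * c` lie in `A`, then `c ∈ A`. -/
theorem mem_range_of_pow_mul_mem {p a : A} (hp : Prime p) (hpa : ¬ p ∣ a) (c : K) (n m : ℕ)
    (h1 : algebraMap A K p ^ n * c ∈ (algebraMap A K).range)
    (h2 : algebraMap A K a ^ m * c ∈ (algebraMap A K).range) :
    c ∈ (algebraMap A K).range := by
  obtain ⟨r, hr⟩ := h1
  obtain ⟨s, hs⟩ := h2
  have hinj : Function.Injective (algebraMap A K) := IsFractionRing.injective A K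
  have hrs : a ^ m * r = p ^ n * s := by
    apply hinj
    rw [map_mul, map_mul, map_pow, map_pow, hr, hs]
    ring
  have hpam : ¬ p ∣ a ^ m := fun h => hpa (hp.dvd_of_dvd_pow h)
  have hdvd : p ^ n ∣ r := hp.pow_dvd_of_dvd_mul_left n hpam ⟨s, hrs⟩
  obtain ⟨r', rfl⟩ := hdvd
  refine ⟨r', ?_⟩
  have hpn : algebraMap A K p ^ n ≠ 0 := by
    apply pow_ne_zero
    rw [Ne, map_eq_zero_iff _ hinj]
    exact hp.ne_zero
  apply mul_left_cancel₀ hpn
  rw [← hr, map_mul, map_pow]

end Elem

section Field

variable {A : Type*} [CommRing A] [IsDomain A] [IsIntegrallyClosed A]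
  (K : Type*) [Field K] [Algebra A K] [IsFractionRing A K]
  {L : Type*} [Field L] [Algebra A L] [Algebra K L] [IsScalarTower A K L]

include K in
/-- **Saturation, field form.** -/
theorem isIntegral_of_isIntegral_mul_mul {p a : A} (hp : Prime p) (hpa : ¬ p ∣ a) (z : L)
    (h1 : IsIntegral A (algebraMap A L p * z)) (h2 : IsIntegral A (algebraMap A L a * z)) :
    IsIntegral A z := by
  have hinj : Function.Injective (algebraMap A K) := IsFractionRing.injective A K
  have ha0 : a ≠ 0 := fun h => hpa (h ▸ dvd_zero p)
  have haK : algebraMap A K a ≠ 0 := by rwa [Ne, map_eq_zero_iff _ hinj]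
  have hpK : algebraMap A K p ≠ 0 := by
    rw [Ne, map_eq_zero_iff _ hinj]; exact hp.ne_zero
  have haF : algebraMap A L a = algebraMap K L (algebraMap A K a) :=
    IsScalarTower.algebraMap_apply A K L a
  have hzK : IsIntegral K z := by
    have h1 : z = algebraMap K L (algebraMap A K a)⁻¹ * (algebraMap A L a * z) := by
      rw [haF, ← mul_assoc, ← map_mul, inv_mul_cancel₀ haK, map_one, one_mul]
    rw [h1]
    exact isIntegral_algebraMap.mul h2.tower_top
  refine Fermat.Agent.Igusa.isIntegral_of_isIntegral_mul_of_coeff (K₀ := K) p hp.ne_zero z h1 ?_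
  intro i n hn
  -- the coefficient times a power of `a` is in `A`, by integrality of `a z`
  have hmin : minpoly K (algebraMap A L a * z) = (minpoly A (algebraMap A L a * z)).map
      (algebraMap A K) := minpoly.isIntegrallyClosed_eq_field_fractions' K h2
  have hscale := Fermat.Agent.Igusa.minpoly_mul_eq_scaleRoots (algebraMap A K a) haK z hzK
  rw [← haF, hmin] at hscale
  have h3 : algebraMap A K a ^ ((minpoly K z).natDegree - i) * (minpoly K z).coeff i ∈
      (algebraMap A K).range := by
    have := congrArg (fun q => q.coeff i) hscale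
    simp only [coeff_map, coeff_scaleRoots] at this
    rw [mul_comm, ← this]
    exact ⟨_, rfl⟩
  exact mem_range_of_pow_mul_mem hp hpa _ n _ hn h3

end Field

section Ring

variable {A : Type*} [CommRing A] [IsDomain A] [IsIntegrallyClosed A]
  {B : Type*} [CommRing B] [IsDomain B] [IsIntegrallyClosed B] [Algebra A B]
  [Algebra.IsIntegral A B] [Module.IsTorsionFree A B]

/-- **Saturation, ring form**: if `π` is prime in `A`, `π ∤ a` and `a • x ∈ π B`, then `x ∈ π B`. -/
theorem exists_eq_smul_of_smul_eq_smul {p a : A} (hp : Prime p) (hpa : ¬ p ∣ a) {x y : B}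
    (h : a • x = p • y) : ∃ c : B, x = p • c := by
  let K := FractionRing A
  let L := FractionRing B
  have hinjAB : Function.Injective (algebraMap A B) :=
    FaithfulSMul.algebraMap_injective A B
  have hinjBL : Function.Injective (algebraMap B L) := IsFractionRing.injective B L
  have hinjAL : Function.Injective (algebraMap A L) := by
    rw [IsScalarTower.algebraMap_eq A B L]
    exact hinjBL.comp hinjAB
  have : FaithfulSMul A L := (faithfulSMul_iff_algebraMap_injective A L).mpr hinjAL
  let _ : Algebra K L := FractionRing.liftAlgebra A L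
  have : IsScalarTower A K L := FractionRing.isScalarTower_liftAlgebra A L
  have hpL : algebraMap A L p ≠ 0 := by
    rw [Ne, map_eq_zero_iff _ hinjAL]; exact hp.ne_zero
  set z : L := algebraMap B L x / algebraMap A L p with hz
  have h1 : IsIntegral A (algebraMap A L p * z) := by
    rw [hz, mul_div_cancel₀ _ hpL]
    exact (Algebra.IsIntegral.isIntegral x).algebraMap
  have h2 : IsIntegral A (algebraMap A L a * z) := by
    have : algebraMap A L a * z = algebraMap B L y := by
      rw [hz, ← mul_div_assoc, div_eq_iff hpL]
      have := congrArg (algebraMap B L) h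
      rw [Algebra.smul_def, Algebra.smul_def, map_mul, map_mul,
        ← IsScalarTower.algebraMap_apply, ← IsScalarTower.algebraMap_apply] at this
      rw [this, mul_comm]
    rw [this]
    exact (Algebra.IsIntegral.isIntegral y).algebraMap
  have hzint : IsIntegral A z := isIntegral_of_isIntegral_mul_mul K hp hpa z h1 h2
  have hzB : IsIntegral B z := hzint.tower_top
  obtain ⟨c, hc⟩ := IsIntegrallyClosed.isIntegral_iff.mp hzB
  refine ⟨c, ?_⟩
  apply hinjBL
  rw [Algebra.smul_def, map_mul, ← IsScalarTower.algebraMap_apply, hc, hz,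
    mul_div_cancel₀ _ hpL]

end Ring

end Fermat.Agent.JA
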