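/-
J-A programme, package PUR (lead): reduction modulo a prime element `π` of `A`.

Setting: `A` a UFD, `B` an integrally closed domain, finite and torsion-free over `A`.
`Abar := A / π`, `Bbar := B / π B`.  We prove
* `Bbar` is torsion-free over `Abar` (so free if `Abar` is a PID),
* lifts of an `Abar`-linearly independent family are `A`-linearly independent,
* Nakayama: if the reductions of `e` span `Bbar`, some `a₀ ≡ 1 mod π` has `a₀ B ⊆ span e`.
-/
import Mathlib
import Fermat.Agent.JA.PUR_lead_Sat

set_option autoImplicit false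

open Module

namespace Fermat.Agent.JA

section Quot

variable (A B : Type*) [CommRing A] [CommRing B] [Algebra A B] (π : A)

/-- `A / π`. -/
abbrev Abar : Type _ := A ⧸ Ideal.span {π}

/-- `B / π B`. -/
abbrev Bbar : Type _ := B ⧸ (Ideal.span {π}).map (algebraMap A B)

variable {A B}

/-- reduction `A → A / π` -/
abbrev mkA : A →+* Abar A π := Ideal.Quotient.mk _

/-- reduction `B → B / π B` -/
abbrev mkB : B →+* Bbar A B π := Ideal.Quotient.mk _

theorem mkB_algebraMap (a : A) :
    mkB (A := A) π (algebraMap A B a) = algebraMap (Abar A π) (Bbar A B π) (mkA π a) := rfl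

theorem mkB_smul (a : A) (x : B) :
    mkB (A := A) π (a • x) = mkA π a • mkB (A := A) π x := by
  rw [Algebra.smul_def, map_mul, mkB_algebraMap, ← Algebra.smul_def]

theorem mkA_eq_zero_iff (a : A) : mkA π a = 0 ↔ π ∣ a := by
  rw [Ideal.Quotient.eq_zero_iff_mem, Ideal.mem_span_singleton]

theorem mkB_eq_zero_iff (x : B) : mkB (A := A) π x = 0 ↔ ∃ c : B, x = π • c := by
  rw [Ideal.Quotient.eq_zero_iff_mem, Ideal.map_span, Set.image_singleton,
    Ideal.mem_span_singleton]
  constructor
  · rintro ⟨c, rfl⟩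
    exact ⟨c, by rw [Algebra.smul_def]⟩
  · rintro ⟨c, rfl⟩
    exact ⟨c, by rw [Algebra.smul_def]⟩

instance finite_Bbar [Module.Finite A B] : Module.Finite (Abar A π) (Bbar A B π) := by
  haveI : Module.Finite A (Bbar A B π) :=
    Module.Finite.of_surjective (Ideal.Quotient.mkₐ A _).toLinearMap Ideal.Quotient.mk_surjective
  exact Module.Finite.of_restrictScalars_finite A _ _

end Quot

section TorsionFree

variable {A B : Type*} [CommRing A] [IsDomain A] [IsIntegrallyClosed A]
  [CommRing B] [IsDomain B] [IsIntegrallyClosed B] [Algebra A B]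
  [Algebra.IsIntegral A B] [Module.IsTorsionFree A B] {π : A}

/-- `B / π B` has no `A / π`-torsion. -/
theorem smul_eq_zero_Bbar (hπ : Prime π) (a : Abar A π) (x : Bbar A B π) (h : a • x = 0) :
    a = 0 ∨ x = 0 := by
  obtain ⟨a, rfl⟩ := Ideal.Quotient.mk_surjective a
  obtain ⟨x, rfl⟩ := Ideal.Quotient.mk_surjective x
  by_cases ha : π ∣ a
  · exact Or.inl ((mkA_eq_zero_iff π a).mpr ha)
  · right
    rw [← mkB_smul, mkB_eq_zero_iff] at h
    obtain ⟨y, hy⟩ := h
    rw [mkB_eq_zero_iff]
    exact exists_eq_smul_of_smul_eq_smul hπ ha hy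

end TorsionFree

end Fermat.Agent.JA

namespace Fermat.Agent.JA

section Lifts

variable {A B : Type*} [CommRing A] [IsDomain A] [WfDvdMonoid A]
  [CommRing B] [Algebra A B] [Module.IsTorsionFree A B] {π : A}
  {ι : Type*} [Fintype ι]

/-- If the reductions of `e` are `A/π`-linearly independent, every relation `∑ g i • e i = 0`
has all coefficients divisible by every power of `π`. -/
theorem pow_dvd_of_sum_smul_eq_zero (hπ : Prime π) (e : ι → B)
    (hli : LinearIndependent (Abar A π) (fun i => mkB (A := A) π (e i))) (m : ℕ) :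
    ∀ g : ι → A, ∑ i, g i • e i = 0 → ∀ i, π ^ m ∣ g i := by
  induction m with
  | zero => intro g _ i; simp
  | succ m ih =>
    intro g hg i
    -- reduce the relation mod π
    have h0 : ∑ i, mkA π (g i) • mkB (A := A) π (e i) = 0 := by
      have := congrArg (mkB (A := A) π) hg
      rw [map_sum, map_zero] at this
      rw [← this]
      exact Finset.sum_congr rfl fun i _ => (mkB_smul π (g i) (e i)).symm
    have h1 : ∀ i, π ∣ g i := fun i =>
      (mkA_eq_zero_iff π (g i)).mp (Fintype.linearIndependent_iff.mp hli _ h0 i)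
    choose g' hg' using h1
    have h2 : ∑ i, g' i • e i = 0 := by
      have : π • ∑ i, g' i • e i = 0 := by
        rw [Finset.smul_sum, ← hg]
        exact Finset.sum_congr rfl fun i _ => by rw [smul_smul, ← hg' i]
      exact (smul_eq_zero.mp this).resolve_left hπ.ne_zero
    rw [hg' i, pow_succ']
    exact mul_dvd_mul_left π (ih g' h2 i)

/-- Lifts of an `A/π`-linearly independent family are `A`-linearly independent. -/
theorem linearIndependent_of_mkB (hπ : Prime π) (e : ι → B)
    (hli : LinearIndependent (Abar A π) (fun i => mkB (A := A) π (e i))) :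
    LinearIndependent A e := by
  rw [Fintype.linearIndependent_iff]
  intro g hg i
  by_contra hgi
  obtain ⟨n, a, hna, hn⟩ := WfDvdMonoid.max_power_factor' hgi hπ.not_unit
  have hdvd := pow_dvd_of_sum_smul_eq_zero hπ e hli (n + 1) g hg i
  rw [hn, pow_succ] at hdvd
  exact hna ((mul_dvd_mul_iff_left (pow_ne_zero n hπ.ne_zero)).mp hdvd)

end Lifts

section Nakayama

variable {A B : Type*} [CommRing A] [CommRing B] [Algebra A B] [Module.Finite A B] {π : A}
  {ι : Type*} [Fintype ι]

/-- **Nakayama**: if the reductions of `e` span `B / π B` over `A / π`, then there is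
`a₀ ≡ 1 mod π` with `a₀ B ⊆ span_A e`. -/
theorem exists_smul_mem_span_of_mkB (e : ι → B)
    (hsp : ⊤ ≤ Submodule.span (Abar A π) (Set.range fun i => mkB (A := A) π (e i))) :
    ∃ a₀ : A, π ∣ a₀ - 1 ∧ ∀ x : B, ∃ c : ι → A, a₀ • x = ∑ i, c i • e i := by
  classical
  let N : Submodule A B := Submodule.span A (Set.range e)
  -- every x is congruent mod π B to an element of N
  have hx : ∀ x : B, ∃ n ∈ N, ∃ y : B, x = n + π • y := by
    intro x
    have hmem := hsp (Submodule.mem_top (x := mkB (A := A) π x))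
    obtain ⟨c, hc⟩ := (Submodule.mem_span_range_iff_exists_fun _).mp hmem
    choose c' hc' using fun i => Ideal.Quotient.mk_surjective (c i)
    have h0 : mkB (A := A) π (x - ∑ i, c' i • e i) = 0 := by
      rw [map_sub, map_sum, ← hc, sub_eq_zero]
      exact Finset.sum_congr rfl fun i _ => by rw [mkB_smul, hc' i]
    obtain ⟨y, hy⟩ := (mkB_eq_zero_iff π _).mp h0
    refine ⟨∑ i, c' i • e i, ?_, y, ?_⟩
    · exact Submodule.sum_mem _ fun i _ =>
        Submodule.smul_mem _ _ (Submodule.subset_span ⟨i, rfl⟩)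
    · rw [← hy]; ring
  -- Nakayama on B / N
  have hfg : (⊤ : Submodule A (B ⧸ N)).FG := Module.Finite.fg_top
  have hle : (⊤ : Submodule A (B ⧸ N)) ≤ (Ideal.span {π}) • (⊤ : Submodule A (B ⧸ N)) := by
    intro z _
    obtain ⟨x, rfl⟩ := Submodule.Quotient.mk_surjective N z
    obtain ⟨n, hn, y, rfl⟩ := hx x
    have : (Submodule.Quotient.mk (n + π • y) : B ⧸ N) = π • Submodule.Quotient.mk y := by
      rw [Submodule.Quotient.mk_add, (Submodule.Quotient.mk_eq_zero N).mpr hn, zero_add,
        Submodule.Quotient.mk_smul]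
    rw [this]
    exact Submodule.smul_mem_smul (Ideal.mem_span_singleton_self π) Submodule.mem_top
  obtain ⟨r, hr1, hr2⟩ :=
    Submodule.exists_sub_one_mem_and_smul_eq_zero_of_fg_of_le_smul _ _ hfg hle
  refine ⟨r, Ideal.mem_span_singleton.mp hr1, fun x => ?_⟩
  have h := hr2 (Submodule.Quotient.mk x) Submodule.mem_top
  rw [← Submodule.Quotient.mk_smul, Submodule.Quotient.mk_eq_zero] at h
  obtain ⟨c, hc⟩ := (Submodule.mem_span_range_iff_exists_fun _).mp h
  exact ⟨c, hc.symm⟩

end Nakayama

end Fermat.Agent.JA
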