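/-
J-A programme, package PUR (lead): trace compatibility with reduction mod `π`,
and the discriminant argument.

Setting: `A` a UFD, `B` an integrally closed domain, finite and torsion-free over `A`, `π ∈ A` prime.
`e : ι → B` a family whose reductions form a basis of `B / π B` over `A / π`.
* `trace_mkB` : `Tr_{(B/π)/(A/π)} (x mod π) = Tr_{B/A}(x) mod π`.
* `isUnit_mkA_det_intTrace` : if the trace form is non-degenerate at every prime element `p` of `A`
  with `(p, π) ≠ 1` (`TrNondeg`), the discriminant of `e` is a unit modulo `π`.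
-/
import Mathlib
import Fermat.Agent.JA.PUR_lead_Lift

set_option autoImplicit false

open Module

namespace Fermat.Agent.JA

section Trace

variable {A B : Type*} [CommRing A] [IsDomain A] [IsIntegrallyClosed A]
  [CommRing B] [IsDomain B] [IsIntegrallyClosed B] [Algebra A B]
  [Module.Finite A B] [Module.IsTorsionFree A B]
  {ι : Type*} [Fintype ι] [DecidableEq ι]

/-- If `e` is `A`-linearly independent, `a₀ B ⊆ span e`, and `M` is the matrix of `a₀ · (x ·)` in
terms of `e`, then `a₀ · Tr_{B/A}(x) = tr M`. -/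
theorem mul_intTrace_eq_trace (e : ι → B) (hli : LinearIndependent A e) (a₀ : A) (ha₀ : a₀ ≠ 0)
    (hsp : ∀ x : B, ∃ c : ι → A, a₀ • x = ∑ i, c i • e i)
    (x : B) (M : Matrix ι ι A) (hM : ∀ j, a₀ • (x * e j) = ∑ i, M i j • e i) :
    a₀ * Algebra.intTrace A B x = M.trace := by
  let K := FractionRing A
  let L := FractionRing B
  have hinjAB : Function.Injective (algebraMap A B) :=
    FaithfulSMul.algebraMap_injective A B
  have hinjBL : Function.Injective (algebraMap B L) := IsFractionRing.injective B L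
  have hinjAL : Function.Injective (algebraMap A L) := by
    rw [IsScalarTower.algebraMap_eq A B L]
    exact hinjBL.comp hinjAB
  have hinjAK : Function.Injective (algebraMap A K) := IsFractionRing.injective A K
  have : FaithfulSMul A L := (faithfulSMul_iff_algebraMap_injective A L).mpr hinjAL
  let _ : Algebra K L := FractionRing.liftAlgebra A L
  have : IsScalarTower A K L := FractionRing.isScalarTower_liftAlgebra A L
  have : Algebra.IsIntegral A B := Algebra.IsIntegral.of_finite A B
  have : IsIntegralClosure B A L := IsIntegralClosure.of_isIntegrallyClosed B A L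
  have hAB : Algebra.IsAlgebraic A B := Algebra.IsAlgebraic.of_finite A B
  have hAL : Algebra.IsAlgebraic A L := (IsFractionRing.isAlgebraic_iff' A B L).mp hAB
  have : Algebra.IsAlgebraic K L := IsFractionRing.comap_isAlgebraic_iff.mp hAL
  have hloc : IsLocalization (Algebra.algebraMapSubmonoid B (nonZeroDivisors A)) L :=
    IsIntegralClosure.isLocalization A K L B
  have ha₀K : algebraMap A K a₀ ≠ 0 := by rwa [Ne, map_eq_zero_iff _ hinjAK]
  -- `e` as a `K`-basis of `L`
  have heA : LinearIndependent A (fun i => algebraMap B L (e i)) := by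
    have := hli.map' (IsScalarTower.toAlgHom A B L).toLinearMap
      (LinearMap.ker_eq_bot.mpr hinjBL)
    exact this
  have heK : LinearIndependent K (fun i => algebraMap B L (e i)) :=
    (LinearIndependent.iff_fractionRing A K).mp heA
  have hspan : ⊤ ≤ Submodule.span K (Set.range fun i => algebraMap B L (e i)) := by
    intro z _
    obtain ⟨⟨y, s⟩, hys⟩ := IsLocalization.surj (Algebra.algebraMapSubmonoid B (nonZeroDivisors A)) z
    obtain ⟨s₀, hs₀, hs⟩ := s.2
    obtain ⟨c, hc⟩ := hsp y
    have hs₀0 : s₀ ≠ 0 := nonZeroDivisors.ne_zero hs₀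
    have hs₀K : algebraMap A K s₀ ≠ 0 := by rwa [Ne, map_eq_zero_iff _ hinjAK]
    have hz : z = (algebraMap A K s₀ * algebraMap A K a₀)⁻¹ •
        ∑ i, algebraMap A K (c i) • algebraMap B L (e i) := by
      have h1 : algebraMap B L (a₀ • y) = ∑ i, algebraMap A K (c i) • algebraMap B L (e i) := by
        rw [hc, map_sum]
        refine Finset.sum_congr rfl fun i _ => ?_
        rw [Algebra.smul_def, map_mul, ← IsScalarTower.algebraMap_apply,
          IsScalarTower.algebraMap_apply A K L, ← Algebra.smul_def]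
      have hzs : z * algebraMap K L (algebraMap A K s₀) = algebraMap B L y := by
        rw [← IsScalarTower.algebraMap_apply A K L, IsScalarTower.algebraMap_apply A B L, hs]
        exact hys
      have hy : algebraMap B L (a₀ • y) =
          algebraMap K L (algebraMap A K a₀) * algebraMap B L y := by
        rw [Algebra.smul_def, map_mul, ← IsScalarTower.algebraMap_apply,
          IsScalarTower.algebraMap_apply A K L]
      have h2 : algebraMap K L (algebraMap A K s₀) ≠ 0 := by
        rwa [Ne, map_eq_zero]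
      have h3 : algebraMap K L (algebraMap A K a₀) ≠ 0 := by
        rwa [Ne, map_eq_zero]
      rw [← h1, hy, ← hzs, Algebra.smul_def, map_inv₀, map_mul]
      rw [eq_comm, inv_mul_eq_iff_eq_mul₀ (mul_ne_zero h2 h3)]
      ring
    rw [hz]
    exact Submodule.smul_mem _ _ (Submodule.sum_mem _ fun i _ =>
      Submodule.smul_mem _ _ (Submodule.subset_span ⟨i, rfl⟩))
  let bK : Basis ι K L := Basis.mk heK hspan
  have hbK : ∀ i, bK i = algebraMap B L (e i) := fun i => by
    simp only [bK, Basis.mk_apply]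
  have : FiniteDimensional K L := Module.Finite.of_basis bK
  -- the matrix of multiplication by `x`
  have hmul : ∀ j, algebraMap B L x * bK j =
      ∑ i, (algebraMap A K (M i j) / algebraMap A K a₀) • bK i := by
    intro j
    have h1 := congrArg (algebraMap B L) (hM j)
    rw [Algebra.smul_def, map_mul, map_mul, ← IsScalarTower.algebraMap_apply,
      IsScalarTower.algebraMap_apply A K L, map_sum] at h1
    have h3 : algebraMap K L (algebraMap A K a₀) ≠ 0 := by
      rwa [Ne, map_eq_zero]
    rw [hbK j]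
    have h4 : algebraMap B L x * algebraMap B L (e j) =
        (algebraMap K L (algebraMap A K a₀))⁻¹ * ∑ i, algebraMap B L (M i j • e i) := by
      rw [← h1, ← mul_assoc, inv_mul_cancel₀ h3, one_mul]
    rw [h4, Finset.mul_sum]
    refine Finset.sum_congr rfl fun i _ => ?_
    rw [hbK i, Algebra.smul_def (M i j), map_mul, ← IsScalarTower.algebraMap_apply,
      IsScalarTower.algebraMap_apply A K L, Algebra.smul_def, map_div₀]
    rw [← IsScalarTower.algebraMap_apply A B L, IsScalarTower.algebraMap_apply A K L, div_eq_inv_mul]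
    ring
  have htr : Algebra.trace K L (algebraMap B L x) =
      algebraMap A K M.trace / algebraMap A K a₀ := by
    rw [Algebra.trace_eq_matrix_trace bK, Matrix.trace, Matrix.trace, map_sum, Finset.sum_div]
    refine Finset.sum_congr rfl fun i _ => ?_
    rw [Matrix.diag_apply, Algebra.leftMulMatrix_eq_repr_mul, hmul i, Basis.repr_sum_self,
      Matrix.diag_apply]
  apply hinjAK
  rw [map_mul, Algebra.algebraMap_intTrace (K := K) (L := L), htr, mul_div_cancel₀ _ ha₀K]

/-- **Trace compatibility**: `Tr_{(B/π)/(A/π)}(x mod π) = Tr_{B/A}(x) mod π`, given a basis of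
`B/π` that lifts to a family `e` with `a₀ B ⊆ span e`, `a₀ ≡ 1 mod π`. -/
theorem trace_mkB {π : A} (e : ι → B) (hli : LinearIndependent A e) (a₀ : A)
    (h1 : π ∣ a₀ - 1) (ha₀ : a₀ ≠ 0)
    (hsp : ∀ x : B, ∃ c : ι → A, a₀ • x = ∑ i, c i • e i)
    (bbar : Basis ι (Abar A π) (Bbar A B π)) (hb : ∀ i, bbar i = mkB (A := A) π (e i)) (x : B) :
    Algebra.trace (Abar A π) (Bbar A B π) (mkB (A := A) π x) =
      mkA π (Algebra.intTrace A B x) := by
  choose c hc using fun j => hsp (x * e j)
  let M : Matrix ι ι A := Matrix.of fun i j => c j i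
  have hM : ∀ j, a₀ • (x * e j) = ∑ i, M i j • e i := fun j => hc j
  have hkey := mul_intTrace_eq_trace e hli a₀ ha₀ hsp x M hM
  have ha1 : mkA π a₀ = 1 := by
    have : mkA π (a₀ - 1) = 0 := (mkA_eq_zero_iff π _).mpr h1
    rw [map_sub, map_one, sub_eq_zero] at this
    exact this
  have h2 : mkA π (Algebra.intTrace A B x) = mkA π M.trace := by
    rw [← hkey, map_mul, ha1, one_mul]
  rw [h2, Algebra.trace_eq_matrix_trace bbar, Matrix.trace, Matrix.trace, map_sum]
  refine Finset.sum_congr rfl fun i _ => ?_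
  rw [Matrix.diag_apply, Matrix.diag_apply, Algebra.leftMulMatrix_eq_repr_mul]
  have h3 : mkB (A := A) π x * bbar i = ∑ k, mkA π (M k i) • bbar k := by
    have := congrArg (mkB (A := A) π) (hM i)
    rw [mkB_smul, ha1, one_smul, map_mul, map_sum] at this
    rw [hb i, this]
    exact Finset.sum_congr rfl fun k _ => by rw [mkB_smul, hb k]
  rw [h3, Basis.repr_sum_self]

end Trace

section Disc

variable (A B : Type*) [CommRing A] [IsDomain A] [IsIntegrallyClosed A]
  [CommRing B] [IsDomain B] [IsIntegrallyClosed B] [Algebra A B]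
  [Module.Finite A B] [Module.IsTorsionFree A B]

/-- The trace form of `B/A` is non-degenerate at the prime element `p` (fraction-free form of
"`B_(p) / p B_(p)` is étale over the residue field of `p`"). -/
def TrNondeg (p : A) : Prop :=
  ∀ x : B, (∀ y : B, p ∣ Algebra.intTrace A B (x * y)) →
    ∃ a : A, ¬ p ∣ a ∧ ∃ c : B, a • x = p • c

variable {A B}
variable {ι : Type*} [Fintype ι] [DecidableEq ι]

/-- **Key discriminant lemma (relative to `c`)**: a prime ideal `Mx` of `A` containing `π` and the
discriminant of `e` contains `c`, provided the trace form is non-degenerate at every prime element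
`p` with `(p, π) ≠ 1` and `p ∤ c`. -/
theorem mem_of_det_intTrace_mem [UniqueFactorizationMonoid A] {π : A} (hπ : Prime π)
    (e : ι → B) (hli : LinearIndependent A e) (a₀ : A) (h1 : π ∣ a₀ - 1)
    (hsp : ∀ x : B, ∃ c : ι → A, a₀ • x = ∑ i, c i • e i) (c₀ : A)
    (H : ∀ p : A, Prime p → Ideal.span {p, π} ≠ ⊤ → ¬ p ∣ c₀ → TrNondeg A B p)
    (Mx : Ideal A) [hMxprime : Mx.IsPrime] (hπM : π ∈ Mx)
    (hδM : Matrix.det (Matrix.of fun i j => Algebra.intTrace A B (e i * e j)) ∈ Mx) :
    c₀ ∈ Mx := by
  set T : Matrix ι ι A := Matrix.of fun i j => Algebra.intTrace A B (e i * e j) with hT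
  by_contra hc₀
  have ha₀M : a₀ ∉ Mx := by
    intro h
    obtain ⟨d, hd⟩ := h1
    have : (1 : A) ∈ Mx := by
      have h2 : (1 : A) = a₀ - π * d := by rw [← hd]; ring
      rw [h2]
      exact Mx.sub_mem h (Mx.mul_mem_right _ hπM)
    exact hMxprime.ne_top ((Ideal.eq_top_iff_one _).mpr this)
  -- a prime element `p ∈ Mx` dividing `det T`
  obtain ⟨p, hp, hpM, hpδ⟩ : ∃ p : A, Prime p ∧ p ∈ Mx ∧ p ∣ T.det := by
    by_cases h0 : T.det = 0
    · exact ⟨π, hπ, hπM, h0 ▸ dvd_zero π⟩
    · obtain ⟨f, hf, hfa⟩ := UniqueFactorizationMonoid.exists_prime_factors T.det h0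
      have hfM : f.prod ∈ Mx := by
        obtain ⟨u, hu⟩ := hfa.symm
        rw [← hu]
        exact Mx.mul_mem_right _ hδM
      obtain ⟨p, hpf, hpM⟩ := (hMxprime.multiset_prod_mem_iff_exists_mem f).mp hfM
      exact ⟨p, hf p hpf, hpM, (Multiset.dvd_prod hpf).trans hfa.dvd⟩
  have hspan : Ideal.span {p, π} ≠ ⊤ := by
    intro h
    have : Ideal.span {p, π} ≤ Mx := by
      rw [Ideal.span_le]
      rintro z (rfl | rfl)
      · exact hpM
      · exact hπM
    exact hMxprime.ne_top (top_le_iff.mp (h ▸ this))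
  have hpa₀ : ¬ p ∣ a₀ := fun h => ha₀M (by
    obtain ⟨d, rfl⟩ := h
    exact Mx.mul_mem_right _ hpM)
  -- a vector in the kernel of `T mod p`
  have hpprime : (Ideal.span {p}).IsPrime := (Ideal.span_singleton_prime hp.ne_zero).mpr hp
  let q : A →+* A ⧸ Ideal.span {p} := Ideal.Quotient.mk _
  have hq0 : ∀ a : A, q a = 0 ↔ p ∣ a := fun a => by
    rw [Ideal.Quotient.eq_zero_iff_mem, Ideal.mem_span_singleton]
  have hdet0 : (q.mapMatrix T).det = 0 := by
    rw [← RingHom.map_det, hq0]
    exact hpδ
  obtain ⟨v, hv0, hv⟩ := Matrix.exists_mulVec_eq_zero_iff.mpr hdet0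
  choose c hc using fun j => Ideal.Quotient.mk_surjective (v j)
  obtain ⟨j₀, hj₀⟩ : ∃ j₀, ¬ p ∣ c j₀ := by
    by_contra hall
    push Not at hall
    apply hv0
    funext j
    rw [← hc j]
    exact (hq0 _).mpr (hall j)
  have hTc : ∀ i, p ∣ ∑ j, T i j * c j := by
    intro i
    rw [← hq0, map_sum]
    have := congrFun hv i
    rw [Matrix.mulVec, dotProduct] at this
    rw [Pi.zero_apply] at this
    rw [← this]
    refine Finset.sum_congr rfl fun j _ => ?_
    rw [map_mul, RingHom.mapMatrix_apply, Matrix.map_apply, ← hc j]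
  -- the element `x = ∑ c j • e j`
  set x : B := ∑ j, c j • e j with hx
  have hxe : ∀ i, p ∣ Algebra.intTrace A B (x * e i) := by
    intro i
    have : Algebra.intTrace A B (x * e i) = ∑ j, T i j * c j := by
      rw [hx, Finset.sum_mul, map_sum]
      refine Finset.sum_congr rfl fun j _ => ?_
      rw [smul_mul_assoc, map_smul, smul_eq_mul, mul_comm (e j) (e i), mul_comm]
      rfl
    rw [this]
    exact hTc i
  have hxy : ∀ y : B, p ∣ Algebra.intTrace A B (x * y) := by
    intro y
    obtain ⟨d, hd⟩ := hsp y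
    have h2 : a₀ * Algebra.intTrace A B (x * y) = ∑ i, d i * Algebra.intTrace A B (x * e i) := by
      rw [← smul_eq_mul, ← map_smul, ← mul_smul_comm, hd, Finset.mul_sum, map_sum]
      refine Finset.sum_congr rfl fun i _ => ?_
      rw [mul_smul_comm, map_smul, smul_eq_mul]
    have h3 : p ∣ a₀ * Algebra.intTrace A B (x * y) := by
      rw [h2]
      exact Finset.dvd_sum fun i _ => Dvd.dvd.mul_left (hxe i) _
    exact (hp.dvd_or_dvd h3).resolve_left hpa₀
  have hpc₀ : ¬ p ∣ c₀ := fun h => hc₀ (by
    obtain ⟨d, rfl⟩ := h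
    exact Mx.mul_mem_right _ hpM)
  obtain ⟨a, hpa, z, hz⟩ := H p hp hspan hpc₀ x hxy
  obtain ⟨d, hd⟩ := hsp z
  -- compare coefficients
  have hrel : ∑ j, (a₀ * a * c j - p * d j) • e j = 0 := by
    have h4 : ∑ j, (a₀ * a * c j) • e j = (a₀ * a) • x := by
      rw [hx, Finset.smul_sum]
      exact Finset.sum_congr rfl fun j _ => by rw [smul_smul]
    have h5 : ∑ j, (p * d j) • e j = p • (a₀ • z) := by
      rw [hd, Finset.smul_sum]
      exact Finset.sum_congr rfl fun j _ => by rw [smul_smul]
    simp only [sub_smul, Finset.sum_sub_distrib]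
    rw [h4, h5, mul_smul, hz, smul_comm]
    exact sub_self _
  have hcoef := Fintype.linearIndependent_iff.mp hli _ hrel j₀
  have h6 : p ∣ a₀ * a * c j₀ := ⟨d j₀, sub_eq_zero.mp hcoef⟩
  rcases hp.dvd_or_dvd h6 with h7 | h7
  · rcases hp.dvd_or_dvd h7 with h8 | h8
    · exact hpa₀ h8
    · exact hpa h8
  · exact hj₀ h7


/-- **The discriminant is a unit mod `π`.** -/
theorem isUnit_mkA_det_intTrace [UniqueFactorizationMonoid A] {π : A} (hπ : Prime π)
    (e : ι → B) (hli : LinearIndependent A e) (a₀ : A) (h1 : π ∣ a₀ - 1)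
    (hsp : ∀ x : B, ∃ c : ι → A, a₀ • x = ∑ i, c i • e i)
    (H : ∀ p : A, Prime p → Ideal.span {p, π} ≠ ⊤ → TrNondeg A B p) :
    IsUnit (mkA π (Matrix.det (Matrix.of fun i j => Algebra.intTrace A B (e i * e j)))) := by
  set T : Matrix ι ι A := Matrix.of fun i j => Algebra.intTrace A B (e i * e j) with hT
  by_contra hnu
  have hne : Ideal.span {mkA π T.det} ≠ ⊤ := by
    rwa [Ne, Ideal.span_singleton_eq_top]
  obtain ⟨Mbar, hMbar, hle⟩ := Ideal.exists_le_maximal _ hne
  set Mx : Ideal A := Mbar.comap (mkA π) with hMx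
  have hMxprime : Mx.IsPrime := Ideal.comap_isPrime _ _
  have hπM : π ∈ Mx := by
    rw [hMx, Ideal.mem_comap, (mkA_eq_zero_iff π π).mpr dvd_rfl]
    exact Mbar.zero_mem
  have hδM : T.det ∈ Mx := by
    rw [hMx, Ideal.mem_comap]
    exact hle (Ideal.mem_span_singleton_self _)
  have h1M : (1 : A) ∈ Mx :=
    mem_of_det_intTrace_mem hπ e hli a₀ h1 hsp 1 (fun p hp hs _ => H p hp hs) Mx hπM hδM
  exact hMxprime.ne_top ((Ideal.eq_top_iff_one _).mpr h1M)

end Disc

end Fermat.Agent.JA
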