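/-
J-A programme, package PUR (lead): generic consequences of a unit discriminant.

* `mem_map_of_pow_mem_of_isUnit_discr` : if `S` is finite free over `R` with unit discriminant and
  `I` is a radical ideal of `R`, then `I S` is a radical ideal of `S` ("reduced fibres").
* `NormalOver R S` : fraction-free normality: if `x / a` is integral over `S` then `a ∣ x`.
* `normalOver_of_reduced` : over a UFD `R`, a torsion-free `S` with reduced fibres `S / p S` at all
  prime elements is `NormalOver`.
-/
import Mathlib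

set_option autoImplicit false

open Module

namespace Fermat.Agent.JA

section Coord

variable {R S : Type*} [CommRing R] [CommRing S] [Algebra R S]
  {ι : Type*} [Fintype ι] [DecidableEq ι]

/-- membership in `I S` in coordinates. -/
theorem mem_map_iff_repr (b : Basis ι R S) (I : Ideal R) (x : S) :
    x ∈ I.map (algebraMap R S) ↔ ∀ i, b.repr x i ∈ I := by
  have h1 : x ∈ I.map (algebraMap R S) ↔ x ∈ I • (⊤ : Submodule R S) := by
    rw [Ideal.smul_top_eq_map]; rfl
  rw [h1, ← b.span_eq, Submodule.mem_ideal_smul_span_iff_exists_sum]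
  constructor
  · rintro ⟨a, ha, rfl⟩ i
    have : b.repr (a.sum fun i c => c • b i) = a := by
      rw [← Finsupp.linearCombination_apply, Basis.repr_linearCombination]
    rw [this]; exact ha i
  · intro h
    exact ⟨b.repr x, h, by rw [← Finsupp.linearCombination_apply, b.linearCombination_repr]⟩

/-- If `z ^ n ∈ I S` with `I` radical, then `Tr(z) ∈ I`. -/
theorem trace_mem_of_pow_mem (b : Basis ι R S) (I : Ideal R) (hI : I.IsRadical) (z : S) (n : ℕ)
    (hz : z ^ n ∈ I.map (algebraMap R S)) : Algebra.trace R S z ∈ I := by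
  set M := Algebra.leftMulMatrix b z with hM
  have hMn : ∀ i j, (M ^ n) i j ∈ I := by
    intro i j
    rw [hM, ← map_pow, Algebra.leftMulMatrix_eq_repr_mul]
    exact (mem_map_iff_repr b I _).mp (Ideal.mul_mem_right _ _ hz) i
  let q : R →+* R ⧸ I := Ideal.Quotient.mk I
  have h0 : (M.map q) ^ n = 0 := by
    rw [← Matrix.map_pow]
    ext i j
    rw [Matrix.map_apply, Matrix.zero_apply]
    exact Ideal.Quotient.eq_zero_iff_mem.mpr (hMn i j)
  have hnil : IsNilpotent (M.map q).trace := Matrix.isNilpotent_trace_of_isNilpotent ⟨n, h0⟩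
  obtain ⟨k, hk⟩ := hnil
  rw [← AddMonoidHom.map_trace q M, ← map_pow] at hk
  rw [Algebra.trace_eq_matrix_trace b]
  exact hI ⟨k, Ideal.Quotient.eq_zero_iff_mem.mp hk⟩

/-- **Reduced fibres**: unit discriminant ⇒ `I S` is radical whenever `I` is. -/
theorem mem_map_of_pow_mem_of_isUnit_discr (b : Basis ι R S) (hd : IsUnit (Algebra.discr R b))
    (I : Ideal R) (hI : I.IsRadical) (x : S) (n : ℕ) (hx : x ^ n ∈ I.map (algebraMap R S)) :
    x ∈ I.map (algebraMap R S) := by
  set T := Algebra.traceMatrix R b with hT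
  have hdet : IsUnit T.det := by rwa [hT, ← Algebra.discr_def]
  have htr : ∀ i, Algebra.trace R S (x * b i) ∈ I := by
    intro i
    apply trace_mem_of_pow_mem b I hI _ n
    rw [mul_pow]
    exact Ideal.mul_mem_right _ _ hx
  set c : ι → R := fun j => b.repr x j with hc
  have hxc : x = ∑ j, c j • b j := (b.sum_repr x).symm
  have hTc : ∀ i, (T.mulVec c) i ∈ I := by
    intro i
    have : (T.mulVec c) i = Algebra.trace R S (x * b i) := by
      rw [Matrix.mulVec, dotProduct]
      conv_rhs => rw [hxc, Finset.sum_mul, map_sum]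
      refine Finset.sum_congr rfl fun j _ => ?_
      rw [hT, Algebra.traceMatrix_apply, Algebra.traceForm_apply, smul_mul_assoc, map_smul,
        smul_eq_mul, mul_comm (b j) (b i), mul_comm]
    rw [this]; exact htr i
  rw [mem_map_iff_repr b I x]
  intro i
  have h1 : c = T⁻¹.mulVec (T.mulVec c) := by
    rw [Matrix.mulVec_mulVec, Matrix.nonsing_inv_mul T hdet, Matrix.one_mulVec]
  show c i ∈ I
  rw [h1, Matrix.mulVec, dotProduct]
  exact Ideal.sum_mem _ fun k _ => Ideal.mul_mem_left _ _ (hTc k)

/-- **Reduced fibres away from `d`**: if the discriminant divides `d`, then `x ^ n ∈ I S`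
(`I` radical) implies `d • x ∈ I S`. -/
theorem smul_mem_map_of_pow_mem_of_discr_dvd (b : Basis ι R S) (d : R)
    (hd : Algebra.discr R b ∣ d)
    (I : Ideal R) (hI : I.IsRadical) (x : S) (n : ℕ) (hx : x ^ n ∈ I.map (algebraMap R S)) :
    d • x ∈ I.map (algebraMap R S) := by
  set T := Algebra.traceMatrix R b with hT
  have hdet : T.det ∣ d := by rwa [hT, ← Algebra.discr_def]
  have htr : ∀ i, Algebra.trace R S (x * b i) ∈ I := by
    intro i
    apply trace_mem_of_pow_mem b I hI _ n
    rw [mul_pow]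
    exact Ideal.mul_mem_right _ _ hx
  set c : ι → R := fun j => b.repr x j with hc
  have hxc : x = ∑ j, c j • b j := (b.sum_repr x).symm
  have hTc : ∀ i, (T.mulVec c) i ∈ I := by
    intro i
    have : (T.mulVec c) i = Algebra.trace R S (x * b i) := by
      rw [Matrix.mulVec, dotProduct]
      conv_rhs => rw [hxc, Finset.sum_mul, map_sum]
      refine Finset.sum_congr rfl fun j _ => ?_
      rw [hT, Algebra.traceMatrix_apply, Algebra.traceForm_apply, smul_mul_assoc, map_smul,
        smul_eq_mul, mul_comm (b j) (b i), mul_comm]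
    rw [this]; exact htr i
  rw [mem_map_iff_repr b I (d • x)]
  intro i
  have h1 : T.det • c = T.adjugate.mulVec (T.mulVec c) := by
    rw [Matrix.mulVec_mulVec, Matrix.adjugate_mul, Matrix.smul_mulVec, Matrix.one_mulVec]
  have h2 : T.det * c i ∈ I := by
    have := congrFun h1 i
    rw [Pi.smul_apply, smul_eq_mul] at this
    rw [this, Matrix.mulVec, dotProduct]
    exact Ideal.sum_mem _ fun k _ => Ideal.mul_mem_left _ _ (hTc k)
  obtain ⟨d', rfl⟩ := hdet
  rw [map_smul, Finsupp.smul_apply, smul_eq_mul]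
  have : T.det * d' * (b.repr x) i = d' * (T.det * c i) := by rw [hc]; ring
  rw [this]
  exact Ideal.mul_mem_left _ _ h2

end Coord

section Normal

variable (R S : Type*) [CommRing R] [CommRing S] [Algebra R S]

/-- Fraction-free normality of the `R`-algebra `S`: if `x / a` satisfies a monic equation with
coefficients in `S`, then `a ∣ x` in `S`. -/
def NormalOver : Prop :=
  ∀ (x : S) (a : R), a ≠ 0 →
    (∃ (m : ℕ) (c : ℕ → S), x ^ (m + 1) =
      ∑ i ∈ Finset.range (m + 1), c i * algebraMap R S a ^ (m + 1 - i) * x ^ i) →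
    ∃ z : S, x = a • z

variable {R S}

/-- Over a UFD, torsion-free with reduced fibres at prime elements ⇒ fraction-free normal. -/
theorem normalOver_of_reduced [IsDomain R] [UniqueFactorizationMonoid R]
    (htf : ∀ (a : R) (z : S), a • z = 0 → a = 0 ∨ z = 0)
    (hred : ∀ p : R, Prime p → ∀ (x : S) (n : ℕ),
      x ^ n ∈ (Ideal.span {p}).map (algebraMap R S) → x ∈ (Ideal.span {p}).map (algebraMap R S)) :
    NormalOver R S := by
  have hmem : ∀ (p : R) (y : S), y ∈ (Ideal.span {p}).map (algebraMap R S) ↔ ∃ z, y = p • z := by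
    intro p y
    rw [Ideal.map_span, Set.image_singleton, Ideal.mem_span_singleton]
    constructor
    · rintro ⟨z, rfl⟩; exact ⟨z, by rw [Algebra.smul_def]⟩
    · rintro ⟨z, rfl⟩; exact ⟨z, by rw [Algebra.smul_def]⟩
  intro x a
  induction a using UniqueFactorizationMonoid.induction_on_prime generalizing x with
  | h₁ => intro h; exact absurd rfl h
  | h₂ u hu =>
    intro _ _
    obtain ⟨u', rfl⟩ := hu
    exact ⟨(↑u'⁻¹ : R) • x, by rw [smul_smul, Units.mul_inv, one_smul]⟩
  | h₃ a p ha hp ih =>
    intro _ ⟨m, c, hc⟩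
    -- `x ^ (m+1) ∈ p S`
    have h1 : x ^ (m + 1) ∈ (Ideal.span {p}).map (algebraMap R S) := by
      rw [hc]
      refine Ideal.sum_mem _ fun i hi => ?_
      have hi' : i < m + 1 := Finset.mem_range.mp hi
      have h2 : algebraMap R S (p * a) ^ (m + 1 - i) ∈ (Ideal.span {p}).map (algebraMap R S) := by
        have : m + 1 - i = (m - i) + 1 := by omega
        rw [this, pow_succ]
        refine Ideal.mul_mem_left _ _ ?_
        rw [map_mul]
        exact Ideal.mul_mem_right _ _ (Ideal.mem_map_of_mem _ (Ideal.mem_span_singleton_self p))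
      exact Ideal.mul_mem_right _ _ (Ideal.mul_mem_left _ _ h2)
    obtain ⟨x', rfl⟩ := (hmem p x).mp (hred p hp x (m + 1) h1)
    -- divide the equation by `p ^ (m+1)`
    have h3 : (p ^ (m + 1)) • (x' ^ (m + 1) -
        ∑ i ∈ Finset.range (m + 1), c i * algebraMap R S a ^ (m + 1 - i) * x' ^ i) = 0 := by
      rw [smul_sub, sub_eq_zero, Finset.smul_sum]
      have h4 : (p ^ (m + 1)) • x' ^ (m + 1) = (p • x') ^ (m + 1) := by
        rw [smul_pow]
      rw [h4, hc]
      refine Finset.sum_congr rfl fun i hi => ?_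
      have hi' : i < m + 1 := Finset.mem_range.mp hi
      have h5 : p ^ (m + 1) = p ^ (m + 1 - i) * p ^ i := by
        rw [← pow_add]; congr 1; omega
      rw [smul_pow, map_mul, mul_pow, h5, Algebra.smul_def, Algebra.smul_def, map_mul, map_pow,
        map_pow]
      ring
    have h6 := (htf _ _ h3).resolve_left (pow_ne_zero _ hp.ne_zero)
    obtain ⟨z, rfl⟩ := ih x' ha ⟨m, c, sub_eq_zero.mp h6⟩
    exact ⟨z, by rw [smul_smul]⟩

section NormalAway

variable (R S : Type*) [CommRing R] [CommRing S] [Algebra R S]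

/-- Fraction-free normality away from `c`: if `x / a` is integral over `S`, then `a ∣ c ^ k x`
for some `k`. -/
def NormalOverAway (c : R) : Prop :=
  ∀ (x : S) (a : R), a ≠ 0 →
    (∃ (m : ℕ) (f : ℕ → S), x ^ (m + 1) =
      ∑ i ∈ Finset.range (m + 1), f i * algebraMap R S a ^ (m + 1 - i) * x ^ i) →
    ∃ (k : ℕ) (z : S), c ^ k • x = a • z

variable {R S}

theorem NormalOver.normalOverAway (h : NormalOver R S) (c : R) : NormalOverAway R S c := by
  intro x a ha hx
  obtain ⟨z, hz⟩ := h x a ha hx
  exact ⟨0, z, by rw [pow_zero, one_smul, hz]⟩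

theorem normalOver_of_normalOverAway_one (h : NormalOverAway R S 1) : NormalOver R S := by
  intro x a ha hx
  obtain ⟨k, z, hz⟩ := h x a ha hx
  exact ⟨z, by rw [← hz, one_pow, one_smul]⟩

/-- Gluing: if `S` is normal away from each `c i` and the `c i` generate the unit ideal, `S` is
normal. -/
theorem normalOver_of_span_eq_top {ι : Type*} (c : ι → R)
    (hc : Ideal.span (Set.range c) = ⊤) (h : ∀ i, NormalOverAway R S (c i)) : NormalOver R S := by
  intro x a ha hx
  choose k z hz using fun i => h i x a ha hx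
  -- the powers `c i ^ k i` still generate the unit ideal
  have hpow : Ideal.span (Set.range fun i => c i ^ k i) = ⊤ := by
    by_contra hne
    obtain ⟨M, hM, hle⟩ := Ideal.exists_le_maximal _ hne
    have : Ideal.span (Set.range c) ≤ M := by
      rw [Ideal.span_le]
      rintro _ ⟨i, rfl⟩
      exact hM.isPrime.mem_of_pow_mem (k i) (hle (Ideal.subset_span ⟨i, rfl⟩))
    exact hM.ne_top (top_le_iff.mp (hc ▸ this))
  have h1 : (1 : R) ∈ Ideal.span (Set.range fun i => c i ^ k i) := by
    rw [hpow]; exact Submodule.mem_top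
  obtain ⟨l, hl⟩ := Finsupp.mem_ideal_span_range_iff_exists_finsupp.mp h1
  refine ⟨l.sum fun i r => r • z i, ?_⟩
  have : x = (l.sum fun i r => r * c i ^ k i) • x := by rw [hl, one_smul]
  rw [this, Finsupp.sum, Finset.sum_smul, Finsupp.sum, Finset.smul_sum]
  refine Finset.sum_congr rfl fun i _ => ?_
  rw [mul_smul, hz i, smul_comm]

/-- Over a UFD, torsion-free with fibres at prime elements reduced up to `c ^ m₀` ⇒ normal away
from `c`. -/
theorem normalOverAway_of_reduced [IsDomain R] [UniqueFactorizationMonoid R]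
    (htf : ∀ (a : R) (z : S), a • z = 0 → a = 0 ∨ z = 0) (c : R) (m₀ : ℕ)
    (hred : ∀ p : R, Prime p → ∀ (x : S) (n : ℕ),
      x ^ n ∈ (Ideal.span {p}).map (algebraMap R S) →
        c ^ m₀ • x ∈ (Ideal.span {p}).map (algebraMap R S)) :
    NormalOverAway R S c := by
  have hmem : ∀ (p : R) (y : S), y ∈ (Ideal.span {p}).map (algebraMap R S) ↔ ∃ z, y = p • z := by
    intro p y
    rw [Ideal.map_span, Set.image_singleton, Ideal.mem_span_singleton]
    constructor
    · rintro ⟨z, rfl⟩; exact ⟨z, by rw [Algebra.smul_def]⟩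
    · rintro ⟨z, rfl⟩; exact ⟨z, by rw [Algebra.smul_def]⟩
  intro x a
  induction a using UniqueFactorizationMonoid.induction_on_prime generalizing x with
  | h₁ => intro h; exact absurd rfl h
  | h₂ u hu =>
    intro _ _
    obtain ⟨u', rfl⟩ := hu
    exact ⟨0, (↑u'⁻¹ : R) • x, by rw [smul_smul, Units.mul_inv, one_smul, pow_zero, one_smul]⟩
  | h₃ a p ha hp ih =>
    intro _ ⟨m, f, hf⟩
    have h1 : x ^ (m + 1) ∈ (Ideal.span {p}).map (algebraMap R S) := by
      rw [hf]
      refine Ideal.sum_mem _ fun i hi => ?_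
      have hi' : i < m + 1 := Finset.mem_range.mp hi
      have h2 : algebraMap R S (p * a) ^ (m + 1 - i) ∈ (Ideal.span {p}).map (algebraMap R S) := by
        have : m + 1 - i = (m - i) + 1 := by omega
        rw [this, pow_succ]
        refine Ideal.mul_mem_left _ _ ?_
        rw [map_mul]
        exact Ideal.mul_mem_right _ _ (Ideal.mem_map_of_mem _ (Ideal.mem_span_singleton_self p))
      exact Ideal.mul_mem_right _ _ (Ideal.mul_mem_left _ _ h2)
    obtain ⟨x', hx'⟩ := (hmem p _).mp (hred p hp x (m + 1) h1)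
    -- the equation for `x'` over `a`
    have h3 : (p ^ (m + 1)) • (x' ^ (m + 1) -
        ∑ i ∈ Finset.range (m + 1),
          (f i * algebraMap R S (c ^ m₀) ^ (m + 1 - i)) * algebraMap R S a ^ (m + 1 - i) * x' ^ i)
          = 0 := by
      rw [smul_sub, sub_eq_zero, Finset.smul_sum]
      have h4 : (p ^ (m + 1)) • x' ^ (m + 1) = (c ^ m₀ • x) ^ (m + 1) := by
        rw [← smul_pow, hx']
      rw [h4, smul_pow, hf, Finset.smul_sum]
      refine Finset.sum_congr rfl fun i hi => ?_
      have hi' : i < m + 1 := Finset.mem_range.mp hi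
      have h5 : p ^ (m + 1) = p ^ (m + 1 - i) * p ^ i := by
        rw [← pow_add]; congr 1; omega
      have h6 : (c ^ m₀) ^ (m + 1) = (c ^ m₀) ^ (m + 1 - i) * (c ^ m₀) ^ i := by
        rw [← pow_add]; congr 1; omega
      have h7 : algebraMap R S p ^ i * x' ^ i = algebraMap R S (c ^ m₀) ^ i * x ^ i := by
        rw [← mul_pow, ← mul_pow, ← Algebra.smul_def, ← Algebra.smul_def, hx']
      rw [h5, h6]
      simp only [Algebra.smul_def, map_mul, map_pow, mul_pow] at h7 ⊢
      generalize algebraMap R S p = P at h7 ⊢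
      generalize algebraMap R S c = Cc at h7 ⊢
      generalize algebraMap R S a = Aa at h7 ⊢
      calc (Cc ^ m₀) ^ (m + 1 - i) * (Cc ^ m₀) ^ i * (f i * (P ^ (m + 1 - i) * Aa ^ (m + 1 - i)) * x ^ i)
          = f i * (Cc ^ m₀) ^ (m + 1 - i) * P ^ (m + 1 - i) * Aa ^ (m + 1 - i) *
              ((Cc ^ m₀) ^ i * x ^ i) := by ring
        _ = f i * (Cc ^ m₀) ^ (m + 1 - i) * P ^ (m + 1 - i) * Aa ^ (m + 1 - i) *
              (P ^ i * x' ^ i) := by rw [h7]
        _ = _ := by ring
    have h8 := (htf _ _ h3).resolve_left (pow_ne_zero _ hp.ne_zero)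
    obtain ⟨k, z, hz⟩ := ih x' ha ⟨m, _, sub_eq_zero.mp h8⟩
    refine ⟨k + m₀, z, ?_⟩
    rw [pow_add, mul_smul, hx', smul_comm, hz, smul_smul]

end NormalAway

end Normal

end Fermat.Agent.JA
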