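/-
J-A programme, package PUR (lead): **unramified purity over a line, main theorems**.

`A` a UFD, `B` an integrally closed domain, finite and torsion-free over `A`, `π ∈ A` a prime element
with `A / π` a PID.  Assume the trace form of `B / A` is non-degenerate at every prime element `p` of
`A` with `(p, π) ≠ (1)` (`TrNondeg A B p`).  Then `B / π B` is a finite free `A / π`-module with a
basis of unit discriminant (`exists_basis_isUnit_discr`), all its fibres over radical ideals are
reduced (`mem_map_of_pow_mem_Bbar`), and it is fraction-free normal (`normalOver_Bbar`).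
-/
import Mathlib
import Fermat.Agent.JA.PUR_lead_Disc
import Fermat.Agent.JA.PUR_lead_Normal

set_option autoImplicit false

open Module

namespace Fermat.Agent.JA

variable {A B : Type*} [CommRing A] [IsDomain A] [UniqueFactorizationMonoid A]
  [CommRing B] [IsDomain B] [IsIntegrallyClosed B] [Algebra A B]
  [Module.Finite A B] [Module.IsTorsionFree A B] {π : A}

/-- `B / π B` is free over `A / π` with a basis of unit discriminant. -/
theorem exists_basis_isUnit_discr (hπ : Prime π) [IsPrincipalIdealRing (Abar A π)]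
    (H : ∀ p : A, Prime p → Ideal.span {p, π} ≠ ⊤ → TrNondeg A B p) :
    ∃ (n : ℕ) (b : Basis (Fin n) (Abar A π) (Bbar A B π)),
      IsUnit (Algebra.discr (Abar A π) b) := by
  classical
  have hprime : (Ideal.span {π}).IsPrime := (Ideal.span_singleton_prime hπ.ne_zero).mpr hπ
  have : IsDomain (Abar A π) := Ideal.Quotient.isDomain _
  have : Algebra.IsIntegral A B := Algebra.IsIntegral.of_finite A B
  have : Module.IsTorsionFree (Abar A π) (Bbar A B π) :=
    Module.IsTorsionFree.of_smul_eq_zero (smul_eq_zero_Bbar hπ)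
  have : Module.Free (Abar A π) (Bbar A B π) := Module.free_of_finite_type_torsion_free'
  let b := Module.finBasis (Abar A π) (Bbar A B π)
  choose e he using fun i => Ideal.Quotient.mk_surjective (b i)
  have he' : (fun i => mkB (A := A) π (e i)) = b := funext he
  have hli : LinearIndependent (Abar A π) (fun i => mkB (A := A) π (e i)) := by
    rw [he']; exact b.linearIndependent
  have hliA : LinearIndependent A e := linearIndependent_of_mkB hπ e hli
  have hsp' : ⊤ ≤ Submodule.span (Abar A π) (Set.range fun i => mkB (A := A) π (e i)) := by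
    rw [he', b.span_eq]
  obtain ⟨a₀, h1, hsp⟩ := exists_smul_mem_span_of_mkB e hsp'
  have ha₀ : a₀ ≠ 0 := by
    rintro rfl
    apply hπ.not_isUnit
    rw [zero_sub] at h1
    exact isUnit_of_dvd_unit h1 isUnit_one.neg
  have hunit := isUnit_mkA_det_intTrace hπ e hliA a₀ h1 hsp H
  refine ⟨_, b, ?_⟩
  rw [Algebra.discr_def]
  have hmat : Algebra.traceMatrix (Abar A π) b =
      (mkA π).mapMatrix (Matrix.of fun i j => Algebra.intTrace A B (e i * e j)) := by
    ext i j
    rw [Algebra.traceMatrix_apply, Algebra.traceForm_apply, RingHom.mapMatrix_apply,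
      Matrix.map_apply, Matrix.of_apply, ← he i, ← he j, ← map_mul]
    exact trace_mkB e hliA a₀ h1 ha₀ hsp b (fun i => (he i).symm) _
  rw [hmat, ← RingHom.map_det]
  exact hunit

/-- **Reduced fibres**: for a radical ideal `I` of `A / π`, `I · (B / π B)` is radical. -/
theorem mem_map_of_pow_mem_Bbar (hπ : Prime π) [IsPrincipalIdealRing (Abar A π)]
    (H : ∀ p : A, Prime p → Ideal.span {p, π} ≠ ⊤ → TrNondeg A B p)
    (I : Ideal (Abar A π)) (hI : I.IsRadical) (x : Bbar A B π) (n : ℕ)
    (hx : x ^ n ∈ I.map (algebraMap (Abar A π) (Bbar A B π))) :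
    x ∈ I.map (algebraMap (Abar A π) (Bbar A B π)) := by
  classical
  obtain ⟨m, b, hb⟩ := exists_basis_isUnit_discr (B := B) hπ H
  exact mem_map_of_pow_mem_of_isUnit_discr b hb I hI x n hx

/-- **Normality of the special fibre** (fraction-free form). -/
theorem normalOver_Bbar (hπ : Prime π) [IsPrincipalIdealRing (Abar A π)]
    (H : ∀ p : A, Prime p → Ideal.span {p, π} ≠ ⊤ → TrNondeg A B p) :
    NormalOver (Abar A π) (Bbar A B π) := by
  have hprime : (Ideal.span {π}).IsPrime := (Ideal.span_singleton_prime hπ.ne_zero).mpr hπ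
  have : IsDomain (Abar A π) := Ideal.Quotient.isDomain _
  have : Algebra.IsIntegral A B := Algebra.IsIntegral.of_finite A B
  refine normalOver_of_reduced (smul_eq_zero_Bbar hπ) ?_
  intro p hp x n hx
  have hpp : (Ideal.span {p}).IsPrime := (Ideal.span_singleton_prime hp.ne_zero).mpr hp
  exact mem_map_of_pow_mem_Bbar hπ H _ hpp.isRadical x n hx

/-- **Relative version**: if the trace form is non-degenerate at the prime elements `p` with
`(p, π) ≠ 1` and `p ∤ c`, then `B / π B` has a basis whose discriminant divides a power of `c`. -/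
theorem exists_basis_discr_dvd (hπ : Prime π) [IsPrincipalIdealRing (Abar A π)] (c : A)
    (H : ∀ p : A, Prime p → Ideal.span {p, π} ≠ ⊤ → ¬ p ∣ c → TrNondeg A B p) :
    ∃ (n : ℕ) (b : Basis (Fin n) (Abar A π) (Bbar A B π)) (m : ℕ),
      Algebra.discr (Abar A π) b ∣ mkA π c ^ m := by
  classical
  have hprime : (Ideal.span {π}).IsPrime := (Ideal.span_singleton_prime hπ.ne_zero).mpr hπ
  have : IsDomain (Abar A π) := Ideal.Quotient.isDomain _
  have : Algebra.IsIntegral A B := Algebra.IsIntegral.of_finite A B
  have : Module.IsTorsionFree (Abar A π) (Bbar A B π) :=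
    Module.IsTorsionFree.of_smul_eq_zero (smul_eq_zero_Bbar hπ)
  have : Module.Free (Abar A π) (Bbar A B π) := Module.free_of_finite_type_torsion_free'
  let b := Module.finBasis (Abar A π) (Bbar A B π)
  choose e he using fun i => Ideal.Quotient.mk_surjective (b i)
  have he' : (fun i => mkB (A := A) π (e i)) = b := funext he
  have hli : LinearIndependent (Abar A π) (fun i => mkB (A := A) π (e i)) := by
    rw [he']; exact b.linearIndependent
  have hliA : LinearIndependent A e := linearIndependent_of_mkB hπ e hli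
  have hsp' : ⊤ ≤ Submodule.span (Abar A π) (Set.range fun i => mkB (A := A) π (e i)) := by
    rw [he', b.span_eq]
  obtain ⟨a₀, h1, hsp⟩ := exists_smul_mem_span_of_mkB e hsp'
  have ha₀ : a₀ ≠ 0 := by
    rintro rfl
    apply hπ.not_isUnit
    rw [zero_sub] at h1
    exact isUnit_of_dvd_unit h1 isUnit_one.neg
  set δ : A := Matrix.det (Matrix.of fun i j => Algebra.intTrace A B (e i * e j)) with hδ
  -- `mkA c` lies in the radical of `(mkA δ)`
  have hrad : mkA π c ∈ (Ideal.span {mkA π δ}).radical := by
    rw [Ideal.radical_eq_sInf, Ideal.mem_sInf]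
    rintro J ⟨hJle, hJprime⟩
    have hMx : (J.comap (mkA π)).IsPrime := Ideal.comap_isPrime _ _
    have hπM : π ∈ J.comap (mkA π) := by
      rw [Ideal.mem_comap, (mkA_eq_zero_iff π π).mpr dvd_rfl]
      exact J.zero_mem
    have hδM : δ ∈ J.comap (mkA π) := by
      rw [Ideal.mem_comap]
      exact hJle (Ideal.mem_span_singleton_self _)
    exact mem_of_det_intTrace_mem hπ e hliA a₀ h1 hsp c H (J.comap (mkA π)) hπM hδM
  obtain ⟨m, hm⟩ := hrad
  refine ⟨_, b, m, ?_⟩
  rw [Algebra.discr_def]
  have hmat : Algebra.traceMatrix (Abar A π) b =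
      (mkA π).mapMatrix (Matrix.of fun i j => Algebra.intTrace A B (e i * e j)) := by
    ext i j
    rw [Algebra.traceMatrix_apply, Algebra.traceForm_apply, RingHom.mapMatrix_apply,
      Matrix.map_apply, Matrix.of_apply, ← he i, ← he j, ← map_mul]
    exact trace_mkB e hliA a₀ h1 ha₀ hsp b (fun i => (he i).symm) _
  rw [hmat, ← RingHom.map_det]
  exact Ideal.mem_span_singleton.mp hm

/-- **Normality of the special fibre away from `c`** (fraction-free form). -/
theorem normalOverAway_Bbar (hπ : Prime π) [IsPrincipalIdealRing (Abar A π)] (c : A)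
    (H : ∀ p : A, Prime p → Ideal.span {p, π} ≠ ⊤ → ¬ p ∣ c → TrNondeg A B p) :
    NormalOverAway (Abar A π) (Bbar A B π) (mkA π c) := by
  classical
  have hprime : (Ideal.span {π}).IsPrime := (Ideal.span_singleton_prime hπ.ne_zero).mpr hπ
  have : IsDomain (Abar A π) := Ideal.Quotient.isDomain _
  have : Algebra.IsIntegral A B := Algebra.IsIntegral.of_finite A B
  obtain ⟨n, b, m₀, hb⟩ := exists_basis_discr_dvd (B := B) hπ c H
  refine normalOverAway_of_reduced (smul_eq_zero_Bbar hπ) (mkA π c) m₀ ?_
  intro p hp x n hx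
  have hpp : (Ideal.span {p}).IsPrime := (Ideal.span_singleton_prime hp.ne_zero).mpr hp
  exact smul_mem_map_of_pow_mem_of_discr_dvd b _ hb _ hpp.isRadical x n hx

end Fermat.Agent.JA
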