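/-
J-A programme, GEO (lead): descent of fraction-free normality along invariants of a finite group
of invertible order (Kummer charts).

`A → A'`, `B → B'`, `G` acting on `B'` with `B'^G = B`, `|G|` invertible in `A`.
If `B' / π B'` is normal away from `c` over `A' / π`, then `B / π B` is normal away from `c`
over `A / π`.
-/
import Mathlib
import Fermat.Agent.JA.PUR_lead_Main

set_option autoImplicit false

open Module

namespace Fermat.Agent.JA

section Dvd

/-- In an integral extension `R ⊆ S` of domains with `R` integrally closed: if `r ∣ a` in `S`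
(`r, a ∈ R`, `r ≠ 0`) then `r ∣ a` in `R`. -/
theorem dvd_of_algebraMap_dvd {R S : Type*} [CommRing R] [IsDomain R] [IsIntegrallyClosed R]
    [CommRing S] [IsDomain S] [Algebra R S] [FaithfulSMul R S] [Algebra.IsIntegral R S]
    {r a : R} (hr : r ≠ 0) (h : algebraMap R S r ∣ algebraMap R S a) : r ∣ a := by
  obtain ⟨w, hw⟩ := h
  let K := FractionRing R
  let L := FractionRing S
  have hinjRS : Function.Injective (algebraMap R S) := FaithfulSMul.algebraMap_injective R S
  have hinjSL : Function.Injective (algebraMap S L) := IsFractionRing.injective S L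
  have hinjRL : Function.Injective (algebraMap R L) := by
    rw [IsScalarTower.algebraMap_eq R S L]
    exact hinjSL.comp hinjRS
  have : FaithfulSMul R L := (faithfulSMul_iff_algebraMap_injective R L).mpr hinjRL
  let _ : Algebra K L := FractionRing.liftAlgebra R L
  have : IsScalarTower R K L := FractionRing.isScalarTower_liftAlgebra R L
  have hrK : algebraMap R K r ≠ 0 := by
    rwa [Ne, map_eq_zero_iff _ (IsFractionRing.injective R K)]
  -- `w = a / r` lies in `K` and is integral over `R`
  have hwint : IsIntegral R (algebraMap R K a / algebraMap R K r) := by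
    have h1 : algebraMap K L (algebraMap R K a / algebraMap R K r) = algebraMap S L w := by
      rw [map_div₀, ← IsScalarTower.algebraMap_apply, ← IsScalarTower.algebraMap_apply,
        IsScalarTower.algebraMap_apply R S L a, hw, map_mul,
        ← IsScalarTower.algebraMap_apply R S L r]
      rw [mul_div_cancel_left₀]
      rwa [Ne, map_eq_zero_iff _ hinjRL]
    have h2 : IsIntegral R (algebraMap S L w) := (Algebra.IsIntegral.isIntegral w).algebraMap
    rw [← h1] at h2
    exact (isIntegral_algebraMap_iff (algebraMap K L).injective).mp h2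
  obtain ⟨z, hz⟩ := IsIntegrallyClosed.isIntegral_iff.mp hwint
  refine ⟨z, ?_⟩
  apply IsFractionRing.injective R K
  rw [map_mul, hz, mul_div_cancel₀ _ hrK]

end Dvd

section Descent

variable {A A' B B' : Type*} [CommRing A] [CommRing A'] [CommRing B] [CommRing B']
  [Algebra A A'] [Algebra A B] [Algebra A' B'] [Algebra B B'] [Algebra A B']
  [IsScalarTower A A' B'] [IsScalarTower A B B']
  {G : Type*} [Group G] [Fintype G] [MulSemiringAction G B']

/-- **Descent of normality along invariants.** -/
theorem normalOverAway_descent {π : A} (c : A)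
    (hcompat : ∀ a : A, algebraMap A A' π ∣ algebraMap A A' a → π ∣ a)
    (hsat : ∀ y : B, (∃ w : B', algebraMap B B' y = algebraMap A B' π * w) → ∃ z : B, y = π • z)
    (hfix : ∀ (g : G) (b : B), g • algebraMap B B' b = algebraMap B B' b)
    (hinv : ∀ y : B', (∀ g : G, g • y = y) → ∃ b : B, algebraMap B B' b = y)
    (hcard : IsUnit ((Fintype.card G : ℕ) : A))
    (h' : NormalOverAway (Abar A' (algebraMap A A' π)) (Bbar A' B' (algebraMap A A' π))
      (mkA (algebraMap A A' π) (algebraMap A A' c))) :
    NormalOverAway (Abar A π) (Bbar A B π) (mkA π c) := by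
  set π' : A' := algebraMap A A' π with hπ'
  intro xbar abar habar ⟨m, fbar, hf⟩
  obtain ⟨x, rfl⟩ := Ideal.Quotient.mk_surjective xbar
  obtain ⟨a, rfl⟩ := Ideal.Quotient.mk_surjective abar
  choose F hF using fun i => Ideal.Quotient.mk_surjective (fbar i)
  have hAB' : ∀ r : A, algebraMap A B' r = algebraMap B B' (algebraMap A B r) :=
    fun r => IsScalarTower.algebraMap_apply A B B' r
  have hAB'' : ∀ r : A, algebraMap A B' r = algebraMap A' B' (algebraMap A A' r) :=
    fun r => IsScalarTower.algebraMap_apply A A' B' r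
  -- the equation in `B`
  have h1 : mkB (A := A) π (x ^ (m + 1) -
      ∑ i ∈ Finset.range (m + 1), F i * algebraMap A B a ^ (m + 1 - i) * x ^ i) = 0 := by
    rw [map_sub, sub_eq_zero, map_pow, hf, map_sum]
    refine Finset.sum_congr rfl fun i _ => ?_
    rw [map_mul, map_mul, map_pow, map_pow, hF i]
    rfl
  obtain ⟨w, hw⟩ := (mkB_eq_zero_iff π _).mp h1
  -- push to `B'`
  set x' : B' := algebraMap B B' x with hx'
  have h2 : mkB (A := A') π' x' ^ (m + 1) =
      ∑ i ∈ Finset.range (m + 1), mkB (A := A') π' (algebraMap B B' (F i)) *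
        algebraMap (Abar A' π') (Bbar A' B' π') (mkA π' (algebraMap A A' a)) ^ (m + 1 - i) *
        mkB (A := A') π' x' ^ i := by
    have h3 := congrArg (algebraMap B B') hw
    rw [map_sub, map_pow, map_sum, sub_eq_iff_eq_add] at h3
    have h4 : mkB (A := A') π' (algebraMap B B' (π • w)) = 0 := by
      rw [mkB_eq_zero_iff]
      exact ⟨algebraMap B B' w, by
        rw [Algebra.smul_def, map_mul, ← hAB', Algebra.smul_def, hπ', ← hAB'']⟩
    rw [← map_pow, h3, map_add, h4, zero_add, map_sum]
    refine Finset.sum_congr rfl fun i _ => ?_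
    rw [map_mul (algebraMap B B'), map_mul (algebraMap B B'), map_pow (algebraMap B B'),
      map_pow (algebraMap B B'), ← hAB', hAB'' a, map_mul, map_mul, map_pow, map_pow]
    rfl
  have ha' : mkA π' (algebraMap A A' a) ≠ 0 := by
    rw [Ne, mkA_eq_zero_iff]
    intro hdvd
    exact habar ((mkA_eq_zero_iff π a).mpr (hcompat a hdvd))
  obtain ⟨k, zbar', hz'⟩ := h' _ _ ha' ⟨m, _, h2⟩
  obtain ⟨z', rfl⟩ := Ideal.Quotient.mk_surjective zbar'
  -- an equation in `B'`
  have h5 : mkB (A := A') π' (algebraMap A B' c ^ k * x' - algebraMap A B' a * z') = 0 := by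
    rw [map_sub, sub_eq_zero, map_mul, map_mul, map_pow, hAB'' c, hAB'' a]
    have e1 : mkB (A := A') π' (algebraMap A' B' (algebraMap A A' c)) =
        algebraMap (Abar A' π') (Bbar A' B' π') (mkA π' (algebraMap A A' c)) := rfl
    have e2 : mkB (A := A') π' (algebraMap A' B' (algebraMap A A' a)) =
        algebraMap (Abar A' π') (Bbar A' B' π') (mkA π' (algebraMap A A' a)) := rfl
    rw [e1, e2, ← map_pow, ← Algebra.smul_def, ← Algebra.smul_def]
    exact hz'
  obtain ⟨w', hw'⟩ := (mkB_eq_zero_iff π' _).mp h5
  -- average over `G`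
  obtain ⟨u, hu⟩ := hcard
  have hgA : ∀ (g : G) (r : A) (y : B'), g • (algebraMap A B' r * y) = algebraMap A B' r * g • y := by
    intro g r y
    rw [smul_mul', hAB' r, hfix]
  have hsum_inv : ∀ g : G, g • (∑ h : G, h • z') = ∑ h : G, h • z' := by
    intro g
    rw [Finset.smul_sum]
    exact Fintype.sum_equiv (Equiv.mulLeft g) _ _ (fun h => by simp [mul_smul])
  obtain ⟨z₁, hz₁⟩ := hinv _ hsum_inv
  have h6 : ∑ g : G, g • (algebraMap A B' c ^ k * x' - algebraMap A B' a * z') =
      algebraMap A B' π * ∑ g : G, g • w' := by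
    rw [hw', Finset.mul_sum]
    refine Finset.sum_congr rfl fun g _ => ?_
    rw [Algebra.smul_def, hπ', ← hAB'', hgA]
  have h7 : ∑ g : G, g • (algebraMap A B' c ^ k * x' - algebraMap A B' a * z') =
      algebraMap A B' ((Fintype.card G : ℕ) : A) * (algebraMap A B' c ^ k * x') -
        algebraMap A B' a * algebraMap B B' z₁ := by
    simp only [smul_sub, Finset.sum_sub_distrib]
    congr 1
    · have : ∀ g : G, g • (algebraMap A B' c ^ k * x') = algebraMap A B' c ^ k * x' := by
        intro g
        rw [← map_pow, hgA, hx', hfix]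
      rw [Finset.sum_congr rfl fun g _ => this g, Finset.sum_const, Finset.card_univ,
        nsmul_eq_mul, map_natCast]
    · rw [hz₁, Finset.mul_sum]
      exact Finset.sum_congr rfl fun g _ => hgA g a z'
  -- descend to `B`
  set y : B := c ^ k • x - a • ((↑u⁻¹ : A) • z₁) with hy
  have h8 : algebraMap B B' y = algebraMap A B' π *
      (algebraMap A B' (↑u⁻¹ : A) * ∑ g : G, g • w') := by
    have h9 : algebraMap A B' (↑u⁻¹ : A) * algebraMap A B' ((Fintype.card G : ℕ) : A) = 1 := by
      rw [← map_mul, ← hu, Units.inv_mul, map_one]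
    have h10 := congrArg (fun t => algebraMap A B' (↑u⁻¹ : A) * t) (h7.symm.trans h6)
    rw [hy, map_sub, Algebra.smul_def, Algebra.smul_def, Algebra.smul_def, map_mul, map_mul,
      map_mul, ← hAB', ← hAB', ← hAB', map_pow]
    calc algebraMap A B' c ^ k * algebraMap B B' x -
          algebraMap A B' a * (algebraMap A B' (↑u⁻¹ : A) * algebraMap B B' z₁)
        = (algebraMap A B' (↑u⁻¹ : A) * algebraMap A B' ((Fintype.card G : ℕ) : A)) *
            (algebraMap A B' c ^ k * x') -
          algebraMap A B' (↑u⁻¹ : A) * (algebraMap A B' a * algebraMap B B' z₁) := by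
            rw [h9, one_mul]; ring
      _ = algebraMap A B' (↑u⁻¹ : A) * (algebraMap A B' ((Fintype.card G : ℕ) : A) *
            (algebraMap A B' c ^ k * x') - algebraMap A B' a * algebraMap B B' z₁) := by ring
      _ = algebraMap A B' (↑u⁻¹ : A) * (algebraMap A B' π * ∑ g : G, g • w') := h10
      _ = _ := by ring
  obtain ⟨z₂, hz₂⟩ := hsat y ⟨_, h8⟩
  refine ⟨k, mkB (A := A) π ((↑u⁻¹ : A) • z₁), ?_⟩
  rw [← map_pow, ← mkB_smul, ← mkB_smul, ← sub_eq_zero, ← map_sub, mkB_eq_zero_iff]
  exact ⟨z₂, hz₂⟩

end Descent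

end Fermat.Agent.JA
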