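/-
J-A programme, GEO (lead): **normality of a chart via a Galois cover of charts** (abstract form of
the Kummer chart).

`(A, K, E)` a chart (`A` noetherian UFD of char 0, `K = Frac A`, `E / K` finite), `(A', K', E')`
another one with `A → A'` integral, `E → E'`, and a finite group `G` of order invertible in `A`
acting on `E'` with fixed field `E`.  If `E' / K'` is unramified over all prime elements `p'` of `A'`
meeting `π` and not dividing `c`, then `B / π B` (`B = integralClosure A E`) is normal away
from `c`.
-/
import Mathlib
import Fermat.Agent.JA.GEO_lead_BridgeVal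
import Fermat.Agent.JA.GEO_lead_Descent

set_option autoImplicit false

namespace Fermat.Agent.JA

section Plain

variable {A : Type*} [CommRing A] [IsDomain A] [UniqueFactorizationMonoid A] [CharZero A]
  [IsNoetherianRing A]
  {K : Type*} [Field K] [Algebra A K] [IsFractionRing A K]
  {E : Type*} [Field E] [Algebra K E] [FiniteDimensional K E] [Algebra A E] [IsScalarTower A K E]

omit [UniqueFactorizationMonoid A] [CharZero A] [FiniteDimensional K E] in
variable (A K E) in
include K in
theorem integralClosure_instances [IsIntegrallyClosed A] [FiniteDimensional K E] [CharZero A] :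
    IsIntegrallyClosed ↥(integralClosure A E) ∧ Module.Finite A ↥(integralClosure A E) ∧
      Module.IsTorsionFree A ↥(integralClosure A E) := by
  have hK0 : CharZero K := charZero_of_injective_algebraMap (IsFractionRing.injective A K)
  refine ⟨integralClosure.isIntegrallyClosedOfFiniteExtension K,
    IsIntegralClosure.finite A K E _, ?_⟩
  apply Module.IsTorsionFree.of_smul_eq_zero
  intro r m hrm
  rw [Algebra.smul_def, mul_eq_zero] at hrm
  rcases hrm with hr | hm
  · left
    have h1 : algebraMap A E r = 0 := congrArg Subtype.val hr
    rwa [IsScalarTower.algebraMap_apply A K E, map_eq_zero,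
      map_eq_zero_iff _ (IsFractionRing.injective A K)] at h1
  · exact Or.inr hm

omit [IsNoetherianRing A] in
/-- **Plain chart theorem in valuation-subring currency.** -/
theorem normalOverAway_of_unr [IsIntegrallyClosed ↥(integralClosure A E)]
    [Module.Finite A ↥(integralClosure A E)] [Module.IsTorsionFree A ↥(integralClosure A E)]
    {π : A} (hπ : Prime π) [IsPrincipalIdealRing (Abar A π)] (c : A)
    (H : ∀ (p : A) (hp : Prime p), Ideal.span {p, π} ≠ ⊤ → ¬ p ∣ c →
      Unr (primeValSubring K hp) E) :
    NormalOverAway (Abar A π) (Bbar A ↥(integralClosure A E) π) (mkA π c) :=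
  normalOverAway_Bbar hπ c (fun p hp hs hc => trNondeg_of_unr hp (H p hp hs hc))

end Plain

section Cover

variable {A : Type*} [CommRing A] [IsDomain A] [UniqueFactorizationMonoid A] [CharZero A]
  [IsNoetherianRing A]
  {K : Type*} [Field K] [Algebra A K] [IsFractionRing A K]
  {E : Type*} [Field E] [Algebra K E] [FiniteDimensional K E] [Algebra A E] [IsScalarTower A K E]
  {A' : Type*} [CommRing A'] [IsDomain A'] [UniqueFactorizationMonoid A'] [CharZero A']
  [IsNoetherianRing A']
  {K' : Type*} [Field K'] [Algebra A' K'] [IsFractionRing A' K']
  {E' : Type*} [Field E'] [Algebra K' E'] [FiniteDimensional K' E'] [Algebra A' E']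
  [IsScalarTower A' K' E']
  [Algebra A A'] [Algebra E E'] [Algebra A E'] [IsScalarTower A A' E'] [IsScalarTower A E E']
  [Algebra.IsIntegral A A']
  {G : Type*} [Group G] [Fintype G] [MulSemiringAction G E']

/-- **Cover theorem** (abstract Kummer chart). -/
theorem normalOverAway_of_cover {π : A} (hπ' : Prime (algebraMap A A' π))
    [IsPrincipalIdealRing (Abar A' (algebraMap A A' π))] (c : A)
    (hcompat : ∀ a : A, algebraMap A A' π ∣ algebraMap A A' a → π ∣ a)
    (hfix : ∀ (g : G) (x : E), g • algebraMap E E' x = algebraMap E E' x)
    (hinv : ∀ y : E', (∀ g : G, g • y = y) → ∃ x : E, algebraMap E E' x = y)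
    (hcard : IsUnit ((Fintype.card G : ℕ) : A))
    (H' : ∀ (p' : A') (hp' : Prime p'), Ideal.span {p', algebraMap A A' π} ≠ ⊤ →
      ¬ p' ∣ algebraMap A A' c → Unr (primeValSubring K' hp') E') :
    NormalOverAway (Abar A π) (Bbar A ↥(integralClosure A E) π) (mkA π c) := by
  obtain ⟨i1, i2, i3⟩ := integralClosure_instances A' K' E'
  have h' : NormalOverAway (Abar A' (algebraMap A A' π))
      (Bbar A' ↥(integralClosure A' E') (algebraMap A A' π))
      (mkA (algebraMap A A' π) (algebraMap A A' c)) :=
    normalOverAway_of_unr (K := K') hπ' (algebraMap A A' c) H'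
  -- integrality over `A'` and over `A` coincide
  have hint : ∀ y : E', IsIntegral A' y → IsIntegral A y := fun y hy =>
    isIntegral_trans (A := A') y hy
  have hint' : ∀ y : E', IsIntegral A y → IsIntegral A' y := fun y hy =>
    IsIntegral.tower_top hy
  have hinjE : Function.Injective (algebraMap E E') := (algebraMap E E').injective
  -- the map `B → B'`
  let ι : ↥(integralClosure A E) →+* ↥(integralClosure A' E') :=
    ((algebraMap E E').comp (algebraMap ↥(integralClosure A E) E)).codRestrict
      (integralClosure A' E').toSubring
      (fun x => hint' _ (x.2.map (IsScalarTower.toAlgHom A E E')))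
  let algBB' : Algebra ↥(integralClosure A E) ↥(integralClosure A' E') := ι.toAlgebra
  have hι : ∀ x : ↥(integralClosure A E),
      ((algebraMap ↥(integralClosure A E) ↥(integralClosure A' E') x : ↥(integralClosure A' E')) :
        E') = algebraMap E E' (x : E) := fun _ => rfl
  have tow1 : IsScalarTower A A' ↥(integralClosure A' E') := by
    refine IsScalarTower.of_algebraMap_eq (fun a => ?_)
    apply Subtype.ext
    change algebraMap A E' a = algebraMap A' E' (algebraMap A A' a)
    rw [← IsScalarTower.algebraMap_apply A A' E']
  have tow2 : IsScalarTower A ↥(integralClosure A E) ↥(integralClosure A' E') := by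
    refine IsScalarTower.of_algebraMap_eq (fun a => ?_)
    apply Subtype.ext
    change algebraMap A E' a = algebraMap E E' (algebraMap A E a)
    rw [← IsScalarTower.algebraMap_apply A E E']
  -- the action of `G` on `B'`
  have hGA : ∀ (g : G) (a : A), g • algebraMap A E' a = algebraMap A E' a := by
    intro g a
    rw [IsScalarTower.algebraMap_apply A E E', hfix]
  have hGint : ∀ (g : G) (y : E'), IsIntegral A' y → IsIntegral A' (g • y) := by
    intro g y hy
    apply hint'
    have hy' := hint y hy
    let φ : E' →ₐ[A] E' :=
      { MulSemiringAction.toRingHom G E' g with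
        commutes' := fun a => hGA g a }
    exact hy'.map φ
  let actB' : MulSemiringAction G ↥(integralClosure A' E') :=
    { smul := fun g y => ⟨g • (y : E'), hGint g _ y.2⟩
      one_smul := fun y => Subtype.ext (one_smul G (y : E'))
      mul_smul := fun g h y => Subtype.ext (mul_smul g h (y : E'))
      smul_zero := fun g => Subtype.ext (smul_zero g)
      smul_add := fun g x y => Subtype.ext (smul_add g (x : E') (y : E'))
      smul_one := fun g => Subtype.ext (smul_one g)
      smul_mul := fun g x y => Subtype.ext (smul_mul' g (x : E') (y : E')) }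
  have hact : ∀ (g : G) (y : ↥(integralClosure A' E')), ((g • y : ↥(integralClosure A' E')) : E') =
      g • (y : E') := fun _ _ => rfl
  refine normalOverAway_descent (A := A) (A' := A') (B := ↥(integralClosure A E))
    (B' := ↥(integralClosure A' E')) (G := G) c hcompat ?_ ?_ ?_ hcard h'
  · -- saturation
    rintro y ⟨w, hw⟩
    have hπ0 : algebraMap A E π ≠ 0 := by
      intro h0
      apply hπ'.ne_zero
      have h1 : algebraMap A' E' (algebraMap A A' π) = 0 := by
        rw [← IsScalarTower.algebraMap_apply A A' E', IsScalarTower.algebraMap_apply A E E', h0,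
          map_zero]
      rwa [IsScalarTower.algebraMap_apply A' K' E', map_eq_zero,
        map_eq_zero_iff _ (IsFractionRing.injective A' K')] at h1
    have hw' : algebraMap E E' (y : E) = algebraMap A E' π * (w : E') := by
      have := congrArg (Subtype.val) hw
      simpa [hι] using this
    have hz : (w : E') = algebraMap E E' ((y : E) / algebraMap A E π) := by
      rw [map_div₀, ← IsScalarTower.algebraMap_apply A E E', hw', mul_div_cancel_left₀]
      rw [IsScalarTower.algebraMap_apply A E E', Ne, map_eq_zero]
      exact hπ0
    have hzint : IsIntegral A ((y : E) / algebraMap A E π) := by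
      have h1 : IsIntegral A (w : E') := hint _ w.2
      rw [hz] at h1
      exact (isIntegral_algebraMap_iff hinjE).mp h1
    refine ⟨⟨(y : E) / algebraMap A E π, hzint⟩, ?_⟩
    apply Subtype.ext
    rw [Algebra.smul_def]
    change (y : E) = algebraMap A E π * ((y : E) / algebraMap A E π)
    rw [mul_div_cancel₀ _ hπ0]
  · -- `G` fixes `B`
    intro g b
    apply Subtype.ext
    rw [hact, hι, hfix]
  · -- invariants
    intro y hy
    have hy' : ∀ g : G, g • (y : E') = (y : E') := fun g => by rw [← hact, hy g]
    obtain ⟨x, hx⟩ := hinv (y : E') hy'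
    have hxint : IsIntegral A x := by
      have h1 : IsIntegral A (y : E') := hint _ y.2
      rw [← hx] at h1
      exact (isIntegral_algebraMap_iff hinjE).mp h1
    exact ⟨⟨x, hxint⟩, Subtype.ext (by rw [hι]; exact hx)⟩

end Cover

end Fermat.Agent.JA
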