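/-
J-A — helper6 — package POLY: an abstract chart ring `A ≅ R[X]` (via `T ∈ A` with `aeval T`
bijective) over a discrete valuation ring `R` of characteristic zero.  Transfer of the ring
theoretic instances along the equivalence, the change of variable `T ↦ T - a`, divisibility by the
uniformizer, and the Gauss valuation subring of `Frac A`.
-/
import Mathlib
import Fermat.Agent.JA.GEO_lead_Spec
import Fermat.Agent.JA.GEO_lead_ValPrime

set_option autoImplicit false
set_option linter.unusedSectionVars false
set_option linter.style.haveILetI false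

open Polynomial

namespace Fermat.Agent.JA

section Equiv

variable {R : Type*} [CommRing R] {A : Type*} [CommRing A] [Algebra R A] (T : A)
  (hT : Function.Bijective (Polynomial.aeval T : R[X] →ₐ[R] A))

/-- the chart equivalence `R[X] ≃ A`, `X ↦ T` -/
noncomputable def polyChartEquiv : R[X] ≃ₐ[R] A := AlgEquiv.ofBijective (aeval T) hT

@[simp] theorem polyChartEquiv_apply (f : R[X]) : polyChartEquiv T hT f = aeval T f := rfl

theorem polyChartEquiv_C (r : R) : polyChartEquiv T hT (C r) = algebraMap R A r := by
  rw [polyChartEquiv_apply, aeval_C]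

theorem polyChartEquiv_X : polyChartEquiv T hT X = T := by
  rw [polyChartEquiv_apply, aeval_X]

include hT in
theorem exists_aeval_eq_of_bijective (x : A) : ∃ f : R[X], aeval T f = x := hT.2 x

include hT in
/-- divisibility transfers along the chart equivalence -/
theorem dvd_iff_aeval_dvd_aeval (f g : R[X]) : f ∣ g ↔ aeval T f ∣ aeval T g := by
  have h := map_dvd_iff (polyChartEquiv T hT) (a := f) (b := g)
  exact h.symm

include hT in
theorem C_dvd_iff_algebraMap_dvd_aeval (r : R) (g : R[X]) :
    C r ∣ g ↔ algebraMap R A r ∣ aeval T g := by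
  rw [dvd_iff_aeval_dvd_aeval T hT, aeval_C]

include hT in
theorem X_dvd_iff_dvd_aeval (g : R[X]) : X ∣ g ↔ T ∣ aeval T g := by
  rw [dvd_iff_aeval_dvd_aeval T hT, aeval_X]

include hT in
/-- change of variable: `T - a` is again a polynomial generator -/
theorem bijective_aeval_sub_algebraMap (a : R) :
    Function.Bijective (Polynomial.aeval (T - algebraMap R A a) : R[X] →ₐ[R] A) := by
  have h : (Polynomial.aeval (T - algebraMap R A a) : R[X] →ₐ[R] A) =
      (Polynomial.aeval T : R[X] →ₐ[R] A).comp
        (Polynomial.algEquivAevalXAddC (-a) : R[X] ≃ₐ[R] R[X]).toAlgHom := by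
    apply Polynomial.algHom_ext
    simp [sub_eq_add_neg]
  rw [h]
  exact hT.comp (Polynomial.algEquivAevalXAddC (-a)).bijective

end Equiv

section Inst

variable {R : Type*} [CommRing R] [IsDomain R] {A : Type*} [CommRing A] [Algebra R A] (T : A)
  (hT : Function.Bijective (Polynomial.aeval T : R[X] →ₐ[R] A))

include hT in
theorem isDomain_of_bijective_aeval : IsDomain A :=
  (polyChartEquiv T hT).symm.toMulEquiv.isDomain R[X]

include hT in
theorem charZero_of_bijective_aeval [CharZero R] : CharZero A :=
  charZero_of_injective_ringHom (f := ((polyChartEquiv T hT : R[X] ≃ₐ[R] A) : R[X] →+* A))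
    (polyChartEquiv T hT).injective

include hT in
theorem isNoetherianRing_of_bijective_aeval [IsNoetherianRing R] : IsNoetherianRing A :=
  isNoetherianRing_of_ringEquiv R[X] (polyChartEquiv T hT).toRingEquiv

include hT in
theorem algebraMap_injective_of_bijective_aeval : Function.Injective (algebraMap R A) := by
  intro x y hxy
  apply Polynomial.C_injective
  apply (polyChartEquiv T hT).injective
  rw [polyChartEquiv_C, polyChartEquiv_C, hxy]

include hT in
theorem uniqueFactorizationMonoid_of_bijective_aeval [UniqueFactorizationMonoid R] :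
    haveI := isDomain_of_bijective_aeval T hT
    UniqueFactorizationMonoid A :=
  haveI := isDomain_of_bijective_aeval T hT
  (polyChartEquiv T hT).toMulEquiv.uniqueFactorizationMonoid inferInstance

include hT in
theorem prime_algebraMap_of_bijective_aeval {π : R} (hπ : Prime π) :
    Prime (algebraMap R A π) := by
  rw [← polyChartEquiv_C T hT]
  exact (MulEquiv.prime_iff (polyChartEquiv T hT).toMulEquiv).2 (prime_C_iff.2 hπ)

include hT in
theorem prime_of_bijective_aeval : Prime T := by
  have h := (MulEquiv.prime_iff (polyChartEquiv T hT).toMulEquiv).2 (Polynomial.prime_X (R := R))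
  have h2 : (polyChartEquiv T hT).toMulEquiv X = T := polyChartEquiv_X T hT
  rwa [h2] at h

include hT in
/-- the generator `T` does not divide nonzero constants -/
theorem not_dvd_algebraMap_of_bijective_aeval {r : R} (hr : r ≠ 0) : ¬ T ∣ algebraMap R A r := by
  intro h
  rw [← aeval_C (R := R) (A := A) T r, ← X_dvd_iff_dvd_aeval T hT, X_dvd_iff, coeff_C_zero] at h
  exact hr h

include hT in
theorem not_dvd_natCast_of_bijective_aeval [CharZero R] {m : ℕ} (hm : m ≠ 0) :
    ¬ T ∣ ((m : ℕ) : A) := by
  have h := not_dvd_algebraMap_of_bijective_aeval T hT (r := ((m : ℕ) : R)) (Nat.cast_ne_zero.2 hm)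
  rwa [map_natCast] at h

include hT in
/-- `A / π` is a principal ideal ring when `R / π` is a field -/
theorem isPrincipalIdealRing_quotient_of_bijective_aeval {π : R}
    (hmax : (Ideal.span {π}).IsMaximal) :
    IsPrincipalIdealRing (A ⧸ Ideal.span {algebraMap R A π}) := by
  letI := Ideal.Quotient.field (Ideal.span {π})
  have h1 : Ideal.span {algebraMap R A π} =
      ((Ideal.span {π}).map (C : R →+* R[X])).map
        ((polyChartEquiv T hT : R[X] ≃+* A) : R[X] →+* A) := by
    rw [Ideal.map_span, Ideal.map_span, Set.image_singleton, Set.image_singleton]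
    congr 2
    exact (polyChartEquiv_C T hT π).symm
  let e : (R ⧸ Ideal.span {π})[X] ≃+* A ⧸ Ideal.span {algebraMap R A π} :=
    (Ideal.polynomialQuotientEquivQuotientPolynomial (Ideal.span {π})).trans
      (Ideal.quotientEquiv _ _ (polyChartEquiv T hT : R[X] ≃+* A) h1)
  exact IsPrincipalIdealRing.of_surjective e.toRingHom e.surjective

end Inst

section Main

variable {R : Type*} [CommRing R] [IsDomain R] [IsDiscreteValuationRing R] [CharZero R]
  {A : Type*} [CommRing A] [Algebra R A] (T : A)
  (hT : Function.Bijective (Polynomial.aeval T : R[X] →ₐ[R] A)) (π : R) (hπ : Irreducible π)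

include hT hπ in
/-- **POLY (1)**: the instances of the chart ring `A ≅ R[X]`. -/
theorem poly_instances :
    IsDomain A ∧ UniqueFactorizationMonoid A ∧ IsNoetherianRing A ∧ CharZero A ∧
      Prime (algebraMap R A π) ∧ IsPrincipalIdealRing (A ⧸ Ideal.span {algebraMap R A π}) := by
  have hπp : Prime π := hπ.prime
  have hmax : (Ideal.span {π}).IsMaximal := by
    rw [← hπ.maximalIdeal_eq]
    infer_instance
  exact ⟨isDomain_of_bijective_aeval T hT, uniqueFactorizationMonoid_of_bijective_aeval T hT,
    isNoetherianRing_of_bijective_aeval T hT, charZero_of_bijective_aeval T hT,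
    prime_algebraMap_of_bijective_aeval T hT hπp,
    isPrincipalIdealRing_quotient_of_bijective_aeval T hT hmax⟩

end Main

end Fermat.Agent.JA
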