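/-
J-A — helper6 — package POLY (2): the plain chart theorem for an abstract chart ring `A ≅ R[X]`
over a discrete valuation ring `R`: `B / π B` is normal away from `c` once `E / K` is unramified over
the Gauss valuation subring and over the valuation subrings containing `A` in which `π` and `c` are
units.
-/
import Mathlib
import Fermat.Agent.JA.GEO_lead_Cover
import Fermat.Agent.JA.KUM_CHART_helper6_Poly

set_option autoImplicit false
set_option linter.unusedSectionVars false
set_option linter.style.haveILetI false

open Polynomial

namespace Fermat.Agent.JA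

section Gauss

variable {R : Type*} [CommRing R] {A : Type*} [CommRing A] [IsDomain A]
  [UniqueFactorizationMonoid A] [Algebra R A] (T : A)
  (hT : Function.Bijective (Polynomial.aeval T : R[X] →ₐ[R] A))
  {K : Type*} [Field K] [Algebra A K] [IsFractionRing A K] [Algebra R K] [IsScalarTower R A K]

omit [IsDomain A] [UniqueFactorizationMonoid A] [IsFractionRing A K] in
theorem aeval_algebraMap_chart (f : R[X]) :
    aeval (algebraMap A K T) f = algebraMap A K (aeval T f) := by
  rw [← Polynomial.aeval_algebraMap_apply]

include hT in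
/-- the valuation subring of the prime `π` of `A ≅ R[X]` is the Gauss valuation subring -/
theorem isGaussAt_primeValSubring {π : R} (hπA : Prime (algebraMap R A π)) :
    IsGaussAt R π (algebraMap A K T) (primeValSubring K hπA) := by
  refine ⟨fun f => ?_, ?_, fun f hf => ?_⟩
  · rw [aeval_algebraMap_chart]
    exact algebraMap_mem_primeValSubring hπA _
  · rw [IsScalarTower.algebraMap_apply R A K]
    exact inv_algebraMap_not_mem_primeValSubring hπA hπA.ne_zero dvd_rfl
  · rw [aeval_algebraMap_chart]
    apply inv_algebraMap_mem_primeValSubring hπA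
    rwa [← C_dvd_iff_algebraMap_dvd_aeval T hT]

end Gauss

section Plain

variable {R : Type*} [CommRing R] [IsDomain R] [IsDiscreteValuationRing R] [CharZero R]
  {A : Type*} [CommRing A] [Algebra R A] (T : A)
  (hT : Function.Bijective (Polynomial.aeval T : R[X] →ₐ[R] A))
  {K : Type*} [Field K] [Algebra A K] [IsFractionRing A K] [Algebra R K] [IsScalarTower R A K]
  {E : Type*} [Field E] [Algebra K E] [FiniteDimensional K E] [Algebra A E] [IsScalarTower A K E]
  (π : R) (hπ : Irreducible π)

include hT hπ in
/-- **POLY (2)**: the plain chart. -/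
theorem normalOverAway_plain (c : A)
    (h1 : ∀ 𝒱 : ValuationSubring K, 𝒱 ≠ ⊤ → (∀ x : A, algebraMap A K x ∈ 𝒱) →
      (algebraMap R K π)⁻¹ ∈ 𝒱 → (algebraMap A K c)⁻¹ ∈ 𝒱 → Unr 𝒱 E)
    (h2 : ∀ 𝒱 : ValuationSubring K, IsGaussAt R π (algebraMap A K T) 𝒱 → Unr 𝒱 E) :
    NormalOverAway (Abar A (algebraMap R A π)) (Bbar A ↥(integralClosure A E) (algebraMap R A π))
      (mkA (algebraMap R A π) c) := by
  obtain ⟨iDom, iUFD, iNoeth, iChar, hπA, iPID⟩ := poly_instances T hT π hπ
  obtain ⟨i1, i2, i3⟩ := integralClosure_instances A K E
  refine normalOverAway_of_unr (K := K) hπA c ?_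
  intro p hp _ hpc
  by_cases hassoc : Associated p (algebraMap R A π)
  · rw [primeValSubring_eq_of_associated hp hπA hassoc]
    exact h2 _ (isGaussAt_primeValSubring T hT hπA)
  · refine h1 _ (primeValSubring_ne_top hp) (fun x => algebraMap_mem_primeValSubring hp x) ?_ ?_
    · rw [IsScalarTower.algebraMap_apply R A K]
      apply inv_algebraMap_mem_primeValSubring hp
      intro hdvd
      exact hassoc (hp.irreducible.associated_of_dvd hπA.irreducible hdvd)
    · exact inv_algebraMap_mem_primeValSubring hp hpc

end Plain

end Fermat.Agent.JA
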