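/-
J-A — helper6 — GAUSS-UNIQ: existence, uniqueness and discreteness of the Gauss valuation subring
of `K = K₁(t)` (`K₁ = Frac R`, `R` a discrete valuation ring, `t` transcendental over `K₁`) with
respect to a uniformizer `π` of `R`.
-/
import Mathlib
import Fermat.Agent.JA.GEO_lead_Spec
import Fermat.Agent.JA.GEO_lead_ValPrime
import Fermat.Agent.JA.KUM_CHART_helper6_Plain
import Fermat.Agent.JA.CHARTADJ_helper6_Adjoin

set_option autoImplicit false
set_option linter.unusedSectionVars false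
set_option linter.style.haveILetI false

open Polynomial

namespace Fermat.Agent.JA

section GaussUniq

variable {R : Type*} [CommRing R] [IsDomain R] [IsDiscreteValuationRing R] [CharZero R]
  {K₁ : Type*} [Field K₁] [Algebra R K₁] [IsFractionRing R K₁]
  {K : Type*} [Field K] [Algebra K₁ K] [Algebra R K] [IsScalarTower R K₁ K]
  (π : R) (hπ : Irreducible π) (t : K) (ht : Transcendental K₁ t)
  (hK : IntermediateField.adjoin K₁ {t} = ⊤)

include hπ ht hK in
/-- every Gauss valuation subring is the valuation subring of the prime `π` of `R[t]` -/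
theorem isGaussAt_iff_eq_primeValSubring_adjoin :
    haveI := isFractionRing_adjoin (R := R) (K₁ := K₁) t hK
    ∃ (_ : IsDomain ↥(Algebra.adjoin R {t})) (_ : UniqueFactorizationMonoid ↥(Algebra.adjoin R {t}))
      (hπA : Prime (algebraMap R ↥(Algebra.adjoin R {t}) π)),
      ∀ 𝒱 : ValuationSubring K, IsGaussAt R π t 𝒱 ↔ 𝒱 = primeValSubring K hπA := by
  haveI := isFractionRing_adjoin (R := R) (K₁ := K₁) t hK
  have hT := aeval_adjoin_bijective (R := R) (K₁ := K₁) t ht
  obtain ⟨iDom, iUFD, -, -, hπA, -⟩ := poly_instances _ hT π hπ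
  refine ⟨iDom, iUFD, hπA, fun 𝒱 => ⟨fun h => ?_, fun h => ?_⟩⟩
  · obtain ⟨h1, h2, h3⟩ := h
    refine eq_primeValSubring hπA 𝒱 (fun a => ?_) (fun b hb => ?_) ?_
    · obtain ⟨f, rfl⟩ := hT.2 a
      have := h1 f
      rwa [← coe_aeval_adjoin_gen] at this
    · obtain ⟨f, rfl⟩ := hT.2 b
      have hf : ¬ C π ∣ f := by
        rwa [C_dvd_iff_algebraMap_dvd_aeval _ hT]
      have := h3 f hf
      rwa [← coe_aeval_adjoin_gen] at this
    · exact h2
  · rw [h]
    exact isGaussAt_primeValSubring (K := K)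
      (⟨t, Algebra.self_mem_adjoin_singleton R t⟩ : ↥(Algebra.adjoin R {t})) hT hπA

include hπ ht hK in
/-- **GAUSS-UNIQ (a)**: the Gauss valuation subring exists. -/
theorem exists_isGaussAt : ∃ 𝒱 : ValuationSubring K, IsGaussAt R π t 𝒱 := by
  haveI := isFractionRing_adjoin (R := R) (K₁ := K₁) t hK
  obtain ⟨iDom, iUFD, hπA, h⟩ := isGaussAt_iff_eq_primeValSubring_adjoin π hπ t ht hK
  exact ⟨primeValSubring K hπA, (h _).2 rfl⟩

include hπ ht hK in
/-- **GAUSS-UNIQ (b)**: the Gauss valuation subring is unique. -/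
theorem isGaussAt_unique {𝒱 𝒱' : ValuationSubring K} (h : IsGaussAt R π t 𝒱)
    (h' : IsGaussAt R π t 𝒱') : 𝒱 = 𝒱' := by
  haveI := isFractionRing_adjoin (R := R) (K₁ := K₁) t hK
  obtain ⟨iDom, iUFD, hπA, hiff⟩ := isGaussAt_iff_eq_primeValSubring_adjoin π hπ t ht hK
  rw [(hiff 𝒱).1 h, (hiff 𝒱').1 h']

include hπ ht hK in
/-- **GAUSS-UNIQ (c)**: the Gauss valuation subring is a discrete valuation ring. -/
theorem isDiscreteValuationRing_of_isGaussAt {𝒱 : ValuationSubring K} (h : IsGaussAt R π t 𝒱) :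
    IsDiscreteValuationRing ↥𝒱 := by
  haveI := isFractionRing_adjoin (R := R) (K₁ := K₁) t hK
  obtain ⟨iDom, iUFD, hπA, hiff⟩ := isGaussAt_iff_eq_primeValSubring_adjoin π hπ t ht hK
  rw [(hiff 𝒱).1 h]
  exact isDiscreteValuationRing_primeValSubring hπA

include hπ ht hK in
/-- `π` is a uniformizer of the Gauss valuation subring -/
theorem irreducible_of_isGaussAt {𝒱 : ValuationSubring K} (h : IsGaussAt R π t 𝒱)
    (hmem : algebraMap R K π ∈ 𝒱) : Irreducible (⟨algebraMap R K π, hmem⟩ : ↥𝒱) := by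
  haveI := isFractionRing_adjoin (R := R) (K₁ := K₁) t hK
  obtain ⟨iDom, iUFD, hπA, hiff⟩ := isGaussAt_iff_eq_primeValSubring_adjoin π hπ t ht hK
  have h𝒱 := (hiff 𝒱).1 h
  subst h𝒱
  have h1 := irreducible_primeValSubring (K := K) hπA
  have h2 : (⟨algebraMap ↥(Algebra.adjoin R {t}) K (algebraMap R ↥(Algebra.adjoin R {t}) π),
      algebraMap_mem_primeValSubring hπA _⟩ : ↥(primeValSubring K hπA)) =
      ⟨algebraMap R K π, hmem⟩ := Subtype.ext rfl
  rwa [h2] at h1

include hπ ht hK in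
/-- membership in the Gauss valuation subring: fractions `aeval t f / aeval t g` with `π ∤ g` -/
theorem mem_of_isGaussAt_iff {𝒱 : ValuationSubring K} (h : IsGaussAt R π t 𝒱) (x : K) :
    x ∈ 𝒱 ↔ ∃ f g : R[X], ¬ C π ∣ g ∧ x * aeval t g = aeval t f := by
  haveI := isFractionRing_adjoin (R := R) (K₁ := K₁) t hK
  have hT := aeval_adjoin_bijective (R := R) (K₁ := K₁) t ht
  obtain ⟨iDom, iUFD, hπA, hiff⟩ := isGaussAt_iff_eq_primeValSubring_adjoin π hπ t ht hK
  have h𝒱 := (hiff 𝒱).1 h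
  subst h𝒱
  rw [mem_primeValSubring_iff]
  constructor
  · rintro ⟨a, b, hb, hx⟩
    obtain ⟨f, rfl⟩ := hT.2 a
    obtain ⟨g, rfl⟩ := hT.2 b
    refine ⟨f, g, ?_, ?_⟩
    · rwa [C_dvd_iff_algebraMap_dvd_aeval _ hT]
    · rw [← coe_aeval_adjoin_gen, ← coe_aeval_adjoin_gen]
      exact hx
  · rintro ⟨f, g, hg, hx⟩
    refine ⟨aeval (⟨t, Algebra.self_mem_adjoin_singleton R t⟩ : ↥(Algebra.adjoin R {t})) f,
      aeval (⟨t, Algebra.self_mem_adjoin_singleton R t⟩ : ↥(Algebra.adjoin R {t})) g, ?_, ?_⟩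
    · rwa [← C_dvd_iff_algebraMap_dvd_aeval _ hT]
    · rw [← coe_aeval_adjoin_gen, ← coe_aeval_adjoin_gen] at hx
      exact hx

end GaussUniq

end Fermat.Agent.JA
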