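/-
J-A programme, GEO (lead): **GEO(b)** — from normality of the two charts and connectedness
(`conn_idempotent`) to uniqueness of the extension of the Gauss valuation.
Part 1: chart-level lemmas (fraction-free passage between `W = integralClosure 𝒱_p E` and
`B = integralClosure A E`).
-/
import Mathlib
import Fermat.Agent.JA.GEO_lead_ValPrime
import Fermat.Agent.JA.GEO_lead_Spec
import Fermat.Agent.JA.PUR_lead_Main

set_option autoImplicit false

namespace Fermat.Agent.JA

section Chart

variable {A : Type*} [CommRing A] [IsDomain A] [UniqueFactorizationMonoid A]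
  {K : Type*} [Field K] [Algebra A K] [IsFractionRing A K]
  {E : Type*} [Field E] [Algebra K E] [Algebra A E] [IsScalarTower A K E]
  {p : A} (hp : Prime p)

theorem isScalarTower_primeValSubring :
    letI := primeValSubringAlgebra (K := K) hp
    IsScalarTower A ↥(primeValSubring K hp) E := by
  letI := primeValSubringAlgebra (K := K) hp
  refine IsScalarTower.of_algebraMap_eq (fun a => ?_)
  rw [IsScalarTower.algebraMap_apply A K E, IsScalarTower.algebraMap_apply ↥(primeValSubring K hp) K E]
  rfl

/-- Elements integral over `𝒱_p` become integral over `A` after multiplication by some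
`σ ∈ A`, `p ∤ σ`. -/
theorem exists_mul_isIntegral (w : E) (hw : IsIntegral ↥(primeValSubring K hp) w) :
    ∃ σ : A, ¬ p ∣ σ ∧ IsIntegral A (algebraMap A E σ * w) := by
  have hP : (Ideal.span {p}).IsPrime := (Ideal.span_singleton_prime hp.ne_zero).mpr hp
  letI := primeValSubringAlgebra (K := K) hp
  have tow := isScalarTower_primeValSubring (K := K) (E := E) hp
  have loc := primeValSubring_isLocalization (K := K) hp (Ideal.span {p}) rfl
  obtain ⟨⟨σ, hσ⟩, hint⟩ := IsIntegral.exists_multiple_integral_of_isLocalization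
    (Ideal.span {p}).primeCompl (Rₘ := ↥(primeValSubring K hp)) w hw
  refine ⟨σ, ?_, ?_⟩
  · rwa [Ideal.mem_primeCompl_iff, Ideal.mem_span_singleton] at hσ
  · rwa [Submonoid.smul_def, Algebra.smul_def] at hint

/-- Elements of `A` not divisible by `p` are units of `integralClosure 𝒱_p E`. -/
theorem isIntegral_inv_algebraMap {σ : A} (hσ : ¬ p ∣ σ) :
    IsIntegral ↥(primeValSubring K hp) (algebraMap A E σ)⁻¹ := by
  have h := inv_algebraMap_mem_primeValSubring (K := K) hp hσ
  have : (algebraMap A E σ)⁻¹ =
      algebraMap ↥(primeValSubring K hp) E ⟨(algebraMap A K σ)⁻¹, h⟩ := by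
    rw [IsScalarTower.algebraMap_apply A K E, ← map_inv₀]
    rfl
  rw [this]
  exact isIntegral_algebraMap

theorem isIntegral_primeValSubring_of_isIntegral {x : E} (hx : IsIntegral A x) :
    IsIntegral ↥(primeValSubring K hp) x := by
  letI := primeValSubringAlgebra (K := K) hp
  have tow := isScalarTower_primeValSubring (K := K) (E := E) hp
  exact hx.tower_top

variable [IsIntegrallyClosed ↥(integralClosure A E)] [FaithfulSMul A E]

/-- **Saturation**: `π W ∩ B = π B`. -/
theorem isIntegral_of_mul_eq {x w' : E} (hx : IsIntegral A x)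
    (hw' : IsIntegral ↥(primeValSubring K hp) w') (h : x = algebraMap A E p * w') :
    IsIntegral A w' := by
  obtain ⟨σ, hσ, hint⟩ := exists_mul_isIntegral (E := E) hp w' hw'
  have hAint : Algebra.IsIntegral A ↥(integralClosure A E) :=
    ⟨fun y => (isIntegral_algebraMap_iff (B := E) Subtype.val_injective).mp y.2⟩
  have htf : Module.IsTorsionFree A ↥(integralClosure A E) := by
    apply Module.IsTorsionFree.of_smul_eq_zero
    intro r m hrm
    rw [Algebra.smul_def, mul_eq_zero] at hrm
    rcases hrm with hr | hm
    · left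
      have h1 : algebraMap A E r = 0 := congrArg Subtype.val hr
      exact (map_eq_zero_iff _ (FaithfulSMul.algebraMap_injective A E)).mp h1
    · exact Or.inr hm
  have hsat := exists_eq_smul_of_smul_eq_smul (B := ↥(integralClosure A E)) hp hσ
    (x := ⟨x, hx⟩) (y := ⟨algebraMap A E σ * w', hint⟩) (by
      apply Subtype.ext
      change σ • x = p • (algebraMap A E σ * w')
      rw [Algebra.smul_def, Algebra.smul_def, h]; ring)
  obtain ⟨c, hc⟩ := hsat
  have hc' : x = algebraMap A E p * (c : E) := by
    have := congrArg Subtype.val hc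
    change x = p • (c : E) at this
    rwa [Algebra.smul_def] at this
  have hp0 : algebraMap A E p ≠ 0 := by
    rw [Ne, map_eq_zero_iff _ (FaithfulSMul.algebraMap_injective A E)]; exact hp.ne_zero
  have : w' = (c : E) := by
    apply mul_left_cancel₀ hp0
    rw [← h, ← hc']
  rw [this]
  exact c.2

/-- **Idempotents descend to the chart**: an element `w` of `W = integralClosure 𝒱_p E` which is
idempotent modulo `p W` is congruent modulo `p W` to an element `e` of `B = integralClosure A E`
which is idempotent modulo `p B`, provided `B / p B` is fraction-free normal over `A / p`. -/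
theorem exists_idem_chart
    (N : NormalOver (Abar A p) (Bbar A ↥(integralClosure A E) p))
    (w w' : E) (hw : IsIntegral ↥(primeValSubring K hp) w)
    (hw' : IsIntegral ↥(primeValSubring K hp) w')
    (h : w * w - w = algebraMap A E p * w') :
    ∃ e : E, IsIntegral A e ∧
      (∃ v : E, IsIntegral ↥(primeValSubring K hp) v ∧ w - e = algebraMap A E p * v) ∧
      ∃ y : E, IsIntegral A y ∧ e * e - e = algebraMap A E p * y := by
  obtain ⟨σ, hσ, hb⟩ := exists_mul_isIntegral (E := E) hp w hw
  set σE : E := algebraMap A E σ with hσE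
  have hσ0 : σE ≠ 0 := by
    rw [hσE, Ne, map_eq_zero_iff _ (FaithfulSMul.algebraMap_injective A E)]
    rintro rfl
    exact hσ (dvd_zero p)
  have hσint : IsIntegral ↥(primeValSubring K hp) σE :=
    isIntegral_primeValSubring_of_isIntegral hp isIntegral_algebraMap
  -- `b ^ 2 - σ b = p (σ² w')`
  have hy₀ : IsIntegral A (σE * σE * w') := by
    refine isIntegral_of_mul_eq (K := K) hp (x := (σE * w) * (σE * w) - σE * (σE * w)) ?_ ?_ ?_
    · exact (hb.mul hb).sub (isIntegral_algebraMap.mul hb)
    · exact (hσint.mul hσint).mul hw'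
    · have : σE * w * (σE * w) - σE * (σE * w) = σE * σE * (w * w - w) := by ring
      rw [this, h]; ring
  -- the equation in `B / p B`
  set b : ↥(integralClosure A E) := ⟨σE * w, hb⟩ with hbdef
  set y₀ : ↥(integralClosure A E) := ⟨σE * σE * w', hy₀⟩ with hy₀def
  have hBeq : b * b - σ • b = p • y₀ := by
    apply Subtype.ext
    change σE * w * (σE * w) - σ • (σE * w) = p • (σE * σE * w')
    rw [Algebra.smul_def, Algebra.smul_def, ← hσE]
    have : σE * w * (σE * w) - σE * (σE * w) = σE * σE * (w * w - w) := by ring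
    rw [this, h]; ring
  have ha : mkA p σ ≠ 0 := by rwa [Ne, mkA_eq_zero_iff]
  have hx2 : mkB (A := A) p b ^ 2 = mkA p σ • mkB (A := A) p b := by
    have h1 : mkB (A := A) p (b * b - σ • b) = 0 := by
      rw [hBeq, mkB_eq_zero_iff]; exact ⟨y₀, rfl⟩
    rw [map_sub, sub_eq_zero, map_mul, mkB_smul] at h1
    rw [pow_two, h1]
  obtain ⟨zbar, hz⟩ := N (mkB (A := A) p b) (mkA p σ) ha ⟨1, fun i => if i = 1 then 1 else 0, by
    rw [Finset.sum_range_succ, Finset.sum_range_one]
    simp only [zero_ne_one, if_false, if_true, zero_mul, zero_add, one_mul, Nat.add_sub_cancel,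
      pow_one]
    rw [hx2, Algebra.smul_def]⟩
  obtain ⟨z, rfl⟩ := Ideal.Quotient.mk_surjective zbar
  have h2 : mkB (A := A) p (b - σ • z) = 0 := by
    rw [map_sub, mkB_smul, sub_eq_zero]; exact hz
  obtain ⟨c, hc⟩ := (mkB_eq_zero_iff p _).mp h2
  have hc' : σE * w - σE * (z : E) = algebraMap A E p * (c : E) := by
    have := congrArg Subtype.val hc
    change σE * w - σ • (z : E) = p • (c : E) at this
    rwa [Algebra.smul_def, Algebra.smul_def, ← hσE] at this
  -- `v := σ⁻¹ c`
  have hv : IsIntegral ↥(primeValSubring K hp) (σE⁻¹ * (c : E)) :=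
    (isIntegral_inv_algebraMap hp hσ).mul (isIntegral_primeValSubring_of_isIntegral hp c.2)
  have hwe : w - (z : E) = algebraMap A E p * (σE⁻¹ * (c : E)) := by
    have : w - (z : E) = σE⁻¹ * (σE * w - σE * (z : E)) := by
      field_simp
    rw [this, hc']; ring
  refine ⟨(z : E), z.2, ⟨_, hv, hwe⟩, ?_⟩
  set v : E := σE⁻¹ * (c : E) with hvdef
  set P : E := algebraMap A E p with hPdef
  have hzw : (z : E) = w - P * v := by rw [← hwe]; ring
  have hzint : IsIntegral ↥(primeValSubring K hp) (z : E) :=
    isIntegral_primeValSubring_of_isIntegral hp z.2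
  have hPint : IsIntegral ↥(primeValSubring K hp) P :=
    isIntegral_primeValSubring_of_isIntegral hp isIntegral_algebraMap
  have hy₁ : IsIntegral ↥(primeValSubring K hp) (w' - 2 * v * w + P * v * v + v) := by
    have h2 : IsIntegral ↥(primeValSubring K hp) (2 : E) := by
      have : (2 : E) = algebraMap ↥(primeValSubring K hp) E 2 := (map_ofNat _ 2).symm
      rw [this]; exact isIntegral_algebraMap
    exact ((hw'.sub ((h2.mul hv).mul hw)).add ((hPint.mul hv).mul hv)).add hv
  have heq : (z : E) * (z : E) - (z : E) = P * (w' - 2 * v * w + P * v * v + v) := by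
    rw [hzw]
    have : (w - P * v) * (w - P * v) - (w - P * v) =
        (w * w - w) + P * (- 2 * v * w + P * v * v + v) := by ring
    rw [this, h]; ring
  refine ⟨_, ?_, heq⟩
  exact isIntegral_of_mul_eq (K := K) hp ((z.2.mul z.2).sub z.2) hy₁ heq

end Chart

end Fermat.Agent.JA
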