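/-
J-A — helper7 — CHART-ADJ (iv), (v): finiteness of the integral closure of `R[t]` in a finite
extension `E / K₁(t)`, and `intcl(R[t], E) ∩ intcl(R[t⁻¹], E) = R` when `K₁` is algebraically
closed in `E`.
-/
import Mathlib
import Fermat.Agent.JA.CHARTADJ_helper6_Adjoin

set_option autoImplicit false
set_option linter.unusedSectionVars false
set_option linter.style.haveILetI false

open Polynomial

namespace Fermat.Agent.JA

section ChartAdj7

variable {R : Type*} [CommRing R] [IsDomain R] {K₁ : Type*} [Field K₁] [Algebra R K₁]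
  [IsFractionRing R K₁] {K : Type*} [Field K] [Algebra K₁ K] [Algebra R K] [IsScalarTower R K₁ K]
  {E : Type*} [Field E] [Algebra K E] [Algebra K₁ E] [IsScalarTower K₁ K E] [Algebra R E]
  [IsScalarTower R K E]

/-- `R[X] ≃ R[t]` as rings. -/
noncomputable def adjoinPolyEquiv (t : K) (ht : Transcendental K₁ t) :
    R[X] ≃ₐ[R] ↥(Algebra.adjoin R {t}) :=
  AlgEquiv.ofBijective _ (aeval_adjoin_bijective (R := R) t ht)

theorem isIntegrallyClosed_adjoin [IsIntegrallyClosed R] (t : K) (ht : Transcendental K₁ t) :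
    IsIntegrallyClosed ↥(Algebra.adjoin R {t}) :=
  IsIntegrallyClosed.of_equiv (adjoinPolyEquiv (R := R) t ht).toRingEquiv

theorem isNoetherianRing_adjoin [IsNoetherianRing R] (t : K) (ht : Transcendental K₁ t) :
    IsNoetherianRing ↥(Algebra.adjoin R {t}) :=
  isNoetherianRing_of_ringEquiv R[X] (adjoinPolyEquiv (R := R) t ht).toRingEquiv

theorem transcendental_inv_of_transcendental {t : K} (ht : Transcendental K₁ t) :
    Transcendental K₁ t⁻¹ := by
  intro h
  apply ht
  have := h.inv
  rwa [inv_inv] at this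

theorem adjoin_inv_eq_top {t : K} (hK : IntermediateField.adjoin K₁ {t} = ⊤) :
    IntermediateField.adjoin K₁ {t⁻¹} = ⊤ := by
  rw [eq_top_iff, ← hK, IntermediateField.adjoin_le_iff]
  intro y hy
  have hy' : y = t := hy
  rw [hy']
  have h : t⁻¹ ∈ IntermediateField.adjoin K₁ {t⁻¹} :=
    IntermediateField.subset_adjoin K₁ _ (Set.mem_singleton _)
  have := inv_mem h
  rwa [inv_inv] at this

/-- the coefficients of the minimal polynomial over `K = Frac R[t]` of an element integral over
`R[t]` lie in `R[t]`. -/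
theorem minpoly_coeff_mem_adjoin [IsIntegrallyClosed R] (t : K) (ht : Transcendental K₁ t)
    (hK : IntermediateField.adjoin K₁ {t} = ⊤) (x : E)
    (h : IsIntegral ↥(Algebra.adjoin R {t}) x) (i : ℕ) :
    (minpoly K x).coeff i ∈ Algebra.adjoin R {t} := by
  haveI : IsFractionRing ↥(Algebra.adjoin R {t}) K := isFractionRing_adjoin (R := R) t hK
  haveI : IsIntegrallyClosed ↥(Algebra.adjoin R {t}) := isIntegrallyClosed_adjoin (R := R) t ht
  rw [minpoly.isIntegrallyClosed_eq_field_fractions' K h, coeff_map]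
  exact ((minpoly ↥(Algebra.adjoin R {t}) x).coeff i).2

/-- `R[t] ∩ R[t⁻¹] = R` inside `K`, for `t` transcendental. -/
theorem mem_range_of_mem_adjoin_of_mem_adjoin_inv (t : K) (ht : Transcendental K₁ t) (c : K)
    (h₁ : c ∈ Algebra.adjoin R {t}) (h₂ : c ∈ Algebra.adjoin R {t⁻¹}) :
    c ∈ Set.range (algebraMap R K) := by
  have htR : Transcendental R t := ht.restrictScalars (IsFractionRing.injective R K₁)
  have ht0 : t ≠ 0 := by
    rintro rfl
    exact ht (isAlgebraic_zero)
  rw [Algebra.adjoin_singleton_eq_range_aeval] at h₁ h₂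
  obtain ⟨p, rfl⟩ := h₁
  obtain ⟨q, hq⟩ := h₂
  by_cases hp : p = 0
  · exact ⟨0, by rw [hp, map_zero, map_zero]⟩
  have h1 : aeval t (p * X ^ q.natDegree) = aeval t (reflect q.natDegree q) := by
    have h2 : aeval t⁻¹ q = aeval t p := hq
    rw [aeval_inv_eq_aeval_reflect_mul t ht0 q] at h2
    rw [map_mul, map_pow, aeval_X, ← h2, mul_assoc, ← mul_pow, inv_mul_cancel₀ ht0, one_pow, mul_one]
  have h3 : p * X ^ q.natDegree = reflect q.natDegree q :=
    (transcendental_iff_injective.1 htR) h1
  have h4 : (p * X ^ q.natDegree).natDegree ≤ q.natDegree := by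
    rw [h3]
    exact (natDegree_reflect_le).trans (by rw [max_self])
  rw [natDegree_mul_X_pow _ hp] at h4
  have h5 : p.natDegree = 0 := by omega
  rw [natDegree_eq_zero] at h5
  obtain ⟨a, rfl⟩ := h5
  refine ⟨a, ?_⟩
  show algebraMap R K a = aeval t (C a)
  rw [aeval_C]

/-- **CHART-ADJ (v)**: an element of `E` integral over both `R[t]` and `R[t⁻¹]` lies in `R`,
provided `K₁` is algebraically closed in `E`. -/
theorem exists_algebraMap_eq_of_isIntegral_both [IsIntegrallyClosed R] (t : K)
    (ht : Transcendental K₁ t) (hK : IntermediateField.adjoin K₁ {t} = ⊤)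
    (hM4 : ∀ x : E, IsAlgebraic K₁ x → x ∈ Set.range (algebraMap K₁ E)) (x : E)
    (h₁ : IsIntegral ↥(Algebra.adjoin R {t}) x) (h₂ : IsIntegral ↥(Algebra.adjoin R {t⁻¹}) x) :
    ∃ r : R, algebraMap R E r = x := by
  haveI : IsScalarTower R K₁ E := IsScalarTower.of_algebraMap_eq fun r => by
    rw [IsScalarTower.algebraMap_apply R K E, IsScalarTower.algebraMap_apply R K₁ K,
      ← IsScalarTower.algebraMap_apply K₁ K E]
  -- the minimal polynomial of `x` over `K` has coefficients in `R`
  have hcoef : ∀ i, (minpoly K x).coeff i ∈ Set.range (algebraMap R K) := fun i =>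
    mem_range_of_mem_adjoin_of_mem_adjoin_inv (R := R) t ht _
      (minpoly_coeff_mem_adjoin t ht hK x h₁ i)
      (minpoly_coeff_mem_adjoin t⁻¹ (transcendental_inv_of_transcendental ht)
        (adjoin_inv_eq_top hK) x h₂ i)
  have hxK : IsIntegral K x := h₁.tower_top
  have hlift : minpoly K x ∈ Polynomial.lifts (algebraMap R K) :=
    (lifts_iff_coeff_lifts _).2 hcoef
  obtain ⟨P₀, hP₀, -, hmonic⟩ := lifts_and_degree_eq_and_monic hlift (minpoly.monic hxK)
  have hintR : IsIntegral R x := by
    refine ⟨P₀, hmonic, ?_⟩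
    have h0 : aeval x (P₀.map (algebraMap R K)) = 0 := by rw [hP₀, minpoly.aeval]
    rw [aeval_map_algebraMap] at h0
    exact h0
  -- hence `x` is algebraic over `K₁`, so it lies in `K₁`, hence in `R`
  have halg : IsAlgebraic K₁ x := (hintR.tower_top (A := K₁)).isAlgebraic
  obtain ⟨a, rfl⟩ := hM4 x halg
  have ha : IsIntegral R a :=
    (isIntegral_algebraMap_iff (algebraMap K₁ E).injective).1 hintR
  obtain ⟨r, rfl⟩ := IsIntegrallyClosed.isIntegral_iff.1 ha
  exact ⟨r, IsScalarTower.algebraMap_apply R K₁ E r⟩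

/-- **CHART-ADJ (iv)**: the integral closure of `R[t]` in `E` is a finite `R[t]`-module. -/
theorem exists_finset_span_integralClosure [IsIntegrallyClosed R] [IsNoetherianRing R] [CharZero R]
    [FiniteDimensional K E] (t : K) (ht : Transcendental K₁ t)
    (hK : IntermediateField.adjoin K₁ {t} = ⊤) :
    ∃ s : Finset E, (∀ b ∈ s, IsIntegral ↥(Algebra.adjoin R {t}) b) ∧
      ∀ x : E, IsIntegral ↥(Algebra.adjoin R {t}) x →
        ∃ c : E → R[X], x = ∑ b ∈ s, aeval (algebraMap K E t) (c b) * b := by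
  classical
  haveI : IsFractionRing ↥(Algebra.adjoin R {t}) K := isFractionRing_adjoin (R := R) t hK
  haveI : IsIntegrallyClosed ↥(Algebra.adjoin R {t}) := isIntegrallyClosed_adjoin (R := R) t ht
  haveI : IsNoetherianRing ↥(Algebra.adjoin R {t}) := isNoetherianRing_adjoin (R := R) t ht
  have hinj : Function.Injective (algebraMap R K) := by
    rw [IsScalarTower.algebraMap_eq R K₁ K]
    exact (algebraMap K₁ K).injective.comp (IsFractionRing.injective R K₁)
  haveI : CharZero K := charZero_of_injective_algebraMap hinj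
  haveI : Algebra.IsSeparable K E := Algebra.IsAlgebraic.isSeparable_of_perfectField
  haveI : Module.Finite ↥(Algebra.adjoin R {t}) ↥(integralClosure ↥(Algebra.adjoin R {t}) E) :=
    IsIntegralClosure.finite ↥(Algebra.adjoin R {t}) K E _
  obtain ⟨s₀, hs₀⟩ := (Module.finite_def (R := ↥(Algebra.adjoin R {t}))
    (M := ↥(integralClosure ↥(Algebra.adjoin R {t}) E))).1 inferInstance
  refine ⟨s₀.image Subtype.val, ?_, ?_⟩
  · intro b hb
    obtain ⟨b', -, rfl⟩ := Finset.mem_image.1 hb
    exact b'.2
  · intro x hx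
    have hmem : (⟨x, hx⟩ : ↥(integralClosure ↥(Algebra.adjoin R {t}) E)) ∈
        Submodule.span ↥(Algebra.adjoin R {t}) (s₀ : Set _) := by
      rw [hs₀]; trivial
    obtain ⟨f, -, hf⟩ := Submodule.mem_span_finset.1 hmem
    -- polynomial representatives of the coefficients
    have hsurj := (aeval_adjoin_bijective (R := R) t ht).2
    choose g hg using hsurj
    refine ⟨fun e => if h : e ∈ integralClosure ↥(Algebra.adjoin R {t}) E then g (f ⟨e, h⟩)
      else 0, ?_⟩
    rw [Finset.sum_image (fun a _ b _ hab => Subtype.ext hab)]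
    have hx' : x = ((∑ a ∈ s₀, f a • a : ↥(integralClosure ↥(Algebra.adjoin R {t}) E)) : E) :=
      (congrArg (Subtype.val) hf).symm
    refine hx'.trans ?_
    rw [show ((∑ a ∈ s₀, f a • a : ↥(integralClosure ↥(Algebra.adjoin R {t}) E)) : E)
        = ∑ a ∈ s₀, ((f a • a : ↥(integralClosure ↥(Algebra.adjoin R {t}) E)) : E) from
      map_sum (integralClosure ↥(Algebra.adjoin R {t}) E).val _ _]
    refine Finset.sum_congr rfl (fun b _ => ?_)
    have e0 : (if h : (b : E) ∈ integralClosure ↥(Algebra.adjoin R {t}) E then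
        g (f ⟨(b : E), h⟩) else 0) = g (f b) := dif_pos b.2
    show _ = aeval (algebraMap K E t) (if h : (b : E) ∈ integralClosure ↥(Algebra.adjoin R {t}) E
      then g (f ⟨(b : E), h⟩) else 0) * (b : E)
    rw [e0]
    have e1 : ((f b • b : ↥(integralClosure ↥(Algebra.adjoin R {t}) E)) : E)
        = algebraMap K E ((f b : ↥(Algebra.adjoin R {t})) : K) * (b : E) := by
      rw [Subalgebra.coe_smul, Algebra.smul_def]
      rfl
    rw [e1]
    congr 1
    have e2 : ((f b : ↥(Algebra.adjoin R {t})) : K) = aeval t (g (f b)) := by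
      rw [← coe_aeval_adjoin_gen, hg]
    rw [e2]
    exact (aeval_algebraMap_apply (R := R) E t _).symm

end ChartAdj7

end Fermat.Agent.JA
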