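/-
J-A package CONN — helper9. Module-theoretic lemmas: the bound on `π`-power torsion of
`M / N` when `M ≤ F + N` with `F` finitely generated over a noetherian ring, and the
decomposition `B₁₂ = F + B₁ + B₂` for the two-chart situation.
-/
import Mathlib

set_option autoImplicit false

namespace Fermat.Agent.JA

section Torsion

variable {R : Type*} [CommRing R] [IsNoetherianRing R] {E : Type*} [AddCommGroup E] [Module R E]

/-- the chain of submodules `{f ∈ F | π ^ n • f ∈ N}` of `F`. -/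
def torsionChain (π : R) (F N : Submodule R E) : ℕ →o Submodule R F where
  toFun n :=
    { carrier := {f | π ^ n • (f : E) ∈ N}
      add_mem' := by
        intro a b ha hb
        change π ^ n • ((a + b : F) : E) ∈ N
        rw [Submodule.coe_add, smul_add]
        exact N.add_mem ha hb
      zero_mem' := by
        change π ^ n • ((0 : F) : E) ∈ N
        rw [Submodule.coe_zero, smul_zero]
        exact N.zero_mem
      smul_mem' := by
        intro r a ha
        change π ^ n • ((r • a : F) : E) ∈ N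
        rw [Submodule.coe_smul, smul_comm]
        exact N.smul_mem r ha }
  monotone' := by
    intro n m hnm f hf
    obtain ⟨k, rfl⟩ := Nat.exists_eq_add_of_le hnm
    change π ^ (n + k) • (f : E) ∈ N
    rw [add_comm, pow_add, mul_smul]
    exact N.smul_mem _ hf

omit [IsNoetherianRing R] in
theorem mem_torsionChain (π : R) (F N : Submodule R E) (n : ℕ) (f : F) :
    f ∈ torsionChain π F N n ↔ π ^ n • (f : E) ∈ N := Iff.rfl

/-- **bounded `π`-power torsion**: if `M ≤ F + N` with `F` finitely generated, there is `c` such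
that `π ^ n • y ∈ N` (any `n`) implies `π ^ c • y ∈ N`, for `y ∈ M`. -/
theorem exists_torsion_bound (π : R) (F N M : Submodule R E) (hF : F.FG) (hM : M ≤ F ⊔ N) :
    ∃ c : ℕ, ∀ y ∈ M, ∀ n : ℕ, π ^ n • y ∈ N → π ^ c • y ∈ N := by
  have : IsNoetherian R F := isNoetherian_of_fg_of_noetherian F hF
  obtain ⟨c, hc⟩ := monotone_stabilizes_iff_noetherian.mpr ‹IsNoetherian R F›
    (torsionChain π F N)
  refine ⟨c, fun y hy n hn => ?_⟩
  obtain ⟨f, hf, ν, hν, rfl⟩ := Submodule.mem_sup.1 (hM hy)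
  have h1 : π ^ n • f ∈ N := by
    have : π ^ n • f = π ^ n • (f + ν) - π ^ n • ν := by rw [smul_add, add_sub_cancel_right]
    rw [this]
    exact N.sub_mem hn (N.smul_mem _ hν)
  have h2 : (⟨f, hf⟩ : F) ∈ torsionChain π F N (max n c) :=
    (torsionChain π F N).monotone (le_max_left n c) h1
  rw [← hc (max n c) (le_max_right n c)] at h2
  rw [smul_add]
  exact N.add_mem h2 (N.smul_mem _ hν)

end Torsion

section Chart

variable {R : Type*} [CommRing R] {E : Type*} [CommRing E] [Algebra R E]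

/-- a uniform pole order. -/
theorem exists_uniform_pole (u : E) (B₂ : Subalgebra R E) (hu : u ∈ B₂) (s : Finset E)
    (hpole : ∀ b ∈ s, ∃ N : ℕ, u ^ N * b ∈ B₂) : ∃ N : ℕ, ∀ b ∈ s, u ^ N * b ∈ B₂ := by
  classical
  induction s using Finset.induction_on with
  | empty => exact ⟨0, fun b hb => absurd hb (Finset.notMem_empty b)⟩
  | insert a s _ ih =>
    obtain ⟨N₁, hN₁⟩ := ih (fun b hb => hpole b (Finset.mem_insert_of_mem hb))
    obtain ⟨N₂, hN₂⟩ := hpole a (Finset.mem_insert_self a s)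
    refine ⟨N₁ + N₂, fun b hb => ?_⟩
    rcases Finset.mem_insert.1 hb with rfl | hb
    · rw [pow_add, mul_assoc]
      exact B₂.mul_mem (B₂.pow_mem hu _) hN₂
    · rw [add_comm, pow_add, mul_assoc]
      exact B₂.mul_mem (B₂.pow_mem hu _) (hN₁ b hb)

/-- the finitely generated module of "polar parts". -/
def polarSpan (R : Type*) [CommRing R] {E : Type*} [CommRing E] [Algebra R E] (u : E)
    (s : Finset E) (N : ℕ) : Submodule R E :=
  Submodule.span R ((fun mb : ℕ × E => u ^ mb.1 * mb.2) ''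
    ((Finset.range N ×ˢ s : Finset (ℕ × E)) : Set (ℕ × E)))

theorem polarSpan_fg (u : E) (s : Finset E) (N : ℕ) : (polarSpan R u s N).FG :=
  Submodule.fg_span ((Finset.finite_toSet _).image _)

theorem mem_polarSpan (u : E) (s : Finset E) (N : ℕ) {m : ℕ} (hm : m < N) {b : E} (hb : b ∈ s) :
    u ^ m * b ∈ polarSpan R u s N := by
  apply Submodule.subset_span
  exact ⟨(m, b), Finset.mem_coe.2 (Finset.mem_product.2 ⟨Finset.mem_range.2 hm, hb⟩), rfl⟩

/-- **the two-chart decomposition**: `B₁₂ ⊆ F + B₁ + B₂`. -/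
theorem le_polarSpan_sup (t : Eˣ) (B₁ B₂ B₁₂ : Subalgebra R E)
    (ht₁ : (t : E) ∈ B₁) (ht₂ : ((t⁻¹ : Eˣ) : E) ∈ B₂)
    (hloc₁ : ∀ x ∈ B₁₂, ∃ m : ℕ, (t : E) ^ m * x ∈ B₁)
    (s : Finset E) (hs : ∀ b ∈ s, b ∈ B₁)
    (hgen : ∀ x ∈ B₁, ∃ c : E → Polynomial R,
      x = ∑ b ∈ s, Polynomial.aeval (t : E) (c b) * b)
    (N : ℕ) (hN : ∀ b ∈ s, ((t⁻¹ : Eˣ) : E) ^ N * b ∈ B₂) :
    Subalgebra.toSubmodule B₁₂ ≤
      polarSpan R ((t⁻¹ : Eˣ) : E) s N ⊔
        (Subalgebra.toSubmodule B₁ ⊔ Subalgebra.toSubmodule B₂) := by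
  classical
  set u : E := ((t⁻¹ : Eˣ) : E) with hu
  have hut : u * (t : E) = 1 := by rw [hu]; exact Units.inv_mul t
  set P : Submodule R E := polarSpan R u s N ⊔
    (Subalgebra.toSubmodule B₁ ⊔ Subalgebra.toSubmodule B₂) with hP
  have hF : polarSpan R u s N ≤ P := le_sup_left
  have h1 : Subalgebra.toSubmodule B₁ ≤ P := le_trans le_sup_left le_sup_right
  have h2 : Subalgebra.toSubmodule B₂ ≤ P := le_trans le_sup_right le_sup_right
  -- monomials
  have hmono : ∀ (m i : ℕ) (b : E), b ∈ s → u ^ m * (t : E) ^ i * b ∈ P := by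
    intro m i b hb
    rcases le_or_gt m i with hmi | hmi
    · obtain ⟨j, rfl⟩ := Nat.exists_eq_add_of_le hmi
      have : u ^ m * (t : E) ^ (m + j) * b = (t : E) ^ j * b := by
        rw [pow_add, ← mul_assoc, ← mul_pow, hut, one_pow, one_mul]
      rw [this]
      exact h1 (B₁.mul_mem (B₁.pow_mem ht₁ _) (hs b hb))
    · obtain ⟨j, rfl⟩ := Nat.exists_eq_add_of_le hmi.le
      have : u ^ (i + j) * (t : E) ^ i * b = u ^ j * b := by
        rw [pow_add, mul_comm (u ^ i), mul_assoc (u ^ j), ← mul_pow, hut, one_pow, mul_one]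
      rw [this]
      rcases lt_or_ge j N with hj | hj
      · exact hF (mem_polarSpan u s N hj hb)
      · obtain ⟨l, rfl⟩ := Nat.exists_eq_add_of_le hj
        rw [add_comm, pow_add, mul_assoc]
        exact h2 (B₂.mul_mem (B₂.pow_mem ht₂ _) (hN b hb))
  -- polynomials
  have hpoly : ∀ (m : ℕ) (q : Polynomial R) (b : E), b ∈ s →
      u ^ m * (Polynomial.aeval (t : E) q * b) ∈ P := by
    intro m q b hb
    rw [Polynomial.aeval_eq_sum_range, Finset.sum_mul, Finset.mul_sum]
    refine P.sum_mem fun i _ => ?_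
    have : u ^ m * (q.coeff i • (t : E) ^ i * b) = q.coeff i • (u ^ m * (t : E) ^ i * b) := by
      rw [smul_mul_assoc, mul_smul_comm, mul_assoc]
    rw [this]
    exact P.smul_mem _ (hmono m i b hb)
  intro x hx
  obtain ⟨m, hm⟩ := hloc₁ x hx
  obtain ⟨c, hc⟩ := hgen _ hm
  have hx' : x = u ^ m * ((t : E) ^ m * x) := by
    rw [← mul_assoc, ← mul_pow, hut, one_pow, one_mul]
  rw [hx', hc, Finset.mul_sum]
  exact P.sum_mem fun b hb => hpoly m (c b) b hb

end Chart

end Fermat.Agent.JA
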