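/-
J-A package CONN — helper9. Ring-theoretic lemmas: Newton lifting of idempotents modulo powers of
an element, and the difference of two commuting approximate idempotents.
-/
import Mathlib

set_option autoImplicit false

namespace Fermat.Agent.JA

section Ring

variable {A : Type*} [CommRing A]

/-- the Newton step `e ↦ 3e² − 2e³`. -/
theorem newton_idem_step (e : A) :
    (3 * e ^ 2 - 2 * e ^ 3) - e = (e * e - e) * (1 - 2 * e) ∧
    (3 * e ^ 2 - 2 * e ^ 3) * (3 * e ^ 2 - 2 * e ^ 3) - (3 * e ^ 2 - 2 * e ^ 3) =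
      (e * e - e) ^ 2 * (4 * e ^ 2 - 4 * e - 3) := by
  constructor <;> ring

/-- **Newton lifting of idempotents**: an idempotent modulo `π` lifts to an idempotent modulo
`π ^ (n + 1)`, congruent to it modulo `π`. -/
theorem exists_idem_lift (π e : A) (he : ∃ y, e * e - e = π * y) (n : ℕ) :
    ∃ e' : A, (∃ y, e' - e = π * y) ∧ ∃ y, e' * e' - e' = π ^ (n + 1) * y := by
  induction n with
  | zero => exact ⟨e, ⟨0, by ring⟩, by simpa using he⟩
  | succ n ih =>
    obtain ⟨e', ⟨y1, hy1⟩, ⟨y2, hy2⟩⟩ := ih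
    obtain ⟨h1, h2⟩ := newton_idem_step e'
    refine ⟨3 * e' ^ 2 - 2 * e' ^ 3, ⟨y1 + π ^ n * y2 * (1 - 2 * e'), ?_⟩,
      ⟨π ^ n * y2 ^ 2 * (4 * e' ^ 2 - 4 * e' - 3), ?_⟩⟩
    · have : (3 * e' ^ 2 - 2 * e' ^ 3) - e = ((3 * e' ^ 2 - 2 * e' ^ 3) - e') + (e' - e) := by ring
      rw [this, h1, hy1, hy2]
      ring
    · rw [h2, hy2]
      ring

/-- the difference of two approximate idempotents. -/
theorem sub_cube_sub (a b : A) :
    (a - b) ^ 3 - (a - b) = (a * a - a) * (1 + a - 3 * b) + (b * b - b) * (3 * a - 1 - b) := by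
  ring

/-- if `d ≡ 0 mod π` and `d³ ≡ d mod π^n`, then `d ≡ 0 mod π^n` (`n ≥ 1`). -/
theorem dvd_of_cube_sub (π d : A) (n : ℕ) (h1 : π ∣ d) (h3 : π ^ (n + 1) ∣ d ^ 3 - d) :
    π ^ (n + 1) ∣ d := by
  have key : ∀ k : ℕ, k ≤ n → π ^ (k + 1) ∣ d := by
    intro k
    induction k with
    | zero => intro _; simpa using h1
    | succ k ih =>
      intro hk
      obtain ⟨u, hu⟩ := ih (by omega)
      obtain ⟨w, hw⟩ := h3
      have hd : d = d ^ 3 - (d ^ 3 - d) := by ring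
      have e1 : n + 1 = (k + 1 + 1) + (n - (k + 1)) := by omega
      refine ⟨π ^ (2 * k + 1) * u ^ 3 - π ^ (n - (k + 1)) * w, ?_⟩
      rw [hd, hw, e1]
      nth_rewrite 1 [hu]
      ring
  exact key n le_rfl

/-- two idempotents modulo `π ^ (n+1)` which are congruent modulo `π` are congruent modulo
`π ^ (n+1)`. -/
theorem dvd_sub_of_idem (π a b : A) (n : ℕ) (ha : π ^ (n + 1) ∣ a * a - a)
    (hb : π ^ (n + 1) ∣ b * b - b) (hab : π ∣ a - b) : π ^ (n + 1) ∣ a - b := by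
  apply dvd_of_cube_sub π (a - b) n hab
  rw [sub_cube_sub]
  exact dvd_add (Dvd.dvd.mul_right ha _) (Dvd.dvd.mul_right hb _)

end Ring

end Fermat.Agent.JA
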