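/-
J-A package CONN — helper9. **Abstract two-chart connectedness** (`conn_idempotent`):
for a "curve" over a noetherian domain `R` covered by two charts `B₁ ∋ t`, `B₂ ∋ t⁻¹` with
`B₁ ∩ B₂ = R`, `B₁` finite over `R[t]`, an idempotent of the reduction modulo a prime element `π`
is trivial.
-/
import Fermat.Agent.JA.CONN_helper9_Ring
import Fermat.Agent.JA.CONN_helper9_Mod

set_option autoImplicit false

namespace Fermat.Agent.JA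

section Sub

variable {R : Type*} [CommRing R] {E : Type*} [CommRing E] [Algebra R E]

/-- divisibility by a power of `π` inside a subalgebra. -/
theorem subalgebra_pow_dvd_iff (B : Subalgebra R E) (π : R) (k : ℕ) (x : B) :
    (algebraMap R B π) ^ k ∣ x ↔ ∃ y ∈ B, (x : E) = π ^ k • y := by
  constructor
  · rintro ⟨y, rfl⟩
    refine ⟨y, y.2, ?_⟩
    rw [Algebra.smul_def, map_pow]
    rfl
  · rintro ⟨y, hy, hxy⟩
    refine ⟨⟨y, hy⟩, Subtype.ext ?_⟩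
    rw [hxy, Algebra.smul_def, map_pow]
    rfl

theorem subalgebra_dvd_iff (B : Subalgebra R E) (π : R) (x : B) :
    algebraMap R B π ∣ x ↔ ∃ y ∈ B, (x : E) = π • y := by
  have h := subalgebra_pow_dvd_iff B π 1 x
  rw [pow_one, pow_one] at h
  exact h

/-- Newton lifting of idempotents inside a subalgebra. -/
theorem exists_idem_lift_subalgebra (B : Subalgebra R E) (π : R) {e : E} (he : e ∈ B)
    (hid : ∃ y ∈ B, e * e - e = π • y) (n : ℕ) :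
    ∃ e' ∈ B, (∃ y ∈ B, e' - e = π • y) ∧ ∃ y ∈ B, e' * e' - e' = π ^ (n + 1) • y := by
  have h0 : algebraMap R B π ∣ (⟨e, he⟩ : B) * ⟨e, he⟩ - ⟨e, he⟩ :=
    (subalgebra_dvd_iff B π _).2 hid
  obtain ⟨e', h1, h2⟩ := exists_idem_lift (algebraMap R B π) (⟨e, he⟩ : B) h0 n
  exact ⟨e', e'.2, (subalgebra_dvd_iff B π _).1 h1, (subalgebra_pow_dvd_iff B π (n + 1) _).1 h2⟩

/-- two idempotents modulo `π ^ (n+1)` of a subalgebra congruent modulo `π` are congruent modulo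
`π ^ (n+1)`. -/
theorem sub_mem_pow_smul_of_idem (B : Subalgebra R E) (π : R) {a b : E} (ha : a ∈ B) (hb : b ∈ B)
    (n : ℕ) (hida : ∃ y ∈ B, a * a - a = π ^ (n + 1) • y)
    (hidb : ∃ y ∈ B, b * b - b = π ^ (n + 1) • y) (hab : ∃ y ∈ B, a - b = π • y) :
    ∃ y ∈ B, a - b = π ^ (n + 1) • y := by
  have h1 : algebraMap R B π ^ (n + 1) ∣ (⟨a, ha⟩ : B) * ⟨a, ha⟩ - ⟨a, ha⟩ :=
    (subalgebra_pow_dvd_iff B π (n + 1) _).2 hida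
  have h2 : algebraMap R B π ^ (n + 1) ∣ (⟨b, hb⟩ : B) * ⟨b, hb⟩ - ⟨b, hb⟩ :=
    (subalgebra_pow_dvd_iff B π (n + 1) _).2 hidb
  have h3 : algebraMap R B π ∣ (⟨a, ha⟩ : B) - ⟨b, hb⟩ := (subalgebra_dvd_iff B π _).2 hab
  exact (subalgebra_pow_dvd_iff B π (n + 1) _).1 (dvd_sub_of_idem _ _ _ n h1 h2 h3)

end Sub

/-- **CONN: abstract two-chart connectedness.** (The literal statement of the J-A spec, with the
necessary extra hypothesis `hinj`.) -/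
theorem conn_idempotent {R : Type*} [CommRing R] [IsDomain R] [IsNoetherianRing R] {π : R}
    (hπ : Prime π)
    {E : Type*} [CommRing E] [Algebra R E] (hE : ∀ x : E, π • x = 0 → x = 0)
    (hinj : Function.Injective (algebraMap R E))
    (t : Eˣ) (B₁ B₂ B₁₂ : Subalgebra R E)
    (ht₁ : (t : E) ∈ B₁) (ht₂ : ((t⁻¹ : Eˣ) : E) ∈ B₂) (h₁₂ : B₁ ≤ B₁₂) (h₂₁ : B₂ ≤ B₁₂)
    (hloc₁ : ∀ x ∈ B₁₂, ∃ m : ℕ, (t : E) ^ m * x ∈ B₁)
    (hglob : ∀ x ∈ B₁, x ∈ B₂ → ∃ r : R, algebraMap R E r = x)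
    (hfin : ∃ s : Finset E, (∀ b ∈ s, b ∈ B₁) ∧ ∀ x ∈ B₁, ∃ c : E → Polynomial R,
      x = ∑ b ∈ s, Polynomial.aeval (t : E) (c b) * b)
    (hpole : ∀ b ∈ B₁, ∃ N : ℕ, ((t⁻¹ : Eˣ) : E) ^ N * b ∈ B₂)
    (e₁ e₂ : E) (he₁ : e₁ ∈ B₁) (he₂ : e₂ ∈ B₂)
    (hid₁ : ∃ y ∈ B₁, e₁ * e₁ - e₁ = π • y) (hid₂ : ∃ y ∈ B₂, e₂ * e₂ - e₂ = π • y)
    (hglue : ∃ y ∈ B₁₂, e₁ - e₂ = π • y) :
    ((∃ y ∈ B₁, e₁ = π • y) ∧ ∃ y ∈ B₂, e₂ = π • y) ∨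
      ((∃ y ∈ B₁, 1 - e₁ = π • y) ∧ ∃ y ∈ B₂, 1 - e₂ = π • y) := by
  classical
  obtain ⟨s, hs, hgen⟩ := hfin
  obtain ⟨N, hN⟩ := exists_uniform_pole ((t⁻¹ : Eˣ) : E) B₂ ht₂ s
    (fun b hb => hpole b (hs b hb))
  have hle := le_polarSpan_sup t B₁ B₂ B₁₂ ht₁ ht₂ hloc₁ s hs hgen N hN
  obtain ⟨c, hc⟩ := exists_torsion_bound π (polarSpan R ((t⁻¹ : Eˣ) : E) s N)
    (Subalgebra.toSubmodule B₁ ⊔ Subalgebra.toSubmodule B₂) (Subalgebra.toSubmodule B₁₂)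
    (polarSpan_fg _ s N) hle
  -- Newton
  obtain ⟨e₁', he₁', ⟨u₁, hu₁, hu₁e⟩, ⟨v₁, hv₁, hv₁e⟩⟩ :=
    exists_idem_lift_subalgebra B₁ π he₁ hid₁ c
  obtain ⟨e₂', he₂', ⟨u₂, hu₂, hu₂e⟩, ⟨v₂, hv₂, hv₂e⟩⟩ :=
    exists_idem_lift_subalgebra B₂ π he₂ hid₂ c
  obtain ⟨y₀, hy₀, hy₀e⟩ := hglue
  -- the difference
  have hab : ∃ y ∈ B₁₂, e₁' - e₂' = π • y := by
    refine ⟨u₁ + y₀ - u₂, B₁₂.sub_mem (B₁₂.add_mem (h₁₂ hu₁) hy₀) (h₂₁ hu₂), ?_⟩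
    rw [smul_sub, smul_add, ← hu₁e, ← hy₀e, ← hu₂e]
    ring
  obtain ⟨y, hy, hye⟩ := sub_mem_pow_smul_of_idem B₁₂ π (h₁₂ he₁') (h₂₁ he₂') c
    ⟨v₁, h₁₂ hv₁, hv₁e⟩ ⟨v₂, h₂₁ hv₂, hv₂e⟩ hab
  -- the class of `y` in `H¹` is `π`-power torsion
  have hmem : π ^ (c + 1) • y ∈ Subalgebra.toSubmodule B₁ ⊔ Subalgebra.toSubmodule B₂ := by
    rw [← hye]
    exact Submodule.sub_mem _ (Submodule.mem_sup_left he₁') (Submodule.mem_sup_right he₂')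
  obtain ⟨b₁, hb₁, b₂, hb₂, hb⟩ := Submodule.mem_sup.1 (hc y hy (c + 1) hmem)
  have hb₁' : b₁ ∈ B₁ := hb₁
  have hb₂' : b₂ ∈ B₂ := hb₂
  have hdiff : e₁' - e₂' = π • b₁ + π • b₂ := by
    rw [hye, pow_succ', mul_smul, ← hb, smul_add]
  -- the global element
  have hg₁ : e₁' - π • b₁ ∈ B₁ := B₁.sub_mem he₁' (B₁.smul_mem hb₁' π)
  have hg₂ : e₁' - π • b₁ ∈ B₂ := by
    have : e₁' - π • b₁ = e₂' + π • b₂ := by
      have : e₁' = e₂' + (π • b₁ + π • b₂) := by rw [← hdiff]; ring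
      rw [this]; ring
    rw [this]
    exact B₂.add_mem he₂' (B₂.smul_mem hb₂' π)
  have hg₂e : e₁' - π • b₁ = e₂' + π • b₂ := by
    have : e₁' = e₂' + (π • b₁ + π • b₂) := by rw [← hdiff]; ring
    rw [this]; ring
  obtain ⟨r, hr⟩ := hglob _ hg₁ hg₂
  -- `r² − r ∈ π R`
  set z₁ : E := π ^ c • v₁ - 2 * e₁' * b₁ + π • (b₁ * b₁) + b₁ with hz₁
  set z₂ : E := π ^ c • v₂ + 2 * e₂' * b₂ + π • (b₂ * b₂) - b₂ with hz₂
  have hz₁m : z₁ ∈ B₁ :=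
    B₁.add_mem (B₁.add_mem (B₁.sub_mem (B₁.smul_mem hv₁ _)
      (B₁.mul_mem (B₁.mul_mem (by
        have : (2 : E) = algebraMap R E 2 := (map_ofNat (algebraMap R E) 2).symm
        rw [this]; exact B₁.algebraMap_mem 2) he₁') hb₁'))
      (B₁.smul_mem (B₁.mul_mem hb₁' hb₁') π)) hb₁'
  have hz₂m : z₂ ∈ B₂ :=
    B₂.sub_mem (B₂.add_mem (B₂.add_mem (B₂.smul_mem hv₂ _)
      (B₂.mul_mem (B₂.mul_mem (by
        have : (2 : E) = algebraMap R E 2 := (map_ofNat (algebraMap R E) 2).symm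
        rw [this]; exact B₂.algebraMap_mem 2) he₂') hb₂'))
      (B₂.smul_mem (B₂.mul_mem hb₂' hb₂') π)) hb₂'
  have hgz₁ : (e₁' - π • b₁) * (e₁' - π • b₁) - (e₁' - π • b₁) = π • z₁ := by
    rw [hz₁]
    simp only [Algebra.smul_def, map_pow] at hv₁e ⊢
    linear_combination hv₁e
  have hgz₂ : (e₁' - π • b₁) * (e₁' - π • b₁) - (e₁' - π • b₁) = π • z₂ := by
    rw [hg₂e, hz₂]
    simp only [Algebra.smul_def, map_pow] at hv₂e ⊢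
    linear_combination hv₂e
  have hz : z₁ = z₂ := by
    have h0 : π • (z₁ - z₂) = 0 := by rw [smul_sub, ← hgz₁, ← hgz₂, sub_self]
    exact sub_eq_zero.1 (hE _ h0)
  obtain ⟨r', hr'⟩ := hglob z₁ hz₁m (hz ▸ hz₂m)
  have hrr : r * r - r = π * r' := by
    apply hinj
    rw [map_sub, map_mul, map_mul, hr, hr', hgz₁, Algebra.smul_def]
  have hdvd : π ∣ r * (r - 1) := ⟨r', by rw [← hrr]; ring⟩
  rcases hπ.dvd_or_dvd hdvd with ⟨r₀, hr₀⟩ | ⟨r₀, hr₀⟩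
  · left
    have hgπ : e₁' - π • b₁ = π • algebraMap R E r₀ := by
      rw [← hr, hr₀, map_mul, Algebra.smul_def]
    refine ⟨⟨algebraMap R E r₀ + b₁ - u₁,
      B₁.sub_mem (B₁.add_mem (B₁.algebraMap_mem r₀) hb₁') hu₁, ?_⟩,
      ⟨algebraMap R E r₀ - b₂ - u₂,
      B₂.sub_mem (B₂.sub_mem (B₂.algebraMap_mem r₀) hb₂') hu₂, ?_⟩⟩
    · rw [smul_sub, smul_add, ← hgπ, ← hu₁e]
      ring
    · rw [smul_sub, smul_sub, ← hgπ, hg₂e, ← hu₂e]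
      ring
  · right
    have hgπ : e₁' - π • b₁ = 1 + π • algebraMap R E r₀ := by
      have : r = 1 + π * r₀ := by rw [← hr₀]; ring
      rw [← hr, this, map_add, map_one, map_mul, Algebra.smul_def]
    refine ⟨⟨u₁ - algebraMap R E r₀ - b₁,
      B₁.sub_mem (B₁.sub_mem hu₁ (B₁.algebraMap_mem r₀)) hb₁', ?_⟩,
      ⟨u₂ - algebraMap R E r₀ + b₂,
      B₂.add_mem (B₂.sub_mem hu₂ (B₂.algebraMap_mem r₀)) hb₂', ?_⟩⟩
    · rw [smul_sub, smul_sub, ← hu₁e]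
      have : π • algebraMap R E r₀ = e₁' - π • b₁ - 1 := by rw [hgπ]; ring
      rw [this]
      ring
    · rw [smul_add, smul_sub, ← hu₂e]
      have : π • algebraMap R E r₀ = e₂' + π • b₂ - 1 := by rw [← hg₂e, hgπ]; ring
      rw [this]
      ring

end Fermat.Agent.JA
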