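/-
J-A programme, GEO-DED (lead): the reduction of a good chart is a Dedekind domain.

Setting: `A` a UFD chart ring (`≅ R[t]`), `p` a prime element (`= π`), `K = Frac A`, `E / K` finite,
`B = integralClosure A E`, `𝒱 = primeValSubring K hp` (the Gauss valuation subring),
`W = integralClosure 𝒱 E`.  If `W` is local (uniqueness of the extension, `geo_isLocalRing`),
`E / K` is unramified over `𝒱`, and `B / p B` is fraction-free normal over `A / p`
(`geo_normalOver`), then `B / p B` is an integrally closed domain, embedded in the residue field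
of `W`, which is its fraction field; if moreover `A / p` is a PID and `B` is finite over `A`,
`B / p B` is a Dedekind domain.
-/
import Mathlib
import Fermat.Agent.JA.GEO_lead_Local

set_option autoImplicit false

namespace Fermat.Agent.JA

section Ded

variable {A : Type*} [CommRing A] [IsDomain A] [UniqueFactorizationMonoid A]
  {K : Type*} [Field K] [Algebra A K] [IsFractionRing A K]
  {E : Type*} [Field E] [Algebra K E] [Algebra A E] [IsScalarTower A K E]
  {p : A} (hp : Prime p)

/-- the inclusion `B = integralClosure A E → W = integralClosure 𝒱_p E`. -/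
noncomputable def chartToGauss :
    ↥(integralClosure A E) →+* ↥(integralClosure ↥(primeValSubring K hp) E) where
  toFun x := ⟨(x : E), isIntegral_primeValSubring_of_isIntegral hp x.2⟩
  map_one' := rfl
  map_mul' _ _ := rfl
  map_zero' := rfl
  map_add' _ _ := rfl

@[simp] theorem coe_chartToGauss (x : ↥(integralClosure A E)) :
    ((chartToGauss (K := K) (E := E) hp x : ↥(integralClosure ↥(primeValSubring K hp) E)) : E) = (x : E) :=
  rfl

variable [FiniteDimensional K E] [CharZero K]

/-- `W` is a finite `𝒱`-module. -/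
theorem finite_gaussClosure :
    Module.Finite ↥(primeValSubring K hp) ↥(integralClosure ↥(primeValSubring K hp) E) := by
  have dvr : IsDiscreteValuationRing ↥(primeValSubring K hp) :=
    isDiscreteValuationRing_primeValSubring hp
  exact IsIntegralClosure.finite ↥(primeValSubring K hp) K E _

variable [IsLocalRing ↥(integralClosure ↥(primeValSubring K hp) E)]

/-- if `W` is local and `E / K` is unramified over `𝒱_p`, the maximal ideal of `W` is `p W`. -/
theorem mem_maximalIdeal_gaussClosure_iff (hU : Unr (primeValSubring K hp) E)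
    (w : ↥(integralClosure ↥(primeValSubring K hp) E)) :
    w ∈ IsLocalRing.maximalIdeal ↥(integralClosure ↥(primeValSubring K hp) E) ↔
      ∃ v : E, IsIntegral ↥(primeValSubring K hp) v ∧ (w : E) = algebraMap A E p * v := by
  set 𝒱 : ValuationSubring K := primeValSubring K hp with h𝒱def
  set W := integralClosure ↥𝒱 E with hW
  have dvr : IsDiscreteValuationRing ↥𝒱 := isDiscreteValuationRing_primeValSubring hp
  have finW : Module.Finite ↥𝒱 ↥W := finite_gaussClosure hp
  have unr : Algebra.FormallyUnramified ↥𝒱 ↥W := hU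
  have hint : Algebra.IsIntegral ↥𝒱 ↥W := Algebra.IsIntegral.of_finite ↥𝒱 ↥W
  have hfaith : FaithfulSMul ↥𝒱 ↥W := by
    rw [faithfulSMul_iff_algebraMap_injective]
    intro a b hab
    have h1 : algebraMap ↥𝒱 E a = algebraMap ↥𝒱 E b := congrArg Subtype.val hab
    exact (FaithfulSMul.algebraMap_injective ↥𝒱 E) h1
  have hlh : IsLocalHom (algebraMap ↥𝒱 ↥W) := Algebra.IsIntegral.isLocalHom _ _
  have hmap := Algebra.FormallyUnramified.map_maximalIdeal (R := ↥𝒱) (S := ↥W)
  set ϖ : ↥𝒱 := ⟨algebraMap A K p, algebraMap_mem_primeValSubring hp _⟩ with hϖ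
  have hϖirr : Irreducible ϖ := irreducible_primeValSubring hp
  have hmax : IsLocalRing.maximalIdeal ↥𝒱 = Ideal.span {ϖ} :=
    (IsDiscreteValuationRing.irreducible_iff_uniformizer ϖ).mp hϖirr
  have hϖE : algebraMap ↥𝒱 E ϖ = algebraMap A E p := by
    rw [IsScalarTower.algebraMap_apply ↥𝒱 K E]
    change algebraMap K E (algebraMap A K p) = _
    rw [← IsScalarTower.algebraMap_apply A K E]
  rw [← hmap, hmax, Ideal.map_span, Set.image_singleton, Ideal.mem_span_singleton]
  constructor
  · rintro ⟨v, rfl⟩
    refine ⟨(v : E), v.2, ?_⟩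
    rw [← hϖE]; rfl
  · rintro ⟨v, hv, hwv⟩
    refine ⟨⟨v, hv⟩, Subtype.ext ?_⟩
    rw [hwv, ← hϖE]; rfl

variable [IsIntegrallyClosed ↥(integralClosure A E)] [FaithfulSMul A E]

/-- reduction of the chart `B` into the residue field of `W`. -/
noncomputable def chartResidue :
    ↥(integralClosure A E) →+*
      IsLocalRing.ResidueField ↥(integralClosure ↥(primeValSubring K hp) E) :=
  (IsLocalRing.residue _).comp (chartToGauss (K := K) (E := E) hp)

/-- **saturation**: the kernel of the reduction of the chart is `p B`. -/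
theorem chartResidue_eq_zero_iff (hU : Unr (primeValSubring K hp) E)
    (x : ↥(integralClosure A E)) :
    chartResidue (K := K) (E := E) hp x = 0 ↔ ∃ c : ↥(integralClosure A E), x = p • c := by
  rw [chartResidue, RingHom.comp_apply, IsLocalRing.residue_eq_zero_iff,
    mem_maximalIdeal_gaussClosure_iff hp hU]
  constructor
  · rintro ⟨v, hv, hxv⟩
    rw [coe_chartToGauss] at hxv
    have hvA : IsIntegral A v := isIntegral_of_mul_eq (K := K) hp x.2 hv hxv
    refine ⟨⟨v, hvA⟩, Subtype.ext ?_⟩
    change (x : E) = p • v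
    rw [Algebra.smul_def]; exact hxv
  · rintro ⟨c, rfl⟩
    refine ⟨(c : E), isIntegral_primeValSubring_of_isIntegral hp c.2, ?_⟩
    rw [coe_chartToGauss]
    change p • (c : E) = _
    rw [Algebra.smul_def]

/-- the induced map `B / p B → κ(W)`. -/
noncomputable def chartResidueBar (hU : Unr (primeValSubring K hp) E) :
    Bbar A ↥(integralClosure A E) p →+*
      IsLocalRing.ResidueField ↥(integralClosure ↥(primeValSubring K hp) E) :=
  Ideal.Quotient.lift _ (chartResidue (K := K) (E := E) hp) (by
    intro x hx
    rw [chartResidue_eq_zero_iff hp hU]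
    exact (mkB_eq_zero_iff (A := A) p x).mp ((Ideal.Quotient.eq_zero_iff_mem).mpr hx))

@[simp] theorem chartResidueBar_mkB (hU : Unr (primeValSubring K hp) E)
    (x : ↥(integralClosure A E)) :
    chartResidueBar hp hU (mkB (A := A) p x) = chartResidue (K := K) (E := E) hp x := rfl

theorem chartResidueBar_injective (hU : Unr (primeValSubring K hp) E) :
    Function.Injective (chartResidueBar (K := K) (E := E) hp hU) := by
  rw [injective_iff_map_eq_zero]
  intro x hx
  obtain ⟨x, rfl⟩ := Ideal.Quotient.mk_surjective x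
  change chartResidue (K := K) (E := E) hp x = 0 at hx
  rw [chartResidue_eq_zero_iff hp hU] at hx
  exact (mkB_eq_zero_iff (A := A) p x).mpr hx

/-- `B / p B` is a domain. -/
theorem isDomain_Bbar (hU : Unr (primeValSubring K hp) E) :
    IsDomain (Bbar A ↥(integralClosure A E) p) :=
  (chartResidueBar_injective hp hU).isDomain _

/-- every element of `κ(W)` is a fraction `x / a` with `x ∈ B / p B`, `0 ≠ a ∈ A / p`. -/
theorem exists_chartResidueBar_mul_eq (hU : Unr (primeValSubring K hp) E)
    (z : IsLocalRing.ResidueField ↥(integralClosure ↥(primeValSubring K hp) E)) :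
    ∃ (x : Bbar A ↥(integralClosure A E) p) (a : Abar A p), a ≠ 0 ∧
      z * chartResidueBar hp hU (algebraMap (Abar A p) (Bbar A ↥(integralClosure A E) p) a) =
        chartResidueBar hp hU x := by
  obtain ⟨w, rfl⟩ := IsLocalRing.residue_surjective z
  obtain ⟨σ, hσ, hint⟩ := exists_mul_isIntegral (E := E) hp (w : E) w.2
  refine ⟨mkB (A := A) p ⟨algebraMap A E σ * (w : E), hint⟩, mkA p σ, ?_, ?_⟩
  · rwa [Ne, mkA_eq_zero_iff]
  · have h1 : algebraMap (Abar A p) (Bbar A ↥(integralClosure A E) p) (mkA p σ) =
        mkB (A := A) p (algebraMap A ↥(integralClosure A E) σ) := (mkB_algebraMap (B := ↥(integralClosure A E)) p σ).symm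
    rw [h1, chartResidueBar_mkB, chartResidueBar_mkB, chartResidue, RingHom.comp_apply,
      RingHom.comp_apply, ← map_mul]
    congr 1
    apply Subtype.ext
    change (w : E) * algebraMap A E σ = algebraMap A E σ * (w : E)
    ring

/-- nonzero elements of `A / p` become units of `κ(W)`. -/
theorem chartResidueBar_algebraMap_ne_zero (hU : Unr (primeValSubring K hp) E) {a : Abar A p}
    (ha : a ≠ 0) :
    chartResidueBar (K := K) (E := E) hp hU
      (algebraMap (Abar A p) (Bbar A ↥(integralClosure A E) p) a) ≠ 0 := by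
  obtain ⟨σ, rfl⟩ := Ideal.Quotient.mk_surjective a
  have hσ : ¬ p ∣ σ := by rwa [Ne, mkA_eq_zero_iff] at ha
  have h1 : algebraMap (Abar A p) (Bbar A ↥(integralClosure A E) p) (mkA p σ) =
      mkB (A := A) p (algebraMap A ↥(integralClosure A E) σ) :=
    (mkB_algebraMap (B := ↥(integralClosure A E)) p σ).symm
  change chartResidueBar (K := K) (E := E) hp hU
    (algebraMap (Abar A p) (Bbar A ↥(integralClosure A E) p) (mkA p σ)) ≠ 0
  rw [h1, chartResidueBar_mkB, chartResidue, RingHom.comp_apply, Ne,
    IsLocalRing.residue_eq_zero_iff]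
  intro hmem
  -- `σ` is a unit of `W`
  have hinv := isIntegral_inv_algebraMap (K := K) (E := E) hp hσ
  have hunit : IsUnit (chartToGauss (K := K) (E := E) hp (algebraMap A ↥(integralClosure A E) σ)) := by
    refine IsUnit.of_mul_eq_one ⟨(algebraMap A E σ)⁻¹, hinv⟩ (Subtype.ext ?_)
    change algebraMap A E σ * (algebraMap A E σ)⁻¹ = 1
    have hσ0 : algebraMap A E σ ≠ 0 := by
      rw [Ne, map_eq_zero_iff _ (FaithfulSMul.algebraMap_injective A E)]
      rintro rfl
      exact hσ (dvd_zero p)
    exact mul_inv_cancel₀ hσ0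
  exact (IsLocalRing.mem_maximalIdeal _).mp hmem hunit

/-- `κ(W)` is the fraction field of `B / p B`. -/
theorem isFractionRing_Bbar (hU : Unr (primeValSubring K hp) E) :
    letI := (chartResidueBar (K := K) (E := E) hp hU).toAlgebra
    IsFractionRing (Bbar A ↥(integralClosure A E) p)
      (IsLocalRing.ResidueField ↥(integralClosure ↥(primeValSubring K hp) E)) := by
  let _ := (chartResidueBar (K := K) (E := E) hp hU).toAlgebra
  have : FaithfulSMul (Bbar A ↥(integralClosure A E) p)
      (IsLocalRing.ResidueField ↥(integralClosure ↥(primeValSubring K hp) E)) :=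
    (faithfulSMul_iff_algebraMap_injective _ _).mpr (chartResidueBar_injective hp hU)
  apply IsFractionRing.of_field
  intro z
  obtain ⟨x, a, ha, h⟩ := exists_chartResidueBar_mul_eq hp hU z
  refine ⟨x, algebraMap (Abar A p) (Bbar A ↥(integralClosure A E) p) a, ?_⟩
  change z = chartResidueBar (K := K) (E := E) hp hU x /
    chartResidueBar (K := K) (E := E) hp hU
      (algebraMap (Abar A p) (Bbar A ↥(integralClosure A E) p) a)
  rw [eq_div_iff (chartResidueBar_algebraMap_ne_zero hp hU ha)]
  exact h

/-- `B / p B` is integrally closed, if it is fraction-free normal over `A / p`. -/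
theorem isIntegrallyClosed_Bbar (hU : Unr (primeValSubring K hp) E)
    (N : NormalOver (Abar A p) (Bbar A ↥(integralClosure A E) p)) :
    IsIntegrallyClosed (Bbar A ↥(integralClosure A E) p) := by
  let _ := (chartResidueBar (K := K) (E := E) hp hU).toAlgebra
  have frac := isFractionRing_Bbar (K := K) (E := E) hp hU
  have hdom : IsDomain (Bbar A ↥(integralClosure A E) p) := isDomain_Bbar hp hU
  set ι := chartResidueBar (K := K) (E := E) hp hU with hι
  have hιalg : ∀ y, algebraMap (Bbar A ↥(integralClosure A E) p)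
      (IsLocalRing.ResidueField ↥(integralClosure ↥(primeValSubring K hp) E)) y = ι y := fun _ => rfl
  rw [isIntegrallyClosed_iff
    (IsLocalRing.ResidueField ↥(integralClosure ↥(primeValSubring K hp) E))]
  intro z hz
  obtain ⟨x, a, ha, h⟩ := exists_chartResidueBar_mul_eq hp hU z
  obtain ⟨P, hPmonic, hPz⟩ := hz
  set d := P.natDegree with hd
  have hd0 : d ≠ 0 := by
    intro h0
    have : P = 1 := Polynomial.eq_one_of_monic_natDegree_zero hPmonic (hd ▸ h0)
    rw [this, Polynomial.eval₂_one] at hPz
    exact one_ne_zero hPz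
  obtain ⟨m, hm⟩ := Nat.exists_eq_succ_of_ne_zero hd0
  set ia := ι (algebraMap (Abar A p) (Bbar A ↥(integralClosure A E) p) a) with hia
  -- the monic equation
  have heq : z ^ d + ∑ i ∈ Finset.range d, ι (P.coeff i) * z ^ i = 0 := by
    have h1 := hPz
    rw [Polynomial.eval₂_eq_sum_range, ← hd, Finset.sum_range_succ, hPmonic.coeff_natDegree,
      map_one, one_mul] at h1
    rw [add_comm]
    simpa [hιalg] using h1
  have hxz : ι x = z * ia := h.symm
  -- the equation for `x`
  have hxeq : x ^ (m + 1) = ∑ i ∈ Finset.range (m + 1),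
      (-(P.coeff i)) * algebraMap (Abar A p) (Bbar A ↥(integralClosure A E) p) a ^ (m + 1 - i) *
        x ^ i := by
    apply chartResidueBar_injective hp hU
    rw [← hι, map_pow, map_sum, hxz, ← Nat.succ_eq_add_one, ← hm]
    have h2 : z ^ d = -∑ i ∈ Finset.range d, ι (P.coeff i) * z ^ i := eq_neg_of_add_eq_zero_left heq
    rw [mul_pow, h2, neg_mul, Finset.sum_mul, ← Finset.sum_neg_distrib]
    refine Finset.sum_congr rfl fun i hi => ?_
    have hi' : i ≤ d := (Finset.mem_range.mp hi).le
    rw [map_mul, map_mul, map_neg, map_pow, map_pow, hxz, ← hia, mul_pow]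
    have : ia ^ d = ia ^ (d - i) * ia ^ i := by rw [← pow_add, Nat.sub_add_cancel hi']
    rw [this]; ring
  obtain ⟨y, hy⟩ := N x a ha ⟨m, fun i => -(P.coeff i), hxeq⟩
  refine ⟨y, ?_⟩
  rw [hιalg]
  have hia0 : ia ≠ 0 := chartResidueBar_algebraMap_ne_zero hp hU ha
  apply mul_right_cancel₀ hia0
  rw [← hxz, hy, Algebra.smul_def, map_mul, ← hia, mul_comm]

/-- **GEO-DED**: `B / p B` is a Dedekind domain. -/
theorem isDedekindDomain_Bbar (hU : Unr (primeValSubring K hp) E)
    (N : NormalOver (Abar A p) (Bbar A ↥(integralClosure A E) p))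
    [IsPrincipalIdealRing (Abar A p)] [Module.Finite A ↥(integralClosure A E)] :
    IsDedekindDomain (Bbar A ↥(integralClosure A E) p) := by
  have hdom : IsDomain (Bbar A ↥(integralClosure A E) p) := isDomain_Bbar hp hU
  have hAdom : IsDomain (Abar A p) :=
    (Ideal.Quotient.isDomain_iff_prime _).mpr ((Ideal.span_singleton_prime hp.ne_zero).mpr hp)
  have hic : IsIntegrallyClosed (Bbar A ↥(integralClosure A E) p) :=
    isIntegrallyClosed_Bbar hp hU N
  have hfin : Module.Finite (Abar A p) (Bbar A ↥(integralClosure A E) p) := finite_Bbar p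
  have hnoeth : IsNoetherianRing (Bbar A ↥(integralClosure A E) p) :=
    isNoetherian_of_tower (Abar A p)
      (isNoetherian_of_isNoetherianRing_of_finite (Abar A p) _)
  have hint : Algebra.IsIntegral (Abar A p) (Bbar A ↥(integralClosure A E) p) :=
    Algebra.IsIntegral.of_finite _ _
  have hdim : Ring.DimensionLEOne (Bbar A ↥(integralClosure A E) p) :=
    Ring.DimensionLEOne.of_isIntegral (Abar A p) _
  exact { }

end Ded

end Fermat.Agent.JA
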