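/-
J-A — helper6 — CHART-ADJ (iii): an element integral over `R[t⁻¹]` becomes integral over `R[t]`
after multiplication by a power of `t`.
-/
import Mathlib
import Fermat.Agent.JA.CHARTADJ_helper6_Adjoin

set_option autoImplicit false
set_option linter.unusedSectionVars false
set_option linter.style.haveILetI false

open Polynomial

namespace Fermat.Agent.JA

section Reflect

variable {R : Type*} [CommRing R] {K : Type*} [Field K] [Algebra R K]

theorem aeval_inv_mul_pow_eq_aeval_reflect (t : K) (ht : t ≠ 0) (f : R[X]) (N : ℕ)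
    (hN : f.natDegree ≤ N) : aeval t⁻¹ f * t ^ N = aeval t (reflect N f) := by
  haveI : Invertible t⁻¹ := invertibleOfNonzero (inv_ne_zero ht)
  have h := eval₂_reflect_mul_pow (algebraMap R K) t⁻¹ N f hN
  rw [invOf_eq_inv, inv_inv] at h
  rw [aeval_def, aeval_def, ← h, mul_assoc, ← mul_pow, inv_mul_cancel₀ ht, one_pow, mul_one]

end Reflect

section ChartAdj3

variable {R : Type*} [CommRing R] [IsDomain R] {K₁ : Type*} [Field K₁] [Algebra R K₁]
  [IsFractionRing R K₁] {K : Type*} [Field K] [Algebra K₁ K] [Algebra R K] [IsScalarTower R K₁ K]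
  {E : Type*} [Field E] [Algebra K E] [Algebra K₁ E] [IsScalarTower K₁ K E] [Algebra R E]
  [IsScalarTower R K E]

/-- **CHART-ADJ (iii)**. -/
theorem exists_pow_mul_isIntegral (t : K) (ht0 : t ≠ 0) (x : E)
    (hx : IsIntegral ↥(Algebra.adjoin R {t⁻¹}) x) :
    ∃ m : ℕ, IsIntegral ↥(Algebra.adjoin R {t}) (algebraMap K E t ^ m * x) := by
  obtain ⟨p, hpm, hpx⟩ := hx
  -- the coefficients of `p` are polynomial expressions in `t⁻¹`
  have hcoef : ∀ i, ∃ f : R[X], aeval t⁻¹ f = ((p.coeff i : ↥(Algebra.adjoin R {t⁻¹})) : K) := by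
    intro i
    have h : ((p.coeff i : ↥(Algebra.adjoin R {t⁻¹})) : K) ∈
        (aeval t⁻¹ : R[X] →ₐ[R] K).range := by
      rw [← Algebra.adjoin_singleton_eq_range_aeval]; exact (p.coeff i).2
    exact h
  choose f hf using hcoef
  set m : ℕ := (Finset.range (p.natDegree + 1)).sup (fun i => (f i).natDegree) with hm
  refine ⟨m, ?_⟩
  have hfm : ∀ i ≤ p.natDegree, (f i).natDegree ≤ m := fun i hi =>
    Finset.le_sup (f := fun i => (f i).natDegree) (Finset.mem_range.2 (Nat.lt_succ_of_le hi))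
  -- the polynomial over `K`
  set p' : K[X] := p.map (algebraMap ↥(Algebra.adjoin R {t⁻¹}) K) with hp'
  have hp'm : p'.Monic := hpm.map _
  have hp'deg : p'.natDegree = p.natDegree := hpm.natDegree_map _
  have hp'x : aeval x p' = 0 := by
    rw [hp', aeval_map_algebraMap, aeval_def]; exact hpx
  have hqm : (scaleRoots p' (t ^ m)).Monic := (monic_scaleRoots_iff _).2 hp'm
  have hqx : aeval (algebraMap K E (t ^ m) * x) (scaleRoots p' (t ^ m)) = 0 :=
    scaleRoots_aeval_eq_zero hp'x
  have hmemt : ∀ g : R[X], aeval t g ∈ Set.range (algebraMap ↥(Algebra.adjoin R {t}) K) := by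
    intro g
    have hg : aeval t g ∈ Algebra.adjoin R {t} := by
      rw [Algebra.adjoin_singleton_eq_range_aeval]; exact ⟨g, rfl⟩
    exact ⟨⟨aeval t g, hg⟩, rfl⟩
  have hlift : scaleRoots p' (t ^ m) ∈ lifts (algebraMap ↥(Algebra.adjoin R {t}) K) := by
    rw [lifts_iff_coeff_lifts]
    intro i
    rw [coeff_scaleRoots, hp'deg]
    rcases lt_trichotomy i p.natDegree with hi | hi | hi
    · obtain ⟨k, hk⟩ : ∃ k, p.natDegree - i = k + 1 :=
        Nat.exists_eq_succ_of_ne_zero (Nat.sub_ne_zero_of_lt hi)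
      have h1 : p'.coeff i = aeval t⁻¹ (f i) := by
        rw [hp', coeff_map, hf]; rfl
      rw [hk, pow_succ', ← mul_assoc, h1,
        aeval_inv_mul_pow_eq_aeval_reflect t ht0 (f i) m (hfm i hi.le)]
      have h2 : aeval t (reflect m (f i)) * (t ^ m) ^ k =
          aeval t (reflect m (f i) * X ^ (m * k)) := by
        rw [map_mul, map_pow, aeval_X, pow_mul]
      rw [h2]
      exact hmemt _
    · rw [hi, Nat.sub_self, pow_zero, mul_one, ← hp'deg]
      have : p'.coeff p'.natDegree = 1 := hp'm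
      rw [this]
      exact ⟨1, map_one _⟩
    · have : p'.coeff i = 0 := coeff_eq_zero_of_natDegree_lt (hp'deg ▸ hi)
      rw [this, zero_mul]
      exact ⟨0, map_zero _⟩
  obtain ⟨q', hq'map, -, hq'm⟩ := lifts_and_natDegree_eq_and_monic hlift hqm
  refine ⟨q', hq'm, ?_⟩
  rw [← aeval_def, ← aeval_map_algebraMap K, hq'map, ← map_pow]
  exact hqx

end ChartAdj3

end Fermat.Agent.JA
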