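/-
J-A programme, GEO (lead): a ring `W` with an ideal `I` such that `W / I` is reduced Artinian and
has no non-trivial idempotents has at most one maximal ideal containing `I`.
-/
import Mathlib

set_option autoImplicit false

namespace Fermat.Agent.JA

theorem eq_of_isMaximal_of_no_idem {W : Type*} [CommRing W] (I : Ideal W)
    [IsArtinianRing (W ⧸ I)] [IsReduced (W ⧸ I)]
    (NI : ∀ w : W, w * w - w ∈ I → w ∈ I ∨ 1 - w ∈ I)
    (M M' : Ideal W) (hMmax : M.IsMaximal) (hM'max : M'.IsMaximal) (hM : I ≤ M) (hM' : I ≤ M') :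
    M = M' := by
  classical
  by_contra hne
  set q := Ideal.Quotient.mk I with hq
  have hqs : Function.Surjective q := Ideal.Quotient.mk_surjective
  have hker : RingHom.ker q = I := Ideal.mk_ker
  have hcomap : ∀ N : Ideal W, I ≤ N → (N.map q).comap q = N := by
    intro N hN
    rw [Ideal.comap_map_of_surjective q hqs, ← RingHom.ker_eq_comap_bot, hker, sup_eq_left.mpr hN]
  have hmax : ∀ N : Ideal W, N.IsMaximal → I ≤ N → (N.map q).IsMaximal := by
    intro N hNmax hN
    rcases Ideal.map_eq_top_or_isMaximal_of_surjective q hqs hNmax with h | h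
    · exfalso
      have := hcomap N hN
      rw [h, Ideal.comap_top] at this
      exact hNmax.ne_top this.symm
    · exact h
  let m : MaximalSpectrum (W ⧸ I) := ⟨M.map q, hmax M hMmax hM⟩
  let m' : MaximalSpectrum (W ⧸ I) := ⟨M'.map q, hmax M' hM'max hM'⟩
  have hmm' : m' ≠ m := by
    intro h
    have h1 : M'.map q = M.map q := congrArg MaximalSpectrum.asIdeal h
    apply hne
    rw [← hcomap M hM, ← hcomap M' hM', h1]
  set φ := IsArtinianRing.equivPi (W ⧸ I) with hφ
  obtain ⟨w, hw⟩ := hqs (φ.symm (Pi.single m 1))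
  have hidem : q (w * w - w) = 0 := by
    rw [map_sub, map_mul, hw, ← map_mul, ← Pi.single_mul, mul_one, sub_self]
  have hwI : w * w - w ∈ I := Ideal.Quotient.eq_zero_iff_mem.mp hidem
  have hφw : φ (q w) = Pi.single m 1 := by rw [hw, AlgEquiv.apply_symm_apply]
  rcases NI w hwI with h | h
  · have h0 : q w = 0 := Ideal.Quotient.eq_zero_iff_mem.mpr h
    rw [h0, map_zero] at hφw
    have := congrFun hφw m
    rw [Pi.single_eq_same, Pi.zero_apply] at this
    have hnt : Nontrivial ((W ⧸ I) ⧸ m.asIdeal) :=
      Ideal.Quotient.nontrivial_iff.mpr m.isMaximal.ne_top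
    exact zero_ne_one this
  · have h1 : q w = 1 := by
      have : q (1 - w) = 0 := Ideal.Quotient.eq_zero_iff_mem.mpr h
      rw [map_sub, map_one, sub_eq_zero] at this
      exact this.symm
    rw [h1, map_one] at hφw
    have := congrFun hφw m'
    rw [Pi.single_eq_of_ne hmm', Pi.one_apply] at this
    have hnt : Nontrivial ((W ⧸ I) ⧸ m'.asIdeal) :=
      Ideal.Quotient.nontrivial_iff.mpr m'.isMaximal.ne_top
    exact one_ne_zero this

end Fermat.Agent.JA
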