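/-
J-A programme, GEO (lead): **GEO(b)** — two normal charts + connectedness ⇒ the Gauss valuation
subring has a unique extension to `E` (its integral closure in `E` is local).
-/
import Mathlib
import Fermat.Agent.JA.GEO_lead_Local
import Fermat.Agent.JA.GEO_lead_Art
import Fermat.Agent.JA.CONN_helper9_Main

set_option autoImplicit false

open Polynomial

namespace Fermat.Agent.JA

theorem isIntegral_valuationSubring_congr {K E : Type*} [Field K] [Field E] [Algebra K E]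
    {𝒱 𝒱' : ValuationSubring K} (h : 𝒱 = 𝒱') {x : E} (hx : IsIntegral ↥𝒱 x) :
    IsIntegral ↥𝒱' x := by
  subst h; exact hx

section Unique

variable {R : Type*} [CommRing R] [IsDomain R] [IsNoetherianRing R] {π : R}
  {K : Type*} [Field K] [Algebra R K]
  {E : Type*} [Field E] [Algebra K E] [FiniteDimensional K E] [Algebra R E] [IsScalarTower R K E]
  {A₁ : Type*} [CommRing A₁] [IsDomain A₁] [UniqueFactorizationMonoid A₁] [Algebra R A₁]
  [Algebra A₁ K] [IsFractionRing A₁ K] [IsScalarTower R A₁ K] [Algebra A₁ E]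
  [IsScalarTower A₁ K E] [IsScalarTower R A₁ E]
  {A₂ : Type*} [CommRing A₂] [IsDomain A₂] [UniqueFactorizationMonoid A₂] [Algebra R A₂]
  [Algebra A₂ K] [IsFractionRing A₂ K] [IsScalarTower R A₂ K] [Algebra A₂ E]
  [IsScalarTower A₂ K E] [IsScalarTower R A₂ E]

/-- the no-idempotent property of `W / π W`. -/
theorem no_idem_of_charts (hπ : Prime π) (hinjR : Function.Injective (algebraMap R E))
    (t : K) (ht0 : t ≠ 0)
    (hπ₁ : Prime (algebraMap R A₁ π)) (hπ₂ : Prime (algebraMap R A₂ π))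
    (h𝒱 : primeValSubring K hπ₁ = primeValSubring K hπ₂)
    [IsIntegrallyClosed ↥(integralClosure A₁ E)] [IsIntegrallyClosed ↥(integralClosure A₂ E)]
    (N₁ : NormalOver (Abar A₁ (algebraMap R A₁ π))
      (Bbar A₁ ↥(integralClosure A₁ E) (algebraMap R A₁ π)))
    (N₂ : NormalOver (Abar A₂ (algebraMap R A₂ π))
      (Bbar A₂ ↥(integralClosure A₂ E) (algebraMap R A₂ π)))
    (ht₁ : IsIntegral A₁ (algebraMap K E t)) (ht₂ : IsIntegral A₂ (algebraMap K E t⁻¹))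
    (h₂₁ : ∀ x : E, IsIntegral A₂ x → ∃ m : ℕ, IsIntegral A₁ (algebraMap K E t ^ m * x))
    (hglob : ∀ x : E, IsIntegral A₁ x → IsIntegral A₂ x → ∃ r : R, algebraMap R E r = x)
    (hfin : ∃ s : Finset E, (∀ b ∈ s, IsIntegral A₁ b) ∧ ∀ x : E, IsIntegral A₁ x →
      ∃ c : E → R[X], x = ∑ b ∈ s, aeval (algebraMap K E t) (c b) * b)
    (hpole : ∀ b : E, IsIntegral A₁ b → ∃ N : ℕ, IsIntegral A₂ (algebraMap K E t⁻¹ ^ N * b))
    (w w' : E) (hw : IsIntegral ↥(primeValSubring K hπ₁) w)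
    (hw' : IsIntegral ↥(primeValSubring K hπ₁) w')
    (h : w * w - w = algebraMap R E π * w') :
    (∃ v : E, IsIntegral ↥(primeValSubring K hπ₁) v ∧ w = algebraMap R E π * v) ∨
      ∃ v : E, IsIntegral ↥(primeValSubring K hπ₁) v ∧ 1 - w = algebraMap R E π * v := by
  have hfaith₁ : FaithfulSMul A₁ E := by
    rw [faithfulSMul_iff_algebraMap_injective, IsScalarTower.algebraMap_eq A₁ K E]
    exact (algebraMap K E).injective.comp (IsFractionRing.injective A₁ K)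
  have hfaith₂ : FaithfulSMul A₂ E := by
    rw [faithfulSMul_iff_algebraMap_injective, IsScalarTower.algebraMap_eq A₂ K E]
    exact (algebraMap K E).injective.comp (IsFractionRing.injective A₂ K)
  set P : E := algebraMap R E π with hP
  have hP₁ : algebraMap A₁ E (algebraMap R A₁ π) = P := by
    rw [← IsScalarTower.algebraMap_apply R A₁ E]
  have hP₂ : algebraMap A₂ E (algebraMap R A₂ π) = P := by
    rw [← IsScalarTower.algebraMap_apply R A₂ E]
  have hP0 : P ≠ 0 := by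
    rw [hP, Ne, map_eq_zero_iff _ hinjR]; exact hπ.ne_zero
  -- chart 1
  obtain ⟨e₁, he₁, ⟨v₁, hv₁, hwe₁⟩, ⟨y₁, hy₁, hid₁⟩⟩ :=
    exists_idem_chart (K := K) hπ₁ N₁ w w' hw hw' (by rw [hP₁]; exact h)
  -- chart 2
  obtain ⟨e₂, he₂, ⟨v₂, hv₂, hwe₂⟩, ⟨y₂, hy₂, hid₂⟩⟩ :=
    exists_idem_chart (K := K) hπ₂ N₂ w w' (isIntegral_valuationSubring_congr h𝒱 hw)
      (isIntegral_valuationSubring_congr h𝒱 hw') (by rw [hP₂]; exact h)
  rw [hP₁] at hwe₁ hid₁
  rw [hP₂] at hwe₂ hid₂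
  have hv₂' : IsIntegral ↥(primeValSubring K hπ₁) v₂ :=
    isIntegral_valuationSubring_congr h𝒱.symm hv₂
  -- the subalgebras
  set tE : E := algebraMap K E t with htE
  have htE0 : tE ≠ 0 := by rw [htE, Ne, map_eq_zero]; exact ht0
  let B₁ : Subalgebra R E := (integralClosure A₁ E).restrictScalars R
  let B₂ : Subalgebra R E := (integralClosure A₂ E).restrictScalars R
  have hB₁ : ∀ x : E, x ∈ B₁ ↔ IsIntegral A₁ x := fun _ => Iff.rfl
  have hB₂ : ∀ x : E, x ∈ B₂ ↔ IsIntegral A₂ x := fun _ => Iff.rfl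
  let B₁₂ : Subalgebra R E :=
    { carrier := {x | ∃ m : ℕ, tE ^ m * x ∈ B₁}
      mul_mem' := by
        rintro x y ⟨m, hx⟩ ⟨m', hy⟩
        refine ⟨m + m', ?_⟩
        have : tE ^ (m + m') * (x * y) = (tE ^ m * x) * (tE ^ m' * y) := by ring
        rw [this]; exact B₁.mul_mem hx hy
      add_mem' := by
        rintro x y ⟨m, hx⟩ ⟨m', hy⟩
        refine ⟨m + m', ?_⟩
        have : tE ^ (m + m') * (x + y) = tE ^ m' * (tE ^ m * x) + tE ^ m * (tE ^ m' * y) := by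
          ring
        rw [this]
        exact B₁.add_mem (B₁.mul_mem (B₁.pow_mem ht₁ _) hx) (B₁.mul_mem (B₁.pow_mem ht₁ _) hy)
      algebraMap_mem' := fun r => ⟨0, by
        rw [pow_zero, one_mul]; exact B₁.algebraMap_mem r⟩ }
  have hB₁₂ : ∀ x : E, x ∈ B₁₂ ↔ ∃ m : ℕ, tE ^ m * x ∈ B₁ := fun _ => Iff.rfl
  have hpow_mem : ∀ (x : E) (m k : ℕ), tE ^ m * x ∈ B₁ → tE ^ (m + k) * x ∈ B₁ := by
    intro x m k hx
    have : tE ^ (m + k) * x = tE ^ k * (tE ^ m * x) := by ring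
    rw [this]; exact B₁.mul_mem (B₁.pow_mem ht₁ _) hx
  -- glue
  have hglue : ∃ y ∈ B₁₂, e₁ - e₂ = π • y := by
    obtain ⟨m, hm⟩ := h₂₁ e₂ he₂
    have h1 : IsIntegral A₁ (tE ^ m * (e₁ - e₂)) := by
      rw [mul_sub]
      exact ((ht₁.pow m).mul he₁).sub hm
    have heq : e₁ - e₂ = P * (v₂ - v₁) := by
      have : e₁ - e₂ = (w - e₂) - (w - e₁) := by ring
      rw [this, hwe₁, hwe₂]; ring
    have htint : IsIntegral ↥(primeValSubring K hπ₁) tE :=
      isIntegral_primeValSubring_of_isIntegral hπ₁ ht₁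
    have h2 : IsIntegral A₁ (tE ^ m * (v₂ - v₁)) := by
      refine isIntegral_of_mul_eq (K := K) hπ₁ h1 ((htint.pow m).mul (hv₂'.sub hv₁)) ?_
      rw [hP₁, heq]; ring
    exact ⟨v₂ - v₁, ⟨m, h2⟩, by rw [heq, Algebra.smul_def]⟩
  have hconn := conn_idempotent hπ (E := E)
    (fun x hx => by
      rw [Algebra.smul_def, mul_eq_zero] at hx
      exact hx.resolve_left hP0)
    hinjR (Units.mk0 tE htE0) B₁ B₂ B₁₂ ht₁
    (by
      change ((Units.mk0 tE htE0)⁻¹ : Eˣ).val ∈ B₂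
      rw [Units.val_inv_eq_inv_val, Units.val_mk0, htE, ← map_inv₀]
      exact ht₂)
    (fun x hx => ⟨0, by rw [pow_zero, one_mul]; exact hx⟩)
    (fun x hx => h₂₁ x hx)
    (fun x hx => hx)
    (fun x hx₁ hx₂ => hglob x hx₁ hx₂)
    (by
      obtain ⟨s, hs, hgen⟩ := hfin
      exact ⟨s, hs, fun x hx => hgen x hx⟩)
    (by
      intro b hb
      obtain ⟨N, hN⟩ := hpole b hb
      refine ⟨N, ?_⟩
      change ((Units.mk0 tE htE0)⁻¹ : Eˣ).val ^ N * b ∈ B₂
      rw [Units.val_inv_eq_inv_val, Units.val_mk0, htE, ← map_inv₀]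
      exact hN)
    e₁ e₂ he₁ he₂
    ⟨y₁, hy₁, by rw [hid₁, Algebra.smul_def]⟩
    ⟨y₂, hy₂, by rw [hid₂, Algebra.smul_def]⟩
    hglue
  rcases hconn with ⟨⟨y, hy, hey⟩, -⟩ | ⟨⟨y, hy, hey⟩, -⟩
  · left
    refine ⟨y + v₁, (isIntegral_primeValSubring_of_isIntegral hπ₁ hy).add hv₁, ?_⟩
    have : w = e₁ + (w - e₁) := by ring
    rw [this, hwe₁, hey, Algebra.smul_def]; ring
  · right
    refine ⟨y - v₁, (isIntegral_primeValSubring_of_isIntegral hπ₁ hy).sub hv₁, ?_⟩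
    have : 1 - w = (1 - e₁) - (w - e₁) := by ring
    rw [this, hwe₁, hey, Algebra.smul_def]; ring

/-- **GEO(b)**: the integral closure of the Gauss valuation subring in `E` is a local ring. -/
theorem isLocalRing_of_charts [CharZero K] (hπ : Prime π)
    (hinjR : Function.Injective (algebraMap R E))
    (t : K) (ht0 : t ≠ 0)
    (hπ₁ : Prime (algebraMap R A₁ π)) (hπ₂ : Prime (algebraMap R A₂ π))
    (h𝒱 : primeValSubring K hπ₁ = primeValSubring K hπ₂)
    (hU : Unr (primeValSubring K hπ₁) E)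
    [IsIntegrallyClosed ↥(integralClosure A₁ E)] [IsIntegrallyClosed ↥(integralClosure A₂ E)]
    (N₁ : NormalOver (Abar A₁ (algebraMap R A₁ π))
      (Bbar A₁ ↥(integralClosure A₁ E) (algebraMap R A₁ π)))
    (N₂ : NormalOver (Abar A₂ (algebraMap R A₂ π))
      (Bbar A₂ ↥(integralClosure A₂ E) (algebraMap R A₂ π)))
    (ht₁ : IsIntegral A₁ (algebraMap K E t)) (ht₂ : IsIntegral A₂ (algebraMap K E t⁻¹))
    (h₂₁ : ∀ x : E, IsIntegral A₂ x → ∃ m : ℕ, IsIntegral A₁ (algebraMap K E t ^ m * x))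
    (hglob : ∀ x : E, IsIntegral A₁ x → IsIntegral A₂ x → ∃ r : R, algebraMap R E r = x)
    (hfin : ∃ s : Finset E, (∀ b ∈ s, IsIntegral A₁ b) ∧ ∀ x : E, IsIntegral A₁ x →
      ∃ c : E → R[X], x = ∑ b ∈ s, aeval (algebraMap K E t) (c b) * b)
    (hpole : ∀ b : E, IsIntegral A₁ b → ∃ N : ℕ, IsIntegral A₂ (algebraMap K E t⁻¹ ^ N * b)) :
    IsLocalRing ↥(integralClosure ↥(primeValSubring K hπ₁) E) := by
  set 𝒱 : ValuationSubring K := primeValSubring K hπ₁ with h𝒱def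
  set W := integralClosure ↥𝒱 E with hW
  have dvr : IsDiscreteValuationRing ↥𝒱 := isDiscreteValuationRing_primeValSubring hπ₁
  have finW : Module.Finite ↥𝒱 ↥W := IsIntegralClosure.finite ↥𝒱 K E _
  have unr : Algebra.FormallyUnramified ↥𝒱 ↥W := hU
  set I : Ideal ↥W := (IsLocalRing.maximalIdeal ↥𝒱).map (algebraMap ↥𝒱 ↥W) with hI
  -- `W / I` is reduced
  have hrad : I.IsRadical :=
    Algebra.FormallyUnramified.isRadical_map_isMaximal (A := ↥𝒱) (B := ↥W) (p := IsLocalRing.maximalIdeal ↥𝒱)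
  have hred : IsReduced (↥W ⧸ I) := (Ideal.isRadical_iff_quotient_reduced I).mp hrad
  -- `W / I` is Artinian
  have hart : IsArtinianRing (↥W ⧸ I) := by
    let _ : Field (↥𝒱 ⧸ IsLocalRing.maximalIdeal ↥𝒱) := Ideal.Quotient.field _
    have : Module.Finite (↥𝒱 ⧸ IsLocalRing.maximalIdeal ↥𝒱) (↥W ⧸ I) := by
      have : Module.Finite ↥𝒱 (↥W ⧸ I) :=
        Module.Finite.of_surjective (Ideal.Quotient.mkₐ ↥𝒱 I).toLinearMap
          Ideal.Quotient.mk_surjective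
      exact Module.Finite.of_restrictScalars_finite ↥𝒱 _ _
    exact IsArtinianRing.of_finite (↥𝒱 ⧸ IsLocalRing.maximalIdeal ↥𝒱) (↥W ⧸ I)
  -- the uniformizer
  set ϖ : ↥𝒱 := ⟨algebraMap A₁ K (algebraMap R A₁ π), algebraMap_mem_primeValSubring hπ₁ _⟩
    with hϖ
  have hϖirr : Irreducible ϖ := irreducible_primeValSubring hπ₁
  have hmax : IsLocalRing.maximalIdeal ↥𝒱 = Ideal.span {ϖ} :=
    (IsDiscreteValuationRing.irreducible_iff_uniformizer ϖ).mp hϖirr
  have hϖE : algebraMap ↥𝒱 E ϖ = algebraMap R E π := by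
    rw [IsScalarTower.algebraMap_apply ↥𝒱 K E]
    change algebraMap K E (algebraMap A₁ K (algebraMap R A₁ π)) = _
    rw [← IsScalarTower.algebraMap_apply A₁ K E, ← IsScalarTower.algebraMap_apply R A₁ E]
  have hImem : ∀ w : ↥W, w ∈ I ↔ ∃ v : E, IsIntegral ↥𝒱 v ∧ (w : E) = algebraMap R E π * v := by
    intro w
    rw [hI, hmax, Ideal.map_span, Set.image_singleton, Ideal.mem_span_singleton]
    constructor
    · rintro ⟨v, rfl⟩
      refine ⟨(v : E), v.2, ?_⟩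
      rw [← hϖE]; rfl
    · rintro ⟨v, hv, hwv⟩
      refine ⟨⟨v, hv⟩, Subtype.ext ?_⟩
      rw [hwv, ← hϖE]; rfl
  have NI : ∀ w : ↥W, w * w - w ∈ I → w ∈ I ∨ 1 - w ∈ I := by
    intro w hw
    obtain ⟨w', hw', hww'⟩ := (hImem _).mp hw
    have := no_idem_of_charts hπ hinjR t ht0 hπ₁ hπ₂ h𝒱 N₁ N₂ ht₁ ht₂ h₂₁ hglob hfin hpole
      (w : E) w' w.2 hw' hww'
    rcases this with ⟨v, hv, h1⟩ | ⟨v, hv, h1⟩
    · exact Or.inl ((hImem _).mpr ⟨v, hv, h1⟩)
    · exact Or.inr ((hImem _).mpr ⟨v, hv, h1⟩)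
  -- all maximal ideals contain `I`
  have hIle : ∀ M : Ideal ↥W, M.IsMaximal → I ≤ M := by
    intro M hM
    have hint : Algebra.IsIntegral ↥𝒱 ↥W := Algebra.IsIntegral.of_finite ↥𝒱 ↥W
    have h1 : (M.comap (algebraMap ↥𝒱 ↥W)).IsMaximal :=
      Ideal.isMaximal_comap_of_isIntegral_of_isMaximal (R := ↥𝒱) M
    have h2 : M.comap (algebraMap ↥𝒱 ↥W) = IsLocalRing.maximalIdeal ↥𝒱 :=
      IsLocalRing.eq_maximalIdeal h1
    rw [hI, Ideal.map_le_iff_le_comap, h2]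
  have hnt : Nontrivial ↥W := inferInstance
  apply IsLocalRing.of_unique_max_ideal
  obtain ⟨M, hM⟩ := Ideal.exists_maximal ↥W
  refine ⟨M, hM, fun M' hM' => ?_⟩
  exact eq_of_isMaximal_of_no_idem I NI M' M hM' hM (hIle M' hM') (hIle M hM)

end Unique

end Fermat.Agent.JA
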