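/-
J-A package ABH+EBC — helper4.
Global helpers for Abhyankar's lemma: unramifiedness can be checked at the maximal ideals; the
image of an element of a Dedekind domain in the localisation at a maximal ideal is a unit times the
power of a uniformizer given by the multiplicity.
-/
import Fermat.Agent.JA.ABH_helper4_Local

set_option autoImplicit false
set_option linter.style.haveILetI false
set_option linter.unusedSectionVars false

open UniqueFactorizationMonoid

namespace Fermat.Agent.JA

section Locus

variable {R A : Type*} [CommRing R] [CommRing A] [Algebra R A] [Algebra.EssFiniteType R A]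

/-- an algebra (essentially of finite type) which is unramified at all maximal ideals is
unramified. -/
theorem formallyUnramified_of_forall_isMaximal
    (h : ∀ (q : Ideal A) [q.IsMaximal], Algebra.IsUnramifiedAt R q) :
    Algebra.FormallyUnramified R A := by
  rw [← Algebra.unramifiedLocus_eq_univ_iff]
  by_contra hne
  have hcl : IsClosed (Algebra.unramifiedLocus R A)ᶜ :=
    Algebra.isOpen_unramifiedLocus.isClosed_compl
  obtain ⟨I, hI⟩ := (PrimeSpectrum.isClosed_iff_zeroLocus_ideal _).mp hcl
  obtain ⟨x, hx⟩ : ∃ x, x ∈ (Algebra.unramifiedLocus R A)ᶜ := by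
    by_contra hcon
    apply hne
    ext x
    simp only [Set.mem_univ, iff_true]
    by_contra hx
    exact hcon ⟨x, hx⟩
  obtain ⟨m, hm, hxm⟩ := Ideal.exists_le_maximal x.asIdeal x.isPrime.ne_top
  have hmem : (⟨m, hm.isPrime⟩ : PrimeSpectrum A) ∈ PrimeSpectrum.zeroLocus (I : Set A) := by
    rw [hI] at hx
    intro a ha
    exact hxm (hx ha)
  rw [← hI] at hmem
  exact hmem (h m)

end Locus

section UnitPow

variable {W O : Type*} [CommRing W] [IsDedekindDomain W] (Q : Ideal W) [hQ : Q.IsMaximal]
  [CommRing O] [IsDomain O] [IsDiscreteValuationRing O] [Algebra W O] [IsLocalization.AtPrime O Q]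

/-- in the localisation at a maximal ideal `Q`, a nonzero element `x` is a unit times the
`count Q (x)`-th power of a uniformizer. -/
theorem exists_unit_mul_pow_eq (x : W) (hx : x ≠ 0) (π₀ : O) (hπ₀ : Irreducible π₀) :
    ∃ ε : Oˣ, algebraMap W O x =
      ε * π₀ ^ (Multiset.count Q (normalizedFactors (Ideal.span {x}))) := by
  have hI : (Ideal.span {x} : Ideal W) ≠ ⊥ := by
    rw [Ne, Ideal.span_singleton_eq_bot]; exact hx
  obtain ⟨J, hJ, hxJ⟩ := Ideal.eq_prime_pow_mul_coprime hI Q
  have hJQ : ¬ J ≤ Q := by
    intro hle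
    rw [sup_of_le_left hle] at hJ
    exact hQ.ne_top hJ
  have h1 := congrArg (Ideal.map (algebraMap W O)) hxJ
  rw [Ideal.map_span, Set.image_singleton, Ideal.map_mul, Ideal.map_pow,
    IsLocalization.AtPrime.map_eq_top_of_not_le (S := O) hJQ, Ideal.mul_top,
    IsLocalization.AtPrime.map_eq_maximalIdeal (p := Q), hπ₀.maximalIdeal_eq,
    Ideal.span_singleton_pow, Ideal.span_singleton_eq_span_singleton] at h1
  obtain ⟨u, hu⟩ := h1.symm
  exact ⟨u, by rw [← hu, mul_comm]⟩

end UnitPow

end Fermat.Agent.JA
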