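/-
J-A package ABH+EBC — helper4.
(ABH) Abhyankar's lemma in Kummer form, in Mathlib's Dedekind language.
-/
import Fermat.Agent.JA.ABH_helper4_Glob

set_option autoImplicit false
set_option linter.style.haveILetI false
set_option linter.unusedSectionVars false

open UniqueFactorizationMonoid IsDedekindDomain

namespace Fermat.Agent.JA

section Transfer

variable {V E W V' E' W' : Type*} [CommRing V] [Field E] [Algebra V E] [CommRing W] [Algebra V W]
  [Algebra W E] [IsScalarTower V W E] [IsIntegralClosure W V E]
  [CommRing V'] [Field E'] [Algebra V' E'] [CommRing W'] [Algebra V' W'] [Algebra W' E']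
  [IsScalarTower V' W' E'] [IsIntegralClosure W' V' E']
  [Algebra V V'] [Algebra E E'] [Algebra V E'] [IsScalarTower V V' E'] [IsScalarTower V E E']

include V in
theorem isIntegral_image_intClosure (w : W) :
    IsIntegral V' (algebraMap E E' (algebraMap W E w)) := by
  have h1 : IsIntegral V (algebraMap W E w) := (IsIntegralClosure.isIntegral V E w).algebraMap
  have h2 : IsIntegral V (algebraMap E E' (algebraMap W E w)) :=
    h1.map (IsScalarTower.toAlgHom V E E')
  exact h2.tower_top

variable (V E W V' E' W') in
/-- the canonical map between the integral closures. -/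
noncomputable def intClosureMap : W →+* W' where
  toFun := fun w => IsIntegralClosure.mk' W' (algebraMap E E' (algebraMap W E w))
    (isIntegral_image_intClosure (V := V) (V' := V') w)
  map_one' := by
    apply IsIntegralClosure.algebraMap_injective W' V' E'
    rw [IsIntegralClosure.algebraMap_mk', map_one, map_one, map_one]
  map_mul' := fun a b => by
    apply IsIntegralClosure.algebraMap_injective W' V' E'
    rw [IsIntegralClosure.algebraMap_mk', map_mul, map_mul, map_mul,
      IsIntegralClosure.algebraMap_mk', IsIntegralClosure.algebraMap_mk']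
  map_zero' := by
    apply IsIntegralClosure.algebraMap_injective W' V' E'
    rw [IsIntegralClosure.algebraMap_mk', map_zero, map_zero, map_zero]
  map_add' := fun a b => by
    apply IsIntegralClosure.algebraMap_injective W' V' E'
    rw [IsIntegralClosure.algebraMap_mk', map_add, map_add, map_add,
      IsIntegralClosure.algebraMap_mk', IsIntegralClosure.algebraMap_mk']

theorem algebraMap_intClosureMap (w : W) :
    algebraMap W' E' (intClosureMap V E W V' E' W' w) = algebraMap E E' (algebraMap W E w) :=
  IsIntegralClosure.algebraMap_mk' (R := V') W' _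
    (isIntegral_image_intClosure (V := V) (V' := V') w)

theorem intClosureMap_algebraMap (a : V) :
    intClosureMap V E W V' E' W' (algebraMap V W a) = algebraMap V' W' (algebraMap V V' a) := by
  apply IsIntegralClosure.algebraMap_injective W' V' E'
  rw [algebraMap_intClosureMap, ← IsScalarTower.algebraMap_apply V W E,
    ← IsScalarTower.algebraMap_apply V E E', ← IsScalarTower.algebraMap_apply V' W' E',
    ← IsScalarTower.algebraMap_apply V V' E']

end Transfer

section ABH

variable {V K E W : Type*} [CommRing V] [IsDomain V] [IsDiscreteValuationRing V] [Field K]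
  [Algebra V K] [IsFractionRing V K] [Field E] [Algebra K E] [FiniteDimensional K E]
  [Algebra.IsSeparable K E] [Algebra V E] [IsScalarTower V K E] [CommRing W] [Algebra V W]
  [Algebra W E] [IsScalarTower V W E] [IsIntegralClosure W V E]
  {V' K' E' W' : Type*} [CommRing V'] [IsDomain V'] [IsDiscreteValuationRing V'] [Field K']
  [Algebra V' K'] [IsFractionRing V' K'] [Field E'] [Algebra K' E'] [FiniteDimensional K' E']
  [Algebra.IsSeparable K' E'] [Algebra V' E'] [IsScalarTower V' K' E'] [CommRing W']
  [Algebra V' W'] [Algebra W' E'] [IsScalarTower V' W' E'] [IsIntegralClosure W' V' E']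
  [Algebra V V'] [Algebra E E'] [Algebra V E'] [IsScalarTower V V' E'] [IsScalarTower V E E']

include K K' in
/-- the key step of (ABH): the uniformizer `s` of `V'` is not in the square of any maximal ideal
of `W'`. -/
theorem abh_not_mem_sq [CharZero (IsLocalRing.ResidueField V)]
    (n : ℕ) (ϖ : V) (hϖ : Irreducible ϖ) (s : V') (hs : Irreducible s)
    (hsn : s ^ n = algebraMap V V' ϖ)
    (hgen : Algebra.adjoin E {algebraMap V' E' s} = ⊤)
    (htame : ∀ Q : Ideal W, Q.IsMaximal → Q.ramificationIdx V ∣ n)
    (Q' : Ideal W') (hQ' : Q'.IsMaximal) :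
    algebraMap V' W' s ∈ Q' ∧ algebraMap V' W' s ∉ Q' ^ 2 := by
  classical
  haveI : IsDomain W := (IsIntegralClosure.algebraMap_injective W V E).isDomain _
  haveI : IsDomain W' := (IsIntegralClosure.algebraMap_injective W' V' E').isDomain _
  haveI : IsDedekindDomain W := IsIntegralClosure.isDedekindDomain V K E W
  haveI : IsDedekindDomain W' := IsIntegralClosure.isDedekindDomain V' K' E' W'
  haveI : Module.Finite V W := IsIntegralClosure.finite V K E W
  haveI : Module.Finite V' W' := IsIntegralClosure.finite V' K' E' W'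
  haveI : IsFractionRing W E := IsIntegralClosure.isFractionRing_of_finite_extension V K E W
  haveI : IsFractionRing W' E' := IsIntegralClosure.isFractionRing_of_finite_extension V' K' E' W'
  haveI : Algebra.IsIntegral V' W' := IsIntegralClosure.isIntegral_algebra V' E'
  haveI : Algebra.IsIntegral V W := IsIntegralClosure.isIntegral_algebra V E
  have hinjW' : Function.Injective (algebraMap W' E') := IsFractionRing.injective W' E'
  have hinjW : Function.Injective (algebraMap W E) := IsFractionRing.injective W E
  have hinjV'E' : Function.Injective (algebraMap V' E') := by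
    rw [IsScalarTower.algebraMap_eq V' K' E']
    exact (algebraMap K' E').injective.comp (IsFractionRing.injective V' K')
  have hinjV'W' : Function.Injective (algebraMap V' W') := by
    intro a b hab
    apply hinjV'E'
    rw [IsScalarTower.algebraMap_apply V' W' E', hab, ← IsScalarTower.algebraMap_apply V' W' E']
  have hinjVE : Function.Injective (algebraMap V E) := by
    rw [IsScalarTower.algebraMap_eq V K E]
    exact (algebraMap K E).injective.comp (IsFractionRing.injective V K)
  have hinjVW : Function.Injective (algebraMap V W) := by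
    intro a b hab
    apply hinjVE
    rw [IsScalarTower.algebraMap_apply V W E, hab, ← IsScalarTower.algebraMap_apply V W E]
  haveI hQ'p : Q'.IsPrime := hQ'.isPrime
  -- `s ∈ Q'`
  have hsQ' : algebraMap V' W' s ∈ Q' := by
    have h1 : (Q'.comap (algebraMap V' W')).IsMaximal :=
      Ideal.isMaximal_comap_of_isIntegral_of_isMaximal Q'
    have h2 : Q'.comap (algebraMap V' W') = IsLocalRing.maximalIdeal V' :=
      IsLocalRing.eq_maximalIdeal h1
    rw [← Ideal.mem_comap, h2]
    exact hs.not_isUnit
  refine ⟨hsQ', ?_⟩
  intro hsq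
  have hs'0 : algebraMap V' W' s ≠ 0 := (map_ne_zero_iff _ hinjV'W').mpr hs.ne_zero
  have hQ'0 : Q' ≠ ⊥ := fun h => hs'0 (by rw [h] at hsQ'; exact hsQ')
  -- `n > 0`
  have hinjVV' : Function.Injective (algebraMap V V') := by
    intro a b hab
    apply hinjVE
    apply (algebraMap E E').injective
    rw [← IsScalarTower.algebraMap_apply V E E', ← IsScalarTower.algebraMap_apply V E E',
      IsScalarTower.algebraMap_apply V V' E', hab, ← IsScalarTower.algebraMap_apply V V' E']
  have hn : 0 < n := by
    rcases Nat.eq_zero_or_pos n with h | h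
    · exfalso
      rw [h, pow_zero] at hsn
      have h1 : ϖ = 1 := hinjVV' (by rw [← hsn, map_one])
      exact hϖ.not_isUnit (h1 ▸ isUnit_one)
    · exact h
  -- the prime `Q` of `W` below `Q'`
  let f : W →+* W' := intClosureMap V E W V' E' W'
  let Q : Ideal W := Q'.comap f
  haveI hQp : Q.IsPrime := Ideal.comap_isPrime f Q'
  have hϖQ : algebraMap V W ϖ ∈ Q := by
    show f (algebraMap V W ϖ) ∈ Q'
    rw [intClosureMap_algebraMap, ← hsn, map_pow]
    exact Ideal.pow_mem_of_mem Q' hsQ' n hn
  have hϖ0 : algebraMap V W ϖ ≠ 0 := (map_ne_zero_iff _ hinjVW).mpr hϖ.ne_zero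
  have hQ0 : Q ≠ ⊥ := fun h => hϖ0 (by rw [h] at hϖQ; exact hϖQ)
  haveI hQm : Q.IsMaximal := hQp.isMaximal hQ0
  -- the local ring `O = W_Q ⊂ E`
  let O : Subalgebra W E :=
    Localization.subalgebra E Q.primeCompl Q.primeCompl_le_nonZeroDivisors
  haveI hOloc : IsLocalization.AtPrime O Q :=
    Localization.subalgebra.isLocalization_subalgebra E Q.primeCompl Q.primeCompl_le_nonZeroDivisors
  haveI : IsDiscreteValuationRing O :=
    IsLocalization.AtPrime.isDiscreteValuationRing_of_dedekind_domain W hQ0 O
  obtain ⟨π₀, hπ₀⟩ := IsDiscreteValuationRing.exists_irreducible O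
  -- the ramification index `e₁`
  obtain ⟨ε, hε⟩ := exists_unit_mul_pow_eq Q (algebraMap V W ϖ) hϖ0 π₀ hπ₀
  set e₁ := Multiset.count Q (normalizedFactors (Ideal.span {algebraMap V W ϖ})) with he₁
  haveI hlies : Q.LiesOver (IsLocalRing.maximalIdeal V) := by
    have h1 : (Q.comap (algebraMap V W)).IsMaximal :=
      Ideal.isMaximal_comap_of_isIntegral_of_isMaximal Q
    exact ⟨(IsLocalRing.eq_maximalIdeal h1).symm⟩
  have hmap : (IsLocalRing.maximalIdeal V).map (algebraMap V W) =
      Ideal.span {algebraMap V W ϖ} := by
    rw [hϖ.maximalIdeal_eq, Ideal.map_span, Set.image_singleton]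
  have hram : Q.ramificationIdx V = e₁ := by
    rw [Ideal.IsDedekindDomain.ramificationIdx_eq_normalizedFactors_count
      (IsLocalRing.maximalIdeal V) Q (by
        rw [hmap, Ne, Ideal.span_singleton_eq_bot]; exact hϖ0), hmap]
  have he₁n : e₁ ∣ n := hram ▸ htame Q hQm
  have he₁0 : 0 < e₁ := by rw [← hram]; exact Ideal.ramificationIdx_pos Q V
  obtain ⟨m, hm⟩ := he₁n
  have hm0 : 0 < m := by
    rcases Nat.eq_zero_or_pos m with h | h
    · rw [h, mul_zero] at hm; omega
    · exact h
  -- `e₁` is a unit of `O`
  have he₁u : IsUnit ((e₁ : ℕ) : O) := by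
    have h1 : IsUnit ((e₁ : ℕ) : V) := by
      by_contra h
      have h2 : (IsLocalRing.residue V) ((e₁ : ℕ) : V) = 0 :=
        (IsLocalRing.residue_eq_zero_iff _).mpr h
      rw [map_natCast] at h2
      exact (Nat.cast_ne_zero.mpr he₁0.ne') h2
    have h3 := h1.map (algebraMap V O)
    rwa [map_natCast] at h3
  -- the valuation at `Q'`
  let v : HeightOneSpectrum W' := ⟨Q', hQ'p, hQ'0⟩
  let ν := v.valuation E'
  have hfE : ∀ w : W, algebraMap E E' (algebraMap W E w) = algebraMap W' E' (f w) := fun w =>
    (algebraMap_intClosureMap (V := V) (V' := V') w).symm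
  have hνO : ∀ a : O, ν (algebraMap O E' a) ≤ 1 := by
    intro a
    obtain ⟨⟨w, t⟩, hat⟩ := IsLocalization.surj Q.primeCompl a
    have h1 := congrArg (fun z : O => algebraMap E E' (z : E)) hat
    simp only [MulMemClass.coe_mul, map_mul] at h1
    have h2 : algebraMap E E' ((algebraMap W O t.1 : O) : E) = algebraMap W' E' (f t.1) := hfE t.1
    have h3 : algebraMap E E' ((algebraMap W O w : O) : E) = algebraMap W' E' (f w) := hfE w
    rw [h2, h3] at h1
    have h4 : ν (algebraMap W' E' (f t.1)) = 1 := by
      rw [HeightOneSpectrum.valuation_eq_one_iff_notMem]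
      exact t.2
    have h5 := congrArg ν h1
    rw [map_mul, h4, mul_one] at h5
    show ν (algebraMap E E' (a : E)) ≤ 1
    rw [h5]
    exact v.valuation_le_one (f w)
  have hsE' : algebraMap V' E' s = algebraMap W' E' (algebraMap V' W' s) :=
    IsScalarTower.algebraMap_apply V' W' E' s
  have hνs : ν (algebraMap V' E' s) < 1 := by
    rw [hsE']
    exact (v.valuation_lt_one_iff_mem _).mpr hsQ'
  obtain ⟨τ, hτ⟩ := v.valuation_exists_uniformizer E'
  have hτ1 : ν τ < 1 := by
    show v.valuation E' τ < 1
    rw [hτ, ← WithZero.exp_zero, WithZero.exp_lt_exp]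
    norm_num
  have hspow : (algebraMap V' E' s) ^ (m * e₁) = algebraMap O E' ((ε : O) * π₀ ^ e₁) := by
    rw [mul_comm m e₁, ← hm, ← map_pow, hsn, ← IsScalarTower.algebraMap_apply V V' E',
      IsScalarTower.algebraMap_apply V E E', IsScalarTower.algebraMap_apply V W E, ← hε]
    rfl
  have key := abh_local_val (O := O) (E := E) (E' := E') π₀ hπ₀ ε e₁ m he₁0 he₁u hm0
    (algebraMap V' E' s) hspow hgen ν hνO hνs τ hτ1
  -- contradiction
  have h6 : ν (algebraMap V' E' s) ≤ WithZero.exp (-(2 : ℤ)) := by
    rw [hsE']
    show v.valuation E' (algebraMap W' E' (algebraMap V' W' s)) ≤ _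
    rw [HeightOneSpectrum.valuation_of_algebraMap]
    exact (v.intValuation_le_pow_iff_mem _ 2).mpr hsq
  have h7 : WithZero.exp (-(1 : ℤ)) ≤ WithZero.exp (-(2 : ℤ)) := by
    have : ν τ = WithZero.exp (-(1 : ℤ)) := hτ
    rw [← this]
    exact key.trans h6
  rw [WithZero.exp_le_exp] at h7
  omega

include K K' in
/-- **(ABH), Kummer form.** `V ⊂ V'` discrete valuation rings with uniformizers `ϖ`, `s`,
`s ^ n = ϖ`, residue characteristic zero; `E / K` finite separable whose ramification indices over
`V` all divide `n`; `E' = E[s]`. Then the integral closure of `V'` in `E'` is unramified over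
`V'`. -/
theorem abhyankar_kummer [CharZero (IsLocalRing.ResidueField V)]
    (n : ℕ) (ϖ : V) (hϖ : Irreducible ϖ) (s : V') (hs : Irreducible s)
    (hsn : s ^ n = algebraMap V V' ϖ)
    (hgen : Algebra.adjoin E {algebraMap V' E' s} = ⊤)
    (htame : ∀ Q : Ideal W, Q.IsMaximal → Q.ramificationIdx V ∣ n) :
    Algebra.FormallyUnramified V' W' := by
  classical
  haveI : IsDomain W' := (IsIntegralClosure.algebraMap_injective W' V' E').isDomain _
  haveI : IsDedekindDomain W' := IsIntegralClosure.isDedekindDomain V' K' E' W'
  haveI : Module.Finite V' W' := IsIntegralClosure.finite V' K' E' W'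
  haveI : Algebra.IsIntegral V' W' := IsIntegralClosure.isIntegral_algebra V' E'
  have hinjV'E' : Function.Injective (algebraMap V' E') := by
    rw [IsScalarTower.algebraMap_eq V' K' E']
    exact (algebraMap K' E').injective.comp (IsFractionRing.injective V' K')
  have hinjV'W' : Function.Injective (algebraMap V' W') := by
    intro a b hab
    apply hinjV'E'
    rw [IsScalarTower.algebraMap_apply V' W' E', hab, ← IsScalarTower.algebraMap_apply V' W' E']
  apply formallyUnramified_of_forall_isMaximal
  intro Q' hQ'
  obtain ⟨h1, h2⟩ := abh_not_mem_sq (K := K) (K' := K') (E := E) (W := W) n ϖ hϖ s hs hsn hgen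
    htame Q' hQ'
  haveI hQ'p : Q'.IsPrime := hQ'.isPrime
  have hunder : Q'.under V' = IsLocalRing.maximalIdeal V' := by
    have h3 : (Q'.comap (algebraMap V' W')).IsMaximal :=
      Ideal.isMaximal_comap_of_isIntegral_of_isMaximal Q'
    exact IsLocalRing.eq_maximalIdeal h3
  haveI hlies : Q'.LiesOver (IsLocalRing.maximalIdeal V') := ⟨hunder.symm⟩
  have hmap : (IsLocalRing.maximalIdeal V').map (algebraMap V' W') =
      Ideal.span {algebraMap V' W' s} := by
    rw [hs.maximalIdeal_eq, Ideal.map_span, Set.image_singleton]
  have hs'0 : algebraMap V' W' s ≠ 0 := (map_ne_zero_iff _ hinjV'W').mpr hs.ne_zero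
  have hram : Q'.ramificationIdx V' = 1 := by
    rw [Ideal.IsDedekindDomain.ramificationIdx_eq_multiplicity
      (IsLocalRing.maximalIdeal V') Q' (by
        rw [hmap, Ne, Ideal.span_singleton_eq_bot]; exact hs'0), hmap]
    apply multiplicity_eq_of_dvd_of_not_dvd
    · rw [pow_one, Ideal.dvd_span_singleton]; exact h1
    · rw [Ideal.dvd_span_singleton]; exact h2
  -- the residue field has characteristic zero
  haveI : CharZero (Q'.under V').ResidueField := by
    apply charZero_of_inj_zero
    intro k hk
    by_contra hk0
    have hu : IsUnit ((k : ℕ) : V) := by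
      by_contra h
      have h2 : (IsLocalRing.residue V) ((k : ℕ) : V) = 0 :=
        (IsLocalRing.residue_eq_zero_iff _).mpr h
      rw [map_natCast] at h2
      exact (Nat.cast_ne_zero.mpr hk0) h2
    have hu' : IsUnit ((k : ℕ) : (Q'.under V').ResidueField) := by
      have h3 := (hu.map (algebraMap V V')).map (algebraMap V' (Q'.under V').ResidueField)
      rwa [map_natCast, map_natCast] at h3
    rw [hk] at hu'
    exact not_isUnit_zero hu'
  exact Ideal.ramificationIdx_eq_one_iff.mp hram

end ABH

end Fermat.Agent.JA
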