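/-
J-A package ABH+EBC — helper4.
(CORE) The image of a finite unramified algebra over a Dedekind domain in a field is the integral
closure of the base in the field it generates, and it is unramified.
-/
import Mathlib

set_option autoImplicit false
set_option linter.style.haveILetI false
set_option linter.unusedSectionVars false

namespace Fermat.Agent.JA

section Core

variable {D A W' E' : Type*} [CommRing D] [IsDedekindDomain D] [CommRing A] [Algebra D A]
  [Module.Finite D A] [Algebra.FormallyUnramified D A] [Field E'] [Algebra D E'] [CommRing W']
  [Algebra D W'] [Algebra W' E'] [IsScalarTower D W' E'] [IsIntegralClosure W' D E']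

/-- **(CORE)** Let `D` be a Dedekind domain, `A` a finite unramified `D`-algebra mapping to the
integral closure `W'` of `D` in a field `E'`, such that every element of `E'` is a quotient of
elements of the image. Then `A → W'` is surjective and `W'` is unramified over `D`. -/
theorem range_eq_top_of_unramified (ψ : A →ₐ[D] W')
    (hfrac : ∀ x : E', ∃ a b : A, algebraMap W' E' (ψ b) ≠ 0 ∧
      x * algebraMap W' E' (ψ b) = algebraMap W' E' (ψ a)) :
    Function.Surjective ψ ∧ Algebra.FormallyUnramified D W' := by
  have hinj : Function.Injective (algebraMap W' E') :=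
    IsIntegralClosure.algebraMap_injective W' D E'
  haveI : IsDomain W' := hinj.isDomain _
  let T : Subalgebra D W' := ψ.range
  haveI : Module.Finite D T := Module.Finite.of_surjective ψ.rangeRestrict.toLinearMap
    ψ.rangeRestrict_surjective
  haveI : Algebra.FormallyUnramified D T :=
    .of_surjective ψ.rangeRestrict ψ.rangeRestrict_surjective
  haveI : IsDedekindDomain T := isDedekindDomain.of_formallyUnramified D T
  have hTinj : Function.Injective (algebraMap T E') := hinj.comp Subtype.val_injective
  haveI : FaithfulSMul T E' := (faithfulSMul_iff_algebraMap_injective T E').mpr hTinj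
  haveI : IsFractionRing T E' := IsFractionRing.of_field (R := T) E' (fun z => by
    obtain ⟨a, b, hb, h⟩ := hfrac z
    refine ⟨⟨ψ a, a, rfl⟩, ⟨ψ b, b, rfl⟩, ?_⟩
    show z = algebraMap W' E' (ψ a) / algebraMap W' E' (ψ b)
    rw [eq_div_iff hb, h])
  have hsurj : Function.Surjective ψ := by
    intro x
    have hx : IsIntegral D (algebraMap W' E' x) :=
      (IsIntegralClosure.isIntegral D E' x).algebraMap
    have hx' : IsIntegral T (algebraMap W' E' x) := hx.tower_top
    obtain ⟨⟨t, a, rfl⟩, ht⟩ := IsIntegrallyClosed.isIntegral_iff.mp hx'
    exact ⟨a, hinj ht⟩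
  exact ⟨hsurj, .of_surjective ψ hsurj⟩

end Core

end Fermat.Agent.JA
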