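/-
J-A package ABH+EBC — helper4.
(EBC) étale base change: if `V` is unramified in `E` then `V'` is unramified in the compositum
`E' = K'·E`, and the integral closure of `V'` in `E'` is `V'·W`.
-/
import Fermat.Agent.JA.EBC_helper4_Core

set_option autoImplicit false
set_option linter.style.haveILetI false
set_option linter.unusedSectionVars false

open scoped TensorProduct

namespace Fermat.Agent.JA

section EBC

variable {V K E W : Type*} [CommRing V] [IsDedekindDomain V] [Field K] [Algebra V K]
  [IsFractionRing V K] [Field E] [Algebra K E] [FiniteDimensional K E] [Algebra.IsSeparable K E]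
  [Algebra V E] [IsScalarTower V K E] [CommRing W] [Algebra V W] [Algebra W E]
  [IsScalarTower V W E] [IsIntegralClosure W V E]
  {V' K' E' W' : Type*} [CommRing V'] [IsDedekindDomain V'] [Field K'] [Algebra V' K']
  [IsFractionRing V' K'] [Field E'] [Algebra K' E'] [Algebra V' E'] [IsScalarTower V' K' E']
  [CommRing W'] [Algebra V' W'] [Algebra W' E'] [IsScalarTower V' W' E']
  [IsIntegralClosure W' V' E']
  [Algebra V V'] [Algebra E E'] [Algebra W W'] [Algebra V W'] [Algebra W E'] [Algebra V E']
  [IsScalarTower V V' W'] [IsScalarTower V W W'] [IsScalarTower W W' E'] [IsScalarTower W E E']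
  [IsScalarTower V V' E'] [IsScalarTower V E E']

variable (V W V' W') in
/-- the canonical map `V' ⊗[V] W → W'`. -/
noncomputable def ebcMap : V' ⊗[V] W →ₐ[V'] W' :=
  Algebra.TensorProduct.productLeftAlgHom (Algebra.ofId V' W') (IsScalarTower.toAlgHom V W W')

@[simp] theorem ebcMap_tmul (a : V') (w : W) :
    ebcMap V W V' W' (a ⊗ₜ[V] w) = algebraMap V' W' a * algebraMap W W' w := by
  simp [ebcMap, Algebra.ofId_apply]

include K in
/-- every element of `E'` is a quotient `ψ(t) / s` with `t ∈ V' ⊗ W` and `0 ≠ s ∈ V'`. -/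
theorem ebc_frac (hVV' : Function.Injective (algebraMap V V'))
    (hgen : Algebra.adjoin K' (Set.range (algebraMap E E')) = ⊤) (x : E') :
    ∃ (t : V' ⊗[V] W) (s : V'), s ≠ 0 ∧
      x * algebraMap V' E' s = algebraMap W' E' (ebcMap V W V' W' t) := by
  have hx : x ∈ Algebra.adjoin K' (Set.range (algebraMap E E')) := by
    rw [hgen]; exact Algebra.mem_top
  induction hx using Algebra.adjoin_induction with
  | mem x hx =>
    obtain ⟨e, rfl⟩ := hx
    have he : IsIntegral K e := (Algebra.IsIntegral.of_finite K E).isIntegral e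
    obtain ⟨⟨r, hr⟩, hre⟩ :=
      IsIntegral.exists_multiple_integral_of_isLocalization (nonZeroDivisors V) e he
    have hr0 : r ≠ 0 := nonZeroDivisors.ne_zero hr
    refine ⟨1 ⊗ₜ[V] IsIntegralClosure.mk' W (r • e) hre, algebraMap V V' r, ?_, ?_⟩
    · exact (map_ne_zero_iff _ hVV').mpr hr0
    · rw [ebcMap_tmul, map_one, one_mul, ← IsScalarTower.algebraMap_apply W W' E',
        IsScalarTower.algebraMap_apply W E E', IsIntegralClosure.algebraMap_mk',
        ← IsScalarTower.algebraMap_apply V V' E', IsScalarTower.algebraMap_apply V E E',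
        Algebra.smul_def, map_mul, mul_comm]
  | algebraMap k' =>
    obtain ⟨⟨v', s'⟩, hk⟩ := IsLocalization.surj (nonZeroDivisors V') k'
    refine ⟨v' ⊗ₜ[V] 1, s'.1, nonZeroDivisors.ne_zero s'.2, ?_⟩
    rw [ebcMap_tmul, map_one, mul_one, ← IsScalarTower.algebraMap_apply V' W' E',
      IsScalarTower.algebraMap_apply V' K' E' s'.1, IsScalarTower.algebraMap_apply V' K' E' v',
      ← map_mul, hk]
  | add x y _ _ hx hy =>
    obtain ⟨t₁, s₁, hs₁, h₁⟩ := hx
    obtain ⟨t₂, s₂, hs₂, h₂⟩ := hy
    refine ⟨s₂ • t₁ + s₁ • t₂, s₁ * s₂, mul_ne_zero hs₁ hs₂, ?_⟩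
    have e1 : algebraMap W' E' (ebcMap V W V' W' (s₂ • t₁ + s₁ • t₂)) =
        algebraMap V' E' s₂ * algebraMap W' E' (ebcMap V W V' W' t₁) +
          algebraMap V' E' s₁ * algebraMap W' E' (ebcMap V W V' W' t₂) := by
      simp only [map_add, Algebra.smul_def, map_mul, AlgHom.commutes,
        ← IsScalarTower.algebraMap_apply V' W' E']
    rw [e1, ← h₁, ← h₂, map_mul]
    ring
  | mul x y _ _ hx hy =>
    obtain ⟨t₁, s₁, hs₁, h₁⟩ := hx
    obtain ⟨t₂, s₂, hs₂, h₂⟩ := hy
    refine ⟨t₁ * t₂, s₁ * s₂, mul_ne_zero hs₁ hs₂, ?_⟩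
    have e1 : algebraMap W' E' (ebcMap V W V' W' (t₁ * t₂)) =
        algebraMap W' E' (ebcMap V W V' W' t₁) * algebraMap W' E' (ebcMap V W V' W' t₂) := by
      simp only [map_mul]
    rw [e1, ← h₁, ← h₂, map_mul]
    ring

include K in
/-- **(EBC)** étale base change: the integral closure of `V'` in the compositum `E' = K'·E` is
generated by `V'` and `W`, and it is unramified over `V'` if `W` is unramified over `V`. -/
theorem ebc [Algebra.FormallyUnramified V W] (hVV' : Function.Injective (algebraMap V V'))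
    (hgen : Algebra.adjoin K' (Set.range (algebraMap E E')) = ⊤) :
    Function.Surjective (ebcMap V W V' W') ∧ Algebra.FormallyUnramified V' W' := by
  haveI : Module.Finite V W := IsIntegralClosure.finite V K E W
  have hinj' : Function.Injective (algebraMap V' E') := by
    rw [IsScalarTower.algebraMap_eq V' K' E']
    exact (algebraMap K' E').injective.comp (IsFractionRing.injective V' K')
  refine range_eq_top_of_unramified (D := V') (A := V' ⊗[V] W) (E' := E') (ebcMap V W V' W')
    (fun x => ?_)
  obtain ⟨t, s, hs, h⟩ := ebc_frac (K := K) (E := E) (W := W) (W' := W') hVV' hgen x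
  refine ⟨t, algebraMap V' (V' ⊗[V] W) s, ?_, ?_⟩
  · rw [AlgHom.commutes, ← IsScalarTower.algebraMap_apply V' W' E']
    exact (map_ne_zero_iff _ hinj').mpr hs
  · rw [AlgHom.commutes, ← IsScalarTower.algebraMap_apply V' W' E']
    exact h

include K in
/-- **(EBC)**, unramifiedness only. -/
theorem formallyUnramified_of_ebc [Algebra.FormallyUnramified V W]
    (hVV' : Function.Injective (algebraMap V V'))
    (hgen : Algebra.adjoin K' (Set.range (algebraMap E E')) = ⊤) :
    Algebra.FormallyUnramified V' W' :=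
  (ebc (K := K) (E := E) (W := W) (W' := W') hVV' hgen).2

end EBC

end Fermat.Agent.JA
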