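/-
J-A programme, GEO (lead): helper4's étale base change (EBC) and Abhyankar lemma (Kummer form)
in the valuation-subring currency `Unr` / `TameAt`.
-/
import Mathlib
import Fermat.Agent.JA.GEO_lead_Spec
import Fermat.Agent.JA.EBC_helper4_Main
import Fermat.Agent.JA.ABH_helper4_Main

set_option autoImplicit false

namespace Fermat.Agent.JA

section EbcVal

variable {K E K' E' : Type*} [Field K] [Field E] [Algebra K E] [FiniteDimensional K E]
  [Algebra.IsSeparable K E] [Field K'] [Field E'] [Algebra K' E'] [Algebra K K'] [Algebra E E']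
  [Algebra K E'] [IsScalarTower K K' E'] [IsScalarTower K E E']

/-- **(EBC) in valuation-subring currency**: if `𝒱 ⊆ K` maps into `𝒱' ⊆ K'`, `E' = K'·E`, and
`E / K` is unramified over `𝒱`, then `E' / K'` is unramified over `𝒱'`. -/
theorem unr_of_unr_of_le (𝒱 : ValuationSubring K) (𝒱' : ValuationSubring K')
    (hle : ∀ x ∈ 𝒱, algebraMap K K' x ∈ 𝒱')
    [IsDedekindDomain ↥𝒱] [IsDedekindDomain ↥𝒱']
    (hgen : Algebra.adjoin K' (Set.range (algebraMap E E')) = ⊤) (h : Unr 𝒱 E) : Unr 𝒱' E' := by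
  -- `V → V'`
  let φ : ↥𝒱 →+* ↥𝒱' :=
    ((algebraMap K K').comp 𝒱.subtype).codRestrict 𝒱'.toSubring (fun x => hle x x.2)
  let algVV' : Algebra ↥𝒱 ↥𝒱' := φ.toAlgebra
  have hφ : ∀ x : ↥𝒱, ((algebraMap ↥𝒱 ↥𝒱' x : ↥𝒱') : K') = algebraMap K K' (x : K) := fun _ => rfl
  have towVV'E' : IsScalarTower ↥𝒱 ↥𝒱' E' := by
    refine IsScalarTower.of_algebraMap_eq (fun x => ?_)
    change algebraMap K E' (x : K) = algebraMap K' E' ((algebraMap ↥𝒱 ↥𝒱' x : ↥𝒱') : K')
    rw [hφ, ← IsScalarTower.algebraMap_apply K K' E']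
  have towVEE' : IsScalarTower ↥𝒱 E E' := by
    refine IsScalarTower.of_algebraMap_eq (fun x => ?_)
    change algebraMap K E' (x : K) = algebraMap E E' (algebraMap K E (x : K))
    rw [← IsScalarTower.algebraMap_apply K E E']
  -- `W → W'`
  let ι : ↥(integralClosure ↥𝒱 E) →+* ↥(integralClosure ↥𝒱' E') :=
    ((algebraMap E E').comp (algebraMap ↥(integralClosure ↥𝒱 E) E)).codRestrict
      (integralClosure ↥𝒱' E').toSubring
      (fun x => IsIntegral.tower_top (A := ↥𝒱') (x.2.map (IsScalarTower.toAlgHom ↥𝒱 E E')))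
  let algWW' : Algebra ↥(integralClosure ↥𝒱 E) ↥(integralClosure ↥𝒱' E') := ι.toAlgebra
  have tow1 : IsScalarTower ↥𝒱 ↥𝒱' ↥(integralClosure ↥𝒱' E') := by
    refine IsScalarTower.of_algebraMap_eq (fun x => ?_)
    apply Subtype.ext
    change algebraMap ↥𝒱 E' x = algebraMap ↥𝒱' E' (algebraMap ↥𝒱 ↥𝒱' x)
    rw [← IsScalarTower.algebraMap_apply ↥𝒱 ↥𝒱' E']
  have tow2 : IsScalarTower ↥𝒱 ↥(integralClosure ↥𝒱 E) ↥(integralClosure ↥𝒱' E') := by
    refine IsScalarTower.of_algebraMap_eq (fun x => ?_)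
    apply Subtype.ext
    change algebraMap ↥𝒱 E' x = algebraMap E E' (algebraMap ↥𝒱 E x)
    rw [← IsScalarTower.algebraMap_apply ↥𝒱 E E']
  have tow3 : IsScalarTower ↥(integralClosure ↥𝒱 E) ↥(integralClosure ↥𝒱' E') E' :=
    IsScalarTower.of_algebraMap_eq (fun _ => rfl)
  have tow4 : IsScalarTower ↥(integralClosure ↥𝒱 E) E E' :=
    IsScalarTower.of_algebraMap_eq (fun _ => rfl)
  have hinj : Function.Injective (algebraMap ↥𝒱 ↥𝒱') := by
    intro x y hxy
    have h1 : algebraMap K K' (x : K) = algebraMap K K' (y : K) := by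
      rw [← hφ, ← hφ, hxy]
    exact Subtype.ext ((algebraMap K K').injective h1)
  have unr : Algebra.FormallyUnramified ↥𝒱 ↥(integralClosure ↥𝒱 E) := h
  exact formallyUnramified_of_ebc (V := ↥𝒱) (K := K) (E := E) (W := ↥(integralClosure ↥𝒱 E))
    (V' := ↥𝒱') (K' := K') (E' := E') (W' := ↥(integralClosure ↥𝒱' E')) hinj hgen

/-- **(ABH), Kummer form, in valuation-subring currency.** -/
theorem unr_of_tameAt_kummer [FiniteDimensional K' E'] [Algebra.IsSeparable K' E']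
    (𝒱 : ValuationSubring K) (𝒱' : ValuationSubring K')
    (hle : ∀ x ∈ 𝒱, algebraMap K K' x ∈ 𝒱')
    [IsDiscreteValuationRing ↥𝒱] [IsDiscreteValuationRing ↥𝒱']
    [CharZero (IsLocalRing.ResidueField ↥𝒱)]
    (n : ℕ) (ϖ : ↥𝒱) (hϖ : Irreducible ϖ) (s : ↥𝒱') (hs : Irreducible s)
    (hsn : (s : K') ^ n = algebraMap K K' (ϖ : K))
    (hgen : Algebra.adjoin E {algebraMap K' E' (s : K')} = ⊤)
    (htame : TameAt 𝒱 E n) : Unr 𝒱' E' := by
  let φ : ↥𝒱 →+* ↥𝒱' :=
    ((algebraMap K K').comp 𝒱.subtype).codRestrict 𝒱'.toSubring (fun x => hle x x.2)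
  let algVV' : Algebra ↥𝒱 ↥𝒱' := φ.toAlgebra
  have hφ : ∀ x : ↥𝒱, ((algebraMap ↥𝒱 ↥𝒱' x : ↥𝒱') : K') = algebraMap K K' (x : K) := fun _ => rfl
  have towVV'E' : IsScalarTower ↥𝒱 ↥𝒱' E' := by
    refine IsScalarTower.of_algebraMap_eq (fun x => ?_)
    change algebraMap K E' (x : K) = algebraMap K' E' ((algebraMap ↥𝒱 ↥𝒱' x : ↥𝒱') : K')
    rw [hφ, ← IsScalarTower.algebraMap_apply K K' E']
  have towVEE' : IsScalarTower ↥𝒱 E E' := by
    refine IsScalarTower.of_algebraMap_eq (fun x => ?_)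
    change algebraMap K E' (x : K) = algebraMap E E' (algebraMap K E (x : K))
    rw [← IsScalarTower.algebraMap_apply K E E']
  have hsn' : s ^ n = algebraMap ↥𝒱 ↥𝒱' ϖ := by
    apply Subtype.ext
    rw [hφ, ← hsn]
    rfl
  exact abhyankar_kummer (V := ↥𝒱) (K := K) (E := E) (W := ↥(integralClosure ↥𝒱 E))
    (V' := ↥𝒱') (K' := K') (E' := E') (W' := ↥(integralClosure ↥𝒱' E')) n ϖ hϖ s hs hsn' hgen
    htame

end EbcVal

end Fermat.Agent.JA
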