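/-
J-A programme, GEO (lead): in an integral extension of UFDs `A ⊆ A'`, a principal prime `(p')` of
`A'` lies over a principal prime `(p)` of `A` (going down + unique factorisation).
-/
import Mathlib

set_option autoImplicit false

namespace Fermat.Agent.JA

variable {A A' : Type*} [CommRing A] [IsDomain A] [UniqueFactorizationMonoid A]
  [CommRing A'] [IsDomain A'] [UniqueFactorizationMonoid A'] [Algebra A A']
  [FaithfulSMul A A'] [Algebra.IsIntegral A A']

/-- A nonzero prime ideal of a UFD contains a prime element. -/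
theorem exists_prime_mem_of_isPrime {R : Type*} [CommRing R] [IsDomain R]
    [UniqueFactorizationMonoid R] (P : Ideal R) [hP : P.IsPrime] (hP0 : P ≠ ⊥) :
    ∃ q : R, Prime q ∧ q ∈ P := by
  obtain ⟨a, haP, ha0⟩ := Submodule.exists_mem_ne_zero_of_ne_bot hP0
  obtain ⟨f, hf, hfa⟩ := UniqueFactorizationMonoid.exists_prime_factors a ha0
  have hfP : f.prod ∈ P := by
    obtain ⟨u, hu⟩ := hfa.symm
    rw [← hu]
    exact P.mul_mem_right _ haP
  obtain ⟨q, hqf, hqP⟩ := (hP.multiset_prod_mem_iff_exists_mem f).mp hfP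
  exact ⟨q, hf q hqf, hqP⟩

/-- **Principal primes lie over principal primes.** -/
theorem exists_prime_span_eq_under {p' : A'} (hp' : Prime p') :
    ∃ p : A, Prime p ∧ (Ideal.span {p'}).under A = Ideal.span {p} := by
  have hP'prime : (Ideal.span {p'}).IsPrime := (Ideal.span_singleton_prime hp'.ne_zero).mpr hp'
  set P' : Ideal A' := Ideal.span {p'} with hP'
  have hP'0 : P' ≠ ⊥ := by
    rw [hP', Ne, Ideal.span_singleton_eq_bot]; exact hp'.ne_zero
  set P : Ideal A := P'.under A with hP
  have hPprime : P.IsPrime := inferInstance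
  have hP0 : P ≠ ⊥ := Ideal.under_ne_bot A hP'0
  obtain ⟨q, hq, hqP⟩ := exists_prime_mem_of_isPrime P hP0
  refine ⟨q, hq, ?_⟩
  have hqprime : (Ideal.span {q}).IsPrime := (Ideal.span_singleton_prime hq.ne_zero).mpr hq
  have hle : Ideal.span {q} ≤ P := (Ideal.span_singleton_le_iff_mem P).mpr hqP
  by_contra hne
  have hlt : Ideal.span {q} < P := lt_of_le_of_ne hle (Ne.symm hne)
  have : P'.LiesOver P := ⟨rfl⟩
  obtain ⟨Q', hQ'lt, hQ'prime, hQ'over⟩ :=
    Ideal.exists_ideal_lt_liesOver_of_lt (p := Ideal.span {q}) (q := P) P' hlt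
  have hQ'0 : Q' ≠ ⊥ := by
    intro h0
    have h1 : Ideal.span {q} = Q'.under A := hQ'over.over
    rw [h0] at h1
    have h2 : q ∈ (⊥ : Ideal A').under A := h1 ▸ Ideal.mem_span_singleton_self q
    rw [Ideal.under_def, Ideal.mem_comap, Ideal.mem_bot,
      map_eq_zero_iff _ (FaithfulSMul.algebraMap_injective A A')] at h2
    exact hq.ne_zero h2
  obtain ⟨r', hr', hr'Q⟩ := exists_prime_mem_of_isPrime Q' hQ'0
  have hr'P : r' ∈ P' := hQ'lt.le hr'Q
  rw [hP', Ideal.mem_span_singleton] at hr'P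
  have hassoc : Associated p' r' := hp'.irreducible.associated_of_dvd hr'.irreducible hr'P
  have hp'Q : p' ∈ Q' := by
    obtain ⟨u, hu⟩ := hassoc.symm
    rw [← hu]
    exact Q'.mul_mem_right _ hr'Q
  have : P' ≤ Q' := by
    rw [hP']; exact (Ideal.span_singleton_le_iff_mem Q').mpr hp'Q
  exact absurd hQ'lt (not_lt_of_ge this)

end Fermat.Agent.JA
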