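/-
J-A programme, GEO (lead): verification of the hypotheses of the cover theorem for a Kummer cover
`A → A' ∋ s`, `s ^ n = τ`, from hypotheses on the primes of `A` (étale base change and Abhyankar).
-/
import Mathlib
import Fermat.Agent.JA.GEO_lead_ValPrime
import Fermat.Agent.JA.GEO_lead_EbcVal
import Fermat.Agent.JA.GEO_lead_Under

set_option autoImplicit false

namespace Fermat.Agent.JA

variable {A : Type*} [CommRing A] [IsDomain A] [UniqueFactorizationMonoid A]
  {K : Type*} [Field K] [CharZero K] [Algebra A K] [IsFractionRing A K]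
  {E : Type*} [Field E] [Algebra K E] [FiniteDimensional K E]
  {A' : Type*} [CommRing A'] [IsDomain A'] [UniqueFactorizationMonoid A']
  {K' : Type*} [Field K'] [Algebra A' K'] [IsFractionRing A' K']
  {E' : Type*} [Field E'] [Algebra K' E'] [FiniteDimensional K' E']
  [Algebra A A'] [FaithfulSMul A A'] [Algebra.IsIntegral A A']
  [Algebra K K'] [Algebra A K'] [IsScalarTower A K K'] [IsScalarTower A A' K']
  [Algebra E E'] [Algebra K E'] [IsScalarTower K K' E'] [IsScalarTower K E E']

omit [FaithfulSMul A A'] [Algebra.IsIntegral A A'] [CharZero K] in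
/-- If `(p') ∩ A = (p)` then `𝒱_p` maps into `𝒱_{p'}`. -/
theorem primeValSubring_le_of_under {p : A} (hp : Prime p) {p' : A'} (hp' : Prime p')
    (hunder : (Ideal.span {p'}).under A = Ideal.span {p}) :
    ∀ x ∈ primeValSubring K hp, algebraMap K K' x ∈ primeValSubring K' hp' := by
  rintro x ⟨a, b, hb, hx⟩
  refine ⟨algebraMap A A' a, algebraMap A A' b, ?_, ?_⟩
  · intro hdvd
    apply hb
    have : b ∈ (Ideal.span {p'}).under A := by
      rw [Ideal.under_def, Ideal.mem_comap, Ideal.mem_span_singleton]; exact hdvd
    rw [hunder, Ideal.mem_span_singleton] at this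
    exact this
  · rw [← IsScalarTower.algebraMap_apply A A' K', ← IsScalarTower.algebraMap_apply A A' K',
      IsScalarTower.algebraMap_apply A K K', IsScalarTower.algebraMap_apply A K K', ← map_mul, hx]

/-- **Kummer verification.** -/
theorem unr_cover_of_kummer {π τ c : A} (hπ : Prime π) (hτ : Prime τ) {s : A'} (hs : Prime s)
    (n : ℕ) (hsn : s ^ n = algebraMap A A' τ)
    (hgenE : Algebra.adjoin E {algebraMap K' E' (algebraMap A' K' s)} = ⊤)
    (hgenK : Algebra.adjoin K' (Set.range (algebraMap E E')) = ⊤)
    (h1 : ∀ (p : A) (hp : Prime p), ¬ p ∣ τ → ¬ p ∣ c → ¬ Associated p π →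
      Unr (primeValSubring K hp) E)
    (h2 : Unr (primeValSubring K hπ) E)
    (h3 : TameAt (primeValSubring K hτ) E n)
    (h3' : ∀ (_ : IsLocalRing ↥(primeValSubring K hτ)),
      CharZero (IsLocalRing.ResidueField ↥(primeValSubring K hτ)))
    (p' : A') (hp' : Prime p') (hc : ¬ p' ∣ algebraMap A A' c) :
    Unr (primeValSubring K' hp') E' := by
  have hK'0 : CharZero K' := charZero_of_injective_algebraMap (algebraMap K K').injective
  obtain ⟨p, hp, hunder⟩ := exists_prime_span_eq_under (A := A) hp'
  have hle := primeValSubring_le_of_under (K := K) (K' := K') hp hp' hunder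
  have dvr' : IsDiscreteValuationRing ↥(primeValSubring K' hp') :=
    isDiscreteValuationRing_primeValSubring hp'
  have hpp' : p' ∣ algebraMap A A' p := by
    have : p ∈ (Ideal.span {p'}).under A := by
      rw [hunder]; exact Ideal.mem_span_singleton_self p
    rwa [Ideal.under_def, Ideal.mem_comap, Ideal.mem_span_singleton] at this
  by_cases hpτ : p ∣ τ
  · -- the Kummer point
    have hassoc : Associated p τ := hp.irreducible.associated_of_dvd hτ.irreducible hpτ
    have hV : primeValSubring K hp = primeValSubring K hτ :=
      primeValSubring_eq_of_associated hp hτ hassoc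
    have hp's : p' ∣ s := by
      have h1 : p' ∣ algebraMap A A' τ := hpp'.trans (map_dvd (algebraMap A A') hassoc.dvd)
      rw [← hsn] at h1
      exact hp'.dvd_of_dvd_pow h1
    have hassoc' : Associated p' s := hp'.irreducible.associated_of_dvd hs.irreducible hp's
    have hV' : primeValSubring K' hp' = primeValSubring K' hs :=
      primeValSubring_eq_of_associated hp' hs hassoc'
    rw [hV'] 
    rw [hV, hV'] at hle
    have dvr : IsDiscreteValuationRing ↥(primeValSubring K hτ) :=
      isDiscreteValuationRing_primeValSubring hτ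
    have dvrs : IsDiscreteValuationRing ↥(primeValSubring K' hs) :=
      isDiscreteValuationRing_primeValSubring hs
    have cz := h3' inferInstance
    refine unr_of_tameAt_kummer (primeValSubring K hτ) (primeValSubring K' hs) hle n
      ⟨algebraMap A K τ, algebraMap_mem_primeValSubring hτ τ⟩ (irreducible_primeValSubring hτ)
      ⟨algebraMap A' K' s, algebraMap_mem_primeValSubring hs s⟩ (irreducible_primeValSubring hs)
      ?_ hgenE h3
    change (algebraMap A' K' s) ^ n = algebraMap K K' (algebraMap A K τ)
    rw [← map_pow, hsn, ← IsScalarTower.algebraMap_apply A A' K',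
      IsScalarTower.algebraMap_apply A K K']
  · have dvr : IsDiscreteValuationRing ↥(primeValSubring K hp) :=
      isDiscreteValuationRing_primeValSubring hp
    have hpc : ¬ p ∣ c := fun h => hc (hpp'.trans (map_dvd (algebraMap A A') h))
    have hunr : Unr (primeValSubring K hp) E := by
      by_cases hpπ : Associated p π
      · rw [primeValSubring_eq_of_associated hp hπ hpπ]; exact h2
      · exact h1 p hp hpτ hpc hpπ
    exact unr_of_unr_of_le (primeValSubring K hp) (primeValSubring K' hp') hle hgenK hunr

end Fermat.Agent.JA
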