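/-
J-A — helper6 — package KDATA, part 1: Kummer extensions `E' = E(s)`, `s ^ n = τ`, over a field
`E` containing a primitive `n`-th root of unity, WITHOUT irreducibility of `X ^ n - τ`.
-/
import Mathlib

set_option autoImplicit false
set_option linter.unusedSectionVars false
set_option linter.style.haveILetI false

open Polynomial

namespace Fermat.Agent.JA

section Kummer

variable {E : Type*} [Field E] {n : ℕ} {τ ζ : E}
  {E' : Type*} [Field E'] [Algebra E E'] {s : E'}

/-- every root of `X ^ n - τ` is `ζ ^ i * s` -/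
theorem exists_pow_mul_eq_of_pow_eq [NeZero n] (hζ : IsPrimitiveRoot ζ n)
    (hs : s ^ n = algebraMap E E' τ) (hs0 : s ≠ 0) {x : E'} (hx : x ^ n = algebraMap E E' τ) :
    ∃ i < n, x = algebraMap E E' ζ ^ i * s := by
  have hζ' : IsPrimitiveRoot (algebraMap E E' ζ) n :=
    hζ.map_of_injective (algebraMap E E').injective
  have h1 : (x / s) ^ n = 1 := by
    rw [div_pow, hx, hs, div_self]
    rw [← hs]
    exact pow_ne_zero n hs0
  obtain ⟨i, hi, hi'⟩ := hζ'.eq_pow_of_pow_eq_one h1
  exact ⟨i, hi, by rw [hi', div_mul_cancel₀ _ hs0]⟩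

/-- the Galois group moves `s` by roots of unity -/
theorem exists_pow_mul_eq_of_algEquiv [NeZero n] (hζ : IsPrimitiveRoot ζ n)
    (hs : s ^ n = algebraMap E E' τ) (hs0 : s ≠ 0) (σ : E' ≃ₐ[E] E') :
    ∃ i < n, σ s = algebraMap E E' ζ ^ i * s := by
  apply exists_pow_mul_eq_of_pow_eq hζ hs hs0
  rw [← map_pow, hs, AlgEquiv.commutes]

section Char

variable [NeZero n] (hζ : IsPrimitiveRoot ζ n) (hs : s ^ n = algebraMap E E' τ) (hs0 : s ≠ 0)

include hζ hs hs0 in
theorem algEquiv_apply_root_div (σ ρ : E' ≃ₐ[E] E') : σ (ρ s) / ρ s = σ s / s := by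
  obtain ⟨j, -, hj⟩ := exists_pow_mul_eq_of_algEquiv hζ hs hs0 ρ
  have hc : algebraMap E E' ζ ^ j ≠ 0 :=
    pow_ne_zero _ ((map_ne_zero_iff _ (algebraMap E E').injective).2 (hζ.ne_zero (NeZero.ne n)))
  rw [hj, map_mul, map_pow, AlgEquiv.commutes, mul_div_mul_left _ _ hc]

/-- the Kummer character `σ ↦ σ s / s` -/
noncomputable def kummerChar : (E' ≃ₐ[E] E') →* rootsOfUnity n E' where
  toFun σ := ⟨Units.mk0 (σ s / s)
      (div_ne_zero ((map_ne_zero_iff _ σ.injective).2 hs0) hs0), by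
    rw [mem_rootsOfUnity]
    apply Units.ext
    rw [Units.val_pow_eq_pow_val, Units.val_mk0, Units.val_one, div_pow, ← map_pow, hs,
      AlgEquiv.commutes, div_self]
    rw [← hs]
    exact pow_ne_zero n hs0⟩
  map_one' := by
    apply Subtype.ext
    apply Units.ext
    show (1 : E' ≃ₐ[E] E') s / s = 1
    rw [AlgEquiv.one_apply, div_self hs0]
  map_mul' σ ρ := by
    apply Subtype.ext
    apply Units.ext
    show (σ * ρ) s / s = (σ s / s) * (ρ s / s)
    rw [AlgEquiv.mul_apply, ← algEquiv_apply_root_div hζ hs hs0 σ ρ, div_mul_div_cancel₀]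
    exact (map_ne_zero_iff _ ρ.injective).2 hs0

theorem kummerChar_apply (σ : E' ≃ₐ[E] E') :
    ((kummerChar hζ hs hs0 σ : rootsOfUnity n E') : E'ˣ).1 = σ s / s := rfl

end Char

section Splitting

variable [IsSplittingField E E' (X ^ n - C τ)]

/-- the splitting field of `X ^ n - τ` is generated by any root -/
theorem adjoin_root_eq_top_of_isSplittingField' [NeZero n] (hζ : IsPrimitiveRoot ζ n)
    (hs : s ^ n = algebraMap E E' τ) (hs0 : s ≠ 0) : Algebra.adjoin E {s} = ⊤ := by
  rw [eq_top_iff, ← IsSplittingField.adjoin_rootSet E' (X ^ n - C τ)]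
  apply Algebra.adjoin_le
  intro x hx
  have hne : (X ^ n - C τ : E[X]) ≠ 0 := X_pow_sub_C_ne_zero (NeZero.pos n) τ
  rw [mem_rootSet_of_ne hne, map_sub, map_pow, aeval_X, aeval_C, sub_eq_zero] at hx
  obtain ⟨i, -, rfl⟩ := exists_pow_mul_eq_of_pow_eq hζ hs hs0 hx
  exact Subalgebra.mul_mem _ (Subalgebra.pow_mem _ (Subalgebra.algebraMap_mem _ ζ) i)
    (Algebra.subset_adjoin (Set.mem_singleton s))

theorem intermediateField_adjoin_root_eq_top [NeZero n] (hζ : IsPrimitiveRoot ζ n)
    (hs : s ^ n = algebraMap E E' τ) (hs0 : s ≠ 0) : IntermediateField.adjoin E {s} = ⊤ := by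
  refine (IntermediateField.eq_adjoin_of_eq_algebra_adjoin _ _ _ ?_).symm
  exact (adjoin_root_eq_top_of_isSplittingField' hζ hs hs0).symm

/-- an automorphism fixing `s` is trivial -/
theorem algEquiv_eq_one_of_apply_root [NeZero n] (hζ : IsPrimitiveRoot ζ n)
    (hs : s ^ n = algebraMap E E' τ) (hs0 : s ≠ 0) (σ : E' ≃ₐ[E] E') (hσ : σ s = s) : σ = 1 := by
  have h1 : (σ : E' →ₐ[E] E') = AlgHom.id E E' := by
    apply AlgHom.ext_of_adjoin_eq_top (adjoin_root_eq_top_of_isSplittingField' hζ hs hs0)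
    intro x hx
    rw [Set.mem_singleton_iff] at hx
    rw [hx]
    exact hσ
  ext x
  exact congrArg (fun f : E' →ₐ[E] E' => f x) h1

theorem isGalois_of_isSplittingField_X_pow_sub_C' (hn : (n : E) ≠ 0) (hτ : τ ≠ 0) :
    IsGalois E E' :=
  IsGalois.of_separable_splitting_field (p := X ^ n - C τ) (separable_X_pow_sub_C τ hn hτ)


section

variable [NeZero n] (hζ : IsPrimitiveRoot ζ n) (hs : s ^ n = algebraMap E E' τ) (hs0 : s ≠ 0)

theorem kummerChar_injective : Function.Injective (kummerChar hζ hs hs0) := by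
  rw [injective_iff_map_eq_one]
  intro σ hσ
  apply algEquiv_eq_one_of_apply_root hζ hs hs0
  have h1 := congrArg (fun x : rootsOfUnity n E' => ((x : E'ˣ) : E')) hσ
  have h2 : σ s / s = 1 := h1
  rw [div_eq_one_iff_eq hs0] at h2
  exact h2

include hζ hs hs0 in
/-- the order of the Galois group of a Kummer extension divides `n` -/
theorem natCard_algEquiv_dvd_of_isSplittingField : Nat.card (E' ≃ₐ[E] E') ∣ n := by
  have hζ' : IsPrimitiveRoot (algebraMap E E' ζ) n :=
    hζ.map_of_injective (algebraMap E E').injective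
  have h1 : Nat.card (rootsOfUnity n E') = n := hζ'.card_rootsOfUnity
  have h2 := Subgroup.card_subgroup_dvd_card (kummerChar hζ hs hs0).range
  rw [h1] at h2
  rwa [Nat.card_congr (MonoidHom.ofInjective (kummerChar_injective hζ hs hs0)).toEquiv]

end

end Splitting

end Kummer

end Fermat.Agent.JA
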