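/-
J-A — helper6 — package KDATA (I): the Kummer chart from abstract cover data.

`A ≅ R[X]` (generator `T`), `τ = T - a`, `A' ≅ R[X]` (generator `s`) with `s ^ n = τ`,
`K' = Frac A'`, `E'` a splitting field of `X ^ n - τ` over `E`, with all compatible algebra
structures.  Then the hypotheses of the cover theorem and of the Kummer verification hold.
-/
import Mathlib
import Fermat.Agent.JA.GEO_lead_Cover
import Fermat.Agent.JA.GEO_lead_KummerVerify
import Fermat.Agent.JA.KUM_CHART_helper6_Poly
import Fermat.Agent.JA.KUM_CHART_helper6_Plain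
import Fermat.Agent.JA.KUM_CHART_helper6_Kummer

set_option autoImplicit false
set_option linter.unusedSectionVars false
set_option linter.style.haveILetI false

open Polynomial

namespace Fermat.Agent.JA

section Expand

variable {R : Type*} [CommRing R] {A : Type*} [CommRing A] [Algebra R A]
  {A' : Type*} [CommRing A'] [Algebra R A'] [Algebra A A'] [IsScalarTower R A A']

/-- the structure map `A → A'` of a Kummer cover is `expand` in coordinates -/
theorem algebraMap_aeval_eq_aeval_expand {τ : A} {s : A'} {n : ℕ}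
    (hsn : s ^ n = algebraMap A A' τ) (f : R[X]) :
    algebraMap A A' (aeval τ f) = aeval s (expand R n f) := by
  rw [expand_aeval, hsn, ← Polynomial.aeval_algebraMap_apply]

variable [IsDomain R]

theorem algebraMap_injective_of_kummer {τ : A} {s : A'} {n : ℕ} (hn : 0 < n)
    (hτ : Function.Bijective (Polynomial.aeval τ : R[X] →ₐ[R] A))
    (hs : Function.Bijective (Polynomial.aeval s : R[X] →ₐ[R] A'))
    (hsn : s ^ n = algebraMap A A' τ) : Function.Injective (algebraMap A A') := by
  intro x y hxy
  obtain ⟨f, rfl⟩ := hτ.2 x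
  obtain ⟨g, rfl⟩ := hτ.2 y
  rw [algebraMap_aeval_eq_aeval_expand hsn, algebraMap_aeval_eq_aeval_expand hsn] at hxy
  rw [expand_injective hn (hs.1 hxy)]

/-- `π ∣ expand n f → π ∣ f` -/
theorem C_dvd_of_C_dvd_expand {n : ℕ} (hn : 0 < n) (r : R) (f : R[X])
    (h : C r ∣ expand R n f) : C r ∣ f := by
  rw [C_dvd_iff_dvd_coeff] at h ⊢
  intro i
  have := h (i * n)
  rwa [coeff_expand_mul hn] at this

theorem dvd_of_algebraMap_dvd_algebraMap_of_kummer {τ : A} {s : A'} {n : ℕ} (hn : 0 < n)
    (hτ : Function.Bijective (Polynomial.aeval τ : R[X] →ₐ[R] A))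
    (hs : Function.Bijective (Polynomial.aeval s : R[X] →ₐ[R] A'))
    (hsn : s ^ n = algebraMap A A' τ) (r : R) (x : A)
    (h : algebraMap A A' (algebraMap R A r) ∣ algebraMap A A' x) : algebraMap R A r ∣ x := by
  obtain ⟨f, rfl⟩ := hτ.2 x
  rw [algebraMap_aeval_eq_aeval_expand hsn, ← IsScalarTower.algebraMap_apply R A A',
    ← C_dvd_iff_algebraMap_dvd_aeval s hs] at h
  rw [← C_dvd_iff_algebraMap_dvd_aeval τ hτ]
  exact C_dvd_of_C_dvd_expand hn r f h

omit [IsDomain R] in
theorem isIntegral_of_kummer {s : A'} {n : ℕ} (hn : 0 < n) (τ : A)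
    (hs : Function.Surjective (Polynomial.aeval s : R[X] →ₐ[R] A'))
    (hsn : s ^ n = algebraMap A A' τ) : Algebra.IsIntegral A A' := by
  have hsint : IsIntegral A s := by
    refine ⟨X ^ n - C τ, monic_X_pow_sub_C τ hn.ne', ?_⟩
    rw [eval₂_sub, eval₂_pow, eval₂_X, eval₂_C, hsn, sub_self]
  refine ⟨fun y => ?_⟩
  obtain ⟨f, rfl⟩ := hs y
  induction f using Polynomial.induction_on' with
  | add p q hp hq => rw [map_add]; exact hp.add hq
  | monomial k r =>
    rw [← C_mul_X_pow_eq_monomial, map_mul, map_pow, aeval_C, aeval_X,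
      IsScalarTower.algebraMap_apply R A A']
    exact isIntegral_algebraMap.mul (hsint.pow k)

end Expand

section Residue

variable {A : Type*} [CommRing A] [IsDomain A] [UniqueFactorizationMonoid A]
  {K : Type*} [Field K] [Algebra A K] [IsFractionRing A K]

/-- the residue field of `𝒱_p` has characteristic zero when no nonzero integer is divisible by
`p` -/
theorem charZero_residueField_primeValSubring {p : A} (hp : Prime p)
    (hm : ∀ m : ℕ, m ≠ 0 → ¬ p ∣ (m : A)) (_ : IsLocalRing ↥(primeValSubring K hp)) :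
    CharZero (IsLocalRing.ResidueField ↥(primeValSubring K hp)) := by
  apply charZero_of_inj_zero
  intro m hm0
  by_contra hne
  have h1 : IsLocalRing.residue ↥(primeValSubring K hp) (m : ↥(primeValSubring K hp)) = 0 := by
    rw [map_natCast]; exact hm0
  rw [IsLocalRing.residue_eq_zero_iff] at h1
  have hinv : (algebraMap A K (m : A))⁻¹ ∈ primeValSubring K hp :=
    inv_algebraMap_mem_primeValSubring hp (hm m hne)
  have hmA0 : (m : A) ≠ 0 := by
    intro h0
    exact hm m hne (h0 ▸ dvd_zero p)
  have hK0 : algebraMap A K (m : A) ≠ 0 := by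
    rwa [Ne, map_eq_zero_iff _ (IsFractionRing.injective A K)]
  have hunit : IsUnit (m : ↥(primeValSubring K hp)) := by
    refine isUnit_iff_exists_inv.mpr ⟨⟨(algebraMap A K (m : A))⁻¹, hinv⟩, ?_⟩
    apply Subtype.ext
    show ((m : ↥(primeValSubring K hp)) : K) * (algebraMap A K (m : A))⁻¹ = 1
    rw [map_natCast] at hK0 ⊢
    have : ((m : ↥(primeValSubring K hp)) : K) = (m : K) := by
      simp
    rw [this]
    exact mul_inv_cancel₀ hK0
  exact (IsLocalRing.mem_maximalIdeal _).1 h1 hunit

end Residue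

section Main

variable {R : Type*} [CommRing R] [IsDomain R] [IsDiscreteValuationRing R] [CharZero R]
  {A : Type*} [CommRing A] [Algebra R A] (T : A)
  (hT : Function.Bijective (Polynomial.aeval T : R[X] →ₐ[R] A))
  {K : Type*} [Field K] [Algebra A K] [IsFractionRing A K] [Algebra R K] [IsScalarTower R A K]
  {E : Type*} [Field E] [Algebra K E] [FiniteDimensional K E] [Algebra A E] [IsScalarTower A K E]
  (π : R) (hπ : Irreducible π)
  {A' : Type*} [CommRing A'] [Algebra R A'] [Algebra A A'] [IsScalarTower R A A'] (s : A')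
  (hs : Function.Bijective (Polynomial.aeval s : R[X] →ₐ[R] A'))
  {K' : Type*} [Field K'] [Algebra A' K'] [IsFractionRing A' K'] [Algebra K K'] [Algebra A K']
  [IsScalarTower A K K'] [IsScalarTower A A' K']
  {E' : Type*} [Field E'] [Algebra K' E'] [FiniteDimensional K' E'] [Algebra A' E']
  [IsScalarTower A' K' E'] [Algebra E E'] [Algebra A E'] [IsScalarTower A A' E']
  [IsScalarTower A E E'] [Algebra K E'] [IsScalarTower K K' E'] [IsScalarTower K E E']

include hT hπ hs K' in
/-- **KDATA (I)**: the Kummer chart at `T = a` from abstract cover data. -/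
theorem normalOverAway_kummer_of_cover (n : ℕ) (hn : IsUnit (n : R))
    (hζ : ∃ ζ : R, IsPrimitiveRoot ζ n) (a : R) (c : A)
    [IsSplittingField E E' (X ^ n - C (algebraMap A E (T - algebraMap R A a)))]
    (hsn : s ^ n = algebraMap A A' (T - algebraMap R A a))
    (h1 : ∀ 𝒱 : ValuationSubring K, 𝒱 ≠ ⊤ → (∀ x : A, algebraMap A K x ∈ 𝒱) →
      (algebraMap R K π)⁻¹ ∈ 𝒱 → (algebraMap A K (T - algebraMap R A a))⁻¹ ∈ 𝒱 →
      (algebraMap A K c)⁻¹ ∈ 𝒱 → Unr 𝒱 E)
    (h2 : ∀ 𝒱 : ValuationSubring K, IsGaussAt R π (algebraMap A K T) 𝒱 → Unr 𝒱 E)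
    (h3 : ∀ 𝒱 : ValuationSubring K, 𝒱 ≠ ⊤ → (∀ x : A, algebraMap A K x ∈ 𝒱) →
      (algebraMap R K π)⁻¹ ∈ 𝒱 → (algebraMap A K (T - algebraMap R A a))⁻¹ ∉ 𝒱 → TameAt 𝒱 E n) :
    NormalOverAway (Abar A (algebraMap R A π)) (Bbar A ↥(integralClosure A E) (algebraMap R A π))
      (mkA (algebraMap R A π) c) := by
  classical
  obtain ⟨iDom, iUFD, iNoeth, iChar, hπA, iPID⟩ := poly_instances T hT π hπ
  obtain ⟨iDom', iUFD', iNoeth', iChar', hπA', iPID'⟩ := poly_instances s hs π hπ
  have hn0 : n ≠ 0 := by
    rintro rfl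
    rw [Nat.cast_zero] at hn
    exact not_isUnit_zero hn
  have hnpos : 0 < n := Nat.pos_of_ne_zero hn0
  haveI : NeZero n := ⟨hn0⟩
  set τ : A := T - algebraMap R A a with hτdef
  have hτb : Function.Bijective (Polynomial.aeval τ : R[X] →ₐ[R] A) :=
    bijective_aeval_sub_algebraMap T hT a
  have hτ : Prime τ := prime_of_bijective_aeval τ hτb
  have hsp : Prime s := prime_of_bijective_aeval s hs
  -- the structure map
  have hinjAA' : Function.Injective (algebraMap A A') :=
    algebraMap_injective_of_kummer hnpos hτb hs hsn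
  haveI : FaithfulSMul A A' := (faithfulSMul_iff_algebraMap_injective A A').2 hinjAA'
  haveI : Algebra.IsIntegral A A' := isIntegral_of_kummer hnpos τ hs.2 hsn
  have hππ : algebraMap A A' (algebraMap R A π) = algebraMap R A' π :=
    (IsScalarTower.algebraMap_apply R A A' π).symm
  have hπ' : Prime (algebraMap A A' (algebraMap R A π)) := by rw [hππ]; exact hπA'
  haveI : IsPrincipalIdealRing (Abar A' (algebraMap A A' (algebraMap R A π))) := by
    rw [hππ]; exact iPID'
  have hcompat : ∀ x : A, algebraMap A A' (algebraMap R A π) ∣ algebraMap A A' x →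
      algebraMap R A π ∣ x :=
    fun x hx => dvd_of_algebraMap_dvd_algebraMap_of_kummer hnpos hτb hs hsn π x hx
  -- injectivity of the structure maps
  have hinjRA : Function.Injective (algebraMap R A) := algebraMap_injective_of_bijective_aeval T hT
  have hinjAK : Function.Injective (algebraMap A K) := IsFractionRing.injective A K
  have hinjAE : Function.Injective (algebraMap A E) := by
    rw [IsScalarTower.algebraMap_eq A K E]
    exact (algebraMap K E).injective.comp hinjAK
  haveI : CharZero K := charZero_of_injective_algebraMap hinjAK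
  haveI : CharZero E := charZero_of_injective_algebraMap hinjAE
  -- the Kummer extension `E' / E`
  obtain ⟨ζ, hζ⟩ := hζ
  have hζE : IsPrimitiveRoot (algebraMap A E (algebraMap R A ζ)) n :=
    (hζ.map_of_injective hinjRA).map_of_injective hinjAE
  have hτE0 : algebraMap A E τ ≠ 0 := by
    rw [Ne, map_eq_zero_iff _ hinjAE]; exact hτ.ne_zero
  have hsE : (algebraMap A' E' s) ^ n = algebraMap E E' (algebraMap A E τ) := by
    rw [← map_pow, hsn, ← IsScalarTower.algebraMap_apply A A' E',
      IsScalarTower.algebraMap_apply A E E']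
  have hsE0 : algebraMap A' E' s ≠ 0 := by
    intro h0
    rw [h0, zero_pow hn0] at hsE
    exact hτE0 ((map_eq_zero_iff _ (algebraMap E E').injective).1 hsE.symm)
  have hnE : ((n : ℕ) : E) ≠ 0 := Nat.cast_ne_zero.2 hn0
  haveI : IsGalois E E' := isGalois_of_isSplittingField_X_pow_sub_C' (n := n)
    (τ := algebraMap A E τ) hnE hτE0
  haveI : FiniteDimensional E E' :=
    IsSplittingField.finiteDimensional E' (X ^ n - C (algebraMap A E τ))
  have hfix : ∀ (g : E' ≃ₐ[E] E') (x : E), g • algebraMap E E' x = algebraMap E E' x :=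
    fun g x => g.commutes x
  have hinv : ∀ y : E', (∀ g : E' ≃ₐ[E] E', g • y = y) → ∃ x : E, algebraMap E E' x = y := by
    intro y hy
    have h := (IsGalois.mem_bot_iff_fixed (F := E) (E := E') y).2 hy
    exact IntermediateField.mem_bot.1 h
  have hcard : IsUnit ((Fintype.card (E' ≃ₐ[E] E') : ℕ) : A) := by
    have hdvd : Nat.card (E' ≃ₐ[E] E') ∣ n :=
      natCard_algEquiv_dvd_of_isSplittingField hζE hsE hsE0
    rw [← Fintype.card_eq_nat_card] at hdvd
    obtain ⟨m, hm⟩ := hdvd
    have hnA : IsUnit ((n : ℕ) : A) := by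
      have := hn.map (algebraMap R A)
      rwa [map_natCast] at this
    rw [hm, Nat.cast_mul] at hnA
    exact isUnit_of_mul_isUnit_left hnA
  -- generation
  have hgenE' : Algebra.adjoin E {algebraMap A' E' s} = ⊤ :=
    adjoin_root_eq_top_of_isSplittingField' hζE hsE hsE0
  have hsK' : algebraMap K' E' (algebraMap A' K' s) = algebraMap A' E' s :=
    (IsScalarTower.algebraMap_apply A' K' E' s).symm
  have hgenE : Algebra.adjoin E {algebraMap K' E' (algebraMap A' K' s)} = ⊤ := by
    rw [hsK']; exact hgenE'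
  have hgenK : Algebra.adjoin K' (Set.range (algebraMap E E')) = ⊤ := by
    rw [eq_top_iff]
    intro x hxtop
    clear hxtop
    have hx : x ∈ Algebra.adjoin E {algebraMap A' E' s} := by rw [hgenE']; trivial
    induction hx using Algebra.adjoin_induction with
    | mem y hy =>
      rw [Set.mem_singleton_iff] at hy
      rw [hy, ← hsK']
      exact Subalgebra.algebraMap_mem _ _
    | algebraMap r => exact Algebra.subset_adjoin ⟨r, rfl⟩
    | add y z _ _ hy hz => exact Subalgebra.add_mem _ hy hz
    | mul y z _ _ hy hz => exact Subalgebra.mul_mem _ hy hz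
  -- the hypotheses on the primes of `A`
  have h1' : ∀ (p : A) (hp : Prime p), ¬ p ∣ τ → ¬ p ∣ c → ¬ Associated p (algebraMap R A π) →
      Unr (primeValSubring K hp) E := by
    intro p hp hpτ hpc hpπ
    refine h1 _ (primeValSubring_ne_top hp) (fun x => algebraMap_mem_primeValSubring hp x) ?_
      (inv_algebraMap_mem_primeValSubring hp hpτ) (inv_algebraMap_mem_primeValSubring hp hpc)
    rw [IsScalarTower.algebraMap_apply R A K]
    apply inv_algebraMap_mem_primeValSubring hp
    intro hdvd
    exact hpπ (hp.irreducible.associated_of_dvd hπA.irreducible hdvd)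
  have h2' : Unr (primeValSubring K hπA) E := h2 _ (isGaussAt_primeValSubring T hT hπA)
  have h3' : TameAt (primeValSubring K hτ) E n := by
    refine h3 _ (primeValSubring_ne_top hτ) (fun x => algebraMap_mem_primeValSubring hτ x) ?_
      (inv_algebraMap_not_mem_primeValSubring hτ hτ.ne_zero dvd_rfl)
    rw [IsScalarTower.algebraMap_apply R A K]
    exact inv_algebraMap_mem_primeValSubring hτ
      (not_dvd_algebraMap_of_bijective_aeval τ hτb hπ.ne_zero)
  have h3'' : ∀ (_ : IsLocalRing ↥(primeValSubring K hτ)),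
      CharZero (IsLocalRing.ResidueField ↥(primeValSubring K hτ)) :=
    charZero_residueField_primeValSubring hτ
      (fun m hm => not_dvd_natCast_of_bijective_aeval τ hτb hm)
  have H' := unr_cover_of_kummer (K := K) (E := E) (K' := K') (E' := E') (c := c) hπA hτ hsp n hsn
    hgenE hgenK h1' h2' h3' h3''
  exact normalOverAway_of_cover (K' := K') (E' := E') (G := E' ≃ₐ[E] E') hπ' c hcompat
    hfix hinv hcard (fun p' hp' _ hc => H' p' hp' hc)

end Main

end Fermat.Agent.JA
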