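/-
J-A — helper6 — package KDATA (II), (III): construction of the Kummer cover of the chart
`A ≅ R[X]` at `T = a`.

`τ = T - a`, `E'` = splitting field of `X ^ n - τ` over `E`, `sE` a root, `K' = K(sE) ⊆ E'`,
`A' = A[sE] ⊆ K'`.  Then `A' = R[sE] ≅ R[X]`, `K' = Frac A'`, and the abstract layer
`normalOverAway_kummer_of_cover` applies.  Final statement: `normalOverAway_kummer_point`.
-/
import Mathlib
import Fermat.Agent.JA.KUM_CHART_helper6_Cover

set_option autoImplicit false
set_option linter.unusedSectionVars false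
set_option linter.style.haveILetI false

open Polynomial IntermediateField

namespace Fermat.Agent.JA

section Frac

variable {A : Type*} [CommRing A] [IsDomain A]
  {K : Type*} [Field K] [Algebra A K] [IsFractionRing A K]
  {L : Type*} [Field L] [Algebra K L] [Algebra A L] [IsScalarTower A K L]

/-- clearing denominators in `K[x]`: every polynomial expression in `x` over `K = Frac A` is an
`A`-polynomial expression divided by a nonzero element of `A` -/
theorem exists_algebraMap_mul_aeval_eq (x : L) (p : K[X]) :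
    ∃ b : A, b ≠ 0 ∧ ∃ p' : A[X], algebraMap A L b * aeval x p = aeval x p' := by
  obtain ⟨b, hb, hb'⟩ := IsLocalization.integerNormalization_spec (nonZeroDivisors A) p
  refine ⟨b, nonZeroDivisors.ne_zero hb, IsLocalization.integerNormalization (nonZeroDivisors A) p,
    ?_⟩
  have h1 := congrArg (aeval x) hb'
  rw [aeval_map_algebraMap] at h1
  rw [h1, Algebra.smul_def, map_mul]
  congr 1
  rw [Polynomial.algebraMap_apply, aeval_C, ← IsScalarTower.algebraMap_apply]

/-- `A[x]` has fraction field `K(x)` for `x` integral over `K = Frac A` -/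
theorem isFractionRing_adjoin_adjoinSimple {x : L} (hx : IsIntegral K x) :
    IsFractionRing ↥(Algebra.adjoin A {(AdjoinSimple.gen K x : ↥K⟮x⟯)}) ↥K⟮x⟯ := by
  haveI : FaithfulSMul ↥(Algebra.adjoin A {(AdjoinSimple.gen K x : ↥K⟮x⟯)}) ↥K⟮x⟯ :=
    (faithfulSMul_iff_algebraMap_injective _ _).2 Subtype.val_injective
  refine IsFractionRing.of_field _ _ (fun z => ?_)
  have hz : (z : L) ∈ (K⟮x⟯).toSubalgebra := z.2
  rw [adjoin_simple_toSubalgebra_of_isAlgebraic hx.isAlgebraic, Algebra.adjoin_singleton_eq_range_aeval] at hz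
  obtain ⟨p, hp0⟩ := hz
  have hp : aeval x p = (z : L) := hp0
  obtain ⟨b, hb, p', hp'⟩ := exists_algebraMap_mul_aeval_eq (A := A) x p
  have hinjAL : Function.Injective (algebraMap A L) := by
    rw [IsScalarTower.algebraMap_eq A K L]
    exact (algebraMap K L).injective.comp (IsFractionRing.injective A K)
  have hbL : algebraMap A L b ≠ 0 := (map_ne_zero_iff _ hinjAL).2 hb
  have hval : ∀ q : A[X], ((aeval (AdjoinSimple.gen K x : ↥K⟮x⟯) q : ↥K⟮x⟯) : L) = aeval x q := by
    intro q
    have := Polynomial.aeval_algHom_apply ((K⟮x⟯).val.restrictScalars A)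
      (AdjoinSimple.gen K x : ↥K⟮x⟯) q
    exact this.symm
  have hmem : aeval (AdjoinSimple.gen K x : ↥K⟮x⟯) p' ∈
      Algebra.adjoin A {(AdjoinSimple.gen K x : ↥K⟮x⟯)} := by
    rw [Algebra.adjoin_singleton_eq_range_aeval]
    exact ⟨p', rfl⟩
  refine ⟨⟨_, hmem⟩, algebraMap A _ b, ?_⟩
  apply Subtype.ext
  show (z : L) = (aeval (AdjoinSimple.gen K x : ↥K⟮x⟯) p' : ↥K⟮x⟯) / algebraMap A L b
  rw [hval, ← hp', ← hp, mul_div_cancel_left₀ _ hbL]

end Frac

section Gen

variable {R : Type*} [CommRing R] {A : Type*} [CommRing A] [Algebra R A]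
  {A' : Type*} [CommRing A'] [Algebra R A'] [Algebra A A'] [IsScalarTower R A A']

/-- `A[s] = R[s]` when `A = R[τ]` and `s ^ n = τ` -/
theorem surjective_aeval_of_kummer {τ : A} {s : A'} {n : ℕ}
    (hτ : Function.Surjective (Polynomial.aeval τ : R[X] →ₐ[R] A))
    (hsn : s ^ n = algebraMap A A' τ) (hgen : Algebra.adjoin A {s} = ⊤) :
    Function.Surjective (Polynomial.aeval s : R[X] →ₐ[R] A') := by
  intro y
  have hy : y ∈ Algebra.adjoin A {s} := by rw [hgen]; trivial
  induction hy using Algebra.adjoin_induction with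
  | mem z hz =>
    rw [Set.mem_singleton_iff] at hz
    exact ⟨X, by rw [aeval_X, hz]⟩
  | algebraMap x =>
    obtain ⟨f, rfl⟩ := hτ x
    exact ⟨expand R n f, (algebraMap_aeval_eq_aeval_expand hsn f).symm⟩
  | add y z _ _ hy hz =>
    obtain ⟨f, rfl⟩ := hy
    obtain ⟨g, rfl⟩ := hz
    exact ⟨f + g, map_add _ _ _⟩
  | mul y z _ _ hy hz =>
    obtain ⟨f, rfl⟩ := hy
    obtain ⟨g, rfl⟩ := hz
    exact ⟨f * g, map_mul _ _ _⟩

/-- `s` is transcendental over `R` when `s ^ n = τ` is -/
theorem injective_aeval_of_kummer [NoZeroDivisors R] {τ : A} {s : A'} {n : ℕ}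
    (hinj : Function.Injective (algebraMap A A'))
    (hτ : Function.Injective (Polynomial.aeval τ : R[X] →ₐ[R] A))
    (hsn : s ^ n = algebraMap A A' τ) :
    Function.Injective (Polynomial.aeval s : R[X] →ₐ[R] A') := by
  rw [← transcendental_iff_injective]
  intro halg
  have h1 : IsAlgebraic R (algebraMap A A' τ) := hsn ▸ halg.pow n
  have h2 : Transcendental R (algebraMap A A' τ) := by
    rw [transcendental_iff_injective]
    intro f g hfg
    simp only [Polynomial.aeval_algebraMap_apply] at hfg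
    exact hτ (hinj hfg)
  exact h2 h1

end Gen

section Point

variable {R : Type*} [CommRing R] [IsDomain R] [IsDiscreteValuationRing R] [CharZero R]
  {A : Type*} [CommRing A] [Algebra R A] (T : A)
  (hT : Function.Bijective (Polynomial.aeval T : R[X] →ₐ[R] A))
  {K : Type*} [Field K] [Algebra A K] [IsFractionRing A K] [Algebra R K] [IsScalarTower R A K]
  {E : Type*} [Field E] [Algebra K E] [FiniteDimensional K E] [Algebra A E] [IsScalarTower A K E]
  (π : R) (hπ : Irreducible π)
  {E' : Type*} [Field E'] [Algebra E E'] [Algebra K E'] [IsScalarTower K E E'] [Algebra A E']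
  [IsScalarTower A K E'] [IsScalarTower A E E']

include hT hπ in
/-- **KDATA (II)**: the Kummer chart at `T = a`, given a splitting field `E'` of `X ^ n - (T - a)`
over `E` and a root `sE`. -/
theorem normalOverAway_kummer_of_splittingField (n : ℕ) (hn : IsUnit (n : R))
    (hζ : ∃ ζ : R, IsPrimitiveRoot ζ n) (a : R) (c : A)
    [IsSplittingField E E' (X ^ n - C (algebraMap A E (T - algebraMap R A a)))]
    (sE : E') (hsE : sE ^ n = algebraMap A E' (T - algebraMap R A a))
    (h1 : ∀ 𝒱 : ValuationSubring K, 𝒱 ≠ ⊤ → (∀ x : A, algebraMap A K x ∈ 𝒱) →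
      (algebraMap R K π)⁻¹ ∈ 𝒱 → (algebraMap A K (T - algebraMap R A a))⁻¹ ∈ 𝒱 →
      (algebraMap A K c)⁻¹ ∈ 𝒱 → Unr 𝒱 E)
    (h2 : ∀ 𝒱 : ValuationSubring K, IsGaussAt R π (algebraMap A K T) 𝒱 → Unr 𝒱 E)
    (h3 : ∀ 𝒱 : ValuationSubring K, 𝒱 ≠ ⊤ → (∀ x : A, algebraMap A K x ∈ 𝒱) →
      (algebraMap R K π)⁻¹ ∈ 𝒱 → (algebraMap A K (T - algebraMap R A a))⁻¹ ∉ 𝒱 → TameAt 𝒱 E n) :
    NormalOverAway (Abar A (algebraMap R A π)) (Bbar A ↥(integralClosure A E) (algebraMap R A π))
      (mkA (algebraMap R A π) c) := by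
  classical
  obtain ⟨iDom, iUFD, iNoeth, iChar, hπA, iPID⟩ := poly_instances T hT π hπ
  have hn0 : n ≠ 0 := by
    rintro rfl
    rw [Nat.cast_zero] at hn
    exact not_isUnit_zero hn
  have hnpos : 0 < n := Nat.pos_of_ne_zero hn0
  set τ : A := T - algebraMap R A a with hτdef
  have hτb : Function.Bijective (Polynomial.aeval τ : R[X] →ₐ[R] A) :=
    bijective_aeval_sub_algebraMap T hT a
  haveI : FiniteDimensional E E' :=
    IsSplittingField.finiteDimensional E' (X ^ n - C (algebraMap A E τ))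
  haveI : FiniteDimensional K E' := FiniteDimensional.trans K E E'
  have hinjAE' : Function.Injective (algebraMap A E') := by
    rw [IsScalarTower.algebraMap_eq A K E']
    exact (algebraMap K E').injective.comp (IsFractionRing.injective A K)
  -- the cover data
  let sK : ↥K⟮sE⟯ := AdjoinSimple.gen K sE
  let A' : Subalgebra A ↥K⟮sE⟯ := Algebra.adjoin A {sK}
  let s : ↥A' := ⟨sK, Algebra.subset_adjoin (Set.mem_singleton sK)⟩
  letI algRA' : Algebra R ↥A' := ((algebraMap A ↥A').comp (algebraMap R A)).toAlgebra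
  haveI : IsScalarTower R A ↥A' := IsScalarTower.of_algebraMap_eq (fun _ => rfl)
  haveI : IsScalarTower A ↥A' E' := IsScalarTower.of_algebraMap_eq (fun _ => rfl)
  have hsn : s ^ n = algebraMap A ↥A' τ := by
    apply Subtype.ext
    apply Subtype.ext
    exact hsE
  have hinjAA' : Function.Injective (algebraMap A ↥A') := by
    intro x y hxy
    apply hinjAE'
    have := congrArg (fun z : ↥A' => ((z : ↥K⟮sE⟯) : E')) hxy
    exact this
  have hgen : Algebra.adjoin A {s} = ⊤ := by
    have h := Algebra.adjoin_adjoin_coe_preimage (R := A) (s := ({sK} : Set ↥K⟮sE⟯))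
    have hpre : ((↑) : ↥(Algebra.adjoin A ({sK} : Set ↥K⟮sE⟯)) → ↥K⟮sE⟯) ⁻¹' {sK} = {s} := by
      ext y
      simp only [Set.mem_preimage, Set.mem_singleton_iff]
      exact ⟨fun h => Subtype.ext h, fun h => congrArg Subtype.val h⟩
    rw [hpre] at h
    exact h
  have hs : Function.Bijective (Polynomial.aeval s : R[X] →ₐ[R] ↥A') :=
    ⟨injective_aeval_of_kummer hinjAA' hτb.1 hsn, surjective_aeval_of_kummer hτb.2 hsn hgen⟩
  haveI : IsFractionRing ↥A' ↥K⟮sE⟯ :=
    isFractionRing_adjoin_adjoinSimple (A := A) (IsIntegral.of_finite K sE)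
  exact normalOverAway_kummer_of_cover T hT π hπ s hs (K' := ↥K⟮sE⟯) (E' := E') n hn hζ a c hsn
    h1 h2 h3

/-- a splitting field of `X ^ n - τ` contains a root -/
theorem exists_root_X_pow_sub_C_of_isSplittingField {F : Type*} [Field F] {F' : Type*} [Field F']
    [Algebra F F'] {n : ℕ} (hn : 0 < n) (τ : F) [IsSplittingField F F' (X ^ n - C τ)] :
    ∃ s : F', s ^ n = algebraMap F F' τ := by
  have hsplit := IsSplittingField.splits F' (X ^ n - C τ : F[X])
  have hdeg : ((X ^ n - C τ : F[X]).map (algebraMap F F')).degree ≠ 0 := by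
    rw [Polynomial.map_sub, Polynomial.map_pow, map_X, map_C, degree_X_pow_sub_C hn]
    exact_mod_cast hn.ne'
  obtain ⟨s, hs⟩ := hsplit.exists_eval_eq_zero hdeg
  refine ⟨s, ?_⟩
  rw [Polynomial.map_sub, Polynomial.map_pow, map_X, map_C, eval_sub, eval_pow, eval_X, eval_C,
    sub_eq_zero] at hs
  exact hs

end Point

section Final

variable {R : Type*} [CommRing R] [IsDomain R] [IsDiscreteValuationRing R] [CharZero R]
  {A : Type*} [CommRing A] [Algebra R A] (T : A)
  (hT : Function.Bijective (Polynomial.aeval T : R[X] →ₐ[R] A))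
  {K : Type*} [Field K] [Algebra A K] [IsFractionRing A K] [Algebra R K] [IsScalarTower R A K]
  {E : Type*} [Field E] [Algebra K E] [FiniteDimensional K E] [Algebra A E] [IsScalarTower A K E]
  (π : R) (hπ : Irreducible π)

include hT hπ in
/-- **KDATA (3)**: the Kummer chart at `T = a`. -/
theorem normalOverAway_kummer_point (n : ℕ) (hn : IsUnit (n : R))
    (hζ : ∃ ζ : R, IsPrimitiveRoot ζ n) (a : R) (c : A)
    (h1 : ∀ 𝒱 : ValuationSubring K, 𝒱 ≠ ⊤ → (∀ x : A, algebraMap A K x ∈ 𝒱) →
      (algebraMap R K π)⁻¹ ∈ 𝒱 → (algebraMap A K (T - algebraMap R A a))⁻¹ ∈ 𝒱 →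
      (algebraMap A K c)⁻¹ ∈ 𝒱 → Unr 𝒱 E)
    (h2 : ∀ 𝒱 : ValuationSubring K, IsGaussAt R π (algebraMap A K T) 𝒱 → Unr 𝒱 E)
    (h3 : ∀ 𝒱 : ValuationSubring K, 𝒱 ≠ ⊤ → (∀ x : A, algebraMap A K x ∈ 𝒱) →
      (algebraMap R K π)⁻¹ ∈ 𝒱 → (algebraMap A K (T - algebraMap R A a))⁻¹ ∉ 𝒱 → TameAt 𝒱 E n) :
    NormalOverAway (Abar A (algebraMap R A π)) (Bbar A ↥(integralClosure A E) (algebraMap R A π))
      (mkA (algebraMap R A π) c) := by
  have hn0 : n ≠ 0 := by
    rintro rfl
    rw [Nat.cast_zero] at hn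
    exact not_isUnit_zero hn
  have hnpos : 0 < n := Nat.pos_of_ne_zero hn0
  let f : E[X] := X ^ n - C (algebraMap A E (T - algebraMap R A a))
  haveI : IsScalarTower A K f.SplittingField := IsScalarTower.of_algebraMap_eq (fun x => by
    rw [IsScalarTower.algebraMap_apply A E f.SplittingField,
      IsScalarTower.algebraMap_apply K E f.SplittingField, ← IsScalarTower.algebraMap_apply A K E])
  haveI : IsSplittingField E f.SplittingField
      (X ^ n - C (algebraMap A E (T - algebraMap R A a))) := IsSplittingField.splittingField f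
  obtain ⟨sE, hsE⟩ := exists_root_X_pow_sub_C_of_isSplittingField (F' := f.SplittingField) hnpos
    (algebraMap A E (T - algebraMap R A a))
  exact normalOverAway_kummer_of_splittingField T hT π hπ (E' := f.SplittingField) n hn hζ a c sE
    hsE h1 h2 h3

end Final

end Fermat.Agent.JA
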