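/-
J-A programme, GEO (lead): **the abstract GEO theorem** `geo_isLocalRing`.
-/
import Mathlib
import Fermat.Agent.JA.GEO_lead_Unique
import Fermat.Agent.JA.KUM_CHART_helper6_Point
import Fermat.Agent.JA.CHARTADJ_helper6_Adjoin
import Fermat.Agent.JA.CHARTADJ_helper6_Integral
import Fermat.Agent.JA.CHARTADJ_helper7

set_option autoImplicit false

open Polynomial

namespace Fermat.Agent.JA

section Aux

variable {R : Type*} [CommRing R] [IsDomain R] [IsDiscreteValuationRing R]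
  {K₁ : Type*} [Field K₁] [Algebra R K₁] [IsFractionRing R K₁]
  {K : Type*} [Field K] [Algebra K₁ K] [Algebra R K] [IsScalarTower R K₁ K]

/-- A valuation subring containing `R` in which the uniformizer `π` is a unit contains `K₁`. -/
theorem algebraMap_mem_of_inv_mem {π : R} (hπ : Irreducible π) (𝒱 : ValuationSubring K)
    (hR : ∀ r : R, algebraMap R K r ∈ 𝒱) (hπ𝒱 : (algebraMap R K π)⁻¹ ∈ 𝒱) (a : K₁) :
    algebraMap K₁ K a ∈ 𝒱 := by
  obtain ⟨r, s, hs, rfl⟩ := IsFractionRing.div_surjective (A := R) a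
  have hs0 : s ≠ 0 := nonZeroDivisors.ne_zero hs
  obtain ⟨k, u, hu⟩ := IsDiscreteValuationRing.eq_unit_mul_pow_irreducible hs0 hπ
  have hsinv : (algebraMap R K s)⁻¹ ∈ 𝒱 := by
    rw [hu, map_mul, map_pow, mul_inv, ← inv_pow]
    refine 𝒱.mul_mem _ _ ?_ (pow_mem hπ𝒱 k)
    have h1 : algebraMap R K (u : R) * algebraMap R K ((u⁻¹ : Rˣ) : R) = 1 := by
      rw [← map_mul, Units.mul_inv, map_one]
    rw [inv_eq_of_mul_eq_one_right h1]
    exact hR _
  rw [map_div₀, ← IsScalarTower.algebraMap_apply R K₁ K, ← IsScalarTower.algebraMap_apply R K₁ K,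
    div_eq_mul_inv]
  exact 𝒱.mul_mem _ _ (hR r) hsinv

end Aux

section OneCoordinate

variable {R : Type*} [CommRing R] [IsDomain R] [IsDiscreteValuationRing R] [CharZero R]
  {K₁ : Type*} [Field K₁] [Algebra R K₁] [IsFractionRing R K₁]
  {K : Type*} [Field K] [Algebra K₁ K] [Algebra R K] [IsScalarTower R K₁ K]
  {E : Type*} [Field E] [Algebra K E] [FiniteDimensional K E]

/-- **GEO(a)** for one coordinate `t`: the reduction of the integral closure of `R[t]` in `E` is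
fraction-free normal over `(R / π)[t]`. -/
theorem geo_normalOver (π : R) (hπ : Irreducible π)
    (t : K) (ht : Transcendental K₁ t) (hK : IntermediateField.adjoin K₁ {t} = ⊤)
    (n : ℕ) (hn : IsUnit (n : R)) (hζ : ∃ ζ : R, IsPrimitiveRoot ζ n)
    (S : Finset R) (hS : ∀ a ∈ S, ∀ b ∈ S, a ≠ b → IsUnit (a - b))
    (hM1 : ∀ 𝒱 : ValuationSubring K, 𝒱 ≠ ⊤ → (∀ a : K₁, algebraMap K₁ K a ∈ 𝒱) → t ∈ 𝒱 →
      (∀ a ∈ S, (t - algebraMap R K a)⁻¹ ∈ 𝒱) → Unr 𝒱 E)
    (hM2 : ∀ 𝒱 : ValuationSubring K, 𝒱 ≠ ⊤ → (∀ a : K₁, algebraMap K₁ K a ∈ 𝒱) → TameAt 𝒱 E n)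
    (hM3 : ∀ 𝒱 : ValuationSubring K, IsGaussAt R π t 𝒱 → Unr 𝒱 E) :
    NormalOver (Abar ↥(Algebra.adjoin R {t}) (algebraMap R ↥(Algebra.adjoin R {t}) π))
      (Bbar ↥(Algebra.adjoin R {t}) ↥(integralClosure ↥(Algebra.adjoin R {t}) E)
        (algebraMap R ↥(Algebra.adjoin R {t}) π)) := by
  classical
  set A := ↥(Algebra.adjoin R {t}) with hA
  set T : A := ⟨t, Algebra.self_mem_adjoin_singleton R t⟩ with hTdef
  have hT := aeval_adjoin_bijective (R := R) (K₁ := K₁) t ht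
  have fracA : IsFractionRing A K := isFractionRing_adjoin (R := R) (K₁ := K₁) t hK
  have hTK : algebraMap A K T = t := rfl
  set πA : A := algebraMap R A π with hπA
  have hAR : ∀ r : R, algebraMap A K (algebraMap R A r) = algebraMap R K r := fun r => rfl
  -- the branch elements
  let τ : R → A := fun a => T - algebraMap R A a
  have hτK : ∀ a : R, algebraMap A K (τ a) = t - algebraMap R K a := fun a => by
    change algebraMap A K (T - algebraMap R A a) = _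
    rw [map_sub, hTK, hAR]
  let c : Option {a // a ∈ S} → A := fun o =>
    match o with
    | none => ∏ b ∈ S, τ b
    | some a => ∏ b ∈ S.erase a.1, τ b
  have hτ0 : ∀ a : R, algebraMap A K (τ a) ≠ 0 := by
    intro a h0
    rw [hτK, sub_eq_zero] at h0
    apply ht
    rw [h0, IsScalarTower.algebraMap_apply R K₁ K]
    exact isAlgebraic_algebraMap _
  have hprod0 : ∀ s : Finset R, algebraMap A K (∏ b ∈ s, τ b) ≠ 0 := by
    intro s
    rw [map_prod]
    exact Finset.prod_ne_zero_iff.mpr (fun b _ => hτ0 b)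
  -- units from products
  have hprod_inv : ∀ (𝒱 : ValuationSubring K) (s : Finset R),
      (∀ x : A, algebraMap A K x ∈ 𝒱) → (algebraMap A K (∏ b ∈ s, τ b))⁻¹ ∈ 𝒱 →
      ∀ a ∈ s, (t - algebraMap R K a)⁻¹ ∈ 𝒱 := by
    intro 𝒱 s hA𝒱 hinv a ha
    have : (t - algebraMap R K a)⁻¹ =
        (algebraMap A K (∏ b ∈ s, τ b))⁻¹ * algebraMap A K (∏ b ∈ s.erase a, τ b) := by
      rw [← hτK, ← Finset.mul_prod_erase s τ ha, map_mul, mul_inv, mul_assoc,
        inv_mul_cancel₀ (hprod0 _), mul_one]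
    rw [this]
    exact 𝒱.mul_mem _ _ hinv (hA𝒱 _)
  have hK₁ : ∀ 𝒱 : ValuationSubring K, (∀ x : A, algebraMap A K x ∈ 𝒱) →
      (algebraMap R K π)⁻¹ ∈ 𝒱 → ∀ a : K₁, algebraMap K₁ K a ∈ 𝒱 := by
    intro 𝒱 hA𝒱 hπ𝒱 a
    exact algebraMap_mem_of_inv_mem hπ 𝒱 (fun r => hAR r ▸ hA𝒱 _) hπ𝒱 a
  have hM3' : ∀ 𝒱 : ValuationSubring K, IsGaussAt R π (algebraMap A K T) 𝒱 → Unr 𝒱 E := by
    intro 𝒱 h; rw [hTK] at h; exact hM3 𝒱 h
  -- the charts
  have hnorm : ∀ o, NormalOverAway (Abar A πA) (Bbar A ↥(integralClosure A E) πA)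
      (mkA πA (c o)) := by
    intro o
    cases o with
    | none =>
      refine normalOverAway_plain T hT π hπ (c none) ?_ hM3'
      intro 𝒱 h𝒱 hA𝒱 hπ𝒱 hc
      exact hM1 𝒱 h𝒱 (hK₁ 𝒱 hA𝒱 hπ𝒱) (hTK ▸ hA𝒱 T) (hprod_inv 𝒱 S hA𝒱 hc)
    | some a =>
      refine normalOverAway_kummer_point T hT π hπ n hn hζ a.1 (c (some a)) ?_ hM3' ?_
      · intro 𝒱 h𝒱 hA𝒱 hπ𝒱 hτa hc
        refine hM1 𝒱 h𝒱 (hK₁ 𝒱 hA𝒱 hπ𝒱) (hTK ▸ hA𝒱 T) ?_
        intro b hb
        by_cases hba : b = a.1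
        · rw [hba, ← hτK]; exact hτa
        · exact hprod_inv 𝒱 (S.erase a.1) hA𝒱 hc b (Finset.mem_erase.mpr ⟨hba, hb⟩)
      · intro 𝒱 h𝒱 hA𝒱 hπ𝒱 _
        exact hM2 𝒱 h𝒱 (hK₁ 𝒱 hA𝒱 hπ𝒱)
  -- the `c o` generate the unit ideal modulo `π`
  refine normalOver_of_span_eq_top (fun o => mkA πA (c o)) ?_ hnorm
  by_contra hne
  obtain ⟨M, hM, hle⟩ := Ideal.exists_le_maximal _ hne
  have hmem : ∀ o, mkA πA (c o) ∈ M := fun o => hle (Ideal.subset_span ⟨o, rfl⟩)
  have h1 := hmem none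
  change mkA πA (∏ b ∈ S, τ b) ∈ M at h1
  rw [map_prod] at h1
  obtain ⟨a, haS, ha⟩ := (hM.isPrime.prod_mem_iff).mp h1
  have h2 := hmem (some ⟨a, haS⟩)
  change mkA πA (∏ b ∈ S.erase a, τ b) ∈ M at h2
  rw [map_prod] at h2
  obtain ⟨b, hbS, hb⟩ := (hM.isPrime.prod_mem_iff).mp h2
  obtain ⟨hba, hbS'⟩ := Finset.mem_erase.mp hbS
  have h3 : mkA πA (algebraMap R A (a - b)) ∈ M := by
    have : algebraMap R A (a - b) = τ b - τ a := by
      change _ = (T - algebraMap R A b) - (T - algebraMap R A a)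
      rw [map_sub]; ring
    rw [this, map_sub]
    exact M.sub_mem hb ha
  have hunit : IsUnit (mkA πA (algebraMap R A (a - b))) :=
    ((hS a haS b hbS' (Ne.symm hba)).map (algebraMap R A)).map (mkA πA)
  exact hM.ne_top (Ideal.eq_top_of_isUnit_mem M h3 hunit)

end OneCoordinate

section Final

variable {R : Type*} [CommRing R] [IsDomain R] [IsDiscreteValuationRing R] [CharZero R]
  {K₁ : Type*} [Field K₁] [Algebra R K₁] [IsFractionRing R K₁]
  {K : Type*} [Field K] [Algebra K₁ K] [Algebra R K] [IsScalarTower R K₁ K]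
  {E : Type*} [Field E] [Algebra K E] [FiniteDimensional K E]
  [Algebra K₁ E] [IsScalarTower K₁ K E]

/-- the Gauss valuation subring is the valuation subring of the prime `π` of `R[t]`. -/
theorem eq_primeValSubring_of_isGaussAt (π : R) (t : K) (ht : Transcendental K₁ t)
    [UniqueFactorizationMonoid ↥(Algebra.adjoin R {t})] [IsFractionRing ↥(Algebra.adjoin R {t}) K]
    (hπA : Prime (algebraMap R ↥(Algebra.adjoin R {t}) π))
    (𝒱 : ValuationSubring K) (h : IsGaussAt R π t 𝒱) :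
    𝒱 = primeValSubring K hπA := by
  have hT := aeval_adjoin_bijective (R := R) (K₁ := K₁) t ht
  have haev : ∀ f : R[X], algebraMap ↥(Algebra.adjoin R {t}) K
      (aeval (⟨t, Algebra.self_mem_adjoin_singleton R t⟩ : ↥(Algebra.adjoin R {t})) f) =
      aeval t f := by
    intro f
    rw [← aeval_algebraMap_apply]
    rfl
  obtain ⟨h1, h2, h3⟩ := h
  apply eq_primeValSubring hπA
  · intro a
    obtain ⟨f, rfl⟩ := hT.2 a
    rw [haev]; exact h1 f
  · intro b hb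
    obtain ⟨f, rfl⟩ := hT.2 b
    rw [haev]
    apply h3
    intro hdvd
    apply hb
    obtain ⟨g, rfl⟩ := hdvd
    rw [map_mul, aeval_C]
    exact dvd_mul_right _ _
  · exact h2

/-- **The abstract GEO theorem**: uniqueness of the extension of the Gauss valuation. -/
theorem geo_isLocalRing (π : R) (hπ : Irreducible π)
    (t : K) (ht : Transcendental K₁ t) (hK : IntermediateField.adjoin K₁ {t} = ⊤)
    (n : ℕ) (hn : IsUnit (n : R)) (hζ : ∃ ζ : R, IsPrimitiveRoot ζ n)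
    (S : Finset R) (hS : ∀ a ∈ S, ∀ b ∈ S, a ≠ b → IsUnit (a - b))
    (hS0 : ∀ a ∈ S, a = 0 ∨ IsUnit a)
    (hM1 : ∀ 𝒱 : ValuationSubring K, 𝒱 ≠ ⊤ → (∀ a : K₁, algebraMap K₁ K a ∈ 𝒱) → t ∈ 𝒱 →
      (∀ a ∈ S, (t - algebraMap R K a)⁻¹ ∈ 𝒱) → Unr 𝒱 E)
    (hM2 : ∀ 𝒱 : ValuationSubring K, 𝒱 ≠ ⊤ → (∀ a : K₁, algebraMap K₁ K a ∈ 𝒱) → TameAt 𝒱 E n)
    (hM3 : ∀ 𝒱 : ValuationSubring K, IsGaussAt R π t 𝒱 → Unr 𝒱 E)
    (hM4 : ∀ x : E, IsAlgebraic K₁ x → x ∈ Set.range (algebraMap K₁ E))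
    (𝒱 : ValuationSubring K) (h𝒱 : IsGaussAt R π t 𝒱) :
    IsLocalRing ↥(integralClosure ↥𝒱 E) := by
  classical
  have hπp : Prime π := hπ.prime
  have ht0 : t ≠ 0 := by
    rintro rfl
    exact ht (isAlgebraic_zero)
  have ht' : Transcendental K₁ t⁻¹ := by
    intro h
    apply ht
    have := h.inv
    rwa [inv_inv] at this
  have hK' : IntermediateField.adjoin K₁ {t⁻¹} = ⊤ := by
    rw [eq_top_iff, ← hK, IntermediateField.adjoin_simple_le_iff]
    have : t⁻¹ ∈ IntermediateField.adjoin K₁ {t⁻¹} := IntermediateField.mem_adjoin_simple_self K₁ _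
    have := (IntermediateField.adjoin K₁ {t⁻¹}).inv_mem this
    rwa [inv_inv] at this
  -- towers for `R`
  let algRE : Algebra R E := ((algebraMap K E).comp (algebraMap R K)).toAlgebra
  have towRKE : IsScalarTower R K E := IsScalarTower.of_algebraMap_eq (fun _ => rfl)
  have hinjRK : Function.Injective (algebraMap R K) := by
    rw [IsScalarTower.algebraMap_eq R K₁ K]
    exact (algebraMap K₁ K).injective.comp (IsFractionRing.injective R K₁)
  have hinjRE : Function.Injective (algebraMap R E) := (algebraMap K E).injective.comp hinjRK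
  -- the second branch set
  set S' : Finset R := insert 0 ((S.filter (fun a => a ≠ 0)).image Ring.inverse) with hS'def
  have hS'mem : ∀ x ∈ S', x = 0 ∨ ∃ a ∈ S, IsUnit a ∧ x = Ring.inverse a := by
    intro x hx
    rw [hS'def, Finset.mem_insert, Finset.mem_image] at hx
    rcases hx with rfl | ⟨a, ha, rfl⟩
    · exact Or.inl rfl
    · rw [Finset.mem_filter] at ha
      exact Or.inr ⟨a, ha.1, (hS0 a ha.1).resolve_left ha.2, rfl⟩
  have hS' : ∀ x ∈ S', ∀ y ∈ S', x ≠ y → IsUnit (x - y) := by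
    intro x hx y hy hxy
    rcases hS'mem x hx with rfl | ⟨a, ha, hau, rfl⟩
    · rcases hS'mem y hy with rfl | ⟨b, hb, hbu, rfl⟩
      · exact absurd rfl hxy
      · rw [zero_sub, IsUnit.neg_iff]
        obtain ⟨u, rfl⟩ := hbu
        rw [Ring.inverse_unit]; exact u⁻¹.isUnit
    · rcases hS'mem y hy with rfl | ⟨b, hb, hbu, rfl⟩
      · rw [sub_zero]
        obtain ⟨u, rfl⟩ := hau
        rw [Ring.inverse_unit]; exact u⁻¹.isUnit
      · have hab : a ≠ b := by rintro rfl; exact hxy rfl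
        have hd := hS b hb a ha (Ne.symm hab)
        obtain ⟨u, rfl⟩ := hau
        obtain ⟨v, rfl⟩ := hbu
        rw [Ring.inverse_unit, Ring.inverse_unit]
        have : ((u⁻¹ : Rˣ) : R) - ((v⁻¹ : Rˣ) : R) = ((u⁻¹ * v⁻¹ : Rˣ) : R) * ((v : R) - u) := by
          rw [Units.val_mul, mul_sub, mul_assoc, Units.inv_mul, mul_one, mul_comm (u⁻¹ : Rˣ).val,
            mul_assoc, Units.inv_mul, mul_one]
        rw [this]
        exact (Units.isUnit _).mul hd
  have hS'0 : (0 : R) ∈ S' := Finset.mem_insert_self _ _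
  have hS'inv : ∀ a ∈ S, IsUnit a → Ring.inverse a ∈ S' := by
    intro a ha hau
    rw [hS'def, Finset.mem_insert, Finset.mem_image]
    refine Or.inr ⟨a, Finset.mem_filter.mpr ⟨ha, hau.ne_zero⟩, rfl⟩
  -- hypotheses for the second chart
  have hM1' : ∀ 𝒱 : ValuationSubring K, 𝒱 ≠ ⊤ → (∀ a : K₁, algebraMap K₁ K a ∈ 𝒱) → t⁻¹ ∈ 𝒱 →
      (∀ a ∈ S', (t⁻¹ - algebraMap R K a)⁻¹ ∈ 𝒱) → Unr 𝒱 E := by
    intro 𝒱 hne hK₁ htinv hS'u
    have ht𝒱 : t ∈ 𝒱 := by
      have := hS'u 0 hS'0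
      rwa [map_zero, sub_zero, inv_inv] at this
    refine hM1 𝒱 hne hK₁ ht𝒱 ?_
    intro a ha
    rcases hS0 a ha with rfl | hau
    · rw [map_zero, sub_zero]; exact htinv
    · have h1 := hS'u _ (hS'inv a ha hau)
      obtain ⟨u, rfl⟩ := hau
      rw [Ring.inverse_unit] at h1
      have huK : algebraMap R K (u : R) ≠ 0 := by
        rw [Ne, map_eq_zero_iff _ hinjRK]; exact u.ne_zero
      have huinv : algebraMap R K ((u⁻¹ : Rˣ) : R) = (algebraMap R K (u : R))⁻¹ := by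
        have h2 : algebraMap R K (u : R) * algebraMap R K ((u⁻¹ : Rˣ) : R) = 1 := by
          rw [← map_mul, Units.mul_inv, map_one]
        exact (inv_eq_of_mul_eq_one_right h2).symm
      have hKu : algebraMap R K ((u⁻¹ : Rˣ) : R) ∈ 𝒱 := by
        rw [IsScalarTower.algebraMap_apply R K₁ K]; exact hK₁ _
      have : (t - algebraMap R K (u : R))⁻¹ =
          -(algebraMap R K ((u⁻¹ : Rˣ) : R) * t⁻¹ *
            (t⁻¹ - algebraMap R K ((u⁻¹ : Rˣ) : R))⁻¹) := by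
        rw [huinv]
        by_cases hd : t - algebraMap R K (u : R) = 0
        · have : t⁻¹ - (algebraMap R K (u : R))⁻¹ = 0 := by
            rw [sub_eq_zero] at hd ⊢; rw [hd]
          rw [hd, this]; simp
        · have hd' : t⁻¹ - (algebraMap R K (u : R))⁻¹ ≠ 0 := by
            intro h0
            apply hd
            rw [sub_eq_zero] at h0 ⊢
            exact inv_injective h0
          have e1 : (t - algebraMap R K (u : R)) * ((algebraMap R K (u : R))⁻¹ * t⁻¹) =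
              -(t⁻¹ - (algebraMap R K (u : R))⁻¹) := by
            field_simp
            ring
          apply inv_eq_of_mul_eq_one_right
          calc (t - algebraMap R K (u : R)) * -((algebraMap R K (u : R))⁻¹ * t⁻¹ *
                (t⁻¹ - (algebraMap R K (u : R))⁻¹)⁻¹)
              = -((t - algebraMap R K (u : R)) * ((algebraMap R K (u : R))⁻¹ * t⁻¹)) *
                (t⁻¹ - (algebraMap R K (u : R))⁻¹)⁻¹ := by ring
            _ = 1 := by rw [e1, neg_neg, mul_inv_cancel₀ hd']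
      rw [this]
      exact 𝒱.neg_mem _ (𝒱.mul_mem _ _ (𝒱.mul_mem _ _ hKu htinv) h1)
  have hM3' : ∀ 𝒱 : ValuationSubring K, IsGaussAt R π t⁻¹ 𝒱 → Unr 𝒱 E := by
    intro 𝒱 h
    have := isGaussAt_inv π hπp t⁻¹ 𝒱 h
    rw [inv_inv] at this
    exact hM3 𝒱 this
  -- normality of the two charts
  have N₁ := geo_normalOver (K₁ := K₁) (E := E) π hπ t ht hK n hn hζ S hS hM1 hM2 hM3
  have N₂ := geo_normalOver (K₁ := K₁) (E := E) π hπ t⁻¹ ht' hK' n hn hζ S' hS' hM1' hM2 hM3'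
  -- instances for the charts
  have hT₁ := aeval_adjoin_bijective (R := R) (K₁ := K₁) t ht
  have hT₂ := aeval_adjoin_bijective (R := R) (K₁ := K₁) t⁻¹ ht'
  obtain ⟨-, ufd₁, noeth₁, cz₁, hπ₁, -⟩ := poly_instances _ hT₁ π hπ
  obtain ⟨-, ufd₂, noeth₂, cz₂, hπ₂, -⟩ := poly_instances _ hT₂ π hπ
  have frac₁ : IsFractionRing ↥(Algebra.adjoin R {t}) K :=
    isFractionRing_adjoin (R := R) (K₁ := K₁) t hK
  have frac₂ : IsFractionRing ↥(Algebra.adjoin R {t⁻¹}) K :=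
    isFractionRing_adjoin (R := R) (K₁ := K₁) t⁻¹ hK'
  have hK0 : CharZero K := charZero_of_injective_algebraMap hinjRK
  obtain ⟨ic₁, -, -⟩ := integralClosure_instances ↥(Algebra.adjoin R {t}) K E
  obtain ⟨ic₂, -, -⟩ := integralClosure_instances ↥(Algebra.adjoin R {t⁻¹}) K E
  have tow₁ : IsScalarTower R ↥(Algebra.adjoin R {t}) E :=
    IsScalarTower.of_algebraMap_eq (fun _ => rfl)
  have tow₂ : IsScalarTower R ↥(Algebra.adjoin R {t⁻¹}) E :=
    IsScalarTower.of_algebraMap_eq (fun _ => rfl)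
  -- the Gauss valuation subring
  have h𝒱₁ : 𝒱 = primeValSubring K hπ₁ :=
    eq_primeValSubring_of_isGaussAt (K₁ := K₁) π t ht hπ₁ 𝒱 h𝒱
  have h𝒱₂ : 𝒱 = primeValSubring K hπ₂ :=
    eq_primeValSubring_of_isGaussAt (K₁ := K₁) π t⁻¹ ht' hπ₂ 𝒱 (isGaussAt_inv π hπp t 𝒱 h𝒱)
  have hU : Unr (primeValSubring K hπ₁) E := h𝒱₁ ▸ hM3 𝒱 h𝒱
  have key := isLocalRing_of_charts (R := R) (K := K) (E := E)
    (A₁ := ↥(Algebra.adjoin R {t})) (A₂ := ↥(Algebra.adjoin R {t⁻¹})) hπp hinjRE t ht0 hπ₁ hπ₂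
    (h𝒱₁.symm.trans h𝒱₂) hU N₁ N₂
    (by
      have : algebraMap K E t = algebraMap ↥(Algebra.adjoin R {t}) E
          ⟨t, Algebra.self_mem_adjoin_singleton R t⟩ := rfl
      rw [this]; exact isIntegral_algebraMap)
    (by
      have : algebraMap K E t⁻¹ = algebraMap ↥(Algebra.adjoin R {t⁻¹}) E
          ⟨t⁻¹, Algebra.self_mem_adjoin_singleton R t⁻¹⟩ := rfl
      rw [this]; exact isIntegral_algebraMap)
    (fun x hx => exists_pow_mul_isIntegral (R := R) t ht0 x hx)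
    (fun x h₁ h₂ => exists_algebraMap_eq_of_isIntegral_both (R := R) (K₁ := K₁) t ht hK hM4 x h₁ h₂)
    (exists_finset_span_integralClosure (R := R) (K₁ := K₁) t ht hK)
    (by
      intro b hb
      have hb' : IsIntegral ↥(Algebra.adjoin R {t⁻¹⁻¹}) b := by
        rw [inv_inv]; exact hb
      exact exists_pow_mul_isIntegral (R := R) t⁻¹ (inv_ne_zero ht0) b hb')
  rw [h𝒱₁]
  exact key

end Final

end Fermat.Agent.JA
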