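/-
J-A programme, GEO-DED (lead): the reduction of the chart `B = integralClosure R[t] E` of a good
cover is a Dedekind domain with fraction field the residue field of the unique extension of the
Gauss valuation (in the binder setting of `geo_isLocalRing`).
-/
import Mathlib
import Fermat.Agent.JA.GEO_lead_Main
import Fermat.Agent.JA.GEO_lead_Ded

set_option autoImplicit false

open Polynomial

namespace Fermat.Agent.JA

section Final

variable {R : Type*} [CommRing R] [IsDomain R] [IsDiscreteValuationRing R] [CharZero R]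
  {K₁ : Type*} [Field K₁] [Algebra R K₁] [IsFractionRing R K₁]
  {K : Type*} [Field K] [Algebra K₁ K] [Algebra R K] [IsScalarTower R K₁ K]
  {E : Type*} [Field E] [Algebra K E] [FiniteDimensional K E]
  [Algebra K₁ E] [IsScalarTower K₁ K E]

/-- The hypotheses of `geo_isLocalRing` for the coordinate `t` imply those for `t⁻¹` (with the
branch set `S' = {0} ∪ {a⁻¹ : a ∈ S, a ≠ 0}`). -/
theorem geo_hyps_inv (π : R) (hπ : Irreducible π) (t : K) (ht0 : t ≠ 0)
    (S : Finset R) (hS : ∀ a ∈ S, ∀ b ∈ S, a ≠ b → IsUnit (a - b))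
    (hS0 : ∀ a ∈ S, a = 0 ∨ IsUnit a)
    (hM1 : ∀ 𝒱 : ValuationSubring K, 𝒱 ≠ ⊤ → (∀ a : K₁, algebraMap K₁ K a ∈ 𝒱) → t ∈ 𝒱 →
      (∀ a ∈ S, (t - algebraMap R K a)⁻¹ ∈ 𝒱) → Unr 𝒱 E)
    (hM3 : ∀ 𝒱 : ValuationSubring K, IsGaussAt R π t 𝒱 → Unr 𝒱 E) :
    ∃ S' : Finset R, (∀ a ∈ S', ∀ b ∈ S', a ≠ b → IsUnit (a - b)) ∧
      (∀ a ∈ S', a = 0 ∨ IsUnit a) ∧
      (∀ 𝒱 : ValuationSubring K, 𝒱 ≠ ⊤ → (∀ a : K₁, algebraMap K₁ K a ∈ 𝒱) → t⁻¹ ∈ 𝒱 →
        (∀ a ∈ S', (t⁻¹ - algebraMap R K a)⁻¹ ∈ 𝒱) → Unr 𝒱 E) ∧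
      (∀ 𝒱 : ValuationSubring K, IsGaussAt R π t⁻¹ 𝒱 → Unr 𝒱 E) := by
  classical
  have hπp : Prime π := hπ.prime
  have hinjRK : Function.Injective (algebraMap R K) := by
    rw [IsScalarTower.algebraMap_eq R K₁ K]
    exact (algebraMap K₁ K).injective.comp (IsFractionRing.injective R K₁)
  -- the second branch set
  set S' : Finset R := insert 0 ((S.filter (fun a => a ≠ 0)).image Ring.inverse) with hS'def
  have hS'mem : ∀ x ∈ S', x = 0 ∨ ∃ a ∈ S, IsUnit a ∧ x = Ring.inverse a := by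
    intro x hx
    rw [hS'def, Finset.mem_insert, Finset.mem_image] at hx
    rcases hx with rfl | ⟨a, ha, rfl⟩
    · exact Or.inl rfl
    · rw [Finset.mem_filter] at ha
      exact Or.inr ⟨a, ha.1, (hS0 a ha.1).resolve_left ha.2, rfl⟩
  have hS' : ∀ x ∈ S', ∀ y ∈ S', x ≠ y → IsUnit (x - y) := by
    intro x hx y hy hxy
    rcases hS'mem x hx with rfl | ⟨a, ha, hau, rfl⟩
    · rcases hS'mem y hy with rfl | ⟨b, hb, hbu, rfl⟩
      · exact absurd rfl hxy
      · rw [zero_sub, IsUnit.neg_iff]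
        obtain ⟨u, rfl⟩ := hbu
        rw [Ring.inverse_unit]; exact u⁻¹.isUnit
    · rcases hS'mem y hy with rfl | ⟨b, hb, hbu, rfl⟩
      · rw [sub_zero]
        obtain ⟨u, rfl⟩ := hau
        rw [Ring.inverse_unit]; exact u⁻¹.isUnit
      · have hab : a ≠ b := by rintro rfl; exact hxy rfl
        have hd := hS b hb a ha (Ne.symm hab)
        obtain ⟨u, rfl⟩ := hau
        obtain ⟨v, rfl⟩ := hbu
        rw [Ring.inverse_unit, Ring.inverse_unit]
        have : ((u⁻¹ : Rˣ) : R) - ((v⁻¹ : Rˣ) : R) = ((u⁻¹ * v⁻¹ : Rˣ) : R) * ((v : R) - u) := by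
          rw [Units.val_mul, mul_sub, mul_assoc, Units.inv_mul, mul_one, mul_comm (u⁻¹ : Rˣ).val,
            mul_assoc, Units.inv_mul, mul_one]
        rw [this]
        exact (Units.isUnit _).mul hd
  have hS'0 : (0 : R) ∈ S' := Finset.mem_insert_self _ _
  have hS'inv : ∀ a ∈ S, IsUnit a → Ring.inverse a ∈ S' := by
    intro a ha hau
    rw [hS'def, Finset.mem_insert, Finset.mem_image]
    refine Or.inr ⟨a, Finset.mem_filter.mpr ⟨ha, hau.ne_zero⟩, rfl⟩
  -- hypotheses for the second chart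
  have hM1' : ∀ 𝒱 : ValuationSubring K, 𝒱 ≠ ⊤ → (∀ a : K₁, algebraMap K₁ K a ∈ 𝒱) → t⁻¹ ∈ 𝒱 →
      (∀ a ∈ S', (t⁻¹ - algebraMap R K a)⁻¹ ∈ 𝒱) → Unr 𝒱 E := by
    intro 𝒱 hne hK₁ htinv hS'u
    have ht𝒱 : t ∈ 𝒱 := by
      have := hS'u 0 hS'0
      rwa [map_zero, sub_zero, inv_inv] at this
    refine hM1 𝒱 hne hK₁ ht𝒱 ?_
    intro a ha
    rcases hS0 a ha with rfl | hau
    · rw [map_zero, sub_zero]; exact htinv
    · have h1 := hS'u _ (hS'inv a ha hau)
      obtain ⟨u, rfl⟩ := hau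
      rw [Ring.inverse_unit] at h1
      have huK : algebraMap R K (u : R) ≠ 0 := by
        rw [Ne, map_eq_zero_iff _ hinjRK]; exact u.ne_zero
      have huinv : algebraMap R K ((u⁻¹ : Rˣ) : R) = (algebraMap R K (u : R))⁻¹ := by
        have h2 : algebraMap R K (u : R) * algebraMap R K ((u⁻¹ : Rˣ) : R) = 1 := by
          rw [← map_mul, Units.mul_inv, map_one]
        exact (inv_eq_of_mul_eq_one_right h2).symm
      have hKu : algebraMap R K ((u⁻¹ : Rˣ) : R) ∈ 𝒱 := by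
        rw [IsScalarTower.algebraMap_apply R K₁ K]; exact hK₁ _
      have : (t - algebraMap R K (u : R))⁻¹ =
          -(algebraMap R K ((u⁻¹ : Rˣ) : R) * t⁻¹ *
            (t⁻¹ - algebraMap R K ((u⁻¹ : Rˣ) : R))⁻¹) := by
        rw [huinv]
        by_cases hd : t - algebraMap R K (u : R) = 0
        · have : t⁻¹ - (algebraMap R K (u : R))⁻¹ = 0 := by
            rw [sub_eq_zero] at hd ⊢; rw [hd]
          rw [hd, this]; simp
        · have hd' : t⁻¹ - (algebraMap R K (u : R))⁻¹ ≠ 0 := by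
            intro h0
            apply hd
            rw [sub_eq_zero] at h0 ⊢
            exact inv_injective h0
          have e1 : (t - algebraMap R K (u : R)) * ((algebraMap R K (u : R))⁻¹ * t⁻¹) =
              -(t⁻¹ - (algebraMap R K (u : R))⁻¹) := by
            field_simp
            ring
          apply inv_eq_of_mul_eq_one_right
          calc (t - algebraMap R K (u : R)) * -((algebraMap R K (u : R))⁻¹ * t⁻¹ *
                (t⁻¹ - (algebraMap R K (u : R))⁻¹)⁻¹)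
              = -((t - algebraMap R K (u : R)) * ((algebraMap R K (u : R))⁻¹ * t⁻¹)) *
                (t⁻¹ - (algebraMap R K (u : R))⁻¹)⁻¹ := by ring
            _ = 1 := by rw [e1, neg_neg, mul_inv_cancel₀ hd']
      rw [this]
      exact 𝒱.neg_mem _ (𝒱.mul_mem _ _ (𝒱.mul_mem _ _ hKu htinv) h1)
  have hM3' : ∀ 𝒱 : ValuationSubring K, IsGaussAt R π t⁻¹ 𝒱 → Unr 𝒱 E := by
    intro 𝒱 h
    have := isGaussAt_inv π hπp t⁻¹ 𝒱 h
    rw [inv_inv] at this
    exact hM3 𝒱 this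
  refine ⟨S', hS', ?_, hM1', hM3'⟩
  intro a ha
  rcases hS'mem a ha with rfl | ⟨b, hb, hbu, rfl⟩
  · exact Or.inl rfl
  · right
    obtain ⟨u, rfl⟩ := hbu
    rw [Ring.inverse_unit]; exact u⁻¹.isUnit

/-- **GEO-DED**: in the setting of `geo_isLocalRing`, the reduction modulo `π` of the chart
`B = integralClosure R[t] E` is a Dedekind domain. -/
theorem geo_chart_isDedekindDomain (π : R) (hπ : Irreducible π)
    (t : K) (ht : Transcendental K₁ t) (hK : IntermediateField.adjoin K₁ {t} = ⊤)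
    (n : ℕ) (hn : IsUnit (n : R)) (hζ : ∃ ζ : R, IsPrimitiveRoot ζ n)
    (S : Finset R) (hS : ∀ a ∈ S, ∀ b ∈ S, a ≠ b → IsUnit (a - b))
    (hS0 : ∀ a ∈ S, a = 0 ∨ IsUnit a)
    (hM1 : ∀ 𝒱 : ValuationSubring K, 𝒱 ≠ ⊤ → (∀ a : K₁, algebraMap K₁ K a ∈ 𝒱) → t ∈ 𝒱 →
      (∀ a ∈ S, (t - algebraMap R K a)⁻¹ ∈ 𝒱) → Unr 𝒱 E)
    (hM2 : ∀ 𝒱 : ValuationSubring K, 𝒱 ≠ ⊤ → (∀ a : K₁, algebraMap K₁ K a ∈ 𝒱) → TameAt 𝒱 E n)
    (hM3 : ∀ 𝒱 : ValuationSubring K, IsGaussAt R π t 𝒱 → Unr 𝒱 E)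
    (hM4 : ∀ x : E, IsAlgebraic K₁ x → x ∈ Set.range (algebraMap K₁ E)) :
    IsDedekindDomain
      (Bbar ↥(Algebra.adjoin R {t}) ↥(integralClosure ↥(Algebra.adjoin R {t}) E)
        (algebraMap R ↥(Algebra.adjoin R {t}) π)) := by
  classical
  have hT := aeval_adjoin_bijective (R := R) (K₁ := K₁) t ht
  obtain ⟨-, ufd, noeth, cz, hπA, pir⟩ := poly_instances _ hT π hπ
  have frac : IsFractionRing ↥(Algebra.adjoin R {t}) K :=
    isFractionRing_adjoin (R := R) (K₁ := K₁) t hK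
  have hinjRK : Function.Injective (algebraMap R K) := by
    rw [IsScalarTower.algebraMap_eq R K₁ K]
    exact (algebraMap K₁ K).injective.comp (IsFractionRing.injective R K₁)
  have hK0 : CharZero K := charZero_of_injective_algebraMap hinjRK
  obtain ⟨ic, fin, -⟩ := integralClosure_instances ↥(Algebra.adjoin R {t}) K E
  have hG : IsGaussAt R π t (primeValSubring K hπA) := by
    have := isGaussAt_primeValSubring (K := K)
      (⟨t, Algebra.self_mem_adjoin_singleton R t⟩ : ↥(Algebra.adjoin R {t})) hT hπA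
    exact this
  have hloc : IsLocalRing ↥(integralClosure ↥(primeValSubring K hπA) E) :=
    geo_isLocalRing (K₁ := K₁) π hπ t ht hK n hn hζ S hS hS0 hM1 hM2 hM3 hM4 _ hG
  have hU : Unr (primeValSubring K hπA) E := hM3 _ hG
  have N := geo_normalOver (K₁ := K₁) (E := E) π hπ t ht hK n hn hζ S hS hM1 hM2 hM3
  have hfaith : FaithfulSMul ↥(Algebra.adjoin R {t}) E := by
    rw [faithfulSMul_iff_algebraMap_injective]
    rw [IsScalarTower.algebraMap_eq ↥(Algebra.adjoin R {t}) K E]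
    exact (algebraMap K E).injective.comp (IsFractionRing.injective _ K)
  exact isDedekindDomain_Bbar hπA hU N

/-- **GEO-DED, residue field**: in the setting of `geo_isLocalRing`, for the Gauss valuation
subring `𝒱` (so that `W = integralClosure 𝒱 E` is local), reduction modulo the maximal ideal of
`W` embeds `B / π B` into the residue field `κ(W)`, which is its field of fractions; the maximal
ideal of `W` is generated by `π`. -/
theorem geo_chart_residue (π : R) (hπ : Irreducible π)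
    (t : K) (ht : Transcendental K₁ t) (hK : IntermediateField.adjoin K₁ {t} = ⊤)
    (hM3 : ∀ 𝒱 : ValuationSubring K, IsGaussAt R π t 𝒱 → Unr 𝒱 E)
    (𝒱 : ValuationSubring K) (h𝒱 : IsGaussAt R π t 𝒱) [IsLocalRing ↥(integralClosure ↥𝒱 E)] :
    (∀ w : ↥(integralClosure ↥𝒱 E), w ∈ IsLocalRing.maximalIdeal ↥(integralClosure ↥𝒱 E) ↔
      ∃ v : E, IsIntegral ↥𝒱 v ∧ (w : E) = algebraMap K E (algebraMap R K π) * v) ∧
    ∃ ι : Bbar ↥(Algebra.adjoin R {t}) ↥(integralClosure ↥(Algebra.adjoin R {t}) E)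
        (algebraMap R ↥(Algebra.adjoin R {t}) π) →+*
        IsLocalRing.ResidueField ↥(integralClosure ↥𝒱 E),
      Function.Injective ι ∧
      (∀ (x : ↥(integralClosure ↥(Algebra.adjoin R {t}) E)) (hx : IsIntegral ↥𝒱 (x : E)),
        ι (mkB (A := ↥(Algebra.adjoin R {t})) (algebraMap R ↥(Algebra.adjoin R {t}) π) x) =
          IsLocalRing.residue _ ⟨(x : E), hx⟩) ∧
      (∀ a : Abar ↥(Algebra.adjoin R {t}) (algebraMap R ↥(Algebra.adjoin R {t}) π), a ≠ 0 →
        ι (algebraMap _ _ a) ≠ 0) ∧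
      ∀ z : IsLocalRing.ResidueField ↥(integralClosure ↥𝒱 E),
        ∃ (x : Bbar ↥(Algebra.adjoin R {t}) ↥(integralClosure ↥(Algebra.adjoin R {t}) E)
            (algebraMap R ↥(Algebra.adjoin R {t}) π))
          (a : Abar ↥(Algebra.adjoin R {t}) (algebraMap R ↥(Algebra.adjoin R {t}) π)),
          a ≠ 0 ∧ z * ι (algebraMap _ _ a) = ι x := by
  classical
  have hT := aeval_adjoin_bijective (R := R) (K₁ := K₁) t ht
  obtain ⟨-, ufd, noeth, cz, hπA, pir⟩ := poly_instances _ hT π hπ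
  have frac : IsFractionRing ↥(Algebra.adjoin R {t}) K :=
    isFractionRing_adjoin (R := R) (K₁ := K₁) t hK
  have hinjRK : Function.Injective (algebraMap R K) := by
    rw [IsScalarTower.algebraMap_eq R K₁ K]
    exact (algebraMap K₁ K).injective.comp (IsFractionRing.injective R K₁)
  have hK0 : CharZero K := charZero_of_injective_algebraMap hinjRK
  obtain ⟨ic, fin, -⟩ := integralClosure_instances ↥(Algebra.adjoin R {t}) K E
  have hfaith : FaithfulSMul ↥(Algebra.adjoin R {t}) E := by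
    rw [faithfulSMul_iff_algebraMap_injective]
    rw [IsScalarTower.algebraMap_eq ↥(Algebra.adjoin R {t}) K E]
    exact (algebraMap K E).injective.comp (IsFractionRing.injective _ K)
  have h𝒱eq : 𝒱 = primeValSubring K hπA :=
    eq_primeValSubring_of_isGaussAt (K₁ := K₁) π t ht hπA 𝒱 h𝒱
  subst h𝒱eq
  have hU : Unr (primeValSubring K hπA) E := hM3 _ h𝒱
  refine ⟨fun w => mem_maximalIdeal_gaussClosure_iff hπA hU w, chartResidueBar hπA hU,
    chartResidueBar_injective hπA hU, fun x hx => rfl,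
    fun a ha => chartResidueBar_algebraMap_ne_zero hπA hU ha,
    fun z => exists_chartResidueBar_mul_eq hπA hU z⟩

end Final

end Fermat.Agent.JA
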