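/-
J-A package ABH+EBC — helper4.
(GEN-DVR) `V[s]`, `s ^ n = ϖ` a uniformizer of the DVR `V`, is a DVR with uniformizer `s`.
-/
import Fermat.Agent.JA.ABH_helper4_Main

set_option autoImplicit false
set_option linter.style.haveILetI false
set_option linter.unusedSectionVars false

open Polynomial

namespace Fermat.Agent.JA

section GenDvr

variable {V S : Type*} [CommRing V] [IsDomain V] [IsDiscreteValuationRing V] [CommRing S]
  [IsDomain S] [Algebra V S]

/-- a uniformizer of a DVR is a local generator. -/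
theorem isLocalGenerator_of_irreducible (ϖ : V) (hϖ : Irreducible ϖ) : IsLocalGenerator ϖ := by
  intro P hP hP0
  have hPmax : P = IsLocalRing.maximalIdeal V := IsLocalRing.eq_maximalIdeal (hP.isMaximal hP0)
  have hPspan : P = Ideal.span {ϖ} := by rw [hPmax, hϖ.maximalIdeal_eq]
  refine ⟨by rw [hPspan]; exact Ideal.mem_span_singleton_self ϖ, fun x hx => ?_⟩
  rw [hPspan, Ideal.mem_span_singleton'] at hx
  obtain ⟨x', rfl⟩ := hx
  refine ⟨1, ?_, x', by ring⟩
  rw [hPmax]
  exact fun h => (IsLocalRing.mem_maximalIdeal _).mp h isUnit_one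

/-- **(GEN-DVR)** -/
theorem isDiscreteValuationRing_of_pow_eq (hinj : Function.Injective (algebraMap V S))
    (ϖ : V) (hϖ : Irreducible ϖ) (s : S) (n : ℕ) (hn : 0 < n) (hsn : s ^ n = algebraMap V S ϖ)
    (hs : ¬ IsUnit s) (hgen : Algebra.adjoin V {s} = ⊤) :
    IsDiscreteValuationRing S ∧ Irreducible s := by
  classical
  haveI : Module.IsTorsionFree V S := by
    rw [Module.isTorsionFree_iff_algebraMap_injective]
    exact hinj
  have hsn' : s ^ n = algebraMap V S (ϖ * ((1 : Vˣ) : V)) := by
    rw [Units.val_one, mul_one, hsn]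
  obtain ⟨hded, hloc⟩ := isDedekindDomain_of_pow_eq ϖ 1 s n hn hsn' hgen
    (isLocalGenerator_of_irreducible ϖ hϖ)
  haveI := hded
  have hsint : IsIntegral V s := by
    refine ⟨X ^ n - C ϖ, monic_X_pow_sub_C _ hn.ne', ?_⟩
    rw [eval₂_sub, eval₂_X_pow, eval₂_C, hsn, sub_self]
  haveI : Algebra.IsIntegral V S := by
    have h1 : Algebra.adjoin V {s} ≤ integralClosure V S :=
      Algebra.adjoin_le (Set.singleton_subset_iff.mpr hsint)
    rw [hgen] at h1
    exact ⟨fun x => h1 Algebra.mem_top⟩
  -- every maximal ideal is `(s)`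
  have hmax : ∀ M : Ideal S, M.IsMaximal → M = Ideal.span {s} := by
    intro M hM
    haveI := hM
    have h1 : (M.comap (algebraMap V S)).IsMaximal :=
      Ideal.isMaximal_comap_of_isIntegral_of_isMaximal M
    have h2 : M.comap (algebraMap V S) = IsLocalRing.maximalIdeal V :=
      IsLocalRing.eq_maximalIdeal h1
    have hϖM : algebraMap V S ϖ ∈ M := by
      rw [← Ideal.mem_comap, h2]
      exact hϖ.not_isUnit
    have hsM : s ∈ M := by
      rw [← hsn] at hϖM
      exact hM.isPrime.mem_of_pow_mem n hϖM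
    have hle : M ≤ Ideal.span {s} := by
      intro x hx
      have hx' : x ∈ Algebra.adjoin V {s} := by rw [hgen]; exact Algebra.mem_top
      rw [Algebra.adjoin_singleton_eq_range_aeval] at hx'
      obtain ⟨q, rfl⟩ := hx'
      change aeval s q ∈ M at hx
      have hq : aeval s q = algebraMap V S (q.coeff 0) + s * aeval s q.divX := by
        conv_lhs => rw [← Polynomial.divX_mul_X_add q]
        rw [map_add, map_mul, aeval_X, aeval_C]
        ring
      have hd₀ : q.coeff 0 ∈ M.comap (algebraMap V S) := by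
        rw [Ideal.mem_comap]
        have : algebraMap V S (q.coeff 0) = aeval s q - s * aeval s q.divX := by rw [hq]; ring
        rw [this]
        exact M.sub_mem hx (M.mul_mem_right _ hsM)
      rw [h2, hϖ.maximalIdeal_eq, Ideal.mem_span_singleton'] at hd₀
      obtain ⟨a', ha'⟩ := hd₀
      show aeval s q ∈ Ideal.span {s}
      rw [hq, ← ha', map_mul, ← hsn, Ideal.mem_span_singleton]
      have hpow : s ^ n = s * s ^ (n - 1) := by
        rw [← pow_succ', Nat.sub_add_cancel hn]
      rw [hpow]
      exact Dvd.intro (algebraMap V S a' * s ^ (n - 1) + aeval s q.divX) (by ring)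
    have hne : Ideal.span {s} ≠ ⊤ := by
      rw [Ne, Ideal.span_singleton_eq_top]
      exact hs
    exact hM.eq_of_le hne hle
  obtain ⟨M₀, hM₀⟩ := Ideal.exists_maximal S
  haveI : IsLocalRing S := IsLocalRing.of_unique_max_ideal
    ⟨M₀, hM₀, fun M hM => (hmax M hM).trans (hmax M₀ hM₀).symm⟩
  have hs0 : s ≠ 0 := by
    intro h
    rw [h, zero_pow hn.ne'] at hsn
    exact hϖ.ne_zero (hinj (by rw [← hsn, map_zero]))
  have hmaxS : IsLocalRing.maximalIdeal S = Ideal.span {s} :=
    hmax _ (IsLocalRing.maximalIdeal.isMaximal S)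
  have hnf : ¬ IsField S := by
    intro hf
    obtain ⟨b, hb⟩ := hf.mul_inv_cancel hs0
    exact hs (IsUnit.of_mul_eq_one b hb)
  have hdvr : IsDiscreteValuationRing S :=
    ((IsDiscreteValuationRing.TFAE S hnf).out 4 0).mp
      (⟨⟨s, hmaxS⟩⟩ : (IsLocalRing.maximalIdeal S).IsPrincipal)
  haveI := hdvr
  exact ⟨hdvr, (IsDiscreteValuationRing.irreducible_iff_uniformizer s).mpr hmaxS⟩

end GenDvr

end Fermat.Agent.JA
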