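/-
J-A package ABH+EBC — helper4.
(GEN-LIFT) local generators stay local generators in unramified integral extensions; a local
generator of a Dedekind domain lies in the square of no nonzero prime.
-/
import Fermat.Agent.JA.ABH_helper4_GenDvr

set_option autoImplicit false
set_option linter.style.haveILetI false
set_option linter.unusedSectionVars false

open IsDedekindDomain

namespace Fermat.Agent.JA

section GenLift

variable {A B : Type*} [CommRing A] [Nontrivial A] [CommRing B] [IsDomain B] [Algebra A B]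
  [Algebra.IsIntegral A B] [Algebra.EssFiniteType A B] [Algebra.FormallyUnramified A B]

/-- **(GEN-LIFT)** -/
theorem isLocalGenerator_algebraMap_of_formallyUnramified (ϖ : A) (hϖ : IsLocalGenerator ϖ) :
    IsLocalGenerator (algebraMap A B ϖ) := by
  classical
  intro Q hQ hQ0
  haveI := hQ
  let p : Ideal A := Q.under A
  haveI hp : p.IsPrime := Ideal.comap_isPrime _ _
  have hp0 : p ≠ ⊥ := fun h => hQ0 (Ideal.eq_bot_of_comap_eq_bot h)
  haveI : Q.LiesOver p := ⟨rfl⟩
  obtain ⟨hϖp, hgen⟩ := hϖ p hp hp0
  refine ⟨hϖp, fun x hx => ?_⟩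
  let L := Localization.AtPrime Q
  letI := Localization.AtPrime.algebraOfLiesOver p Q
  haveI : Algebra.FormallyUnramified B L := .of_isLocalization Q.primeCompl
  haveI : Algebra.FormallyUnramified A L := .comp A B L
  haveI : Algebra.IsUnramifiedAt A Q := ‹Algebra.FormallyUnramified A L›
  have hmax := ((Algebra.isUnramifiedAt_iff_map_eq A p Q).mp inferInstance).2
  -- `p L = ϖ L`
  have hle : p.map (algebraMap A L) ≤ Ideal.span {algebraMap A L ϖ} := by
    rw [Ideal.map_le_iff_le_comap]
    intro a ha
    obtain ⟨t, ht, a', hta⟩ := hgen a ha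
    rw [Ideal.mem_comap, Ideal.mem_span_singleton]
    have htu : IsUnit (algebraMap A L t) := by
      rw [IsScalarTower.algebraMap_apply A B L]
      apply IsLocalization.map_units L (⟨algebraMap A B t, ?_⟩ : Q.primeCompl)
      exact ht
    obtain ⟨u, hu⟩ := htu
    refine ⟨↑u⁻¹ * algebraMap A L a', ?_⟩
    have h1 := congrArg (algebraMap A L) hta
    rw [map_mul, map_mul, ← hu] at h1
    calc algebraMap A L a = ↑u⁻¹ * (↑u * algebraMap A L a) := by
          rw [← mul_assoc, Units.inv_mul, one_mul]
      _ = algebraMap A L ϖ * (↑u⁻¹ * algebraMap A L a') := by rw [h1]; ring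
  have hxL : algebraMap B L x ∈ IsLocalRing.maximalIdeal L := by
    rw [← Localization.AtPrime.map_eq_maximalIdeal]
    exact Ideal.mem_map_of_mem _ hx
  rw [← hmax] at hxL
  have hxL' := hle hxL
  rw [Ideal.mem_span_singleton'] at hxL'
  obtain ⟨z, hz⟩ := hxL'
  obtain ⟨x', t, rfl⟩ := IsLocalization.exists_mk'_eq Q.primeCompl z
  have hinjL : Function.Injective (algebraMap B L) :=
    IsLocalization.injective L Q.primeCompl_le_nonZeroDivisors
  refine ⟨t.1, t.2, x', ?_⟩
  apply hinjL
  rw [map_mul, map_mul, ← hz, IsScalarTower.algebraMap_apply A B L]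
  rw [mul_comm (IsLocalization.mk' L x' t), mul_left_comm, mul_comm _ (IsLocalization.mk' L x' t),
    IsLocalization.mk'_spec]

end GenLift

section NotSq

variable {S : Type*} [CommRing S] [IsDedekindDomain S]

/-- a local generator lies in the square of no nonzero prime. -/
theorem not_mem_sq_of_isLocalGenerator (s : S) (hs : IsLocalGenerator s)
    (Q : Ideal S) (hQ : Q.IsPrime) (hQ0 : Q ≠ ⊥) : s ∉ Q ^ 2 := by
  classical
  intro hsq
  obtain ⟨hsQ, hgen⟩ := hs Q hQ hQ0
  let v : HeightOneSpectrum S := ⟨Q, hQ, hQ0⟩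
  obtain ⟨τ, hτ⟩ := v.intValuation_exists_uniformizer
  have hτQ : τ ∈ Q := by
    have h1 : v.intValuation τ < 1 := by
      rw [hτ, ← WithZero.exp_zero, WithZero.exp_lt_exp]
      norm_num
    exact (v.intValuation_lt_one_iff_mem τ).mp h1
  obtain ⟨t, ht, x', hx'⟩ := hgen τ hτQ
  have ht1 : v.intValuation t = 1 := by
    rw [v.intValuation_eq_one_iff]
    exact ht
  have h2 := congrArg v.intValuation hx'
  rw [map_mul, map_mul, ht1, one_mul, hτ] at h2
  have h3 : v.intValuation s ≤ WithZero.exp (-(2 : ℤ)) :=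
    (v.intValuation_le_pow_iff_mem s 2).mpr hsq
  have h4 : WithZero.exp (-(1 : ℤ)) ≤ WithZero.exp (-(2 : ℤ)) := by
    rw [h2]
    calc v.intValuation s * v.intValuation x' ≤ v.intValuation s * 1 :=
          mul_le_mul_of_nonneg_left (v.intValuation_le_one x') zero_le
      _ = v.intValuation s := mul_one _
      _ ≤ _ := h3
  rw [WithZero.exp_le_exp] at h4
  omega

end NotSq

end Fermat.Agent.JA
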