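/-
J-A package ABH+EBC — helper4.
(ABH), quasi-Kummer form: `V` a DVR with uniformizer `ϖ`, `V'` a Dedekind domain containing `V`
and an `n`-th root `s` of `ϖ` (not a unit), `E' = K'·E`. If all ramification indices of `E / K`
over `V` divide `n` (residue characteristic zero), then the integral closure of `V'` in `E'` is
finite and unramified over `V'`. Proof: Kummer form over `V[s]`, then (EBC) along `V[s] → V'`.
-/
import Fermat.Agent.JA.ABH_helper4_GenLift
import Fermat.Agent.JA.EBC_helper4_Main

set_option autoImplicit false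
set_option linter.style.haveILetI false
set_option linter.unusedSectionVars false

open Polynomial

namespace Fermat.Agent.JA

section QK

variable {V K E W : Type*} [CommRing V] [IsDomain V] [IsDiscreteValuationRing V] [Field K]
  [Algebra V K] [IsFractionRing V K] [Field E] [Algebra K E] [FiniteDimensional K E]
  [Algebra.IsSeparable K E] [Algebra V E] [IsScalarTower V K E] [CommRing W] [Algebra V W]
  [Algebra W E] [IsScalarTower V W E] [IsIntegralClosure W V E]
  {V' K' E' W' : Type*} [CommRing V'] [IsDedekindDomain V'] [Field K']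
  [Algebra V' K'] [IsFractionRing V' K'] [Field E'] [Algebra K' E']
  [Algebra V' E'] [IsScalarTower V' K' E'] [CommRing W']
  [Algebra V' W'] [Algebra W' E'] [IsScalarTower V' W' E'] [IsIntegralClosure W' V' E']
  [Algebra V V'] [Algebra E E'] [Algebra V E'] [IsScalarTower V V' E'] [IsScalarTower V E E']

set_option maxHeartbeats 1000000 in
include K K' in
/-- **(ABH), quasi-Kummer form.** -/
theorem abhyankar_quasiKummer [CharZero (IsLocalRing.ResidueField V)]
    (n : ℕ) (ϖ : V) (hϖ : Irreducible ϖ) (s : V') (hs : ¬ IsUnit s)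
    (hsn : s ^ n = algebraMap V V' ϖ)
    (hgen : Algebra.adjoin K' (Set.range (algebraMap E E')) = ⊤)
    (htame : ∀ Q : Ideal W, Q.IsMaximal → Q.ramificationIdx V ∣ n) :
    Module.Finite V' W' ∧ Algebra.FormallyUnramified V' W' := by
  classical
  have hinjVE : Function.Injective (algebraMap V E) := by
    rw [IsScalarTower.algebraMap_eq V K E]
    exact (algebraMap K E).injective.comp (IsFractionRing.injective V K)
  have hinjV'E' : Function.Injective (algebraMap V' E') := by
    rw [IsScalarTower.algebraMap_eq V' K' E']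
    exact (algebraMap K' E').injective.comp (IsFractionRing.injective V' K')
  have hinjVV' : Function.Injective (algebraMap V V') := by
    intro a b hab
    apply hinjVE
    apply (algebraMap E E').injective
    rw [← IsScalarTower.algebraMap_apply V E E', ← IsScalarTower.algebraMap_apply V E E',
      IsScalarTower.algebraMap_apply V V' E', hab, ← IsScalarTower.algebraMap_apply V V' E']
  have hn : 0 < n := by
    rcases Nat.eq_zero_or_pos n with h | h
    · exfalso
      rw [h, pow_zero] at hsn
      have h1 : ϖ = 1 := hinjVV' (by rw [← hsn, map_one])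
      exact hϖ.not_isUnit (h1 ▸ isUnit_one)
    · exact h
  -- the Kummer ring `V_s = V[s]`
  obtain ⟨Vs, hVs⟩ : ∃ Vs : Subalgebra V V', Vs = Algebra.adjoin V {s} := ⟨_, rfl⟩
  have hsVs : s ∈ Vs := by rw [hVs]; exact Algebra.subset_adjoin (Set.mem_singleton s)
  let ss : Vs := ⟨s, hsVs⟩
  have hgenVs : Algebra.adjoin V {ss} = ⊤ := by
    subst hVs
    have h1 := Algebra.adjoin_adjoin_coe_preimage (R := V) (s := ({s} : Set V'))
    have h2 : ((↑) : (Algebra.adjoin V {s} : Subalgebra V V') → V') ⁻¹' {s} = {ss} := by
      ext z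
      simp only [Set.mem_preimage, Set.mem_singleton_iff]
      exact ⟨fun h => Subtype.ext h, fun h => by rw [h]⟩
    rw [h2] at h1
    exact h1
  have hinjVVs : Function.Injective (algebraMap V Vs) := by
    intro a b hab
    apply hinjVV'
    exact congrArg (fun z : Vs => (z : V')) hab
  have hssn : ss ^ n = algebraMap V Vs ϖ := Subtype.ext hsn
  have hssu : ¬ IsUnit ss := fun h => hs (h.map Vs.val)
  obtain ⟨hdvr, hssirr⟩ := isDiscreteValuationRing_of_pow_eq hinjVVs ϖ hϖ ss n hn hssn hssu hgenVs
  haveI := hdvr
  -- the fields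
  let Ks := FractionRing Vs
  let sE' : E' := algebraMap V' E' s
  obtain ⟨Es, hEs⟩ : ∃ Es : IntermediateField E E', Es = IntermediateField.adjoin E {sE'} :=
    ⟨_, rfl⟩
  have hsE'mem : sE' ∈ Es := by rw [hEs]; exact IntermediateField.mem_adjoin_simple_self E sE'
  have hmemEs' : ∀ x : V', x ∈ Algebra.adjoin V {s} → algebraMap V' E' x ∈ Es := by
    intro x hx
    induction hx using Algebra.adjoin_induction with
    | mem y hy =>
      rw [Set.mem_singleton_iff] at hy
      rw [hy]; exact hsE'mem
    | algebraMap r =>
      rw [← IsScalarTower.algebraMap_apply V V' E', IsScalarTower.algebraMap_apply V E E']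
      exact Es.algebraMap_mem _
    | add x y _ _ hx hy => rw [map_add]; exact Es.add_mem hx hy
    | mul x y _ _ hx hy => rw [map_mul]; exact Es.mul_mem hx hy
  have hmemEs : ∀ x : Vs, algebraMap V' E' (x : V') ∈ Es := fun x => hmemEs' x (hVs ▸ x.2)
  letI algVsEs : Algebra Vs Es :=
    (((algebraMap V' E').comp Vs.val.toRingHom).codRestrict Es hmemEs).toAlgebra
  have halgVsEs : ∀ x : Vs, ((algebraMap Vs Es x : Es) : E') = algebraMap V' E' (x : V') :=
    fun x => rfl
  haveI : IsScalarTower Vs Es E' := IsScalarTower.of_algebraMap_eq (fun x => rfl)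
  haveI : IsScalarTower V Vs Es := IsScalarTower.of_algebraMap_eq (fun r =>
    Subtype.ext (IsScalarTower.algebraMap_apply V V' E' r))
  have hinjVsEs : Function.Injective (algebraMap Vs Es) := by
    intro a b hab
    apply Subtype.ext
    apply hinjV'E'
    rw [← halgVsEs, ← halgVsEs, hab]
  haveI : FaithfulSMul Vs Es := (faithfulSMul_iff_algebraMap_injective Vs Es).mpr hinjVsEs
  letI algKsEs : Algebra Ks Es := FractionRing.liftAlgebra Vs Es
  -- `K → K_s`
  letI algKE' : Algebra K E' := ((algebraMap E E').comp (algebraMap K E)).toAlgebra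
  haveI : IsScalarTower K E E' := IsScalarTower.of_algebraMap_eq (fun _ => rfl)
  haveI : IsScalarTower V K Es := IsScalarTower.of_algebraMap_eq (fun r => by
    apply Subtype.ext
    show algebraMap V E' r = algebraMap E E' (algebraMap K E (algebraMap V K r))
    rw [← IsScalarTower.algebraMap_apply V K E, ← IsScalarTower.algebraMap_apply V E E'])
  have hinjVKs : Function.Injective (algebraMap V Ks) := by
    rw [IsScalarTower.algebraMap_eq V Vs Ks]
    exact (IsFractionRing.injective Vs Ks).comp hinjVVs
  letI algKKs : Algebra K Ks := (IsFractionRing.lift (K := K) hinjVKs).toAlgebra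
  haveI : IsScalarTower K Ks Es := by
    apply IsScalarTower.of_algebraMap_eq'
    apply IsLocalization.ringHom_ext (nonZeroDivisors V)
    refine RingHom.ext (fun r => ?_)
    show algebraMap K Es (algebraMap V K r) =
      algebraMap Ks Es (IsFractionRing.lift (K := K) hinjVKs (algebraMap V K r))
    rw [IsFractionRing.lift_algebraMap, ← IsScalarTower.algebraMap_apply V K Es,
      IsScalarTower.algebraMap_apply V Vs Ks, ← IsScalarTower.algebraMap_apply Vs Ks Es,
      ← IsScalarTower.algebraMap_apply V Vs Es]
  -- finiteness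
  have hsE'int : IsIntegral E sE' := by
    refine ⟨X ^ n - C (algebraMap V E ϖ), monic_X_pow_sub_C _ hn.ne', ?_⟩
    rw [eval₂_sub, eval₂_X_pow, eval₂_C, sub_eq_zero, ← map_pow, hsn,
      ← IsScalarTower.algebraMap_apply V V' E', IsScalarTower.algebraMap_apply V E E']
  haveI : FiniteDimensional E Es := by
    rw [hEs]; exact IntermediateField.adjoin.finiteDimensional hsE'int
  haveI : FiniteDimensional K Es := FiniteDimensional.trans K E Es
  haveI : FiniteDimensional Ks Es := FiniteDimensional.right K Ks Es
  -- characteristic zero, separability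
  haveI : CharZero V := by
    apply charZero_of_inj_zero
    intro k hk
    have h2 : (IsLocalRing.residue V) ((k : ℕ) : V) = 0 := by rw [hk, map_zero]
    rw [map_natCast] at h2
    exact Nat.cast_eq_zero.mp h2
  haveI : CharZero Ks := charZero_of_injective_algebraMap hinjVKs
  haveI : Algebra.IsSeparable Ks Es := inferInstance
  -- the integral closure
  obtain ⟨Ws, hWs⟩ : ∃ Ws : Subalgebra Vs Es, Ws = integralClosure Vs Es := ⟨_, rfl⟩
  haveI : IsIntegralClosure Ws Vs Es := by
    rw [hWs]; infer_instance
  -- generation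
  let sEs : Es := ⟨sE', hsE'mem⟩
  have hsEs : algebraMap Vs Es ss = sEs := rfl
  have hgenEs : Algebra.adjoin E {algebraMap Vs Es ss} = ⊤ := by
    rw [hsEs, eq_top_iff]
    intro z _
    have hz : (z : E') ∈ (IntermediateField.adjoin E {sE'}).toSubalgebra := by
      rw [← hEs]; exact z.2
    rw [IntermediateField.adjoin_simple_toSubalgebra_of_isAlgebraic hsE'int.isAlgebraic,
      Algebra.adjoin_singleton_eq_range_aeval] at hz
    obtain ⟨q, hq⟩ := hz
    have h1 : z = aeval sEs q := by
      apply Subtype.ext
      rw [← hq]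
      show _ = Es.val (aeval sEs q)
      rw [← Polynomial.aeval_algHom_apply]
      rfl
    rw [h1, Algebra.adjoin_singleton_eq_range_aeval]
    exact ⟨q, rfl⟩
  haveI hfuWs : Algebra.FormallyUnramified Vs Ws :=
    abhyankar_kummer (K := K) (K' := Ks) (E := E) (W := W) (V' := Vs) (E' := Es) (W' := Ws)
      n ϖ hϖ ss hssirr hssn hgenEs htame
  -- (EBC) along `V_s → V'`
  letI algWsW' : Algebra Ws W' := (intClosureMap Vs Es Ws V' E' W').toAlgebra
  have halgWsW' : ∀ w : Ws, algebraMap Ws W' w = intClosureMap Vs Es Ws V' E' W' w := fun _ => rfl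
  haveI : IsScalarTower Vs Ws W' := IsScalarTower.of_algebraMap_eq (fun r => by
    rw [halgWsW', intClosureMap_algebraMap]
    exact IsScalarTower.algebraMap_apply Vs V' W' r)
  haveI : IsScalarTower Ws W' E' := IsScalarTower.of_algebraMap_eq (fun w => by
    rw [halgWsW', algebraMap_intClosureMap]
    exact IsScalarTower.algebraMap_apply Ws Es E' w)
  have hgen' : Algebra.adjoin K' (Set.range (algebraMap Es E')) = ⊤ := by
    rw [eq_top_iff, ← hgen]
    apply Algebra.adjoin_mono
    rintro _ ⟨e, rfl⟩
    exact ⟨algebraMap E Es e, rfl⟩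
  have hinjVsV' : Function.Injective (algebraMap Vs V') := Subtype.val_injective
  obtain ⟨hsurj, hfu⟩ := ebc (K := Ks) (E := Es) (W := Ws) (V' := V') (K' := K') (E' := E')
    (W' := W') hinjVsV' hgen'
  haveI : Module.Finite Vs Ws := IsIntegralClosure.finite Vs Ks Es Ws
  exact ⟨Module.Finite.of_surjective (ebcMap Vs Ws V' W').toLinearMap hsurj, hfu⟩

end QK

end Fermat.Agent.JA
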