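/-
J-A package ABH+EBC — helper4.
(ABH) Abhyankar's lemma, general form: `V ⊂ V'` an arbitrary extension of discrete valuation
rings with ramification index `n`, residue characteristic zero; `E / K` finite separable whose
ramification indices over `V` all divide `n`; `E' = K'·E`. Then the integral closure of `V'` in
`E'` is unramified over `V'`.
Proof: `ϖ = u'·ϖ'^n`; adjoin an `n`-th root `y` of `u'` (étale over `V'`), so that `s = y ϖ'` is an
`n`-th root of `ϖ`; quasi-Kummer (ABH) over `V'[y]`; descend along `E' ⊂ E'(y)`.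
-/
import Fermat.Agent.JA.ABH_helper4_GenQK

set_option autoImplicit false
set_option linter.style.haveILetI false
set_option linter.unusedSectionVars false

open Polynomial

namespace Fermat.Agent.JA

section Tail

variable {V' K' E' W' : Type*} [CommRing V'] [IsDomain V'] [IsDiscreteValuationRing V'] [Field K']
  [Algebra V' K'] [IsFractionRing V' K'] [Field E'] [Algebra K' E'] [FiniteDimensional K' E']
  [Algebra.IsSeparable K' E'] [Algebra V' E'] [IsScalarTower V' K' E'] [CommRing W']
  [Algebra V' W'] [Algebra W' E'] [IsScalarTower V' W' E'] [IsIntegralClosure W' V' E']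

include K' E' in
/-- If the residue characteristic is zero and a uniformizer of `V'` lies in the square of no
maximal ideal of `W'`, then `W'` is unramified over `V'`. -/
theorem formallyUnramified_of_forall_notMem_sq
    (hchar : ∀ k : ℕ, k ≠ 0 → IsUnit ((k : ℕ) : V'))
    (s : V') (hs : Irreducible s)
    (h : ∀ Q' : Ideal W', Q'.IsMaximal → algebraMap V' W' s ∉ Q' ^ 2) :
    Algebra.FormallyUnramified V' W' := by
  classical
  haveI : IsDomain W' := (IsIntegralClosure.algebraMap_injective W' V' E').isDomain _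
  haveI : IsDedekindDomain W' := IsIntegralClosure.isDedekindDomain V' K' E' W'
  haveI : Module.Finite V' W' := IsIntegralClosure.finite V' K' E' W'
  haveI : Algebra.IsIntegral V' W' := IsIntegralClosure.isIntegral_algebra V' E'
  have hinjV'E' : Function.Injective (algebraMap V' E') := by
    rw [IsScalarTower.algebraMap_eq V' K' E']
    exact (algebraMap K' E').injective.comp (IsFractionRing.injective V' K')
  have hinjV'W' : Function.Injective (algebraMap V' W') := by
    intro a b hab
    apply hinjV'E'
    rw [IsScalarTower.algebraMap_apply V' W' E', hab, ← IsScalarTower.algebraMap_apply V' W' E']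
  apply formallyUnramified_of_forall_isMaximal
  intro Q' hQ'
  have h2 := h Q' hQ'
  haveI hQ'p : Q'.IsPrime := hQ'.isPrime
  have hunder : Q'.under V' = IsLocalRing.maximalIdeal V' := by
    have h3 : (Q'.comap (algebraMap V' W')).IsMaximal :=
      Ideal.isMaximal_comap_of_isIntegral_of_isMaximal Q'
    exact IsLocalRing.eq_maximalIdeal h3
  have h1 : algebraMap V' W' s ∈ Q' := by
    rw [← Ideal.mem_comap]
    show s ∈ Q'.under V'
    rw [hunder]
    exact hs.not_isUnit
  haveI hlies : Q'.LiesOver (IsLocalRing.maximalIdeal V') := ⟨hunder.symm⟩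
  have hmap : (IsLocalRing.maximalIdeal V').map (algebraMap V' W') =
      Ideal.span {algebraMap V' W' s} := by
    rw [hs.maximalIdeal_eq, Ideal.map_span, Set.image_singleton]
  have hs'0 : algebraMap V' W' s ≠ 0 := (map_ne_zero_iff _ hinjV'W').mpr hs.ne_zero
  have hram : Q'.ramificationIdx V' = 1 := by
    rw [Ideal.IsDedekindDomain.ramificationIdx_eq_multiplicity
      (IsLocalRing.maximalIdeal V') Q' (by
        rw [hmap, Ne, Ideal.span_singleton_eq_bot]; exact hs'0), hmap]
    apply multiplicity_eq_of_dvd_of_not_dvd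
    · rw [pow_one, Ideal.dvd_span_singleton]; exact h1
    · rw [Ideal.dvd_span_singleton]; exact h2
  haveI : CharZero (Q'.under V').ResidueField := by
    apply charZero_of_inj_zero
    intro k hk
    by_contra hk0
    have hu' : IsUnit ((k : ℕ) : (Q'.under V').ResidueField) := by
      have h3 := (hchar k hk0).map (algebraMap V' (Q'.under V').ResidueField)
      rwa [map_natCast] at h3
    rw [hk] at hu'
    exact not_isUnit_zero hu'
  exact Ideal.ramificationIdx_eq_one_iff.mp hram

end Tail

section RamIdx

variable {V V' : Type*} [CommRing V] [IsDomain V] [IsDiscreteValuationRing V]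
  [CommRing V'] [IsDomain V'] [IsDiscreteValuationRing V'] [Algebra V V']

/-- the ramification index of an extension of discrete valuation rings, elementwise. -/
theorem exists_unit_mul_pow_of_ramificationIdx (hinj : Function.Injective (algebraMap V V'))
    (n : ℕ) (hn0 : n ≠ 0) (hn : (IsLocalRing.maximalIdeal V').ramificationIdx V = n)
    (ϖ : V) (hϖ : Irreducible ϖ) (ϖ' : V') (hϖ' : Irreducible ϖ') :
    ∃ u' : V'ˣ, algebraMap V V' ϖ = u' * ϖ' ^ n := by
  classical
  set 𝔪' := IsLocalRing.maximalIdeal V' with h𝔪'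
  have h𝔪'0 : 𝔪' ≠ ⊥ := by
    rw [h𝔪', hϖ'.maximalIdeal_eq, Ne, Ideal.span_singleton_eq_bot]
    exact hϖ'.ne_zero
  -- the prime below is the maximal ideal
  have hunder : 𝔪'.under V = IsLocalRing.maximalIdeal V := by
    have hp : (𝔪'.under V).IsPrime := Ideal.comap_isPrime _ _
    by_contra hne
    have hbot : 𝔪'.under V = ⊥ := by
      by_contra h0
      exact hne (IsLocalRing.eq_maximalIdeal (hp.isMaximal h0))
    rw [Ideal.ramificationIdx_def, hbot, Ideal.map_bot] at hn
    have hlen : Module.length (Localization.AtPrime 𝔪')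
        (Localization.AtPrime 𝔪' ⧸ (⊥ : Ideal (Localization.AtPrime 𝔪'))) = ⊤ := by
      by_contra hfin
      rw [← Ne, Module.length_ne_top_iff] at hfin
      have h1 : IsFiniteLength (Localization.AtPrime 𝔪') (Localization.AtPrime 𝔪') :=
        (Submodule.quotEquivOfEqBot (⊥ : Ideal (Localization.AtPrime 𝔪')) rfl).isFiniteLength hfin
      haveI : IsArtinianRing (Localization.AtPrime 𝔪') := (isArtinianRing_iff_isFiniteLength _).mpr h1
      exact IsLocalization.AtPrime.not_isField V' h𝔪'0 (Localization.AtPrime 𝔪')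
        (IsArtinianRing.isField_of_isDomain _)
    rw [hlen, ENat.toNat_top] at hn
    exact hn0 hn.symm
  haveI hlies : 𝔪'.LiesOver (IsLocalRing.maximalIdeal V) := ⟨hunder.symm⟩
  have hϖ0 : algebraMap V V' ϖ ≠ 0 := (map_ne_zero_iff _ hinj).mpr hϖ.ne_zero
  have hmap : (IsLocalRing.maximalIdeal V).map (algebraMap V V') =
      Ideal.span {algebraMap V V' ϖ} := by
    rw [hϖ.maximalIdeal_eq, Ideal.map_span, Set.image_singleton]
  obtain ⟨k, hk⟩ := IsDiscreteValuationRing.associated_pow_irreducible hϖ0 hϖ'
  have hspan : Ideal.span {algebraMap V V' ϖ} = 𝔪' ^ k := by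
    rw [h𝔪', hϖ'.maximalIdeal_eq, Ideal.span_singleton_pow]
    exact Ideal.span_singleton_eq_span_singleton.mpr hk
  have hram : 𝔪'.ramificationIdx V = k := by
    rw [Ideal.IsDedekindDomain.ramificationIdx_eq_multiplicity
      (IsLocalRing.maximalIdeal V) 𝔪' (by
        rw [hmap, Ne, Ideal.span_singleton_eq_bot]; exact hϖ0), hmap, hspan]
    apply multiplicity_pow_self h𝔪'0
    rw [Ideal.isUnit_iff]
    exact (IsLocalRing.maximalIdeal.isMaximal V').ne_top
  have hkn : k = n := hram.symm.trans hn
  subst hkn
  obtain ⟨u, hu⟩ := hk.symm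
  exact ⟨u, by rw [← hu, mul_comm]⟩

end RamIdx

section GenRoot

variable {V K E W : Type*} [CommRing V] [IsDomain V] [IsDiscreteValuationRing V] [Field K]
  [Algebra V K] [IsFractionRing V K] [Field E] [Algebra K E] [FiniteDimensional K E]
  [Algebra.IsSeparable K E] [Algebra V E] [IsScalarTower V K E] [CommRing W] [Algebra V W]
  [Algebra W E] [IsScalarTower V W E] [IsIntegralClosure W V E]
  {V' K' E' W' : Type*} [CommRing V'] [IsDomain V'] [IsDiscreteValuationRing V'] [Field K']
  [Algebra V' K'] [IsFractionRing V' K'] [Field E'] [Algebra K' E'] [FiniteDimensional K' E']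
  [Algebra.IsSeparable K' E'] [Algebra V' E'] [IsScalarTower V' K' E'] [CommRing W']
  [Algebra V' W'] [Algebra W' E'] [IsScalarTower V' W' E'] [IsIntegralClosure W' V' E']
  [Algebra V V'] [Algebra E E'] [Algebra V E'] [IsScalarTower V V' E'] [IsScalarTower V E E']
  {L : Type*} [Field L] [Algebra E' L]

set_option maxHeartbeats 1000000 in
include K K' in
/-- the key step of the general (ABH): after adjoining an `n`-th root `y` of the unit `u'`, the
uniformizer `ϖ'` of `V'` lies in the square of no maximal ideal of `W'`. -/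
theorem abh_notMem_sq_of_root [CharZero (IsLocalRing.ResidueField V)]
    (n : ℕ) (hn : 0 < n) (ϖ : V) (hϖ : Irreducible ϖ) (ϖ' : V') (hϖ' : Irreducible ϖ')
    (u' : V'ˣ) (hu : algebraMap V V' ϖ = u' * ϖ' ^ n)
    (y : L) (hy : y ^ n = algebraMap E' L (algebraMap V' E' u'))
    (hyL : Algebra.adjoin E' {y} = ⊤)
    (hgen : Algebra.adjoin K' (Set.range (algebraMap E E')) = ⊤)
    (htame : ∀ Q : Ideal W, Q.IsMaximal → Q.ramificationIdx V ∣ n)
    (Q' : Ideal W') (hQ' : Q'.IsMaximal) : algebraMap V' W' ϖ' ∉ Q' ^ 2 := by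
  classical
  have hinjVE : Function.Injective (algebraMap V E) := by
    rw [IsScalarTower.algebraMap_eq V K E]
    exact (algebraMap K E).injective.comp (IsFractionRing.injective V K)
  have hinjV'E' : Function.Injective (algebraMap V' E') := by
    rw [IsScalarTower.algebraMap_eq V' K' E']
    exact (algebraMap K' E').injective.comp (IsFractionRing.injective V' K')
  -- algebra structures on `L`
  letI algV'L : Algebra V' L := ((algebraMap E' L).comp (algebraMap V' E')).toAlgebra
  haveI : IsScalarTower V' E' L := IsScalarTower.of_algebraMap_eq (fun _ => rfl)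
  letI algEL : Algebra E L := ((algebraMap E' L).comp (algebraMap E E')).toAlgebra
  haveI : IsScalarTower E E' L := IsScalarTower.of_algebraMap_eq (fun _ => rfl)
  letI algVL : Algebra V L := ((algebraMap V' L).comp (algebraMap V V')).toAlgebra
  haveI : IsScalarTower V V' L := IsScalarTower.of_algebraMap_eq (fun _ => rfl)
  haveI : IsScalarTower V E L := IsScalarTower.of_algebraMap_eq (fun r => by
    show algebraMap E' L (algebraMap V' E' (algebraMap V V' r)) =
      algebraMap E' L (algebraMap E E' (algebraMap V E r))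
    rw [← IsScalarTower.algebraMap_apply V V' E', ← IsScalarTower.algebraMap_apply V E E'])
  have hinjV'L : Function.Injective (algebraMap V' L) :=
    (algebraMap E' L).injective.comp hinjV'E'
  -- `n` is a unit
  have hnV : IsUnit ((n : ℕ) : V) := by
    by_contra h
    have h2 : (IsLocalRing.residue V) ((n : ℕ) : V) = 0 :=
      (IsLocalRing.residue_eq_zero_iff _).mpr h
    rw [map_natCast] at h2
    exact (Nat.cast_ne_zero.mpr hn.ne') h2
  have hnV' : IsUnit ((n : ℕ) : V') := by
    have h3 := hnV.map (algebraMap V V')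
    rwa [map_natCast] at h3
  -- the étale extension `D₀ = V'[y]`
  obtain ⟨D₀, hyD, hded, hfin, hloc⟩ :=
    exists_dedekind_of_root hinjV'L ϖ' hϖ' u' n hn hnV' y hy
  haveI := hded
  haveI := hfin
  have hinjD₀L : Function.Injective (algebraMap D₀ L) := Subtype.val_injective
  haveI : FaithfulSMul D₀ L := (faithfulSMul_iff_algebraMap_injective D₀ L).mpr hinjD₀L
  letI algK''L : Algebra (FractionRing D₀) L := FractionRing.liftAlgebra D₀ L
  obtain ⟨W'', hW''⟩ : ∃ W'' : Subalgebra D₀ L, W'' = integralClosure D₀ L := ⟨_, rfl⟩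
  haveI : IsIntegralClosure W'' D₀ L := by
    rw [hW'']; infer_instance
  -- the `n`-th root `s = y ϖ'` of `ϖ`
  let ss : D₀ := ⟨y, hyD⟩ * algebraMap V' D₀ ϖ'
  have hssn : ss ^ n = algebraMap V D₀ ϖ := by
    apply Subtype.ext
    show (y * algebraMap V' L ϖ') ^ n = algebraMap V' L (algebraMap V V' ϖ)
    rw [mul_pow, hy, hu, map_mul, map_pow]
    rfl
  haveI : Algebra.IsIntegral V' D₀ := Algebra.IsIntegral.of_finite V' D₀
  have hinjV'D₀ : Function.Injective (algebraMap V' D₀) := by
    intro a b hab
    apply hinjV'L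
    exact congrArg (fun z : D₀ => (z : L)) hab
  have hssu : ¬ IsUnit ss := by
    intro h
    have h1 : IsUnit (algebraMap V' D₀ ϖ') := isUnit_of_mul_isUnit_right h
    obtain ⟨P, hP, hPc⟩ := Ideal.exists_ideal_over_maximal_of_isIntegral (S := D₀)
      (IsLocalRing.maximalIdeal V') (by
        rw [(RingHom.injective_iff_ker_eq_bot _).mp hinjV'D₀]; exact bot_le)
    have h2 : algebraMap V' D₀ ϖ' ∈ P := by
      rw [← Ideal.mem_comap, hPc]; exact hϖ'.not_isUnit
    exact hP.ne_top (Ideal.eq_top_of_isUnit_mem _ h2 h1)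
  -- generation
  have hgenL : Algebra.adjoin (FractionRing D₀) (Set.range (algebraMap E L)) = ⊤ := by
    rw [eq_top_iff]
    intro z hz0
    clear hz0
    have hz : z ∈ Algebra.adjoin E' {y} := by rw [hyL]; exact Algebra.mem_top
    induction hz using Algebra.adjoin_induction with
    | mem x hx =>
      rw [Set.mem_singleton_iff] at hx
      rw [hx]
      have : y = algebraMap (FractionRing D₀) L (algebraMap D₀ (FractionRing D₀) ⟨y, hyD⟩) := by
        rw [← IsScalarTower.algebraMap_apply D₀ (FractionRing D₀) L]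
        rfl
      rw [this]
      exact Subalgebra.algebraMap_mem _ _
    | algebraMap e' =>
      have he' : e' ∈ Algebra.adjoin K' (Set.range (algebraMap E E')) := by
        rw [hgen]; exact Algebra.mem_top
      induction he' using Algebra.adjoin_induction with
      | mem x hx =>
        obtain ⟨e, rfl⟩ := hx
        exact Algebra.subset_adjoin ⟨e, rfl⟩
      | algebraMap k' =>
        obtain ⟨a, b, hb, rfl⟩ := IsFractionRing.div_surjective (A := V') k'
        have hb0 : b ≠ 0 := nonZeroDivisors.ne_zero hb
        have h1 : algebraMap E' L (algebraMap K' E' (algebraMap V' K' a / algebraMap V' K' b)) =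
            algebraMap (FractionRing D₀) L
              (algebraMap D₀ (FractionRing D₀) (algebraMap V' D₀ a) /
                algebraMap D₀ (FractionRing D₀) (algebraMap V' D₀ b)) := by
          rw [map_div₀, map_div₀, map_div₀,
            ← IsScalarTower.algebraMap_apply D₀ (FractionRing D₀) L,
            ← IsScalarTower.algebraMap_apply D₀ (FractionRing D₀) L,
            ← IsScalarTower.algebraMap_apply V' K' E', ← IsScalarTower.algebraMap_apply V' K' E']
          rfl
        rw [h1]
        exact Subalgebra.algebraMap_mem _ _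
      | add x y _ _ hx hy => rw [map_add]; exact Subalgebra.add_mem _ hx hy
      | mul x y _ _ hx hy => rw [map_mul]; exact Subalgebra.mul_mem _ hx hy
    | add x y _ _ hx hy => exact Subalgebra.add_mem _ hx hy
    | mul x y _ _ hx hy => exact Subalgebra.mul_mem _ hx hy
  -- quasi-Kummer (ABH) over `D₀`
  obtain ⟨hfinW'', hfuW''⟩ := abhyankar_quasiKummer (K := K) (K' := FractionRing D₀) (E := E)
    (W := W) (V' := D₀) (E' := L) (W' := W'') n ϖ hϖ ss hssu hssn hgenL htame
  haveI := hfinW''
  haveI := hfuW''
  have hinjW''L : Function.Injective (algebraMap W'' L) := Subtype.val_injective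
  haveI : IsDomain W'' := hinjW''L.isDomain _
  haveI : IsDedekindDomain W'' := isDedekindDomain.of_formallyUnramified D₀ W''
  haveI : Algebra.IsIntegral D₀ W'' := Algebra.IsIntegral.of_finite D₀ W''
  have hlocW'' : IsLocalGenerator (algebraMap D₀ W'' (algebraMap V' D₀ ϖ')) :=
    isLocalGenerator_algebraMap_of_formallyUnramified _ hloc
  -- the map `W' → W''`
  haveI : IsDomain W' := (IsIntegralClosure.algebraMap_injective W' V' E').isDomain _
  haveI : Algebra.IsIntegral V' W' := IsIntegralClosure.isIntegral_algebra V' E'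
  have hinjW'E' : Function.Injective (algebraMap W' E') :=
    IsIntegralClosure.algebraMap_injective W' V' E'
  have hinjV'W' : Function.Injective (algebraMap V' W') := by
    intro a b hab
    apply hinjV'E'
    rw [IsScalarTower.algebraMap_apply V' W' E', hab, ← IsScalarTower.algebraMap_apply V' W' E']
  letI algW'W'' : Algebra W' W'' := (intClosureMap V' E' W' D₀ L W'').toAlgebra
  have halg : ∀ w : W', algebraMap W' W'' w = intClosureMap V' E' W' D₀ L W'' w := fun _ => rfl
  have hinjW'W'' : Function.Injective (algebraMap W' W'') := by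
    intro a b hab
    apply hinjW'E'
    apply (algebraMap E' L).injective
    rw [← algebraMap_intClosureMap (V := V') (V' := D₀) (W' := W''),
      ← algebraMap_intClosureMap (V := V') (V' := D₀) (W' := W''), ← halg, ← halg, hab]
  haveI : IsScalarTower V' W' W'' := IsScalarTower.of_algebraMap_eq (fun r => by
    rw [halg, intClosureMap_algebraMap]
    exact IsScalarTower.algebraMap_apply V' D₀ W'' r)
  haveI : Algebra.IsIntegral W' W'' := by
    refine ⟨fun w => ?_⟩
    have h1 : IsIntegral D₀ w := Algebra.IsIntegral.isIntegral w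
    have h2 : IsIntegral V' w := isIntegral_trans _ h1
    exact h2.tower_top
  haveI := hQ'
  obtain ⟨Q'', hQ''max, hQ''c⟩ := Ideal.exists_ideal_over_maximal_of_isIntegral (S := W'') Q'
    (by rw [(RingHom.injective_iff_ker_eq_bot _).mp hinjW'W'']; exact bot_le)
  -- `ϖ' ∈ Q'`
  have hϖ'Q' : algebraMap V' W' ϖ' ∈ Q' := by
    have h1 : (Q'.comap (algebraMap V' W')).IsMaximal :=
      Ideal.isMaximal_comap_of_isIntegral_of_isMaximal Q'
    have h2 : Q'.comap (algebraMap V' W') = IsLocalRing.maximalIdeal V' :=
      IsLocalRing.eq_maximalIdeal h1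
    rw [← Ideal.mem_comap, h2]
    exact hϖ'.not_isUnit
  have hQ''0 : Q'' ≠ ⊥ := by
    intro h
    have h1 : algebraMap W' W'' (algebraMap V' W' ϖ') ∈ Q'' := by
      rw [← Ideal.mem_comap, hQ''c]; exact hϖ'Q'
    rw [h, Ideal.mem_bot] at h1
    have h2 := hinjW'W'' (h1.trans (map_zero _).symm)
    exact hϖ'.ne_zero (hinjV'W' (h2.trans (map_zero _).symm))
  have hnot := not_mem_sq_of_isLocalGenerator _ hlocW'' Q'' hQ''max.isPrime hQ''0
  intro hmem
  apply hnot
  have h1 : algebraMap W' W'' (algebraMap V' W' ϖ') ∈ (Q' ^ 2).map (algebraMap W' W'') :=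
    Ideal.mem_map_of_mem _ hmem
  rw [Ideal.map_pow] at h1
  have h2 : Q'.map (algebraMap W' W'') ≤ Q'' := by
    rw [Ideal.map_le_iff_le_comap, hQ''c]
  have h3 := Ideal.pow_right_mono h2 2 h1
  rw [halg, intClosureMap_algebraMap] at h3
  exact h3

end GenRoot

section GenMain

variable {V K E W : Type*} [CommRing V] [IsDomain V] [IsDiscreteValuationRing V] [Field K]
  [Algebra V K] [IsFractionRing V K] [Field E] [Algebra K E] [FiniteDimensional K E]
  [Algebra.IsSeparable K E] [Algebra V E] [IsScalarTower V K E] [CommRing W] [Algebra V W]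
  [Algebra W E] [IsScalarTower V W E] [IsIntegralClosure W V E]
  {V' K' E' W' : Type*} [CommRing V'] [IsDomain V'] [IsDiscreteValuationRing V'] [Field K']
  [Algebra V' K'] [IsFractionRing V' K'] [Field E'] [Algebra K' E'] [FiniteDimensional K' E']
  [Algebra.IsSeparable K' E'] [Algebra V' E'] [IsScalarTower V' K' E'] [CommRing W']
  [Algebra V' W'] [Algebra W' E'] [IsScalarTower V' W' E'] [IsIntegralClosure W' V' E']
  [Algebra V V'] [Algebra E E'] [Algebra V E'] [IsScalarTower V V' E'] [IsScalarTower V E E']

include K K' in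
/-- **(ABH), general form, elementwise.** -/
theorem abhyankar_of_unit_mul_pow [CharZero (IsLocalRing.ResidueField V)]
    (n : ℕ) (hn : 0 < n) (ϖ : V) (hϖ : Irreducible ϖ) (ϖ' : V') (hϖ' : Irreducible ϖ')
    (u' : V'ˣ) (hu : algebraMap V V' ϖ = u' * ϖ' ^ n)
    (hgen : Algebra.adjoin K' (Set.range (algebraMap E E')) = ⊤)
    (htame : ∀ Q : Ideal W, Q.IsMaximal → Q.ramificationIdx V ∣ n) :
    Algebra.FormallyUnramified V' W' := by
  classical
  -- an irreducible factor of `X ^ n - u'`
  set c : E' := algebraMap V' E' u' with hc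
  have hf0 : (X ^ n - C c : E'[X]) ≠ 0 := (monic_X_pow_sub_C c hn.ne').ne_zero
  have hfu : ¬ IsUnit (X ^ n - C c : E'[X]) := by
    intro h
    have h1 := natDegree_eq_zero_of_isUnit h
    rw [natDegree_X_pow_sub_C] at h1
    omega
  obtain ⟨g, hg, hgf⟩ := WfDvdMonoid.exists_irreducible_factor hfu hf0
  haveI : Fact (Irreducible g) := ⟨hg⟩
  have hy : (AdjoinRoot.root g) ^ n = algebraMap E' (AdjoinRoot g) c := by
    obtain ⟨h, hh⟩ := hgf
    have h1 : aeval (AdjoinRoot.root g) (X ^ n - C c : E'[X]) = 0 := by
      rw [hh, map_mul, AdjoinRoot.aeval_eq, AdjoinRoot.mk_self, zero_mul]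
    rw [map_sub, map_pow, aeval_X, aeval_C, sub_eq_zero] at h1
    exact h1
  have hyL : Algebra.adjoin E' {AdjoinRoot.root g} = ⊤ := AdjoinRoot.adjoinRoot_eq_top
  have hchar : ∀ k : ℕ, k ≠ 0 → IsUnit ((k : ℕ) : V') := by
    intro k hk0
    have hu : IsUnit ((k : ℕ) : V) := by
      by_contra h
      have h2 : (IsLocalRing.residue V) ((k : ℕ) : V) = 0 :=
        (IsLocalRing.residue_eq_zero_iff _).mpr h
      rw [map_natCast] at h2
      exact (Nat.cast_ne_zero.mpr hk0) h2
    have h3 := hu.map (algebraMap V V')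
    rwa [map_natCast] at h3
  exact formallyUnramified_of_forall_notMem_sq (K' := K') (E' := E') hchar ϖ' hϖ'
    (fun Q' hQ' => abh_notMem_sq_of_root (K := K) (K' := K') (E := E) (W := W)
      (L := AdjoinRoot g) n hn ϖ hϖ ϖ' hϖ' u' hu (AdjoinRoot.root g) hy hyL hgen htame Q' hQ')

include K K' in
/-- **(ABH), general form.** -/
theorem abhyankar [CharZero (IsLocalRing.ResidueField V)]
    (n : ℕ) (hn0 : n ≠ 0) (hn : (IsLocalRing.maximalIdeal V').ramificationIdx V = n)
    (hgen : Algebra.adjoin K' (Set.range (algebraMap E E')) = ⊤)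
    (htame : ∀ Q : Ideal W, Q.IsMaximal → Q.ramificationIdx V ∣ n) :
    Algebra.FormallyUnramified V' W' := by
  have hinjVE : Function.Injective (algebraMap V E) := by
    rw [IsScalarTower.algebraMap_eq V K E]
    exact (algebraMap K E).injective.comp (IsFractionRing.injective V K)
  have hinjVV' : Function.Injective (algebraMap V V') := by
    intro a b hab
    apply hinjVE
    apply (algebraMap E E').injective
    rw [← IsScalarTower.algebraMap_apply V E E', ← IsScalarTower.algebraMap_apply V E E',
      IsScalarTower.algebraMap_apply V V' E', hab, ← IsScalarTower.algebraMap_apply V V' E']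
  obtain ⟨ϖ, hϖ⟩ := IsDiscreteValuationRing.exists_irreducible V
  obtain ⟨ϖ', hϖ'⟩ := IsDiscreteValuationRing.exists_irreducible V'
  obtain ⟨u', hu⟩ := exists_unit_mul_pow_of_ramificationIdx hinjVV' n hn0 hn ϖ hϖ ϖ' hϖ'
  exact abhyankar_of_unit_mul_pow (K := K) (K' := K') (E := E) (W := W) n
    (Nat.pos_of_ne_zero hn0) ϖ hϖ ϖ' hϖ' u' hu hgen htame

end GenMain

end Fermat.Agent.JA
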