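/-
J-A package GM — helper1.
(Tower) the tower-law step of (GM-3): if `V ⊂ V'` is totally ramified of index `N` and `W'` is
unramified over `V'`, then every ramification index of `W` over `V` divides `N`.
-/
import Mathlib

set_option autoImplicit false
set_option linter.style.haveILetI false
set_option linter.unusedSectionVars false

namespace Fermat.Agent.JA

theorem flat_of_injective_of_isDedekindDomain {A B : Type*} [CommRing A] [IsDedekindDomain A]
    [CommRing B] [IsDomain B] [Algebra A B] (h : Function.Injective (algebraMap A B)) :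
    Module.Flat A B := by
  rw [IsDedekindDomain.flat_iff_torsion_eq_bot, Submodule.eq_bot_iff]
  intro x hx
  rw [Submodule.mem_torsion_iff] at hx
  obtain ⟨⟨a, ha⟩, hax⟩ := hx
  have ha0 : a ≠ 0 := nonZeroDivisors.ne_zero ha
  change a • x = 0 at hax
  rw [Algebra.smul_def, mul_eq_zero] at hax
  rcases hax with h0 | h0
  · exact absurd ((map_eq_zero_iff _ h).mp h0) ha0
  · exact h0

/-- the tower-law step. -/
theorem ramificationIdx_dvd_of_tower
    {V W V' W' : Type*} [CommRing V] [CommRing W] [CommRing V'] [CommRing W']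
    [IsDedekindDomain W] [IsDedekindDomain V'] [IsLocalRing V'] [IsDomain W']
    [Algebra V W] [Algebra V V'] [Algebra V' W'] [Algebra W W'] [Algebra V W']
    [IsScalarTower V W W'] [IsScalarTower V V' W']
    [Algebra.IsIntegral W W'] [Algebra.IsIntegral V' W']
    (hWW' : Function.Injective (algebraMap W W'))
    (hV'W' : Function.Injective (algebraMap V' W'))
    (N : ℕ) (hN : (IsLocalRing.maximalIdeal V').ramificationIdx V = N)
    (hunr : ∀ Q' : Ideal W', Q'.IsMaximal → Q'.ramificationIdx V' = 1)
    (Q : Ideal W) (hQ : Q.IsMaximal) : Q.ramificationIdx V ∣ N := by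
  haveI := hQ
  obtain ⟨Q', hQ'max, hQ'over⟩ := Ideal.exists_ideal_over_maximal_of_isIntegral
    (S := W') Q (by
      rw [(RingHom.injective_iff_ker_eq_bot _).mp hWW']
      exact bot_le)
  haveI := hQ'max
  haveI : Q'.LiesOver Q := ⟨hQ'over.symm⟩
  have hunder : Q'.under V' = IsLocalRing.maximalIdeal V' :=
    IsLocalRing.eq_maximalIdeal (Ideal.isMaximal_comap_of_isIntegral_of_isMaximal Q')
  haveI : Q'.LiesOver (IsLocalRing.maximalIdeal V') := ⟨hunder.symm⟩
  haveI : Module.Flat W W' := flat_of_injective_of_isDedekindDomain hWW'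
  haveI : Module.Flat V' W' := flat_of_injective_of_isDedekindDomain hV'W'
  have h1 := Ideal.ramificationIdx_tower (R := V) (IsLocalRing.maximalIdeal V') Q'
  have h2 := Ideal.ramificationIdx_tower (R := V) Q Q'
  rw [hN, hunr Q' hQ'max, mul_one] at h1
  exact ⟨_, h1.symm.trans h2⟩

end Fermat.Agent.JA
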