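/-
J-A package GM — helper1.
(Cover) tameness from an unramified cover: if `V ⊂ V'` are DVRs with `e(V'/V) = N`, `V'` integral
over `V`, and the integral closure of `V'` in `E' ⊇ E` is unramified over `V'`, then all
ramification indices of `E` over `V` divide `N`.
-/
import Fermat.Agent.JA.ABH_helper4_Main
import Fermat.Agent.JA.GM_helper1_Tower

set_option autoImplicit false
set_option linter.style.haveILetI false
set_option linter.unusedSectionVars false

open IsLocalRing

namespace Fermat.Agent.JA

section Cover

variable {V K E W : Type*} [CommRing V] [IsDomain V] [IsDiscreteValuationRing V] [Field K]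
  [Algebra V K] [IsFractionRing V K] [Field E] [Algebra K E] [FiniteDimensional K E]
  [Algebra.IsSeparable K E] [Algebra V E] [IsScalarTower V K E] [CommRing W] [Algebra V W]
  [Algebra W E] [IsScalarTower V W E] [IsIntegralClosure W V E]
  {V' K' E' W' : Type*} [CommRing V'] [IsDomain V'] [IsDiscreteValuationRing V'] [Field K']
  [Algebra V' K'] [IsFractionRing V' K'] [Field E'] [Algebra K' E'] [FiniteDimensional K' E']
  [Algebra.IsSeparable K' E'] [Algebra V' E'] [IsScalarTower V' K' E'] [CommRing W']
  [Algebra V' W'] [Algebra W' E'] [IsScalarTower V' W' E'] [IsIntegralClosure W' V' E']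
  [Algebra V V'] [Algebra E E'] [Algebra V E'] [IsScalarTower V V' E'] [IsScalarTower V E E']

include K K' E E' in
/-- tameness from an unramified cover. -/
theorem ramificationIdx_dvd_of_unramified_cover [Algebra.IsIntegral V V']
    [Algebra.FormallyUnramified V' W'] (N : ℕ)
    (hN : (maximalIdeal V').ramificationIdx V = N) (Q : Ideal W) (hQ : Q.IsMaximal) :
    Q.ramificationIdx V ∣ N := by
  classical
  haveI : IsDomain W := (IsIntegralClosure.algebraMap_injective W V E).isDomain _
  haveI : IsDomain W' := (IsIntegralClosure.algebraMap_injective W' V' E').isDomain _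
  haveI : IsDedekindDomain W := IsIntegralClosure.isDedekindDomain V K E W
  haveI : Module.Finite V' W' := IsIntegralClosure.finite V' K' E' W'
  haveI : Algebra.IsIntegral V' W' := IsIntegralClosure.isIntegral_algebra V' E'
  letI : Algebra W W' := (intClosureMap V E W V' E' W').toAlgebra
  letI : Algebra V W' := ((algebraMap V' W').comp (algebraMap V V')).toAlgebra
  haveI : IsScalarTower V V' W' := IsScalarTower.of_algebraMap_eq (fun _ => rfl)
  haveI : IsScalarTower V W W' := IsScalarTower.of_algebraMap_eq (fun x => by
    change algebraMap V' W' (algebraMap V V' x) = intClosureMap V E W V' E' W' (algebraMap V W x)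
    rw [intClosureMap_algebraMap])
  have hWE' : ∀ w : W, algebraMap W' E' (algebraMap W W' w) = algebraMap E E' (algebraMap W E w) :=
    fun w => algebraMap_intClosureMap (V := V) (V' := V') w
  have hinjWW' : Function.Injective (algebraMap W W') := by
    intro a b hab
    apply IsIntegralClosure.algebraMap_injective W V E
    apply (algebraMap E E').injective
    rw [← hWE', ← hWE', hab]
  have hinjV'W' : Function.Injective (algebraMap V' W') := by
    have hinjV'E' : Function.Injective (algebraMap V' E') := by
      rw [IsScalarTower.algebraMap_eq V' K' E']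
      exact (algebraMap K' E').injective.comp (IsFractionRing.injective V' K')
    intro a b hab
    apply hinjV'E'
    rw [IsScalarTower.algebraMap_apply V' W' E', hab, ← IsScalarTower.algebraMap_apply V' W' E']
  haveI : Algebra.IsIntegral V W' := Algebra.IsIntegral.trans (R := V) (B := W') V'
  haveI : Algebra.IsIntegral W W' := Algebra.IsIntegral.tower_top (S := W) (T := W') V
  refine ramificationIdx_dvd_of_tower (V := V) (W := W) (V' := V') (W' := W') hinjWW' hinjV'W' N hN
    (fun Q' hQ' => ?_) Q hQ
  haveI := hQ'
  haveI : Algebra.EssFiniteType V' W' := inferInstance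
  exact Ideal.ramificationIdx_eq_one Q' V'

end Cover

end Fermat.Agent.JA
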