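/-
J-A package GM — helper1.
(Kummer) `D` a DVR with uniformizer `τ`, `S = D[s]` a domain with `s ^ N = τ`: then `S` is a DVR
with uniformizer `s`, totally ramified of index `N` over `D`; and its fraction field.
-/
import Fermat.Agent.JA.ABH_helper4_Main

set_option autoImplicit false
set_option linter.style.haveILetI false
set_option linter.unusedSectionVars false

open Polynomial IsLocalRing

namespace Fermat.Agent.JA

/-- a uniformizer of a DVR is a local generator. -/
theorem isLocalGenerator_uniformizer_gm {D : Type*} [CommRing D] [IsDomain D]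
    [IsDiscreteValuationRing D] {τ : D} (hτ : Irreducible τ) : IsLocalGenerator τ := by
  intro P hP hP0
  haveI := hP
  have hPmax : P.IsMaximal := hP.isMaximal hP0
  have hPeq : P = Ideal.span {τ} := by
    rw [← hτ.maximalIdeal_eq]
    exact IsLocalRing.eq_maximalIdeal hPmax
  refine ⟨by rw [hPeq]; exact Ideal.mem_span_singleton_self τ, fun x hx => ?_⟩
  rw [hPeq, Ideal.mem_span_singleton] at hx
  obtain ⟨x', rfl⟩ := hx
  exact ⟨1, fun h => hP.ne_top ((Ideal.eq_top_iff_one P).mpr h), x', by rw [one_mul]⟩

section KummerDVR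

variable {D S : Type*} [CommRing D] [IsDomain D] [IsDiscreteValuationRing D] [CommRing S]
  [IsDomain S] [Algebra D S]

/-- **(Kummer–Eisenstein)** `S = D[s]`, `s ^ N = τ` a uniformizer of the DVR `D`: then `S` is a DVR
with uniformizer `s`. -/
theorem isDiscreteValuationRing_of_pow_eq_irreducible
    (hinj : Function.Injective (algebraMap D S)) (τ : D) (hτ : Irreducible τ) (s : S) (N : ℕ)
    (hN : 0 < N) (hsN : s ^ N = algebraMap D S τ) (hgen : Algebra.adjoin D {s} = ⊤) :
    IsDiscreteValuationRing S ∧ Irreducible s ∧ Module.Finite D S := by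
  haveI : Module.IsTorsionFree D S := by
    rw [Module.isTorsionFree_iff_algebraMap_injective]
    exact hinj
  have hsN' : s ^ N = algebraMap D S (τ * ((1 : Dˣ) : D)) := by
    rw [Units.val_one, mul_one, hsN]
  obtain ⟨hded, hloc⟩ := isDedekindDomain_of_pow_eq τ (1 : Dˣ) s N hN hsN' hgen
    (isLocalGenerator_uniformizer_gm hτ)
  haveI := hded
  -- finiteness, integrality
  have hsint : IsIntegral D s := by
    refine ⟨X ^ N - C τ, monic_X_pow_sub_C _ hN.ne', ?_⟩
    rw [eval₂_sub, eval₂_X_pow, eval₂_C, hsN, sub_self]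
  haveI hfin : Module.Finite D S := by
    have h1 := hsint.fg_adjoin_singleton
    rw [hgen] at h1
    exact ⟨by simpa using h1⟩
  haveI : Algebra.IsIntegral D S := Algebra.IsIntegral.of_finite D S
  -- `S` is not a field
  have hnf : ¬ IsField S := by
    intro hS
    exact IsDiscreteValuationRing.not_isField D
      (isField_of_isIntegral_of_isField hinj hS)
  -- every maximal ideal of `S` is `(s)`
  have hmax : ∀ P : Ideal S, P.IsMaximal → P = Ideal.span {s} := by
    intro P hP
    haveI := hP
    have hP0 : P ≠ ⊥ := by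
      intro h
      apply hnf
      rw [h] at hP
      exact Ring.isField_iff_maximal_bot.mpr hP
    obtain ⟨hsP, -⟩ := hloc P hP.isPrime hP0
    apply le_antisymm
    · intro x hx
      have hx' : x ∈ Algebra.adjoin D {s} := by rw [hgen]; exact Algebra.mem_top
      rw [Algebra.adjoin_singleton_eq_range_aeval] at hx'
      obtain ⟨q, rfl⟩ := hx'
      change aeval s q ∈ P at hx
      have hq : aeval s q = algebraMap D S (q.coeff 0) + s * aeval s q.divX := by
        conv_lhs => rw [← Polynomial.divX_mul_X_add q]
        rw [map_add, map_mul, aeval_X, aeval_C]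
        ring
      have hd₀ : q.coeff 0 ∈ P.comap (algebraMap D S) := by
        rw [Ideal.mem_comap]
        have : algebraMap D S (q.coeff 0) = aeval s q - s * aeval s q.divX := by rw [hq]; ring
        rw [this]
        exact P.sub_mem hx (P.mul_mem_right _ hsP)
      have hcomap : P.comap (algebraMap D S) = maximalIdeal D :=
        IsLocalRing.eq_maximalIdeal (Ideal.isMaximal_comap_of_isIntegral_of_isMaximal P)
      rw [hcomap, hτ.maximalIdeal_eq, Ideal.mem_span_singleton] at hd₀
      obtain ⟨b, hb⟩ := hd₀
      show aeval s q ∈ Ideal.span {s}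
      rw [hq, hb, map_mul, ← hsN, Ideal.mem_span_singleton]
      refine dvd_add (Dvd.dvd.mul_right (dvd_pow_self s hN.ne') _) (dvd_mul_right s _)
    · rw [Ideal.span_le, Set.singleton_subset_iff]
      exact hsP
  obtain ⟨P₀, hP₀⟩ := Ideal.exists_maximal S
  haveI hlocal : IsLocalRing S := by
    refine IsLocalRing.of_unique_max_ideal ⟨P₀, hP₀, fun P hP => ?_⟩
    rw [hmax P hP, hmax P₀ hP₀]
  haveI hdvr : IsDiscreteValuationRing S :=
    ((IsDiscreteValuationRing.TFAE S hnf).out 0 2).mpr hded
  refine ⟨hdvr, ?_, hfin⟩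
  rw [IsDiscreteValuationRing.irreducible_iff_uniformizer]
  exact hmax _ (maximalIdeal.isMaximal S)

end KummerDVR

/-- ramification index of an extension of discrete valuation rings from uniformizers. -/
theorem ramificationIdx_maximalIdeal_eq_of_associated {V V' : Type*} [CommRing V] [IsDomain V]
    [IsDiscreteValuationRing V] [CommRing V'] [IsDomain V'] [IsDiscreteValuationRing V']
    [Algebra V V'] {ϖ₀ : V} (h₀ : Irreducible ϖ₀) {ϖ : V'} (h : Irreducible ϖ) {n : ℕ}
    (hn : n ≠ 0) (hassoc : Associated (algebraMap V V' ϖ₀) (ϖ ^ n)) :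
    (maximalIdeal V').ramificationIdx V = n := by
  have hmax₀ : maximalIdeal V = Ideal.span {ϖ₀} := h₀.maximalIdeal_eq
  have hmax : maximalIdeal V' = Ideal.span {ϖ} := h.maximalIdeal_eq
  have hmap : (maximalIdeal V).map (algebraMap V V') = (maximalIdeal V') ^ n := by
    rw [hmax₀, Ideal.map_span, Set.image_singleton, hmax, Ideal.span_singleton_pow,
      Ideal.span_singleton_eq_span_singleton]
    exact hassoc
  have hmem : algebraMap V V' ϖ₀ ∈ maximalIdeal V' := by
    rw [hmax, Ideal.mem_span_singleton]
    exact (dvd_pow_self ϖ hn).trans hassoc.symm.dvd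
  have : (maximalIdeal V').LiesOver (maximalIdeal V) := by
    constructor
    have hle : maximalIdeal V ≤ (maximalIdeal V').under V := by
      rw [hmax₀, Ideal.span_le, Set.singleton_subset_iff]
      exact hmem
    have hne : (maximalIdeal V').under V ≠ ⊤ := by
      intro htop
      have : (1 : V) ∈ (maximalIdeal V').under V := htop ▸ Submodule.mem_top
      rw [Ideal.mem_comap, map_one] at this
      exact (Ideal.ne_top_iff_one _).mp (maximalIdeal.isMaximal V').ne_top this
    exact ((maximalIdeal.isMaximal V).eq_of_le hne hle)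
  have hbot : (maximalIdeal V).map (algebraMap V V') ≠ ⊥ := by
    rw [hmap]
    exact pow_ne_zero _ (IsDiscreteValuationRing.not_a_field V')
  rw [Ideal.IsDedekindDomain.ramificationIdx_eq_multiplicity (maximalIdeal V) (maximalIdeal V')
    hbot, hmap]
  refine multiplicity_pow_self (IsDiscreteValuationRing.not_a_field V') ?_ n
  rw [Ideal.isUnit_iff]
  exact (maximalIdeal.isMaximal V').ne_top

section Frac

variable {V K K' : Type*} [CommRing V] [IsDomain V] [Field K] [Algebra V K] [IsFractionRing V K]
  [Field K'] [Algebra K K'] [Algebra V K'] [IsScalarTower V K K']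

/-- `Frac (V[s]) = K[s]`. -/
theorem isFractionRing_adjoin_singleton (s : K') (hs : Algebra.adjoin K {s} = ⊤) :
    IsFractionRing ↥(Algebra.adjoin V {s}) K' := by
  have hinj : Function.Injective (algebraMap V K') := by
    rw [IsScalarTower.algebraMap_eq V K K']
    exact (algebraMap K K').injective.comp (IsFractionRing.injective V K)
  haveI : FaithfulSMul ↥(Algebra.adjoin V {s}) K' :=
    (faithfulSMul_iff_algebraMap_injective _ K').mpr Subtype.val_injective
  refine IsFractionRing.of_field (R := ↥(Algebra.adjoin V {s})) K' (fun z => ?_)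
  obtain ⟨q₀, r, hr, hz⟩ := exists_aeval_eq_of_adjoin_eq_top (O := V) (E := K) s hs z
  have hq : aeval s q₀ ∈ Algebra.adjoin V {s} := by
    rw [Algebra.adjoin_singleton_eq_range_aeval]
    exact ⟨_, rfl⟩
  refine ⟨⟨aeval s q₀, hq⟩, ⟨algebraMap V K' r, Subalgebra.algebraMap_mem _ r⟩, ?_⟩
  show z = aeval s q₀ / algebraMap V K' r
  rw [eq_div_iff ((map_ne_zero_iff _ hinj).mpr hr), ← hz, mul_comm]

end Frac

end Fermat.Agent.JA
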