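/-
J-A package GM — helper1.
(GM-3) tameness with all indices dividing `N` is inherited by the compositum `E = K·F'`,
whatever `e(𝒱/𝒱₀)` is. Here: the statement given Kummer data `K'' = K(s)`, `s ^ N = τ`,
`E'' = E·K''`.
-/
import Fermat.Agent.JA.GEO_lead_Spec
import Fermat.Agent.JA.ABH_helper4_GenMain
import Fermat.Agent.JA.GM_helper1_Kummer
import Fermat.Agent.JA.GM_helper1_Cover

set_option autoImplicit false
set_option linter.style.haveILetI false
set_option linter.unusedSectionVars false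

open IsLocalRing

namespace Fermat.Agent.JA

section Gen

variable {K F' E K'' E'' : Type*} [Field K] [Field F'] [Field E] [Algebra K E] [Algebra F' E]
  [Field K''] [Field E''] [Algebra K K''] [Algebra K'' E''] [Algebra E E''] [Algebra K E'']
  [IsScalarTower K K'' E''] [IsScalarTower K E E'']

/-- `E'' = K''·E` and `E = K·F'` give `E'' = K''·F'`. -/
theorem adjoin_range_comp_eq_top
    (hgen : Algebra.adjoin K (Set.range (algebraMap F' E)) = ⊤)
    (hE'' : Algebra.adjoin K'' (Set.range (algebraMap E E'')) = ⊤) :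
    Algebra.adjoin K'' (Set.range ((algebraMap E E'').comp (algebraMap F' E))) = ⊤ := by
  rw [eq_top_iff, ← hE'']
  refine Algebra.adjoin_le ?_
  rintro _ ⟨e, rfl⟩
  have he : e ∈ Algebra.adjoin K (Set.range (algebraMap F' E)) := by
    rw [hgen]; exact Algebra.mem_top
  induction he using Algebra.adjoin_induction with
  | mem x hx =>
    obtain ⟨f, rfl⟩ := hx
    exact Algebra.subset_adjoin ⟨f, rfl⟩
  | algebraMap k =>
    rw [← IsScalarTower.algebraMap_apply K E E'', IsScalarTower.algebraMap_apply K K'' E'']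
    exact Subalgebra.algebraMap_mem _ _
  | add x y _ _ hx hy => rw [map_add]; exact Subalgebra.add_mem _ hx hy
  | mul x y _ _ hx hy => rw [map_mul]; exact Subalgebra.mul_mem _ hx hy

end Gen

section Cusp

variable {K₀ K F' E : Type*} [Field K₀] [Field K] [Algebra K₀ K] [CharZero K₀]
  [Field F'] [Algebra K₀ F'] [FiniteDimensional K₀ F']
  [Field E] [Algebra K E] [FiniteDimensional K E] [Algebra K₀ E] [IsScalarTower K₀ K E]
  [Algebra F' E] [IsScalarTower K₀ F' E]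
  {K'' E'' : Type*} [Field K''] [Field E''] [Algebra K K''] [Algebra K'' E''] [Algebra E E'']
  [Algebra K E''] [IsScalarTower K K'' E''] [IsScalarTower K E E''] [FiniteDimensional K'' E'']

/-- **(GM-3), given Kummer data.** -/
theorem tameAt_of_kummer (hgen : Algebra.adjoin K (Set.range (algebraMap F' E)) = ⊤)
    (𝒱₀ : ValuationSubring K₀) (𝒱 : ValuationSubring K)
    (h𝒱₀ : ∀ x, x ∈ 𝒱₀ ↔ algebraMap K₀ K x ∈ 𝒱)
    [IsDiscreteValuationRing ↥𝒱₀] [IsDiscreteValuationRing ↥𝒱]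
    [CharZero (IsLocalRing.ResidueField ↥𝒱₀)] (N : ℕ) (hN : 0 < N)
    (τ : ↥𝒱) (hτ : Irreducible τ) (s : K'') (hs : s ^ N = algebraMap K K'' (τ : K))
    (hK'' : Algebra.adjoin K {s} = ⊤)
    (hE'' : Algebra.adjoin K'' (Set.range (algebraMap E E'')) = ⊤)
    (h : TameAt 𝒱₀ F' N) : TameAt 𝒱 E N := by
  classical
  -- characteristic zero, separability
  haveI : CharZero K := charZero_of_injective_algebraMap (algebraMap K₀ K).injective
  haveI : CharZero K'' := charZero_of_injective_algebraMap (algebraMap K K'').injective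
  haveI : Algebra.IsSeparable K₀ F' := Algebra.IsAlgebraic.isSeparable_of_perfectField
  haveI : Algebra.IsSeparable K E := Algebra.IsAlgebraic.isSeparable_of_perfectField
  haveI : Algebra.IsSeparable K'' E'' := Algebra.IsAlgebraic.isSeparable_of_perfectField
  -- the ring `V'' = 𝒱[s]`
  let V'' : Subalgebra ↥𝒱 K'' := Algebra.adjoin ↥𝒱 {s}
  have hsV : s ∈ V'' := Algebra.subset_adjoin (Set.mem_singleton s)
  let s'' : ↥V'' := ⟨s, hsV⟩
  have hgenS : Algebra.adjoin ↥𝒱 {s''} = ⊤ := by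
    have h1 := Algebra.adjoin_adjoin_coe_preimage (R := ↥𝒱) (s := ({s} : Set K''))
    have h2 : ((↑) : ↥V'' → K'') ⁻¹' {s} = {s''} := by
      ext z
      simp only [Set.mem_preimage, Set.mem_singleton_iff]
      exact ⟨fun h => Subtype.ext h, fun h => by rw [h]⟩
    rw [h2] at h1
    exact h1
  have hinjK'' : Function.Injective (algebraMap ↥𝒱 K'') := by
    rw [IsScalarTower.algebraMap_eq ↥𝒱 K K'']
    exact (algebraMap K K'').injective.comp (IsFractionRing.injective ↥𝒱 K)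
  have hinj : Function.Injective (algebraMap ↥𝒱 ↥V'') := by
    intro a b hab
    apply hinjK''
    exact congrArg (fun z : ↥V'' => (z : K'')) hab
  have hpow : s'' ^ N = algebraMap ↥𝒱 ↥V'' τ := by
    apply Subtype.ext
    show s ^ N = algebraMap ↥𝒱 K'' τ
    rw [hs, IsScalarTower.algebraMap_apply ↥𝒱 K K'']
    rfl
  obtain ⟨hdvr, hirr, hfin⟩ :=
    isDiscreteValuationRing_of_pow_eq_irreducible hinj τ hτ s'' N hN hpow hgenS
  haveI := hdvr
  haveI := hfin
  haveI : IsFractionRing ↥V'' K'' := isFractionRing_adjoin_singleton (V := ↥𝒱) (K := K) s hK''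
  haveI : Algebra.IsIntegral ↥𝒱 ↥V'' := Algebra.IsIntegral.of_finite ↥𝒱 ↥V''
  -- `e(V''/𝒱) = N`
  have hram : (maximalIdeal ↥V'').ramificationIdx ↥𝒱 = N :=
    ramificationIdx_maximalIdeal_eq_of_associated hτ hirr hN.ne' (by rw [← hpow])
  -- the maps from the `j`-line
  let φ : ↥𝒱₀ →+* ↥𝒱 :=
    ((algebraMap K₀ K).comp 𝒱₀.subtype).codRestrict 𝒱.toSubring (fun x => (h𝒱₀ x).mp x.2)
  have hφ : ∀ x : ↥𝒱₀, ((φ x : ↥𝒱) : K) = algebraMap K₀ K (x : K₀) := fun _ => rfl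
  letI a2 : Algebra ↥𝒱₀ ↥V'' := ((algebraMap ↥𝒱 ↥V'').comp φ).toAlgebra
  letI a3 : Algebra F' E'' := ((algebraMap E E'').comp (algebraMap F' E)).toAlgebra
  letI a4 : Algebra ↥𝒱₀ E'' := ((algebraMap E E'').comp (algebraMap ↥𝒱₀ E)).toAlgebra
  haveI t1 : IsScalarTower ↥𝒱₀ ↥V'' E'' := IsScalarTower.of_algebraMap_eq (fun x => by
    change algebraMap E E'' (algebraMap K₀ E (x : K₀)) =
      algebraMap K'' E'' (algebraMap K K'' ((φ x : ↥𝒱) : K))
    rw [hφ, ← IsScalarTower.algebraMap_apply K K'' E'', IsScalarTower.algebraMap_apply K E E'',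
      ← IsScalarTower.algebraMap_apply K₀ K E])
  haveI t2 : IsScalarTower ↥𝒱₀ F' E'' := IsScalarTower.of_algebraMap_eq (fun x => by
    change algebraMap E E'' (algebraMap K₀ E (x : K₀)) =
      algebraMap E E'' (algebraMap F' E (algebraMap K₀ F' (x : K₀)))
    rw [← IsScalarTower.algebraMap_apply K₀ F' E])
  -- uniformizers
  obtain ⟨ϖ₀, hϖ₀⟩ := IsDiscreteValuationRing.exists_irreducible ↥𝒱₀
  have hne : φ ϖ₀ ≠ 0 := by
    intro h0
    have h1 : algebraMap K₀ K (ϖ₀ : K₀) = 0 := by rw [← hφ, h0]; rfl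
    have h2 : (ϖ₀ : K₀) = 0 := (map_eq_zero _).mp h1
    exact hϖ₀.ne_zero (Subtype.ext h2)
  obtain ⟨w, u₁, hw⟩ := IsDiscreteValuationRing.eq_unit_mul_pow_irreducible hne hτ
  have hw0 : 0 < w := by
    rcases Nat.eq_zero_or_pos w with h0 | h0
    · exfalso
      rw [h0, pow_zero, mul_one] at hw
      -- `ϖ₀` is a unit of `𝒱`, hence of `𝒱₀`
      have hϖK : (ϖ₀ : K₀) ≠ 0 := fun h2 => hϖ₀.ne_zero (Subtype.ext h2)
      have hinv : ((ϖ₀ : K₀))⁻¹ ∈ 𝒱₀ := by
        rw [h𝒱₀, map_inv₀, ← hφ, hw]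
        have h3 : (((u₁⁻¹ : (↥𝒱)ˣ) : ↥𝒱) : K) = ((u₁ : ↥𝒱) : K)⁻¹ := by
          have h4 : ((u₁ : ↥𝒱) : K) * (((u₁⁻¹ : (↥𝒱)ˣ) : ↥𝒱) : K) = 1 := by
            rw [← MulMemClass.coe_mul, Units.mul_inv]; rfl
          exact eq_inv_of_mul_eq_one_right h4
        rw [← h3]
        exact Subtype.mem _
      exact hϖ₀.not_isUnit (IsUnit.of_mul_eq_one ⟨(ϖ₀ : K₀)⁻¹, hinv⟩
        (Subtype.ext (mul_inv_cancel₀ hϖK)))
    · exact h0
  have hsn : algebraMap ↥𝒱₀ ↥V'' ϖ₀ =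
      ((Units.map (algebraMap ↥𝒱 ↥V'').toMonoidHom u₁ : (↥V'')ˣ) : ↥V'') * s'' ^ (N * w) := by
    change algebraMap ↥𝒱 ↥V'' (φ ϖ₀) = _
    rw [hw, map_mul, map_pow, ← hpow, pow_mul]
    rfl
  have hgen'' : Algebra.adjoin K'' (Set.range (algebraMap F' E'')) = ⊤ :=
    adjoin_range_comp_eq_top hgen hE''
  haveI hunr : Algebra.FormallyUnramified ↥V'' ↥(integralClosure ↥V'' E'') :=
    abhyankar_of_unit_mul_pow (V := ↥𝒱₀) (K := K₀) (E := F') (W := ↥(integralClosure ↥𝒱₀ F'))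
      (V' := ↥V'') (K' := K'') (E' := E'') (W' := ↥(integralClosure ↥V'' E'')) (N * w)
      (Nat.mul_pos hN hw0) ϖ₀ hϖ₀ s'' hirr _ hsn hgen'' (fun Q hQ => (h Q hQ).mul_right w)
  -- the tower law
  haveI t4 : IsScalarTower ↥𝒱 E E'' := IsScalarTower.of_algebraMap_eq (fun x => by
    change algebraMap K E'' (x : K) = algebraMap E E'' (algebraMap K E (x : K))
    rw [← IsScalarTower.algebraMap_apply K E E''])
  intro Q hQ
  exact ramificationIdx_dvd_of_unramified_cover (V := ↥𝒱) (K := K) (E := E)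
    (W := ↥(integralClosure ↥𝒱 E)) (V' := ↥V'') (K' := K'') (E' := E'')
    (W' := ↥(integralClosure ↥V'' E'')) N hram Q hQ

end Cusp

section Construct

open IntermediateField Polynomial

/-- for algebraic `α`, the generator of `F⟮α⟯` generates it as an algebra. -/
theorem algebra_adjoin_gen_eq_top {F L : Type*} [Field F] [Field L] [Algebra F L] (α : L)
    (hα : IsAlgebraic F α) : Algebra.adjoin F {AdjoinSimple.gen F α} = ⊤ := by
  rw [eq_top_iff]
  rintro x -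
  have hx : (x : L) ∈ F⟮α⟯.toSubalgebra := x.2
  rw [adjoin_simple_toSubalgebra_of_isAlgebraic hα, Algebra.adjoin_singleton_eq_range_aeval] at hx
  obtain ⟨p, hp⟩ := hx
  rw [Algebra.adjoin_singleton_eq_range_aeval]
  refine ⟨p, Subtype.ext ?_⟩
  have h1 := Polynomial.aeval_algebraMap_apply (A := ↥F⟮α⟯) L (AdjoinSimple.gen F α) p
  rw [AdjoinSimple.algebraMap_gen] at h1
  change algebraMap ↥F⟮α⟯ L (aeval (AdjoinSimple.gen F α) p) = x
  rw [← h1]
  exact hp

variable {K₀ K F' E : Type*} [Field K₀] [Field K] [Algebra K₀ K] [CharZero K₀]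
  [Field F'] [Algebra K₀ F'] [FiniteDimensional K₀ F']
  [Field E] [Algebra K E] [FiniteDimensional K E] [Algebra K₀ E] [IsScalarTower K₀ K E]
  [Algebra F' E] [IsScalarTower K₀ F' E]

/-- **(GM-3)** tameness with all indices dividing `N` is inherited by the compositum
`E = K·F'`, whatever `e(𝒱/𝒱₀)` is. -/
theorem tameAt_of_tameAt (hgen : Algebra.adjoin K (Set.range (algebraMap F' E)) = ⊤)
    (𝒱₀ : ValuationSubring K₀) (𝒱 : ValuationSubring K)
    (h𝒱₀ : ∀ x, x ∈ 𝒱₀ ↔ algebraMap K₀ K x ∈ 𝒱)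
    [IsDiscreteValuationRing ↥𝒱₀] [IsDiscreteValuationRing ↥𝒱]
    [CharZero (IsLocalRing.ResidueField ↥𝒱₀)] (N : ℕ) (hN : 0 < N)
    (h : TameAt 𝒱₀ F' N) : TameAt 𝒱 E N := by
  obtain ⟨τ, hτ⟩ := IsDiscreteValuationRing.exists_irreducible ↥𝒱
  obtain ⟨s, hs⟩ := IsAlgClosed.exists_pow_nat_eq
    (algebraMap K (AlgebraicClosure E) (τ : K)) hN
  have hsint : IsIntegral E s := by
    refine ⟨X ^ N - C (algebraMap K E (τ : K)), monic_X_pow_sub_C _ hN.ne', ?_⟩
    rw [eval₂_sub, eval₂_X_pow, eval₂_C, hs, ← IsScalarTower.algebraMap_apply, sub_self]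
  -- the field `E'' = E(s)`
  let s₁ : ↥E⟮s⟯ := AdjoinSimple.gen E s
  haveI : FiniteDimensional E ↥E⟮s⟯ := adjoin.finiteDimensional hsint
  haveI : FiniteDimensional K ↥E⟮s⟯ := Module.Finite.trans E ↥E⟮s⟯
  have hs₁ : s₁ ^ N = algebraMap K ↥E⟮s⟯ (τ : K) := by
    apply Subtype.ext
    show s ^ N = algebraMap K (AlgebraicClosure E) (τ : K)
    exact hs
  have hs₁int : IsIntegral K s₁ := by
    refine ⟨X ^ N - C (τ : K), monic_X_pow_sub_C _ hN.ne', ?_⟩
    rw [eval₂_sub, eval₂_X_pow, eval₂_C, hs₁, sub_self]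
  -- the field `K'' = K(s)`
  let s₂ : ↥K⟮s₁⟯ := AdjoinSimple.gen K s₁
  haveI : FiniteDimensional ↥K⟮s₁⟯ ↥E⟮s⟯ := Module.Finite.of_restrictScalars_finite K _ _
  have hs₂ : s₂ ^ N = algebraMap K ↥K⟮s₁⟯ (τ : K) := by
    apply Subtype.ext
    show s₁ ^ N = algebraMap K ↥E⟮s⟯ (τ : K)
    exact hs₁
  have hK'' : Algebra.adjoin K {s₂} = ⊤ := algebra_adjoin_gen_eq_top s₁ hs₁int.isAlgebraic
  have hE'' : Algebra.adjoin ↥K⟮s₁⟯ (Set.range (algebraMap E ↥E⟮s⟯)) = ⊤ := by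
    rw [eq_top_iff]
    rintro x -
    have hx : x ∈ Algebra.adjoin E {s₁} := by
      rw [algebra_adjoin_gen_eq_top s hsint.isAlgebraic]; exact Algebra.mem_top
    induction hx using Algebra.adjoin_induction with
    | mem y hy =>
      rw [Set.mem_singleton_iff] at hy
      rw [hy]
      exact Subalgebra.algebraMap_mem _ s₂
    | algebraMap e => exact Algebra.subset_adjoin ⟨e, rfl⟩
    | add y z _ _ hy hz => exact Subalgebra.add_mem _ hy hz
    | mul y z _ _ hy hz => exact Subalgebra.mul_mem _ hy hz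
  exact tameAt_of_kummer (K'' := ↥K⟮s₁⟯) (E'' := ↥E⟮s⟯) hgen 𝒱₀ 𝒱 h𝒱₀ N hN τ hτ s₂ hs₂ hK'' hE'' h

end Construct

end Fermat.Agent.JA
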