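/-
J-A package GM — helper1.
(Main) the hypotheses `hM1`, `hM2`, `hM3` of the abstract GEO theorem for the compositum
`E = K·F'` over the auxiliary line `K = K₁(t) ⊇ K₀ = K₁(j)`, from the `j`-line hypotheses on
`F' / K₀` (`JLineHyp`) and the ramification data of the covering `j = J(t)` (`LineHyp`).
-/
import Fermat.Agent.JA.GEO_lead_EbcVal
import Fermat.Agent.JA.GM_helper1_Cusp

set_option autoImplicit false
set_option linter.style.haveILetI false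
set_option linter.unusedSectionVars false

open Polynomial IsLocalRing

namespace Fermat.Agent.JA

/-- `e(𝒱/𝒱₀) = n`, elementwise: a uniformizer of `𝒱₀` is a unit times the `n`-th power of a
uniformizer of `𝒱`. -/
def RamIdxEq {K₀ K : Type*} [Field K₀] [Field K] [Algebra K₀ K] (𝒱₀ : ValuationSubring K₀)
    (𝒱 : ValuationSubring K) (n : ℕ) : Prop :=
  ∃ (ϖ : ↥𝒱₀) (s : ↥𝒱) (u : (↥𝒱)ˣ), Irreducible ϖ ∧ Irreducible s ∧
    algebraMap K₀ K (ϖ : K₀) = ((u : ↥𝒱) : K) * (s : K) ^ n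

section Residue

/-- a valuation subring containing a field of characteristic zero has residue characteristic
zero. -/
theorem charZero_residueField_of_algebraMap_mem {K₁ K : Type*} [Field K₁] [CharZero K₁]
    [Field K] [Algebra K₁ K] (𝒱 : ValuationSubring K) (h : ∀ a : K₁, algebraMap K₁ K a ∈ 𝒱) :
    CharZero (IsLocalRing.ResidueField ↥𝒱) := by
  let φ : K₁ →+* ↥𝒱 := (algebraMap K₁ K).codRestrict 𝒱.toSubring h
  exact charZero_of_injective_ringHom ((IsLocalRing.residue ↥𝒱).comp φ).injective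

end Residue

section UnrTame

variable {K E : Type*} [Field K] [Field E] [Algebra K E] [FiniteDimensional K E]
  [Algebra.IsSeparable K E]

/-- unramified ⇒ all ramification indices are `1`. -/
theorem tameAt_of_unr (𝒱 : ValuationSubring K) [IsDiscreteValuationRing ↥𝒱] (h : Unr 𝒱 E)
    (n : ℕ) : TameAt 𝒱 E n := by
  intro Q hQ
  haveI := hQ
  haveI : Algebra.FormallyUnramified ↥𝒱 ↥(integralClosure ↥𝒱 E) := h
  haveI : Module.Finite ↥𝒱 ↥(integralClosure ↥𝒱 E) :=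
    IsIntegralClosure.finite ↥𝒱 K E ↥(integralClosure ↥𝒱 E)
  rw [Ideal.ramificationIdx_eq_one Q ↥𝒱]
  exact one_dvd n

/-- residue characteristic zero and all ramification indices `1` ⇒ unramified. -/
theorem unr_of_tameAt_one (𝒱 : ValuationSubring K) [IsDiscreteValuationRing ↥𝒱]
    [CharZero (IsLocalRing.ResidueField ↥𝒱)] (h : TameAt 𝒱 E 1) : Unr 𝒱 E := by
  haveI : Module.Finite ↥𝒱 ↥(integralClosure ↥𝒱 E) :=
    IsIntegralClosure.finite ↥𝒱 K E ↥(integralClosure ↥𝒱 E)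
  haveI : Algebra.IsIntegral ↥𝒱 ↥(integralClosure ↥𝒱 E) :=
    IsIntegralClosure.isIntegral_algebra ↥𝒱 E
  show Algebra.FormallyUnramified ↥𝒱 ↥(integralClosure ↥𝒱 E)
  apply formallyUnramified_of_forall_isMaximal
  intro Q hQ
  have hram : Q.ramificationIdx ↥𝒱 = 1 := Nat.dvd_one.mp (h Q hQ)
  haveI : CharZero (Q.under ↥𝒱).ResidueField := by
    apply charZero_of_inj_zero
    intro k hk
    by_contra hk0
    have hu : IsUnit ((k : ℕ) : ↥𝒱) := by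
      by_contra h
      have h2 : (IsLocalRing.residue ↥𝒱) ((k : ℕ) : ↥𝒱) = 0 :=
        (IsLocalRing.residue_eq_zero_iff _).mpr h
      rw [map_natCast] at h2
      exact (Nat.cast_ne_zero.mpr hk0) h2
    have hu' : IsUnit ((k : ℕ) : (Q.under ↥𝒱).ResidueField) := by
      have h3 := hu.map (algebraMap ↥𝒱 (Q.under ↥𝒱).ResidueField)
      rwa [map_natCast] at h3
    rw [hk] at hu'
    exact not_isUnit_zero hu'
  exact Ideal.ramificationIdx_eq_one_iff.mp hram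

end UnrTame

section GM2

variable {K₀ K F' E : Type*} [Field K₀] [Field K] [Algebra K₀ K] [CharZero K₀]
  [Field F'] [Algebra K₀ F'] [FiniteDimensional K₀ F']
  [Field E] [Algebra K E] [FiniteDimensional K E] [Algebra K₀ E] [IsScalarTower K₀ K E]
  [Algebra F' E] [IsScalarTower K₀ F' E]

/-- **(GM-2)** = general (ABH) in the valuation-subring currency. -/
theorem unr_of_tameAt (hgen : Algebra.adjoin K (Set.range (algebraMap F' E)) = ⊤)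
    (𝒱₀ : ValuationSubring K₀) (𝒱 : ValuationSubring K)
    (h𝒱₀ : ∀ x ∈ 𝒱₀, algebraMap K₀ K x ∈ 𝒱)
    [IsDiscreteValuationRing ↥𝒱₀] [IsDiscreteValuationRing ↥𝒱]
    [CharZero (IsLocalRing.ResidueField ↥𝒱₀)] (n : ℕ) (hn : 0 < n) (he : RamIdxEq 𝒱₀ 𝒱 n)
    (h : TameAt 𝒱₀ F' n) : Unr 𝒱 E := by
  obtain ⟨ϖ, s, u, hϖ, hs, hsn⟩ := he
  haveI : CharZero K := charZero_of_injective_algebraMap (algebraMap K₀ K).injective
  haveI : Algebra.IsSeparable K₀ F' := Algebra.IsAlgebraic.isSeparable_of_perfectField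
  haveI : Algebra.IsSeparable K E := Algebra.IsAlgebraic.isSeparable_of_perfectField
  let φ : ↥𝒱₀ →+* ↥𝒱 :=
    ((algebraMap K₀ K).comp 𝒱₀.subtype).codRestrict 𝒱.toSubring (fun x => h𝒱₀ x x.2)
  letI algVV' : Algebra ↥𝒱₀ ↥𝒱 := φ.toAlgebra
  have hφ : ∀ x : ↥𝒱₀, ((algebraMap ↥𝒱₀ ↥𝒱 x : ↥𝒱) : K) = algebraMap K₀ K (x : K₀) :=
    fun _ => rfl
  haveI towVV'E' : IsScalarTower ↥𝒱₀ ↥𝒱 E := by
    refine IsScalarTower.of_algebraMap_eq (fun x => ?_)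
    change algebraMap K₀ E (x : K₀) = algebraMap K E ((algebraMap ↥𝒱₀ ↥𝒱 x : ↥𝒱) : K)
    rw [hφ, ← IsScalarTower.algebraMap_apply K₀ K E]
  haveI towVEE' : IsScalarTower ↥𝒱₀ F' E := by
    refine IsScalarTower.of_algebraMap_eq (fun x => ?_)
    change algebraMap K₀ E (x : K₀) = algebraMap F' E (algebraMap K₀ F' (x : K₀))
    rw [← IsScalarTower.algebraMap_apply K₀ F' E]
  have hsn' : algebraMap ↥𝒱₀ ↥𝒱 ϖ = u * s ^ n := by
    apply Subtype.ext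
    rw [hφ, hsn]
    rfl
  exact abhyankar_of_unit_mul_pow (V := ↥𝒱₀) (K := K₀) (E := F')
    (W := ↥(integralClosure ↥𝒱₀ F')) (V' := ↥𝒱) (K' := K) (E' := E)
    (W' := ↥(integralClosure ↥𝒱 E)) n hn ϖ hϖ s hs u hsn' hgen h

end GM2

section line

variable {R : Type*} [CommRing R] [IsDomain R] [IsDiscreteValuationRing R] [CharZero R]
  {K₁ : Type*} [Field K₁] [Algebra R K₁] [IsFractionRing R K₁]
  {K₀ : Type*} [Field K₀] [Algebra K₁ K₀] [Algebra R K₀] [IsScalarTower R K₁ K₀]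
  {K : Type*} [Field K] [Algebra K₁ K] [Algebra R K] [IsScalarTower R K₁ K]
  [Algebra K₀ K] [IsScalarTower K₁ K₀ K]

/-- What GM consumes from LINE (abstract in the covering `j = J(t)`; `S` = the finite cusps). -/
structure LineHyp (π : R) (j : K₀) (t : K) (S : Finset R) : Prop where
  dvr : ∀ 𝒱 : ValuationSubring K, 𝒱 ≠ ⊤ → (∀ a : K₁, algebraMap K₁ K a ∈ 𝒱) →
    IsDiscreteValuationRing ↥𝒱 ∧ IsDiscreteValuationRing ↥(𝒱.comap (algebraMap K₀ K))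
  noncusp : ∀ 𝒱 : ValuationSubring K, 𝒱 ≠ ⊤ → (∀ a : K₁, algebraMap K₁ K a ∈ 𝒱) → t ∈ 𝒱 →
    (∀ a ∈ S, (t - algebraMap R K a)⁻¹ ∈ 𝒱) → algebraMap K₀ K j ∈ 𝒱
  e_zero : ∀ 𝒱 : ValuationSubring K, 𝒱 ≠ ⊤ → (∀ a : K₁, algebraMap K₁ K a ∈ 𝒱) →
    algebraMap K₀ K j ∈ 𝒱 → (algebraMap K₀ K j)⁻¹ ∉ 𝒱 →
    RamIdxEq (𝒱.comap (algebraMap K₀ K)) 𝒱 3
  e_1728 : ∀ 𝒱 : ValuationSubring K, 𝒱 ≠ ⊤ → (∀ a : K₁, algebraMap K₁ K a ∈ 𝒱) →
    algebraMap K₀ K j ∈ 𝒱 → (algebraMap K₀ K (j - 1728))⁻¹ ∉ 𝒱 →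
    RamIdxEq (𝒱.comap (algebraMap K₀ K)) 𝒱 2
  gauss : ∀ 𝒢 : ValuationSubring K, IsGaussAt R π t 𝒢 →
    IsGaussAt R π j (𝒢.comap (algebraMap K₀ K)) ∧
    IsDiscreteValuationRing ↥𝒢 ∧ IsDiscreteValuationRing ↥(𝒢.comap (algebraMap K₀ K))

/-- The `j`-line hypotheses (R-a), (R-b) on `F' / K₁(j)`. -/
structure JLineHyp (π : R) (j : K₀) (F' : Type*) [Field F'] [Algebra K₀ F'] (N : ℕ) : Prop where
  generic : ∀ 𝒱₀ : ValuationSubring K₀, 𝒱₀ ≠ ⊤ → (∀ a : K₁, algebraMap K₁ K₀ a ∈ 𝒱₀) →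
    j ∈ 𝒱₀ → j⁻¹ ∈ 𝒱₀ → (j - 1728)⁻¹ ∈ 𝒱₀ → Unr 𝒱₀ F'
  zero : ∀ 𝒱₀ : ValuationSubring K₀, 𝒱₀ ≠ ⊤ → (∀ a : K₁, algebraMap K₁ K₀ a ∈ 𝒱₀) →
    j ∈ 𝒱₀ → j⁻¹ ∉ 𝒱₀ → TameAt 𝒱₀ F' 3
  e1728 : ∀ 𝒱₀ : ValuationSubring K₀, 𝒱₀ ≠ ⊤ → (∀ a : K₁, algebraMap K₁ K₀ a ∈ 𝒱₀) →
    j ∈ 𝒱₀ → (j - 1728)⁻¹ ∉ 𝒱₀ → TameAt 𝒱₀ F' 2
  infty : ∀ 𝒱₀ : ValuationSubring K₀, 𝒱₀ ≠ ⊤ → (∀ a : K₁, algebraMap K₁ K₀ a ∈ 𝒱₀) →
    j ∉ 𝒱₀ → TameAt 𝒱₀ F' N
  gauss : ∀ 𝒢 : ValuationSubring K₀, IsGaussAt R π j 𝒢 → Unr 𝒢 F'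

variable {F' : Type*} [Field F'] [Algebra K₀ F'] [FiniteDimensional K₀ F']
  {E : Type*} [Field E] [Algebra K E] [FiniteDimensional K E] [Algebra K₁ E] [IsScalarTower K₁ K E]
  [Algebra K₀ E] [IsScalarTower K₀ K E] [Algebra F' E] [IsScalarTower K₀ F' E]

omit [IsDomain R] [IsDiscreteValuationRing R] [CharZero R] [IsFractionRing R K₁] [Algebra R K₀]
  [IsScalarTower R K₁ K₀] [Algebra R K] [IsScalarTower R K₁ K] in
theorem dvr_ne_top {L : Type*} [Field L] (𝒱 : ValuationSubring L) [IsDiscreteValuationRing ↥𝒱] :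
    𝒱 ≠ ⊤ := by
  intro h
  obtain ⟨ϖ, hϖ⟩ := IsDiscreteValuationRing.exists_irreducible ↥𝒱
  apply hϖ.not_isUnit
  have hmem : ((ϖ : L))⁻¹ ∈ 𝒱 := by
    have h1 : ∀ x : L, x ∈ 𝒱 := fun x => by rw [h]; exact ValuationSubring.mem_top _
    exact h1 _
  have hne : (ϖ : L) ≠ 0 := fun h0 => hϖ.ne_zero (Subtype.ext h0)
  exact IsUnit.of_mul_eq_one ⟨(ϖ : L)⁻¹, hmem⟩ (Subtype.ext (mul_inv_cancel₀ hne))

include K₁ in
/-- places of the `t`-line over non-cuspidal points of the `j`-line: `E = K·F'` is unramified. -/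
theorem gm_unr_of_mem (π : R) (j : K₀) (t : K) (S : Finset R) (N : ℕ)
    (hgen : Algebra.adjoin K (Set.range (algebraMap F' E)) = ⊤)
    (hL : LineHyp (K₁ := K₁) π j t S) (hJ : JLineHyp (K₁ := K₁) π j F' N)
    (𝒱 : ValuationSubring K) (hne : 𝒱 ≠ ⊤) (hK₁ : ∀ a : K₁, algebraMap K₁ K a ∈ 𝒱)
    (hj : algebraMap K₀ K j ∈ 𝒱) : Unr 𝒱 E := by
  haveI : CharZero K₁ := charZero_of_injective_algebraMap (IsFractionRing.injective R K₁)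
  haveI : CharZero K₀ := charZero_of_injective_algebraMap (algebraMap K₁ K₀).injective
  haveI : CharZero K := charZero_of_injective_algebraMap (algebraMap K₁ K).injective
  haveI : Algebra.IsSeparable K₀ F' := Algebra.IsAlgebraic.isSeparable_of_perfectField
  obtain ⟨hd, hd₀⟩ := hL.dvr 𝒱 hne hK₁
  haveI := hd
  haveI := hd₀
  set 𝒱₀ := 𝒱.comap (algebraMap K₀ K) with h𝒱₀
  have hle : ∀ x ∈ 𝒱₀, algebraMap K₀ K x ∈ 𝒱 := fun x hx => hx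
  have hne₀ : 𝒱₀ ≠ ⊤ := dvr_ne_top 𝒱₀
  have hK₁₀ : ∀ a : K₁, algebraMap K₁ K₀ a ∈ 𝒱₀ := fun a => by
    show algebraMap K₀ K (algebraMap K₁ K₀ a) ∈ 𝒱
    rw [← IsScalarTower.algebraMap_apply K₁ K₀ K]
    exact hK₁ a
  haveI : CharZero (IsLocalRing.ResidueField ↥𝒱₀) :=
    charZero_residueField_of_algebraMap_mem 𝒱₀ hK₁₀
  have hj₀ : j ∈ 𝒱₀ := hj
  by_cases h0 : (algebraMap K₀ K j)⁻¹ ∈ 𝒱
  · by_cases h1 : (algebraMap K₀ K (j - 1728))⁻¹ ∈ 𝒱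
    · -- generic
      have h0' : j⁻¹ ∈ 𝒱₀ := by
        show algebraMap K₀ K j⁻¹ ∈ 𝒱
        rw [map_inv₀]; exact h0
      have h1' : (j - 1728)⁻¹ ∈ 𝒱₀ := by
        show algebraMap K₀ K (j - 1728)⁻¹ ∈ 𝒱
        rw [map_inv₀]; exact h1
      exact unr_of_unr_of_le 𝒱₀ 𝒱 hle hgen (hJ.generic 𝒱₀ hne₀ hK₁₀ hj₀ h0' h1')
    · -- over `j = 1728`
      have h1' : (j - 1728)⁻¹ ∉ 𝒱₀ := by
        intro h
        apply h1
        have : algebraMap K₀ K (j - 1728)⁻¹ ∈ 𝒱 := h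
        rwa [map_inv₀] at this
      exact unr_of_tameAt hgen 𝒱₀ 𝒱 hle 2 (by norm_num) (hL.e_1728 𝒱 hne hK₁ hj h1)
        (hJ.e1728 𝒱₀ hne₀ hK₁₀ hj₀ h1')
  · -- over `j = 0`
    have h0' : j⁻¹ ∉ 𝒱₀ := by
      intro h
      apply h0
      have : algebraMap K₀ K j⁻¹ ∈ 𝒱 := h
      rwa [map_inv₀] at this
    exact unr_of_tameAt hgen 𝒱₀ 𝒱 hle 3 (by norm_num) (hL.e_zero 𝒱 hne hK₁ hj h0)
      (hJ.zero 𝒱₀ hne₀ hK₁₀ hj₀ h0')

/-- **GM**: the hypotheses `hM1`, `hM2`, `hM3` of `geo_isLocalRing` for `E = K·F'` over the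
`t`-line. -/
theorem gm (π : R) (j : K₀) (t : K) (S : Finset R) (N : ℕ) (hN : 0 < N)
    (hgen : Algebra.adjoin K (Set.range (algebraMap F' E)) = ⊤)
    (hL : LineHyp (K₁ := K₁) π j t S) (hJ : JLineHyp (K₁ := K₁) π j F' N) :
    (∀ 𝒱 : ValuationSubring K, 𝒱 ≠ ⊤ → (∀ a : K₁, algebraMap K₁ K a ∈ 𝒱) → t ∈ 𝒱 →
      (∀ a ∈ S, (t - algebraMap R K a)⁻¹ ∈ 𝒱) → Unr 𝒱 E) ∧
    (∀ 𝒱 : ValuationSubring K, 𝒱 ≠ ⊤ → (∀ a : K₁, algebraMap K₁ K a ∈ 𝒱) → TameAt 𝒱 E N) ∧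
    (∀ 𝒱 : ValuationSubring K, IsGaussAt R π t 𝒱 → Unr 𝒱 E) := by
  haveI : CharZero K₁ := charZero_of_injective_algebraMap (IsFractionRing.injective R K₁)
  haveI : CharZero K₀ := charZero_of_injective_algebraMap (algebraMap K₁ K₀).injective
  haveI : CharZero K := charZero_of_injective_algebraMap (algebraMap K₁ K).injective
  haveI : Algebra.IsSeparable K₀ F' := Algebra.IsAlgebraic.isSeparable_of_perfectField
  haveI : Algebra.IsSeparable K E := Algebra.IsAlgebraic.isSeparable_of_perfectField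
  refine ⟨fun 𝒱 hne hK₁ ht hS => ?_, fun 𝒱 hne hK₁ => ?_, fun 𝒢 hG => ?_⟩
  · exact gm_unr_of_mem (K₁ := K₁) π j t S N hgen hL hJ 𝒱 hne hK₁ (hL.noncusp 𝒱 hne hK₁ ht hS)
  · obtain ⟨hd, hd₀⟩ := hL.dvr 𝒱 hne hK₁
    haveI := hd
    haveI := hd₀
    by_cases hj : algebraMap K₀ K j ∈ 𝒱
    · exact tameAt_of_unr 𝒱 (gm_unr_of_mem (K₁ := K₁) π j t S N hgen hL hJ 𝒱 hne hK₁ hj) N
    · have hK₁₀ : ∀ a : K₁, algebraMap K₁ K₀ a ∈ 𝒱.comap (algebraMap K₀ K) := fun a => by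
        show algebraMap K₀ K (algebraMap K₁ K₀ a) ∈ 𝒱
        rw [← IsScalarTower.algebraMap_apply K₁ K₀ K]
        exact hK₁ a
      haveI : CharZero (IsLocalRing.ResidueField ↥(𝒱.comap (algebraMap K₀ K))) :=
        charZero_residueField_of_algebraMap_mem _ hK₁₀
      exact tameAt_of_tameAt hgen (𝒱.comap (algebraMap K₀ K)) 𝒱 (fun x => Iff.rfl) N hN
        (hJ.infty _ (dvr_ne_top _) hK₁₀ hj)
  · obtain ⟨hG₀, hd, hd₀⟩ := hL.gauss 𝒢 hG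
    haveI := hd
    haveI := hd₀
    exact unr_of_unr_of_le (𝒢.comap (algebraMap K₀ K)) 𝒢 (fun x hx => hx) hgen
      (hJ.gauss _ hG₀)

end line

end Fermat.Agent.JA
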