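/-
J-A package HENS — helper3.  Hensel's lemma without the monicity assumption for adically complete
rings (Newton iteration; the proof is Mathlib's proof of `IsAdicComplete.henselianRing`, which never
uses monicity), and its specialisation to power series rings: a simple root of the constant
coefficient reduction of `f ∈ K⟦X⟧[T]` lifts to a root in `K⟦X⟧`.
-/
import Mathlib

set_option autoImplicit false

open Polynomial

namespace Fermat.Agent.JA

section Adic

/-- **Hensel's lemma for an `I`-adically complete ring, no monicity assumption.** -/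
theorem hensel_of_isAdicComplete {R : Type*} [CommRing R] (I : Ideal R) [IsAdicComplete I R]
    (f : R[X]) (a₀ : R) (h₁ : f.eval a₀ ∈ I)
    (h₂ : IsUnit (Ideal.Quotient.mk I (f.derivative.eval a₀))) :
    ∃ a : R, f.IsRoot a ∧ a - a₀ ∈ I := by
  classical
  let f' := derivative f
  let c : ℕ → R := fun n => Nat.recOn n a₀ fun _ b => b - f.eval b * Ring.inverse (f'.eval b)
  have hc : ∀ n, c (n + 1) = c n - f.eval (c n) * Ring.inverse (f'.eval (c n)) := by
    intro n
    simp only [c]
  have hc_mod : ∀ n, c n ≡ a₀ [SMOD I] := by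
    intro n
    induction n with
    | zero => rfl
    | succ n ih =>
      rw [hc, sub_eq_add_neg, ← add_zero a₀]
      refine ih.add ?_
      rw [SModEq.zero, Ideal.neg_mem_iff]
      refine I.mul_mem_right _ ?_
      rw [← SModEq.zero] at h₁ ⊢
      exact (ih.eval f).trans h₁
  have hf'c : ∀ n, IsUnit (f'.eval (c n)) := by
    intro n
    have := isLocalHom_of_le_jacobson_bot I (IsAdicComplete.le_jacobson_bot I)
    apply IsUnit.of_map (Ideal.Quotient.mk I)
    have h3 : Ideal.Quotient.mk I (f'.eval (c n)) = Ideal.Quotient.mk I (f'.eval a₀) :=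
      SModEq.def.mp ((hc_mod n).eval _)
    rw [h3]
    exact h₂
  have hfcI : ∀ n, f.eval (c n) ∈ I ^ (n + 1) := by
    intro n
    induction n with
    | zero => simpa only [Nat.rec_zero, zero_add, pow_one, c] using h₁
    | succ n ih =>
      rw [← taylor_eval_sub (c n), hc, sub_eq_add_neg, sub_eq_add_neg, add_neg_cancel_comm]
      rw [eval_eq_sum, sum_over_range' _ _ _ (lt_add_of_pos_right _ zero_lt_two), ←
        Finset.sum_range_add_sum_Ico _ (Nat.le_add_left _ _)]
      swap
      · intro i
        rw [zero_mul]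
      refine Ideal.add_mem _ ?_ ?_
      · rw [← one_add_one_eq_two, Finset.sum_range_succ, Finset.range_one, Finset.sum_singleton,
          taylor_coeff_zero, taylor_coeff_one, pow_zero, pow_one, mul_one, mul_neg,
          mul_left_comm, Ring.mul_inverse_cancel _ (hf'c n), mul_one, add_neg_cancel]
        exact Ideal.zero_mem _
      · refine Submodule.sum_mem _ ?_
        simp only [Finset.mem_Ico]
        rintro i ⟨h2i, _⟩
        have aux : n + 2 ≤ i * (n + 1) := by trans 2 * (n + 1) <;> nlinarith only [h2i]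
        refine Ideal.mul_mem_left _ _ (Ideal.pow_le_pow_right aux ?_)
        rw [pow_mul']
        exact Ideal.pow_mem_pow ((Ideal.neg_mem_iff _).2 <| Ideal.mul_mem_right _ _ ih) _
  have aux : ∀ m n, m ≤ n → c m ≡ c n [SMOD (I ^ m • ⊤ : Ideal R)] := by
    intro m n hmn
    rw [← Ideal.one_eq_top, Ideal.smul_eq_mul, mul_one]
    obtain ⟨k, rfl⟩ := Nat.exists_eq_add_of_le hmn
    clear hmn
    induction k with
    | zero => rw [add_zero]
    | succ k ih =>
      rw [← add_assoc, hc, ← add_zero (c m), sub_eq_add_neg]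
      refine ih.add ?_
      symm
      rw [SModEq.zero, Ideal.neg_mem_iff]
      refine Ideal.mul_mem_right _ _ (Ideal.pow_le_pow_right ?_ (hfcI _))
      rw [add_assoc]
      exact le_self_add
  obtain ⟨a, ha⟩ := IsPrecomplete.prec' c (aux _ _)
  refine ⟨a, ?_, ?_⟩
  · show f.IsRoot a
    suffices ∀ n, f.eval a ≡ 0 [SMOD (I ^ n • ⊤ : Ideal R)] from IsHausdorff.haus' _ this
    intro n
    specialize ha n
    rw [← Ideal.one_eq_top, Ideal.smul_eq_mul, mul_one] at ha ⊢
    refine (ha.symm.eval f).trans ?_
    rw [SModEq.zero]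
    exact Ideal.pow_le_pow_right le_self_add (hfcI _)
  · show a - a₀ ∈ I
    specialize ha (0 + 1)
    rw [hc, pow_one, ← Ideal.one_eq_top, Ideal.smul_eq_mul, mul_one, sub_eq_add_neg] at ha
    rw [← SModEq.sub_mem, ← add_zero a₀]
    refine ha.symm.trans (SModEq.rfl.add ?_)
    rw [SModEq.zero, Ideal.neg_mem_iff]
    exact Ideal.mul_mem_right _ _ h₁

end Adic

section PowerSeries

variable {K : Type*} [CommRing K]

lemma mem_span_X_iff (φ : PowerSeries K) :
    φ ∈ (Ideal.span {(PowerSeries.X : PowerSeries K)}) ↔ PowerSeries.constantCoeff φ = 0 := by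
  rw [Ideal.mem_span_singleton, PowerSeries.X_dvd_iff]

/-- **Hensel's lemma for `K⟦X⟧`**: a simple root `a₀ ∈ K` of the reduction of `f ∈ K⟦X⟧[T]`
modulo `X` lifts to a root of `f` with constant coefficient `a₀`. -/
theorem powerSeries_hensel (f : (PowerSeries K)[X]) (a₀ : K)
    (h₁ : (f.map (PowerSeries.constantCoeff (R := K))).eval a₀ = 0)
    (h₂ : IsUnit ((f.map (PowerSeries.constantCoeff (R := K))).derivative.eval a₀)) :
    ∃ a : PowerSeries K, f.IsRoot a ∧ PowerSeries.constantCoeff a = a₀ := by
  have hcc : ∀ (g : (PowerSeries K)[X]),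
      PowerSeries.constantCoeff (g.eval (PowerSeries.C a₀)) =
        (g.map (PowerSeries.constantCoeff (R := K))).eval a₀ := by
    intro g
    show PowerSeries.constantCoeff (eval₂ (RingHom.id _) (PowerSeries.C a₀) g) = _
    rw [eval_map, hom_eval₂, RingHom.comp_id, PowerSeries.constantCoeff_C]
  have h₁' : f.eval (PowerSeries.C a₀) ∈ Ideal.span {(PowerSeries.X : PowerSeries K)} := by
    rw [mem_span_X_iff, hcc, h₁]
  have h₂' : IsUnit (Ideal.Quotient.mk (Ideal.span {(PowerSeries.X : PowerSeries K)})
      (f.derivative.eval (PowerSeries.C a₀))) := by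
    apply IsUnit.map
    rw [PowerSeries.isUnit_iff_constantCoeff, hcc, ← derivative_map]
    exact h₂
  obtain ⟨a, ha, ha'⟩ := hensel_of_isAdicComplete
    (Ideal.span {(PowerSeries.X : PowerSeries K)}) f (PowerSeries.C a₀) h₁' h₂'
  refine ⟨a, ha, ?_⟩
  rw [mem_span_X_iff, map_sub, PowerSeries.constantCoeff_C, sub_eq_zero] at ha'
  exact ha'

end PowerSeries

end Fermat.Agent.JA
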