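/-
J-A package HENS — helper3.  (ii) the auxiliary coordinate of the Legendre / Hesse line inside the
Laurent series host: in `K⸨x⸩`
* Legendre (`2 ≠ 0` in `K`): `t = x · S`, `S(0) = 16`, `256 (t² − t + 1)³ = j(x²) · t² (t − 1)²`;
* Hesse (`3 ≠ 0` in `K`): `s = x · S`, `S(0) = 3`, `t = s⁻¹`, `27 t³ (t³ + 8)³ = j(x³) · (t³ − 1)³`.
Both are stated for an arbitrary series `j = x^{-w} · P(x)` with `P(0) = 1`, and then for
`jqNModC K w = j(x^w)`.
-/
import Mathlib
import Fermat.Prelude.Def_ModularCurve_JqCoeff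
import Fermat.Agent.JA.HENS_helper3_Hensel

set_option autoImplicit false

open Polynomial

namespace Fermat.Agent.JA

section Dilate

variable {K : Type*} [CommRing K]

/-- `φ(X^w)` as a power series. -/
noncomputable def psDil (w : ℕ) (φ : PowerSeries K) : PowerSeries K :=
  PowerSeries.mk fun n => if w ∣ n then PowerSeries.coeff (n / w) φ else 0

lemma constantCoeff_psDil (w : ℕ) (φ : PowerSeries K) :
    PowerSeries.constantCoeff (psDil w φ) = PowerSeries.constantCoeff φ := by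
  rw [← PowerSeries.coeff_zero_eq_constantCoeff_apply, psDil, PowerSeries.coeff_mk,
    if_pos (dvd_zero w), Nat.zero_div, PowerSeries.coeff_zero_eq_constantCoeff_apply]

theorem qExpand_ofPowerSeries_eq (w : ℕ) [NeZero w] (φ : PowerSeries K) :
    ModularCurve.qExpand K w (HahnSeries.ofPowerSeries ℤ K φ) =
      HahnSeries.ofPowerSeries ℤ K (psDil w φ) := by
  have hw : w ≠ 0 := NeZero.ne w
  ext k
  by_cases hk : (w : ℤ) ∣ k
  · obtain ⟨k', rfl⟩ := hk
    rw [ModularCurve.qExpand_coeff_mul]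
    by_cases hk' : 0 ≤ k'
    · obtain ⟨n, rfl⟩ := Int.eq_ofNat_of_zero_le hk'
      rw [HahnSeries.ofPowerSeries_apply_coeff]
      have : (w : ℤ) * (n : ℤ) = ((w * n : ℕ) : ℤ) := by push_cast; ring
      rw [this, HahnSeries.ofPowerSeries_apply_coeff, psDil, PowerSeries.coeff_mk,
        if_pos (dvd_mul_right w n), Nat.mul_div_cancel_left _ (Nat.pos_of_ne_zero hw)]
    · rw [not_le] at hk'
      rw [ModularCurve.ofPowerSeries_coeff_of_neg _ hk', ModularCurve.ofPowerSeries_coeff_of_neg]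
      have : (0 : ℤ) < w := by exact_mod_cast Nat.pos_of_ne_zero hw
      nlinarith
  · rw [ModularCurve.qExpand_coeff_of_not_dvd _ _ hk]
    by_cases hk' : 0 ≤ k
    · obtain ⟨n, rfl⟩ := Int.eq_ofNat_of_zero_le hk'
      rw [HahnSeries.ofPowerSeries_apply_coeff, psDil, PowerSeries.coeff_mk]
      have : ¬ w ∣ n := fun h => hk (by exact_mod_cast h)
      rw [if_neg this]
    · rw [not_le] at hk'
      rw [ModularCurve.ofPowerSeries_coeff_of_neg _ hk']

/-- the numerator series of `j` over `K`. -/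
noncomputable def jNumK (K : Type*) [CommRing K] : PowerSeries K :=
  ModularCurve.jNum.map (Int.castRingHom K)

lemma constantCoeff_jNumK : PowerSeries.constantCoeff (jNumK K) = 1 := by
  rw [jNumK, ← PowerSeries.coeff_zero_eq_constantCoeff_apply, PowerSeries.coeff_map,
    PowerSeries.coeff_zero_eq_constantCoeff_apply, ModularCurve.constantCoeff_jNum]
  simp

/-- `j(x^w) = x^{-w} · P(x)` with `P(0) = 1`. -/
theorem jqNModC_eq (w : ℕ) [NeZero w] :
    ModularCurve.jqNModC K w =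
      HahnSeries.single (-(w : ℤ)) (1 : K) *
        HahnSeries.ofPowerSeries ℤ K (psDil w (jNumK K)) := by
  rw [ModularCurve.jqNModC, ModularCurve.jqModC, map_mul, ModularCurve.qExpand_single,
    qExpand_ofPowerSeries_eq, mul_neg_one]
  rfl

end Dilate

section Legendre

variable {K : Type*} [Field K]

/-- the Legendre equation in `K⟦X⟧`: `P · S² (X S − 1)² = 256 (X² S² − X S + 1)³`, `S(0) = 16`. -/
theorem exists_legendre_powerSeries (h2 : (2 : K) ≠ 0) (P : PowerSeries K)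
    (hP : PowerSeries.constantCoeff P = 1) :
    ∃ S : PowerSeries K, PowerSeries.constantCoeff S = 16 ∧
      P * S ^ 2 * (PowerSeries.X * S - 1) ^ 2 =
        256 * (PowerSeries.X ^ 2 * S ^ 2 - PowerSeries.X * S + 1) ^ 3 := by
  set f : (PowerSeries K)[X] :=
    C P * X ^ 2 * (C PowerSeries.X * X - 1) ^ 2 -
      256 * (C PowerSeries.X ^ 2 * X ^ 2 - C PowerSeries.X * X + 1) ^ 3 with hf
  have hmap : f.map (PowerSeries.constantCoeff (R := K)) = X ^ 2 - 256 := by
    rw [hf]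
    simp only [Polynomial.map_sub, Polynomial.map_mul, Polynomial.map_pow, map_C, map_X,
      Polynomial.map_one, Polynomial.map_add, Polynomial.map_ofNat, hP,
      PowerSeries.constantCoeff_X, C_0, C_1]
    ring
  obtain ⟨S, hS, hS0⟩ := powerSeries_hensel f 16
    (by rw [hmap]; simp; norm_num)
    (by
      rw [hmap]
      simp only [derivative_sub, derivative_X_pow, derivative_ofNat, sub_zero, eval_mul, eval_C,
        eval_X, Nat.cast_ofNat, Nat.add_one_sub_one, pow_one]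
      have : (2 : K) * 16 = 2 ^ 5 := by norm_num
      rw [this]
      exact (pow_ne_zero 5 h2).isUnit)
  refine ⟨S, hS0, ?_⟩
  have h := hS
  rw [IsRoot.def, hf] at h
  simp only [eval_sub, eval_mul, eval_pow, eval_C, eval_X, eval_one, eval_add, eval_ofNat] at h
  exact sub_eq_zero.mp h

/-- **(ii, Legendre)** for `j = x^{-2} · P(x)`, `P(0) = 1`. -/
theorem exists_legendre_root_of_series (h2 : (2 : K) ≠ 0) (P : PowerSeries K)
    (hP : PowerSeries.constantCoeff P = 1) :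
    ∃ S : PowerSeries K, PowerSeries.constantCoeff S = 16 ∧
      256 * ((HahnSeries.single (1 : ℤ) (1 : K) * HahnSeries.ofPowerSeries ℤ K S) ^ 2 -
          HahnSeries.single (1 : ℤ) (1 : K) * HahnSeries.ofPowerSeries ℤ K S + 1) ^ 3 =
        (HahnSeries.single (-2 : ℤ) (1 : K) * HahnSeries.ofPowerSeries ℤ K P) *
          ((HahnSeries.single (1 : ℤ) (1 : K) * HahnSeries.ofPowerSeries ℤ K S) ^ 2 *
            (HahnSeries.single (1 : ℤ) (1 : K) * HahnSeries.ofPowerSeries ℤ K S - 1) ^ 2) := by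
  obtain ⟨S, hS0, heq⟩ := exists_legendre_powerSeries h2 P hP
  refine ⟨S, hS0, ?_⟩
  have hx : (HahnSeries.single (1 : ℤ) (1 : K) : LaurentSeries K) =
      HahnSeries.ofPowerSeries ℤ K PowerSeries.X := HahnSeries.ofPowerSeries_X.symm
  have hinv : (HahnSeries.single (-2 : ℤ) (1 : K) : LaurentSeries K) *
      (HahnSeries.ofPowerSeries ℤ K PowerSeries.X) ^ 2 = 1 := by
    rw [← hx, HahnSeries.single_pow, HahnSeries.single_mul_single]
    simp
  have heq' := congrArg (HahnSeries.ofPowerSeries ℤ K) heq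
  simp only [map_mul, map_sub, map_pow, map_add, map_one, map_ofNat] at heq'
  rw [hx]
  linear_combination (-1 : LaurentSeries K) * heq' -
    (HahnSeries.ofPowerSeries ℤ K P * (HahnSeries.ofPowerSeries ℤ K S) ^ 2 *
      (HahnSeries.ofPowerSeries ℤ K PowerSeries.X * HahnSeries.ofPowerSeries ℤ K S - 1) ^ 2) * hinv

/-- **(ii, Legendre)** in `K⸨x⸩`, `q = x²`: `t = x · S`, `S(0) = 16`,
`256 (t² − t + 1)³ = j(x²) t² (t − 1)²`. -/
theorem exists_legendre_root (h2 : (2 : K) ≠ 0) :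
    ∃ S : PowerSeries K, PowerSeries.constantCoeff S = 16 ∧
      256 * ((HahnSeries.single (1 : ℤ) (1 : K) * HahnSeries.ofPowerSeries ℤ K S) ^ 2 -
          HahnSeries.single (1 : ℤ) (1 : K) * HahnSeries.ofPowerSeries ℤ K S + 1) ^ 3 =
        ModularCurve.jqNModC K 2 *
          ((HahnSeries.single (1 : ℤ) (1 : K) * HahnSeries.ofPowerSeries ℤ K S) ^ 2 *
            (HahnSeries.single (1 : ℤ) (1 : K) * HahnSeries.ofPowerSeries ℤ K S - 1) ^ 2) := by
  obtain ⟨S, hS0, h⟩ := exists_legendre_root_of_series h2 (psDil 2 (jNumK K))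
    (by rw [constantCoeff_psDil, constantCoeff_jNumK])
  refine ⟨S, hS0, ?_⟩
  rw [jqNModC_eq]
  exact h

end Legendre

section Hesse

variable {K : Type*} [Field K]

/-- the Hesse equation in `K⟦X⟧`: `P · S³ (1 − X³ S³)³ = 27 (1 + 8 X³ S³)³`, `S(0) = 3`. -/
theorem exists_hesse_powerSeries (h3 : (3 : K) ≠ 0) (P : PowerSeries K)
    (hP : PowerSeries.constantCoeff P = 1) :
    ∃ S : PowerSeries K, PowerSeries.constantCoeff S = 3 ∧
      P * S ^ 3 * (1 - PowerSeries.X ^ 3 * S ^ 3) ^ 3 =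
        27 * (1 + 8 * (PowerSeries.X ^ 3 * S ^ 3)) ^ 3 := by
  set f : (PowerSeries K)[X] :=
    C P * X ^ 3 * (1 - C PowerSeries.X ^ 3 * X ^ 3) ^ 3 -
      27 * (1 + 8 * (C PowerSeries.X ^ 3 * X ^ 3)) ^ 3 with hf
  have hmap : f.map (PowerSeries.constantCoeff (R := K)) = X ^ 3 - 27 := by
    rw [hf]
    simp only [Polynomial.map_sub, Polynomial.map_mul, Polynomial.map_pow, map_C, map_X,
      Polynomial.map_one, Polynomial.map_add, Polynomial.map_ofNat, hP,
      PowerSeries.constantCoeff_X, C_0, C_1]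
    ring
  obtain ⟨S, hS, hS0⟩ := powerSeries_hensel f 3
    (by rw [hmap]; simp; norm_num)
    (by
      rw [hmap]
      simp only [derivative_sub, derivative_X_pow, derivative_ofNat, sub_zero, eval_mul, eval_C,
        eval_pow, eval_X, Nat.cast_ofNat]
      have : (3 : K) * 3 ^ (3 - 1) = 3 ^ 3 := by norm_num
      rw [this]
      exact (pow_ne_zero 3 h3).isUnit)
  refine ⟨S, hS0, ?_⟩
  have h := hS
  rw [IsRoot.def, hf] at h
  simp only [eval_sub, eval_mul, eval_pow, eval_C, eval_X, eval_one, eval_add, eval_ofNat] at h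
  exact sub_eq_zero.mp h

/-- **(ii, Hesse)** for `j = x^{-3} · P(x)`, `P(0) = 1`, in terms of `s = 1/t = x · S`. -/
theorem exists_hesse_root_of_series (h3 : (3 : K) ≠ 0) (P : PowerSeries K)
    (hP : PowerSeries.constantCoeff P = 1) :
    ∃ S : PowerSeries K, PowerSeries.constantCoeff S = 3 ∧
      ∀ s : LaurentSeries K,
        s = HahnSeries.single (1 : ℤ) (1 : K) * HahnSeries.ofPowerSeries ℤ K S →
        s ≠ 0 ∧
        27 * (1 + 8 * s ^ 3) ^ 3 =
          (HahnSeries.single (-3 : ℤ) (1 : K) * HahnSeries.ofPowerSeries ℤ K P) *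
            (s ^ 3 * (1 - s ^ 3) ^ 3) ∧
        27 * (s⁻¹) ^ 3 * ((s⁻¹) ^ 3 + 8) ^ 3 =
          (HahnSeries.single (-3 : ℤ) (1 : K) * HahnSeries.ofPowerSeries ℤ K P) *
            ((s⁻¹) ^ 3 - 1) ^ 3 := by
  obtain ⟨S, hS0, heq⟩ := exists_hesse_powerSeries h3 P hP
  refine ⟨S, hS0, ?_⟩
  intro s hs
  have hx : (HahnSeries.single (1 : ℤ) (1 : K) : LaurentSeries K) =
      HahnSeries.ofPowerSeries ℤ K PowerSeries.X := HahnSeries.ofPowerSeries_X.symm
  have hinv : (HahnSeries.single (-3 : ℤ) (1 : K) : LaurentSeries K) *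
      (HahnSeries.ofPowerSeries ℤ K PowerSeries.X) ^ 3 = 1 := by
    rw [← hx, HahnSeries.single_pow, HahnSeries.single_mul_single]
    simp
  have heq' := congrArg (HahnSeries.ofPowerSeries ℤ K) heq
  simp only [map_mul, map_sub, map_pow, map_add, map_one, map_ofNat] at heq'
  have hS_ne : S ≠ 0 := by
    intro h
    rw [h, map_zero] at hS0
    exact h3 hS0.symm
  have hs0 : s ≠ 0 := by
    rw [hs, hx, ← map_mul]
    intro h
    have h' := (HahnSeries.ofPowerSeries_injective (Γ := ℤ) (R := K)) (h.trans (map_zero _).symm)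
    exact (mul_ne_zero PowerSeries.X_ne_zero hS_ne) h'
  have hmain : 27 * (1 + 8 * s ^ 3) ^ 3 =
      (HahnSeries.single (-3 : ℤ) (1 : K) * HahnSeries.ofPowerSeries ℤ K P) *
        (s ^ 3 * (1 - s ^ 3) ^ 3) := by
    rw [hs, hx]
    linear_combination (-1 : LaurentSeries K) * heq' -
      (HahnSeries.ofPowerSeries ℤ K P * (HahnSeries.ofPowerSeries ℤ K S) ^ 3 *
        (1 - (HahnSeries.ofPowerSeries ℤ K PowerSeries.X) ^ 3 *
          (HahnSeries.ofPowerSeries ℤ K S) ^ 3) ^ 3) * hinv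
  refine ⟨hs0, hmain, ?_⟩
  have h12 : (s ^ 12 : LaurentSeries K) ≠ 0 := pow_ne_zero 12 hs0
  apply mul_right_cancel₀ h12
  have e1 : 27 * s⁻¹ ^ 3 * (s⁻¹ ^ 3 + 8) ^ 3 * s ^ 12 = 27 * (1 + 8 * s ^ 3) ^ 3 := by
    field_simp
  have e2 : (HahnSeries.single (-3 : ℤ) (1 : K) * HahnSeries.ofPowerSeries ℤ K P) *
      (s⁻¹ ^ 3 - 1) ^ 3 * s ^ 12 =
      (HahnSeries.single (-3 : ℤ) (1 : K) * HahnSeries.ofPowerSeries ℤ K P) *
        (s ^ 3 * (1 - s ^ 3) ^ 3) := by
    field_simp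
  rw [e1, e2, hmain]

/-- **(ii, Hesse)** in `K⸨x⸩`, `q = x³`: `1/t = s = x · S`, `S(0) = 3`,
`27 t³ (t³ + 8)³ = j(x³) (t³ − 1)³`. -/
theorem exists_hesse_root (h3 : (3 : K) ≠ 0) :
    ∃ S : PowerSeries K, PowerSeries.constantCoeff S = 3 ∧
      ∀ s : LaurentSeries K,
        s = HahnSeries.single (1 : ℤ) (1 : K) * HahnSeries.ofPowerSeries ℤ K S →
        s ≠ 0 ∧
        27 * (1 + 8 * s ^ 3) ^ 3 = ModularCurve.jqNModC K 3 * (s ^ 3 * (1 - s ^ 3) ^ 3) ∧
        27 * (s⁻¹) ^ 3 * ((s⁻¹) ^ 3 + 8) ^ 3 = ModularCurve.jqNModC K 3 * ((s⁻¹) ^ 3 - 1) ^ 3 := by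
  obtain ⟨S, hS0, h⟩ := exists_hesse_root_of_series h3 (psDil 3 (jNumK K))
    (by rw [constantCoeff_psDil, constantCoeff_jNumK])
  refine ⟨S, hS0, ?_⟩
  rw [jqNModC_eq]
  exact h

end Hesse

end Fermat.Agent.JA
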