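/-
J-A package HENS — helper3.  (iii) `m`-th roots of one-units in `K⟦X⟧` and of Laurent series with
order divisible by `m` and leading coefficient `1`; (iv) a field `K` is algebraically closed in
`K⸨X⸩`.
-/
import Mathlib
import Fermat.Agent.JA.HENS_helper3_Hensel

set_option autoImplicit false

open Polynomial

namespace Fermat.Agent.JA

section Roots

variable {K : Type*}

/-- `m`-th roots of one-units of `K⟦X⟧`, `m` invertible in `K`. -/
theorem powerSeries_exists_pow_eq [CommRing K] (m : ℕ) (hm : IsUnit (m : K)) (g : PowerSeries K)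
    (hg : PowerSeries.constantCoeff g = 1) :
    ∃ u : PowerSeries K, u ^ m = g ∧ PowerSeries.constantCoeff u = 1 := by
  have hmap : ((X : (PowerSeries K)[X]) ^ m - C g).map (PowerSeries.constantCoeff (R := K)) =
      (X : K[X]) ^ m - C 1 := by
    rw [Polynomial.map_sub, Polynomial.map_pow, map_X, map_C, hg]
  obtain ⟨u, hu, hu1⟩ := powerSeries_hensel ((X : (PowerSeries K)[X]) ^ m - C g) 1
    (by rw [hmap]; simp)
    (by
      rw [hmap]
      simp only [derivative_sub, derivative_X_pow, derivative_C, sub_zero, eval_mul, eval_C,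
        eval_pow, eval_X, one_pow, mul_one]
      exact hm)
  refine ⟨u, ?_, hu1⟩
  have h := hu
  rw [IsRoot.def, eval_sub, eval_pow, eval_X, eval_C, sub_eq_zero] at h
  exact h

/-- `m`-th roots in `K⸨X⸩`: order divisible by `m`, leading coefficient `1`, `m ≠ 0` in `K`. -/
theorem laurentSeries_exists_pow_eq [Field K] (m : ℕ) (hm : (m : K) ≠ 0) (g : LaurentSeries K)
    (hord : (m : ℤ) ∣ g.order) (hlead : g.leadingCoeff = 1) :
    ∃ u : LaurentSeries K, u ^ m = g := by
  obtain ⟨k, hk⟩ := hord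
  have hcc : PowerSeries.constantCoeff g.powerSeriesPart = 1 := by
    rw [← PowerSeries.coeff_zero_eq_constantCoeff_apply, LaurentSeries.powerSeriesPart_coeff,
      Nat.cast_zero, add_zero, ← HahnSeries.leadingCoeff_eq, hlead]
  obtain ⟨u₀, hu₀, -⟩ := powerSeries_exists_pow_eq m (Ne.isUnit hm) g.powerSeriesPart hcc
  refine ⟨HahnSeries.single k 1 * HahnSeries.ofPowerSeries ℤ K u₀, ?_⟩
  have h1 : (HahnSeries.ofPowerSeries ℤ K u₀) ^ m =
      HahnSeries.ofPowerSeries ℤ K g.powerSeriesPart := by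
    rw [← map_pow, hu₀]
  rw [mul_pow, h1, HahnSeries.single_pow, one_pow, nsmul_eq_mul, ← hk]
  exact LaurentSeries.single_order_mul_powerSeriesPart g

end Roots

section AlgClosed

variable {K : Type*} [Field K]

/-- an element of `K⸨X⸩` algebraic over `K` is a power series. -/
lemma laurentSeries_mem_powerSeries_of_isAlgebraic (f : LaurentSeries K) (hf : IsAlgebraic K f) :
    ∃ φ : PowerSeries K, HahnSeries.ofPowerSeries ℤ K φ = f := by
  have h1 : IsIntegral K f := hf.isIntegral
  have h2 : IsIntegral (PowerSeries K) f := by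
    obtain ⟨P, hPm, hP⟩ := h1
    refine ⟨P.map (algebraMap K (PowerSeries K)), hPm.map _, ?_⟩
    rw [eval₂_map]
    exact hP
  obtain ⟨φ, hφ⟩ := (IsIntegrallyClosed.isIntegral_iff (R := PowerSeries K)
    (K := LaurentSeries K)).mp h2
  exact ⟨φ, hφ⟩

/-- **(iv)** `K` is algebraically closed in `K⸨X⸩`. -/
theorem laurentSeries_eq_C_of_isAlgebraic (f : LaurentSeries K) (hf : IsAlgebraic K f) :
    ∃ c : K, f = HahnSeries.C c := by
  obtain ⟨φ, rfl⟩ := laurentSeries_mem_powerSeries_of_isAlgebraic f hf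
  refine ⟨PowerSeries.constantCoeff φ, ?_⟩
  by_contra hne
  set ψ : PowerSeries K := φ - PowerSeries.C (PowerSeries.constantCoeff φ) with hψ
  have hψ0 : PowerSeries.constantCoeff ψ = 0 := by
    rw [hψ, map_sub, PowerSeries.constantCoeff_C, sub_self]
  have hg : HahnSeries.ofPowerSeries ℤ K ψ =
      HahnSeries.ofPowerSeries ℤ K φ - HahnSeries.C (PowerSeries.constantCoeff φ) := by
    rw [hψ, map_sub, HahnSeries.ofPowerSeries_C]
  have hg0 : HahnSeries.ofPowerSeries ℤ K ψ ≠ 0 := by
    rw [hg]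
    exact sub_ne_zero.mpr hne
  have halg : IsAlgebraic K (HahnSeries.ofPowerSeries ℤ K ψ) := by
    rw [hg]
    rw [← LaurentSeries.algebraMap_apply K]
    exact hf.sub (isAlgebraic_algebraMap (R := K) (A := LaurentSeries K) _)
  obtain ⟨χ, hχ⟩ := laurentSeries_mem_powerSeries_of_isAlgebraic _ halg.inv
  have h1 : HahnSeries.ofPowerSeries ℤ K (ψ * χ) = 1 := by
    rw [map_mul, hχ, mul_inv_cancel₀ hg0]
  have h2 : ψ * χ = 1 := by
    apply HahnSeries.ofPowerSeries_injective (Γ := ℤ) (R := K)
    rw [h1, map_one]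
  have h3 := congrArg (PowerSeries.constantCoeff (R := K)) h2
  rw [map_mul, hψ0, zero_mul, map_one] at h3
  exact zero_ne_one h3

/-- **(iv)**, `algebraMap` form. -/
theorem laurentSeries_mem_range_algebraMap_of_isAlgebraic (f : LaurentSeries K)
    (hf : IsAlgebraic K f) : f ∈ Set.range (algebraMap K (LaurentSeries K)) := by
  obtain ⟨c, rfl⟩ := laurentSeries_eq_C_of_isAlgebraic f hf
  exact ⟨c, LaurentSeries.algebraMap_apply K c⟩

end AlgClosed

end Fermat.Agent.JA
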