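/-
J-A package HENS — helper3.  One-stop import: Hensel in `K⟦X⟧`, `m`-th roots, `K` algebraically
closed in `K⸨X⸩`, the Legendre / Hesse coordinate in the Laurent series host.
-/
import Fermat.Agent.JA.HENS_helper3_Hensel
import Fermat.Agent.JA.HENS_helper3_Roots
import Fermat.Agent.JA.HENS_helper3_Line
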