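/-
J-A package HOST — helper3.  The embedding `K⸨q⸩ → K⸨x⸩`, `q ↦ x^w` (`qExpand K w`): order and
leading coefficient, `m`-th roots of images, the image of an intermediate field, and the scalar
tower `R → K → K⸨x⸩` in the form consumed by `IntermediateField.algebra'`.
-/
import Mathlib
import Fermat.Prelude.Def_ModularCurve_X0ModL
import Fermat.Agent.JA.HENS_helper3_Main

set_option autoImplicit false

open Polynomial

namespace Fermat.Agent.JA

section Tower

variable {K₁ : Type*} [Field K₁] {R : Type*} [CommRing R] [Algebra R K₁]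

/-- the scalar tower `R → K₁ → K₁⸨x⸩` with respect to the algebra-induced scalar actions (the
form needed to make the intermediate fields of `K₁⸨x⸩ / K₁` into `R`-algebras). -/
instance laurentSeries_isScalarTower :
    @IsScalarTower R K₁ (LaurentSeries K₁) _ Algebra.toSMul Algebra.toSMul :=
  @IsScalarTower.of_algebraMap_eq R K₁ (LaurentSeries K₁) _ _ _ _ _ _ (fun r => by
    show HahnSeries.ofPowerSeries ℤ K₁ (algebraMap R (PowerSeries K₁) r) =
      HahnSeries.ofPowerSeries ℤ K₁ (algebraMap K₁ (PowerSeries K₁) (algebraMap R K₁ r))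
    rw [← IsScalarTower.algebraMap_apply R K₁ (PowerSeries K₁)])

end Tower

section Order

variable {K : Type*} [Field K] (w : ℕ) [NeZero w]

theorem qExpand_ne_zero {g : LaurentSeries K} (hg : g ≠ 0) : ModularCurve.qExpand K w g ≠ 0 := by
  intro h
  apply hg
  apply ModularCurve.qExpand_injective w
  rw [h, map_zero]

/-- `ord_x g(x^w) = w · ord_q g`. -/
theorem order_qExpand (g : LaurentSeries K) :
    (ModularCurve.qExpand K w g).order = (w : ℤ) * g.order := by
  by_cases hg : g = 0
  · rw [hg, map_zero, HahnSeries.order_zero, mul_zero]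
  have hg' := qExpand_ne_zero w hg
  apply le_antisymm
  · apply HahnSeries.order_le_of_coeff_ne_zero
    rw [ModularCurve.qExpand_coeff_mul]
    exact fun h => hg (HahnSeries.coeff_order_eq_zero.mp h)
  · have h1 : (ModularCurve.qExpand K w g).coeff (ModularCurve.qExpand K w g).order ≠ 0 :=
      fun h => hg' (HahnSeries.coeff_order_eq_zero.mp h)
    by_cases hdvd : (w : ℤ) ∣ (ModularCurve.qExpand K w g).order
    · obtain ⟨k, hk⟩ := hdvd
      rw [hk, ModularCurve.qExpand_coeff_mul] at h1
      have h2 := HahnSeries.order_le_of_coeff_ne_zero h1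
      rw [hk]
      have hw : (0 : ℤ) ≤ w := Int.natCast_nonneg w
      exact mul_le_mul_of_nonneg_left h2 hw
    · exact absurd (ModularCurve.qExpand_coeff_of_not_dvd w g hdvd) h1

theorem leadingCoeff_qExpand (g : LaurentSeries K) :
    (ModularCurve.qExpand K w g).leadingCoeff = g.leadingCoeff := by
  rw [HahnSeries.leadingCoeff_eq, HahnSeries.leadingCoeff_eq, order_qExpand,
    ModularCurve.qExpand_coeff_mul]

end Order

section Roots

variable {K : Type*} [Field K]

/-- `m`-th roots in `K⟦X⟧` with prescribed constant coefficient. -/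
theorem powerSeries_exists_pow_eq_of_constantCoeff (m : ℕ) (hm : (m : K) ≠ 0)
    (g : PowerSeries K) (d : K) (hd0 : d ≠ 0) (hd : d ^ m = PowerSeries.constantCoeff g) :
    ∃ u : PowerSeries K, u ^ m = g ∧ PowerSeries.constantCoeff u = d := by
  have hmap : ((X : (PowerSeries K)[X]) ^ m - C g).map (PowerSeries.constantCoeff (R := K)) =
      (X : K[X]) ^ m - C (d ^ m) := by
    rw [Polynomial.map_sub, Polynomial.map_pow, map_X, map_C, hd]
  obtain ⟨u, hu, hu1⟩ := powerSeries_hensel ((X : (PowerSeries K)[X]) ^ m - C g) d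
    (by rw [hmap]; simp)
    (by
      rw [hmap]
      simp only [derivative_sub, derivative_X_pow, derivative_C, sub_zero, eval_mul, eval_C,
        eval_pow, eval_X]
      exact (mul_ne_zero hm (pow_ne_zero _ hd0)).isUnit)
  refine ⟨u, ?_, hu1⟩
  have h := hu
  rw [IsRoot.def, eval_sub, eval_pow, eval_X, eval_C, sub_eq_zero] at h
  exact h

/-- `m`-th roots in `K⸨X⸩`: `g ≠ 0`, order divisible by `m`, leading coefficient an `m`-th power,
`m ≠ 0` in `K`. -/
theorem laurentSeries_exists_pow_eq_of_leadingCoeff (m : ℕ) (hm : (m : K) ≠ 0)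
    (g : LaurentSeries K) (hg : g ≠ 0) (hord : (m : ℤ) ∣ g.order) (d : K)
    (hd : d ^ m = g.leadingCoeff) : ∃ u : LaurentSeries K, u ^ m = g := by
  obtain ⟨k, hk⟩ := hord
  have hcc : PowerSeries.constantCoeff g.powerSeriesPart = g.leadingCoeff := by
    rw [← PowerSeries.coeff_zero_eq_constantCoeff_apply, LaurentSeries.powerSeriesPart_coeff,
      Nat.cast_zero, add_zero, ← HahnSeries.leadingCoeff_eq]
  have hd0 : d ≠ 0 := by
    intro h
    have hm0 : m ≠ 0 := by
      rintro rfl
      exact hm (by simp)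
    rw [h, zero_pow hm0] at hd
    exact HahnSeries.leadingCoeff_ne_zero.mpr hg hd.symm
  obtain ⟨u₀, hu₀, -⟩ := powerSeries_exists_pow_eq_of_constantCoeff m hm g.powerSeriesPart d hd0
    (hd.trans hcc.symm)
  refine ⟨HahnSeries.single k 1 * HahnSeries.ofPowerSeries ℤ K u₀, ?_⟩
  have h1 : (HahnSeries.ofPowerSeries ℤ K u₀) ^ m =
      HahnSeries.ofPowerSeries ℤ K g.powerSeriesPart := by
    rw [← map_pow, hu₀]
  rw [mul_pow, h1, HahnSeries.single_pow, one_pow, nsmul_eq_mul, ← hk]
  exact LaurentSeries.single_order_mul_powerSeriesPart g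

/-- `m`-th roots of `g(x^w)` in the host `K⸨x⸩`. -/
theorem exists_pow_eq_qExpand (w : ℕ) [NeZero w] (m : ℕ) (hm : (m : K) ≠ 0)
    (g : LaurentSeries K) (hg : g ≠ 0) (hord : (m : ℤ) ∣ g.order) (d : K)
    (hd : d ^ m = g.leadingCoeff) :
    ∃ u : LaurentSeries K, u ^ m = ModularCurve.qExpand K w g := by
  refine laurentSeries_exists_pow_eq_of_leadingCoeff m hm _ (qExpand_ne_zero w hg) ?_ d ?_
  · rw [order_qExpand]
    exact Dvd.dvd.mul_left hord _
  · rw [leadingCoeff_qExpand]
    exact hd

end Roots

section Image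

variable (K : Type*) [Field K] (w : ℕ) [NeZero w]

/-- the image of an intermediate field of `K⸨q⸩ / K` in the host `K⸨x⸩`, `q = x^w`. -/
noncomputable def hostImage (F : IntermediateField K (LaurentSeries K)) :
    IntermediateField K (LaurentSeries K) :=
  F.map (ModularCurve.qExpandAlgHomC K w)

/-- `F ≃ F_w`. -/
noncomputable def hostImageEquiv (F : IntermediateField K (LaurentSeries K)) :
    ↥F ≃ₐ[K] ↥(hostImage K w F) :=
  IntermediateField.equivMap F (ModularCurve.qExpandAlgHomC K w)

variable {K w}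

lemma coe_hostImageEquiv (F : IntermediateField K (LaurentSeries K)) (x : ↥F) :
    ((hostImageEquiv K w F x : ↥(hostImage K w F)) : LaurentSeries K) =
      ModularCurve.qExpand K w (x : LaurentSeries K) := rfl

lemma qExpand_mem_hostImage {F : IntermediateField K (LaurentSeries K)} {x : LaurentSeries K}
    (hx : x ∈ F) : ModularCurve.qExpand K w x ∈ hostImage K w F :=
  ⟨x, hx, rfl⟩

lemma mem_hostImage_iff {F : IntermediateField K (LaurentSeries K)} {y : LaurentSeries K} :
    y ∈ hostImage K w F ↔ ∃ x ∈ F, ModularCurve.qExpand K w x = y := Iff.rfl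

end Image

end Fermat.Agent.JA
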