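/-
J-A package HOST — helper3.  A small kit for towers of intermediate fields `A ≤ B` of a fixed
host extension `H / K₁`: inclusion algebras `Algebra ↥A ↥B` generated from `[Fact (A ≤ B)]`,
their scalar towers, transfer of finiteness along `IntermediateField.extendScalars`, finiteness of
simple algebraic extensions and of composita, generation of a compositum, and the transfer of
"`K₁` is algebraically closed in `H`" to intermediate fields.
All instances are scoped (`open scoped Fermat.Agent.JA.Host`).
-/
import Mathlib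

set_option autoImplicit false

open IntermediateField

namespace Fermat.Agent.JA.Host

variable {K₁ H : Type*} [Field K₁] [Field H] [Algebra K₁ H]

section Incl

/-- the inclusion algebra `↥A → ↥B` of two intermediate fields `A ≤ B`. -/
@[reducible] noncomputable def inclAlg {A B : IntermediateField K₁ H} (h : A ≤ B) :
    Algebra ↥A ↥B :=
  (IntermediateField.inclusion h).toRingHom.toAlgebra

/-- the inclusion algebra from a `Fact`. -/
noncomputable scoped instance instAlgebraOfFactLe (A B : IntermediateField K₁ H) [hAB : Fact (A ≤ B)] :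
    Algebra ↥A ↥B :=
  inclAlg hAB.out

variable (A B C : IntermediateField K₁ H)

lemma coe_algebraMap [Fact (A ≤ B)] (a : ↥A) : ((algebraMap ↥A ↥B a : ↥B) : H) = (a : H) := rfl

lemma algebraMap_injective [Fact (A ≤ B)] : Function.Injective (algebraMap ↥A ↥B) :=
  (algebraMap ↥A ↥B).injective

scoped instance instTowerBase [Fact (A ≤ B)] : IsScalarTower K₁ ↥A ↥B :=
  IsScalarTower.of_algebraMap_eq (fun _ => rfl)

scoped instance instTowerThree [Fact (A ≤ B)] [Fact (B ≤ C)] [Fact (A ≤ C)] :
    IsScalarTower ↥A ↥B ↥C :=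
  IsScalarTower.of_algebraMap_eq (fun _ => rfl)

scoped instance instTowerHost [Fact (A ≤ B)] : IsScalarTower ↥A ↥B H :=
  IsScalarTower.of_algebraMap_eq (fun _ => rfl)

lemma smul_def' [Fact (A ≤ B)] (a : ↥A) (b : ↥B) : ((a • b : ↥B) : H) = (a : H) * (b : H) := rfl

end Incl

section Transfer

variable {A B : IntermediateField K₁ H}

/-- `↥B` with the inclusion algebra is `↥A`-linearly the intermediate field `extendScalars`. -/
noncomputable def extendScalarsLinearEquiv [hAB : Fact (A ≤ B)] :
    ↥B ≃ₗ[↥A] ↥(IntermediateField.extendScalars hAB.out) where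
  toFun x := ⟨x.1, x.2⟩
  invFun x := ⟨x.1, x.2⟩
  left_inv _ := rfl
  right_inv _ := rfl
  map_add' _ _ := rfl
  map_smul' _ _ := rfl

theorem finite_iff_extendScalars [hAB : Fact (A ≤ B)] :
    Module.Finite ↥A ↥B ↔ Module.Finite ↥A ↥(IntermediateField.extendScalars hAB.out) :=
  ⟨fun _ => Module.Finite.equiv (extendScalarsLinearEquiv (A := A) (B := B)),
    fun _ => Module.Finite.equiv (extendScalarsLinearEquiv (A := A) (B := B)).symm⟩

/-- a simple algebraic extension is finite (inclusion-algebra form). -/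
theorem finite_of_eq_sup_simple [hAB : Fact (A ≤ B)] (x : H) (hB : B = A ⊔ K₁⟮x⟯)
    (hx : IsIntegral ↥A x) : Module.Finite ↥A ↥B := by
  rw [finite_iff_extendScalars]
  have h1 : IntermediateField.extendScalars hAB.out = (↥A)⟮x⟯ := by
    apply IntermediateField.restrictScalars_injective K₁
    rw [IntermediateField.extendScalars_restrictScalars, IntermediateField.restrictScalars_adjoin,
      IntermediateField.adjoin_union, IntermediateField.adjoin_self, hB]
  rw [h1]
  exact IntermediateField.adjoin.finiteDimensional hx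

/-- a compositum `D = B ⊔ C` with `B`, `C` finite over `A` is finite over `B`. -/
theorem finite_sup_left {C D : IntermediateField K₁ H} [hAB : Fact (A ≤ B)] [hAC : Fact (A ≤ C)]
    [hAD : Fact (A ≤ D)] [hBD : Fact (B ≤ D)] (hD : D = B ⊔ C)
    [hB : Module.Finite ↥A ↥B] [hC : Module.Finite ↥A ↥C] : Module.Finite ↥B ↥D := by
  have h1 : Module.Finite ↥A ↥(IntermediateField.extendScalars hAB.out) :=
    finite_iff_extendScalars.mp hB
  have h2 : Module.Finite ↥A ↥(IntermediateField.extendScalars hAC.out) :=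
    finite_iff_extendScalars.mp hC
  have h3 : Module.Finite ↥A ↥D := by
    rw [finite_iff_extendScalars]
    have : IntermediateField.extendScalars hAD.out =
        IntermediateField.extendScalars hAB.out ⊔ IntermediateField.extendScalars hAC.out := by
      rw [IntermediateField.extendScalars_sup]
      apply IntermediateField.restrictScalars_injective K₁
      rw [IntermediateField.extendScalars_restrictScalars,
        IntermediateField.extendScalars_restrictScalars, hD]
    rw [this]
    exact IntermediateField.finiteDimensional_sup _ _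
  exact Module.Finite.right ↥A ↥B ↥D

end Transfer

section Generation

variable {B C D : IntermediateField K₁ H}

/-- a compositum `D = B ⊔ C`, algebraic over `B`, is generated as a `B`-algebra by `C`. -/
theorem adjoin_range_eq_top [hBD : Fact (B ≤ D)] [hCD : Fact (C ≤ D)] (hD : D = B ⊔ C)
    [Algebra.IsAlgebraic ↥B ↥D] :
    Algebra.adjoin ↥B (Set.range (algebraMap ↥C ↥D)) = ⊤ := by
  set S : Subalgebra ↥B ↥D := Algebra.adjoin ↥B (Set.range (algebraMap ↥C ↥D)) with hS
  have hfield : IsField ↥S := Subalgebra.isField_of_algebraic S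
  -- the intermediate field of `H / K₁` carried by `S`
  let T : IntermediateField K₁ H :=
    { carrier := {x | ∃ h : x ∈ D, (⟨x, h⟩ : ↥D) ∈ S}
      mul_mem' := by
        rintro x y ⟨hx, hx'⟩ ⟨hy, hy'⟩
        exact ⟨D.mul_mem hx hy, S.mul_mem hx' hy'⟩
      add_mem' := by
        rintro x y ⟨hx, hx'⟩ ⟨hy, hy'⟩
        exact ⟨D.add_mem hx hy, S.add_mem hx' hy'⟩
      algebraMap_mem' := by
        intro c
        refine ⟨D.algebraMap_mem c, ?_⟩
        have : (⟨algebraMap K₁ H c, D.algebraMap_mem c⟩ : ↥D) =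
            algebraMap ↥B ↥D (algebraMap K₁ ↥B c) := rfl
        rw [this]
        exact S.algebraMap_mem _
      inv_mem' := by
        rintro x ⟨hx, hx'⟩
        refine ⟨D.inv_mem hx, ?_⟩
        by_cases hx0 : x = 0
        · subst hx0
          have : (⟨(0 : H)⁻¹, D.inv_mem hx⟩ : ↥D) = 0 := Subtype.ext inv_zero
          rw [this]
          exact S.zero_mem
        · have hne : (⟨⟨x, hx⟩, hx'⟩ : ↥S) ≠ 0 := by
            intro h
            apply hx0
            exact congrArg (fun z : ↥S => ((z : ↥D) : H)) h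
          obtain ⟨y, hy⟩ := hfield.mul_inv_cancel hne
          have hy' : x * ((y : ↥D) : H) = 1 :=
            congrArg (fun z : ↥S => ((z : ↥D) : H)) hy
          have : (⟨x⁻¹, D.inv_mem hx⟩ : ↥D) = (y : ↥D) := by
            apply Subtype.ext
            show x⁻¹ = ((y : ↥D) : H)
            exact (eq_inv_of_mul_eq_one_right hy').symm ▸ rfl
          rw [this]
          exact y.2 }
  have hBT : B ≤ T := by
    intro b hb
    refine ⟨hBD.out hb, ?_⟩
    have : (⟨b, hBD.out hb⟩ : ↥D) = algebraMap ↥B ↥D ⟨b, hb⟩ := rfl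
    rw [this]
    exact S.algebraMap_mem _
  have hCT : C ≤ T := by
    intro c hc
    refine ⟨hCD.out hc, ?_⟩
    exact Algebra.subset_adjoin ⟨⟨c, hc⟩, rfl⟩
  have hDT : D ≤ T := by
    rw [hD]
    exact sup_le hBT hCT
  rw [eq_top_iff]
  rintro ⟨d, hd⟩ -
  obtain ⟨_, h⟩ := hDT hd
  exact h

end Generation

section AlgClosed

/-- "`K₁` is algebraically closed in `H`" passes to intermediate fields. -/
theorem mem_range_algebraMap_of_isAlgebraic
    (hH : ∀ x : H, IsAlgebraic K₁ x → x ∈ Set.range (algebraMap K₁ H))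
    (E : IntermediateField K₁ H) (x : ↥E) (hx : IsAlgebraic K₁ x) :
    x ∈ Set.range (algebraMap K₁ ↥E) := by
  have hx' : IsAlgebraic K₁ (x : H) := by
    obtain ⟨P, hP0, hP⟩ := hx
    refine ⟨P, hP0, ?_⟩
    rw [IntermediateField.aeval_coe, hP]
    rfl
  obtain ⟨c, hc⟩ := hH _ hx'
  exact ⟨c, Subtype.ext hc⟩

/-- a non-constant element of `H` is transcendental over `K₁`. -/
theorem transcendental_of_not_mem_range
    (hH : ∀ x : H, IsAlgebraic K₁ x → x ∈ Set.range (algebraMap K₁ H))
    (x : H) (hx : x ∉ Set.range (algebraMap K₁ H)) : Transcendental K₁ x :=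
  fun h => hx (hH x h)

/-- the canonical generator of `K₁⟮t⟯` is transcendental if `t` is. -/
theorem transcendental_gen {t : H} (ht : Transcendental K₁ t) :
    Transcendental K₁ (AdjoinSimple.gen K₁ t) := by
  refine (transcendental_algebraMap_iff (algebraMap ↥K₁⟮t⟯ H).injective).mp ?_
  exact ht

/-- `K₁⟮t⟯` is generated by its canonical generator. -/
theorem adjoin_gen_eq_top (t : H) :
    IntermediateField.adjoin K₁ {AdjoinSimple.gen K₁ t} = ⊤ := by
  rw [eq_top_iff]
  rintro ⟨x, hx⟩ -
  obtain ⟨r, s, hrs⟩ := (IntermediateField.mem_adjoin_simple_iff K₁ x).mp hx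
  have h1 : (⟨x, hx⟩ : ↥K₁⟮t⟯) =
      Polynomial.aeval (AdjoinSimple.gen K₁ t) r / Polynomial.aeval (AdjoinSimple.gen K₁ t) s := by
    apply Subtype.ext
    simp [hrs]
  rw [h1]
  have hmem : ∀ p : Polynomial K₁, Polynomial.aeval (AdjoinSimple.gen K₁ t) p ∈
      IntermediateField.adjoin K₁ {AdjoinSimple.gen K₁ t} := fun p =>
    IntermediateField.algebra_adjoin_le_adjoin K₁ _ (Polynomial.aeval_mem_adjoin_singleton _ _)
  exact div_mem (hmem r) (hmem s)

end AlgClosed

section Rational

open Polynomial

/-- `t` is algebraic over `K₁(j)` for `j = A(t) / B(t)` non-constant. -/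
theorem isAlgebraic_of_eq_div {t j : H} (A B : K₁[X]) (hB : aeval t B ≠ 0)
    (hj : j = aeval t A / aeval t B) (hjc : j ∉ Set.range (algebraMap K₁ H)) :
    IsAlgebraic ↥K₁⟮j⟯ t := by
  set g : ↥K₁⟮j⟯ := AdjoinSimple.gen K₁ j with hg
  set P : (↥K₁⟮j⟯)[X] := A.map (algebraMap K₁ ↥K₁⟮j⟯) - C g * B.map (algebraMap K₁ ↥K₁⟮j⟯) with hP
  refine ⟨P, ?_, ?_⟩
  · intro h0
    have hB0 : B ≠ 0 := by
      rintro rfl
      exact hB (by simp)
    obtain ⟨i, hi⟩ : ∃ i, B.coeff i ≠ 0 := by
      by_contra hcon
      simp only [not_exists, not_not] at hcon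
      exact hB0 (Polynomial.ext (by simpa using hcon))
    have hc := congrArg (fun Q : (↥K₁⟮j⟯)[X] => Q.coeff i) h0
    simp only [hP, coeff_sub, coeff_map, coeff_C_mul, coeff_zero] at hc
    have hc' : algebraMap K₁ H (A.coeff i) - j * algebraMap K₁ H (B.coeff i) = 0 := by
      have := congrArg (fun z : ↥K₁⟮j⟯ => (z : H)) hc
      simpa [hg] using this
    apply hjc
    refine ⟨A.coeff i / B.coeff i, ?_⟩
    have hbi : algebraMap K₁ H (B.coeff i) ≠ 0 := by
      rw [Ne, map_eq_zero]
      exact hi
    rw [map_div₀]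
    field_simp
    linear_combination hc'
  · have h1 : aeval t (A.map (algebraMap K₁ ↥K₁⟮j⟯)) = aeval t A := by
      rw [aeval_map_algebraMap]
    have h2 : aeval t (B.map (algebraMap K₁ ↥K₁⟮j⟯)) = aeval t B := by
      rw [aeval_map_algebraMap]
    rw [hP, map_sub, map_mul, aeval_C, h1, h2]
    show aeval t A - (g : H) * aeval t B = 0
    rw [hg, AdjoinSimple.coe_gen, hj, div_mul_cancel₀ _ hB, sub_self]

end Rational

end Fermat.Agent.JA.Host
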