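/-
J-A package HOST — helper3.  The auxiliary coordinate inside the host `K₁⸨x⸩`, with everything the
tower needs: `t` transcendental over `K₁`, `j(x^w) = J(t) ∈ K₁(t)`, `t` integral over `K₁(j(x^w))`,
`j(x^w)` non-constant — for the Legendre line (`w = 2`, `2 ≠ 0`) and the Hesse line (`w = 3`,
`3 ≠ 0`).
-/
import Mathlib
import Fermat.Agent.JA.HOST_helper3_Kit
import Fermat.Agent.JA.HOST_helper3_Emb
import Fermat.Prelude.Thm_ModularCurve_coeff_jqModC_neg_one

set_option autoImplicit false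
set_option linter.style.haveILetI false

open IntermediateField Polynomial

namespace Fermat.Agent.JA.Host

variable {K₁ : Type*} [Field K₁]

section General

lemma algebraMap_coeff_of_ne (c : K₁) {n : ℤ} (hn : n ≠ 0) :
    (algebraMap K₁ (LaurentSeries K₁) c).coeff n = 0 := by
  rw [LaurentSeries.algebraMap_apply, HahnSeries.C_apply, HahnSeries.coeff_single_of_ne hn]

/-- a Laurent series with a nonzero coefficient in nonzero degree is not a constant. -/
lemma not_mem_range_of_coeff_ne_zero {f : LaurentSeries K₁} {n : ℤ} (hn : n ≠ 0)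
    (hf : f.coeff n ≠ 0) : f ∉ Set.range (algebraMap K₁ (LaurentSeries K₁)) := by
  rintro ⟨c, rfl⟩
  exact hf (algebraMap_coeff_of_ne c hn)

/-- a Laurent series with a nonzero coefficient in nonzero degree is transcendental over `K₁`. -/
theorem transcendental_of_coeff_ne_zero {f : LaurentSeries K₁} {n : ℤ} (hn : n ≠ 0)
    (hf : f.coeff n ≠ 0) : Transcendental K₁ f :=
  transcendental_of_not_mem_range
    (fun x hx => laurentSeries_mem_range_algebraMap_of_isAlgebraic x hx) f
    (not_mem_range_of_coeff_ne_zero hn hf)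

/-- `j(x^w)` has coefficient `1` in degree `-w`. -/
lemma coeff_jqNModC (w : ℕ) [NeZero w] : (ModularCurve.jqNModC K₁ w).coeff (-(w : ℤ)) = 1 := by
  have h := ModularCurve.qExpand_coeff_mul (R := K₁) w (ModularCurve.jqModC K₁) (-1)
  rw [ModularCurve.coeff_jqModC_neg_one, mul_neg_one] at h
  exact h

/-- `j(x^w)` is not constant. -/
theorem jqNModC_not_mem_range (w : ℕ) [NeZero w] :
    ModularCurve.jqNModC K₁ w ∉ Set.range (algebraMap K₁ (LaurentSeries K₁)) := by
  refine not_mem_range_of_coeff_ne_zero (n := -(w : ℤ)) ?_ ?_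
  · rw [neg_ne_zero]
    exact_mod_cast NeZero.ne w
  · rw [coeff_jqNModC]
    exact one_ne_zero

/-- membership of a rational expression in `K₁(t)`. -/
lemma div_mem_adjoin_simple {H : Type*} [Field H] [Algebra K₁ H] (t : H) (A B : K₁[X]) :
    aeval t A / aeval t B ∈ K₁⟮t⟯ := by
  have hmem : ∀ p : K₁[X], aeval t p ∈ K₁⟮t⟯ := fun p =>
    IntermediateField.algebra_adjoin_le_adjoin K₁ _ (Polynomial.aeval_mem_adjoin_singleton _ _)
  exact div_mem (hmem A) (hmem B)

/-- the package of facts about `(j, t)` consumed by the tower: `j = A(t)/B(t)` non-constant. -/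
theorem tower_facts_of_eq_div {t j : LaurentSeries K₁} (A B : K₁[X]) (hB : aeval t B ≠ 0)
    (hj : j * aeval t B = aeval t A)
    (hjc : j ∉ Set.range (algebraMap K₁ (LaurentSeries K₁))) :
    j ∈ K₁⟮t⟯ ∧ IsIntegral ↥K₁⟮j⟯ t ∧ Transcendental K₁ j := by
  have hj' : j = aeval t A / aeval t B := by
    rw [eq_div_iff hB, hj]
  refine ⟨?_, ?_, ?_⟩
  · rw [hj']
    exact div_mem_adjoin_simple t A B
  · exact (isAlgebraic_of_eq_div A B hB hj' hjc).isIntegral
  · exact transcendental_of_not_mem_range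
      (fun x hx => laurentSeries_mem_range_algebraMap_of_isAlgebraic x hx) j hjc

end General

section Legendre

/-- the Legendre numerator `256 (X² − X + 1)³`. -/
noncomputable def legA (K₁ : Type*) [Field K₁] : K₁[X] := 256 * (X ^ 2 - X + 1) ^ 3

/-- the Legendre denominator `X² (X − 1)²`. -/
noncomputable def legB (K₁ : Type*) [Field K₁] : K₁[X] := X ^ 2 * (X - 1) ^ 2

lemma aeval_legA {H : Type*} [Field H] [Algebra K₁ H] (t : H) :
    aeval t (legA K₁) = 256 * (t ^ 2 - t + 1) ^ 3 := by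
  simp only [legA, map_mul, map_pow, map_sub, map_add, map_one, aeval_X, map_ofNat]

lemma aeval_legB {H : Type*} [Field H] [Algebra K₁ H] (t : H) :
    aeval t (legB K₁) = t ^ 2 * (t - 1) ^ 2 := by
  simp only [legB, map_mul, map_pow, map_sub, map_one, aeval_X]

/-- **the Legendre coordinate in the host** (`q = x²`). -/
theorem exists_legendre_host (h2 : (2 : K₁) ≠ 0) :
    ∃ t : LaurentSeries K₁,
      Transcendental K₁ t ∧ aeval t (legB K₁) ≠ 0 ∧
      ModularCurve.jqNModC K₁ 2 * aeval t (legB K₁) = aeval t (legA K₁) ∧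
      ModularCurve.jqNModC K₁ 2 ∈ K₁⟮t⟯ ∧
      IsIntegral ↥K₁⟮ModularCurve.jqNModC K₁ 2⟯ t ∧
      Transcendental K₁ (ModularCurve.jqNModC K₁ 2) := by
  obtain ⟨S, hS0, hS⟩ := exists_legendre_root h2
  set t : LaurentSeries K₁ := HahnSeries.single (1 : ℤ) (1 : K₁) * HahnSeries.ofPowerSeries ℤ K₁ S
    with ht
  have h16 : (16 : K₁) ≠ 0 := by
    have : (16 : K₁) = 2 ^ 4 := by norm_num
    rw [this]
    exact pow_ne_zero 4 h2
  have hc1 : t.coeff 1 = 16 := by
    rw [ht, HahnSeries.coeff_single_mul, one_mul, sub_self,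
      show (0 : ℤ) = ((0 : ℕ) : ℤ) from rfl, HahnSeries.ofPowerSeries_apply_coeff,
      PowerSeries.coeff_zero_eq_constantCoeff_apply, hS0]
  have hc0 : t.coeff 0 = 0 := by
    rw [ht, HahnSeries.coeff_single_mul, one_mul]
    exact ModularCurve.ofPowerSeries_coeff_of_neg _ (by norm_num)
  have ht0 : t ≠ 0 := by
    intro h
    rw [h, HahnSeries.coeff_zero] at hc1
    exact h16 hc1.symm
  have ht1 : t - 1 ≠ 0 := by
    intro h
    have := congrArg (fun f : LaurentSeries K₁ => f.coeff 0) h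
    simp only [HahnSeries.coeff_sub, hc0, HahnSeries.coeff_one, if_true, HahnSeries.coeff_zero,
      zero_sub, neg_eq_zero] at this
    exact one_ne_zero this
  have hB : aeval t (legB K₁) ≠ 0 := by
    rw [aeval_legB]
    exact mul_ne_zero (pow_ne_zero 2 ht0) (pow_ne_zero 2 ht1)
  have hj : ModularCurve.jqNModC K₁ 2 * aeval t (legB K₁) = aeval t (legA K₁) := by
    rw [aeval_legA, aeval_legB]
    exact hS.symm
  obtain ⟨f1, f2, f3⟩ := tower_facts_of_eq_div (legA K₁) (legB K₁) hB hj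
    (jqNModC_not_mem_range 2)
  refine ⟨t, ?_, hB, hj, f1, f2, f3⟩
  exact transcendental_of_coeff_ne_zero (n := 1) one_ne_zero (by rw [hc1]; exact h16)

end Legendre

section Hesse

/-- the Hesse numerator `27 X³ (X³ + 8)³`. -/
noncomputable def hesA (K₁ : Type*) [Field K₁] : K₁[X] := 27 * X ^ 3 * (X ^ 3 + 8) ^ 3

/-- the Hesse denominator `(X³ − 1)³`. -/
noncomputable def hesB (K₁ : Type*) [Field K₁] : K₁[X] := (X ^ 3 - 1) ^ 3

lemma aeval_hesA {H : Type*} [Field H] [Algebra K₁ H] (t : H) :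
    aeval t (hesA K₁) = 27 * t ^ 3 * (t ^ 3 + 8) ^ 3 := by
  simp only [hesA, map_mul, map_pow, map_add, aeval_X, map_ofNat]

lemma aeval_hesB {H : Type*} [Field H] [Algebra K₁ H] (t : H) :
    aeval t (hesB K₁) = (t ^ 3 - 1) ^ 3 := by
  simp only [hesB, map_pow, map_sub, map_one, aeval_X]

/-- **the Hesse coordinate in the host** (`q = x³`). -/
theorem exists_hesse_host (h3 : (3 : K₁) ≠ 0) :
    ∃ t : LaurentSeries K₁,
      Transcendental K₁ t ∧ aeval t (hesB K₁) ≠ 0 ∧
      ModularCurve.jqNModC K₁ 3 * aeval t (hesB K₁) = aeval t (hesA K₁) ∧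
      ModularCurve.jqNModC K₁ 3 ∈ K₁⟮t⟯ ∧
      IsIntegral ↥K₁⟮ModularCurve.jqNModC K₁ 3⟯ t ∧
      Transcendental K₁ (ModularCurve.jqNModC K₁ 3) := by
  obtain ⟨S, hS0, hS⟩ := exists_hesse_root h3
  set s : LaurentSeries K₁ := HahnSeries.single (1 : ℤ) (1 : K₁) * HahnSeries.ofPowerSeries ℤ K₁ S
    with hs
  obtain ⟨hs0, -, hmain⟩ := hS s rfl
  have hc1 : s.coeff 1 = 3 := by
    rw [hs, HahnSeries.coeff_single_mul, one_mul, sub_self,
      show (0 : ℤ) = ((0 : ℕ) : ℤ) from rfl, HahnSeries.ofPowerSeries_apply_coeff,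
      PowerSeries.coeff_zero_eq_constantCoeff_apply, hS0]
  -- `s³` has no constant term
  have hs3 : s ^ 3 = HahnSeries.single (3 : ℤ) (1 : K₁) *
      HahnSeries.ofPowerSeries ℤ K₁ (S ^ 3) := by
    rw [hs, mul_pow, HahnSeries.single_pow, one_pow, map_pow]
    norm_num
  have hs3c : (s ^ 3).coeff 0 = 0 := by
    rw [hs3, HahnSeries.coeff_single_mul, one_mul]
    exact ModularCurve.ofPowerSeries_coeff_of_neg _ (by norm_num)
  have hs31 : s ^ 3 ≠ 1 := by
    intro h
    rw [h, HahnSeries.coeff_one, if_pos rfl] at hs3c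
    exact one_ne_zero hs3c
  set t : LaurentSeries K₁ := s⁻¹ with ht
  have ht3 : t ^ 3 - 1 ≠ 0 := by
    intro h
    apply hs31
    have h1 : t ^ 3 = 1 := sub_eq_zero.mp h
    have h2 : (s ^ 3) * t ^ 3 = 1 := by
      rw [ht, ← mul_pow, mul_inv_cancel₀ hs0, one_pow]
    rw [h1, mul_one] at h2
    exact h2
  have hB : aeval t (hesB K₁) ≠ 0 := by
    rw [aeval_hesB]
    exact pow_ne_zero 3 ht3
  have hj : ModularCurve.jqNModC K₁ 3 * aeval t (hesB K₁) = aeval t (hesA K₁) := by
    rw [aeval_hesA, aeval_hesB]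
    exact hmain.symm
  obtain ⟨f1, f2, f3⟩ := tower_facts_of_eq_div (hesA K₁) (hesB K₁) hB hj
    (jqNModC_not_mem_range 3)
  refine ⟨t, ?_, hB, hj, f1, f2, f3⟩
  -- `t` is not constant since `s = t⁻¹` is not
  refine transcendental_of_not_mem_range
    (fun x hx => laurentSeries_mem_range_algebraMap_of_isAlgebraic x hx) t ?_
  rintro ⟨c, hc⟩
  have hsc : s = algebraMap K₁ (LaurentSeries K₁) c⁻¹ := by
    rw [map_inv₀, hc, ht, inv_inv]
  have := algebraMap_coeff_of_ne (K₁ := K₁) c⁻¹ (n := 1) one_ne_zero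
  rw [← hsc, hc1] at this
  exact h3 this

end Hesse

end Fermat.Agent.JA.Host
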