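/-
J-A package HOST — helper3.  The tower of intermediate fields of a host `H / K₁` used in (KEY):
`K₁(j) ≤ K₁(t)`, `K₁(j) ≤ F ≤ F(u)`, `E = K₁(t) · F(u)`, with the inclusion algebras of the kit,
finiteness, generation, and transport of finiteness along an embedding into the host.
-/
import Mathlib
import Fermat.Agent.JA.HOST_helper3_Kit

set_option autoImplicit false
set_option linter.style.haveILetI false

open IntermediateField

namespace Fermat.Agent.JA.Host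

variable {K₁ H : Type*} [Field K₁] [Field H] [Algebra K₁ H]

section Defs

/-- the field `F(u)`. -/
def Fu (F : IntermediateField K₁ H) (u : H) : IntermediateField K₁ H := F ⊔ K₁⟮u⟯

/-- the field `K₁(t) · F(u)`. -/
def Etu (F : IntermediateField K₁ H) (t u : H) : IntermediateField K₁ H := K₁⟮t⟯ ⊔ Fu F u

variable (F : IntermediateField K₁ H) (t u : H)

lemma mem_Fu_self : u ∈ Fu F u :=
  (le_sup_right : K₁⟮u⟯ ≤ F ⊔ K₁⟮u⟯) (IntermediateField.mem_adjoin_simple_self K₁ u)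

lemma mem_Etu_t : t ∈ Etu F t u :=
  (le_sup_left : K₁⟮t⟯ ≤ K₁⟮t⟯ ⊔ Fu F u) (IntermediateField.mem_adjoin_simple_self K₁ t)

scoped instance fact_le_Fu : Fact (F ≤ Fu F u) := ⟨le_sup_left⟩

scoped instance fact_Kt_le_Etu : Fact (K₁⟮t⟯ ≤ Etu F t u) := ⟨le_sup_left⟩

scoped instance fact_Fu_le_Etu : Fact (Fu F u ≤ Etu F t u) := ⟨le_sup_right⟩

scoped instance fact_F_le_Etu : Fact (F ≤ Etu F t u) :=
  ⟨le_trans (le_sup_left : F ≤ Fu F u) le_sup_right⟩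

/-- anything below `F` is below `F(u)`. -/
scoped instance fact_le_Fu_of_le (A : IntermediateField K₁ H) [h : Fact (A ≤ F)] :
    Fact (A ≤ Fu F u) := ⟨le_trans h.out le_sup_left⟩

/-- anything below `K₁(t)` is below `E`. -/
scoped instance fact_le_Etu_of_le (A : IntermediateField K₁ H) [h : Fact (A ≤ K₁⟮t⟯)] :
    Fact (A ≤ Etu F t u) := ⟨le_trans h.out le_sup_left⟩

lemma adjoin_simple_le_of_mem {A : IntermediateField K₁ H} {j : H} (hj : j ∈ A) :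
    K₁⟮j⟯ ≤ A := by
  rw [IntermediateField.adjoin_simple_le_iff]
  exact hj

end Defs

section Facts

variable (F : IntermediateField K₁ H) (j t u : H)

/-- `u` is integral over `F` if some positive power lies in `F`. -/
theorem isIntegral_of_pow_mem {m : ℕ} (hm : m ≠ 0) (hu : u ^ m ∈ F) : IsIntegral ↥F u := by
  refine ⟨Polynomial.X ^ m - Polynomial.C (⟨u ^ m, hu⟩ : ↥F),
    Polynomial.monic_X_pow_sub_C _ hm, ?_⟩
  rw [Polynomial.eval₂_sub, Polynomial.eval₂_pow, Polynomial.eval₂_X, Polynomial.eval₂_C]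
  exact sub_self _

/-- `F(u) / F` is finite. -/
theorem finite_Fu (hu : IsIntegral ↥F u) : Module.Finite ↥F ↥(Fu F u) :=
  finite_of_eq_sup_simple u rfl hu

/-- `F(u) / K₁(j)` is finite. -/
theorem finite_Kj_Fu [Fact (K₁⟮j⟯ ≤ F)] [Module.Finite ↥K₁⟮j⟯ ↥F] (hu : IsIntegral ↥F u) :
    Module.Finite ↥K₁⟮j⟯ ↥(Fu F u) := by
  haveI := finite_Fu F u hu
  exact Module.Finite.trans ↥F ↥(Fu F u)

/-- `K₁(t) / K₁(j)` is finite. -/
theorem finite_Kj_Kt [hjt : Fact (K₁⟮j⟯ ≤ K₁⟮t⟯)] (ht : IsIntegral ↥K₁⟮j⟯ t) :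
    Module.Finite ↥K₁⟮j⟯ ↥K₁⟮t⟯ :=
  finite_of_eq_sup_simple t (sup_eq_right.mpr hjt.out).symm ht

/-- `E / K₁(t)` is finite. -/
theorem finite_Kt_Etu [Fact (K₁⟮j⟯ ≤ F)] [Module.Finite ↥K₁⟮j⟯ ↥F] [Fact (K₁⟮j⟯ ≤ K₁⟮t⟯)]
    (ht : IsIntegral ↥K₁⟮j⟯ t) (hu : IsIntegral ↥F u) :
    Module.Finite ↥K₁⟮t⟯ ↥(Etu F t u) := by
  haveI := finite_Kj_Kt j t ht
  haveI := finite_Kj_Fu F j u hu
  exact finite_sup_left (A := K₁⟮j⟯) (B := K₁⟮t⟯) (C := Fu F u) (D := Etu F t u) rfl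

/-- `E = K₁(t) · F(u)` is generated over `K₁(t)` by `F(u)`. -/
theorem adjoin_range_Fu_eq_top [Module.Finite ↥K₁⟮t⟯ ↥(Etu F t u)] :
    Algebra.adjoin ↥K₁⟮t⟯ (Set.range (algebraMap ↥(Fu F u) ↥(Etu F t u))) = ⊤ :=
  adjoin_range_eq_top (B := K₁⟮t⟯) (C := Fu F u) (D := Etu F t u) rfl

/-- `F(u)` is generated over `F` by `u`. -/
theorem adjoin_u_eq_top :
    IntermediateField.adjoin ↥F {(⟨u, mem_Fu_self F u⟩ : ↥(Fu F u))} = ⊤ := by
  rw [eq_top_iff]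
  rintro ⟨x, hx⟩ -
  -- the intermediate field of `H / K₁` carried by `F⟮u⟯`
  let T : IntermediateField K₁ H :=
    { carrier := {y | ∃ h : y ∈ Fu F u, (⟨y, h⟩ : ↥(Fu F u)) ∈
        IntermediateField.adjoin ↥F {(⟨u, mem_Fu_self F u⟩ : ↥(Fu F u))}}
      mul_mem' := by
        rintro a b ⟨ha, ha'⟩ ⟨hb, hb'⟩
        exact ⟨(Fu F u).mul_mem ha hb, mul_mem ha' hb'⟩
      add_mem' := by
        rintro a b ⟨ha, ha'⟩ ⟨hb, hb'⟩
        exact ⟨(Fu F u).add_mem ha hb, add_mem ha' hb'⟩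
      algebraMap_mem' := by
        intro c
        refine ⟨(Fu F u).algebraMap_mem c, ?_⟩
        have : (⟨algebraMap K₁ H c, (Fu F u).algebraMap_mem c⟩ : ↥(Fu F u)) =
            algebraMap ↥F ↥(Fu F u) (algebraMap K₁ ↥F c) := rfl
        rw [this]
        exact IntermediateField.algebraMap_mem _ _
      inv_mem' := by
        rintro a ⟨ha, ha'⟩
        refine ⟨(Fu F u).inv_mem ha, ?_⟩
        have : (⟨a⁻¹, (Fu F u).inv_mem ha⟩ : ↥(Fu F u)) = (⟨a, ha⟩ : ↥(Fu F u))⁻¹ := rfl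
        rw [this]
        exact inv_mem ha' }
  have hF : F ≤ T := by
    intro a ha
    refine ⟨(le_sup_left : F ≤ Fu F u) ha, ?_⟩
    have : (⟨a, (le_sup_left : F ≤ Fu F u) ha⟩ : ↥(Fu F u)) =
        algebraMap ↥F ↥(Fu F u) ⟨a, ha⟩ := rfl
    rw [this]
    exact IntermediateField.algebraMap_mem _ _
  have hu : K₁⟮u⟯ ≤ T := by
    rw [IntermediateField.adjoin_simple_le_iff]
    exact ⟨mem_Fu_self F u, IntermediateField.mem_adjoin_simple_self _ _⟩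
  obtain ⟨_, h⟩ := (sup_le hF hu : Fu F u ≤ T) hx
  exact h

end Facts

section Transport

variable {E : Type*} [Field E] [Algebra K₁ E] (ι : E →ₐ[K₁] H) (x : E)

lemma adjoin_simple_le_fieldRange : K₁⟮ι x⟯ ≤ ι.fieldRange := by
  rw [IntermediateField.adjoin_simple_le_iff]
  exact ⟨x, rfl⟩

/-- finiteness of `E / K₁(x)` transported to the image in the host. -/
theorem finite_fieldRange [hle : Fact (K₁⟮ι x⟯ ≤ ι.fieldRange)]
    [Module.Finite ↥K₁⟮x⟯ E] : Module.Finite ↥K₁⟮ι x⟯ ↥ι.fieldRange := by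
  have hmap : ∀ c : ↥K₁⟮x⟯, ι (c : E) ∈ K₁⟮ι x⟯ := by
    intro c
    have h1 : ι (c : E) ∈ (K₁⟮x⟯).map ι := ⟨c, c.2, rfl⟩
    rw [IntermediateField.adjoin_map, Set.image_singleton] at h1
    exact h1
  let f₁ : ↥K₁⟮x⟯ →+* ↥K₁⟮ι x⟯ :=
    { toFun := fun c => ⟨ι (c : E), hmap c⟩
      map_one' := Subtype.ext (by simp)
      map_mul' := fun a b => Subtype.ext (by simp)
      map_zero' := Subtype.ext (by simp)
      map_add' := fun a b => Subtype.ext (by simp) }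
  have hf₁surj : Function.Surjective f₁ := by
    rintro ⟨y, hy⟩
    have h1 : y ∈ (K₁⟮x⟯).map ι := by
      rw [IntermediateField.adjoin_map, Set.image_singleton]
      exact hy
    obtain ⟨c, hc, rfl⟩ := h1
    exact ⟨⟨c, hc⟩, rfl⟩
  let e₁ : ↥K₁⟮x⟯ ≃+* ↥K₁⟮ι x⟯ := RingEquiv.ofBijective f₁ ⟨f₁.injective, hf₁surj⟩
  let f₂ : E →+* ↥ι.fieldRange :=
    { toFun := fun c => ⟨ι c, ⟨c, rfl⟩⟩
      map_one' := Subtype.ext (by simp)
      map_mul' := fun a b => Subtype.ext (by simp)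
      map_zero' := Subtype.ext (by simp)
      map_add' := fun a b => Subtype.ext (by simp) }
  have hf₂surj : Function.Surjective f₂ := by
    rintro ⟨y, c, rfl⟩
    exact ⟨c, rfl⟩
  let e₂ : E ≃+* ↥ι.fieldRange := RingEquiv.ofBijective f₂ ⟨f₂.injective, hf₂surj⟩
  refine Module.Finite.of_equiv_equiv e₁ e₂ ?_
  ext c
  rfl

end Transport

end Fermat.Agent.JA.Host
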