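/-
J-A package HOST — helper3.  Self-test: the concrete tower inside the Laurent series host
instantiates the literal binder lists of `geo_isLocalRing` (lead, D2) and `gm` (helper1) — all
algebra / scalar tower instances are found, no diamonds.
-/
import Mathlib
import Fermat.Agent.JA.HOST_helper3_Tower
import Fermat.Agent.JA.HOST_helper3_Emb

set_option autoImplicit false
set_option linter.style.haveILetI false
set_option linter.unusedVariables false

open IntermediateField

namespace Fermat.Agent.JA.Host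

open scoped Fermat.Agent.JA.Host

/-- the binder list of `geo_isLocalRing` (conclusion replaced by `True`). -/
theorem geoBindersTest {R : Type*} [CommRing R] [IsDomain R] [IsDiscreteValuationRing R]
    [CharZero R] {K₁ : Type*} [Field K₁] [Algebra R K₁] [IsFractionRing R K₁] {K : Type*}
    [Field K] [Algebra K₁ K] [Algebra R K] [IsScalarTower R K₁ K] {E : Type*} [Field E]
    [Algebra K E] [FiniteDimensional K E] [Algebra K₁ E] [IsScalarTower K₁ K E] (π : R)
    (t : K) (ht : Transcendental K₁ t) (hK : IntermediateField.adjoin K₁ {t} = ⊤)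
    (hM4 : ∀ x : E, IsAlgebraic K₁ x → x ∈ Set.range (algebraMap K₁ E)) : True := trivial

/-- the binder list of `gm` (conclusion replaced by `True`). -/
theorem gmBindersTest {R : Type*} [CommRing R] [IsDomain R] [IsDiscreteValuationRing R]
    [CharZero R] {K₁ : Type*} [Field K₁] [Algebra R K₁] [IsFractionRing R K₁]
    {K₀ : Type*} [Field K₀] [Algebra K₁ K₀] [Algebra R K₀] [IsScalarTower R K₁ K₀]
    {K : Type*} [Field K] [Algebra K₁ K] [Algebra R K] [IsScalarTower R K₁ K] [Algebra K₀ K]
    [IsScalarTower K₁ K₀ K]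
    {F' : Type*} [Field F'] [Algebra K₀ F'] [FiniteDimensional K₀ F'] {E : Type*} [Field E]
    [Algebra K E] [FiniteDimensional K E] [Algebra K₁ E] [IsScalarTower K₁ K E] [Algebra K₀ E]
    [IsScalarTower K₀ K E] [Algebra F' E] [IsScalarTower K₀ F' E]
    (π : R) (j : K₀) (t : K)
    (hgen : Algebra.adjoin K (Set.range (algebraMap F' E)) = ⊤) : True := trivial

section

variable {R : Type*} [CommRing R] [IsDomain R] [IsDiscreteValuationRing R] [CharZero R]
  {K₁ : Type*} [Field K₁] [Algebra R K₁] [IsFractionRing R K₁]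
  (F : IntermediateField K₁ (LaurentSeries K₁)) (j t u : LaurentSeries K₁)
  [Fact (K₁⟮j⟯ ≤ F)] [Module.Finite ↥K₁⟮j⟯ ↥F] [Fact (K₁⟮j⟯ ≤ K₁⟮t⟯)]

example (π : R) (ht' : Transcendental K₁ t) (ht : IsIntegral ↥K₁⟮j⟯ t) (hu : IsIntegral ↥F u) :
    True := by
  haveI := finite_Kt_Etu F j t u ht hu
  exact geoBindersTest (R := R) (K₁ := K₁) (K := ↥K₁⟮t⟯) (E := ↥(Etu F t u)) π
    (AdjoinSimple.gen K₁ t) (transcendental_gen ht') (adjoin_gen_eq_top t)
    (mem_range_algebraMap_of_isAlgebraic
      (fun x hx => laurentSeries_mem_range_algebraMap_of_isAlgebraic x hx) _)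

example (π : R) (ht : IsIntegral ↥K₁⟮j⟯ t) (hu : IsIntegral ↥F u) : True := by
  haveI := finite_Kt_Etu F j t u ht hu
  haveI := finite_Kj_Fu F j u hu
  exact gmBindersTest (R := R) (K₁ := K₁) (K₀ := ↥K₁⟮j⟯) (K := ↥K₁⟮t⟯) (F' := ↥(Fu F u))
    (E := ↥(Etu F t u)) π (AdjoinSimple.gen K₁ j) (AdjoinSimple.gen K₁ t)
    (adjoin_range_Fu_eq_top F t u)

end

end Fermat.Agent.JA.Host
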