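/-
J-A package HOST — helper3.  One-stop import: the kit for towers of intermediate fields of a host,
the embedding `q ↦ x^w`, the concrete tower `K₁(j) ≤ K₁(t) ≤ E = K₁(t)·F(u)`, `F ≤ F(u) ≤ E`, and the
Legendre / Hesse coordinates inside the Laurent series host.
-/
import Fermat.Agent.JA.HOST_helper3_Kit
import Fermat.Agent.JA.HOST_helper3_Emb
import Fermat.Agent.JA.HOST_helper3_Tower
import Fermat.Agent.JA.HOST_helper3_Line
import Fermat.Agent.JA.HOST_helper3_Test
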