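/-
J-A — helper8 — (GEOBASE) part 2: the hypothesis list of lead's GEO theorems as one structure
`GeoHyps`, its consequences (`geo_isLocalRing`, `geo_chart_isDedekindDomain`, passage to the
coordinate `t⁻¹`), and its construction in helper3's host tower from `LineHyp` + `JLineHyp`.
-/
import Mathlib
import Fermat.Agent.JA.HOST_helper3_Main
import Fermat.Agent.JA.GM_helper1_Main
import Fermat.Agent.JA.GEO_lead_DedMain

set_option autoImplicit false
set_option linter.unusedSectionVars false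
set_option linter.style.haveILetI false
set_option synthInstance.maxHeartbeats 200000

open IntermediateField

namespace Fermat.Agent.JA

section Abstract

variable {R : Type*} [CommRing R] [IsDomain R] [IsDiscreteValuationRing R] [CharZero R]
  {K₁ : Type*} [Field K₁] [Algebra R K₁] [IsFractionRing R K₁]
  {K : Type*} [Field K] [Algebra K₁ K] [Algebra R K] [IsScalarTower R K₁ K]

/-- **the complete hypothesis list of lead's GEO theorems** (`geo_isLocalRing`,
`geo_chart_isDedekindDomain`, `geo_chart_residue`) for the coordinate `t` of `K = K₁(t)`, the finite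
extension `E / K`, the tameness bound `n` and the branch set `S`. -/
structure GeoHyps (K₁ : Type*) [Field K₁] [Algebra R K₁] [IsFractionRing R K₁]
    {K : Type*} [Field K] [Algebra K₁ K] [Algebra R K] [IsScalarTower R K₁ K] (π : R) (t : K) (E : Type*) [Field E] [Algebra K E] [Algebra K₁ E]
    [IsScalarTower K₁ K E] (n : ℕ) (S : Finset R) : Prop where
  finite : FiniteDimensional K E
  irreducible : Irreducible π
  transcendental : Transcendental K₁ t
  adjoin_eq_top : IntermediateField.adjoin K₁ {t} = ⊤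
  isUnit_n : IsUnit (n : R)
  exists_root : ∃ ζ : R, IsPrimitiveRoot ζ n
  unit_sub : ∀ a ∈ S, ∀ b ∈ S, a ≠ b → IsUnit (a - b)
  zero_or_unit : ∀ a ∈ S, a = 0 ∨ IsUnit a
  unr : ∀ 𝒱 : ValuationSubring K, 𝒱 ≠ ⊤ → (∀ a : K₁, algebraMap K₁ K a ∈ 𝒱) → t ∈ 𝒱 →
    (∀ a ∈ S, (t - algebraMap R K a)⁻¹ ∈ 𝒱) → Unr 𝒱 E
  tame : ∀ 𝒱 : ValuationSubring K, 𝒱 ≠ ⊤ → (∀ a : K₁, algebraMap K₁ K a ∈ 𝒱) → TameAt 𝒱 E n
  gauss : ∀ 𝒱 : ValuationSubring K, IsGaussAt R π t 𝒱 → Unr 𝒱 E
  const : ∀ x : E, IsAlgebraic K₁ x → x ∈ Set.range (algebraMap K₁ E)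

variable {E : Type*} [Field E] [Algebra K E] [Algebra K₁ E] [IsScalarTower K₁ K E]
  {π : R} {t : K} {n : ℕ} {S : Finset R}

/-- uniqueness of the extension of the Gauss valuation (lead's `geo_isLocalRing`). -/
theorem GeoHyps.isLocalRing (h : GeoHyps K₁ π t E n S) (𝒱 : ValuationSubring K)
    (h𝒱 : IsGaussAt R π t 𝒱) : IsLocalRing ↥(integralClosure ↥𝒱 E) := by
  haveI := h.finite
  exact geo_isLocalRing π h.irreducible t h.transcendental h.adjoin_eq_top n h.isUnit_n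
    h.exists_root S h.unit_sub h.zero_or_unit h.unr h.tame h.gauss h.const 𝒱 h𝒱

/-- the reduction of the chart `integralClosure R[t] E` is a Dedekind domain (lead's
`geo_chart_isDedekindDomain`). -/
theorem GeoHyps.isDedekindDomain (h : GeoHyps K₁ π t E n S) :
    IsDedekindDomain
      (Bbar ↥(Algebra.adjoin R {t}) ↥(integralClosure ↥(Algebra.adjoin R {t}) E)
        (algebraMap R ↥(Algebra.adjoin R {t}) π)) := by
  haveI := h.finite
  exact geo_chart_isDedekindDomain π h.irreducible t h.transcendental h.adjoin_eq_top n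
    h.isUnit_n h.exists_root S h.unit_sub h.zero_or_unit h.unr h.tame h.gauss h.const

theorem GeoHyps.ne_zero (h : GeoHyps K₁ π t E n S) : t ≠ 0 := by
  rintro rfl
  exact h.transcendental isAlgebraic_zero

/-- **the second chart**: the hypotheses for `t` give those for `t⁻¹`. -/
theorem GeoHyps.inv (h : GeoHyps K₁ π t E n S) : ∃ S' : Finset R, GeoHyps K₁ π t⁻¹ E n S' := by
  haveI := h.finite
  obtain ⟨S', hS', hS'0, hM1', hM3'⟩ := geo_hyps_inv (E := E) π h.irreducible t h.ne_zero S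
    h.unit_sub h.zero_or_unit h.unr h.gauss
  refine ⟨S', h.finite, h.irreducible, ?_, ?_, h.isUnit_n, h.exists_root, hS', hS'0, hM1', h.tame,
    hM3', h.const⟩
  · intro hh
    apply h.transcendental
    have := hh.inv
    rwa [inv_inv] at this
  · rw [eq_top_iff, ← h.adjoin_eq_top, IntermediateField.adjoin_simple_le_iff]
    have : t⁻¹ ∈ IntermediateField.adjoin K₁ {t⁻¹} :=
      IntermediateField.mem_adjoin_simple_self K₁ _
    have := (IntermediateField.adjoin K₁ {t⁻¹}).inv_mem this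
    rwa [inv_inv] at this

end Abstract

section HostTower

open scoped Fermat.Agent.JA.Host

open Host

variable {R : Type*} [CommRing R] [IsDomain R] [IsDiscreteValuationRing R] [CharZero R]
  {K₁ : Type*} [Field K₁] [Algebra R K₁] [IsFractionRing R K₁]
  {H : Type*} [Field H] [Algebra K₁ H] [Algebra R H] [IsScalarTower R K₁ H]
  (F : IntermediateField K₁ H) (j t u : H)
  [Fact (K₁⟮j⟯ ≤ F)] [Fact (K₁⟮j⟯ ≤ K₁⟮t⟯)] [Module.Finite ↥K₁⟮j⟯ ↥F]

set_option maxHeartbeats 1600000 in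
/-- **`GeoHyps` in the host tower** `K = K₁(t)`, `E = K₁(t) · F(u)`, from the line hypotheses for
`j = J(t)` and the `j`-line hypotheses for `F(u)`. -/
theorem Host.geoHyps_Etu
    (hH : ∀ x : H, IsAlgebraic K₁ x → x ∈ Set.range (algebraMap K₁ H))
    (htr : Transcendental K₁ t) (ht : IsIntegral ↥K₁⟮j⟯ t) (hu : IsIntegral ↥F u)
    (π : R) (hπ : Irreducible π) (n : ℕ) (hn0 : 0 < n) (hn : IsUnit (n : R))
    (hζ : ∃ ζ : R, IsPrimitiveRoot ζ n)
    (S : Finset R) (hS : ∀ a ∈ S, ∀ b ∈ S, a ≠ b → IsUnit (a - b))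
    (hS0 : ∀ a ∈ S, a = 0 ∨ IsUnit a)
    (hL : LineHyp (K₁ := K₁) (K₀ := ↥K₁⟮j⟯) (K := ↥K₁⟮t⟯) π (AdjoinSimple.gen K₁ j)
      (AdjoinSimple.gen K₁ t) S)
    (hJ : JLineHyp (K₁ := K₁) π (AdjoinSimple.gen K₁ j) ↥(Fu F u) n) :
    GeoHyps K₁ (K := ↥K₁⟮t⟯) π (AdjoinSimple.gen K₁ t) ↥(Etu F t u) n S := by
  haveI : Module.Finite ↥K₁⟮t⟯ ↥(Etu F t u) := finite_Kt_Etu F j t u ht hu
  haveI : Module.Finite ↥K₁⟮j⟯ ↥(Fu F u) := finite_Kj_Fu F j u hu
  have hgen : Algebra.adjoin ↥K₁⟮t⟯ (Set.range (algebraMap ↥(Fu F u) ↥(Etu F t u))) = ⊤ :=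
    adjoin_range_Fu_eq_top F t u
  obtain ⟨hM1, hM2, hM3⟩ := gm (K₁ := K₁) (K₀ := ↥K₁⟮j⟯) (K := ↥K₁⟮t⟯) (F' := ↥(Fu F u))
    (E := ↥(Etu F t u)) π (AdjoinSimple.gen K₁ j) (AdjoinSimple.gen K₁ t) S n hn0 hgen hL hJ
  exact ⟨inferInstance, hπ, transcendental_gen htr, adjoin_gen_eq_top t, hn, hζ, hS, hS0, hM1, hM2,
    hM3, fun x hx => mem_range_algebraMap_of_isAlgebraic hH _ x hx⟩

end HostTower

end Fermat.Agent.JA
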