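/-
J-A package ES / C3 (helper4), part 4: Frobenius on Laurent series.

In characteristic `ℓ`:  `x ^ ℓ = (x^φ)(q^ℓ)`, i.e. `x ^ ℓ = qExpand ℓ (coeffMap frobenius x)`,
for every Laurent series `x`.
-/
import Mathlib
import Fermat.Prelude.Def_ModularCurve_X0ModL

set_option autoImplicit false
set_option linter.unusedSectionVars false

open HahnSeries

namespace Fermat.Agent.JA

open ModularCurve

section Frob

variable {R : Type*} [CommRing R] (ℓ : ℕ) [NeZero ℓ] [ExpChar R ℓ]

/-- coefficients of the `ℓ`-th power of a power series in characteristic `ℓ`. -/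
theorem powerSeries_coeff_pow_char (p : PowerSeries R) (n : ℕ) :
    PowerSeries.coeff n (p ^ ℓ) = if ℓ ∣ n then (PowerSeries.coeff (n / ℓ) p) ^ ℓ else 0 := by
  have h := MvPowerSeries.map_frobenius_expand (σ := Unit) ℓ (NeZero.ne ℓ) (f := p)
  have h2 : p ^ ℓ = PowerSeries.map (frobenius R ℓ) (PowerSeries.expand ℓ (NeZero.ne ℓ) p) :=
    h.symm
  rw [h2, PowerSeries.coeff_map, PowerSeries.coeff_expand]
  split_ifs
  · rfl
  · exact map_zero _

/-- the `ℓ`-th power of a power series, as a Laurent series, in characteristic `ℓ`. -/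
theorem ofPowerSeries_pow_char (p : PowerSeries R) :
    HahnSeries.ofPowerSeries ℤ R (p ^ ℓ)
      = qExpand R ℓ (coeffMap (frobenius R ℓ) (HahnSeries.ofPowerSeries ℤ R p)) := by
  ext k
  rw [coeffMap_ofPowerSeries]
  by_cases hk : (ℓ : ℤ) ∣ k
  · obtain ⟨m, rfl⟩ := hk
    rw [qExpand_coeff_mul]
    rcases le_or_gt 0 m with hm | hm
    · lift m to ℕ using hm
      have e : (ℓ : ℤ) * (m : ℤ) = ((ℓ * m : ℕ) : ℤ) := by push_cast; ring
      rw [e, HahnSeries.ofPowerSeries_apply_coeff, HahnSeries.ofPowerSeries_apply_coeff,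
        powerSeries_coeff_pow_char, if_pos (dvd_mul_right ℓ m),
        Nat.mul_div_cancel_left _ (Nat.pos_of_ne_zero (NeZero.ne ℓ)), PowerSeries.coeff_map]
      rfl
    · have hneg : (ℓ : ℤ) * m < 0 :=
        mul_neg_of_pos_of_neg (by exact_mod_cast Nat.pos_of_ne_zero (NeZero.ne ℓ)) hm
      rw [ofPowerSeries_coeff_of_neg _ hneg, ofPowerSeries_coeff_of_neg _ hm]
  · rw [qExpand_coeff_of_not_dvd ℓ _ hk]
    rcases le_or_gt 0 k with hk0 | hk0
    · lift k to ℕ using hk0
      rw [HahnSeries.ofPowerSeries_apply_coeff, powerSeries_coeff_pow_char, if_neg]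
      intro hd
      exact hk (by exact_mod_cast hd)
    · exact ofPowerSeries_coeff_of_neg _ hk0

/-- **Frobenius on Laurent series**: `x ^ ℓ = (x^φ)(q^ℓ)` in characteristic `ℓ`. -/
theorem laurent_pow_char (x : LaurentSeries R) :
    x ^ ℓ = qExpand R ℓ (coeffMap (frobenius R ℓ) x) := by
  conv_lhs => rw [← LaurentSeries.single_order_mul_powerSeriesPart x]
  conv_rhs => rw [← LaurentSeries.single_order_mul_powerSeriesPart x]
  have h1 : (HahnSeries.ofPowerSeries ℤ R x.powerSeriesPart) ^ ℓ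
      = HahnSeries.ofPowerSeries ℤ R (x.powerSeriesPart ^ ℓ) := (map_pow _ _ _).symm
  have h2 : (HahnSeries.single x.order (1 : R)) ^ ℓ = HahnSeries.single ((ℓ : ℤ) * x.order) 1 := by
    rw [HahnSeries.single_pow, one_pow, nsmul_eq_mul]
  rw [mul_pow, map_mul, map_mul, h1, h2, ofPowerSeries_pow_char, coeffMap_single, qExpand_single,
    map_one (frobenius R ℓ)]

end Frob

end Fermat.Agent.JA
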