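/-
J-A — helper8 — (GEOBASE) part 1: the canonical host coordinates.  The Legendre coordinate
(`q = x²`) and the Hesse coordinate (`q = x³`) are chosen ONCE over `ℚ` and transported to every
field `K` of characteristic zero by `coeffMap (algebraMap ℚ K)`, so that they are compatible with
all coefficient extensions.
-/
import Mathlib
import Fermat.Agent.JA.HOST_helper3_Line
import Fermat.Agent.Igusa.A_helper2_Integral

set_option autoImplicit false
set_option linter.unusedSectionVars false
set_option linter.style.haveILetI false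

open HahnSeries IntermediateField Polynomial ModularCurve

namespace Fermat.Agent.JA

section Transfer

variable {K L : Type*} [Field K] [Field L]

/-- coefficientwise maps along field homomorphisms are injective. -/
theorem coeffMap_injective_of_field (φ : K →+* L) :
    Function.Injective (coeffMap φ : LaurentSeries K → LaurentSeries L) := by
  intro x y h
  ext n
  have := congrArg (fun z : LaurentSeries L => z.coeff n) h
  simp only [coeffMap_coeff] at this
  exact φ.injective this

/-- a non-constant Laurent series has a non-zero coefficient in non-zero degree. -/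
theorem exists_coeff_ne_zero_of_not_mem_range {f : LaurentSeries K}
    (hf : f ∉ Set.range (algebraMap K (LaurentSeries K))) : ∃ n : ℤ, n ≠ 0 ∧ f.coeff n ≠ 0 := by
  by_contra h
  push Not at h
  apply hf
  refine ⟨f.coeff 0, ?_⟩
  ext n
  rw [LaurentSeries.algebraMap_apply, HahnSeries.C_apply]
  by_cases hn : n = 0
  · subst hn
    rw [HahnSeries.coeff_single_same]
  · rw [HahnSeries.coeff_single_of_ne hn, h n hn]

/-- transcendence over the coefficient field is preserved by coefficient extension. -/
theorem transcendental_coeffMap (φ : K →+* L) {f : LaurentSeries K} (hf : Transcendental K f) :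
    Transcendental L (coeffMap φ f) := by
  have hnc : f ∉ Set.range (algebraMap K (LaurentSeries K)) := by
    rintro ⟨c, rfl⟩
    exact hf (isAlgebraic_algebraMap c)
  obtain ⟨n, hn, hfn⟩ := exists_coeff_ne_zero_of_not_mem_range hnc
  refine Host.transcendental_of_coeff_ne_zero hn ?_
  rw [coeffMap_coeff]
  exact (map_ne_zero φ).mpr hfn

end Transfer

section Legendre

/-- **the Legendre coordinate over `ℚ`** (in `ℚ⸨x⸩`, `q = x²`). -/
noncomputable def legT₀ : LaurentSeries ℚ :=
  Classical.choose (Host.exists_legendre_host (K₁ := ℚ) two_ne_zero)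

theorem legT₀_spec : Transcendental ℚ legT₀ ∧ aeval legT₀ (Host.legB ℚ) ≠ 0 ∧
    jqNModC ℚ 2 * aeval legT₀ (Host.legB ℚ) = aeval legT₀ (Host.legA ℚ) := by
  obtain ⟨h1, h2, h3, -⟩ := Classical.choose_spec (Host.exists_legendre_host (K₁ := ℚ) two_ne_zero)
  exact ⟨h1, h2, h3⟩

variable (K : Type*) [Field K] [Algebra ℚ K]

/-- **the Legendre coordinate over `K`**. -/
noncomputable def legT : LaurentSeries K := coeffMap (algebraMap ℚ K) legT₀

variable {K} in
/-- compatibility with coefficient extensions. -/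
theorem coeffMap_legT {L : Type*} [Field L] [Algebra ℚ L] (φ : K →+* L) :
    coeffMap φ (legT K) = legT L := by
  rw [legT, coeffMap_coeffMap, legT]
  exact coeffMap_congr (Subsingleton.elim _ _) _

theorem map_legA : (Host.legA ℚ).map (algebraMap ℚ K) = Host.legA K := by
  simp [Host.legA, Polynomial.map_mul, Polynomial.map_pow, Polynomial.map_sub,
    Polynomial.map_add]

theorem map_legB : (Host.legB ℚ).map (algebraMap ℚ K) = Host.legB K := by
  simp [Host.legB, Polynomial.map_mul, Polynomial.map_pow, Polynomial.map_sub]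

theorem transcendental_legT : Transcendental K (legT K) :=
  transcendental_coeffMap _ legT₀_spec.1

theorem aeval_legT_legB_ne_zero : aeval (legT K) (Host.legB K) ≠ 0 := by
  rw [← map_legB, legT, ← Fermat.Agent.Igusa.coeffMap_aeval]
  exact (map_ne_zero_iff _ (coeffMap_injective_of_field _)).mpr legT₀_spec.2.1

/-- the Legendre relation `j(x²) · B(t) = A(t)` over `K`. -/
theorem jqNModC_mul_aeval_legT :
    jqNModC K 2 * aeval (legT K) (Host.legB K) = aeval (legT K) (Host.legA K) := by
  have h := congrArg (coeffMap (algebraMap ℚ K)) legT₀_spec.2.2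
  rw [map_mul, coeffMap_jqNModC, Fermat.Agent.Igusa.coeffMap_aeval,
    Fermat.Agent.Igusa.coeffMap_aeval, map_legA, map_legB] at h
  exact h

theorem jqNModC_mem_adjoin_legT : jqNModC K 2 ∈ K⟮legT K⟯ :=
  (Host.tower_facts_of_eq_div (Host.legA K) (Host.legB K) (aeval_legT_legB_ne_zero K)
    (jqNModC_mul_aeval_legT K) (Host.jqNModC_not_mem_range 2)).1

theorem isIntegral_legT : IsIntegral ↥K⟮jqNModC K 2⟯ (legT K) :=
  (Host.tower_facts_of_eq_div (Host.legA K) (Host.legB K) (aeval_legT_legB_ne_zero K)
    (jqNModC_mul_aeval_legT K) (Host.jqNModC_not_mem_range 2)).2.1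

theorem adjoin_jqNModC_le_adjoin_legT : K⟮jqNModC K 2⟯ ≤ K⟮legT K⟯ := by
  rw [adjoin_simple_le_iff]
  exact jqNModC_mem_adjoin_legT K

end Legendre

section Hesse

/-- **the Hesse coordinate over `ℚ`** (in `ℚ⸨x⸩`, `q = x³`). -/
noncomputable def hesT₀ : LaurentSeries ℚ :=
  Classical.choose (Host.exists_hesse_host (K₁ := ℚ) three_ne_zero)

theorem hesT₀_spec : Transcendental ℚ hesT₀ ∧ aeval hesT₀ (Host.hesB ℚ) ≠ 0 ∧
    jqNModC ℚ 3 * aeval hesT₀ (Host.hesB ℚ) = aeval hesT₀ (Host.hesA ℚ) := by
  obtain ⟨h1, h2, h3, -⟩ := Classical.choose_spec (Host.exists_hesse_host (K₁ := ℚ) three_ne_zero)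
  exact ⟨h1, h2, h3⟩

variable (K : Type*) [Field K] [Algebra ℚ K]

/-- **the Hesse coordinate over `K`**. -/
noncomputable def hesT : LaurentSeries K := coeffMap (algebraMap ℚ K) hesT₀

variable {K} in
/-- compatibility with coefficient extensions. -/
theorem coeffMap_hesT {L : Type*} [Field L] [Algebra ℚ L] (φ : K →+* L) :
    coeffMap φ (hesT K) = hesT L := by
  rw [hesT, coeffMap_coeffMap, hesT]
  exact coeffMap_congr (Subsingleton.elim _ _) _

theorem map_hesA : (Host.hesA ℚ).map (algebraMap ℚ K) = Host.hesA K := by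
  simp [Host.hesA, Polynomial.map_mul, Polynomial.map_pow, Polynomial.map_add]

theorem map_hesB : (Host.hesB ℚ).map (algebraMap ℚ K) = Host.hesB K := by
  simp [Host.hesB, Polynomial.map_pow, Polynomial.map_sub]

theorem transcendental_hesT : Transcendental K (hesT K) :=
  transcendental_coeffMap _ hesT₀_spec.1

theorem aeval_hesT_hesB_ne_zero : aeval (hesT K) (Host.hesB K) ≠ 0 := by
  rw [← map_hesB, hesT, ← Fermat.Agent.Igusa.coeffMap_aeval]
  exact (map_ne_zero_iff _ (coeffMap_injective_of_field _)).mpr hesT₀_spec.2.1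

/-- the Hesse relation `j(x³) · B(t) = A(t)` over `K`. -/
theorem jqNModC_mul_aeval_hesT :
    jqNModC K 3 * aeval (hesT K) (Host.hesB K) = aeval (hesT K) (Host.hesA K) := by
  have h := congrArg (coeffMap (algebraMap ℚ K)) hesT₀_spec.2.2
  rw [map_mul, coeffMap_jqNModC, Fermat.Agent.Igusa.coeffMap_aeval,
    Fermat.Agent.Igusa.coeffMap_aeval, map_hesA, map_hesB] at h
  exact h

theorem jqNModC_mem_adjoin_hesT : jqNModC K 3 ∈ K⟮hesT K⟯ :=
  (Host.tower_facts_of_eq_div (Host.hesA K) (Host.hesB K) (aeval_hesT_hesB_ne_zero K)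
    (jqNModC_mul_aeval_hesT K) (Host.jqNModC_not_mem_range 3)).1

theorem isIntegral_hesT : IsIntegral ↥K⟮jqNModC K 3⟯ (hesT K) :=
  (Host.tower_facts_of_eq_div (Host.hesA K) (Host.hesB K) (aeval_hesT_hesB_ne_zero K)
    (jqNModC_mul_aeval_hesT K) (Host.jqNModC_not_mem_range 3)).2.1

theorem adjoin_jqNModC_le_adjoin_hesT : K⟮jqNModC K 3⟯ ≤ K⟮hesT K⟯ := by
  rw [adjoin_simple_le_iff]
  exact jqNModC_mem_adjoin_hesT K

end Hesse

end Fermat.Agent.JA
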