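/-
J-A (good reduction of X₀(N) by hand), package BASE, helper1. Part 1: valuations on `Ω = ℚ̄` over a
rational prime `ℓ`: integers, rank one, and the criterion "cyclic value group ⇒ DVR" for the
valuation ring `A ∩ K` of an intermediate field.
-/
import Fermat.Agent.TW.Kill_helper1_Cyc

set_option autoImplicit false
set_option linter.unusedSectionVars false
set_option linter.style.haveILetI false

namespace Fermat.Agent.JA

open Fermat.Agent.TW.Kill

/-- `Ω = AlgebraicClosure ℚ`. -/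
local notation "Ω" => AlgebraicClosure ℚ

variable {ℓ : ℕ} [hℓ : Fact ℓ.Prime] {A : ValuationSubring Ω}

section Integers

theorem valuation_prime_lt_one (hA : A.LiesOverPrime ℓ) : A.valuation (ℓ : Ω) < 1 :=
  A.mem_nonunits_iff.1 hA

theorem valuation_prime_ne_zero : A.valuation (ℓ : Ω) ≠ 0 := by
  rw [Ne, map_eq_zero]
  exact_mod_cast hℓ.out.ne_zero

/-- the valuation of a natural number. -/
theorem valuation_natCast (hA : A.LiesOverPrime ℓ) {d : ℕ} (hd : d ≠ 0) :
    ∃ M : ℕ, A.valuation (d : Ω) = A.valuation (ℓ : Ω) ^ M := by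
  obtain ⟨M, d', hd', rfl⟩ := Nat.exists_eq_pow_mul_and_not_dvd hd ℓ hℓ.out.ne_one
  refine ⟨M, ?_⟩
  rw [Nat.cast_mul, Nat.cast_pow, map_mul, map_pow,
    valuation_natCast_eq_one hℓ.out hd' hA, mul_one]

/-- the valuation of an integer. -/
theorem valuation_intCast (hA : A.LiesOverPrime ℓ) {d : ℤ} (hd : d ≠ 0) :
    ∃ M : ℕ, A.valuation (d : Ω) = A.valuation (ℓ : Ω) ^ M := by
  obtain ⟨M, hM⟩ := valuation_natCast hA (d := d.natAbs) (Int.natAbs_ne_zero.mpr hd)
  refine ⟨M, ?_⟩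
  rw [← hM]
  rcases Int.natAbs_eq d with h | h
  · conv_lhs => rw [h]
    simp
  · conv_lhs => rw [h]
    simp

/-- **rank one**: every non-zero element of `Ω` has valuation at least a power of `v(ℓ)`. -/
theorem exists_pow_le_valuation (hA : A.LiesOverPrime ℓ) {y : Ω} (hy : y ≠ 0) :
    ∃ M : ℕ, A.valuation (ℓ : Ω) ^ M ≤ A.valuation y := by
  have halg : IsAlgebraic ℤ y⁻¹ :=
    (IsFractionRing.isAlgebraic_iff ℤ ℚ Ω).mpr (Algebra.IsAlgebraic.isAlgebraic y⁻¹)
  obtain ⟨d, hd0, hd⟩ := halg.exists_integral_multiple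
  have hmem : d • y⁻¹ ∈ A := mem_of_isIntegral_int A hd
  rw [zsmul_eq_mul, ← A.valuation_le_one_iff, map_mul, map_inv₀] at hmem
  obtain ⟨M, hM⟩ := valuation_intCast hA hd0
  refine ⟨M, ?_⟩
  rw [← hM]
  have hvy : A.valuation y ≠ 0 := by rwa [Ne, map_eq_zero]
  calc A.valuation (d : Ω) = A.valuation (d : Ω) * (A.valuation y)⁻¹ * A.valuation y := by
        rw [mul_assoc, inv_mul_cancel₀ hvy, mul_one]
    _ ≤ 1 * A.valuation y := mul_le_mul_left hmem _
    _ = A.valuation y := one_mul _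

end Integers

section Comap

variable (A) (K : IntermediateField ℚ Ω)

/-- `R = A ∩ K`, the valuation ring induced on an intermediate field. -/
noncomputable def baseRing : ValuationSubring ↥K := A.comap (algebraMap ↥K Ω)

variable {A K}

theorem mem_baseRing_iff {x : ↥K} : x ∈ baseRing A K ↔ A.valuation (x : Ω) ≤ 1 := by
  rw [baseRing, ValuationSubring.mem_comap, ← A.valuation_le_one_iff]
  rfl

theorem valuation_coe_le_one (x : ↥(baseRing A K)) : A.valuation (((x : ↥K) : Ω)) ≤ 1 :=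
  mem_baseRing_iff.mp x.2

/-- the units of `A ∩ K` are the elements of valuation `1`. -/
theorem isUnit_baseRing_iff (x : ↥(baseRing A K)) :
    IsUnit x ↔ A.valuation (((x : ↥K) : Ω)) = 1 := by
  constructor
  · rintro ⟨u, rfl⟩
    have h1 : A.valuation ((((u : ↥(baseRing A K)) : ↥K) : Ω)) *
        A.valuation (((((u⁻¹ : (↥(baseRing A K))ˣ) : ↥(baseRing A K)) : ↥K) : Ω)) = 1 := by
      rw [← map_mul]
      have h2 : ((u : ↥(baseRing A K)) : ↥K) * (((u⁻¹ : (↥(baseRing A K))ˣ) : ↥(baseRing A K)) : ↥K)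
          = 1 := by
        have := congrArg (fun z : ↥(baseRing A K) => (z : ↥K)) u.mul_inv
        exact this
      have h3 : ((((u : ↥(baseRing A K)) : ↥K) : Ω)) *
          (((((u⁻¹ : (↥(baseRing A K))ˣ) : ↥(baseRing A K)) : ↥K) : Ω)) = 1 := by
        have := congrArg (fun z : ↥K => (z : Ω)) h2
        exact this
      rw [h3, map_one]
    refine le_antisymm (valuation_coe_le_one _) ?_
    by_contra hlt
    rw [not_le] at hlt
    have h4 := valuation_coe_le_one (A := A) (K := K) ((u⁻¹ : (↥(baseRing A K))ˣ) : ↥(baseRing A K))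
    have h5 : A.valuation ((((u : ↥(baseRing A K)) : ↥K) : Ω)) *
        A.valuation (((((u⁻¹ : (↥(baseRing A K))ˣ) : ↥(baseRing A K)) : ↥K) : Ω)) < 1 := by
      calc _ ≤ A.valuation ((((u : ↥(baseRing A K)) : ↥K) : Ω)) * 1 := mul_le_mul_right h4 _
        _ < 1 := by rw [mul_one]; exact hlt
    rw [h1] at h5
    exact lt_irrefl _ h5
  · intro h
    have hx0 : (x : ↥K) ≠ 0 := by
      intro h0
      rw [h0, ZeroMemClass.coe_zero, map_zero] at h
      exact zero_ne_one h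
    have hinv : (x : ↥K)⁻¹ ∈ baseRing A K := by
      rw [mem_baseRing_iff]
      have : (((x : ↥K)⁻¹ : ↥K) : Ω) = (((x : ↥K) : Ω))⁻¹ := rfl
      rw [this, map_inv₀, h, inv_one]
    refine ⟨⟨x, ⟨(x : ↥K)⁻¹, hinv⟩, ?_, ?_⟩, rfl⟩
    · apply Subtype.ext
      exact mul_inv_cancel₀ hx0
    · apply Subtype.ext
      exact inv_mul_cancel₀ hx0

/-- **cyclic value group ⇒ DVR**: if the values of the non-zero elements of `K` are the integral
powers of the value of one `ϖ ∈ K` with `v(ϖ) < 1`, then `A ∩ K` is a discrete valuation ring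
with uniformizer `ϖ`. -/
theorem hasUnitMulPow_baseRing {ϖ : Ω} (hϖK : ϖ ∈ K) (hϖ0 : ϖ ≠ 0)
    (hϖ1 : A.valuation ϖ < 1)
    (h : ∀ y ∈ K, y ≠ 0 → ∃ j : ℤ, A.valuation y = A.valuation ϖ ^ j) :
    ∃ p : ↥(baseRing A K), ((p : ↥K) : Ω) = ϖ ∧ Irreducible p ∧
      ∀ {x : ↥(baseRing A K)}, x ≠ 0 → ∃ n : ℕ, Associated (p ^ n) x := by
  set c := A.valuation ϖ with hc
  have hc0 : c ≠ 0 := by rwa [hc, Ne, map_eq_zero]
  have hcpos : 0 < c := zero_lt_iff.mpr hc0
  -- powers of `c`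
  have hpow_lt : ∀ j : ℤ, j < 0 → 1 < c ^ j := by
    intro j hj
    obtain ⟨n, rfl⟩ : ∃ n : ℕ, j = -((n : ℤ) + 1) := ⟨(-j - 1).toNat, by omega⟩
    rw [zpow_neg, ← Nat.cast_succ, zpow_natCast]
    exact (one_lt_inv₀ (pow_pos hcpos _)).mpr (pow_lt_one₀ (le_of_lt hcpos) hϖ1 (Nat.succ_ne_zero n))
  have hpow_one : ∀ j : ℤ, c ^ j = 1 → j = 0 := by
    intro j hj
    by_contra hne
    rcases lt_or_gt_of_ne hne with hlt | hgt
    · exact absurd hj (ne_of_gt (hpow_lt j hlt))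
    · have h1 := hpow_lt (-j) (by omega)
      rw [zpow_neg, hj, inv_one] at h1
      exact lt_irrefl _ h1
  have hp_mem : (⟨ϖ, hϖK⟩ : ↥K) ∈ baseRing A K := mem_baseRing_iff.mpr (le_of_lt hϖ1)
  set p : ↥(baseRing A K) := ⟨⟨ϖ, hϖK⟩, hp_mem⟩ with hp
  -- the exponent of an element of the ring
  have hexp : ∀ x : ↥(baseRing A K), x ≠ 0 → ∃ n : ℕ, A.valuation (((x : ↥K) : Ω)) = c ^ n := by
    intro x hx
    have hx0 : (((x : ↥K) : Ω)) ≠ 0 := by
      intro h0
      apply hx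
      apply Subtype.ext
      apply Subtype.ext
      exact h0
    obtain ⟨j, hj⟩ := h _ (x : ↥K).2 hx0
    have hj0 : 0 ≤ j := by
      by_contra hneg
      rw [not_le] at hneg
      have := hpow_lt j hneg
      rw [← hj] at this
      exact absurd (valuation_coe_le_one x) (not_le.mpr this)
    refine ⟨j.toNat, ?_⟩
    rw [hj, ← zpow_natCast, Int.toNat_of_nonneg hj0]
  refine ⟨p, rfl, ?_, ?_⟩
  · -- irreducibility
    constructor
    · rw [isUnit_baseRing_iff]
      exact ne_of_lt hϖ1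
    · intro a b hab
      have ha0 : a ≠ 0 := by
        rintro rfl
        rw [zero_mul] at hab
        have := congrArg (fun z : ↥(baseRing A K) => ((z : ↥K) : Ω)) hab
        exact hϖ0 this
      have hb0 : b ≠ 0 := by
        rintro rfl
        rw [mul_zero] at hab
        have := congrArg (fun z : ↥(baseRing A K) => ((z : ↥K) : Ω)) hab
        exact hϖ0 this
      obtain ⟨i, hi⟩ := hexp a ha0
      obtain ⟨j, hj⟩ := hexp b hb0
      have h1 : c = c ^ i * c ^ j := by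
        rw [← hi, ← hj, ← map_mul]
        have := congrArg (fun z : ↥(baseRing A K) => A.valuation (((z : ↥K) : Ω))) hab
        exact this
      have h2 : c ^ ((i : ℤ) + j - 1) = 1 := by
        rw [zpow_sub₀ hc0, zpow_add₀ hc0, zpow_natCast, zpow_natCast, zpow_one, ← h1,
          div_self hc0]
      have h3 := hpow_one _ h2
      have h4 : i = 0 ∨ j = 0 := by omega
      rcases h4 with h4 | h4
      · left
        rw [isUnit_baseRing_iff, hi, h4, pow_zero]
      · right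
        rw [isUnit_baseRing_iff, hj, h4, pow_zero]
  · intro x hx
    obtain ⟨n, hn⟩ := hexp x hx
    refine ⟨n, ?_⟩
    have hx0 : (x : ↥K) ≠ 0 := fun h0 => hx (Subtype.ext h0)
    have hϖK0 : (⟨ϖ, hϖK⟩ : ↥K) ≠ 0 := fun h0 => hϖ0 (congrArg Subtype.val h0)
    -- the unit `x / ϖ^n`
    set u : ↥K := (x : ↥K) / (⟨ϖ, hϖK⟩ : ↥K) ^ n with hu
    have hval : A.valuation ((u : ↥K) : Ω) = 1 := by
      have : ((u : ↥K) : Ω) = (((x : ↥K) : Ω)) / ϖ ^ n := rfl
      rw [this, map_div₀, map_pow, hn, div_self (pow_ne_zero _ hc0)]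
    have humem : u ∈ baseRing A K := mem_baseRing_iff.mpr (le_of_eq hval)
    have hunit : IsUnit (⟨u, humem⟩ : ↥(baseRing A K)) := (isUnit_baseRing_iff _).mpr hval
    obtain ⟨w, hw⟩ := hunit
    refine ⟨w, ?_⟩
    rw [hw]
    apply Subtype.ext
    change ((⟨ϖ, hϖK⟩ : ↥K)) ^ n * u = (x : ↥K)
    rw [hu, mul_div_cancel₀ _ (pow_ne_zero _ hϖK0)]

theorem isDiscreteValuationRing_baseRing {ϖ : Ω} (hϖK : ϖ ∈ K) (hϖ0 : ϖ ≠ 0)
    (hϖ1 : A.valuation ϖ < 1)
    (h : ∀ y ∈ K, y ≠ 0 → ∃ j : ℤ, A.valuation y = A.valuation ϖ ^ j) :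
    IsDiscreteValuationRing ↥(baseRing A K) := by
  obtain ⟨p, -, hp, hfac⟩ := hasUnitMulPow_baseRing hϖK hϖ0 hϖ1 h
  exact IsDiscreteValuationRing.ofHasUnitMulPowIrreducibleFactorization ⟨p, hp, hfac⟩

end Comap

end Fermat.Agent.JA
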