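/-
J-A, package BASE, helper1. Part 4: `ℓ` is unramified in the cyclotomic fields `ℚ(ζ_n)`, `ℓ ∤ n`,
in valuation form: the value of every non-zero element of `ℚ(ζ_n)` is an integral power of
`v(ℓ)`. Elementary proof: `X^n - 1` is separable mod `ℓ`.
-/
import Fermat.Agent.JA.BASE_helper1_Val

set_option autoImplicit false
set_option linter.unusedSectionVars false
set_option linter.style.haveILetI false

open Polynomial

namespace Fermat.Agent.JA

open Fermat.Agent.TW.Kill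

/-- `Ω = AlgebraicClosure ℚ`. -/
local notation "Ω" => AlgebraicClosure ℚ

variable {ℓ : ℕ} [hℓ : Fact ℓ.Prime] {A : ValuationSubring Ω}

section Kernel

/-- an integral polynomial vanishing mod `ℓ` is divisible by `ℓ`. -/
theorem exists_eq_C_mul_of_map_eq_zero (p : ℤ[X])
    (hp : p.map (Int.castRingHom (ZMod ℓ)) = 0) : ∃ r : ℤ[X], p = C (ℓ : ℤ) * r := by
  have h : C (ℓ : ℤ) ∣ p := by
    rw [Polynomial.C_dvd_iff_dvd_coeff]
    intro i
    have h1 := congrArg (fun q : (ZMod ℓ)[X] => q.coeff i) hp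
    simp only [coeff_map, coeff_zero, eq_intCast] at h1
    exact (ZMod.intCast_zmod_eq_zero_iff_dvd _ _).mp h1
  exact h

end Kernel

section Step

variable (hA : A.LiesOverPrime ℓ)

/-- the residue field of `A` has characteristic `ℓ`. -/
theorem charP_residueField (hA : A.LiesOverPrime ℓ) :
    CharP (IsLocalRing.ResidueField ↥A) ℓ := by
  rw [CharP.charP_iff_prime_eq_zero hℓ.out]
  have h1 : ((ℓ : ↥A)) ∈ IsLocalRing.maximalIdeal ↥A := by
    rw [A.valuation_lt_one_iff]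
    exact valuation_prime_lt_one hA
  have h2 := (IsLocalRing.residue_eq_zero_iff (ℓ : ↥A)).mpr h1
  rw [map_natCast] at h2
  exact h2

/-- **the key step**: for `ζ^n = 1`, `ℓ ∤ n`, an element `f(ζ)` of `ℤ[ζ]` of valuation `< 1`
is, up to a unit `h(ζ)` of `A`, divisible by `ℓ` in `ℤ[ζ]`. -/
theorem exists_unit_mul_eq_prime_mul (hA : A.LiesOverPrime ℓ) {n : ℕ} (hn : 0 < n)
    (hℓn : ¬ ℓ ∣ n) {ζ : Ω} (hζ : ζ ^ n = 1) (f : ℤ[X])
    (hf : A.valuation (aeval ζ f) < 1) :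
    ∃ h f₁ : ℤ[X], A.valuation (aeval ζ h) = 1 ∧
      aeval ζ h * aeval ζ f = (ℓ : Ω) * aeval ζ f₁ := by
  classical
  haveI : CharP (IsLocalRing.ResidueField ↥A) ℓ := charP_residueField hA
  letI : Algebra (ZMod ℓ) (IsLocalRing.ResidueField ↥A) := ZMod.algebra _ ℓ
  -- `ζ` and its residue class
  have hζint : IsIntegral ℤ ζ := ⟨X ^ n - 1, monic_X_pow_sub_C 1 hn.ne', by simp [hζ]⟩
  have hζA : ζ ∈ A := mem_of_isIntegral_int A hζint
  set Z : ↥A := ⟨ζ, hζA⟩ with hZ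
  set ζb : IsLocalRing.ResidueField ↥A := IsLocalRing.residue ↥A Z with hζb
  -- evaluation at `ζ` and reduction
  have hcoe : ∀ p : ℤ[X], ((aeval Z p : ↥A) : Ω) = aeval ζ p := by
    intro p
    have := Polynomial.aeval_algebraMap_apply (A := ↥A) (B := Ω) Z p
    exact this.symm
  have hres : ∀ p : ℤ[X], IsLocalRing.residue ↥A (aeval Z p) =
      aeval ζb (p.map (Int.castRingHom (ZMod ℓ))) := by
    intro p
    have h1 : IsLocalRing.residue ↥A (aeval Z p) = aeval ζb p :=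
      (Polynomial.aeval_algHom_apply (IsLocalRing.residue ↥A).toIntAlgHom Z p).symm
    rw [h1, Polynomial.aeval_def, Polynomial.aeval_def, Polynomial.eval₂_map]
    congr 1
    exact RingHom.ext_int _ _
  have hval : ∀ p : ℤ[X], A.valuation (aeval ζ p) < 1 ↔
      aeval ζb (p.map (Int.castRingHom (ZMod ℓ))) = 0 := by
    intro p
    rw [← hres, IsLocalRing.residue_eq_zero_iff, A.valuation_lt_one_iff, hcoe]
  -- the minimal polynomial of `ζb`
  have hζbn : ζb ^ n = 1 := by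
    rw [hζb, ← map_pow]
    have : Z ^ n = 1 := Subtype.ext (by simpa using hζ)
    rw [this, map_one]
  have hζbint : IsIntegral (ZMod ℓ) ζb :=
    ⟨X ^ n - 1, monic_X_pow_sub_C 1 hn.ne', by simp [hζbn]⟩
  set gb : (ZMod ℓ)[X] := minpoly (ZMod ℓ) ζb with hgb
  have hgdvd : gb ∣ X ^ n - 1 := minpoly.dvd (ZMod ℓ) ζb (by simp [hζbn])
  obtain ⟨hb, hgh⟩ := hgdvd
  have hnℓ : ((n : ℕ) : ZMod ℓ) ≠ 0 := by
    rw [Ne, ZMod.natCast_eq_zero_iff]
    exact hℓn
  have hsep : (X ^ n - C (1 : ZMod ℓ)).Separable :=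
    Polynomial.separable_X_pow_sub_C (1 : ZMod ℓ) hnℓ one_ne_zero
  rw [map_one, hgh] at hsep
  have hcop : IsCoprime gb hb := hsep.isCoprime
  have hhb : aeval ζb hb ≠ 0 := by
    intro h0
    have h1 : gb ∣ hb := minpoly.dvd (ZMod ℓ) ζb h0
    have h2 : IsUnit gb := hcop.isUnit_of_dvd' (dvd_refl gb) h1
    exact minpoly.not_isUnit (ZMod ℓ) ζb h2
  -- `gb ∣ f mod ℓ`
  have hfdvd : gb ∣ f.map (Int.castRingHom (ZMod ℓ)) :=
    minpoly.dvd (ZMod ℓ) ζb ((hval f).mp hf)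
  obtain ⟨qb, hfq⟩ := hfdvd
  -- lifts
  have hsurj := Polynomial.map_surjective (Int.castRingHom (ZMod ℓ)) ZMod.intCast_surjective
  obtain ⟨g, hg⟩ := hsurj gb
  obtain ⟨h, hh⟩ := hsurj hb
  obtain ⟨q, hq⟩ := hsurj qb
  obtain ⟨r, hr⟩ := exists_eq_C_mul_of_map_eq_zero (ℓ := ℓ) (f - g * q) (by
    rw [Polynomial.map_sub, Polynomial.map_mul, hg, hq, hfq, sub_self])
  obtain ⟨s, hs⟩ := exists_eq_C_mul_of_map_eq_zero (ℓ := ℓ) (g * h - (X ^ n - 1)) (by
    rw [Polynomial.map_sub, Polynomial.map_mul, hg, hh, Polynomial.map_sub, Polynomial.map_pow,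
      Polynomial.map_X, Polynomial.map_one, hgh, sub_self])
  refine ⟨h, s * q + h * r, ?_, ?_⟩
  · -- `h(ζ)` is a unit
    have h1 : ¬ A.valuation (aeval ζ h) < 1 := by
      rw [hval h, hh]
      exact hhb
    refine le_antisymm ?_ (not_lt.mp h1)
    rw [← hcoe]
    exact (A.valuation_le_one_iff _).mpr (aeval Z h).2
  · have hpoly : h * f = (X ^ n - 1) * q + C (ℓ : ℤ) * (s * q + h * r) := by
      have e1 : f = g * q + C (ℓ : ℤ) * r := by rw [← hr]; ring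
      have e2 : g * h = (X ^ n - 1) + C (ℓ : ℤ) * s := by rw [← hs]; ring
      calc h * f = (g * h) * q + C (ℓ : ℤ) * (h * r) := by rw [e1]; ring
        _ = (X ^ n - 1) * q + C (ℓ : ℤ) * (s * q + h * r) := by rw [e2]; ring
    rw [← map_mul, hpoly, map_add, map_mul, map_mul, map_sub, map_pow, aeval_X, map_one, hζ,
      sub_self, zero_mul, zero_add, aeval_C]
    simp

/-- the value of a non-zero element of `ℤ[ζ]` is a power of `v(ℓ)`. -/
theorem exists_valuation_aeval_eq_pow (hA : A.LiesOverPrime ℓ) {n : ℕ} (hn : 0 < n)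
    (hℓn : ¬ ℓ ∣ n) {ζ : Ω} (hζ : ζ ^ n = 1) (f : ℤ[X]) (hf : aeval ζ f ≠ 0) :
    ∃ m : ℕ, A.valuation (aeval ζ f) = A.valuation (ℓ : Ω) ^ m := by
  set c := A.valuation (ℓ : Ω) with hc
  have hc0 : c ≠ 0 := valuation_prime_ne_zero
  have hζint : IsIntegral ℤ ζ := ⟨X ^ n - 1, monic_X_pow_sub_C 1 hn.ne', by simp [hζ]⟩
  have hζA : ζ ∈ A := mem_of_isIntegral_int A hζint
  have hle1 : ∀ p : ℤ[X], A.valuation (aeval ζ p) ≤ 1 := by
    intro p
    rw [A.valuation_le_one_iff]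
    have := Polynomial.aeval_algebraMap_apply (A := ↥A) (B := Ω) (⟨ζ, hζA⟩ : ↥A) p
    have h2 : aeval ζ p = ((aeval (⟨ζ, hζA⟩ : ↥A) p : ↥A) : Ω) := this
    rw [h2]
    exact (aeval (⟨ζ, hζA⟩ : ↥A) p).2
  have key : ∀ M : ℕ, ∀ p : ℤ[X], aeval ζ p ≠ 0 → c ^ M ≤ A.valuation (aeval ζ p) →
      ∃ m : ℕ, A.valuation (aeval ζ p) = c ^ m := by
    intro M
    induction M with
    | zero =>
      intro p _ hp
      rw [pow_zero] at hp
      exact ⟨0, by rw [pow_zero]; exact le_antisymm (hle1 p) hp⟩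
    | succ M ih =>
      intro p hp0 hp
      by_cases h1 : A.valuation (aeval ζ p) < 1
      · obtain ⟨h, p₁, hh, heq⟩ := exists_unit_mul_eq_prime_mul hA hn hℓn hζ p h1
        have hv : A.valuation (aeval ζ p) = c * A.valuation (aeval ζ p₁) := by
          have := congrArg A.valuation heq
          rw [map_mul, map_mul, hh, one_mul] at this
          exact this
        have hp₁0 : aeval ζ p₁ ≠ 0 := by
          intro h0
          rw [h0, map_zero, mul_zero, map_eq_zero] at hv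
          exact hp0 hv
        have hle : c ^ M ≤ A.valuation (aeval ζ p₁) := by
          rw [hv, pow_succ'] at hp
          exact le_of_mul_le_mul_left hp (zero_lt_iff.mpr hc0)
        obtain ⟨m, hm⟩ := ih p₁ hp₁0 hle
        exact ⟨m + 1, by rw [hv, hm, pow_succ']⟩
      · exact ⟨0, by rw [pow_zero]; exact le_antisymm (hle1 p) (not_lt.mp h1)⟩
  obtain ⟨M, hM⟩ := exists_pow_le_valuation hA hf
  exact key M f hf hM

/-- the value of `p(ζ)` for a rational polynomial `p`. -/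
theorem exists_valuation_aeval_rat_eq_zpow (hA : A.LiesOverPrime ℓ) {n : ℕ} (hn : 0 < n)
    (hℓn : ¬ ℓ ∣ n) {ζ : Ω} (hζ : ζ ^ n = 1) (p : ℚ[X]) (hp : aeval ζ p ≠ 0) :
    ∃ j : ℤ, A.valuation (aeval ζ p) = A.valuation (ℓ : Ω) ^ j := by
  obtain ⟨b, hbmem, hb⟩ := IsLocalization.integerNormalization_spec (nonZeroDivisors ℤ) p
  set f : ℤ[X] := IsLocalization.integerNormalization (nonZeroDivisors ℤ) p with hf
  have hb0 : (b : ℤ) ≠ 0 := nonZeroDivisors.ne_zero hbmem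
  have hbΩ : ((b : ℤ) : Ω) ≠ 0 := by exact_mod_cast hb0
  have heval : aeval ζ f = ((b : ℤ) : Ω) * aeval ζ p := by
    have h1 : aeval ζ f = aeval ζ (f.map (algebraMap ℤ ℚ)) :=
      (Polynomial.aeval_map_algebraMap ℚ ζ f).symm
    have h2 : b • p = C ((b : ℤ) : ℚ) * p := by
      rw [zsmul_eq_mul]
      congr 1
    rw [h1, hb, h2, map_mul, aeval_C]
    simp
  have hf0 : aeval ζ f ≠ 0 := by
    rw [heval]
    exact mul_ne_zero hbΩ hp
  obtain ⟨m, hm⟩ := exists_valuation_aeval_eq_pow hA hn hℓn hζ f hf0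
  obtain ⟨M, hM⟩ := valuation_intCast hA hb0
  refine ⟨(m : ℤ) - M, ?_⟩
  have hc0 : A.valuation (ℓ : Ω) ≠ 0 := valuation_prime_ne_zero
  rw [heval, map_mul, hM] at hm
  rw [zpow_sub₀ hc0, zpow_natCast, zpow_natCast, ← hm, mul_comm, mul_div_assoc,
    div_self (pow_ne_zero _ hc0), mul_one]

/-- **`ℓ` is unramified in `ℚ(ζ)`**, `ζ^n = 1`, `ℓ ∤ n`, valuation form. -/
theorem exists_valuation_eq_zpow_of_mem_adjoin (hA : A.LiesOverPrime ℓ) {n : ℕ} (hn : 0 < n)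
    (hℓn : ¬ ℓ ∣ n) {ζ : Ω} (hζ : ζ ^ n = 1) {y : Ω}
    (hy : y ∈ IntermediateField.adjoin ℚ {ζ}) (hy0 : y ≠ 0) :
    ∃ j : ℤ, A.valuation y = A.valuation (ℓ : Ω) ^ j := by
  obtain ⟨r, s, rfl⟩ := (IntermediateField.mem_adjoin_simple_iff ℚ y).mp hy
  have hr0 : aeval ζ r ≠ 0 := fun h0 => hy0 (by rw [h0, zero_div])
  have hs0 : aeval ζ s ≠ 0 := fun h0 => hy0 (by rw [h0, div_zero])
  obtain ⟨i, hi⟩ := exists_valuation_aeval_rat_eq_zpow hA hn hℓn hζ r hr0
  obtain ⟨j, hj⟩ := exists_valuation_aeval_rat_eq_zpow hA hn hℓn hζ s hs0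
  refine ⟨i - j, ?_⟩
  rw [map_div₀, hi, hj, zpow_sub₀ valuation_prime_ne_zero]

end Step

end Fermat.Agent.JA
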