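/-
J-A, package BASE, helper1. Part 5: the field `K^♭ = ℚ(μ_n : ℓ ∤ n)`, as a directed union of
cyclotomic fields; its valuation ring `A ∩ K^♭` is a discrete valuation ring with uniformizer `ℓ`.
-/
import Fermat.Agent.JA.BASE_helper1_Cyclo

set_option autoImplicit false
set_option linter.unusedSectionVars false
set_option linter.style.haveILetI false

open Polynomial

namespace Fermat.Agent.JA

open Fermat.Agent.TW.Kill

/-- `Ω = AlgebraicClosure ℚ`. -/
local notation "Ω" => AlgebraicClosure ℚ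

section Def

variable (ℓ : ℕ)

/-- `K^♭`: the field generated by the roots of unity of order prime to `ℓ`. -/
noncomputable def flatBase : IntermediateField ℚ Ω :=
  IntermediateField.adjoin ℚ {ζ : Ω | ∃ n : ℕ, 0 < n ∧ ¬ ℓ ∣ n ∧ ζ ^ n = 1}

/-- the orders prime to `ℓ`. -/
abbrev PrimeTo : Type := {n : ℕ // 0 < n ∧ ¬ ℓ ∣ n}

/-- the field of `n`-th roots of unity. -/
noncomputable def cycloField (n : ℕ) : IntermediateField ℚ Ω :=
  IntermediateField.adjoin ℚ {ζ : Ω | ζ ^ n = 1}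

variable {ℓ}

theorem root_mem_flatBase {n : ℕ} (hn : 0 < n) (hℓn : ¬ ℓ ∣ n) {ζ : Ω} (hζ : ζ ^ n = 1) :
    ζ ∈ flatBase ℓ :=
  IntermediateField.subset_adjoin ℚ _ ⟨n, hn, hℓn, hζ⟩

theorem cycloField_le_flatBase {n : ℕ} (hn : 0 < n) (hℓn : ¬ ℓ ∣ n) :
    cycloField n ≤ flatBase ℓ := by
  rw [cycloField, IntermediateField.adjoin_le_iff]
  intro ζ hζ
  exact root_mem_flatBase hn hℓn hζ

theorem cycloField_mono {n m : ℕ} (h : n ∣ m) : cycloField n ≤ cycloField m := by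
  rw [cycloField, IntermediateField.adjoin_le_iff]
  intro ζ hζ
  refine IntermediateField.subset_adjoin ℚ _ ?_
  obtain ⟨d, rfl⟩ := h
  change ζ ^ (n * d) = 1
  rw [pow_mul, hζ, one_pow]

/-- `ℚ(μ_n) = ℚ(ζ)` for a primitive `n`-th root of unity `ζ`. -/
theorem cycloField_le_adjoin_primitive {n : ℕ} (hn : 0 < n) {ζ : Ω} (hζ : IsPrimitiveRoot ζ n) :
    cycloField n ≤ IntermediateField.adjoin ℚ {ζ} := by
  rw [cycloField, IntermediateField.adjoin_le_iff]
  intro ξ hξ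
  haveI : NeZero n := ⟨hn.ne'⟩
  obtain ⟨i, -, rfl⟩ := hζ.eq_pow_of_pow_eq_one hξ
  exact pow_mem (IntermediateField.mem_adjoin_simple_self ℚ ζ) i

variable [hℓ : Fact ℓ.Prime]

instance : Nonempty (PrimeTo ℓ) := ⟨⟨1, Nat.one_pos, fun h => hℓ.out.one_lt.ne' (Nat.dvd_one.mp h)⟩⟩

theorem directed_cycloField :
    Directed (· ≤ ·) (fun n : PrimeTo ℓ => cycloField (n : ℕ)) := by
  intro n m
  refine ⟨⟨(n : ℕ) * m, Nat.mul_pos n.2.1 m.2.1, fun h => ?_⟩, cycloField_mono (dvd_mul_right _ _),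
    cycloField_mono (dvd_mul_left _ _)⟩
  rcases (Nat.Prime.dvd_mul hℓ.out).mp h with h | h
  · exact n.2.2 h
  · exact m.2.2 h

theorem flatBase_eq_iSup : flatBase ℓ = ⨆ n : PrimeTo ℓ, cycloField (n : ℕ) := by
  apply le_antisymm
  · rw [flatBase, IntermediateField.adjoin_le_iff]
    rintro ζ ⟨n, hn, hℓn, hζ⟩
    have h1 : ζ ∈ cycloField n := IntermediateField.subset_adjoin ℚ _ hζ
    exact (le_iSup (fun n : PrimeTo ℓ => cycloField (n : ℕ)) ⟨n, hn, hℓn⟩) h1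
  · exact iSup_le fun n => cycloField_le_flatBase n.2.1 n.2.2

/-- every element of `K^♭` lies in a cyclotomic field `ℚ(ζ_n)`, `ℓ ∤ n`. -/
theorem exists_mem_adjoin_of_mem_flatBase {x : Ω} (hx : x ∈ flatBase ℓ) :
    ∃ n : ℕ, 0 < n ∧ ¬ ℓ ∣ n ∧ ∃ ζ : Ω, IsPrimitiveRoot ζ n ∧
      x ∈ IntermediateField.adjoin ℚ {ζ} := by
  rw [flatBase_eq_iSup] at hx
  have h1 : x ∈ ((⨆ n : PrimeTo ℓ, cycloField (n : ℕ) : IntermediateField ℚ Ω) : Set Ω) := hx
  rw [IntermediateField.coe_iSup_of_directed directed_cycloField, Set.mem_iUnion] at h1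
  obtain ⟨n, hn⟩ := h1
  haveI : NeZero (n : ℕ) := ⟨n.2.1.ne'⟩
  obtain ⟨ζ, hζ⟩ := exists_primitiveRoot (n : ℕ)
  exact ⟨n, n.2.1, n.2.2, ζ, hζ, cycloField_le_adjoin_primitive n.2.1 hζ hn⟩

end Def

section Valuation

variable {ℓ : ℕ} [hℓ : Fact ℓ.Prime] {A : ValuationSubring Ω}

/-- **`K^♭/ℚ` is unramified at `ℓ`**: the values of the non-zero elements of `K^♭` are the
integral powers of `v(ℓ)`. -/
theorem exists_valuation_eq_zpow_of_mem_flatBase (hA : A.LiesOverPrime ℓ) {y : Ω}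
    (hy : y ∈ flatBase ℓ) (hy0 : y ≠ 0) :
    ∃ j : ℤ, A.valuation y = A.valuation (ℓ : Ω) ^ j := by
  obtain ⟨n, hn, hℓn, ζ, hζ, hyζ⟩ := exists_mem_adjoin_of_mem_flatBase hy
  exact exists_valuation_eq_zpow_of_mem_adjoin hA hn hℓn hζ.pow_eq_one hyζ hy0

theorem prime_mem_flatBase : (ℓ : Ω) ∈ flatBase ℓ := natCast_mem _ ℓ

theorem prime_ne_zero : (ℓ : Ω) ≠ 0 := by exact_mod_cast hℓ.out.ne_zero

/-- `A ∩ K^♭` is a discrete valuation ring. -/
theorem isDiscreteValuationRing_flatBase (hA : A.LiesOverPrime ℓ) :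
    IsDiscreteValuationRing ↥(baseRing A (flatBase ℓ)) :=
  isDiscreteValuationRing_baseRing prime_mem_flatBase prime_ne_zero (valuation_prime_lt_one hA)
    (fun _ hy hy0 => exists_valuation_eq_zpow_of_mem_flatBase hA hy hy0)

/-- `ℓ` is a uniformizer of `A ∩ K^♭`. -/
theorem irreducible_prime_flatBase (hA : A.LiesOverPrime ℓ) :
    Irreducible ((ℓ : ℕ) : ↥(baseRing A (flatBase ℓ))) := by
  obtain ⟨p, hp, hirr, -⟩ := hasUnitMulPow_baseRing prime_mem_flatBase prime_ne_zero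
    (valuation_prime_lt_one hA)
    (fun _ hy hy0 => exists_valuation_eq_zpow_of_mem_flatBase hA hy hy0)
  have : p = ((ℓ : ℕ) : ↥(baseRing A (flatBase ℓ))) := by
    apply Subtype.ext
    apply Subtype.ext
    rw [hp]
    simp
  rw [← this]
  exact hirr

end Valuation

end Fermat.Agent.JA
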