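/-
J-A, package BASE, helper1. Part 2: the value group of a finite extension of a discretely valued
subfield of `Ω` is again cyclic (elementary: `e ≤ n` + torsion-freeness of ordered groups).
-/
import Fermat.Agent.JA.BASE_helper1_Val

set_option autoImplicit false
set_option linter.unusedSectionVars false
set_option linter.style.haveILetI false

namespace Fermat.Agent.JA

/-- `Ω = AlgebraicClosure ℚ`. -/
local notation "Ω" => AlgebraicClosure ℚ

section Ultrametric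

variable {R : Type*} [Ring R] {Γ₀ : Type*} [LinearOrderedCommGroupWithZero Γ₀]
  (v : Valuation R Γ₀)

/-- in a vanishing finite sum with a non-zero term, two distinct terms have the same non-zero
valuation. -/
theorem exists_ne_valuation_eq_of_sum_eq_zero {ι : Type*} [DecidableEq ι] (s : Finset ι)
    (x : ι → R) (hsum : ∑ i ∈ s, x i = 0) {i₀ : ι} (hi₀ : i₀ ∈ s) (hx₀ : v (x i₀) ≠ 0) :
    ∃ i ∈ s, ∃ j ∈ s, i ≠ j ∧ v (x i) = v (x j) ∧ v (x i) ≠ 0 := by
  obtain ⟨i, his, hmax⟩ := Finset.exists_max_image s (fun i => v (x i)) ⟨i₀, hi₀⟩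
  have hvi : v (x i) ≠ 0 := by
    intro h0
    have := hmax i₀ hi₀
    rw [h0] at this
    exact hx₀ (le_antisymm this zero_le)
  by_contra hcon
  push Not at hcon
  have hlt : ∀ j ∈ s.erase i, v (x j) < v (x i) := by
    intro j hj
    have hjs := Finset.mem_of_mem_erase hj
    have hji : j ≠ i := Finset.ne_of_mem_erase hj
    refine lt_of_le_of_ne (hmax j hjs) ?_
    intro heq
    exact hvi (hcon i his j hjs (Ne.symm hji) heq.symm)
  have h1 := v.map_sum_lt hvi hlt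
  have h2 : ∑ j ∈ s.erase i, x j = -x i := by
    rw [← Finset.add_sum_erase s x his] at hsum
    exact (neg_eq_of_add_eq_zero_right hsum).symm
  rw [h2, Valuation.map_neg] at h1
  exact lt_irrefl _ h1

end Ultrametric

section Torsion

variable {Γ₀ : Type*} [LinearOrderedCommGroupWithZero Γ₀]

theorem eq_one_of_pow_eq_one' {x : Γ₀} {n : ℕ} (hn : n ≠ 0) (h : x ^ n = 1) : x = 1 := by
  rcases lt_trichotomy x 1 with hlt | heq | hgt
  · exact absurd h (ne_of_lt (pow_lt_one₀ zero_le hlt hn))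
  · exact heq
  · exact absurd h (ne_of_gt (one_lt_pow₀ hgt hn))

end Torsion

section Cyclic

variable {A : ValuationSubring Ω}

/-- **cyclicity**: if the `N`-th powers of the values of the non-zero elements of `K₁` are integral
powers of `c = v(t)`, `t ∈ K₁`, `c < 1`, then the value group of `K₁` is generated by the value
of one element `ϖ` with `v(ϖ) < 1`. -/
theorem exists_uniformizer_of_pow_mem (K₁ : IntermediateField ℚ Ω) {t : Ω} (htK : t ∈ K₁)
    (ht0 : t ≠ 0) (ht1 : A.valuation t < 1) {N : ℕ} (hN : N ≠ 0)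
    (h : ∀ y ∈ K₁, y ≠ 0 → ∃ m : ℤ, A.valuation y ^ N = A.valuation t ^ m) :
    ∃ ϖ ∈ K₁, ϖ ≠ 0 ∧ A.valuation ϖ < 1 ∧
      ∀ y ∈ K₁, y ≠ 0 → ∃ j : ℤ, A.valuation y = A.valuation ϖ ^ j := by
  classical
  set c := A.valuation t with hc
  have hc0 : c ≠ 0 := by rwa [hc, Ne, map_eq_zero]
  have hcpos : 0 < c := zero_lt_iff.mpr hc0
  -- powers of `c` with negative exponent exceed `1`
  have hpow_gt : ∀ j : ℤ, j < 0 → 1 < c ^ j := by
    intro j hj
    obtain ⟨n, rfl⟩ : ∃ n : ℕ, j = -((n : ℤ) + 1) := ⟨(-j - 1).toNat, by omega⟩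
    rw [zpow_neg, ← Nat.cast_succ, zpow_natCast]
    exact (one_lt_inv₀ (pow_pos hcpos _)).mpr (pow_lt_one₀ (le_of_lt hcpos) ht1 (Nat.succ_ne_zero n))
  have hpow_lt : ∀ j : ℤ, 0 < j → c ^ j < 1 := by
    intro j hj
    have := hpow_gt (-j) (by omega)
    rw [zpow_neg] at this
    exact (one_lt_inv₀ (zpow_pos hcpos _)).mp this
  have hpow_one : ∀ j : ℤ, c ^ j = 1 → j = 0 := by
    intro j hj
    by_contra hne
    rcases lt_or_gt_of_ne hne with hlt | hgt
    · exact absurd hj (ne_of_gt (hpow_gt j hlt))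
    · exact absurd hj (ne_of_lt (hpow_lt j hgt))
  -- the set of positive exponents
  let P : ℕ → Prop := fun m => 0 < m ∧ ∃ y ∈ K₁, y ≠ 0 ∧ A.valuation y ^ N = c ^ (m : ℤ)
  have hP : ∃ m, P m := ⟨N, Nat.pos_of_ne_zero hN, t, htK, ht0, by rw [zpow_natCast]⟩
  obtain ⟨hm₀pos, ϖ, hϖK, hϖ0, hϖ⟩ := Nat.find_spec hP
  set m₀ := Nat.find hP with hm₀
  have hmin : ∀ m, P m → m₀ ≤ m := fun m hm => Nat.find_min' hP hm
  have hϖ1 : A.valuation ϖ < 1 := by
    by_contra hge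
    rw [not_lt] at hge
    have h1 : 1 ≤ A.valuation ϖ ^ N := one_le_pow₀ hge
    rw [hϖ] at h1
    exact absurd (hpow_lt _ (by exact_mod_cast hm₀pos)) (not_lt.mpr h1)
  have hvϖ0 : A.valuation ϖ ≠ 0 := by rwa [Ne, map_eq_zero]
  refine ⟨ϖ, hϖK, hϖ0, hϖ1, fun y hyK hy0 => ?_⟩
  obtain ⟨m, hm⟩ := h y hyK hy0
  -- Euclidean division
  set q := m / (m₀ : ℤ) with hq
  set r := m % (m₀ : ℤ) with hr
  have hm₀pos' : (0 : ℤ) < m₀ := by exact_mod_cast hm₀pos
  have hr0 : 0 ≤ r := Int.emod_nonneg _ (ne_of_gt hm₀pos')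
  have hrlt : r < m₀ := Int.emod_lt_of_pos _ hm₀pos'
  have hdiv : m = (m₀ : ℤ) * q + r := (Int.mul_ediv_add_emod m m₀).symm
  -- `y' = y / ϖ^q`
  set y' : Ω := y / ϖ ^ q with hy'
  have hy'K : y' ∈ K₁ := K₁.div_mem hyK (zpow_mem hϖK q)
  have hy'0 : y' ≠ 0 := div_ne_zero hy0 (zpow_ne_zero _ hϖ0)
  have hy'v : A.valuation y' ^ N = c ^ r := by
    rw [hy', map_div₀, map_zpow₀, div_pow, hm, ← zpow_natCast (A.valuation ϖ ^ q) N, ← zpow_mul,
      mul_comm q (N : ℤ), zpow_mul, zpow_natCast, hϖ, ← zpow_mul, hdiv, zpow_add₀ hc0,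
      mul_div_assoc, mul_comm, div_mul_cancel₀]
    · exact zpow_ne_zero _ hc0
  have hr_eq : r = 0 := by
    by_contra hrne
    have hrpos : 0 < r := lt_of_le_of_ne hr0 (Ne.symm hrne)
    have hPr : P r.toNat := by
      refine ⟨by omega, y', hy'K, hy'0, ?_⟩
      rw [hy'v, Int.toNat_of_nonneg hr0]
    have := hmin _ hPr
    omega
  rw [hr_eq, zpow_zero] at hy'v
  have hy'1 : A.valuation y' = 1 := eq_one_of_pow_eq_one' hN hy'v
  refine ⟨q, ?_⟩
  rw [hy', map_div₀, map_zpow₀, div_eq_one_iff_eq (zpow_ne_zero _ hvϖ0)] at hy'1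
  exact hy'1

end Cyclic

end Fermat.Agent.JA
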