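/-
J-A, package BASE, helper1. Part 3: the index bound `e ≤ n` in the form needed for bases:
for `K₁ = K ⊔ F` with `[F : ℚ] = d`, a power `v(y)^e`, `1 ≤ e ≤ d`, of the value of every
non-zero `y ∈ K₁` is the value of an element of `K`.
-/
import Fermat.Agent.JA.BASE_helper1_Cyclic

set_option autoImplicit false
set_option linter.unusedSectionVars false
set_option linter.style.haveILetI false

namespace Fermat.Agent.JA

/-- `Ω = AlgebraicClosure ℚ`. -/
local notation "Ω" => AlgebraicClosure ℚ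

section Index

variable {A : ValuationSubring Ω}

/-- the powers `1, y, …, y^d` of an element of `K ⊔ F` are linearly dependent over `K`,
`d = [F : ℚ]`. -/
theorem exists_relation_powers (K F : IntermediateField ℚ Ω) [FiniteDimensional ℚ ↥F]
    {y : Ω} (hy : y ∈ K ⊔ F) :
    ∃ g : Fin (Module.finrank ℚ ↥F + 1) → ↥K,
      ∑ i, (g i : Ω) * y ^ (i : ℕ) = 0 ∧ ∃ i, g i ≠ 0 := by
  classical
  set L' : IntermediateField ↥K Ω := IntermediateField.adjoin ↥K (F : Set Ω) with hL'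
  have hrank : Module.rank ↥K ↥L' ≤ Module.rank ℚ ↥F :=
    IntermediateField.adjoin_rank_le_of_isAlgebraic_right ↥K F
  have hrank' : Module.rank ↥K ↥L' < Cardinal.aleph0 :=
    lt_of_le_of_lt hrank (Module.rank_lt_aleph0 ℚ ↥F)
  haveI : Module.Finite ↥K ↥L' := Module.rank_lt_aleph0_iff.mp hrank'
  have hfin : Module.finrank ↥K ↥L' ≤ Module.finrank ℚ ↥F :=
    Cardinal.toNat_le_toNat hrank (Module.rank_lt_aleph0 ℚ ↥F)
  -- `y ∈ L'`
  have hle : K ⊔ F ≤ L'.restrictScalars ℚ := by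
    refine sup_le ?_ ?_
    · intro x hx
      exact L'.algebraMap_mem ⟨x, hx⟩
    · intro x hx
      exact IntermediateField.subset_adjoin ↥K (F : Set Ω) hx
  have hyL' : y ∈ L' := hle hy
  set z : ↥L' := ⟨y, hyL'⟩ with hz
  have hdep : ¬ LinearIndependent ↥K (fun i : Fin (Module.finrank ℚ ↥F + 1) => z ^ (i : ℕ)) := by
    intro hli
    have := hli.fintype_card_le_finrank
    rw [Fintype.card_fin] at this
    omega
  rw [Fintype.not_linearIndependent_iff] at hdep
  obtain ⟨g, hg, hne⟩ := hdep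
  refine ⟨g, ?_, hne⟩
  have := congrArg (fun w : ↥L' => (w : Ω)) hg
  simp only [AddSubmonoidClass.coe_finsetSum, ZeroMemClass.coe_zero] at this
  rw [← this]
  refine Finset.sum_congr rfl fun i _ => ?_
  rfl

/-- **the index bound**, in valuation form. -/
theorem exists_pow_valuation_eq (K F : IntermediateField ℚ Ω) [FiniteDimensional ℚ ↥F]
    {y : Ω} (hy : y ∈ K ⊔ F) (hy0 : y ≠ 0) :
    ∃ e : ℕ, 1 ≤ e ∧ e ≤ Module.finrank ℚ ↥F ∧ ∃ a ∈ K, a ≠ 0 ∧
      A.valuation y ^ e = A.valuation a := by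
  classical
  obtain ⟨g, hsum, i₀, hi₀⟩ := exists_relation_powers K F hy
  have hvy : A.valuation y ≠ 0 := by rwa [Ne, map_eq_zero]
  have hx₀ : A.valuation ((g i₀ : Ω) * y ^ (i₀ : ℕ)) ≠ 0 := by
    rw [Ne, map_eq_zero]
    refine mul_ne_zero ?_ (pow_ne_zero _ hy0)
    intro h0
    exact hi₀ (Subtype.ext h0)
  obtain ⟨i, -, j, -, hij, heq, hne⟩ := exists_ne_valuation_eq_of_sum_eq_zero A.valuation
    Finset.univ (fun i : Fin (Module.finrank ℚ ↥F + 1) => (g i : Ω) * y ^ (i : ℕ)) hsum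
    (Finset.mem_univ i₀) hx₀
  -- wlog `i < j`
  have key : ∀ i j : Fin (Module.finrank ℚ ↥F + 1), (i : ℕ) < j →
      A.valuation ((g i : Ω) * y ^ (i : ℕ)) = A.valuation ((g j : Ω) * y ^ (j : ℕ)) →
      A.valuation ((g i : Ω) * y ^ (i : ℕ)) ≠ 0 →
      ∃ e : ℕ, 1 ≤ e ∧ e ≤ Module.finrank ℚ ↥F ∧ ∃ a ∈ K, a ≠ 0 ∧
        A.valuation y ^ e = A.valuation a := by
    intro i j hlt heq hne
    have hgi : (g i : Ω) ≠ 0 := by
      intro h0
      rw [h0, zero_mul, map_zero] at hne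
      exact hne rfl
    have hgj : (g j : Ω) ≠ 0 := by
      intro h0
      rw [heq, h0, zero_mul, map_zero] at hne
      exact hne rfl
    refine ⟨j - i, by omega, by have := j.2; omega, (g i : Ω) / (g j : Ω),
      K.div_mem (g i).2 (g j).2, div_ne_zero hgi hgj, ?_⟩
    rw [map_mul, map_mul, map_pow, map_pow] at heq
    have hj : (j : ℕ) = (j - i) + i := by omega
    rw [hj, pow_add, ← mul_assoc] at heq
    have hvi : A.valuation y ^ (i : ℕ) ≠ 0 := pow_ne_zero _ hvy
    have h2 := mul_right_cancel₀ hvi heq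
    have hvgj : A.valuation (g j : Ω) ≠ 0 := by rwa [Ne, map_eq_zero]
    rw [map_div₀, h2, mul_div_assoc, mul_comm, div_mul_cancel₀ _ hvgj]
  rcases lt_or_gt_of_ne (fun h => hij (Fin.ext h)) with hlt | hgt
  · exact key i j hlt heq hne
  · exact key j i hgt heq.symm (heq ▸ hne)

/-- uniform exponent: `v(y)^{d!}` is the value of an element of `K`. -/
theorem exists_valuation_pow_factorial_eq (K F : IntermediateField ℚ Ω) [FiniteDimensional ℚ ↥F]
    {y : Ω} (hy : y ∈ K ⊔ F) (hy0 : y ≠ 0) :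
    ∃ a ∈ K, a ≠ 0 ∧ A.valuation y ^ (Module.finrank ℚ ↥F).factorial = A.valuation a := by
  obtain ⟨e, he1, hed, a, haK, ha0, hea⟩ := exists_pow_valuation_eq (A := A) K F hy hy0
  obtain ⟨m, hm⟩ : e ∣ (Module.finrank ℚ ↥F).factorial :=
    Nat.dvd_factorial (by omega) hed
  refine ⟨a ^ m, pow_mem haK m, pow_ne_zero _ ha0, ?_⟩
  rw [hm, pow_mul, hea, map_pow]

end Index

end Fermat.Agent.JA
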