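/-
J-A, package BASE, helper1. Part 6: bases `K^♭ ⊆ K₁ ⊂ Ω`, `[K₁ : K^♭] < ∞`: they are directed,
exhaust `Ω`, contain the roots of unity of order prime to `ℓ`, and `R₁ = A ∩ K₁` is a discrete
valuation ring.
-/
import Fermat.Agent.JA.BASE_helper1_Flat
import Fermat.Agent.JA.BASE_helper1_Index

set_option autoImplicit false
set_option linter.unusedSectionVars false
set_option linter.style.haveILetI false

namespace Fermat.Agent.JA

/-- `Ω = AlgebraicClosure ℚ`. -/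
local notation "Ω" => AlgebraicClosure ℚ

section Base

variable (ℓ : ℕ)

/-- a base: a finite extension of `K^♭` inside `Ω`. -/
def IsBase (K₁ : IntermediateField ℚ Ω) : Prop :=
  ∃ F : IntermediateField ℚ Ω, FiniteDimensional ℚ ↥F ∧ K₁ = flatBase ℓ ⊔ F

variable {ℓ} {K₁ K₂ : IntermediateField ℚ Ω}

theorem isBase_flatBase : IsBase ℓ (flatBase ℓ) :=
  ⟨⊥, inferInstance, by rw [sup_bot_eq]⟩

theorem IsBase.flatBase_le (h : IsBase ℓ K₁) : flatBase ℓ ≤ K₁ := by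
  obtain ⟨F, -, rfl⟩ := h
  exact le_sup_left

theorem IsBase.sup (h₁ : IsBase ℓ K₁) (h₂ : IsBase ℓ K₂) : IsBase ℓ (K₁ ⊔ K₂) := by
  obtain ⟨F₁, hF₁, rfl⟩ := h₁
  obtain ⟨F₂, hF₂, rfl⟩ := h₂
  haveI := hF₁
  haveI := hF₂
  refine ⟨F₁ ⊔ F₂, IntermediateField.finiteDimensional_sup F₁ F₂, ?_⟩
  rw [sup_sup_sup_comm, sup_idem]

theorem IsBase.sup_of_finiteDimensional (h : IsBase ℓ K₁) (F : IntermediateField ℚ Ω)
    [FiniteDimensional ℚ ↥F] : IsBase ℓ (K₁ ⊔ F) := by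
  obtain ⟨F₁, hF₁, rfl⟩ := h
  haveI := hF₁
  exact ⟨F₁ ⊔ F, IntermediateField.finiteDimensional_sup F₁ F, by rw [sup_assoc]⟩

/-- a base contains the roots of unity of order prime to `ℓ`. -/
theorem IsBase.root_mem (h : IsBase ℓ K₁) {n : ℕ} (hn : 0 < n) (hℓn : ¬ ℓ ∣ n) {ζ : Ω}
    (hζ : ζ ^ n = 1) : ζ ∈ K₁ :=
  h.flatBase_le (root_mem_flatBase hn hℓn hζ)

/-- `Ω` is the union of the bases: finitely many elements lie in a common base. -/
theorem exists_isBase_forall_mem (ℓ : ℕ) (s : Finset Ω) :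
    ∃ K₁ : IntermediateField ℚ Ω, IsBase ℓ K₁ ∧ ∀ x ∈ s, x ∈ K₁ := by
  haveI : FiniteDimensional ℚ ↥(IntermediateField.adjoin ℚ (s : Set Ω)) :=
    IntermediateField.finiteDimensional_adjoin
      (fun x _ => (Algebra.IsAlgebraic.isAlgebraic x).isIntegral)
  refine ⟨flatBase ℓ ⊔ IntermediateField.adjoin ℚ (s : Set Ω), ⟨_, inferInstance, rfl⟩, ?_⟩
  intro x hx
  exact (le_sup_right : _ ≤ flatBase ℓ ⊔ IntermediateField.adjoin ℚ (s : Set Ω))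
    (IntermediateField.subset_adjoin ℚ _ hx)

theorem exists_isBase_mem (ℓ : ℕ) (x : Ω) :
    ∃ K₁ : IntermediateField ℚ Ω, IsBase ℓ K₁ ∧ x ∈ K₁ := by
  classical
  obtain ⟨K₁, h1, h2⟩ := exists_isBase_forall_mem ℓ {x}
  exact ⟨K₁, h1, h2 x (Finset.mem_singleton_self x)⟩

/-- enlarging a base by finitely many elements. -/
theorem IsBase.exists_ge_forall_mem (h : IsBase ℓ K₁) (s : Finset Ω) :
    ∃ K₂ : IntermediateField ℚ Ω, IsBase ℓ K₂ ∧ K₁ ≤ K₂ ∧ ∀ x ∈ s, x ∈ K₂ := by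
  obtain ⟨K', h1, h2⟩ := exists_isBase_forall_mem ℓ s
  exact ⟨K₁ ⊔ K', h.sup h1, le_sup_left, fun x hx => (le_sup_right : K' ≤ K₁ ⊔ K') (h2 x hx)⟩

end Base

section DVR

variable {ℓ : ℕ} [hℓ : Fact ℓ.Prime] {A : ValuationSubring Ω} {K₁ : IntermediateField ℚ Ω}

/-- **the value group of a base is cyclic.** -/
theorem IsBase.exists_uniformizer (hA : A.LiesOverPrime ℓ) (h : IsBase ℓ K₁) :
    ∃ ϖ ∈ K₁, ϖ ≠ 0 ∧ A.valuation ϖ < 1 ∧
      ∀ y ∈ K₁, y ≠ 0 → ∃ j : ℤ, A.valuation y = A.valuation ϖ ^ j := by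
  obtain ⟨F, hF, rfl⟩ := h
  haveI := hF
  refine exists_uniformizer_of_pow_mem (A := A) (flatBase ℓ ⊔ F)
    ((le_sup_left : flatBase ℓ ≤ flatBase ℓ ⊔ F) prime_mem_flatBase) prime_ne_zero
    (valuation_prime_lt_one hA) (Nat.factorial_ne_zero (Module.finrank ℚ ↥F)) ?_
  intro y hy hy0
  obtain ⟨a, haK, ha0, hya⟩ := exists_valuation_pow_factorial_eq (A := A) (flatBase ℓ) F hy hy0
  obtain ⟨m, hm⟩ := exists_valuation_eq_zpow_of_mem_flatBase hA haK ha0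
  exact ⟨m, by rw [hya, hm]⟩

/-- **`R₁ = A ∩ K₁` is a discrete valuation ring**, for every base `K₁`. -/
theorem IsBase.isDiscreteValuationRing (hA : A.LiesOverPrime ℓ) (h : IsBase ℓ K₁) :
    IsDiscreteValuationRing ↥(baseRing A K₁) := by
  obtain ⟨ϖ, hϖK, hϖ0, hϖ1, hϖ⟩ := h.exists_uniformizer hA
  exact isDiscreteValuationRing_baseRing hϖK hϖ0 hϖ1 hϖ

/-- `ℓ` lies in the maximal ideal of `R₁` (mixed characteristic). -/
theorem natCast_prime_mem_maximalIdeal (hA : A.LiesOverPrime ℓ) (K₁ : IntermediateField ℚ Ω) :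
    ((ℓ : ℕ) : ↥(baseRing A K₁)) ∈ IsLocalRing.maximalIdeal ↥(baseRing A K₁) := by
  rw [IsLocalRing.mem_maximalIdeal, mem_nonunits_iff, isUnit_baseRing_iff]
  have : ((((ℓ : ℕ) : ↥(baseRing A K₁)) : ↥K₁) : Ω) = (ℓ : Ω) := by simp
  rw [this]
  exact ne_of_lt (valuation_prime_lt_one hA)

end DVR

end Fermat.Agent.JA
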