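/-
J-A, package BASE, helper1. Part 7: residue fields. The residue field `k` of `A` is algebraically
closed and algebraic over `𝔽_ℓ`; every non-zero residue class is the class of a root of unity of
order prime to `ℓ` (Teichmüller). Hence the residue field of `R₁ = A ∩ K₁` is all of `k`, for
every intermediate field `K₁ ⊇ K^♭`.
-/
import Fermat.Agent.JA.BASE_helper1_Base

set_option autoImplicit false
set_option linter.unusedSectionVars false
set_option linter.style.haveILetI false

open Polynomial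

namespace Fermat.Agent.JA

open Fermat.Agent.TW.Kill

/-- `Ω = AlgebraicClosure ℚ`. -/
local notation "Ω" => AlgebraicClosure ℚ

section AlgClosed

variable (A : ValuationSubring Ω)

theorem mem_of_isIntegral_valuationSubring {x : Ω} (hx : IsIntegral ↥A x) : x ∈ A := by
  obtain ⟨y, rfl⟩ := IsIntegrallyClosedIn.isIntegral_iff.mp hx
  exact y.2

/-- the residue field of a valuation ring of `Ω` is algebraically closed. -/
theorem isAlgClosed_residueField : IsAlgClosed (IsLocalRing.ResidueField ↥A) := by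
  apply IsAlgClosed.of_exists_root
  intro p hp hirr
  have hlift : p ∈ Polynomial.lifts (IsLocalRing.residue ↥A) := by
    rw [Polynomial.lifts_iff_coeff_lifts]
    intro n
    exact IsLocalRing.residue_surjective _
  obtain ⟨q, hq, -, hqm⟩ := Polynomial.lifts_and_natDegree_eq_and_monic hlift hp
  -- a root of `q` in `Ω`
  have hdeg : (q.map (algebraMap ↥A Ω)).degree ≠ 0 := by
    rw [Polynomial.degree_map_eq_of_injective
      (by exact Subtype.val_injective : Function.Injective (algebraMap ↥A Ω))]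
    intro h0
    have h1 : q = 1 := by
      rw [Polynomial.eq_C_of_degree_eq_zero h0]
      have h2 : q.leadingCoeff = 1 := hqm
      rw [Polynomial.leadingCoeff, Polynomial.natDegree_eq_zero_iff_degree_le_zero.mpr
        (le_of_eq h0)] at h2
      rw [h2, map_one]
    rw [h1, Polynomial.map_one] at hq
    exact not_irreducible_one (hq ▸ hirr)
  obtain ⟨x, hx⟩ := IsAlgClosed.exists_root (q.map (algebraMap ↥A Ω)) hdeg
  rw [Polynomial.IsRoot.def, Polynomial.eval_map, ← Polynomial.aeval_def] at hx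
  have hxA : x ∈ A := mem_of_isIntegral_valuationSubring A ⟨q, hqm, hx⟩
  refine ⟨IsLocalRing.residue ↥A ⟨x, hxA⟩, ?_⟩
  have h6 := Polynomial.hom_eval₂ q (RingHom.id ↥A) (IsLocalRing.residue ↥A) ⟨x, hxA⟩
  rw [RingHom.comp_id] at h6
  rw [← hq, Polynomial.eval_map, ← h6]
  have h3 : Polynomial.eval₂ (RingHom.id ↥A) (⟨x, hxA⟩ : ↥A) q = 0 := by
    apply Subtype.ext
    have h4 := Polynomial.aeval_algebraMap_apply (A := ↥A) (B := Ω) (⟨x, hxA⟩ : ↥A) q
    have h5 : ((Polynomial.aeval (⟨x, hxA⟩ : ↥A) q : ↥A) : Ω) = Polynomial.aeval x q := h4.symm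
    rw [Polynomial.eval₂_id, ← Polynomial.coe_aeval_eq_eval, h5, hx]
    rfl
  rw [h3, map_zero]

end AlgClosed

section Teichmuller

variable {ℓ : ℕ} [hℓ : Fact ℓ.Prime] {A : ValuationSubring Ω}

attribute [local instance] ZMod.algebra

/-- reduction of an integral polynomial expression. -/
theorem residue_aeval_int [CharP (IsLocalRing.ResidueField ↥A) ℓ] (Z : ↥A) (p : ℤ[X]) :
    IsLocalRing.residue ↥A (aeval Z p) =
      aeval (IsLocalRing.residue ↥A Z) (p.map (Int.castRingHom (ZMod ℓ))) := by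
  have h1 : IsLocalRing.residue ↥A (aeval Z p) = aeval (IsLocalRing.residue ↥A Z) p :=
    (Polynomial.aeval_algHom_apply (IsLocalRing.residue ↥A).toIntAlgHom Z p).symm
  rw [h1, Polynomial.aeval_def, Polynomial.aeval_def, Polynomial.eval₂_map]
  congr 1
  exact RingHom.ext_int _ _

/-- every residue class is algebraic over `𝔽_ℓ`. -/
theorem isAlgebraic_residue [CharP (IsLocalRing.ResidueField ↥A) ℓ] (a : ↥A) :
    IsAlgebraic (ZMod ℓ) (IsLocalRing.residue ↥A a) := by
  have halg : IsAlgebraic ℤ (a : Ω) :=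
    (IsFractionRing.isAlgebraic_iff ℤ ℚ Ω).mpr (Algebra.IsAlgebraic.isAlgebraic (a : Ω))
  obtain ⟨P, hP0, hP⟩ := halg
  -- the primitive part
  have hcont : P.content ≠ 0 := by rwa [Ne, Polynomial.content_eq_zero_iff]
  have hprim : aeval (a : Ω) P.primPart = 0 := by
    have h1 := P.eq_C_content_mul_primPart
    rw [h1, map_mul, aeval_C] at hP
    rcases mul_eq_zero.mp hP with h | h
    · exfalso
      apply hcont
      have : ((P.content : ℤ) : Ω) = 0 := by simpa using h
      exact_mod_cast this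
    · exact h
  have hne : P.primPart.map (Int.castRingHom (ZMod ℓ)) ≠ 0 := by
    intro h0
    obtain ⟨r, hr⟩ := exists_eq_C_mul_of_map_eq_zero (ℓ := ℓ) P.primPart h0
    have h2 : IsUnit ((ℓ : ℕ) : ℤ) :=
      (Polynomial.isPrimitive_iff_isUnit_of_C_dvd.mp P.isPrimitive_primPart) _ ⟨r, hr⟩
    rw [Int.isUnit_iff_natAbs_eq] at h2
    simp only [Int.natAbs_natCast] at h2
    exact hℓ.out.one_lt.ne' h2
  refine ⟨P.primPart.map (Int.castRingHom (ZMod ℓ)), hne, ?_⟩
  rw [← residue_aeval_int]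
  have h3 : ((aeval a P.primPart : ↥A) : Ω) = aeval (a : Ω) P.primPart :=
    (Polynomial.aeval_algebraMap_apply (A := ↥A) (B := Ω) a P.primPart).symm
  have h4 : aeval a P.primPart = 0 := Subtype.ext (by rw [h3, hprim]; rfl)
  rw [h4, map_zero]

/-- a non-zero element of a field of characteristic `ℓ` which is algebraic over `𝔽_ℓ` is a root of
unity of order prime to `ℓ`. -/
theorem exists_pow_eq_one_of_isAlgebraic {k : Type*} [Field k] [CharP k ℓ] {x : k}
    (hx : IsAlgebraic (ZMod ℓ) x) (hx0 : x ≠ 0) : ∃ n : ℕ, 0 < n ∧ ¬ ℓ ∣ n ∧ x ^ n = 1 := by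
  classical
  set E : IntermediateField (ZMod ℓ) k := IntermediateField.adjoin (ZMod ℓ) {x} with hE
  haveI : FiniteDimensional (ZMod ℓ) ↥E := IntermediateField.adjoin.finiteDimensional hx.isIntegral
  haveI : Finite ↥E := Module.finite_of_finite (ZMod ℓ)
  haveI : Fintype ↥E := Fintype.ofFinite _
  have hxE : x ∈ E := IntermediateField.mem_adjoin_simple_self (ZMod ℓ) x
  set y : ↥E := ⟨x, hxE⟩ with hy
  have hy0 : y ≠ 0 := fun h0 => hx0 (congrArg Subtype.val h0)
  have hpow := FiniteField.pow_card_sub_one_eq_one y hy0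
  haveI : CharP ↥E ℓ := charP_of_injective_algebraMap (algebraMap (ZMod ℓ) ↥E).injective ℓ
  obtain ⟨f, -, hcard⟩ := FiniteField.card ↥E ℓ
  have hcard2 : 1 < Fintype.card ↥E := Fintype.one_lt_card
  refine ⟨Fintype.card ↥E - 1, by omega, ?_, ?_⟩
  · intro hdvd
    have h1 : ℓ ∣ Fintype.card ↥E := by
      rw [hcard]
      exact dvd_pow_self ℓ f.ne_zero
    have h2 : ℓ ∣ 1 := by
      have := (Nat.dvd_sub h1 hdvd)
      rwa [Nat.sub_sub_self (by omega)] at this
    exact hℓ.out.one_lt.ne' (Nat.dvd_one.mp h2)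
  · have := congrArg (fun z : ↥E => (z : k)) hpow
    simpa using this

/-- **Teichmüller representatives**: every non-zero residue class of `A` is the class of a root of
unity of order prime to `ℓ`. -/
theorem exists_root_of_unity_residue (hA : A.LiesOverPrime ℓ) (a : ↥A)
    (ha : IsLocalRing.residue ↥A a ≠ 0) :
    ∃ n : ℕ, 0 < n ∧ ¬ ℓ ∣ n ∧ ∃ (ξ : Ω) (hξ : ξ ∈ A), ξ ^ n = 1 ∧
      IsLocalRing.residue ↥A ⟨ξ, hξ⟩ = IsLocalRing.residue ↥A a := by
  haveI : CharP (IsLocalRing.ResidueField ↥A) ℓ := charP_residueField hA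
  obtain ⟨n, hn, hℓn, han⟩ := exists_pow_eq_one_of_isAlgebraic (ℓ := ℓ) (isAlgebraic_residue a) ha
  haveI : NeZero n := ⟨hn.ne'⟩
  obtain ⟨ζ, hζ⟩ := exists_primitiveRoot n
  have hζA : ζ ∈ A := mem_of_isIntegral_int A (hζ.isIntegral hn)
  set Z : ↥A := ⟨ζ, hζA⟩ with hZ
  have hvn : A.valuation (n : Ω) = 1 := valuation_natCast_eq_one hℓ.out hℓn hA
  -- the reduction of `ζ` is a primitive `n`-th root of unity
  have hprim : IsPrimitiveRoot (IsLocalRing.residue ↥A Z) n := by
    rw [IsPrimitiveRoot.iff_def]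
    refine ⟨?_, fun l hl => ?_⟩
    · rw [← map_pow]
      have : Z ^ n = 1 := Subtype.ext (by simpa using hζ.pow_eq_one)
      rw [this, map_one]
    · by_contra hnl
      have h1 : A.valuation (1 - ζ ^ l) = 1 := valuation_one_sub_pow_eq_one hζ hvn hnl
      have h2 : IsLocalRing.residue ↥A (1 - Z ^ l) = 0 := by
        rw [map_sub, map_one, map_pow, hl, sub_self]
      rw [IsLocalRing.residue_eq_zero_iff, A.valuation_lt_one_iff] at h2
      have h3 : (((1 - Z ^ l : ↥A)) : Ω) = 1 - ζ ^ l := by simp [hZ]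
      rw [h3, h1] at h2
      exact lt_irrefl _ h2
  obtain ⟨i, -, hi⟩ := hprim.eq_pow_of_pow_eq_one han
  refine ⟨n, hn, hℓn, ζ ^ i, A.pow_mem hζA i, ?_, ?_⟩
  · rw [← pow_mul, mul_comm, pow_mul, hζ.pow_eq_one, one_pow]
  · rw [← hi, ← map_pow]
    rfl

end Teichmuller

section BaseResidue

variable (A : ValuationSubring Ω) (K₁ : IntermediateField ℚ Ω)

/-- the inclusion `R₁ = A ∩ K₁ → A`. -/
def baseIncl : ↥(baseRing A K₁) →+* ↥A where
  toFun x := ⟨((x : ↥K₁) : Ω), (A.valuation_le_one_iff _).mp (valuation_coe_le_one x)⟩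
  map_one' := rfl
  map_mul' _ _ := rfl
  map_zero' := rfl
  map_add' _ _ := rfl

@[simp]
theorem baseIncl_apply (x : ↥(baseRing A K₁)) :
    ((baseIncl A K₁ x : ↥A) : Ω) = ((x : ↥K₁) : Ω) := rfl

theorem baseIncl_injective : Function.Injective (baseIncl A K₁) := by
  intro x y h
  apply Subtype.ext
  apply Subtype.ext
  exact congrArg (fun z : ↥A => (z : Ω)) h

instance isLocalHom_baseIncl : IsLocalHom (baseIncl A K₁) := by
  refine ⟨fun x hx => ?_⟩
  rw [isUnit_baseRing_iff]
  exact (A.valuation_eq_one_iff _).mp hx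

/-- the map of residue fields `R₁/𝔪₁ → A/𝔪 = k`. -/
noncomputable def baseResidueMap :
    IsLocalRing.ResidueField ↥(baseRing A K₁) →+* IsLocalRing.ResidueField ↥A :=
  IsLocalRing.ResidueField.map (baseIncl A K₁)

@[simp]
theorem baseResidueMap_residue (x : ↥(baseRing A K₁)) :
    baseResidueMap A K₁ (IsLocalRing.residue _ x) = IsLocalRing.residue _ (baseIncl A K₁ x) :=
  rfl

theorem baseResidueMap_injective : Function.Injective (baseResidueMap A K₁) :=
  RingHom.injective _

variable {A K₁} {ℓ : ℕ} [hℓ : Fact ℓ.Prime]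

/-- **the residue field of `R₁ = A ∩ K₁` is all of `k`** as soon as `K₁ ⊇ K^♭`. -/
theorem baseResidueMap_surjective (hA : A.LiesOverPrime ℓ) (h : flatBase ℓ ≤ K₁) :
    Function.Surjective (baseResidueMap A K₁) := by
  intro ā
  obtain ⟨a, rfl⟩ := IsLocalRing.residue_surjective ā
  by_cases ha : IsLocalRing.residue ↥A a = 0
  · exact ⟨0, by rw [map_zero, ha]⟩
  · obtain ⟨n, hn, hℓn, ξ, hξ, hξn, hres⟩ := exists_root_of_unity_residue hA a ha
    have hξK : ξ ∈ K₁ := h (root_mem_flatBase hn hℓn hξn)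
    have hmem : (⟨ξ, hξK⟩ : ↥K₁) ∈ baseRing A K₁ :=
      mem_baseRing_iff.mpr ((A.valuation_le_one_iff _).mpr hξ)
    refine ⟨IsLocalRing.residue _ ⟨⟨ξ, hξK⟩, hmem⟩, ?_⟩
    rw [baseResidueMap_residue, ← hres]
    rfl

theorem baseResidueMap_bijective (hA : A.LiesOverPrime ℓ) (h : flatBase ℓ ≤ K₁) :
    Function.Bijective (baseResidueMap A K₁) :=
  ⟨baseResidueMap_injective A K₁, baseResidueMap_surjective hA h⟩

theorem IsBase.baseResidueMap_bijective (hK₁ : IsBase ℓ K₁) (hA : A.LiesOverPrime ℓ) :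
    Function.Bijective (baseResidueMap A K₁) :=
  Fermat.Agent.JA.baseResidueMap_bijective hA hK₁.flatBase_le

/-- the identification of the residue field of `R₁` with `k`. -/
noncomputable def baseResidueEquiv (hA : A.LiesOverPrime ℓ) (h : flatBase ℓ ≤ K₁) :
    IsLocalRing.ResidueField ↥(baseRing A K₁) ≃+* IsLocalRing.ResidueField ↥A :=
  RingEquiv.ofBijective (baseResidueMap A K₁) (baseResidueMap_bijective hA h)

@[simp]
theorem baseResidueEquiv_apply (hA : A.LiesOverPrime ℓ) (h : flatBase ℓ ≤ K₁)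
    (x : IsLocalRing.ResidueField ↥(baseRing A K₁)) :
    baseResidueEquiv hA h x = baseResidueMap A K₁ x := rfl

/-- **the residue field of `R₁` is algebraically closed.** -/
theorem isAlgClosed_residueField_baseRing (hA : A.LiesOverPrime ℓ) (h : flatBase ℓ ≤ K₁) :
    IsAlgClosed (IsLocalRing.ResidueField ↥(baseRing A K₁)) := by
  haveI := isAlgClosed_residueField A
  exact IsAlgClosed.of_ringEquiv _ _ (baseResidueEquiv hA h).symm

theorem IsBase.isAlgClosed_residueField (hK₁ : IsBase ℓ K₁) (hA : A.LiesOverPrime ℓ) :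
    IsAlgClosed (IsLocalRing.ResidueField ↥(baseRing A K₁)) :=
  isAlgClosed_residueField_baseRing hA hK₁.flatBase_le

/-- the residue field of `R₁` has characteristic `ℓ` (any intermediate field `K₁`). -/
theorem charP_residueField_baseRing (hA : A.LiesOverPrime ℓ) (K₁ : IntermediateField ℚ Ω) :
    CharP (IsLocalRing.ResidueField ↥(baseRing A K₁)) ℓ := by
  haveI := charP_residueField hA
  exact (RingHom.charP_iff (baseResidueMap A K₁) (baseResidueMap_injective A K₁) ℓ).mpr
    inferInstance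

end BaseResidue

section Tower

variable (A : ValuationSubring Ω) {K₁ K₂ : IntermediateField ℚ Ω}

/-- for `K₁ ≤ K₂`, the inclusion `A ∩ K₁ → A ∩ K₂`. -/
noncomputable def baseRingIncl (h : K₁ ≤ K₂) : ↥(baseRing A K₁) →+* ↥(baseRing A K₂) where
  toFun x := ⟨IntermediateField.inclusion h (x : ↥K₁),
    mem_baseRing_iff.mpr (valuation_coe_le_one x)⟩
  map_one' := rfl
  map_mul' _ _ := rfl
  map_zero' := rfl
  map_add' _ _ := rfl

@[simp]
theorem baseRingIncl_apply (h : K₁ ≤ K₂) (x : ↥(baseRing A K₁)) :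
    (((baseRingIncl A h x : ↥(baseRing A K₂)) : ↥K₂) : Ω) = ((x : ↥K₁) : Ω) := rfl

theorem baseIncl_comp_baseRingIncl (h : K₁ ≤ K₂) :
    (baseIncl A K₂).comp (baseRingIncl A h) = baseIncl A K₁ := rfl

theorem baseRingIncl_injective (h : K₁ ≤ K₂) : Function.Injective (baseRingIncl A h) := by
  intro x y hxy
  apply baseIncl_injective A K₁
  have := congrArg (baseIncl A K₂) hxy
  exact this

instance isLocalHom_baseRingIncl (h : K₁ ≤ K₂) : IsLocalHom (baseRingIncl A h) := by
  refine ⟨fun x hx => ?_⟩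
  rw [isUnit_baseRing_iff] at hx ⊢
  exact hx

/-- `A ∩ K₂` lies over `A ∩ K₁`: the maximal ideal contracts to the maximal ideal. -/
theorem comap_maximalIdeal_baseRingIncl (h : K₁ ≤ K₂) :
    (IsLocalRing.maximalIdeal ↥(baseRing A K₂)).comap (baseRingIncl A h) =
      IsLocalRing.maximalIdeal ↥(baseRing A K₁) :=
  ((IsLocalRing.local_hom_TFAE (baseRingIncl A h)).out 0 4).mp (isLocalHom_baseRingIncl A h)

theorem baseResidueMap_comp_map_baseRingIncl (h : K₁ ≤ K₂) :
    (baseResidueMap A K₂).comp (IsLocalRing.ResidueField.map (baseRingIncl A h)) =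
      baseResidueMap A K₁ :=
  (IsLocalRing.ResidueField.map_comp (baseRingIncl A h) (baseIncl A K₂)).symm

variable {A} {ℓ : ℕ} [hℓ : Fact ℓ.Prime]

/-- for `K^♭ ≤ K₁ ≤ K₂` the residue fields of `A ∩ K₁` and `A ∩ K₂` coincide. -/
theorem residueField_map_baseRingIncl_bijective (hA : A.LiesOverPrime ℓ)
    (h₁ : flatBase ℓ ≤ K₁) (h : K₁ ≤ K₂) :
    Function.Bijective (IsLocalRing.ResidueField.map (baseRingIncl A h)) := by
  refine ⟨RingHom.injective _, fun y => ?_⟩
  obtain ⟨x, hx⟩ := baseResidueMap_surjective hA h₁ (baseResidueMap A K₂ y)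
  refine ⟨x, baseResidueMap_injective A K₂ ?_⟩
  rw [← hx, ← baseResidueMap_comp_map_baseRingIncl A h]
  rfl

end Tower

end Fermat.Agent.JA
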