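/-
J-A, package BASE, helper1. Summary file: the outputs of the package for a base
`K^♭ ⊆ K₁ ⊂ Ω = AlgebraicClosure ℚ` (`[K₁ : K^♭] < ∞`) and `R₁ = A ∩ K₁`, where `A` is a valuation
ring of `Ω` over `ℓ`:
* `R₁` is a discrete valuation ring with fraction field `K₁` (characteristic zero),
* its residue field is algebraically closed of characteristic `ℓ` (and equal to that of `A`),
* `K₁` contains the roots of unity of order prime to `ℓ`,
* the bases are directed and exhaust `Ω`; `A ∩ K₂` lies over `A ∩ K₁` for `K₁ ≤ K₂`.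
-/
import Fermat.Agent.JA.BASE_helper1_Res

set_option autoImplicit false
set_option linter.unusedSectionVars false
set_option linter.style.haveILetI false

namespace Fermat.Agent.JA

/-- `Ω = AlgebraicClosure ℚ`. -/
local notation "Ω" => AlgebraicClosure ℚ

variable {ℓ : ℕ} [hℓ : Fact ℓ.Prime] {A : ValuationSubring Ω} {K₁ : IntermediateField ℚ Ω}

/-- `K₁` is the fraction field of `R₁ = A ∩ K₁` (Mathlib instance, recorded for consumers). -/
theorem isFractionRing_baseRing (A : ValuationSubring Ω) (K₁ : IntermediateField ℚ Ω) :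
    IsFractionRing ↥(baseRing A K₁) ↥K₁ := inferInstance

/-- `K₁` has characteristic zero. -/
theorem charZero_base (K₁ : IntermediateField ℚ Ω) : CharZero ↥K₁ := inferInstance

/-- a base contains a primitive `n`-th root of unity for every `n` prime to `ℓ`. -/
theorem IsBase.exists_isPrimitiveRoot (h : IsBase ℓ K₁) {n : ℕ} (hn : 0 < n) (hℓn : ¬ ℓ ∣ n) :
    ∃ ζ : ↥K₁, IsPrimitiveRoot ζ n := by
  haveI : NeZero n := ⟨hn.ne'⟩
  obtain ⟨ζ, hζ⟩ := HasEnoughRootsOfUnity.exists_primitiveRoot Ω n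
  refine ⟨⟨ζ, h.root_mem hn hℓn hζ.pow_eq_one⟩, ?_⟩
  exact IsPrimitiveRoot.of_map_of_injective (f := algebraMap ↥K₁ Ω) hζ
    (algebraMap ↥K₁ Ω).injective

/-- the roots of unity of order prime to `ℓ` are units of `R₁`. -/
theorem IsBase.exists_isPrimitiveRoot_baseRing (A : ValuationSubring Ω) (h : IsBase ℓ K₁) {n : ℕ}
    (hn : 0 < n) (hℓn : ¬ ℓ ∣ n) : ∃ ζ : ↥(baseRing A K₁), IsPrimitiveRoot ζ n := by
  obtain ⟨ζ, hζ⟩ := h.exists_isPrimitiveRoot hn hℓn
  have hmem : ζ ∈ baseRing A K₁ := by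
    rw [mem_baseRing_iff]
    have h1 : (A.valuation (ζ : Ω)) ^ n = 1 := by
      rw [← map_pow]
      have : ((ζ : Ω)) ^ n = 1 := by
        have := congrArg (fun z : ↥K₁ => (z : Ω)) hζ.pow_eq_one
        exact this
      rw [this, map_one]
    exact le_of_eq (eq_one_of_pow_eq_one' hn.ne' h1)
  refine ⟨⟨ζ, hmem⟩, ?_⟩
  exact IsPrimitiveRoot.of_map_of_injective (f := (baseRing A K₁).subtype) hζ
    Subtype.val_injective

/-- **summary**: all the outputs for a base, in one statement. -/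
theorem IsBase.summary (hA : A.LiesOverPrime ℓ) (h : IsBase ℓ K₁) :
    IsDiscreteValuationRing ↥(baseRing A K₁) ∧
      IsFractionRing ↥(baseRing A K₁) ↥K₁ ∧
      IsAlgClosed (IsLocalRing.ResidueField ↥(baseRing A K₁)) ∧
      CharP (IsLocalRing.ResidueField ↥(baseRing A K₁)) ℓ ∧
      Function.Bijective (baseResidueMap A K₁) ∧
      ((ℓ : ℕ) : ↥(baseRing A K₁)) ∈ IsLocalRing.maximalIdeal ↥(baseRing A K₁) ∧
      ∀ n : ℕ, 0 < n → ¬ ℓ ∣ n → ∃ ζ : ↥(baseRing A K₁), IsPrimitiveRoot ζ n :=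
  ⟨h.isDiscreteValuationRing hA, inferInstance, h.isAlgClosed_residueField hA,
    charP_residueField_baseRing hA K₁, h.baseResidueMap_bijective hA,
    natCast_prime_mem_maximalIdeal hA K₁,
    fun _ hn hℓn => h.exists_isPrimitiveRoot_baseRing A hn hℓn⟩

end Fermat.Agent.JA
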