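/-
J-A package G1 (helper5), part D: the abstract inequality `f ≤ n` for Gauss valuation rings.
Elements of the Gauss valuation ring `𝒲 ⊆ L((t))` whose reductions are linearly independent
over `κ(s̃)` are linearly independent over `L(s)`.
-/
import Fermat.Agent.Igusa.V_helper5_GaussLemma

set_option autoImplicit false
set_option linter.unusedSectionVars false

open Polynomial IntermediateField Fermat.Agent.Igusa

namespace Fermat.Agent.JA

noncomputable section

section Indep

variable {R : Type*} [CommRing R] [IsDomain R] [IsDiscreteValuationRing R]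
  {L : Type*} [Field L] [Algebra R L] [IsFractionRing R L]

local notation "kR" => IsLocalRing.ResidueField R

variable {ι : Type*} (s : gaussInt R L) (y : ι → gaussInt R L)

theorem evalW_C_pow_mul (ϖ : R) (n : ℕ) (P : R[X]) :
    evalW s (C ϖ ^ n * P) = constW ϖ ^ n * evalW s P := by
  rw [map_mul, map_pow, evalW, coe_eval₂RingHom, eval₂_C]

theorem constW_ne_zero {c : R} (hc : c ≠ 0) : (constW (L := L) c : gaussInt R L) ≠ 0 := by
  intro h
  have h1 := congrArg (fun z : gaussInt R L => (z : LaurentSeries L)) h
  simp only [coe_constW, Subring.coe_zero, constR_apply] at h1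
  exact C_algebraMap_ne_zero hc h1

theorem gaussRed_evalW_mem (P : R[X]) :
    gaussRed R L (evalW s P) ∈ IntermediateField.adjoin kR {gaussRed R L s} := by
  rw [gaussRed_evalW]
  exact aeval_mem_adjoin_simple _ _

/-- **(D0)** a relation with coefficients in `R[s]` between elements whose reductions are
independent over `κ(s̃)` is trivial. -/
theorem eq_zero_of_sum_evalW_mul_eq_zero
    (hst : Transcendental kR (gaussRed R L s))
    (hy : LinearIndependent (IntermediateField.adjoin kR {gaussRed R L s})
      (fun i => gaussRed R L (y i)))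
    (S : Finset ι) (P : ι → R[X]) (h : ∑ i ∈ S, evalW s (P i) * y i = 0) :
    ∀ i ∈ S, P i = 0 := by
  classical
  obtain ⟨ϖ, hϖ⟩ := IsDiscreteValuationRing.exists_irreducible R
  have key : ∀ n : ℕ, ∀ P : ι → R[X], ∑ i ∈ S, evalW s (P i) * y i = 0 →
      ∀ i ∈ S, C ϖ ^ n ∣ P i := by
    intro n
    induction n with
    | zero => intro P _ i _; rw [pow_zero]; exact one_dvd _
    | succ n ih =>
      intro P hP
      have h1 : ∀ i, ∃ P' : R[X], i ∈ S → P i = C ϖ ^ n * P' := by
        intro i
        by_cases hi : i ∈ S
        · obtain ⟨P', hP'⟩ := ih P hP i hi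
          exact ⟨P', fun _ => hP'⟩
        · exact ⟨0, fun h => absurd h hi⟩
      choose P' hP' using h1
      have h2 : ∑ i ∈ S, evalW s (P' i) * y i = 0 := by
        have h3 : constW (L := L) ϖ ^ n * ∑ i ∈ S, evalW s (P' i) * y i = 0 := by
          rw [← hP, Finset.mul_sum]
          apply Finset.sum_congr rfl
          intro i hi
          rw [hP' i hi, evalW_C_pow_mul, mul_assoc]
        exact (mul_eq_zero.mp h3).resolve_left (pow_ne_zero _ (constW_ne_zero hϖ.ne_zero))
      have h4 : ∑ i ∈ S,
          (⟨gaussRed R L (evalW s (P' i)), gaussRed_evalW_mem s (P' i)⟩ :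
            IntermediateField.adjoin kR {gaussRed R L s}) • gaussRed R L (y i) = 0 := by
        have := congrArg (gaussRed R L) h2
        rw [map_sum, map_zero] at this
        rw [← this]
        apply Finset.sum_congr rfl
        intro i _
        rw [map_mul]
        rfl
      have h5 := (linearIndependent_iff'.mp hy) S _ h4
      intro i hi
      have h6 := congrArg Subtype.val (h5 i hi)
      simp only [ZeroMemClass.coe_zero] at h6
      rw [gaussRed_evalW] at h6
      have h7 : (P' i).map (IsLocalRing.residue R) = 0 := (transcendental_iff.mp hst) _ h6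
      obtain ⟨P'', hP''⟩ := (map_residue_eq_zero_iff hϖ (P' i)).mp h7
      refine ⟨P'', ?_⟩
      rw [hP' i hi, hP'', pow_succ]
      ring
  intro i hi
  by_contra hne
  obtain ⟨m, P₀, hP₀, hr⟩ := exists_C_pow_mul_map_ne_zero hϖ hne
  obtain ⟨Q, hQ⟩ := key (m + 1) P h i hi
  apply hr
  rw [map_residue_eq_zero_iff hϖ]
  refine ⟨Q, ?_⟩
  have hC : (C ϖ : R[X]) ^ m ≠ 0 := pow_ne_zero _ (by rw [Ne, C_eq_zero]; exact hϖ.ne_zero)
  apply mul_left_cancel₀ hC
  rw [← hP₀, hQ, pow_succ]
  ring

theorem coe_evalW_eq_aeval (P : R[X]) :
    ((evalW s P : gaussInt R L) : LaurentSeries L) =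
      aeval (s : LaurentSeries L) (P.map (algebraMap R L)) := by
  rw [coe_evalW, aeval_def, eval₂_map]
  rfl

open IntermediateField.algebraAdjoinAdjoin in
/-- **(D1)** elements of `𝒲` with `κ(s̃)`-independent reductions are `L(s)`-independent. -/
theorem linearIndependent_adjoin_of_gaussRed
    (hst : Transcendental kR (gaussRed R L s))
    (hy : LinearIndependent (IntermediateField.adjoin kR {gaussRed R L s})
      (fun i => gaussRed R L (y i))) :
    LinearIndependent (IntermediateField.adjoin L {(s : LaurentSeries L)})
      (fun i => (y i : LaurentSeries L)) := by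
  classical
  have h5 : LinearIndependent (Algebra.adjoin L {(s : LaurentSeries L)})
      (fun i => (y i : LaurentSeries L)) := by
    rw [linearIndependent_iff']
    intro S g hg i hi
    have hpoly : ∀ j, ∃ P : L[X], aeval (s : LaurentSeries L) P = (g j : LaurentSeries L) := by
      intro j
      have h := (g j).2
      have e : Algebra.adjoin L {(s : LaurentSeries L)} =
          (Polynomial.aeval (R := L) (s : LaurentSeries L)).range :=
        Algebra.adjoin_singleton_eq_range_aeval L _
      have h' : (g j : LaurentSeries L) ∈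
          (Polynomial.aeval (R := L) (s : LaurentSeries L)).range := by
        rw [← e]; exact h
      exact h'
    choose P hP using hpoly
    obtain ⟨b, hb⟩ := IsLocalization.exist_integer_multiples_of_finset (nonZeroDivisors R)
      (S.biUnion (fun j => (P j).coeffs))
    have hlift : ∀ j, ∃ P'' : R[X], j ∈ S → P''.map (algebraMap R L) = (b : R) • P j := by
      intro j
      by_cases hj : j ∈ S
      · have hmem : (b : R) • P j ∈ Polynomial.lifts (algebraMap R L) := by
          rw [Polynomial.lifts_iff_coeff_lifts]
          intro n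
          rw [Polynomial.coeff_smul]
          by_cases h0 : (P j).coeff n = 0
          · rw [h0, smul_zero]
            exact ⟨0, map_zero _⟩
          · exact hb _ (Finset.mem_biUnion.mpr ⟨j, hj, Polynomial.coeff_mem_coeffs h0⟩)
        obtain ⟨P'', hP''⟩ := hmem
        exact ⟨P'', fun _ => hP''⟩
      · exact ⟨0, fun h => absurd h hj⟩
    choose P'' hP'' using hlift
    have hcoe : ∀ j ∈ S, ((evalW s (P'' j) : gaussInt R L) : LaurentSeries L) =
        constR (b : R) * (g j : LaurentSeries L) := by
      intro j hj
      rw [coe_evalW_eq_aeval, hP'' j hj, ← hP j, ← IsScalarTower.algebraMap_smul L (b : R) (P j),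
        Algebra.smul_def, map_mul, Polynomial.algebraMap_apply, aeval_C]
      rfl
    have hrel : ∑ j ∈ S, evalW s (P'' j) * y j = 0 := by
      apply Subtype.ext
      rw [Subring.coe_zero]
      have : ((∑ j ∈ S, evalW s (P'' j) * y j : gaussInt R L) : LaurentSeries L) =
          ∑ j ∈ S, ((evalW s (P'' j) : gaussInt R L) : LaurentSeries L) * (y j : LaurentSeries L) := by
        rw [← Subring.coe_subtype, map_sum]
        rfl
      rw [this]
      have h2 : ∑ j ∈ S, ((evalW s (P'' j) : gaussInt R L) : LaurentSeries L) *
          (y j : LaurentSeries L) = constR (b : R) * ∑ j ∈ S, g j • (y j : LaurentSeries L) := by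
        rw [Finset.mul_sum]
        apply Finset.sum_congr rfl
        intro j hj
        rw [hcoe j hj, Subalgebra.smul_def, smul_eq_mul, mul_assoc]
      rw [h2, hg, mul_zero]
    have hzero := eq_zero_of_sum_evalW_mul_eq_zero s y hst hy S P'' hrel i hi
    have h3 := hcoe i hi
    rw [hzero, map_zero, Subring.coe_zero] at h3
    have hb0 : constR (L := L) (b : R) ≠ 0 := by
      rw [constR_apply]
      exact C_algebraMap_ne_zero (nonZeroDivisors.ne_zero b.2)
    apply Subtype.ext
    exact (mul_eq_zero.mp h3.symm).resolve_left hb0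
  exact (LinearIndependent.iff_fractionRing (Algebra.adjoin L {(s : LaurentSeries L)})
    L⟮(s : LaurentSeries L)⟯).mp h5

end Indep

end

end Fermat.Agent.JA
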