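/-
J-A package G1 (helper5), part F: the abstract structure theorem for the Gauss valuation ring of a
finite extension `F / L(s)` inside `L((t))` whose residue degree equals its degree:
`V_F = ⊕ V_s xⁱ`, residue field `κ(s̃)(x̃)`, `x` integral, bounded denominators, uniqueness of the
extension of the Gauss valuation.
-/
import Fermat.Agent.JA.G1_helper5_Indep
import Fermat.Agent.Igusa.V_helper5_Val

set_option autoImplicit false
set_option linter.unusedSectionVars false

open Polynomial IntermediateField Fermat.Agent.Igusa ModularCurve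

namespace Fermat.Agent.JA

noncomputable section

section Tools

variable {R : Type*} [CommRing R] [IsDomain R] [IsDiscreteValuationRing R]
  {L : Type*} [Field L] [Algebra R L] [IsFractionRing R L]

local notation "kR" => IsLocalRing.ResidueField R

/-- polynomial evaluation in `R((t))`. -/
def evalR (sR : LaurentSeries R) : R[X] →+* LaurentSeries R := eval₂RingHom HahnSeries.C sR

theorem emb_evalR (sR : LaurentSeries R) (P : R[X]) :
    emb R L (evalR sR P) = P.eval₂ constR (emb R L sR) := by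
  rw [evalR, coe_eval₂RingHom, Polynomial.hom_eval₂]
  congr 1
  ext c : 1
  rw [RingHom.comp_apply, emb_C, constR_apply]

theorem red_evalR (sR : LaurentSeries R) (P : R[X]) :
    red R (evalR sR P) = aeval (red R sR) (P.map (IsLocalRing.residue R)) := by
  rw [evalR, coe_eval₂RingHom, Polynomial.hom_eval₂, aeval_def, eval₂_map]
  congr 1
  ext c : 1
  rw [RingHom.comp_apply, RingHom.comp_apply, red_C, algebraMap_laurentSeries_eq_single]
  rfl

/-- a series over `R` as an element of `𝒲`. -/
def embW (f : LaurentSeries R) : gaussInt R L := ⟨emb R L f, emb_mem_gaussInt R L f⟩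

theorem gaussRed_embW (f : LaurentSeries R) : gaussRed R L (embW (L := L) f) = red R f :=
  gaussRed_emb R L f

theorem coe_embW (f : LaurentSeries R) : ((embW (L := L) f : gaussInt R L) : LaurentSeries L) =
    emb R L f := rfl

/-- elements of `L(s)` are quotients of polynomials over `R` in `s`. -/
theorem exists_poly_div_of_mem_adjoin' {s : LaurentSeries L}
    {c : LaurentSeries L} (hc : c ∈ IntermediateField.adjoin L {s}) :
    ∃ P Q : R[X], Q.eval₂ constR s ≠ 0 ∧ c * Q.eval₂ constR s = P.eval₂ constR s := by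
  obtain ⟨p, q, hxpq⟩ := (IntermediateField.mem_adjoin_simple_iff L c).1 hc
  by_cases hq0 : aeval s q = 0
  · refine ⟨0, 1, ?_, ?_⟩
    · rw [eval₂_one]; exact one_ne_zero
    · rw [hxpq, hq0, div_zero, zero_mul, eval₂_zero]
  obtain ⟨bp, hbpM, hbp⟩ := IsLocalization.integerNormalization_spec (nonZeroDivisors R) p
  obtain ⟨bq, hbqM, hbq⟩ := IsLocalization.integerNormalization_spec (nonZeroDivisors R) q
  set P₁ := IsLocalization.integerNormalization (nonZeroDivisors R) p with hP₁
  set Q₁ := IsLocalization.integerNormalization (nonZeroDivisors R) q with hQ₁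
  have hev : ∀ (P : R[X]), P.eval₂ constR s = aeval s (P.map (algebraMap R L)) := by
    intro P
    rw [aeval_def, eval₂_map]
    rfl
  have hbp0 : constR (L := L) (bp : R) ≠ 0 := by
    rw [constR_apply]; exact C_algebraMap_ne_zero (nonZeroDivisors.ne_zero hbpM)
  have hbq0 : constR (L := L) (bq : R) ≠ 0 := by
    rw [constR_apply]; exact C_algebraMap_ne_zero (nonZeroDivisors.ne_zero hbqM)
  have hsm : ∀ (b : R) (p : L[X]), aeval s (b • p) = constR b * aeval s p := by
    intro b p
    rw [← IsScalarTower.algebraMap_smul L b p, Algebra.smul_def, map_mul]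
    rw [Polynomial.algebraMap_apply, aeval_C]
    rfl
  have hP₁s : P₁.eval₂ constR s = constR (bp : R) * aeval s p := by
    rw [hev, hbp, hsm]
  have hQ₁s : Q₁.eval₂ constR s = constR (bq : R) * aeval s q := by
    rw [hev, hbq, hsm]
  refine ⟨C (bq : R) * P₁, C (bp : R) * Q₁, ?_, ?_⟩
  · rw [eval₂_mul, eval₂_C, hQ₁s]
    exact mul_ne_zero hbp0 (mul_ne_zero hbq0 hq0)
  · rw [eval₂_mul, eval₂_mul, eval₂_C, eval₂_C, hP₁s, hQ₁s, hxpq]
    field_simp

/-- elements of `L(s) ∩ 𝒲` are quotients `P(s)/Q(s)` with `Q̄ ≠ 0`. -/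
theorem exists_poly_div_of_mem_adjoin {s : LaurentSeries L} (hs : s ∈ gaussInt R L)
    (hst : Transcendental kR (gaussRed R L ⟨s, hs⟩))
    {c : LaurentSeries L} (hc : c ∈ IntermediateField.adjoin L {s}) (hci : c ∈ gaussInt R L) :
    ∃ P Q : R[X], Q.map (IsLocalRing.residue R) ≠ 0 ∧
      c * Q.eval₂ constR s = P.eval₂ constR s := by
  obtain ⟨ϖ, hϖ⟩ := IsDiscreteValuationRing.exists_irreducible R
  obtain ⟨P, Q, hQs, hrel⟩ := exists_poly_div_of_mem_adjoin' (R := R) hc
  have hQ0 : Q ≠ 0 := by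
    rintro rfl
    rw [eval₂_zero] at hQs
    exact hQs rfl
  obtain ⟨b, Q₀, hQb, hQ₀⟩ := exists_C_pow_mul_map_ne_zero hϖ hQ0
  have hc' : c * Q₀.eval₂ constR s ∈ gaussInt R L :=
    (gaussInt R L).mul_mem hci (eval₂_constR_mem_gaussInt hs Q₀)
  have h : constR (R := R) (L := L) ϖ ^ b * (c * Q₀.eval₂ constR s) = P.eval₂ constR s := by
    rw [← hrel, hQb, eval₂_mul, eval₂_pow, eval₂_C]
    ring
  obtain ⟨Q', hQ'⟩ := gauss_lemma hϖ hs hst hc' b P h
  exact ⟨Q', Q₀, hQ₀, hQ'⟩

end Tools

section Abstract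

variable {R : Type*} [CommRing R] [IsDomain R] [IsDiscreteValuationRing R]
  {L : Type*} [Field L] [Algebra R L] [IsFractionRing R L]

local notation "kR" => IsLocalRing.ResidueField R

theorem exists_pow_mul_mem_gaussInt {ϖ : R} (hϖ : Irreducible ϖ) {x : LaurentSeries L}
    (hx : x ∈ gaussField R L) :
    ∃ k : ℕ, HahnSeries.C (algebraMap R L ϖ) ^ k * x ∈ gaussInt R L := by
  by_cases hx0 : x = 0
  · exact ⟨0, by rw [hx0, mul_zero]; exact (gaussInt R L).zero_mem⟩
  obtain ⟨a, b, f, g, hf, hg, h⟩ := exists_normal_form hϖ hx hx0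
  refine ⟨b, HahnSeries.C ϖ ^ a * f, g, hg, ?_⟩
  rw [map_mul, map_pow, emb_C, ← h]
  ring

variable (F : IntermediateField L (LaurentSeries L))
  (sR xR : LaurentSeries R) (hs : emb R L sR ∈ F) (hx : emb R L xR ∈ F)
  (hst : Transcendental (IsLocalRing.ResidueField R) (red R sR)) (n : ℕ)
  (hub : ∀ (ι : Type) [Fintype ι] (b : ι → LaurentSeries L), (∀ i, b i ∈ F) →
      LinearIndependent L⟮emb R L sR⟯ b → Fintype.card ι ≤ n)
  (hlb : LinearIndependent (IsLocalRing.ResidueField R)⟮red R sR⟯
    (fun i : Fin n => (red R xR) ^ (i : ℕ)))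

include hst hlb in
/-- **(A1a)** the powers `xⁱ`, `i < n`, are independent over `L(s)`. -/
theorem linearIndependent_pow_emb :
    LinearIndependent L⟮emb R L sR⟯ (fun i : Fin n => (emb R L xR) ^ (i : ℕ)) := by
  have h1 : Transcendental kR (gaussRed R L (embW (L := L) sR)) := by
    rw [gaussRed_embW]; exact hst
  have h2 : LinearIndependent (IntermediateField.adjoin kR {gaussRed R L (embW (L := L) sR)})
      (fun i : Fin n => gaussRed R L ((embW (L := L) xR) ^ (i : ℕ))) := by
    have e : (fun i : Fin n => gaussRed R L ((embW (L := L) xR) ^ (i : ℕ))) =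
        fun i : Fin n => (red R xR) ^ (i : ℕ) := by
      funext i
      rw [map_pow, gaussRed_embW]
    rw [e, gaussRed_embW]
    exact hlb
  exact linearIndependent_adjoin_of_gaussRed (embW (L := L) sR)
    (fun i : Fin n => (embW (L := L) xR) ^ (i : ℕ)) h1 h2

include hs hx hst hub hlb in
/-- **(A1b)** every element of `F` is an `L(s)`-combination of the `xⁱ`, `i < n`. -/
theorem exists_repr {z : LaurentSeries L} (hz : z ∈ F) :
    ∃ c : Fin n → L⟮emb R L sR⟯, z = ∑ i, (c i : LaurentSeries L) * (emb R L xR) ^ (i : ℕ) := by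
  have hli := linearIndependent_pow_emb (L := L) sR xR hst n hlb
  by_contra hcon
  have hnot : z ∉ Submodule.span L⟮emb R L sR⟯
      (Set.range (fun i : Fin n => (emb R L xR) ^ (i : ℕ))) := by
    intro hmem
    rw [Submodule.mem_span_range_iff_exists_fun] at hmem
    obtain ⟨c, hc⟩ := hmem
    apply hcon
    refine ⟨c, ?_⟩
    rw [← hc]
    apply Finset.sum_congr rfl
    intro i _
    rw [IntermediateField.smul_def, smul_eq_mul]
  have h1 := linearIndependent_finSnoc.mpr ⟨hli, hnot⟩
  have h2 := hub (Fin (n + 1)) _ (by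
    intro i
    refine Fin.lastCases ?_ (fun j => ?_) i
    · rw [Fin.snoc_last]; exact hz
    · rw [Fin.snoc_castSucc]; exact pow_mem hx _) h1
  rw [Fintype.card_fin] at h2
  omega

include hst hlb in
/-- **(A2)** if `∑ cᵢ xⁱ` is integral (`cᵢ ∈ L(s)`), then all `cᵢ` are integral:
`V_F = ⊕ V_s xⁱ`. -/
theorem coord_mem_gaussInt (c : Fin n → L⟮emb R L sR⟯)
    (hz : ∑ i, (c i : LaurentSeries L) * (emb R L xR) ^ (i : ℕ) ∈ gaussInt R L) :
    ∀ i, (c i : LaurentSeries L) ∈ gaussInt R L := by
  classical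
  obtain ⟨ϖ, hϖ⟩ := IsDiscreteValuationRing.exists_irreducible R
  have hC := C_algebraMap_ne_zero (L := L) hϖ.ne_zero
  have hCmem : (HahnSeries.C (algebraMap R L ϖ) : LaurentSeries L) ∈ L⟮emb R L sR⟯ := by
    have : (HahnSeries.C (algebraMap R L ϖ) : LaurentSeries L) =
        algebraMap L (LaurentSeries L) (algebraMap R L ϖ) := by
      rw [algebraMap_laurentSeries_eq_single]; rfl
    rw [this]
    exact IntermediateField.algebraMap_mem _ _
  have hst' : Transcendental kR (gaussRed R L ⟨emb R L sR, emb_mem_gaussInt R L sR⟩) := by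
    rw [gaussRed_emb]; exact hst
  have key : ∀ k : ℕ, ∀ c : Fin n → L⟮emb R L sR⟯,
      ∑ i, (c i : LaurentSeries L) * (emb R L xR) ^ (i : ℕ) ∈ gaussInt R L →
      (∀ i, HahnSeries.C (algebraMap R L ϖ) ^ k * (c i : LaurentSeries L) ∈ gaussInt R L) →
      ∀ i, (c i : LaurentSeries L) ∈ gaussInt R L := by
    intro k
    induction k with
    | zero =>
      intro c _ h i
      have := h i
      rwa [pow_zero, one_mul] at this
    | succ k ih =>
      intro c hz h
      apply ih c hz
      -- the reductions of `dᵢ = ϖ^(k+1) cᵢ` vanish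
      let dW : Fin n → gaussInt R L := fun i => ⟨_, h i⟩
      have hdmem : ∀ i, ((dW i : gaussInt R L) : LaurentSeries L) ∈ L⟮emb R L sR⟯ := fun i =>
        (L⟮emb R L sR⟯).mul_mem (pow_mem hCmem _) (c i).2
      have hsum : ∑ i, dW i * (embW (L := L) xR) ^ (i : ℕ) =
          constW ϖ ^ (k + 1) * ⟨_, hz⟩ := by
        apply Subtype.ext
        have e1 : ((∑ i, dW i * (embW (L := L) xR) ^ (i : ℕ) : gaussInt R L) : LaurentSeries L) =
            ∑ i, ((dW i : gaussInt R L) : LaurentSeries L) * (emb R L xR) ^ (i : ℕ) := by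
          rw [← Subring.coe_subtype, map_sum]
          rfl
        rw [e1]
        show _ = constR ϖ ^ (k + 1) * ∑ i, (c i : LaurentSeries L) * (emb R L xR) ^ (i : ℕ)
        rw [Finset.mul_sum]
        apply Finset.sum_congr rfl
        intro i _
        show HahnSeries.C (algebraMap R L ϖ) ^ (k + 1) * (c i : LaurentSeries L) *
          (emb R L xR) ^ (i : ℕ) = constR ϖ ^ (k + 1) * ((c i : LaurentSeries L) *
          (emb R L xR) ^ (i : ℕ))
        rw [constR_apply, mul_assoc]
      have hred : ∑ i, (⟨gaussRed R L (dW i), by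
            have := gaussRed_mem_adjoin (emb_mem_gaussInt R L sR) hst' (hdmem i) (dW i).2
            rw [gaussRed_emb] at this
            exact this⟩ : kR⟮red R sR⟯) • (red R xR) ^ (i : ℕ) = 0 := by
        have h1 := congrArg (gaussRed R L) hsum
        rw [map_sum, map_mul, map_pow, gaussRed_constW, residue_irreducible hϖ, map_zero,
          zero_pow (Nat.succ_ne_zero k), zero_mul] at h1
        rw [← h1]
        apply Finset.sum_congr rfl
        intro i _
        rw [map_mul, map_pow, gaussRed_embW]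
        rfl
      have hzero := (Fintype.linearIndependent_iff.mp hlb) _ hred
      intro i
      have h2 : gaussRed R L (dW i) = 0 := congrArg Subtype.val (hzero i)
      obtain ⟨e, he⟩ := (gaussRed_eq_zero_iff hϖ (dW i)).mp h2
      have h3 : HahnSeries.C (algebraMap R L ϖ) ^ k * (c i : LaurentSeries L) =
          (e : LaurentSeries L) := by
        apply mul_left_cancel₀ hC
        rw [← he]
        show _ = HahnSeries.C (algebraMap R L ϖ) ^ (k + 1) * (c i : LaurentSeries L)
        rw [pow_succ']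
        ring
      rw [h3]
      exact e.2
  -- a common exponent
  have hex : ∀ i, ∃ k : ℕ,
      HahnSeries.C (algebraMap R L ϖ) ^ k * (c i : LaurentSeries L) ∈ gaussInt R L := fun i =>
    exists_pow_mul_mem_gaussInt hϖ
      (adjoin_le_gaussField R L (emb_mem_gaussField R L sR) (c i).2)
  choose k hk using hex
  apply key (∑ i, k i) c hz
  intro i
  have hle : k i ≤ ∑ i, k i := Finset.single_le_sum (fun _ _ => Nat.zero_le _) (Finset.mem_univ i)
  obtain ⟨m, hm⟩ := Nat.exists_eq_add_of_le hle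
  rw [hm, pow_add, mul_comm (_ ^ k i) (_ ^ m), mul_assoc]
  exact (gaussInt R L).mul_mem ((gaussInt R L).pow_mem (C_algebraMap_mem_gaussInt ϖ) m) (hk i)

theorem coe_sum_gaussInt {ι : Type*} (S : Finset ι) (f : ι → gaussInt R L) :
    ((∑ i ∈ S, f i : gaussInt R L) : LaurentSeries L) = ∑ i ∈ S, (f i : LaurentSeries L) := by
  rw [← Subring.coe_subtype, map_sum]

include hs hx hst hub hlb in
/-- **(A2', RES)** the reduction of an integral element of `F` is a `κ(s̃)`-combination of the
`x̃ⁱ`, `i < n`. -/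
theorem exists_repr_gaussRed {z : LaurentSeries L} (hz : z ∈ F) (hzi : z ∈ gaussInt R L) :
    ∃ c : Fin n → kR⟮red R sR⟯,
      gaussRed R L ⟨z, hzi⟩ = ∑ i, (c i : LaurentSeries kR) * (red R xR) ^ (i : ℕ) := by
  obtain ⟨c, hc⟩ := exists_repr F sR xR hs hx hst n hub hlb hz
  have hci := coord_mem_gaussInt (L := L) sR xR hst n hlb c (hc ▸ hzi)
  have hst' : Transcendental kR (gaussRed R L ⟨emb R L sR, emb_mem_gaussInt R L sR⟩) := by
    rw [gaussRed_emb]; exact hst
  have hmem : ∀ i, gaussRed R L ⟨(c i : LaurentSeries L), hci i⟩ ∈ kR⟮red R sR⟯ := by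
    intro i
    have := gaussRed_mem_adjoin (emb_mem_gaussInt R L sR) hst' (c i).2 (hci i)
    rw [gaussRed_emb] at this
    exact this
  refine ⟨fun i => ⟨_, hmem i⟩, ?_⟩
  have hzW : (⟨z, hzi⟩ : gaussInt R L) =
      ∑ i, (⟨(c i : LaurentSeries L), hci i⟩ : gaussInt R L) * (embW (L := L) xR) ^ (i : ℕ) := by
    apply Subtype.ext
    rw [coe_sum_gaussInt]
    exact hc
  rw [hzW, map_sum]
  apply Finset.sum_congr rfl
  intro i _
  rw [map_mul, map_pow, gaussRed_embW]

include hs hx hst hub hlb in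
/-- the residue field of `V_F` is contained in `κ(s̃, x̃)`. -/
theorem gaussRed_mem_adjoin_pair {z : LaurentSeries L} (hz : z ∈ F) (hzi : z ∈ gaussInt R L) :
    gaussRed R L ⟨z, hzi⟩ ∈ IntermediateField.adjoin kR {red R sR, red R xR} := by
  obtain ⟨c, hc⟩ := exists_repr_gaussRed F sR xR hs hx hst n hub hlb hz hzi
  rw [hc]
  apply sum_mem
  intro i _
  apply mul_mem
  · have hle : kR⟮red R sR⟯ ≤ IntermediateField.adjoin kR {red R sR, red R xR} :=
      IntermediateField.adjoin.mono _ _ _ (by
        intro a ha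
        rw [Set.mem_singleton_iff] at ha
        rw [ha]
        exact Set.mem_insert _ _)
    exact hle (c i).2
  · apply pow_mem
    exact IntermediateField.subset_adjoin _ _ (Set.mem_insert_of_mem _ rfl)

include hs hx hst hub hlb in
/-- **(A3)** `x` is integral over `V_s`: `xⁿ = ∑ cᵢ xⁱ` with `cᵢ ∈ L(s) ∩ 𝒲`. -/
theorem exists_monic_relation :
    ∃ c : Fin n → L⟮emb R L sR⟯, (∀ i, (c i : LaurentSeries L) ∈ gaussInt R L) ∧
      (emb R L xR) ^ n = ∑ i, (c i : LaurentSeries L) * (emb R L xR) ^ (i : ℕ) := by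
  obtain ⟨c, hc⟩ := exists_repr F sR xR hs hx hst n hub hlb (pow_mem hx n)
  refine ⟨c, ?_, hc⟩
  apply coord_mem_gaussInt (L := L) sR xR hst n hlb c
  rw [← hc]
  exact (gaussInt R L).pow_mem (emb_mem_gaussInt R L xR) n

theorem C_algebraMap_mem (c : R) : (HahnSeries.C (algebraMap R L c) : LaurentSeries L) ∈ F := by
  have : (HahnSeries.C (algebraMap R L c) : LaurentSeries L) =
      algebraMap L (LaurentSeries L) (algebraMap R L c) := by
    rw [algebraMap_laurentSeries_eq_single]; rfl
  rw [this]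
  exact IntermediateField.algebraMap_mem _ _

include hs hx hst hub hlb in
/-- every integral element of `F` lies in any valuation ring of `F` which induces the Gauss
valuation ring on `L(s)`. -/
theorem mem_of_mem_gaussInt (W : ValuationSubring F)
    (hW : ∀ c : F, (c : LaurentSeries L) ∈ L⟮emb R L sR⟯ →
      (c ∈ W ↔ (c : LaurentSeries L) ∈ gaussInt R L))
    (z : F) (hzi : (z : LaurentSeries L) ∈ gaussInt R L) : z ∈ W := by
  have hLsF : L⟮emb R L sR⟯ ≤ F := adjoin_simple_le_iff.mpr hs
  set xF : F := ⟨emb R L xR, hx⟩ with hxF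
  -- `x ∈ W`
  have hxW : xF ∈ W := by
    obtain ⟨c', hc'i, hc'⟩ := exists_monic_relation F sR xR hs hx hst n hub hlb
    have hc'W : ∀ i, (⟨(c' i : LaurentSeries L), hLsF (c' i).2⟩ : F) ∈ W := fun i =>
      (hW _ (c' i).2).mpr (hc'i i)
    have hrel : xF ^ n = ∑ i, (⟨(c' i : LaurentSeries L), hLsF (c' i).2⟩ : F) * xF ^ (i : ℕ) := by
      apply Subtype.ext
      rw [IntermediateField.coe_pow, IntermediateField.coe_sum]
      exact hc'
    rcases W.mem_or_inv_mem xF with h | h
    · exact h
    · rcases Nat.eq_zero_or_pos n with hn0 | hnpos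
      · exfalso
        subst hn0
        rw [pow_zero, Finset.univ_eq_empty, Finset.sum_empty] at hrel
        exact one_ne_zero hrel
      · obtain ⟨m, rfl⟩ := Nat.exists_eq_succ_of_ne_zero hnpos.ne'
        by_cases hx0 : xF = 0
        · rw [hx0]; exact W.zero_mem
        have h1 : xF = ∑ i : Fin (m + 1), (⟨(c' i : LaurentSeries L), hLsF (c' i).2⟩ : F) *
            xF⁻¹ ^ (m - (i : ℕ)) := by
          have h2 : xF = xF ^ (m + 1) * xF⁻¹ ^ m := by
            rw [pow_succ, mul_assoc, mul_comm xF, ← mul_assoc, ← mul_pow, mul_inv_cancel₀ hx0,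
              one_pow, one_mul]
          conv_lhs => rw [h2, hrel, Finset.sum_mul]
          apply Finset.sum_congr rfl
          intro i _
          have hi : (i : ℕ) ≤ m := Nat.lt_succ_iff.mp i.2
          have hm : xF⁻¹ ^ m = xF⁻¹ ^ (i : ℕ) * xF⁻¹ ^ (m - (i : ℕ)) := by
            rw [← pow_add, Nat.add_sub_cancel' hi]
          rw [hm, mul_assoc, ← mul_assoc (xF ^ (i : ℕ)), ← mul_pow, mul_inv_cancel₀ hx0, one_pow,
            one_mul]
        rw [h1]
        apply sum_mem
        intro i _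
        exact mul_mem (hc'W i) (pow_mem h _)
  obtain ⟨c, hc⟩ := exists_repr F sR xR hs hx hst n hub hlb z.2
  have hci := coord_mem_gaussInt (L := L) sR xR hst n hlb c (hc ▸ hzi)
  have hz : z = ∑ i, (⟨(c i : LaurentSeries L), hLsF (c i).2⟩ : F) * xF ^ (i : ℕ) := by
    apply Subtype.ext
    rw [IntermediateField.coe_sum]
    exact hc
  rw [hz]
  apply sum_mem
  intro i _
  exact mul_mem ((hW _ (c i).2).mpr (hci i)) (pow_mem hxW _)

include hs hx hst hub hlb in
/-- **(A5, UNIQ)** the Gauss valuation ring of `F` is the only valuation ring of `F` inducing the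
Gauss valuation ring on `L(s)`. -/
theorem valuationSubring_eq_gaussValSub (hF : F ≤ gaussField R L) (W : ValuationSubring F)
    (hW : ∀ c : F, (c : LaurentSeries L) ∈ L⟮emb R L sR⟯ →
      (c ∈ W ↔ (c : LaurentSeries L) ∈ gaussInt R L)) :
    W = gaussValSub R L F hF := by
  obtain ⟨ϖ, hϖ⟩ := IsDiscreteValuationRing.exists_irreducible R
  have hC := C_algebraMap_ne_zero (L := L) hϖ.ne_zero
  have hsub := mem_of_mem_gaussInt F sR xR hs hx hst n hub hlb W hW
  ext z
  rw [mem_gaussValSub_iff]
  constructor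
  · intro hzW
    by_contra hzi
    have hz0 : (z : LaurentSeries L) ≠ 0 := by
      intro h0
      apply hzi
      rw [h0]
      exact (gaussInt R L).zero_mem
    have hinv : (z : LaurentSeries L)⁻¹ ∈ gaussInt R L :=
      (mem_gaussInt_or_inv_mem (hF z.2)).resolve_left hzi
    have hred : gaussRed R L ⟨(z : LaurentSeries L)⁻¹, hinv⟩ = 0 := by
      by_contra hne
      have := inv_mem_gaussInt_of_gaussRed_ne_zero _ hne
      simp only [inv_inv] at this
      exact hzi this
    obtain ⟨u, hu⟩ := (gaussRed_eq_zero_iff hϖ _).mp hred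
    have hu' : (z : LaurentSeries L)⁻¹ =
        HahnSeries.C (algebraMap R L ϖ) * (u : LaurentSeries L) := hu
    have hCF : (HahnSeries.C (algebraMap R L ϖ) : LaurentSeries L) ∈ F := C_algebraMap_mem F ϖ
    have huF : (u : LaurentSeries L) ∈ F := by
      have : (u : LaurentSeries L) =
          (HahnSeries.C (algebraMap R L ϖ))⁻¹ * (z : LaurentSeries L)⁻¹ := by
        rw [hu', inv_mul_cancel_left₀ hC]
      rw [this]
      exact F.mul_mem (F.inv_mem hCF) (F.inv_mem z.2)
    have huW : (⟨(u : LaurentSeries L), huF⟩ : F) ∈ W := hsub _ u.2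
    -- `ϖ⁻¹ = z u ∈ W`
    have hprod : (⟨(HahnSeries.C (algebraMap R L ϖ))⁻¹, F.inv_mem hCF⟩ : F) =
        z * ⟨(u : LaurentSeries L), huF⟩ := by
      apply Subtype.ext
      show (HahnSeries.C (algebraMap R L ϖ))⁻¹ = (z : LaurentSeries L) * (u : LaurentSeries L)
      have h1 : (z : LaurentSeries L) * (HahnSeries.C (algebraMap R L ϖ) * (u : LaurentSeries L))
          = 1 := by
        rw [← hu', mul_inv_cancel₀ hz0]
      rw [eq_comm, ← mul_right_inj' hC, mul_inv_cancel₀ hC, ← h1]
      ring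
    have hinvW : (⟨(HahnSeries.C (algebraMap R L ϖ))⁻¹, F.inv_mem hCF⟩ : F) ∈ W := by
      rw [hprod]
      exact mul_mem hzW huW
    have hinvi : (HahnSeries.C (algebraMap R L ϖ) : LaurentSeries L)⁻¹ ∈ gaussInt R L := by
      refine (hW ⟨(HahnSeries.C (algebraMap R L ϖ))⁻¹, F.inv_mem hCF⟩ ?_).mp hinvW
      exact (L⟮emb R L sR⟯).inv_mem (C_algebraMap_mem _ ϖ)
    -- contradiction: `ϖ` is not a unit of `𝒲`
    have h1 : (⟨_, C_algebraMap_mem_gaussInt (L := L) ϖ⟩ : gaussInt R L) * ⟨_, hinvi⟩ = 1 := by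
      apply Subtype.ext
      show (HahnSeries.C (algebraMap R L ϖ) : LaurentSeries L) *
        (HahnSeries.C (algebraMap R L ϖ))⁻¹ = 1
      exact mul_inv_cancel₀ hC
    have h2 := congrArg (gaussRed R L) h1
    have h3 : gaussRed R L ⟨_, C_algebraMap_mem_gaussInt (L := L) ϖ⟩ = 0 := by
      rw [gaussRed_eq_zero_iff hϖ]
      exact ⟨1, by rw [Subring.coe_one, mul_one]⟩
    rw [map_mul, h3, zero_mul, map_one] at h2
    exact zero_ne_one h2
  · exact hsub z

end Abstract

end

end Fermat.Agent.JA
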