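/-
J-A package G1 (helper5), part F2: bounded denominators (PGI) and the residue field of the Gauss
valuation ring, in the abstract setting of `G1_helper5_Abstract`.
-/
import Fermat.Agent.JA.G1_helper5_Abstract

set_option autoImplicit false
set_option linter.unusedSectionVars false

open Polynomial IntermediateField Fermat.Agent.Igusa ModularCurve

namespace Fermat.Agent.JA

noncomputable section

section Abstract2

variable {R : Type*} [CommRing R] [IsDomain R] [IsDiscreteValuationRing R]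
  {L : Type*} [Field L] [Algebra R L] [IsFractionRing R L]

local notation "kR" => IsLocalRing.ResidueField R

variable (F : IntermediateField L (LaurentSeries L))
  (sR xR : LaurentSeries R) (hs : emb R L sR ∈ F) (hx : emb R L xR ∈ F)
  (hst : Transcendental (IsLocalRing.ResidueField R) (red R sR)) (n : ℕ)
  (hub : ∀ (ι : Type) [Fintype ι] (b : ι → LaurentSeries L), (∀ i, b i ∈ F) →
      LinearIndependent L⟮emb R L sR⟯ b → Fintype.card ι ≤ n)
  (hlb : LinearIndependent (IsLocalRing.ResidueField R)⟮red R sR⟯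
    (fun i : Fin n => (red R xR) ^ (i : ℕ)))

theorem eval₂_constR_mem {s : LaurentSeries L} (hsF : s ∈ F) (P : R[X]) :
    P.eval₂ constR s ∈ F := by
  have : P.eval₂ constR s = aeval s (P.map (algebraMap R L)) := by
    rw [aeval_def, eval₂_map]; rfl
  rw [this]
  exact (adjoin_simple_le_iff.mpr hsF) (aeval_mem_adjoin_simple _ _)

theorem red_evalR_mem (P : R[X]) :
    red R (evalR sR P) ∈ IntermediateField.adjoin kR {red R sR, red R xR} := by
  rw [red_evalR]
  have hle : kR⟮red R sR⟯ ≤ IntermediateField.adjoin kR {red R sR, red R xR} :=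
    IntermediateField.adjoin.mono _ _ _ (by
      intro a ha
      rw [Set.mem_singleton_iff] at ha
      rw [ha]
      exact Set.mem_insert _ _)
  exact hle (aeval_mem_adjoin_simple _ _)

include hs hx hst hub hlb in
/-- **(A4, PGI)** bounded denominators: every nonzero element of `F` is `ϖ^m · emb y₁ / emb y₂`
with `y₁, y₂ ∈ R((t))` of nonzero reduction, `emb yᵢ ∈ F`, and reductions in `κ(s̃, x̃)`. -/
theorem exists_pgi (hF : F ≤ gaussField R L) {ϖ : R} (hϖ : Irreducible ϖ)
    {f : LaurentSeries L} (hf : f ∈ F) (hf0 : f ≠ 0) :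
    ∃ (m : ℤ) (y₁ y₂ : LaurentSeries R), emb R L y₁ ∈ F ∧ emb R L y₂ ∈ F ∧
      red R y₁ ≠ 0 ∧ red R y₂ ≠ 0 ∧
      red R y₁ ∈ IntermediateField.adjoin kR {red R sR, red R xR} ∧
      red R y₂ ∈ IntermediateField.adjoin kR {red R sR, red R xR} ∧
      f = HahnSeries.C (algebraMap R L ϖ) ^ m * emb R L y₁ / emb R L y₂ := by
  classical
  obtain ⟨m, u, hu, hu', hfu⟩ := exists_zpow_mul_unit hϖ (hF hf) hf0
  have hC := C_algebraMap_ne_zero (L := L) hϖ.ne_zero
  have hCF : (HahnSeries.C (algebraMap R L ϖ) : LaurentSeries L) ∈ F := C_algebraMap_mem F ϖ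
  have huF : u ∈ F := by
    have : u = (HahnSeries.C (algebraMap R L ϖ) ^ m)⁻¹ * f := by
      rw [hfu, inv_mul_cancel_left₀ (zpow_ne_zero m hC)]
    rw [this]
    exact F.mul_mem (F.inv_mem (zpow_mem hCF m)) hf
  obtain ⟨c, hc⟩ := exists_repr F sR xR hs hx hst n hub hlb huF
  have hci := coord_mem_gaussInt (L := L) sR xR hst n hlb c (hc ▸ hu)
  have hst' : Transcendental kR (gaussRed R L ⟨emb R L sR, emb_mem_gaussInt R L sR⟩) := by
    rw [gaussRed_emb]; exact hst
  have hex := fun i => exists_poly_div_of_mem_adjoin (emb_mem_gaussInt R L sR) hst' (c i).2 (hci i)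
  choose P Q hQ hPQ using hex
  set Qt : R[X] := ∏ i, Q i with hQt
  set P' : Fin n → R[X] := fun i => P i * ∏ j ∈ Finset.univ.erase i, Q j with hP'
  have hP'rel : ∀ i, (c i : LaurentSeries L) * Qt.eval₂ constR (emb R L sR) =
      (P' i).eval₂ constR (emb R L sR) := by
    intro i
    have h1 : Qt = Q i * ∏ j ∈ Finset.univ.erase i, Q j :=
      (Finset.mul_prod_erase Finset.univ Q (Finset.mem_univ i)).symm
    rw [h1, eval₂_mul, ← mul_assoc, hPQ i, hP', eval₂_mul]
  have hQtmap : Qt.map (IsLocalRing.residue R) ≠ 0 := by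
    rw [hQt, Polynomial.map_prod, Finset.prod_ne_zero_iff]
    intro i _
    exact hQ i
  set y₂ : LaurentSeries R := evalR sR Qt with hy₂
  set y₁ : LaurentSeries R := ∑ i, evalR sR (P' i) * xR ^ (i : ℕ) with hy₁
  have hemb₂ : emb R L y₂ = Qt.eval₂ constR (emb R L sR) := emb_evalR sR Qt
  have hemb₁ : emb R L y₁ = emb R L y₂ * u := by
    rw [hy₁, map_sum, hc, Finset.mul_sum]
    apply Finset.sum_congr rfl
    intro i _
    rw [map_mul, map_pow, emb_evalR, ← hP'rel i, hemb₂]
    ring
  have hred₂ : red R y₂ ≠ 0 := by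
    rw [hy₂, red_evalR]
    exact fun h => hQtmap ((transcendental_iff.mp hst) _ h)
  have hemb₂0 : emb R L y₂ ≠ 0 := emb_ne_zero_of_red_ne_zero hred₂
  have huW : gaussRed R L ⟨u, hu⟩ ≠ 0 := by
    intro h0
    have h1 : (⟨u, hu⟩ : gaussInt R L) * ⟨u⁻¹, hu'⟩ = 1 := by
      apply Subtype.ext
      show u * u⁻¹ = 1
      have hu0 : u ≠ 0 := by
        rintro rfl
        rw [mul_zero] at hfu
        exact hf0 hfu
      exact mul_inv_cancel₀ hu0
    have h2 := congrArg (gaussRed R L) h1
    rw [map_mul, h0, zero_mul, map_one] at h2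
    exact zero_ne_one h2
  have hred₁ : red R y₁ ≠ 0 := by
    have h1 : embW (L := L) y₁ = embW (L := L) y₂ * ⟨u, hu⟩ := Subtype.ext hemb₁
    have h2 := congrArg (gaussRed R L) h1
    rw [map_mul, gaussRed_embW, gaussRed_embW] at h2
    rw [h2]
    exact mul_ne_zero hred₂ huW
  refine ⟨m, y₁, y₂, ?_, ?_, hred₁, hred₂, ?_, ?_, ?_⟩
  · rw [hemb₁]
    exact F.mul_mem (hemb₂ ▸ eval₂_constR_mem F hs Qt) huF
  · rw [hemb₂]
    exact eval₂_constR_mem F hs Qt
  · rw [hy₁, map_sum]
    apply sum_mem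
    intro i _
    rw [map_mul, map_pow]
    have hxmem : red R xR ∈ IntermediateField.adjoin kR {red R sR, red R xR} :=
      IntermediateField.subset_adjoin kR _ (Set.mem_insert_of_mem _ (Set.mem_singleton _))
    exact mul_mem (red_evalR_mem sR xR (P' i)) (pow_mem hxmem _)
  · exact red_evalR_mem sR xR _
  · rw [hemb₁, hfu]
    field_simp

section Alg

/-- an element satisfying a monic relation of degree `n`: every element of `K(x)` is a
combination of `1, x, …, x^{n-1}`. -/
theorem exists_repr_of_monic_relation {K E : Type*} [Field K] [Field E] [Algebra K E] (x : E)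
    (n : ℕ) (c : Fin n → K) (h : x ^ n = ∑ i, c i • x ^ (i : ℕ)) {w : E} (hw : w ∈ K⟮x⟯) :
    ∃ d : Fin n → K, w = ∑ i, d i • x ^ (i : ℕ) := by
  rcases Nat.eq_zero_or_pos n with hn0 | hnpos
  · subst hn0
    rw [pow_zero, Finset.univ_eq_empty, Finset.sum_empty] at h
    exact absurd h one_ne_zero
  set m : K[X] := X ^ n - ∑ i : Fin n, C (c i) * X ^ (i : ℕ) with hm
  have hdeg : degree (∑ i : Fin n, C (c i) * X ^ (i : ℕ)) < n := degree_sum_fin_lt c
  have hmonic : m.Monic := monic_X_pow_sub hdeg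
  have hroot : aeval x m = 0 := by
    rw [hm, map_sub, map_pow, aeval_X, map_sum, h, sub_eq_zero]
    apply Finset.sum_congr rfl
    intro i _
    rw [map_mul, aeval_C, map_pow, aeval_X, Algebra.smul_def]
  have hint : IsIntegral K x := ⟨m, hmonic, hroot⟩
  have hw' : w ∈ Algebra.adjoin K {x} := by
    rw [← IntermediateField.adjoin_simple_toSubalgebra_of_isAlgebraic hint.isAlgebraic]
    exact hw
  rw [Algebra.adjoin_singleton_eq_range_aeval] at hw'
  obtain ⟨p, hp⟩ := hw'
  have hp' : aeval x p = w := hp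
  have hr : aeval x (p %ₘ m) = w := by
    rw [aeval_modByMonic_eq_self_of_root hroot, hp']
  have hmdeg : m.degree = n := by
    rw [hm, degree_sub_eq_left_of_degree_lt]
    · exact degree_X_pow n
    · rw [degree_X_pow]; exact hdeg
  have hrdeg : (p %ₘ m).natDegree < n := by
    by_cases hr0 : p %ₘ m = 0
    · rw [hr0, natDegree_zero]; exact hnpos
    · rw [natDegree_lt_iff_degree_lt hr0, ← hmdeg]
      exact degree_modByMonic_lt p hmonic
  refine ⟨fun i => (p %ₘ m).coeff (i : ℕ), ?_⟩
  rw [← hr, aeval_eq_sum_range' hrdeg, Finset.sum_range]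

end Alg

include hs hx hst hub hlb in
/-- **(A6a)** the reduced monic relation. -/
theorem exists_monic_relation_red :
    ∃ c : Fin n → kR⟮red R sR⟯,
      (red R xR) ^ n = ∑ i, (c i : LaurentSeries kR) * (red R xR) ^ (i : ℕ) := by
  have hzi : (emb R L xR) ^ n ∈ gaussInt R L := (gaussInt R L).pow_mem (emb_mem_gaussInt R L xR) n
  obtain ⟨c, hc⟩ := exists_repr_gaussRed F sR xR hs hx hst n hub hlb (pow_mem hx n) hzi
  refine ⟨c, ?_⟩
  rw [← hc]
  have : (⟨(emb R L xR) ^ n, hzi⟩ : gaussInt R L) = (embW (L := L) xR) ^ n := rfl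
  rw [this, map_pow, gaussRed_embW]

include hs hx hst hub hlb in
/-- **(A6b)** every element of `κ(s̃, x̃)` is a `κ(s̃)`-combination of `x̃ⁱ`, `i < n`. -/
theorem exists_repr_red {w : LaurentSeries kR}
    (hw : w ∈ IntermediateField.adjoin kR {red R sR, red R xR}) :
    ∃ d : Fin n → kR⟮red R sR⟯, w = ∑ i, (d i : LaurentSeries kR) * (red R xR) ^ (i : ℕ) := by
  obtain ⟨c, hc⟩ := exists_monic_relation_red F sR xR hs hx hst n hub hlb
  have hw' : w ∈ (kR⟮red R sR⟯)⟮red R xR⟯ := by
    have e : ((kR⟮red R sR⟯)⟮red R xR⟯).restrictScalars kR =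
        IntermediateField.adjoin kR {red R sR, red R xR} :=
      IntermediateField.adjoin_simple_adjoin_simple kR (red R sR) (red R xR)
    rw [← e] at hw
    exact hw
  have hc' : (red R xR) ^ n = ∑ i, c i • (red R xR) ^ (i : ℕ) := by
    rw [hc]
    apply Finset.sum_congr rfl
    intro i _
    rw [IntermediateField.smul_def, smul_eq_mul]
  obtain ⟨d, hd⟩ := exists_repr_of_monic_relation (red R xR) n c hc' hw'
  refine ⟨d, ?_⟩
  rw [hd]
  apply Finset.sum_congr rfl
  intro i _
  rw [IntermediateField.smul_def, smul_eq_mul]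

/-- **(A6c)** elements of `κ(s̃)` lift to `L(s) ∩ 𝒲`. -/
theorem exists_lift_adjoin_simple {ct : LaurentSeries kR}
    (hct : ct ∈ kR⟮red R sR⟯) :
    ∃ (c : LaurentSeries L) (hci : c ∈ gaussInt R L), c ∈ L⟮emb R L sR⟯ ∧
      gaussRed R L ⟨c, hci⟩ = ct := by
  obtain ⟨pt, qt, hpq⟩ := (IntermediateField.mem_adjoin_simple_iff kR ct).1 hct
  by_cases hq0 : aeval (red R sR) qt = 0
  · refine ⟨0, (gaussInt R L).zero_mem, (L⟮emb R L sR⟯).zero_mem, ?_⟩
    rw [hpq, hq0, div_zero]
    exact map_zero _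
  obtain ⟨P, hP⟩ := Polynomial.map_surjective _ IsLocalRing.residue_surjective pt
  obtain ⟨Q, hQ⟩ := Polynomial.map_surjective _ IsLocalRing.residue_surjective qt
  set sW : gaussInt R L := embW sR with hsW
  have hredQ : gaussRed R L (evalW sW Q) ≠ 0 := by
    rw [gaussRed_evalW, hsW, gaussRed_embW, hQ]
    exact hq0
  have hinv := inv_mem_gaussInt_of_gaussRed_ne_zero _ hredQ
  have hQ0 : ((evalW sW Q : gaussInt R L) : LaurentSeries L) ≠ 0 := by
    intro h0
    apply hredQ
    have : evalW sW Q = 0 := Subtype.ext h0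
    rw [this, map_zero]
  set cW : gaussInt R L := evalW sW P * ⟨_, hinv⟩ with hcW
  refine ⟨(cW : LaurentSeries L), cW.2, ?_, ?_⟩
  · have hmem : ∀ T : R[X], ((evalW sW T : gaussInt R L) : LaurentSeries L) ∈ L⟮emb R L sR⟯ := by
      intro T
      rw [coe_evalW_eq_aeval]
      exact aeval_mem_adjoin_simple _ _
    exact (L⟮emb R L sR⟯).mul_mem (hmem P) ((L⟮emb R L sR⟯).inv_mem (hmem Q))
  · have h1 : cW * evalW sW Q = evalW sW P := by
      apply Subtype.ext
      show ((evalW sW P : gaussInt R L) : LaurentSeries L) *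
        ((evalW sW Q : gaussInt R L) : LaurentSeries L)⁻¹ *
        ((evalW sW Q : gaussInt R L) : LaurentSeries L) = _
      rw [inv_mul_cancel_right₀ hQ0]
    have h2 := congrArg (gaussRed R L) h1
    rw [map_mul, gaussRed_evalW, gaussRed_evalW, hsW, gaussRed_embW, hP, hQ] at h2
    show gaussRed R L cW = ct
    rw [hpq, eq_div_iff hq0]
    exact h2

include hs hx hst hub hlb in
/-- **(A6d)** every element of `κ(s̃, x̃)` is the reduction of an integral element of `F`:
the residue field of `V_F` is exactly `κ(s̃, x̃)`. -/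
theorem exists_lift_red {w : LaurentSeries kR}
    (hw : w ∈ IntermediateField.adjoin kR {red R sR, red R xR}) :
    ∃ (z : LaurentSeries L) (hzi : z ∈ gaussInt R L), z ∈ F ∧ gaussRed R L ⟨z, hzi⟩ = w := by
  obtain ⟨d, hd⟩ := exists_repr_red F sR xR hs hx hst n hub hlb hw
  have hex := fun i => exists_lift_adjoin_simple (L := L) sR (d i).2
  choose c hci hcs hcred using hex
  have hLsF : L⟮emb R L sR⟯ ≤ F := adjoin_simple_le_iff.mpr hs
  set zW : gaussInt R L := ∑ i, (⟨c i, hci i⟩ : gaussInt R L) * (embW (L := L) xR) ^ (i : ℕ)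
    with hzW
  refine ⟨(zW : LaurentSeries L), zW.2, ?_, ?_⟩
  · rw [hzW, coe_sum_gaussInt]
    apply sum_mem
    intro i _
    exact F.mul_mem (hLsF (hcs i)) (pow_mem hx _)
  · show gaussRed R L zW = w
    rw [hzW, map_sum, hd]
    apply Finset.sum_congr rfl
    intro i _
    rw [map_mul, map_pow, gaussRed_embW, hcred i]

end Abstract2

end

end Fermat.Agent.JA
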