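/-
J-A — helper6 — package CONST̃: in a function field `F/k` (`k` algebraically closed, any
characteristic) with a separating coordinate, an element with `ord = 0` at all places is constant.
-/
import Mathlib
import Fermat.Agent.FF.PlaceDict
import Fermat.Agent.FF.RR_helper3_Main
import Fermat.Agent.Igusa.V_helper5_GaussLemma

set_option autoImplicit false
set_option linter.unusedSectionVars false
set_option linter.style.haveILetI false

open Polynomial AlgebraicCurve IsDedekindDomain WithZero IntermediateField

namespace Fermat.Agent.JA

open Fermat.Agent.FF Fermat.Agent.FF.RR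

section TC

variable (K F : Type*) [Field K] [Field F] [Algebra K F] [Algebra K[X] F] [Algebra (RatFunc K) F]
  [IsScalarTower K[X] (RatFunc K) F] [IsScalarTower K K[X] F] [IsScalarTower K (RatFunc K) F]
  [FiniteDimensional (RatFunc K) F] [Algebra.IsSeparable (RatFunc K) F]

local notation "B" => FunctionField.ringOfIntegers K F
local notation "Binf" => ringAtInfty K F

/-- an element with nonnegative order at all finite places is integral over `K[X]` -/
theorem mem_ringOfIntegers_of_forall_ord_nonneg (x : F)
    (h : ∀ Q : Place K F, x = 0 ∨ 0 ≤ Q.ord x) : x ∈ B := by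
  have h1 := IsDedekindDomain.HeightOneSpectrum.mem_integers_of_valuation_le_one (R := B) F x
    (fun P => by
      have := (valuation_le_exp_iff (k := K) P x 0).mpr (by simpa using h _)
      simpa using this)
  obtain ⟨b, hb⟩ := h1
  rw [← hb]
  exact b.2

/-- an element with nonnegative order at all infinite places is integral over the ring at
infinity -/
theorem mem_ringAtInfty_of_forall_ord_nonneg (x : F)
    (h : ∀ Q : Place K F, x = 0 ∨ 0 ≤ Q.ord x) : x ∈ Binf := by
  have h1 := IsDedekindDomain.HeightOneSpectrum.mem_integers_of_valuation_le_one (R := Binf) F x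
    (fun P => by
      have := (valuation_le_exp_iff (k := K) P x 0).mpr (by simpa using h _)
      simpa using this)
  obtain ⟨b, hb⟩ := h1
  rw [← hb]
  exact b.2

/-- **(CONST̃), typeclass setting.** -/
theorem const_of_forall_ord_nonneg_TC [IsAlgClosed K] (x : F)
    (h : ∀ Q : Place K F, x = 0 ∨ 0 ≤ Q.ord x) : ∃ c : K, x = algebraMap K F c := by
  have hmem : x ∈ finLat (1 : FractionalIdeal (nonZeroDivisors B) F) ⊓
      infLat (1 : FractionalIdeal (nonZeroDivisors Binf) F) := by
    rw [Submodule.mem_inf, mem_finLat_one, mem_infLat_one]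
    exact ⟨mem_ringOfIntegers_of_forall_ord_nonneg K F x h,
      mem_ringAtInfty_of_forall_ord_nonneg K F x h⟩
  rw [finLat_one_inf_infLat_one, Submodule.mem_span_singleton] at hmem
  obtain ⟨c, hc⟩ := hmem
  exact ⟨c, by rw [← hc, Algebra.smul_def, mul_one]⟩

end TC


section Coord

variable {k F : Type*} [Field k] [Field F] [Algebra k F]

/-- separability of `F / k(X)` for the `k(X)`-algebra structure of a separating coordinate -/
theorem isSeparable_algRat_of_isSeparable (c : Coord k F) (hsep : Algebra.IsSeparable k⟮c.x⟯ F) :
    @Algebra.IsSeparable (RatFunc k) F _ _ c.algRat := by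
  letI := c.algRat
  exact Algebra.IsSeparable.of_equiv_equiv c.ratEquiv.symm (RingEquiv.refl F) (by
    ext f
    simp only [RingHom.coe_comp, Function.comp_apply, RingEquiv.coe_toRingHom,
      RingEquiv.refl_apply]
    show c.ratEmb (c.ratEquiv.symm f) = (f : F)
    simp [Coord.ratEmb, Coord.ratEquiv])

/-- **From a separating `Coord` to the typeclass setting** (any characteristic): all instances of
the setting of `FF/RR_helper3_Pair` / `FF/PlaceDict`, with `xF = c.x`. -/
theorem exists_typeclass_setting_of_isSeparable (c : Coord k F)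
    (hsep : Algebra.IsSeparable k⟮c.x⟯ F) :
    ∃ (_ : Algebra k[X] F) (_ : Algebra (RatFunc k) F) (_ : IsScalarTower k[X] (RatFunc k) F)
      (_ : IsScalarTower k k[X] F) (_ : IsScalarTower k (RatFunc k) F)
      (_ : FiniteDimensional (RatFunc k) F) (_ : Algebra.IsSeparable (RatFunc k) F),
      xF k F = c.x := by
  letI := c.algPoly
  letI := c.algRat
  haveI := c.tower1
  haveI := c.tower2
  haveI := c.tower3
  haveI : FunctionField k F := c.functionField
  haveI : Algebra.IsSeparable (RatFunc k) F := isSeparable_algRat_of_isSeparable c hsep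
  exact ⟨c.algPoly, c.algRat, c.tower1, c.tower2, c.tower3, c.functionField,
    isSeparable_algRat_of_isSeparable c hsep, (xF_eq_coord k F).trans c.coord_eq⟩

/-- **(CONST̃), abstract form.** `k` algebraically closed (any characteristic), `F / k` a function
field with a separating coordinate `t`: an element with no poles is constant. -/
theorem const_of_forall_ord_nonneg [IsAlgClosed k] (t : F) (ht : Transcendental k t)
    [hfin : FiniteDimensional k⟮t⟯ F] [hsep : Algebra.IsSeparable k⟮t⟯ F] (x : F)
    (h : ∀ Q : Place k F, x = 0 ∨ 0 ≤ Q.ord x) : ∃ c : k, x = algebraMap k F c := by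
  obtain ⟨i1, i2, i3, i4, i5, i6, i7, -⟩ :=
    exists_typeclass_setting_of_isSeparable (⟨t, ht, hfin⟩ : Coord k F) hsep
  exact const_of_forall_ord_nonneg_TC k F x h

/-- **(CONST̃)**: an element with `ord = 0` at all places is constant. -/
theorem const_of_forall_ord_eq_zero [IsAlgClosed k] (t : F) (ht : Transcendental k t)
    [FiniteDimensional k⟮t⟯ F] [Algebra.IsSeparable k⟮t⟯ F] (x : F) (_hx : x ≠ 0)
    (h : ∀ Q : Place k F, Q.ord x = 0) : ∃ c : k, x = algebraMap k F c :=
  const_of_forall_ord_nonneg t ht x (fun Q => Or.inr (h Q).ge)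

end Coord


section Modular

open ModularCurve

variable (k : Type*) [Field k] (N : ℕ) [NeZero N]

/-- `j̃ = j(q)` as an element of the function field `F̃ = k(j̃(q^d) : d ∣ N)` -/
noncomputable def jTildeElt : ↥(modularFunctionFieldFullC k N) :=
  ⟨jqModC k, by
    have h := jqModCd_mem_full k N (d := 1) (one_dvd N)
    rwa [qExpand_one_apply] at h⟩

@[simp] theorem coe_jTildeElt : ((jTildeElt k N : ↥(modularFunctionFieldFullC k N)) : LaurentSeries k) =
    jqModC k := rfl

theorem transcendental_jTildeElt : Transcendental k (jTildeElt k N) := by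
  intro h
  apply Fermat.Agent.Igusa.transcendental_jqModC k
  have := (isAlgebraic_algHom_iff (IntermediateField.val (modularFunctionFieldFullC k N))
    Subtype.val_injective (a := jTildeElt k N)).2 h
  exact this

/-- **(CONST̃) for the modular function field mod `ℓ`**, in the shape of the J-A master plan:
separability and finiteness of `F̃ / k(j̃)` are hypotheses (discharged by G1.DEG). -/
theorem const_of_ord_eq_zero [IsAlgClosed k]
    (hsep : Algebra.IsSeparable k⟮jTildeElt k N⟯ ↥(modularFunctionFieldFullC k N))
    (hfin : FiniteDimensional k⟮jTildeElt k N⟯ ↥(modularFunctionFieldFullC k N))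
    (x : ↥(modularFunctionFieldFullC k N)) (hx : x ≠ 0)
    (h : ∀ Q : AlgebraicCurve.Place k ↥(modularFunctionFieldFullC k N), Q.ord x = 0) :
    ∃ c : k, x = algebraMap k ↥(modularFunctionFieldFullC k N) c :=
  const_of_forall_ord_eq_zero (jTildeElt k N) (transcendental_jTildeElt k N) x hx h

end Modular

end Fermat.Agent.JA
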