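import Mathlib

set_option autoImplicit false

open Polynomial IntermediateField

namespace Fermat.Agent.JA

noncomputable section

/-- a common denominator for finitely many elements of `k(s)`. -/
theorem exists_common_denominator {k E : Type*} [Field k] [Field E] [Algebra k E] (s : E)
    {ι : Type*} [Fintype ι] (c : ι → E) (hc : ∀ i, c i ∈ k⟮s⟯) :
    ∃ D : k[X], aeval s D ≠ 0 ∧ ∀ i, ∃ P : k[X], aeval s D * c i = aeval s P := by
  classical
  have h : ∀ i, ∃ p q : k[X], aeval s q ≠ 0 ∧ c i * aeval s q = aeval s p := by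
    intro i
    obtain ⟨p, q, hpq⟩ := (mem_adjoin_simple_iff k (c i)).1 (hc i)
    by_cases hq : aeval s q = 0
    · refine ⟨0, 1, ?_, ?_⟩
      · rw [map_one]; exact one_ne_zero
      · rw [hpq, hq, div_zero, zero_mul, map_zero]
    · exact ⟨p, q, hq, by rw [hpq, div_mul_cancel₀ _ hq]⟩
  choose p q hq hpq using h
  refine ⟨∏ i, q i, ?_, fun i => ⟨p i * ∏ j ∈ Finset.univ.erase i, q j, ?_⟩⟩
  · rw [map_prod]
    exact Finset.prod_ne_zero_iff.mpr (fun i _ => hq i)
  · rw [← Finset.mul_prod_erase Finset.univ q (Finset.mem_univ i), map_mul, map_mul, ← hpq i]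
    ring

theorem monic_X_pow_sub_sum {E : Type*} [Field E] (n : ℕ) (c : Fin n → E) :
    (X ^ n - ∑ i, C (c i) * X ^ (i : ℕ) : E[X]).Monic :=
  monic_X_pow_sub (degree_sum_fin_lt c)

theorem natDegree_X_pow_sub_sum {E : Type*} [Field E] (n : ℕ) (c : Fin n → E) :
    (X ^ n - ∑ i, C (c i) * X ^ (i : ℕ) : E[X]).natDegree = n := by
  rcases Nat.eq_zero_or_pos n with h0 | hpos
  · subst h0
    simp
  · have hlt : (∑ i : Fin n, C (c i) * X ^ (i : ℕ)).natDegree < (X ^ n : E[X]).natDegree := by
      rw [natDegree_X_pow]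
      by_cases hz : (∑ i : Fin n, C (c i) * X ^ (i : ℕ)) = 0
      · rw [hz, natDegree_zero]; exact hpos
      · exact (natDegree_lt_iff_degree_lt hz).mpr (degree_sum_fin_lt c)
    rw [natDegree_sub_eq_left_of_natDegree_lt hlt, natDegree_X_pow]

theorem eval_X_pow_sub_sum {E : Type*} [Field E] (n : ℕ) (c : Fin n → E) (x : E) :
    eval x (X ^ n - ∑ i, C (c i) * X ^ (i : ℕ) : E[X]) = x ^ n - ∑ i, c i * x ^ (i : ℕ) := by
  rw [eval_sub, eval_pow, eval_X, eval_finsetSum]
  congr 1
  apply Finset.sum_congr rfl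
  intro i _
  rw [eval_mul, eval_C, eval_pow, eval_X]

/-- a monic polynomial whose image under a field homomorphism has as many distinct roots as its
degree is separable. -/
theorem separable_of_card_le_roots {E E' : Type*} [Field E] [Field E'] (φ : E →+* E')
    (M : E[X]) (hM : M.Monic) (Z : Finset E') (hZ : M.natDegree ≤ Z.card)
    (hroot : ∀ z ∈ Z, (M.map φ).IsRoot z) : M.Separable := by
  classical
  set Mt : E'[X] := M.map φ with hMt
  have hMtmonic : Mt.Monic := hM.map _
  have hMtdeg : Mt.natDegree = M.natDegree := hM.natDegree_map φ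
  have hMt0 : Mt ≠ 0 := hMtmonic.ne_zero
  have hle : Z.val ≤ Mt.roots := by
    rw [Multiset.le_iff_subset Z.nodup]
    intro z hz'
    exact (mem_roots hMt0).mpr (hroot z (Finset.mem_val.mp hz'))
  have hcard : Multiset.card Mt.roots ≤ Multiset.card Z.val := by
    calc Multiset.card Mt.roots ≤ Mt.natDegree := card_roots' Mt
      _ = M.natDegree := hMtdeg
      _ ≤ Z.card := hZ
  have heq : Z.val = Mt.roots := Multiset.eq_of_le_of_card_le hle hcard
  have hsplit : Mt.Splits := by
    rw [splits_iff_card_roots]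
    apply le_antisymm (card_roots' Mt)
    rw [hMtdeg, ← heq]
    exact hZ
  have hsep : Mt.Separable := by
    rw [← nodup_roots_iff_of_splits hMt0 hsplit, ← heq]
    exact Z.nodup
  exact (separable_map φ).mp hsep

end

end Fermat.Agent.JA
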