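/-
J-A package G1 (helper5), part I: the mod-`ℓ` data `ModLData κ N` of the function field
`F̃ = κ(j̃(q^d) : d ∣ N)`: (FULL) `F̃ = κ(j̃, j̃_N)` and (REL+SEP) a separable monic relation of degree
`[SL₂(ℤ) : Γ₀(N)]` for `j̃_N` over `κ(j̃)`.  It transfers along every homomorphism of fields
and implies that `F̃ / κ(j̃)` is finite separable (G1.DEG in the shape used by the S18 assembly).
-/
import Fermat.Agent.JA.G1_helper5_SepAlg
import Fermat.Agent.JA.CONST_helper6
import Fermat.Agent.Igusa.A_helper2_Integral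

set_option autoImplicit false
set_option linter.unusedSectionVars false

open scoped MatrixGroups
open Polynomial IntermediateField ModularCurve CongruenceSubgroup Fermat.Agent.Igusa

namespace Fermat.Agent.JA

noncomputable section

section Transfer

variable {κ κ' : Type*} [Field κ] [Field κ'] (σ : κ →+* κ')

/-- coefficientwise maps send `κ(S)` into `κ'(σ S)`. -/
theorem coeffMap_mem_adjoin (S : Set (LaurentSeries κ)) {y : LaurentSeries κ}
    (hy : y ∈ IntermediateField.adjoin κ S) :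
    coeffMap σ y ∈ IntermediateField.adjoin κ' (coeffMap σ '' S) := by
  induction hy using IntermediateField.adjoin_induction with
  | mem x hx => exact subset_adjoin κ' _ ⟨x, hx, rfl⟩
  | algebraMap c =>
    rw [coeffMap_algebraMap']
    exact IntermediateField.algebraMap_mem _ _
  | add x y _ _ hx hy => rw [map_add]; exact add_mem hx hy
  | mul x y _ _ hx hy => rw [map_mul]; exact mul_mem hx hy
  | inv x _ hx => rw [map_inv₀]; exact inv_mem hx

theorem coeffMap_mem_adjoin_simple {s y : LaurentSeries κ} (hy : y ∈ κ⟮s⟯) :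
    coeffMap σ y ∈ κ'⟮coeffMap σ s⟯ := by
  have h := coeffMap_mem_adjoin σ {s} hy
  rwa [Set.image_singleton] at h

theorem coeffMap_mem_adjoin_pair {s x y : LaurentSeries κ}
    (hy : y ∈ IntermediateField.adjoin κ {s, x}) :
    coeffMap σ y ∈ IntermediateField.adjoin κ' {coeffMap σ s, coeffMap σ x} := by
  have h := coeffMap_mem_adjoin σ {s, x} hy
  rwa [Set.image_pair] at h

end Transfer

section Data

/-- the mod-`ℓ` data: (FULL) and (REL+SEP). -/
def ModLData (κ : Type*) [Field κ] (N : ℕ) [NeZero N] : Prop :=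
  modularFunctionFieldFullC κ N ≤ IntermediateField.adjoin κ {jqModC κ, jqNModC κ N} ∧
  ∃ c : Fin (Gamma0 N).index → LaurentSeries κ, (∀ i, c i ∈ κ⟮jqModC κ⟯) ∧
    (jqNModC κ N) ^ (Gamma0 N).index = ∑ i, c i * (jqNModC κ N) ^ (i : ℕ) ∧
    (X ^ (Gamma0 N).index - ∑ i, C (c i) * X ^ (i : ℕ) : (LaurentSeries κ)[X]).Separable

variable {κ κ' : Type*} [Field κ] [Field κ'] (N : ℕ) [NeZero N]

/-- the mod-`ℓ` data transfers along every homomorphism of fields. -/
theorem ModLData.map (h : ModLData κ N) (σ : κ →+* κ') : ModLData κ' N := by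
  obtain ⟨hfull, c, hcK, hrel, hsep⟩ := h
  refine ⟨?_, fun i => coeffMap σ (c i), ?_, ?_, ?_⟩
  · rw [modularFunctionFieldFullC, IntermediateField.adjoin_le_iff]
    rintro x ⟨d, hd0, hd, rfl⟩
    haveI := hd0
    have h1 : qExpand κ d (jqModC κ) ∈ IntermediateField.adjoin κ {jqModC κ, jqNModC κ N} :=
      hfull (jqModCd_mem_full κ N hd)
    have h2 := coeffMap_mem_adjoin_pair σ h1
    rwa [coeffMap_qExpand, coeffMap_jqModC, coeffMap_jqNModC] at h2
  · intro i
    have h2 := coeffMap_mem_adjoin_simple σ (hcK i)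
    rwa [coeffMap_jqModC] at h2
  · have h2 := congrArg (coeffMap σ) hrel
    rw [map_pow, map_sum, coeffMap_jqNModC] at h2
    rw [h2]
    apply Finset.sum_congr rfl
    intro i _
    rw [map_mul, map_pow, coeffMap_jqNModC]
  · have h2 := hsep.map (f := coeffMap σ)
    rw [Polynomial.map_sub, Polynomial.map_pow, Polynomial.map_X, Polynomial.map_sum] at h2
    convert h2 using 3
    rw [Polynomial.map_mul, Polynomial.map_pow, Polynomial.map_X, Polynomial.map_C]


theorem jqModC_mem_fullC (κ : Type*) [Field κ] (N : ℕ) [NeZero N] :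
    jqModC κ ∈ modularFunctionFieldFullC κ N := by
  have h := jqModCd_mem_full κ N (d := 1) (one_dvd N)
  rwa [qExpand_one_apply] at h

theorem jqNModC_mem_fullC (κ : Type*) [Field κ] (N : ℕ) [NeZero N] :
    jqNModC κ N ∈ modularFunctionFieldFullC κ N :=
  jqModCd_mem_full κ N dvd_rfl

/-- `j̃_N` as an element of `F̃`. -/
def jNTildeElt (κ : Type*) [Field κ] (N : ℕ) [NeZero N] : ↥(modularFunctionFieldFullC κ N) :=
  ⟨jqNModC κ N, jqNModC_mem_fullC κ N⟩

@[simp] theorem coe_jNTildeElt (κ : Type*) [Field κ] (N : ℕ) [NeZero N] :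
    ((jNTildeElt κ N : ↥(modularFunctionFieldFullC κ N)) : LaurentSeries κ) = jqNModC κ N := rfl

theorem mem_adjoin_jTildeElt_iff (r : ↥(modularFunctionFieldFullC κ N)) :
    r ∈ κ⟮jTildeElt κ N⟯ ↔ (r : LaurentSeries κ) ∈ κ⟮jqModC κ⟯ := by
  rw [← coe_jTildeElt κ N, ← IntermediateField.lift_adjoin_simple, IntermediateField.mem_lift]

/-- (FULL), typed: `F̃ = κ(j̃)(j̃_N)`. -/
theorem ModLData.adjoin_jNTildeElt_eq_top (h : ModLData κ N) :
    (κ⟮jTildeElt κ N⟯)⟮jNTildeElt κ N⟯ = ⊤ := by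
  apply IntermediateField.restrictScalars_injective κ
  rw [IntermediateField.adjoin_simple_adjoin_simple, IntermediateField.restrictScalars_top]
  apply IntermediateField.lift_injective
  rw [IntermediateField.lift_adjoin, IntermediateField.lift_top, Set.image_pair]
  apply le_antisymm
  · rw [IntermediateField.adjoin_le_iff]
    intro x hx
    rcases hx with rfl | hx
    · exact (jTildeElt κ N).2
    · rw [Set.mem_singleton_iff] at hx
      rw [hx]
      exact (jNTildeElt κ N).2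
  · exact h.1

/-- (REL+SEP), typed: `j̃_N` is a root of a separable monic polynomial over `κ(j̃)`. -/
theorem ModLData.exists_separable_monic (h : ModLData κ N) :
    ∃ M : (κ⟮jTildeElt κ N⟯)[X], M.Monic ∧ M.Separable ∧ aeval (jNTildeElt κ N) M = 0 := by
  obtain ⟨-, c, hcK, hrel, hsep⟩ := h
  have hle : κ⟮jqModC κ⟯ ≤ modularFunctionFieldFullC κ N :=
    adjoin_simple_le_iff.mpr (jqModC_mem_fullC κ N)
  set c' : Fin (Gamma0 N).index → κ⟮jTildeElt κ N⟯ := fun i =>
    ⟨⟨c i, hle (hcK i)⟩, (mem_adjoin_jTildeElt_iff N _).mpr (hcK i)⟩ with hc'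
  set ψ : κ⟮jTildeElt κ N⟯ →+* LaurentSeries κ :=
    ((modularFunctionFieldFullC κ N).val : _ →+* LaurentSeries κ).comp
      (algebraMap κ⟮jTildeElt κ N⟯ ↥(modularFunctionFieldFullC κ N)) with hψ
  have hψc : ∀ i, ψ (c' i) = c i := fun i => rfl
  refine ⟨X ^ (Gamma0 N).index - ∑ i, C (c' i) * X ^ (i : ℕ), monic_X_pow_sub_sum _ c', ?_, ?_⟩
  · rw [← separable_map ψ]
    have e : (X ^ (Gamma0 N).index - ∑ i, C (c' i) * X ^ (i : ℕ) :
        (κ⟮jTildeElt κ N⟯)[X]).map ψ = X ^ (Gamma0 N).index - ∑ i, C (c i) * X ^ (i : ℕ) := by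
      rw [Polynomial.map_sub, Polynomial.map_pow, Polynomial.map_X, Polynomial.map_sum]
      congr 1
      apply Finset.sum_congr rfl
      intro i _
      rw [Polynomial.map_mul, Polynomial.map_pow, Polynomial.map_X, Polynomial.map_C, hψc]
    rw [e]
    exact hsep
  · apply Subtype.ext
    rw [map_sub, map_pow, aeval_X, map_sum]
    simp only [map_mul, map_pow, aeval_X, aeval_C]
    rw [AddSubgroupClass.coe_sub, SubmonoidClass.coe_pow, AddSubmonoidClass.coe_finsetSum,
      coe_jNTildeElt, hrel, ZeroMemClass.coe_zero, sub_eq_zero]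
    apply Finset.sum_congr rfl
    intro i _
    rw [MulMemClass.coe_mul, SubmonoidClass.coe_pow, coe_jNTildeElt]
    rfl

theorem ModLData.isIntegral_jNTildeElt (h : ModLData κ N) :
    IsIntegral κ⟮jTildeElt κ N⟯ (jNTildeElt κ N) := by
  obtain ⟨M, hM, -, h0⟩ := h.exists_separable_monic N
  exact ⟨M, hM, h0⟩

theorem ModLData.isSeparable_jNTildeElt (h : ModLData κ N) :
    IsSeparable κ⟮jTildeElt κ N⟯ (jNTildeElt κ N) := by
  obtain ⟨M, -, hMs, h0⟩ := h.exists_separable_monic N
  exact hMs.of_dvd (minpoly.dvd _ _ h0)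

/-- **(G1.DEG, finiteness)** `F̃ / κ(j̃)` is finite. -/
theorem ModLData.finiteDimensional (h : ModLData κ N) :
    FiniteDimensional κ⟮jTildeElt κ N⟯ ↥(modularFunctionFieldFullC κ N) := by
  haveI : FiniteDimensional κ⟮jTildeElt κ N⟯ ↥((κ⟮jTildeElt κ N⟯)⟮jNTildeElt κ N⟯) :=
    IntermediateField.adjoin.finiteDimensional (h.isIntegral_jNTildeElt N)
  have e : ↥((κ⟮jTildeElt κ N⟯)⟮jNTildeElt κ N⟯) ≃ₐ[κ⟮jTildeElt κ N⟯]
      ↥(modularFunctionFieldFullC κ N) :=
    (IntermediateField.equivOfEq (h.adjoin_jNTildeElt_eq_top N)).trans IntermediateField.topEquiv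
  exact Module.Finite.equiv e.toLinearEquiv

/-- **(G1.DEG, separability)** `F̃ / κ(j̃)` is separable. -/
theorem ModLData.isSeparable (h : ModLData κ N) :
    Algebra.IsSeparable κ⟮jTildeElt κ N⟯ ↥(modularFunctionFieldFullC κ N) := by
  haveI : Algebra.IsSeparable κ⟮jTildeElt κ N⟯ ↥((κ⟮jTildeElt κ N⟯)⟮jNTildeElt κ N⟯) :=
    (IntermediateField.isSeparable_adjoin_simple_iff_isSeparable _ _).mpr (h.isSeparable_jNTildeElt N)
  have e : ↥((κ⟮jTildeElt κ N⟯)⟮jNTildeElt κ N⟯) ≃ₐ[κ⟮jTildeElt κ N⟯]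
      ↥(modularFunctionFieldFullC κ N) :=
    (IntermediateField.equivOfEq (h.adjoin_jNTildeElt_eq_top N)).trans IntermediateField.topEquiv
  exact AlgEquiv.Algebra.isSeparable e

end Data

end

end Fermat.Agent.JA
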