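/-
J-A project, package RAM0 (helper2), part 4: the analytic places of `M`.

For `z₀ ∈ ℍ` such that `j(z₀)` is algebraic over `L` (a root of `ι p`, `p ≠ 0`), the order at `z₀`
of the realisation is an order function on `M = fieldM L ζ N`, trivial on `L`; for separable `p`
its value at `p(j)` is `ord_{z₀}(j - j(z₀)) ∈ {1, 2, 3}`.
-/
import Mathlib
import Fermat.Agent.Igusa.A_helper2_Fixed
import Fermat.Agent.X0N.SYM_helper2_Integral
import Fermat.Agent.X0N.J_helper8_Ord
import Fermat.Agent.FF.Gal_helper7_OfOrd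

set_option autoImplicit false

open AlgebraicCurve Polynomial IntermediateField ModularCurve UpperHalfPlane

namespace Fermat.Agent.JA

open Fermat.Agent.FF Fermat.Agent.FF.Gal Fermat.Agent.Igusa Fermat.Agent.X0N

noncomputable section

variable {L : Type*} [Field L] [Algebra L ℂ] {ζ : Lˣ} {N : ℕ} [NeZero N]
variable (hζ : algebraMap L ℂ (ζ : L) = zetaH (N : ℝ))

/-- the order at `z₀` of the realisation of an element of `M`. -/
def ordAtM (z₀ : ℍ) (x : ↥(fieldM L ζ N)) : ℤ := MerH.ordAt z₀ (realM hζ x)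

theorem realM_aeval_jt (p : L[X]) :
    realM hζ (aeval (jt : fieldM L ζ N) p) = aeval jM (p.map (algebraMap L ℂ)) := by
  rw [realM_aeval hζ, realM_jt hζ]

theorem realM_ne_zero {x : ↥(fieldM L ζ N)} (hx : x ≠ 0) : realM hζ x ≠ 0 :=
  (map_ne_zero_iff _ (realM_injective hζ)).mpr hx

/-- `ord_{z₀} ∘ realM` is an order function on `M` over `L` when `j(z₀)` is algebraic over `L`. -/
theorem isOrdFun_ordAtM (z₀ : ℍ) {p : L[X]} (hp0 : p ≠ 0)
    (hroot : (p.map (algebraMap L ℂ)).eval (jH z₀) = 0) :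
    IsOrdFun L (ordAtM hζ z₀) where
  map_mul x y hx hy := by
    show MerH.ordAt z₀ (realM hζ (x * y)) = _
    rw [map_mul]
    exact MerH.ordAt_mul (realM_ne_zero hζ hx) (realM_ne_zero hζ hy) z₀
  map_add x y hx hy hxy := by
    show _ ≤ MerH.ordAt z₀ (realM hζ (x + y))
    rw [map_add]
    refine MerH.min_ordAt_le_ordAt_add (realM_ne_zero hζ hx) (realM_ne_zero hζ hy) ?_ z₀
    rw [← map_add]
    exact realM_ne_zero hζ hxy
  map_algebraMap c hc := by
    show MerH.ordAt z₀ (realM hζ (algebraMap L _ c)) = 0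
    rw [realM_algebraMap]
    exact MerH.ordAt_const ((map_ne_zero_iff _ (algebraMap L ℂ).injective).mpr hc) z₀
  nontrivial := by
    have hQ : p.map (algebraMap L ℂ) ≠ 0 :=
      (Polynomial.map_ne_zero_iff (algebraMap L ℂ).injective).mpr hp0
    refine ⟨aeval (jt : fieldM L ζ N) p, ?_, ?_⟩
    · intro h
      have := realM_aeval_jt hζ p
      rw [h, map_zero] at this
      exact aeval_jM_ne_zero hQ this.symm
    · show MerH.ordAt z₀ (realM hζ (aeval (jt : fieldM L ζ N) p)) ≠ 0
      rw [realM_aeval_jt]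
      exact (ordAt_aeval_jM_pos hQ hroot).ne'

/-- the order of `j - c` at `z₀` for `c = j(z₀)`. -/
theorem ordAt_jM_sub_const (z₀ : ℍ) :
    MerH.ordAt z₀ (jM - MerH.const (jH z₀)) =
      if jH z₀ = 0 then 3 else if jH z₀ = 1728 then 2 else 1 := by
  have hne : jHol - HolH.const (jFun z₀) ≠ 0 := by
    intro h
    have h1 : jFun UpperHalfPlane.I - jFun z₀ = 0 :=
      congrFun (congrArg Subtype.val h) UpperHalfPlane.I
    have h2 : jFun rhoH - jFun z₀ = 0 := congrFun (congrArg Subtype.val h) rhoH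
    rw [jFun_I] at h1
    rw [jFun_rhoH] at h2
    have : (1728 : ℂ) = 0 := by linear_combination h1 - h2
    norm_num at this
  have h1 : jM - MerH.const (jH z₀) = MerH.ofHol (jHol - HolH.const (jFun z₀)) := by
    rw [map_sub]
    rfl
  rw [h1, MerH.ordAt_ofHol hne, ord_jHol_sub_const]
  show ((if jFun z₀ = 0 then 3 else if jFun z₀ = 1728 then 2 else 1 : ℕ) : ℤ) = _
  rw [jH_eq_jFun]
  split_ifs <;> norm_num

/-- **The value of the analytic order function at `p(j)`**, `p` separable with `ι p (j z₀) = 0`. -/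
theorem ordAtM_aeval_jt (z₀ : ℍ) {p : L[X]} (hp : p.Separable)
    (hroot : (p.map (algebraMap L ℂ)).eval (jH z₀) = 0) :
    ordAtM hζ z₀ (aeval (jt : fieldM L ζ N) p) =
      if jH z₀ = 0 then 3 else if jH z₀ = 1728 then 2 else 1 := by
  show MerH.ordAt z₀ (realM hζ (aeval (jt : fieldM L ζ N) p)) = _
  rw [realM_aeval_jt]
  set Q := p.map (algebraMap L ℂ) with hQdef
  have hQsep : Q.Separable := hp.map
  -- `Q = (X - C α) * g` with `g(α) ≠ 0`
  obtain ⟨g, hg⟩ : (X - C (jH z₀)) ∣ Q := dvd_iff_isRoot.mpr hroot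
  have hgα : g.eval (jH z₀) ≠ 0 := by
    intro h0
    obtain ⟨g', hg'⟩ : (X - C (jH z₀)) ∣ g := dvd_iff_isRoot.mpr h0
    have hsq : (X - C (jH z₀)) * (X - C (jH z₀)) ∣ Q := ⟨g', by rw [hg, hg']; ring⟩
    have hunit := hQsep.squarefree _ hsq
    exact not_isUnit_X_sub_C _ hunit
  have hg0 : g ≠ 0 := by
    rintro rfl
    simp at hgα
  have h1 : aeval jM Q = (jM - MerH.const (jH z₀)) * aeval jM g := by
    rw [hg, map_mul, map_sub, aeval_X, aeval_C, MerH.algebraMap_eq_const]
  have hne1 : jM - MerH.const (jH z₀) ≠ 0 := by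
    intro h0
    have := ordAt_jM_sub_const z₀
    rw [h0] at this
    have h00 : MerH.ordAt z₀ (0 : MerH) = 0 := by
      have := MerH.ordAt_neg (0 : MerH) z₀
      have h2 := MerH.ordAt_inv (0 : MerH) z₀
      rw [inv_zero] at h2
      omega
    rw [h00] at this
    split_ifs at this <;> omega
  rw [h1, MerH.ordAt_mul hne1 (aeval_jM_ne_zero hg0), ordAt_aeval_jM_eq_zero hgα, add_zero,
    ordAt_jM_sub_const]

end

end Fermat.Agent.JA
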