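/-
J-A project, package RAM0 (helper2), part 5: the `t`-adic place of `M ⊂ L((t))`.

The `t`-adic order is an order function on `M = fieldM L ζ N` over `L`, with value `-N` at `j`.
-/
import Mathlib
import Fermat.Agent.Igusa.A_helper2_Poly
import Fermat.Agent.FF.Gal_helper7_OfOrd

set_option autoImplicit false

open AlgebraicCurve Polynomial IntermediateField ModularCurve

namespace Fermat.Agent.JA

open Fermat.Agent.FF Fermat.Agent.FF.Gal Fermat.Agent.Igusa Fermat.Agent.X0N

noncomputable section

variable {L : Type*} [Field L] [Algebra L ℂ] {ζ : Lˣ} {N : ℕ} [NeZero N]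

/-- the `t`-adic order on `M ⊂ L((t))`. -/
def ordInfM (x : ↥(fieldM L ζ N)) : ℤ := (x : LaurentSeries L).order

theorem coe_ne_zero_fieldM {x : ↥(fieldM L ζ N)} (hx : x ≠ 0) : (x : LaurentSeries L) ≠ 0 :=
  fun h => hx (Subtype.ext h)

theorem order_jtSer : (jtSer L N).order = -(N : ℤ) := by
  have h1 : (jtSer L N).coeff (-(N : ℤ)) = 1 := by
    have := jtSer_pow_coeff_self (A := L) N 1
    rwa [pow_one, Nat.cast_one, mul_one] at this
  have hne : jtSer L N ≠ 0 := by
    intro h
    rw [h] at h1
    simp at h1
  apply le_antisymm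
  · exact HahnSeries.order_le_of_coeff_ne_zero (by rw [h1]; exact one_ne_zero)
  · rw [HahnSeries.le_order_iff_forall hne]
    intro n hn
    have := jtSer_pow_coeff_of_lt (A := L) N 1 (n := n) (by rwa [Nat.cast_one, mul_one])
    rwa [pow_one] at this

theorem ordInfM_jt : ordInfM (jt : fieldM L ζ N) = -(N : ℤ) := by
  show ((jt : fieldM L ζ N) : LaurentSeries L).order = _
  rw [coe_jt]
  exact order_jtSer

/-- the `t`-adic order is an order function on `M` over `L`. -/
theorem isOrdFun_ordInfM : IsOrdFun L (ordInfM (L := L) (ζ := ζ) (N := N)) where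
  map_mul x y hx hy := by
    show ((x * y : ↥(fieldM L ζ N)) : LaurentSeries L).order = _
    rw [MulMemClass.coe_mul]
    exact HahnSeries.order_mul (coe_ne_zero_fieldM hx) (coe_ne_zero_fieldM hy)
  map_add x y hx hy hxy := by
    show _ ≤ ((x + y : ↥(fieldM L ζ N)) : LaurentSeries L).order
    rw [AddMemClass.coe_add]
    refine HahnSeries.min_order_le_order_add ?_
    rw [← AddMemClass.coe_add]
    exact coe_ne_zero_fieldM hxy
  map_algebraMap c hc := by
    show ((algebraMap L ↥(fieldM L ζ N) c : ↥(fieldM L ζ N)) : LaurentSeries L).order = 0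
    have : ((algebraMap L ↥(fieldM L ζ N) c : ↥(fieldM L ζ N)) : LaurentSeries L) =
        HahnSeries.single 0 c := by
      rw [← algebraMap_laurentSeries_eq_single]
      rfl
    rw [this, HahnSeries.order_single hc]
  nontrivial := by
    refine ⟨jt, ?_, ?_⟩
    · intro h
      have := ordInfM_jt (L := L) (ζ := ζ) (N := N)
      rw [h] at this
      have h0 : ordInfM (0 : ↥(fieldM L ζ N)) = 0 := by
        show ((0 : ↥(fieldM L ζ N)) : LaurentSeries L).order = 0
        rw [ZeroMemClass.coe_zero, HahnSeries.order_zero]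
      rw [h0] at this
      have hN : (N : ℤ) ≠ 0 := by exact_mod_cast NeZero.ne N
      omega
    · rw [ordInfM_jt]
      have hN : (N : ℤ) ≠ 0 := by exact_mod_cast NeZero.ne N
      omega

end

end Fermat.Agent.JA
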