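/-
J-A project, package RAM0 (helper2), part 1: places and polynomials in one element.

For a place `v` of a field `M` over `K`, an element `y : M` and an irreducible polynomial `p`
with `0 < v.ord (p(y))`, the order of `a(y)` is `mult_p(a) · v.ord (p(y))`.  Consequently two
places of `M` which are both positive at `p(y)` (resp. both negative at `y`) have the same
restriction to `K(y)`.
-/
import Mathlib
import Fermat.Agent.FF.Squeeze
import Fermat.Agent.FF.Gal_helper7_Restrict

set_option autoImplicit false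

open AlgebraicCurve Polynomial IntermediateField

namespace Fermat.Agent.JA

open Fermat.Agent.FF Fermat.Agent.FF.Gal

variable {K M : Type*} [Field K] [Field M] [Algebra K M]

/-- if `0 < v.ord (p(y))` (or just `p(y) ∈ V`, `p` non-constant) then `y ∈ V`. -/
theorem mem_of_ord_aeval_pos (v : Place K M) {y : M} {p : K[X]}
    (hv : 0 < v.ord (aeval y p)) : y ∈ v.toValuationSubring := by
  by_contra hy
  have hy0 : y ≠ 0 := fun h => hy (h ▸ zero_mem _)
  have hyord : v.ord y < 0 := by
    by_contra h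
    push Not at h
    exact hy ((PlaceAux.mem_iff_ord_nonneg' v hy0).mpr h)
  have hp0 : p ≠ 0 := by
    rintro rfl
    rw [map_zero, v.ord_zero] at hv
    exact lt_irrefl _ hv
  -- `p(y) = y ^ d * p.reverse(y⁻¹)` and `p.reverse(y⁻¹)` is a unit
  have h1 : aeval y p = y ^ p.natDegree * aeval y⁻¹ p.reverse := by
    letI := invertibleOfNonzero hy0
    have := eval₂_reverse_mul_pow (algebraMap K M) y p
    rw [invOf_eq_inv] at this
    rw [aeval_def, aeval_def, ← this, mul_comm]
  have hinv : 0 < v.ord (y⁻¹ - algebraMap K M 0) := by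
    rw [map_zero, sub_zero, v.ord_inv]
    omega
  have hrev : p.reverse.eval 0 ≠ 0 := by
    rw [← coeff_zero_eq_eval_zero, coeff_zero_reverse]
    exact leadingCoeff_ne_zero.mpr hp0
  obtain ⟨h2, h3⟩ := ord_aeval_eq_zero_of_eval_ne_zero v hinv hrev
  rw [h1, v.ord_mul (pow_ne_zero _ hy0) h2, h3, add_zero, PlaceAux.ord_pow] at hv
  have : (p.natDegree : ℤ) * v.ord y ≤ 0 :=
    mul_nonpos_of_nonneg_of_nonpos (Int.natCast_nonneg _) hyord.le
  omega

/-- a polynomial prime to `p` is a unit at a place where `p(y)` is positive. -/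
theorem ord_aeval_eq_zero_of_not_dvd (v : Place K M) {y : M} {p : K[X]} (hp : Irreducible p)
    (hv : 0 < v.ord (aeval y p)) {a : K[X]} (ha : ¬ p ∣ a) :
    aeval y a ≠ 0 ∧ v.ord (aeval y a) = 0 := by
  have hy := mem_of_ord_aeval_pos v hv
  have hcop : IsCoprime p a := (hp.coprime_iff_not_dvd).mpr ha
  obtain ⟨s, t, hst⟩ := hcop
  have h1 : aeval y s * aeval y p + aeval y t * aeval y a = 1 := by
    rw [← map_mul, ← map_mul, ← map_add, hst, map_one]
  have hpy0 : aeval y p ≠ 0 := by
    intro h
    rw [h, v.ord_zero] at hv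
    exact lt_irrefl _ hv
  have hsmem := aeval_mem_valuationSubring v hy s
  have htmem := aeval_mem_valuationSubring v hy t
  have hamem := aeval_mem_valuationSubring v hy a
  have hsord := PlaceAux.ord_nonneg_of_mem v hsmem
  have htord := PlaceAux.ord_nonneg_of_mem v htmem
  have haord := PlaceAux.ord_nonneg_of_mem v hamem
  have ha0 : aeval y a ≠ 0 := by
    intro h
    rw [h, mul_zero, add_zero] at h1
    have hs0 : aeval y s ≠ 0 := left_ne_zero_of_mul_eq_one h1
    have := v.ord_mul hs0 hpy0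
    rw [h1, v.ord_one] at this
    omega
  refine ⟨ha0, ?_⟩
  by_contra hne
  have hpos : 0 < v.ord (aeval y a) := lt_of_le_of_ne haord (Ne.symm hne)
  have ht0 : aeval y t ≠ 0 := by
    intro h
    rw [h, zero_mul, add_zero] at h1
    have hs0 : aeval y s ≠ 0 := left_ne_zero_of_mul_eq_one h1
    have := v.ord_mul hs0 hpy0
    rw [h1, v.ord_one] at this
    omega
  have hta : 0 < v.ord (aeval y t * aeval y a) := by
    rw [v.ord_mul ht0 ha0]
    omega
  by_cases hs0 : aeval y s = 0
  · rw [hs0, zero_mul, zero_add] at h1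
    rw [h1, v.ord_one] at hta
    exact lt_irrefl _ hta
  · have hsp : 0 < v.ord (aeval y s * aeval y p) := by
      rw [v.ord_mul hs0 hpy0]
      omega
    have h2 := ord_add v (mul_ne_zero hs0 hpy0) (mul_ne_zero ht0 ha0)
      (by rw [h1]; exact one_ne_zero)
    rw [h1, v.ord_one] at h2
    have := lt_min hsp hta
    omega

/-- the order of `a(y)` at a place where `p(y)` is positive only depends on the multiplicity of `p`
in `a`. -/
theorem exists_ord_aeval_eq {p : K[X]} (hp : Irreducible p) {a : K[X]} (ha : a ≠ 0) :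
    ∃ m : ℕ, ∀ (v : Place K M) (y : M), 0 < v.ord (aeval y p) →
      aeval y a ≠ 0 ∧ v.ord (aeval y a) = m * v.ord (aeval y p) := by
  obtain ⟨m, a', ha', rfl⟩ := WfDvdMonoid.max_power_factor ha hp
  refine ⟨m, fun v y hv => ?_⟩
  have hpy0 : aeval y p ≠ 0 := by
    intro h
    rw [h, v.ord_zero] at hv
    exact lt_irrefl _ hv
  obtain ⟨h1, h2⟩ := ord_aeval_eq_zero_of_not_dvd v hp hv ha'
  refine ⟨?_, ?_⟩
  · rw [map_mul, map_pow]
    exact mul_ne_zero (pow_ne_zero _ hpy0) h1
  · rw [map_mul, map_pow, v.ord_mul (pow_ne_zero _ hpy0) h1, h2, add_zero, PlaceAux.ord_pow]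

/-- **Uniqueness of the place of `K(y)` with a given finite centre**: two places of `M` which are
positive at `p(y)`, `p` irreducible, contain the same elements of `K(y)`. -/
theorem mem_iff_mem_of_ord_aeval_pos {v v' : Place K M} {y : M} {p : K[X]} (hp : Irreducible p)
    (hv : 0 < v.ord (aeval y p)) (hv' : 0 < v'.ord (aeval y p)) {x : M} (hx : x ∈ K⟮y⟯) :
    x ∈ v.toValuationSubring ↔ x ∈ v'.toValuationSubring := by
  by_cases hx0 : x = 0
  · rw [hx0]
    exact ⟨fun _ => zero_mem _, fun _ => zero_mem _⟩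
  obtain ⟨a, b, rfl⟩ := (mem_adjoin_simple_iff K x).mp hx
  have hb0 : aeval y b ≠ 0 := by
    intro h
    rw [h, div_zero] at hx0
    exact hx0 rfl
  have ha0 : aeval y a ≠ 0 := by
    intro h
    rw [h, zero_div] at hx0
    exact hx0 rfl
  have ha : a ≠ 0 := by
    rintro rfl
    exact ha0 (map_zero _)
  have hb : b ≠ 0 := by
    rintro rfl
    exact hb0 (map_zero _)
  obtain ⟨m, hm⟩ := exists_ord_aeval_eq (M := M) hp ha
  obtain ⟨n, hn⟩ := exists_ord_aeval_eq (M := M) hp hb
  have key : ∀ w : Place K M, 0 < w.ord (aeval y p) →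
      (aeval y a / aeval y b ∈ w.toValuationSubring ↔ (n : ℤ) ≤ m) := by
    intro w hw
    rw [PlaceAux.mem_iff_ord_nonneg' w hx0, PlaceAux.ord_div w ha0 hb0, (hm w y hw).2,
      (hn w y hw).2, ← sub_mul]
    constructor
    · intro h
      by_contra hlt
      push Not at hlt
      have : ((m : ℤ) - n) * w.ord (aeval y p) < 0 :=
        mul_neg_of_neg_of_pos (by omega) hw
      omega
    · intro h
      exact mul_nonneg (by omega) hw.le
  rw [key v hv, key v' hv']

/-- **Uniqueness of the place of `K(y)` at infinity**: two places of `M` which are negative at `y`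
contain the same elements of `K(y)`. -/
theorem mem_iff_mem_of_ord_neg {v v' : Place K M} {y : M}
    (hv : v.ord y < 0) (hv' : v'.ord y < 0) {x : M} (hx : x ∈ K⟮y⟯) :
    x ∈ v.toValuationSubring ↔ x ∈ v'.toValuationSubring := by
  have hy0 : y ≠ 0 := by
    rintro rfl
    rw [v.ord_zero] at hv
    exact lt_irrefl _ hv
  have hx' : x ∈ K⟮y⁻¹⟯ := by
    have : K⟮y⟯ ≤ K⟮y⁻¹⟯ := by
      rw [adjoin_simple_le_iff]
      have h := inv_mem (mem_adjoin_simple_self K y⁻¹)
      rwa [inv_inv] at h
    exact this hx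
  have h1 : ∀ w : Place K M, w.ord y < 0 → 0 < w.ord (aeval y⁻¹ (X : K[X])) := by
    intro w hw
    rw [aeval_X, w.ord_inv]
    omega
  exact mem_iff_mem_of_ord_aeval_pos irreducible_X (h1 v hv) (h1 v' hv') hx'

/-- polynomials in `y` lie in `K(y)`. -/
theorem aeval_mem_adjoin_simple_self (y : M) (p : K[X]) : aeval y p ∈ K⟮y⟯ :=
  (mem_adjoin_simple_iff K _).mpr ⟨p, 1, by simp⟩

end Fermat.Agent.JA
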