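/-
J-A project, package RAM0 (helper2), part 2: the embedding `F_L ↪ M` and the Galois glue.

* `embFM L ζ N : F_L →ₐ[L] M`, `q ↦ t^N`, with `embFM (jGen L N) = jt`;
* `M` is finite over (the image of) `F_L`, so every place of `F_L` extends to `M`
  (`exists_place_fieldM_over`);
* two places of `M` with the same centre on the `j`-line have the same order function on `L(j)`
  (`ord_eq_of_ord_aeval_pos`, `ord_eq_of_ord_neg`), because `M / L(j)` is Galois.
-/
import Mathlib
import Fermat.Agent.Igusa.A_helper2_Bridge
import Fermat.Agent.X0N.FinPt_helper8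
import Fermat.Agent.FF.Gal_helper7_Action
import Fermat.Agent.JA.RAM0_helper2_Rational

set_option autoImplicit false

open AlgebraicCurve Polynomial IntermediateField ModularCurve

namespace Fermat.Agent.JA

open Fermat.Agent.FF Fermat.Agent.FF.Gal Fermat.Agent.Igusa Fermat.Agent.X0N

noncomputable section

variable {L : Type*} [Field L] [Algebra ℚ L] [Algebra L ℂ] {ζ : Lˣ} {N : ℕ} [NeZero N]

/-- `q ↦ t^N` maps the function field `F_L` of `X₀(N)` over `L` into `M`. -/
theorem qExpand_mem_fieldM {x : LaurentSeries L}
    (hx : x ∈ laurentBaseChange L (modularFunctionFieldFull N)) :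
    qExpand L N x ∈ fieldM L ζ N := by
  rw [laurentBaseChange] at hx
  induction hx using IntermediateField.adjoin_induction with
  | mem x hx =>
    obtain ⟨y, hy, rfl⟩ := hx
    exact iotaF_mem hy
  | algebraMap c =>
    have : qExpand L N (algebraMap L (LaurentSeries L) c) = algebraMap L (LaurentSeries L) c :=
      (qExpandAlgHomC L N).commutes c
    rw [this]
    exact (fieldM L ζ N).algebraMap_mem _
  | add x y _ _ hx hy => rw [map_add]; exact add_mem hx hy
  | mul x y _ _ hx hy => rw [map_mul]; exact mul_mem hx hy
  | inv x _ hx => rw [map_inv₀]; exact inv_mem hx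

variable (L ζ N) in
/-- the embedding `F_L → M`, `q ↦ t^N`, as an `L`-algebra homomorphism. -/
def embFM : ↥(laurentBaseChange L (modularFunctionFieldFull N)) →ₐ[L] ↥(fieldM L ζ N) where
  toFun x := ⟨qExpand L N (x : LaurentSeries L), qExpand_mem_fieldM x.2⟩
  map_one' := Subtype.ext (by simp)
  map_mul' x y := Subtype.ext (by simp)
  map_zero' := Subtype.ext (by simp)
  map_add' x y := Subtype.ext (by simp)
  commutes' c := Subtype.ext ((qExpandAlgHomC L N).commutes c)

@[simp] theorem coe_embFM (x : ↥(laurentBaseChange L (modularFunctionFieldFull N))) :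
    ((embFM L ζ N x : ↥(fieldM L ζ N)) : LaurentSeries L) = qExpand L N (x : LaurentSeries L) :=
  rfl

theorem embFM_injective : Function.Injective (embFM L ζ N) := (embFM L ζ N).toRingHom.injective

theorem embFM_jGen : embFM L ζ N (jGen L N) = jt := by
  apply Subtype.ext
  rw [coe_embFM, coe_jt]
  congr 1
  show coeffEmb L jq = jqModC L
  rw [coeffEmb, ← jqModC_rat, coeffMap_jqModC]

theorem embFM_aeval_jGen (p : L[X]) :
    embFM L ζ N (aeval (jGen L N) p) = aeval (jt : fieldM L ζ N) p := by
  rw [← aeval_algHom_apply, embFM_jGen]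

end

end Fermat.Agent.JA
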