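/-
J-A project, package RAM0 (helper2), part 2: the Galois glue (abstract).

If `M / K(y)` is finite Galois, two places of `M` over `K` with the same centre on the `y`-line
have the same order function on `K(y)` (they are conjugate, and the Galois group fixes `K(y)`).
-/
import Mathlib
import Fermat.Agent.FF.Gal_helper7_Action
import Fermat.Agent.JA.RAM0_helper2_Rational

set_option autoImplicit false
set_option linter.style.haveILetI false

open AlgebraicCurve Polynomial IntermediateField

namespace Fermat.Agent.JA

open Fermat.Agent.FF Fermat.Agent.FF.Gal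

variable {K M : Type*} [Field K] [Field M] [Algebra K M]

/-- automorphisms over an intermediate field commute with the scalars of the base. -/
theorem smulCommClass_algEquiv_intermediateField (E : IntermediateField K M) :
    SMulCommClass (M ≃ₐ[E] M) K M := ⟨by
  intro g c y
  rw [Algebra.smul_def, Algebra.smul_def, smul_mul', IsScalarTower.algebraMap_apply K E M]
  congr 1
  exact g.commutes _⟩

/-- two places of `M` inducing the same valuation ring on the intermediate field `E`, with `M / E`
finite Galois, have the same order function on `E`. -/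
theorem ord_eq_of_forall_mem_iff (E : IntermediateField K M) [IsGalois E M]
    [FiniteDimensional E M] {w w₀ : Place K M}
    (h : ∀ x : M, x ∈ E → (x ∈ w.toValuationSubring ↔ x ∈ w₀.toValuationSubring))
    {x : M} (hx : x ∈ E) : w.ord x = w₀.ord x := by
  haveI : Algebra.IsAlgebraic E M := Algebra.IsAlgebraic.of_finite _ _
  let u : Place K E := Gal.restrict E w
  have hwu : LiesOver w u := liesOver_restrict w
  have hw₀u : LiesOver w₀ u := by
    rw [liesOver_iff]
    intro y
    rw [← hwu.mem_iff y]
    exact (h _ y.2).symm
  letI : SMulCommClass (M ≃ₐ[E] M) K M := smulCommClass_algEquiv_intermediateField E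
  obtain ⟨g, hg⟩ := exists_smul_eq (G := M ≃ₐ[E] M) hw₀u hwu
  rw [← hg, ord_smul_place']
  congr 1
  exact (g⁻¹).commutes ⟨x, hx⟩

/-- **Finite centre**: if `M / K(y)` is finite Galois, two places of `M` which are positive at
`p(y)`, `p` irreducible, have the same order function on `K(y)`. -/
theorem ord_eq_of_ord_aeval_pos (y : M) [IsGalois K⟮y⟯ M] [FiniteDimensional K⟮y⟯ M]
    {w w₀ : Place K M} {p : K[X]} (hp : Irreducible p)
    (hw : 0 < w.ord (aeval y p)) (hw₀ : 0 < w₀.ord (aeval y p))
    {x : M} (hx : x ∈ K⟮y⟯) : w.ord x = w₀.ord x :=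
  ord_eq_of_forall_mem_iff K⟮y⟯ (fun _ hz => mem_iff_mem_of_ord_aeval_pos hp hw hw₀ hz) hx

/-- **Infinite centre**: if `M / K(y)` is finite Galois, two places of `M` which are negative at
`y` have the same order function on `K(y)`. -/
theorem ord_eq_of_ord_neg (y : M) [IsGalois K⟮y⟯ M] [FiniteDimensional K⟮y⟯ M]
    {w w₀ : Place K M} (hw : w.ord y < 0) (hw₀ : w₀.ord y < 0)
    {x : M} (hx : x ∈ K⟮y⟯) : w.ord x = w₀.ord x :=
  ord_eq_of_forall_mem_iff K⟮y⟯ (fun _ hz => mem_iff_mem_of_ord_neg hw hw₀ hz) hx

section Extend

variable {K F M : Type*} [Field K] [Field F] [Field M] [Algebra K F] [Algebra K M]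

/-- `M` is finite over `F` (via `φ`) as soon as it is finite over an intermediate field contained
in the range of `φ`. -/
theorem finite_of_le_fieldRange (φ : F →ₐ[K] M) (E : IntermediateField K M)
    [FiniteDimensional E M] (hE : E ≤ φ.fieldRange) :
    letI := φ.toRingHom.toAlgebra
    Module.Finite F M := by
  letI := φ.toRingHom.toAlgebra
  letI : Algebra E φ.fieldRange := (IntermediateField.inclusion hE).toRingHom.toAlgebra
  haveI : IsScalarTower E φ.fieldRange M := IsScalarTower.of_algebraMap_eq fun x => rfl
  haveI : Module.Finite φ.fieldRange M := Module.Finite.right E φ.fieldRange M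
  let e : φ.fieldRange ≃+* F := (AlgEquiv.ofInjectiveField φ).symm.toRingEquiv
  refine Module.Finite.of_equiv_equiv e (RingEquiv.refl M) ?_
  ext x
  show φ ((AlgEquiv.ofInjectiveField φ).symm x) = x
  have := (AlgEquiv.ofInjectiveField φ).apply_symm_apply x
  exact congrArg Subtype.val this

/-- **Extension of places** along `φ : F → M` (characteristic zero, `M` finite over a subfield of
the range of `φ`): every place of `F` is the restriction of a place of `M`. -/
theorem exists_place_over [CharZero F] (φ : F →ₐ[K] M) (E : IntermediateField K M)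
    [FiniteDimensional E M] (hE : E ≤ φ.fieldRange) (P : Place K F) :
    ∃ (w : Place K M) (e : ℤ), 0 < e ∧ ∀ x : F, w.ord (φ x) = e * P.ord x := by
  letI := φ.toRingHom.toAlgebra
  haveI : IsScalarTower K F M := IsScalarTower.of_algebraMap_eq fun x => (φ.commutes x).symm
  haveI : Module.Finite F M := finite_of_le_fieldRange φ E hE
  haveI : Algebra.IsAlgebraic F M := Algebra.IsAlgebraic.of_finite _ _
  obtain ⟨w, hw⟩ := exists_liesOver_of_place (L := M) P
  obtain ⟨e, he, h⟩ := hw.exists_ord_eq
  exact ⟨w, e, he, h⟩

end Extend

end Fermat.Agent.JA
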