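/-
J-A project, package RAM0 (helper2), part 6: **ramification of `F_L / L(j)` in characteristic 0**.

`F_L = laurentBaseChange L (modularFunctionFieldFull N)` is the function field of `X₀(N)` over a
field `L ⊆ ℂ` containing a primitive `N`-th root of unity, `j = jGen L N`.  For every place `P` of
`F_L / L` (every closed point of `X₀(N)_L`, rational or not):

* `ram0_generic`: if `P` lies over the closed point `p` of the `j`-line (`p` irreducible,
  `0 < P.ord (p(j))`) with `p(0) ≠ 0`, `p(1728) ≠ 0`, then `P.ord (p(j)) = 1` (unramified);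
* `ram0_zero`: if `0 < P.ord j` then `P.ord j = 1 ∨ P.ord j = 3`;
* `ram0_1728`: if `0 < P.ord (j - 1728)` then `P.ord (j - 1728) = 1 ∨ P.ord (j - 1728) = 2`;
* `ram0_infty`: if `P.ord j < 0` then `P.ord j ∣ N`.

Proof: `M = fieldM L ζ N ⊇ F_L` is finite Galois over `L(j)`; every place of `F_L` extends to `M`;
the places of `M` over a given place of `L(j)` are conjugate; and over each place of `L(j)` there is
an explicit place of `M` (order at a point of `ℍ` of the realisation, resp. the `t`-adic order)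
whose order at the uniformiser of `L(j)` is `1`, `2`, `3`, resp. `N`.
-/
import Mathlib
import Fermat.Agent.JA.RAM0_helper2_Embed
import Fermat.Agent.JA.RAM0_helper2_Galois
import Fermat.Agent.JA.RAM0_helper2_Analytic
import Fermat.Agent.JA.RAM0_helper2_Cusp

set_option autoImplicit false
set_option linter.style.haveILetI false
set_option linter.unusedSectionVars false
set_option synthInstance.maxHeartbeats 200000

open AlgebraicCurve Polynomial IntermediateField ModularCurve UpperHalfPlane

namespace Fermat.Agent.JA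

open Fermat.Agent.FF Fermat.Agent.FF.Gal Fermat.Agent.Igusa Fermat.Agent.X0N

noncomputable section

variable {L : Type*} [Field L] [Algebra ℚ L] [Algebra L ℂ] {ζ : Lˣ} {N : ℕ} [NeZero N]

section Core

variable (hζ : algebraMap L ℂ (ζ : L) = zetaH (N : ℝ))

theorem adjoin_jt_le_fieldRange :
    L⟮(jt : fieldM L ζ N)⟯ ≤ (embFM L ζ N).fieldRange := by
  rw [adjoin_simple_le_iff]
  exact ⟨jGen L N, embFM_jGen⟩

include hζ

/-- every place of `F_L` is the restriction of a place of `M`. -/
theorem exists_place_fieldM_over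
    (P : Place L ↥(laurentBaseChange L (modularFunctionFieldFull N))) :
    ∃ (w : Place L ↥(fieldM L ζ N)) (e : ℤ), 0 < e ∧
      ∀ x, w.ord (embFM L ζ N x) = e * P.ord x := by
  haveI := finiteDimensional_fieldM hζ
  haveI : CharZero L := algebraRat.charZero L
  haveI : CharZero ↥(laurentBaseChange L (modularFunctionFieldFull N)) :=
    charZero_of_injective_algebraMap
      (algebraMap L ↥(laurentBaseChange L (modularFunctionFieldFull N))).injective
  exact exists_place_over (embFM L ζ N) L⟮(jt : fieldM L ζ N)⟯ adjoin_jt_le_fieldRange P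

/-- **Core, finite centre**: the order of `p(j)` at a place of `F_L` divides the order of
`j - j(z₀)` at a point `z₀` with `ι p (j z₀) = 0`. -/
theorem ord_dvd_of_root (P : Place L ↥(laurentBaseChange L (modularFunctionFieldFull N)))
    {p : L[X]} (hp : Irreducible p) (hP : 0 < P.ord (aeval (jGen L N) p))
    (z₀ : ℍ) (hroot : (p.map (algebraMap L ℂ)).eval (jH z₀) = 0) :
    P.ord (aeval (jGen L N) p) ∣ (if jH z₀ = 0 then 3 else if jH z₀ = 1728 then 2 else 1 : ℤ) := by
  haveI := finiteDimensional_fieldM hζ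
  haveI := isGalois_fieldM hζ
  haveI : CharZero L := algebraRat.charZero L
  obtain ⟨w, e, he, hw⟩ := exists_place_fieldM_over hζ P
  have hwpos : 0 < w.ord (aeval (jt : fieldM L ζ N) p) := by
    rw [← embFM_aeval_jGen, hw]
    exact mul_pos he hP
  -- the analytic place
  have hν := isOrdFun_ordAtM hζ z₀ hp.ne_zero hroot
  obtain ⟨e₀, π, he₀, -, -, -, hord⟩ := hν.exists_ord_eq
  have hpy0 : aeval (jt : fieldM L ζ N) p ≠ 0 := by
    intro h
    rw [h, w.ord_zero] at hwpos
    exact lt_irrefl _ hwpos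
  have hval := ordAtM_aeval_jt hζ z₀ hp.separable hroot
  have h1 := hord _ hpy0
  rw [hval] at h1
  have hcpos : (0 : ℤ) < (if jH z₀ = 0 then 3 else if jH z₀ = 1728 then 2 else 1 : ℤ) := by
    split_ifs <;> norm_num
  have hw₀pos : 0 < hν.place.ord (aeval (jt : fieldM L ζ N) p) := by
    rw [h1] at hcpos
    exact (mul_pos_iff_of_pos_left he₀).mp hcpos
  have heq := ord_eq_of_ord_aeval_pos (jt : fieldM L ζ N) hp hwpos hw₀pos
    (aeval_mem_adjoin_simple_self _ p)
  have heq' : e * P.ord (aeval (jGen L N) p) = hν.place.ord (aeval (jt : fieldM L ζ N) p) := by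
    rw [← hw, embFM_aeval_jGen]
    exact heq
  rw [h1, ← heq']
  exact ⟨e₀ * e, by ring⟩

/-- **Core, infinite centre**: the order of `j` at a pole divides `N`. -/
theorem ord_dvd_of_neg (P : Place L ↥(laurentBaseChange L (modularFunctionFieldFull N)))
    (hP : P.ord (jGen L N) < 0) : P.ord (jGen L N) ∣ (N : ℤ) := by
  haveI := finiteDimensional_fieldM hζ
  haveI := isGalois_fieldM hζ
  obtain ⟨w, e, he, hw⟩ := exists_place_fieldM_over hζ P
  have hwneg : w.ord (jt : fieldM L ζ N) < 0 := by
    rw [← embFM_jGen, hw]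
    exact mul_neg_of_pos_of_neg he hP
  have hν := isOrdFun_ordInfM (L := L) (ζ := ζ) (N := N)
  obtain ⟨e₀, π, he₀, -, -, -, hord⟩ := hν.exists_ord_eq
  have hj0 : (jt : fieldM L ζ N) ≠ 0 := by
    intro h
    rw [h, w.ord_zero] at hwneg
    exact lt_irrefl _ hwneg
  have h1 := hord _ hj0
  rw [ordInfM_jt] at h1
  have hN : (0 : ℤ) < N := by exact_mod_cast Nat.pos_of_ne_zero (NeZero.ne N)
  have hw₀neg : hν.place.ord (jt : fieldM L ζ N) < 0 := by
    by_contra h
    push Not at h
    have := mul_nonneg he₀.le h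
    omega
  have heq := ord_eq_of_ord_neg (jt : fieldM L ζ N) hwneg hw₀neg
    (mem_adjoin_simple_self L _)
  have heq' : e * P.ord (jGen L N) = hν.place.ord (jt : fieldM L ζ N) := by
    rw [← hw, embFM_jGen]
    exact heq
  rw [← dvd_neg, h1, ← heq']
  exact ⟨e₀ * e, by ring⟩

end Core

section Final

variable (hN : ∃ z : L, IsPrimitiveRoot z N)

include hN

/-- **(RAM0.gen)** `F_L / L(j)` is unramified over every closed point `p` of the `j`-line other
than `0`, `1728`, `∞`: `p(j)` stays a uniformiser. -/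
theorem ram0_generic (P : Place L ↥(laurentBaseChange L (modularFunctionFieldFull N)))
    (p : L[X]) (hp : Irreducible p) (h0 : p.eval 0 ≠ 0) (h1 : p.eval 1728 ≠ 0)
    (hP : 0 < P.ord (aeval (jGen L N) p)) : P.ord (aeval (jGen L N) p) = 1 := by
  obtain ⟨ζ, hζ⟩ := exists_zeta hN
  have hdeg : (p.map (algebraMap L ℂ)).degree ≠ 0 := by
    rw [degree_map]
    exact fun h => hp.not_isUnit (isUnit_iff_degree_eq_zero.mpr h)
  obtain ⟨α, hα⟩ := IsAlgClosed.exists_root (p.map (algebraMap L ℂ)) hdeg
  obtain ⟨z₀, hz₀⟩ := exists_jFun_eq α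
  have hroot : (p.map (algebraMap L ℂ)).eval (jH z₀) = 0 := by
    rw [jH_eq_jFun, hz₀]
    exact hα
  have hdvd := ord_dvd_of_root hζ P hp hP z₀ hroot
  have hne0 : jH z₀ ≠ 0 := by
    intro h
    rw [h, ← map_zero (algebraMap L ℂ), eval_map_apply] at hroot
    exact h0 ((algebraMap L ℂ).injective hroot)
  have hne1 : jH z₀ ≠ 1728 := by
    intro h
    rw [h, ← map_ofNat (algebraMap L ℂ) 1728, eval_map_apply] at hroot
    exact h1 ((map_eq_zero _).mp hroot)
  rw [if_neg hne0, if_neg hne1] at hdvd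
  exact Int.eq_one_of_dvd_one hP.le hdvd

/-- **(RAM0.0)** over `j = 0` the ramification index is `1` or `3`. -/
theorem ram0_zero (P : Place L ↥(laurentBaseChange L (modularFunctionFieldFull N)))
    (hP : 0 < P.ord (jGen L N)) : P.ord (jGen L N) = 1 ∨ P.ord (jGen L N) = 3 := by
  obtain ⟨ζ, hζ⟩ := exists_zeta hN
  obtain ⟨z₀, hz₀⟩ := exists_jFun_eq 0
  have hroot : ((X : L[X]).map (algebraMap L ℂ)).eval (jH z₀) = 0 := by
    rw [jH_eq_jFun, hz₀, Polynomial.map_X, eval_X]
  have hP' : 0 < P.ord (aeval (jGen L N) (X : L[X])) := by rwa [aeval_X]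
  have hdvd := ord_dvd_of_root hζ P irreducible_X hP' z₀ hroot
  rw [aeval_X, if_pos (by rw [jH_eq_jFun, hz₀])] at hdvd
  have hle : P.ord (jGen L N) ≤ 3 := Int.le_of_dvd (by norm_num) hdvd
  have h2 : P.ord (jGen L N) ≠ 2 := by
    intro h
    rw [h] at hdvd
    norm_num at hdvd
  omega

/-- **(RAM0.1728)** over `j = 1728` the ramification index is `1` or `2`. -/
theorem ram0_1728 (P : Place L ↥(laurentBaseChange L (modularFunctionFieldFull N)))
    (hP : 0 < P.ord (jGen L N - 1728)) :
    P.ord (jGen L N - 1728) = 1 ∨ P.ord (jGen L N - 1728) = 2 := by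
  obtain ⟨ζ, hζ⟩ := exists_zeta hN
  obtain ⟨z₀, hz₀⟩ := exists_jFun_eq 1728
  have hroot : ((X - C 1728 : L[X]).map (algebraMap L ℂ)).eval (jH z₀) = 0 := by
    rw [jH_eq_jFun, hz₀, Polynomial.map_sub, Polynomial.map_X, Polynomial.map_C, eval_sub, eval_X,
      eval_C, map_ofNat, sub_self]
  have hev : aeval (jGen L N) (X - C 1728 : L[X]) = jGen L N - 1728 := by
    rw [map_sub, aeval_X, aeval_C, map_ofNat]
  have hP' : 0 < P.ord (aeval (jGen L N) (X - C 1728 : L[X])) := by rwa [hev]
  have hdvd := ord_dvd_of_root hζ P (irreducible_X_sub_C _) hP' z₀ hroot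
  have h17 : jH z₀ = 1728 := by rw [jH_eq_jFun, hz₀]
  rw [hev, if_neg (by rw [h17]; norm_num), if_pos h17] at hdvd
  have hle : P.ord (jGen L N - 1728) ≤ 2 := Int.le_of_dvd (by norm_num) hdvd
  omega

/-- **(RAM0.∞)** over `j = ∞` the ramification index divides `N`. -/
theorem ram0_infty (P : Place L ↥(laurentBaseChange L (modularFunctionFieldFull N)))
    (hP : P.ord (jGen L N) < 0) : P.ord (jGen L N) ∣ (N : ℤ) := by
  obtain ⟨ζ, hζ⟩ := exists_zeta hN
  exact ord_dvd_of_neg hζ P hP

end Final

end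

end Fermat.Agent.JA
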