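/-
J-A project, package RAM0 (helper2), part 7: the statements in the literal shapes asked by lead,
and the identification `laurentBaseChange K (modularFunctionFieldFull N) =
modularFunctionFieldFullC K N` of the two Prelude models of the function field of `X₀(N)` over a
field `K` of characteristic zero.
-/
import Mathlib
import Fermat.Agent.JA.RAM0_helper2_Main
import Fermat.Prelude.Thm_ModularCurve_coeffMap_qExpand

set_option autoImplicit false
set_option linter.unusedSectionVars false

open AlgebraicCurve Polynomial IntermediateField ModularCurve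

namespace Fermat.Agent.JA

open Fermat.Agent.X0N

noncomputable section

section Models

variable (K : Type*) [Field K] [Algebra ℚ K] (N : ℕ) [NeZero N]

theorem coeffEmb_qExpand_jq (d : ℕ) [NeZero d] :
    coeffEmb K (qExpand ℚ d jq) = qExpand K d (jqModC K) := by
  rw [coeffEmb, coeffMap_qExpand, ← jqModC_rat, coeffMap_jqModC]

theorem coeffEmb_mem_fullC {x : LaurentSeries ℚ} (hx : x ∈ modularFunctionFieldFull N) :
    coeffEmb K x ∈ modularFunctionFieldFullC K N := by
  rw [modularFunctionFieldFull] at hx
  induction hx using IntermediateField.adjoin_induction with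
  | mem x hx =>
    obtain ⟨d, hd0, hd, rfl⟩ := hx
    haveI := hd0
    rw [coeffEmb_qExpand_jq]
    exact subset_adjoin K _ ⟨d, hd0, hd, rfl⟩
  | algebraMap c =>
    have : coeffEmb K (algebraMap ℚ (LaurentSeries ℚ) c) =
        algebraMap K (LaurentSeries K) (algebraMap ℚ K c) := by
      rw [coeffEmb, algebraMap_laurentSeries_eq_single, algebraMap_laurentSeries_eq_single,
        coeffMap_single]
    rw [this]
    exact (modularFunctionFieldFullC K N).algebraMap_mem _
  | add x y _ _ hx hy => rw [map_add]; exact add_mem hx hy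
  | mul x y _ _ hx hy => rw [map_mul]; exact mul_mem hx hy
  | inv x _ hx => rw [map_inv₀]; exact inv_mem hx

/-- the two Prelude models of the function field of `X₀(N)` over `K` coincide. -/
theorem laurentBaseChange_full_eq_fullC :
    laurentBaseChange K (modularFunctionFieldFull N) = modularFunctionFieldFullC K N := by
  apply le_antisymm
  · rw [laurentBaseChange, adjoin_le_iff]
    rintro _ ⟨x, hx, rfl⟩
    exact coeffEmb_mem_fullC K N hx
  · rw [modularFunctionFieldFullC, adjoin_le_iff]
    rintro _ ⟨d, hd0, hd, rfl⟩
    haveI := hd0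
    rw [← coeffEmb_qExpand_jq]
    exact coeffEmb_mem_laurentBaseChange K (jqd_mem_full N hd)

end Models

section Shapes

variable {L : Type*} [Field L] [Algebra ℚ L] [Algebra L ℂ] {N : ℕ} [NeZero N]
variable (hN : ∃ z : L, IsPrimitiveRoot z N)

include hN

/-- (i) in lead's shape: monic irreducible `p ≠ X, X - 1728`. -/
theorem ram0_generic' (P : Place L ↥(laurentBaseChange L (modularFunctionFieldFull N)))
    (p : L[X]) (hp : Irreducible p) (hm : p.Monic) (h0 : p ≠ X) (h1 : p ≠ X - C 1728)
    (hP : 0 < P.ord (aeval (jGen L N) p)) : P.ord (aeval (jGen L N) p) = 1 := by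
  refine ram0_generic hN P p hp ?_ ?_ hP
  · intro h
    have hdvd : (X - C 0 : L[X]) ∣ p := dvd_iff_isRoot.mpr h
    rw [C_0, sub_zero] at hdvd
    have := (irreducible_X (R := L)).associated_of_dvd hp hdvd
    exact h0 (eq_of_monic_of_associated hm monic_X this.symm)
  · intro h
    have hdvd : (X - C 1728 : L[X]) ∣ p := dvd_iff_isRoot.mpr h
    have := (irreducible_X_sub_C (1728 : L)).associated_of_dvd hp hdvd
    exact h1 (eq_of_monic_of_associated hm (monic_X_sub_C _) this.symm)

/-- (ii) in lead's shape. -/
theorem ram0_zero_dvd (P : Place L ↥(laurentBaseChange L (modularFunctionFieldFull N)))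
    (hP : 0 < P.ord (jGen L N)) : P.ord (jGen L N) ∣ 3 := by
  rcases ram0_zero hN P hP with h | h <;> rw [h] <;> norm_num

/-- (iii) in lead's shape. -/
theorem ram0_1728_dvd (P : Place L ↥(laurentBaseChange L (modularFunctionFieldFull N)))
    (hP : 0 < P.ord (jGen L N - 1728)) : P.ord (jGen L N - 1728) ∣ 2 := by
  rcases ram0_1728 hN P hP with h | h <;> rw [h] <;> norm_num

/-- (iv) in lead's shape. -/
theorem ram0_infty_neg (P : Place L ↥(laurentBaseChange L (modularFunctionFieldFull N)))
    (hP : P.ord (jGen L N) < 0) : (-P.ord (jGen L N)) ∣ (N : ℤ) :=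
  (neg_dvd).mpr (ram0_infty hN P hP)

end Shapes

end

end Fermat.Agent.JA
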