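/-
J-A package G1 (helper5), part G: the abstract structure theorem instantiated at the modular
function field `F_L = L(j(q^d) : d ∣ N) ⊆ L((q))`, `s = j`, `x = j_N`, `n = [SL₂(ℤ) : Γ₀(N)]`.
The only hypothesis left is (HDEG): `1, j̃_N, …, j̃_N^{n-1}` independent over `κ(j̃)`.
-/
import Fermat.Agent.JA.G1_helper5_Abstract2
import Fermat.Agent.JA.G1_helper5_Data
import Fermat.Agent.JA.RAM0_helper2_Shapes
import Fermat.Agent.X0N.S24_helper7_Generic
import Fermat.Agent.X0N.LD_helper1_Abstract
import Fermat.Agent.X0N.Cosets_helper9_Count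

set_option autoImplicit false
set_option linter.unusedSectionVars false

open scoped MatrixGroups
open Polynomial IntermediateField Fermat.Agent.Igusa Fermat.Agent.X0N ModularCurve
  CongruenceSubgroup

namespace Fermat.Agent.JA

noncomputable section

section Modular

variable (R : Type*) [CommRing R] [IsDomain R] [IsDiscreteValuationRing R]
  (L : Type*) [Field L] [Algebra R L] [IsFractionRing R L]
  [Algebra ℚ L] [Algebra L ℂ] [IsScalarTower ℚ L ℂ] (N : ℕ) [NeZero N]

local notation "kR" => IsLocalRing.ResidueField R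

omit [Algebra L ℂ] [IsScalarTower ℚ L ℂ] [NeZero N] in
theorem coeffEmb_jq_eq_jqModC : coeffEmb L jq = jqModC L := by
  have h := coeffEmb_qExpand_jq L 1
  rwa [qExpand_one_apply, qExpand_one_apply] at h

/-- (hub) at most `[SL₂(ℤ) : Γ₀(N)]` elements of `F_L` are independent over `L(j)`. -/
theorem card_le_index_of_linearIndependent_fullC (ι : Type) [Fintype ι]
    (b : ι → LaurentSeries L) (hb : ∀ i, b i ∈ modularFunctionFieldFullC L N)
    (hli : LinearIndependent L⟮jqModC L⟯ b) : Fintype.card ι ≤ (Gamma0 N).index := by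
  rw [← laurentBaseChange_full_eq_fullC L N] at hb
  obtain ⟨hfin, hrank⟩ := finrank_laurentBaseChange_full_eq L N
  have hli' : LinearIndependent L⟮jGen L N⟯
      (fun i => (⟨b i, hb i⟩ : ↥(laurentBaseChange L (modularFunctionFieldFull N)))) := by
    rw [linearIndependent_typed_iff]
    have : ((jGen L N : ↥(laurentBaseChange L (modularFunctionFieldFull N))) :
        LaurentSeries L) = jqModC L := coeffEmb_jq_eq_jqModC L
    rw [this]
    exact hli
  have := hli'.fintype_card_le_finrank
  rw [hrank, ← index_Gamma0 N] at this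
  exact this

theorem emb_jqNModC : emb R L (jqNModC R N) = jqNModC L N := by
  rw [jqNModC, emb_qExpand, emb_jqModC, jqNModC]

theorem red_jqNModC : red R (jqNModC R N) = jqNModC kR N := by
  rw [jqNModC, red_qExpand, red_jqModC, jqNModC]


/-! ### the abstract hypotheses in the modular setting -/

theorem emb_jqModC_mem_fullC : emb R L (jqModC R) ∈ modularFunctionFieldFullC L N := by
  rw [emb_jqModC]; exact jqModC_mem_fullC L N

theorem emb_jqNModC_mem_fullC : emb R L (jqNModC R N) ∈ modularFunctionFieldFullC L N := by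
  rw [emb_jqNModC]; exact jqNModC_mem_fullC L N

theorem transcendental_red_jqModC : Transcendental kR (red R (jqModC R)) := by
  rw [red_jqModC]; exact transcendental_jqModC kR

theorem hub_fullC (ι : Type) [Fintype ι] (b : ι → LaurentSeries L)
    (hb : ∀ i, b i ∈ modularFunctionFieldFullC L N)
    (hli : LinearIndependent L⟮emb R L (jqModC R)⟯ b) : Fintype.card ι ≤ (Gamma0 N).index := by
  rw [emb_jqModC] at hli
  exact card_le_index_of_linearIndependent_fullC L N ι b hb hli

variable (hdeg : LinearIndependent
  (IntermediateField.adjoin (IsLocalRing.ResidueField R) {jqModC (IsLocalRing.ResidueField R)})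
  (fun i : Fin (Gamma0 N).index => (jqNModC (IsLocalRing.ResidueField R) N) ^ (i : ℕ)))

include hdeg in
theorem hlb_fullC : LinearIndependent kR⟮red R (jqModC R)⟯
    (fun i : Fin (Gamma0 N).index => (red R (jqNModC R N)) ^ (i : ℕ)) := by
  rw [red_jqModC, red_jqNModC]; exact hdeg

include hdeg in
/-- **(RES)** the reduction of an integral element of `F_L` lies in `κ(j̃, j̃_N)`. -/
theorem gaussRed_mem_adjoin_pair_fullC {z : LaurentSeries L}
    (hz : z ∈ modularFunctionFieldFullC L N) (hzi : z ∈ gaussInt R L) :
    gaussRed R L ⟨z, hzi⟩ ∈ IntermediateField.adjoin kR {jqModC kR, jqNModC kR N} := by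
  have h := gaussRed_mem_adjoin_pair (modularFunctionFieldFullC L N) (jqModC R) (jqNModC R N)
    (emb_jqModC_mem_fullC R L N) (emb_jqNModC_mem_fullC R L N) (transcendental_red_jqModC R)
    (Gamma0 N).index (hub_fullC R L N) (hlb_fullC R N hdeg) hz hzi
  rwa [red_jqModC, red_jqNModC] at h

include L hdeg in
/-- **(FULL)** the function field mod `ℓ` is generated by `j̃` and `j̃_N`. -/
theorem fullC_residue_eq_adjoin_pair :
    modularFunctionFieldFullC kR N = IntermediateField.adjoin kR {jqModC kR, jqNModC kR N} := by
  apply le_antisymm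
  · rw [modularFunctionFieldFullC, IntermediateField.adjoin_le_iff]
    rintro x ⟨d, hd0, hd, rfl⟩
    haveI := hd0
    have hz : qExpand L d (jqModC L) ∈ modularFunctionFieldFullC L N := jqModCd_mem_full L N hd
    have hzi : qExpand L d (jqModC L) ∈ gaussInt R L := qExpand_jqModC_mem_gaussInt R L d
    have h := gaussRed_mem_adjoin_pair_fullC R L N hdeg hz hzi
    have e : gaussRed R L ⟨qExpand L d (jqModC L), hzi⟩ = qExpand kR d (jqModC kR) := by
      have h1 : (⟨qExpand L d (jqModC L), hzi⟩ : gaussInt R L) =
          embW (L := L) (qExpand R d (jqModC R)) := by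
        apply Subtype.ext
        rw [coe_embW, emb_qExpand, emb_jqModC]
      rw [h1, gaussRed_embW, red_qExpand, red_jqModC]
    rw [SetLike.mem_coe, ← e]
    exact h
  · rw [IntermediateField.adjoin_le_iff]
    intro x hx
    rcases hx with rfl | hx
    · exact jqModC_mem_fullC kR N
    · rw [Set.mem_singleton_iff] at hx
      rw [hx]
      exact jqNModC_mem_fullC kR N

include L hdeg in
/-- **(REL)** `j̃_N` satisfies a monic relation of degree `[SL₂(ℤ) : Γ₀(N)]` over `κ(j̃)`. -/
theorem exists_monic_relation_red_fullC :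
    ∃ c : Fin (Gamma0 N).index → kR⟮jqModC kR⟯,
      (jqNModC kR N) ^ (Gamma0 N).index =
        ∑ i, (c i : LaurentSeries kR) * (jqNModC kR N) ^ (i : ℕ) := by
  have h := exists_monic_relation_red (modularFunctionFieldFullC L N) (jqModC R) (jqNModC R N)
    (emb_jqModC_mem_fullC R L N) (emb_jqNModC_mem_fullC R L N) (transcendental_red_jqModC R)
    (Gamma0 N).index (hub_fullC R L N) (hlb_fullC R N hdeg)
  rwa [red_jqModC, red_jqNModC] at h

end Modular

end

end Fermat.Agent.JA
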