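/-
J-A package G1 (helper5), part A: the series `x_α` determine `α` (leading terms).
-/
import Fermat.Agent.Igusa.A_helper2_Twist

set_option autoImplicit false

open ModularCurve Fermat.Agent.Igusa

namespace Fermat.Agent.JA

noncomputable section

section Leading

variable (A : Type*) [CommRing A] (ζ : Aˣ) (N : ℕ) [NeZero N]

/-- the leading coefficient of `x_α`. -/
theorem coeff_xSer_neg_e (α : Idx N) :
    (xSer A ζ N α).coeff (-(α.e : ℤ)) = (((ζ ^ α.c)⁻¹ : Aˣ) : A) := by
  have h : -(α.e : ℤ) = (α.e : ℤ) * (-1) := by ring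
  rw [xSer, h, qExpand_coeff_mul, twist_coeff, coeff_jqModC_neg_one, mul_one, zpow_neg_one]

/-- `x_α` has no terms below `t^(-e)`. -/
theorem coeff_xSer_of_lt (α : Idx N) {n : ℤ} (hn : n < -(α.e : ℤ)) :
    (xSer A ζ N α).coeff n = 0 := by
  rw [xSer]
  by_cases hdvd : (α.e : ℤ) ∣ n
  · obtain ⟨k, rfl⟩ := hdvd
    rw [qExpand_coeff_mul, twist_coeff]
    have he : (0 : ℤ) < α.e := by exact_mod_cast Nat.pos_of_ne_zero (NeZero.ne α.e)
    have hk : k < -1 := by
      by_contra hk
      have hk' : -1 ≤ k := not_lt.mp hk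
      have : (α.e : ℤ) * (-1) ≤ (α.e : ℤ) * k := mul_le_mul_of_nonneg_left hk' he.le
      linarith
    rw [coeff_jqModC_of_lt A hk, mul_zero]
  · exact qExpand_coeff_of_not_dvd (N := α.e) _ hdvd

variable {A ζ N}

/-- equal series have equal exponents and equal twisting roots of unity. -/
theorem e_eq_and_pow_c_eq_of_xSer_eq [Nontrivial A] {α α' : Idx N}
    (h : xSer A ζ N α = xSer A ζ N α') : α.e = α'.e ∧ ζ ^ α.c = ζ ^ α'.c := by
  have key : ∀ β β' : Idx N, xSer A ζ N β = xSer A ζ N β' → ¬ β.e < β'.e := by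
    intro β β' hβ hlt
    have h1 := coeff_xSer_neg_e A ζ N β'
    rw [← hβ, coeff_xSer_of_lt A ζ N β (by exact_mod_cast (neg_lt_neg (by exact_mod_cast hlt)))]
      at h1
    exact (Units.ne_zero _) h1.symm
  have he : α.e = α'.e := le_antisymm (not_lt.mp (key α' α h.symm)) (not_lt.mp (key α α' h))
  refine ⟨he, ?_⟩
  have h1 := coeff_xSer_neg_e A ζ N α
  have h2 := coeff_xSer_neg_e A ζ N α'
  rw [h, he, h2] at h1
  have := Units.ext h1
  exact (inv_injective this).symm

end Leading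

section Arith

variable {N : ℕ} [NeZero N]

omit [NeZero N] in
theorem idx_e_mul (α : Idx N) : α.e * (α.a * α.d) = N * α.a ^ 2 := by
  obtain ⟨k, hk⟩ := α.d_dvd
  have hd : N / α.d = k := Nat.div_eq_of_eq_mul_right α.hd hk
  rw [Idx.e, hd]
  calc k * α.a * (α.a * α.d) = (α.d * k) * α.a ^ 2 := by ring
    _ = N * α.a ^ 2 := by rw [← hk]

theorem idx_c_lt (α : Idx N) : α.c < N := by
  obtain ⟨k, hk⟩ := α.d_dvd
  have hd : N / α.d = k := Nat.div_eq_of_eq_mul_right α.hd hk
  have hk0 : 0 < k := by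
    rcases Nat.eq_zero_or_pos k with h | h
    · exfalso
      apply NeZero.ne N
      rw [h, mul_zero] at hk
      exact hk
    · exact h
  rw [Idx.c, hd]
  calc k * α.b < k * α.d := Nat.mul_lt_mul_of_pos_left α.hb hk0
    _ = N := by rw [mul_comm]; exact hk.symm

/-- indices with the same determinant, the same exponent `e` and the same `c` coincide. -/
theorem idx_eq_of_e_eq_of_c_eq {α α' : Idx N} (hm : α.a * α.d = α'.a * α'.d) (he : α.e = α'.e)
    (hc : α.c = α'.c) : α = α' := by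
  have hN : 0 < N := Nat.pos_of_ne_zero (NeZero.ne N)
  have h1 := idx_e_mul α
  have h2 := idx_e_mul α'
  rw [he, hm, h2] at h1
  have ha2 : α.a ^ 2 = α'.a ^ 2 := (Nat.eq_of_mul_eq_mul_left hN h1).symm
  have ha : α.a = α'.a := Nat.pow_left_injective (n := 2) (by norm_num) ha2
  have hd : α.d = α'.d := by
    rw [ha] at hm
    exact Nat.eq_of_mul_eq_mul_left α'.ha hm
  have hb : α.b = α'.b := by
    have hc' := hc
    rw [Idx.c, Idx.c, hd] at hc'
    have hpos : 0 < N / α'.d :=
      Nat.div_pos (Nat.le_of_dvd hN α'.d_dvd) α'.hd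
    exact Nat.eq_of_mul_eq_mul_left hpos hc'
  exact Idx.ext ha hb hd

end Arith

section Distinct

variable {A : Type*} [CommRing A] [Nontrivial A] {ζ : Aˣ} {N : ℕ} [NeZero N]

/-- **distinctness**: for a primitive `N`-th root of unity `ζ`, indices of the same determinant
with the same series coincide. -/
theorem idx_eq_of_xSer_eq (hζ : IsPrimitiveRoot ζ N) {α α' : Idx N}
    (hm : α.a * α.d = α'.a * α'.d) (h : xSer A ζ N α = xSer A ζ N α') : α = α' := by
  obtain ⟨he, hc⟩ := e_eq_and_pow_c_eq_of_xSer_eq h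
  exact idx_eq_of_e_eq_of_c_eq hm he (hζ.pow_inj (idx_c_lt α) (idx_c_lt α') hc)

end Distinct

end

end Fermat.Agent.JA
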