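/-
J-A package G1 (helper5), part B: the conjugates of `x₀ = ι j(q^N)` over `L(j)` inside `M`.
-/
import Fermat.Agent.Igusa.V_helper5_StableInst
import Fermat.Agent.Igusa.A_helper2_Bridge
import Fermat.Agent.X0N.Mer_helper6_Degree
import Fermat.Agent.JA.G1_helper5_Distinct

set_option autoImplicit false

open scoped MatrixGroups
open ModularCurve Polynomial IntermediateField Fermat.Agent.X0N Fermat.Agent.Igusa
  CongruenceSubgroup

namespace Fermat.Agent.JA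

noncomputable section

section Orbit

variable {L : Type*} [Field L] [Algebra L ℂ] {ζ : Lˣ} {N : ℕ} [NeZero N]
  (hζ : algebraMap L ℂ (ζ : L) = zetaH (N : ℝ))

/-- the index `(N 0; 0 1)`. -/
def idx0 (N : ℕ) [NeZero N] : Idx N :=
  Idx.diag N N dvd_rfl (Nat.pos_of_ne_zero (NeZero.ne N))

/-- `x₀ = ι j(q^N)`. -/
def x0 : fieldM L ζ N := xM (idx0 N)

include hζ

theorem realM_x0 : realM hζ (x0 : fieldM L ζ N) = MerH.ofHol (jNHol N) := by
  rw [x0, realM_xM, idx0, jA_diag]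
  rfl

theorem isIntegral_x0 : IsIntegral ↥(L⟮(jt : fieldM L ζ N)⟯) (x0 : fieldM L ζ N) := by
  have := finiteDimensional_fieldM hζ
  exact Algebra.IsIntegral.isIntegral _

/-- **lower bound**: the degree of `x₀` over `L(j)` is at least the index of `Γ₀(N)`. -/
theorem index_le_natDegree_minpoly_x0 :
    (Gamma0 N).index ≤ (minpoly ↥(L⟮(jt : fieldM L ζ N)⟯) (x0 : fieldM L ζ N)).natDegree := by
  have h1 := linearIndependent_pow_jN N
  have h2 : LinearIndependent ℂ⟮realM hζ (jt : fieldM L ζ N)⟯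
      (fun i : Fin (Gamma0 N).index => realM hζ ((x0 : fieldM L ζ N) ^ (i : ℕ))) := by
    have e : ℂ⟮realM hζ (jt : fieldM L ζ N)⟯ = CjM := by rw [realM_jt]; rfl
    rw [e]
    convert h1 using 2 with i
    rw [map_pow, realM_x0]
  have h3 := (isLinDisjHom_realM hζ).linearIndependent_of_map h2
  have h4 : LinearIndependent ↥(L⟮(jt : fieldM L ζ N)⟯)
      (fun i : Fin (Gamma0 N).index =>
        (⟨(x0 : fieldM L ζ N) ^ (i : ℕ), pow_mem (mem_adjoin_simple_self _ _) _⟩ :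
          ↥((L⟮(jt : fieldM L ζ N)⟯)⟮(x0 : fieldM L ζ N)⟯))) :=
    LinearIndependent.of_comp ((L⟮(jt : fieldM L ζ N)⟯)⟮(x0 : fieldM L ζ N)⟯).val.toLinearMap h3
  have : FiniteDimensional ↥(L⟮(jt : fieldM L ζ N)⟯)
      ↥((L⟮(jt : fieldM L ζ N)⟯)⟮(x0 : fieldM L ζ N)⟯) :=
    adjoin.finiteDimensional (isIntegral_x0 hζ)
  have h5 := h4.fintype_card_le_finrank
  rw [Fintype.card_fin, adjoin.finrank (isIntegral_x0 hζ)] at h5
  exact h5

/-- every root of the minimal polynomial of `x₀` is an `x_α` with `α.a * α.d = N`. -/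
theorem exists_idx_of_root {y : ↥(fieldM L ζ N)}
    (hy : aeval y (minpoly ↥(L⟮(jt : fieldM L ζ N)⟯) (x0 : fieldM L ζ N)) = 0) :
    ∃ (γ : SL(2, ℤ)) (α : Idx N), α.a * α.d = N ∧ y = xM α ∧ rho hζ γ x0 = y := by
  have := isGalois_fieldM hζ
  have hconj : IsConjRoot ↥(L⟮(jt : fieldM L ζ N)⟯) (x0 : fieldM L ζ N) y :=
    (isConjRoot_iff_aeval_eq_zero (isIntegral_x0 hζ)).mpr hy
  obtain ⟨σ, hσ⟩ := (isConjRoot_iff_exists_algEquiv).mp hconj
  obtain ⟨γ, hγ⟩ := rhoK_surjective hζ σ.symm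
  have hy' : rho hζ γ x0 = y := by
    rw [← rhoK_apply, hγ, ← hσ, AlgEquiv.symm_apply_apply]
  obtain ⟨α, had, hα, -⟩ := rho_xM hζ γ (idx0 N)
  refine ⟨γ, α, ?_, ?_, hy'⟩
  · rw [had]; simp [idx0]
  · rw [← hy', x0, hα]

end Orbit

end

end Fermat.Agent.JA
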