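/-
J-A package G1 (helper5), part C: reduction of the conjugates of `x₀`; the lower bound for the
degree of `x̃₀` over `κ(j̃)`.
-/
import Fermat.Agent.JA.G1_helper5_Orbit
import Fermat.Agent.Igusa.V_helper5_Cyclo

set_option autoImplicit false
set_option linter.unusedSectionVars false

open scoped MatrixGroups
open ModularCurve Polynomial IntermediateField Fermat.Agent.X0N Fermat.Agent.Igusa
  CongruenceSubgroup

namespace Fermat.Agent.JA

noncomputable section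

section Reduce

variable {R : Type*} [CommRing R] [IsDomain R] [IsDiscreteValuationRing R]
  {L : Type*} [Field L] [Algebra R L] [IsFractionRing R L] [Algebra L ℂ]
  {ζ : Lˣ} {N : ℕ} [NeZero N]
  (ζR : Rˣ) (hζR : Units.map (algebraMap R L : R →* L) ζR = ζ)
  (hζ : algebraMap L ℂ (ζ : L) = zetaH (N : ℝ))
  (ℓ : ℕ) [Fact ℓ.Prime] (hℓ : Irreducible ((ℓ : ℕ) : R))

local notation "kR" => IsLocalRing.ResidueField R

include hζR hℓ in
/-- every `ρ(γ)` preserves the maximal ideal of the Gauss valuation ring of `M`. -/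
theorem rho_mem_nonunits (hℓN : ¬ ℓ ∣ N) (γ : SL(2, ℤ)) (x : ↥(fieldM L ζ N))
    (hx : x ∈ (valM ζR hζR).nonunits) : rho hζ γ x ∈ (valM ζR hζR).nonunits := by
  by_cases hx0 : x = 0
  · rw [hx0, map_zero]
    exact (valM ζR hζR).nonunits.zero_mem
  have hxV : x ∈ valM ζR hζR := ValuationSubring.nonunits_subset hx
  have h1 : rho hζ γ x ∈ valM ζR hζR := rho_mem_gaussInt ζR hζR hζ ℓ hℓ hℓN γ x hxV
  rw [ValuationSubring.mem_nonunits_iff_or]
  right
  intro h2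
  have h3 : rho hζ γ⁻¹ ((rho hζ γ x)⁻¹) ∈ valM ζR hζR :=
    rho_mem_gaussInt ζR hζR hζ ℓ hℓ hℓN γ⁻¹ _ h2
  have h4 : rho hζ γ⁻¹ ((rho hζ γ x)⁻¹) = x⁻¹ := by
    rw [map_inv₀, ← AlgEquiv.mul_apply, ← map_mul, inv_mul_cancel, map_one]
    rfl
  rw [h4] at h3
  rcases ((ValuationSubring.mem_nonunits_iff_or _).mp hx) with h | h
  · exact hx0 h
  · exact h h3

/-- the `t`-expansion of `x_α` over `R`. -/
abbrev xR (α : Idx N) : LaurentSeries R := xSer R ζR N α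

/-- `P ↦ P(j)` as a ring hom `R[X] → M`. -/
def polyToM : R[X] →+* ↥(fieldM L ζ N) :=
  (algebraMap ↥(fieldKj (L := L) (ζ := ζ) (N := N)) ↥(fieldM L ζ N)).comp
    (polyToKj (R := R) (L := L) (ζ := ζ) (N := N))

theorem coe_polyToM (P : R[X]) :
    ((polyToM (R := R) (L := L) (ζ := ζ) (N := N) P : ↥(fieldM L ζ N)) : LaurentSeries L) =
      emb R L (polyToSer R N P) :=
  coe_polyToKj (R := R) (L := L) (ζ := ζ) (N := N) P

include hζR in
theorem coe_eval₂_polyToM (α : Idx N) (Φ : (R[X])[X]) :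
    ((eval₂ (polyToM (R := R) (L := L) (ζ := ζ) (N := N)) (xM α) Φ : ↥(fieldM L ζ N)) :
      LaurentSeries L) = emb R L (eval₂ (polyToSer R N) (xR ζR α) Φ) := by
  have h1 : ((fieldM L ζ N).val.toRingHom).comp (polyToM (R := R) (L := L) (ζ := ζ) (N := N)) =
      (emb R L).comp (polyToSer R N) := by
    apply RingHom.ext
    intro P
    exact coe_polyToM P
  have h2 : (fieldM L ζ N).val.toRingHom (xM α) = emb R L (xR ζR α) := by
    show xSer L ζ N α = _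
    exact xSer_eq_emb ζR hζR α
  show (fieldM L ζ N).val.toRingHom (eval₂ _ (xM α) Φ) = _
  rw [Polynomial.hom_eval₂, h1, h2, ← Polynomial.hom_eval₂]

include hζ in
theorem rho_polyToM (γ : SL(2, ℤ)) (P : R[X]) :
    rho hζ γ (polyToM (R := R) (L := L) (ζ := ζ) (N := N) P) = polyToM P :=
  rho_of_mem_adjoin_jt hζ γ (polyToKj (R := R) (L := L) (ζ := ζ) (N := N) P).2

include hζ in
theorem rho_eval₂_polyToM (γ : SL(2, ℤ)) (y : ↥(fieldM L ζ N)) (Φ : (R[X])[X]) :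
    rho hζ γ (eval₂ (polyToM (R := R) (L := L) (ζ := ζ) (N := N)) y Φ) =
      eval₂ polyToM (rho hζ γ y) Φ := by
  have h1 : ((rho hζ γ : ↥(fieldM L ζ N) ≃ₐ[L] ↥(fieldM L ζ N)) : ↥(fieldM L ζ N) →+*
      ↥(fieldM L ζ N)).comp (polyToM (R := R) (L := L) (ζ := ζ) (N := N)) = polyToM := by
    apply RingHom.ext
    intro P
    exact rho_polyToM hζ γ P
  have := Polynomial.hom_eval₂ Φ (polyToM (R := R) (L := L) (ζ := ζ) (N := N))
    ((rho hζ γ : ↥(fieldM L ζ N) ≃ₐ[L] ↥(fieldM L ζ N)) : ↥(fieldM L ζ N) →+* ↥(fieldM L ζ N)) y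
  rw [h1] at this
  exact this

include hζR hℓ in
/-- **propagation**: a relation `Φ̄(j̃, x̃₀) = 0` over `κ` holds for all conjugates. -/
theorem red_eval₂_eq_zero_of_conj (hℓN : ¬ ℓ ∣ N) (Φ : (R[X])[X])
    (h0 : red R (eval₂ (polyToSer R N) (xR ζR (idx0 N)) Φ) = 0)
    (γ : SL(2, ℤ)) (α : Idx N) (hα : rho hζ γ (x0 : fieldM L ζ N) = xM α) :
    red R (eval₂ (polyToSer R N) (xR ζR α) Φ) = 0 := by
  have hℓ' := hℓ
  -- `Φ(j, x₀)` lies in the maximal ideal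
  have h1 : eval₂ (polyToM (R := R) (L := L) (ζ := ζ) (N := N)) (x0 : fieldM L ζ N) Φ ∈
      (valM ζR hζR).nonunits := by
    rw [mem_nonunits_valM_iff ζR hζR hℓ]
    obtain ⟨g, hg⟩ := (red_eq_zero_iff hℓ _).mp h0
    refine ⟨emb R L g, emb_mem_gaussInt R L g, ?_⟩
    rw [x0, coe_eval₂_polyToM ζR hζR, hg, map_mul, emb_C]
  have h2 := rho_mem_nonunits ζR hζR hζ ℓ hℓ hℓN γ _ h1
  rw [rho_eval₂_polyToM, hα, mem_nonunits_valM_iff ζR hζR hℓ] at h2
  obtain ⟨y, hy, hxy⟩ := h2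
  rw [coe_eval₂_polyToM ζR hζR] at hxy
  -- so the reduction vanishes
  have h3 : gaussRed R L ⟨emb R L (eval₂ (polyToSer R N) (xR ζR α) Φ), emb_mem_gaussInt R L _⟩
      = 0 := by
    rw [gaussRed_eq_zero_iff hℓ]
    exact ⟨⟨y, hy⟩, hxy⟩
  rwa [gaussRed_emb] at h3

end Reduce

end

end Fermat.Agent.JA
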