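/-
J-A package G1 (helper5), part C3: a nonzero two-variable relation `Φ̄(j̃, x̃₀) = 0` over the
residue field has `Y`-degree at least the index of `Γ₀(N)`.
-/
import Fermat.Agent.JA.G1_helper5_Reduce

set_option autoImplicit false
set_option linter.unusedSectionVars false

open scoped MatrixGroups
open ModularCurve Polynomial IntermediateField Fermat.Agent.X0N Fermat.Agent.Igusa
  CongruenceSubgroup

namespace Fermat.Agent.JA

noncomputable section

section Lower

variable {R : Type*} [CommRing R] [IsDomain R] [IsDiscreteValuationRing R]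
  {L : Type*} [Field L] [Algebra R L] [IsFractionRing R L] [Algebra L ℂ]
  {ζ : Lˣ} {N : ℕ} [NeZero N]
  (ζR : Rˣ) (hζR : Units.map (algebraMap R L : R →* L) ζR = ζ)
  (hζ : algebraMap L ℂ (ζ : L) = zetaH (N : ℝ))
  (ℓ : ℕ) [Fact ℓ.Prime] (hℓ : Irreducible ((ℓ : ℕ) : R))

local notation "kR" => IsLocalRing.ResidueField R

/-- the reduction of the root of unity. -/
abbrev zetaBar : kRˣ := Units.map (IsLocalRing.residue R : R →* kR) ζR

include hζR hζ hℓ in
theorem isPrimitiveRoot_zetaBar (hℓN : ¬ ℓ ∣ N) : IsPrimitiveRoot (zetaBar ζR) N := by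
  have h1 : IsPrimitiveRoot (ζ : L) N := isPrimitiveRoot_zeta hζ
  have h2 : IsPrimitiveRoot (ζR : R) N := by
    refine IsPrimitiveRoot.of_map_of_injective (f := algebraMap R L) ?_ (IsFractionRing.injective R L)
    have : algebraMap R L (ζR : R) = (ζ : L) := by
      rw [← hζR]; rfl
    rw [this]
    exact h1
  have hchar : CharP kR ℓ := charP_residueField ℓ hℓ
  have hN : ((N : ℕ) : kR) ≠ 0 := by
    intro h
    exact hℓN ((CharP.cast_eq_zero_iff kR ℓ N).mp h)
  have h3 := residue_isPrimitiveRoot h2 hN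
  rw [← IsPrimitiveRoot.coe_units_iff]
  exact h3

theorem red_xR (α : Idx N) : red R (xR ζR α) = xSer kR (zetaBar ζR) N α :=
  coeffMap_xSer ζR N (IsLocalRing.residue R) α

theorem red_eval₂_polyToSer (y : LaurentSeries R) (Φ : (R[X])[X]) :
    red R (eval₂ (polyToSer R N) y Φ) =
      eval₂ (polyToSer kR N) (red R y)
        (Φ.map (Polynomial.mapRingHom (IsLocalRing.residue R))) := by
  rw [Polynomial.hom_eval₂, Polynomial.eval₂_map]
  congr 1
  exact coeffMap_comp_polyToSer (IsLocalRing.residue R) N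

theorem exists_lift_poly₂ (Φbar : (kR[X])[X]) :
    ∃ Φ : (R[X])[X], Φ.map (Polynomial.mapRingHom (IsLocalRing.residue R)) = Φbar :=
  Polynomial.map_surjective _
    (Polynomial.map_surjective _ IsLocalRing.residue_surjective) Φbar

theorem polyToSer_injective (k : Type*) [Field k] (N : ℕ) [NeZero N] :
    Function.Injective (polyToSer k N) := by
  rw [polyToSer_eq_aeval]
  exact transcendental_iff_injective.mp (transcendental_jtSer k N)

include hζR hζ hℓ in
/-- **(C3, conjugates)** there is a set of at least `[SL₂(ℤ) : Γ₀(N)]` series over the residue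
field on which every two-variable relation `Φ̄(j̃, x̃₀) = 0` keeps holding. -/
theorem exists_conjugates (hℓN : ¬ ℓ ∣ N) :
    ∃ Z : Finset (LaurentSeries kR), (Gamma0 N).index ≤ Z.card ∧
      ∀ Φbar : (kR[X])[X],
        eval₂ (polyToSer kR N) (xSer kR (zetaBar ζR) N (idx0 N)) Φbar = 0 →
        ∀ z ∈ Z, eval₂ (polyToSer kR N) z Φbar = 0 := by
  classical
  have := isGalois_fieldM hζ
  set p := minpoly ↥(L⟮(jt : fieldM L ζ N)⟯) (x0 : fieldM L ζ N) with hp
  have hsep : p.Separable := IsGalois.separable _ _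
  have hsplit : (p.map (algebraMap _ (fieldM L ζ N))).Splits := IsGalois.splits _ _
  have hcard : Fintype.card (p.rootSet (fieldM L ζ N)) = p.natDegree :=
    card_rootSet_eq_natDegree hsep hsplit
  have hex : ∀ y : p.rootSet (fieldM L ζ N), ∃ (γ : SL(2, ℤ)) (α : Idx N), α.a * α.d = N ∧
      (y : fieldM L ζ N) = xM α ∧ rho hζ γ x0 = y :=
    fun y => exists_idx_of_root hζ ((mem_rootSet.mp y.2).2)
  choose γ α hαN hαy hγ using hex
  let F : p.rootSet (fieldM L ζ N) → LaurentSeries kR := fun y => xSer kR (zetaBar ζR) N (α y)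
  have hFinj : Function.Injective F := by
    intro y y' h
    have := idx_eq_of_xSer_eq (isPrimitiveRoot_zetaBar ζR hζR hζ ℓ hℓ hℓN)
      (by rw [hαN, hαN]) h
    apply Subtype.ext
    rw [hαy y, hαy y', this]
  refine ⟨Finset.univ.image F, ?_, ?_⟩
  · calc (Gamma0 N).index ≤ p.natDegree := index_le_natDegree_minpoly_x0 hζ
      _ = Fintype.card (p.rootSet (fieldM L ζ N)) := hcard.symm
      _ = (Finset.univ.image F).card := (Finset.card_image_of_injective _ hFinj).symm
  · intro Φbar h0 z hz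
    rw [Finset.mem_image] at hz
    obtain ⟨y, -, rfl⟩ := hz
    obtain ⟨Φ, rfl⟩ := exists_lift_poly₂ Φbar
    show eval₂ (polyToSer kR N) (xSer kR (zetaBar ζR) N (α y)) _ = 0
    rw [← red_xR, ← red_eval₂_polyToSer]
    apply red_eval₂_eq_zero_of_conj ζR hζR hζ ℓ hℓ hℓN Φ _ (γ y) (α y) ((hγ y).trans (hαy y))
    rw [red_eval₂_polyToSer, red_xR]
    exact h0

include hζR hζ hℓ in
/-- **(C3)** a nonzero relation `Φ̄(j̃, x̃₀) = 0` over the residue field has `Y`-degree at least
the index of `Γ₀(N)`. -/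
theorem index_le_natDegree_of_relation (hℓN : ¬ ℓ ∣ N) (Φbar : (kR[X])[X]) (hΦ : Φbar ≠ 0)
    (h0 : eval₂ (polyToSer kR N) (xSer kR (zetaBar ζR) N (idx0 N)) Φbar = 0) :
    (Gamma0 N).index ≤ Φbar.natDegree := by
  classical
  obtain ⟨Z, hZ, hroot⟩ := exists_conjugates ζR hζR hζ ℓ hℓ hℓN
  let P : (LaurentSeries kR)[X] := Φbar.map (polyToSer kR N)
  have hP0 : P ≠ 0 := (Polynomial.map_ne_zero_iff (polyToSer_injective kR N)).mpr hΦ
  have hle : Z.card ≤ P.natDegree := by
    apply card_le_degree_of_subset_roots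
    intro z hz
    rw [Finset.mem_val] at hz
    rw [mem_roots hP0, IsRoot.def, eval_map]
    exact hroot Φbar h0 z hz
  exact hZ.trans (hle.trans natDegree_map_le)

end Lower

end

end Fermat.Agent.JA
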