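/-
J-A package G1 (helper5), part E1: the lower bound in the `q`-variable:
`1, j̃_N, …, j̃_N^{ψ(N)-1}` are linearly independent over `κ(j̃)`.
-/
import Fermat.Agent.JA.G1_helper5_Lower

set_option autoImplicit false
set_option linter.unusedSectionVars false

open scoped MatrixGroups
open ModularCurve Polynomial IntermediateField Fermat.Agent.X0N Fermat.Agent.Igusa
  CongruenceSubgroup

namespace Fermat.Agent.JA

noncomputable section

section PolyToQ

/-- `P ↦ P(j̃)` in the `q`-variable. -/
def polyToQ (A : Type*) [CommRing A] : A[X] →+* LaurentSeries A :=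
  Polynomial.eval₂RingHom (HahnSeries.C) (jqModC A)

theorem qExpand_comp_polyToQ (A : Type*) [CommRing A] (N : ℕ) [NeZero N] :
    (qExpand A N).comp (polyToQ A) = polyToSer A N := by
  apply Polynomial.ringHom_ext
  · intro a
    simp only [polyToQ, polyToSer, RingHom.comp_apply, Polynomial.coe_eval₂RingHom,
      Polynomial.eval₂_C, qExpand_C]
  · simp only [polyToQ, polyToSer, RingHom.comp_apply, Polynomial.coe_eval₂RingHom,
      Polynomial.eval₂_X]

theorem polyToQ_eq_aeval (k : Type*) [Field k] (P : k[X]) :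
    polyToQ k P = aeval (jqModC k) P := by
  rw [polyToQ, coe_eval₂RingHom, aeval_def]
  congr 1
  ext c : 1
  rw [algebraMap_laurentSeries_eq_single]
  rfl

end PolyToQ

section QWorld

variable {R : Type*} [CommRing R] [IsDomain R] [IsDiscreteValuationRing R]
  {L : Type*} [Field L] [Algebra R L] [IsFractionRing R L] [Algebra L ℂ]
  {ζ : Lˣ} {N : ℕ} [NeZero N]
  (ζR : Rˣ) (hζR : Units.map (algebraMap R L : R →* L) ζR = ζ)
  (hζ : algebraMap L ℂ (ζ : L) = zetaH (N : ℝ))
  (ℓ : ℕ) [Fact ℓ.Prime] (hℓ : Irreducible ((ℓ : ℕ) : R))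

local notation "kR" => IsLocalRing.ResidueField R

theorem qExpand_jqNModC_eq_xSer (k : Type*) [Field k] (ζ' : kˣ) (N : ℕ) [NeZero N] :
    qExpand k N (jqNModC k N) = xSer k ζ' N (idx0 N) := by
  have : NeZero (N * N) := ⟨mul_ne_zero (NeZero.ne N) (NeZero.ne N)⟩
  rw [idx0, xSer_diag ζ' N N dvd_rfl, jqNModC, qExpand_qExpand]

include hζR hζ hℓ in
/-- **(C3) in the `q`-variable.** -/
theorem index_le_natDegree_of_relation_q (hℓN : ¬ ℓ ∣ N) (Φbar : (kR[X])[X]) (hΦ : Φbar ≠ 0)
    (h0 : eval₂ (polyToQ kR) (jqNModC kR N) Φbar = 0) :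
    (Gamma0 N).index ≤ Φbar.natDegree := by
  apply index_le_natDegree_of_relation ζR hζR hζ ℓ hℓ hℓN Φbar hΦ
  have h1 := congrArg (qExpand kR N) h0
  rw [Polynomial.hom_eval₂, qExpand_comp_polyToQ, map_zero,
    qExpand_jqNModC_eq_xSer kR (zetaBar ζR) N] at h1
  exact h1

open IntermediateField.algebraAdjoinAdjoin in
include hζR hζ hℓ in
/-- **(U1)** the first `[SL₂(ℤ) : Γ₀(N)]` powers of `j̃_N` are linearly independent over
`κ(j̃)`. -/
theorem linearIndependent_pow_jqNModC (hℓN : ¬ ℓ ∣ N) :
    LinearIndependent kR⟮jqModC kR⟯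
      (fun i : Fin (Gamma0 N).index => (jqNModC kR N) ^ (i : ℕ)) := by
  classical
  have h5 : LinearIndependent (Algebra.adjoin kR {jqModC kR})
      (fun i : Fin (Gamma0 N).index => (jqNModC kR N) ^ (i : ℕ)) := by
    rw [linearIndependent_iff']
    intro S g hg i hi
    have hpoly : ∀ j, ∃ P : kR[X], aeval (jqModC kR) P = (g j : LaurentSeries kR) := by
      intro j
      have h := (g j).2
      have e : Algebra.adjoin kR {jqModC kR} = (Polynomial.aeval (R := kR) (jqModC kR)).range :=
        Algebra.adjoin_singleton_eq_range_aeval kR _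
      have h' : (g j : LaurentSeries kR) ∈ (Polynomial.aeval (R := kR) (jqModC kR)).range := by
        rw [← e]; exact h
      exact h'
    choose P hP using hpoly
    set Φ : (kR[X])[X] := ∑ j ∈ S, monomial (j : ℕ) (P j) with hΦdef
    have hev : eval₂ (polyToQ kR) (jqNModC kR N) Φ = 0 := by
      rw [hΦdef, Polynomial.eval₂_finsetSum, ← hg]
      apply Finset.sum_congr rfl
      intro j _
      rw [eval₂_monomial, polyToQ_eq_aeval, hP j, Subalgebra.smul_def, smul_eq_mul]
    have hdeg : Φ.degree < ((Gamma0 N).index : WithBot ℕ) := by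
      rw [← Polynomial.mem_degreeLT, hΦdef]
      apply Submodule.sum_mem
      intro j _
      rw [Polynomial.mem_degreeLT]
      exact lt_of_le_of_lt (degree_monomial_le _ _) (by exact_mod_cast j.2)
    have hΦ0 : Φ = 0 := by
      by_contra hne
      have h1 := index_le_natDegree_of_relation_q ζR hζR hζ ℓ hℓ hℓN Φ hne hev
      have h2 := (natDegree_lt_iff_degree_lt hne).mpr hdeg
      omega
    have hcoeff : Φ.coeff (i : ℕ) = P i := by
      rw [hΦdef, Polynomial.finsetSum_coeff, Finset.sum_eq_single i]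
      · rw [coeff_monomial, if_pos rfl]
      · intro j _ hji
        rw [coeff_monomial, if_neg]
        exact fun h => hji (Fin.ext h)
      · intro h
        exact absurd hi h
    apply Subtype.ext
    rw [← hP i, ← hcoeff, hΦ0, coeff_zero, map_zero]
    rfl
  exact (LinearIndependent.iff_fractionRing (Algebra.adjoin kR {jqModC kR}) kR⟮jqModC kR⟯).mp h5

end QWorld

end

end Fermat.Agent.JA
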