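/-
J-A package G1 (helper5), part H: separability.  On an unramified base, every monic relation of
degree `≤ [SL₂(ℤ) : Γ₀(N)]` of `j̃_N` over `κ(j̃)` is a separable polynomial: it has
`[SL₂(ℤ) : Γ₀(N)]` distinct roots (the reductions of the conjugates) in `κ((q^{1/N}))`.
-/
import Fermat.Agent.JA.G1_helper5_DegU1
import Fermat.Agent.JA.G1_helper5_SepAlg

set_option autoImplicit false
set_option linter.unusedSectionVars false

open scoped MatrixGroups
open ModularCurve Polynomial IntermediateField Fermat.Agent.X0N Fermat.Agent.Igusa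
  CongruenceSubgroup

namespace Fermat.Agent.JA

noncomputable section

section Sep

variable {R : Type*} [CommRing R] [IsDomain R] [IsDiscreteValuationRing R]
  {L : Type*} [Field L] [Algebra R L] [IsFractionRing R L] [Algebra L ℂ]
  {ζ : Lˣ} {N : ℕ} [NeZero N]
  (ζR : Rˣ) (hζR : Units.map (algebraMap R L : R →* L) ζR = ζ)
  (hζ : algebraMap L ℂ (ζ : L) = zetaH (N : ℝ))
  (ℓ : ℕ) [Fact ℓ.Prime] (hℓ : Irreducible ((ℓ : ℕ) : R))

local notation "kR" => IsLocalRing.ResidueField R

theorem map_polyToQ_relation (k : Type*) [Field k] (n : ℕ) (D : k[X]) (P : Fin n → k[X])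
    (c : Fin n → LaurentSeries k) (hP : ∀ i, aeval (jqModC k) D * c i = aeval (jqModC k) (P i)) :
    (C D * X ^ n - ∑ i : Fin n, C (P i) * X ^ (i : ℕ) : (k[X])[X]).map (polyToQ k) =
      C (aeval (jqModC k) D) * (X ^ n - ∑ i, C (c i) * X ^ (i : ℕ)) := by
  rw [Polynomial.map_sub, Polynomial.map_mul, Polynomial.map_pow, Polynomial.map_X,
    Polynomial.map_C, polyToQ_eq_aeval, mul_sub, Polynomial.map_sum, Finset.mul_sum]
  congr 1
  apply Finset.sum_congr rfl
  intro i _
  rw [Polynomial.map_mul, Polynomial.map_pow, Polynomial.map_X, Polynomial.map_C,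
    polyToQ_eq_aeval, ← hP i, C_mul, mul_assoc]

include hζR hζ hℓ in
/-- **(SEP)** a monic relation of degree `≤ [SL₂(ℤ) : Γ₀(N)]` for `j̃_N` over `κ(j̃)` is
separable. -/
theorem separable_of_monic_relation (hℓN : ¬ ℓ ∣ N) (n : ℕ) (hn : n ≤ (Gamma0 N).index)
    (c : Fin n → LaurentSeries kR) (hcK : ∀ i, c i ∈ kR⟮jqModC kR⟯)
    (hc : (jqNModC kR N) ^ n = ∑ i, c i * (jqNModC kR N) ^ (i : ℕ)) :
    (X ^ n - ∑ i, C (c i) * X ^ (i : ℕ) : (LaurentSeries kR)[X]).Separable := by
  classical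
  obtain ⟨Z, hZ, hroot⟩ := exists_conjugates ζR hζR hζ ℓ hℓ hℓN
  obtain ⟨D, hD0, hP⟩ := exists_common_denominator (k := kR) (jqModC kR) c hcK
  choose P hP using hP
  have hΦM := map_polyToQ_relation kR n D P c hP
  have hMx : eval (jqNModC kR N) (X ^ n - ∑ i, C (c i) * X ^ (i : ℕ) : (LaurentSeries kR)[X])
      = 0 := by
    rw [eval_X_pow_sub_sum, hc, sub_self]
  have hΦ0 : eval₂ (polyToQ kR) (jqNModC kR N)
      (C D * X ^ n - ∑ i : Fin n, C (P i) * X ^ (i : ℕ) : (kR[X])[X]) = 0 := by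
    rw [← eval_map, hΦM, eval_mul, hMx, mul_zero]
  have hΦt : eval₂ (polyToSer kR N) (xSer kR (zetaBar ζR) N (idx0 N))
      (C D * X ^ n - ∑ i : Fin n, C (P i) * X ^ (i : ℕ) : (kR[X])[X]) = 0 := by
    have h1 := congrArg (qExpand kR N) hΦ0
    rw [Polynomial.hom_eval₂, qExpand_comp_polyToQ, map_zero,
      qExpand_jqNModC_eq_xSer kR (zetaBar ζR) N] at h1
    exact h1
  have hD0' : qExpand kR N (aeval (jqModC kR) D) ≠ 0 := by
    intro h
    exact hD0 ((qExpand kR N).injective (by rw [h, map_zero]))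
  apply separable_of_card_le_roots (qExpand kR N) _ (monic_X_pow_sub_sum n c) Z
  · rw [natDegree_X_pow_sub_sum]
    exact hn.trans hZ
  · intro z hz
    have h1 := hroot _ hΦt z hz
    rw [← qExpand_comp_polyToQ, ← Polynomial.eval_map, ← Polynomial.map_map, hΦM,
      Polynomial.map_mul, Polynomial.map_C, eval_mul, eval_C] at h1
    rcases mul_eq_zero.mp h1 with h2 | h2
    · exact absurd h2 hD0'
    · exact h2

end Sep

end

end Fermat.Agent.JA
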