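/-
J-A package G1 (helper5), part J: the mod-`ℓ` data on an unramified base, on the bases
`A ∩ K₁` of `ℚ̄`, and for the residue field of a valuation ring `A` of `ℚ̄` over `ℓ ∤ N`:
G1.DEG in the shape used by the S18 assembly.
-/
import Fermat.Agent.JA.G1_helper5_Modular
import Fermat.Agent.JA.G1_helper5_Sep
import Fermat.Agent.JA.BASE_helper1_Main

set_option autoImplicit false
set_option linter.unusedSectionVars false
set_option linter.style.haveILetI false

open scoped MatrixGroups
open Polynomial IntermediateField Fermat.Agent.Igusa Fermat.Agent.X0N ModularCurve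
  CongruenceSubgroup

namespace Fermat.Agent.JA

noncomputable section

section Unram

variable {R : Type*} [CommRing R] [IsDomain R] [IsDiscreteValuationRing R]
  {L : Type*} [Field L] [Algebra R L] [IsFractionRing R L]

/-- a primitive root of unity in `R` whose image in `ℂ` is the standard one. -/
theorem exists_zetaR [Algebra L ℂ] (N : ℕ) [NeZero N] (h : ∃ z : R, IsPrimitiveRoot z N) :
    ∃ (ζR : Rˣ) (ζ : Lˣ), Units.map (algebraMap R L : R →* L) ζR = ζ ∧
      algebraMap L ℂ (ζ : L) = zetaH (N : ℝ) := by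
  obtain ⟨z, hz⟩ := h
  have hinj : Function.Injective ((algebraMap L ℂ).comp (algebraMap R L)) :=
    (algebraMap L ℂ).injective.comp (IsFractionRing.injective R L)
  have hz' : IsPrimitiveRoot ((algebraMap L ℂ).comp (algebraMap R L) z) N :=
    hz.map_of_injective hinj
  have hN : zetaH (N : ℝ) ^ N = 1 := zetaH_nat_pow_self N
  obtain ⟨i, -, hi⟩ := hz'.eq_pow_of_pow_eq_one hN
  have hu : IsUnit z := hz.isUnit (NeZero.ne N)
  refine ⟨hu.unit ^ i, Units.map (algebraMap R L : R →* L) (hu.unit ^ i), rfl, ?_⟩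
  rw [Units.coe_map, Units.val_pow_eq_pow_val, IsUnit.unit_spec, MonoidHom.coe_coe, map_pow,
    map_pow, ← hi]
  rfl

variable [Algebra ℚ L] [Algebra L ℂ] [IsScalarTower ℚ L ℂ] (N : ℕ) [NeZero N]
  (ℓ : ℕ) [Fact ℓ.Prime]

local notation "kR" => IsLocalRing.ResidueField R

include L in
/-- **(HDEG)** on an unramified base containing the `N`-th roots of unity. -/
theorem hdeg_of_unramified (hℓ : Irreducible ((ℓ : ℕ) : R)) (hℓN : ¬ ℓ ∣ N)
    (hroot : ∃ z : R, IsPrimitiveRoot z N) :
    LinearIndependent kR⟮jqModC kR⟯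
      (fun i : Fin (Gamma0 N).index => (jqNModC kR N) ^ (i : ℕ)) := by
  obtain ⟨ζR, ζ, hζR, hζ⟩ := exists_zetaR (R := R) (L := L) N hroot
  exact linearIndependent_pow_jqNModC ζR hζR hζ ℓ hℓ hℓN

include L in
/-- **(FULL), (REL), (SEP)** on an unramified base containing the `N`-th roots of unity. -/
theorem modLData_of_unramified (hℓ : Irreducible ((ℓ : ℕ) : R)) (hℓN : ¬ ℓ ∣ N)
    (hroot : ∃ z : R, IsPrimitiveRoot z N) : ModLData kR N := by
  obtain ⟨ζR, ζ, hζR, hζ⟩ := exists_zetaR (R := R) (L := L) N hroot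
  have hdeg := linearIndependent_pow_jqNModC ζR hζR hζ ℓ hℓ hℓN
  obtain ⟨c, hc⟩ := exists_monic_relation_red_fullC R L N hdeg
  refine ⟨(fullC_residue_eq_adjoin_pair R L N hdeg).le, fun i => (c i : LaurentSeries kR),
    fun i => (c i).2, hc, ?_⟩
  exact separable_of_monic_relation ζR hζR hζ ℓ hℓ hℓN (Gamma0 N).index le_rfl
    (fun i => (c i : LaurentSeries kR)) (fun i => (c i).2) hc

end Unram

section Base

local notation "Ω" => AlgebraicClosure ℚ

variable {ℓ : ℕ} [Fact ℓ.Prime] {A : ValuationSubring (AlgebraicClosure ℚ)}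
  (hA : A.LiesOverPrime ℓ) (N : ℕ) [NeZero N]

include hA in
/-- the mod-`ℓ` data for the residue field of the unramified base `A ∩ K^♭`. -/
theorem modLData_flatBase (hℓN : ¬ ℓ ∣ N) :
    ModLData (IsLocalRing.ResidueField ↥(baseRing A (flatBase ℓ))) N ∧
    LinearIndependent
      (IntermediateField.adjoin (IsLocalRing.ResidueField ↥(baseRing A (flatBase ℓ)))
        {jqModC (IsLocalRing.ResidueField ↥(baseRing A (flatBase ℓ)))})
      (fun i : Fin (Gamma0 N).index =>
        (jqNModC (IsLocalRing.ResidueField ↥(baseRing A (flatBase ℓ))) N) ^ (i : ℕ)) := by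
  haveI := isDiscreteValuationRing_flatBase hA
  letI : Algebra ↥(flatBase ℓ) ℂ :=
    (((IsAlgClosed.lift : Ω →ₐ[ℚ] ℂ) : Ω →+* ℂ).comp (algebraMap ↥(flatBase ℓ) Ω)).toAlgebra
  haveI : IsScalarTower ℚ ↥(flatBase ℓ) ℂ :=
    IsScalarTower.of_algebraMap_eq' (Subsingleton.elim _ _)
  have hroot := (isBase_flatBase (ℓ := ℓ)).exists_isPrimitiveRoot_baseRing A
    (Nat.pos_of_ne_zero (NeZero.ne N)) hℓN
  exact ⟨modLData_of_unramified (R := ↥(baseRing A (flatBase ℓ))) (L := ↥(flatBase ℓ)) N ℓ
      (irreducible_prime_flatBase hA) hℓN hroot,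
    hdeg_of_unramified (R := ↥(baseRing A (flatBase ℓ))) (L := ↥(flatBase ℓ)) N ℓ
      (irreducible_prime_flatBase hA) hℓN hroot⟩

include hA in
/-- the mod-`ℓ` data for the residue field of `A`. -/
theorem modLData_residueField (hℓN : ¬ ℓ ∣ N) : ModLData (IsLocalRing.ResidueField ↥A) N :=
  (modLData_flatBase hA N hℓN).1.map N (baseResidueMap A (flatBase ℓ))

include hA in
/-- **G1.DEG (separability)** in the shape of `s18_of_key_of_isSeparable`. -/
theorem isSeparable_fullC_residueField (hℓN : ¬ ℓ ∣ N) :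
    Algebra.IsSeparable
      (IsLocalRing.ResidueField A)⟮jTildeElt (IsLocalRing.ResidueField A) N⟯
      ↥(modularFunctionFieldFullC (IsLocalRing.ResidueField A) N) :=
  (modLData_residueField hA N hℓN).isSeparable N

include hA in
/-- **G1.DEG (finiteness)** in the shape of `s18_of_key_of_isSeparable`. -/
theorem finiteDimensional_fullC_residueField (hℓN : ¬ ℓ ∣ N) :
    FiniteDimensional
      (IsLocalRing.ResidueField A)⟮jTildeElt (IsLocalRing.ResidueField A) N⟯
      ↥(modularFunctionFieldFullC (IsLocalRing.ResidueField A) N) :=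
  (modLData_residueField hA N hℓN).finiteDimensional N

end Base

end

end Fermat.Agent.JA
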