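/-
J-A package G1 (helper5), part K: (HDEG) and the mod-`ℓ` data for the residue field of every
base `A ∩ K₁` (`K₁ ⊇ K^♭`), by transfer along the bijection of residue fields, and the consumer
forms of (UNIQ) for the function field `F_{K₁} = laurentBaseChange K₁ (modularFunctionFieldFull N)`.
-/
import Fermat.Agent.JA.G1_helper5_Unram

set_option autoImplicit false
set_option linter.unusedSectionVars false
set_option linter.style.haveILetI false

open scoped MatrixGroups
open Polynomial IntermediateField Fermat.Agent.Igusa Fermat.Agent.X0N ModularCurve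
  CongruenceSubgroup

namespace Fermat.Agent.JA

noncomputable section

section TransferLI

variable {κ κ' : Type*} [Field κ] [Field κ']

/-- linear independence over `κ(s)` transfers along a bijection of coefficient fields. -/
theorem linearIndependent_coeffMap_of_bijective (σ : κ →+* κ') (hσ : Function.Bijective σ)
    (s : LaurentSeries κ) {ι : Type*} (b : ι → LaurentSeries κ)
    (h : LinearIndependent κ⟮s⟯ b) :
    LinearIndependent κ'⟮coeffMap σ s⟯ (fun i => coeffMap σ (b i)) := by
  classical
  set e : κ ≃+* κ' := RingEquiv.ofBijective σ hσ with he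
  set τ : κ' →+* κ := (e.symm : κ' →+* κ) with hτ
  have hτσ : τ.comp σ = RingHom.id κ := by
    ext x
    exact e.symm_apply_apply x
  have hback : ∀ y : LaurentSeries κ, coeffMap τ (coeffMap σ y) = y := by
    intro y
    rw [coeffMap_coeffMap, hτσ, coeffMap_id]
  have hτinj : Function.Injective (coeffMap τ : LaurentSeries κ' → LaurentSeries κ) :=
    (coeffMap τ).injective
  rw [linearIndependent_iff'] at h ⊢
  intro S g hg i hi
  have hmem : ∀ j, coeffMap τ ((g j : κ'⟮coeffMap σ s⟯) : LaurentSeries κ') ∈ κ⟮s⟯ := by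
    intro j
    have h1 := coeffMap_mem_adjoin_simple τ (g j).2
    rwa [hback] at h1
  have h1 := h S (fun j => ⟨coeffMap τ ((g j : κ'⟮coeffMap σ s⟯) : LaurentSeries κ'), hmem j⟩) (by
    have h2 := congrArg (coeffMap τ) hg
    rw [map_sum, map_zero] at h2
    rw [← h2]
    apply Finset.sum_congr rfl
    intro j _
    rw [IntermediateField.smul_def, IntermediateField.smul_def, smul_eq_mul, smul_eq_mul,
      map_mul, hback]) i hi
  have h3 : coeffMap τ ((g i : κ'⟮coeffMap σ s⟯) : LaurentSeries κ') = 0 :=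
    congrArg Subtype.val h1
  apply Subtype.ext
  apply hτinj
  rw [h3]
  exact (map_zero (coeffMap τ)).symm

/-- (HDEG) transfers along a bijection of coefficient fields. -/
theorem hdeg_of_bijective (σ : κ →+* κ') (hσ : Function.Bijective σ) (N : ℕ) [NeZero N] (n : ℕ)
    (h : LinearIndependent κ⟮jqModC κ⟯ (fun i : Fin n => (jqNModC κ N) ^ (i : ℕ))) :
    LinearIndependent κ'⟮jqModC κ'⟯ (fun i : Fin n => (jqNModC κ' N) ^ (i : ℕ)) := by
  have h1 := linearIndependent_coeffMap_of_bijective σ hσ _ _ h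
  rw [coeffMap_jqModC] at h1
  convert h1 using 2 with i
  rw [map_pow, coeffMap_jqNModC]

end TransferLI

section Consumer

variable (R : Type*) [CommRing R] [IsDomain R] [IsDiscreteValuationRing R]
  (L : Type*) [Field L] [Algebra R L] [IsFractionRing R L] [Algebra ℚ L] (N : ℕ) [NeZero N]

/-- the function field over `L` consists of Gauss-bounded series. -/
theorem laurentBaseChange_full_le_gaussField :
    laurentBaseChange L (modularFunctionFieldFull N) ≤ gaussField R L := by
  rw [laurentBaseChange_full_eq_fullC L N]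
  exact modularFunctionFieldFullC_le_gaussField R L N

variable [Algebra L ℂ] [IsScalarTower ℚ L ℂ]

/-- **(UNIQ), consumer form** (the `hmemW` of `keyBaseStatement_of_geo`), for any model `F` of the
function field over `L`. -/
theorem mem_of_mem_gaussInt_of_eq_fullC (F : IntermediateField L (LaurentSeries L))
    (hFeq : F = modularFunctionFieldFullC L N)
    (hdeg : LinearIndependent
      (IntermediateField.adjoin (IsLocalRing.ResidueField R) {jqModC (IsLocalRing.ResidueField R)})
      (fun i : Fin (Gamma0 N).index => (jqNModC (IsLocalRing.ResidueField R) N) ^ (i : ℕ)))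
    (W : ValuationSubring ↥F)
    (hW : ∀ c : ↥F, (c : LaurentSeries L) ∈ L⟮emb R L (jqModC R)⟯ →
      (c ∈ W ↔ (c : LaurentSeries L) ∈ gaussInt R L))
    (z : ↥F) (hz : (z : LaurentSeries L) ∈ gaussInt R L) : z ∈ W := by
  subst hFeq
  exact mem_of_mem_gaussInt (modularFunctionFieldFullC L N) (jqModC R) (jqNModC R N)
    (emb_jqModC_mem_fullC R L N) (emb_jqNModC_mem_fullC R L N) (transcendental_red_jqModC R)
    (Gamma0 N).index (hub_fullC R L N) (hlb_fullC R N hdeg) W hW z hz

/-- **(UNIQ), consumer form** for `laurentBaseChange L (modularFunctionFieldFull N)`. -/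
theorem mem_of_mem_gaussInt_laurentBaseChange
    (hdeg : LinearIndependent
      (IntermediateField.adjoin (IsLocalRing.ResidueField R) {jqModC (IsLocalRing.ResidueField R)})
      (fun i : Fin (Gamma0 N).index => (jqNModC (IsLocalRing.ResidueField R) N) ^ (i : ℕ)))
    (W : ValuationSubring ↥(laurentBaseChange L (modularFunctionFieldFull N)))
    (hW : ∀ c : ↥(laurentBaseChange L (modularFunctionFieldFull N)),
      (c : LaurentSeries L) ∈ L⟮emb R L (jqModC R)⟯ →
      (c ∈ W ↔ (c : LaurentSeries L) ∈ gaussInt R L))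
    (z : ↥(laurentBaseChange L (modularFunctionFieldFull N)))
    (hz : (z : LaurentSeries L) ∈ gaussInt R L) : z ∈ W :=
  mem_of_mem_gaussInt_of_eq_fullC R L N _ (laurentBaseChange_full_eq_fullC L N) hdeg W hW z hz

end Consumer

section Bases

local notation "Ω" => AlgebraicClosure ℚ

variable {ℓ : ℕ} [Fact ℓ.Prime] {A : ValuationSubring (AlgebraicClosure ℚ)}
  (hA : A.LiesOverPrime ℓ) (N : ℕ) [NeZero N]
  {K₁ : IntermediateField ℚ (AlgebraicClosure ℚ)}

include hA in
/-- **(HDEG)** for the residue field of every base `A ∩ K₁`, `K^♭ ≤ K₁`. -/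
theorem hdeg_baseRing (hℓN : ¬ ℓ ∣ N) (h : flatBase ℓ ≤ K₁) :
    LinearIndependent
      (IntermediateField.adjoin (IsLocalRing.ResidueField ↥(baseRing A K₁))
        {jqModC (IsLocalRing.ResidueField ↥(baseRing A K₁))})
      (fun i : Fin (Gamma0 N).index =>
        (jqNModC (IsLocalRing.ResidueField ↥(baseRing A K₁)) N) ^ (i : ℕ)) :=
  hdeg_of_bijective _ (residueField_map_baseRingIncl_bijective hA le_rfl h) N _
    (modLData_flatBase hA N hℓN).2

include hA in
/-- the mod-`ℓ` data for the residue field of every base `A ∩ K₁`, `K^♭ ≤ K₁`. -/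
theorem modLData_baseRing (hℓN : ¬ ℓ ∣ N) (h : flatBase ℓ ≤ K₁) :
    ModLData (IsLocalRing.ResidueField ↥(baseRing A K₁)) N :=
  (modLData_flatBase hA N hℓN).1.map N (IsLocalRing.ResidueField.map (baseRingIncl A h))

include hA in
/-- **(UNIQ) at a base**, literally the `hmemW` of `keyBaseStatement_of_geo` for
`R := baseRing A K₁`. -/
theorem mem_of_mem_gaussInt_baseRing (hℓN : ¬ ℓ ∣ N) (h : flatBase ℓ ≤ K₁)
    [IsDiscreteValuationRing ↥(baseRing A K₁)]
    (W : ValuationSubring ↥(laurentBaseChange ↥K₁ (modularFunctionFieldFull N)))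
    (hW : ∀ c : ↥(laurentBaseChange ↥K₁ (modularFunctionFieldFull N)),
      (c : LaurentSeries ↥K₁) ∈ (↥K₁)⟮emb ↥(baseRing A K₁) ↥K₁ (jqModC ↥(baseRing A K₁))⟯ →
      (c ∈ W ↔ (c : LaurentSeries ↥K₁) ∈ gaussInt ↥(baseRing A K₁) ↥K₁))
    (z : ↥(laurentBaseChange ↥K₁ (modularFunctionFieldFull N)))
    (hz : (z : LaurentSeries ↥K₁) ∈ gaussInt ↥(baseRing A K₁) ↥K₁) : z ∈ W := by
  letI : Algebra ↥K₁ ℂ :=
    (((IsAlgClosed.lift : Ω →ₐ[ℚ] ℂ) : Ω →+* ℂ).comp (algebraMap ↥K₁ Ω)).toAlgebra
  haveI : IsScalarTower ℚ ↥K₁ ℂ := IsScalarTower.of_algebraMap_eq' (Subsingleton.elim _ _)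
  exact mem_of_mem_gaussInt_laurentBaseChange ↥(baseRing A K₁) ↥K₁ N
    (hdeg_baseRing hA N hℓN h) W hW z hz

end Bases

end

end Fermat.Agent.JA
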