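/-
J-A package G1-Ω (helper5), part 1: descent to a base.  Every element of the function field
`F_Ω = Ω·ℚ(j_d : d ∣ N)` is defined over a base `K₁` (`IsBase ℓ K₁`), integrally if it is integral.
-/
import Fermat.Agent.JA.G1_helper5_Bases

set_option autoImplicit false
set_option linter.unusedSectionVars false
set_option linter.style.haveILetI false

open Polynomial IntermediateField Fermat.Agent.Igusa Fermat.Agent.X0N ModularCurve

namespace Fermat.Agent.JA

noncomputable section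

section Generic

variable {K L : Type*} [Field K] [Field L] [Algebra ℚ K] [Algebra ℚ L]

/-- coefficientwise field homomorphisms commute with the embedding of `ℚ((q))`. -/
theorem coeffMap_coeffEmb_hom (φ : K →+* L) (x : LaurentSeries ℚ) :
    coeffMap φ (coeffEmb K x) = coeffEmb L x := by
  rw [coeffEmb, coeffEmb, coeffMap_coeffMap]
  have h : φ.comp (algebraMap ℚ K) = algebraMap ℚ L := Subsingleton.elim _ _
  rw [h]

/-- coefficientwise field homomorphisms map `K·F₀` into `L·F₀`. -/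
theorem coeffMap_hom_mem_laurentBaseChange (φ : K →+* L)
    (F₀ : IntermediateField ℚ (LaurentSeries ℚ)) {z : LaurentSeries K}
    (hz : z ∈ laurentBaseChange K F₀) : coeffMap φ z ∈ laurentBaseChange L F₀ := by
  have h := coeffMap_mem_adjoin φ _ hz
  refine (IntermediateField.adjoin.mono L _ _ ?_) h
  rintro _ ⟨_, ⟨w, hw, rfl⟩, rfl⟩
  exact ⟨w, hw, (coeffMap_coeffEmb_hom φ w).symm⟩

/-- a series over `K` with coefficients in a valuation subring comes from a series over it. -/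
theorem exists_coeffMap_subtype_eq (V : ValuationSubring K) (f : LaurentSeries K)
    (h : ∀ n, f.coeff n ∈ V) : ∃ y : LaurentSeries ↥V, coeffMap V.subtype y = f := by
  refine ⟨⟨fun n => ⟨f.coeff n, h n⟩, ?_⟩, ?_⟩
  · refine f.isPWO_support.mono fun n hn => ?_
    simp only [Function.mem_support, ne_eq] at hn ⊢
    intro h0
    exact hn (Subtype.ext h0)
  · ext n
    rw [coeffMap_coeff]
    rfl

end Generic

section Descent

local notation "Ω" => AlgebraicClosure ℚ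

variable (ℓ : ℕ) [Fact ℓ.Prime] (F₀ : IntermediateField ℚ (LaurentSeries ℚ))

/-- **(D1)** every element of `Ω·F₀` is defined over a base. -/
theorem exists_isBase_of_mem_laurentBaseChange {f : LaurentSeries Ω}
    (hf : f ∈ laurentBaseChange Ω F₀) :
    ∃ K₁ : IntermediateField ℚ Ω, IsBase ℓ K₁ ∧ ∃ f₁ : LaurentSeries ↥K₁,
      f₁ ∈ laurentBaseChange ↥K₁ F₀ ∧ coeffMap (algebraMap ↥K₁ Ω) f₁ = f := by
  classical
  have hpush : ∀ (K_a K₁ : IntermediateField ℚ Ω) (h : K_a ≤ K₁) (a₁ : LaurentSeries ↥K_a),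
      a₁ ∈ laurentBaseChange ↥K_a F₀ →
      coeffMap (IntermediateField.inclusion h : ↥K_a →+* ↥K₁) a₁ ∈ laurentBaseChange ↥K₁ F₀ ∧
      coeffMap (algebraMap ↥K₁ Ω) (coeffMap (IntermediateField.inclusion h : ↥K_a →+* ↥K₁) a₁) =
        coeffMap (algebraMap ↥K_a Ω) a₁ := by
    intro K_a K₁ h a₁ ha₁
    refine ⟨coeffMap_hom_mem_laurentBaseChange _ F₀ ha₁, ?_⟩
    rw [coeffMap_coeffMap]
    rfl
  rw [laurentBaseChange] at hf
  induction hf using IntermediateField.adjoin_induction with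
  | mem x hx =>
    obtain ⟨x₀, hx₀, rfl⟩ := hx
    refine ⟨flatBase ℓ, isBase_flatBase, coeffEmb ↥(flatBase ℓ) x₀,
      coeffEmb_mem_laurentBaseChange _ hx₀, coeffMap_coeffEmb_hom _ x₀⟩
  | algebraMap c =>
    obtain ⟨K₁, hK₁, hc⟩ := exists_isBase_mem ℓ c
    refine ⟨K₁, hK₁, algebraMap ↥K₁ (LaurentSeries ↥K₁) ⟨c, hc⟩,
      IntermediateField.algebraMap_mem _ _, ?_⟩
    rw [coeffMap_algebraMap']
    rfl
  | add x y _ _ hx hy =>
    obtain ⟨Ka, hKa, a₁, ha₁, rfl⟩ := hx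
    obtain ⟨Kb, hKb, b₁, hb₁, rfl⟩ := hy
    obtain ⟨h1, h2⟩ := hpush Ka (Ka ⊔ Kb) le_sup_left a₁ ha₁
    obtain ⟨h3, h4⟩ := hpush Kb (Ka ⊔ Kb) le_sup_right b₁ hb₁
    exact ⟨Ka ⊔ Kb, hKa.sup hKb, _, add_mem h1 h3, by rw [map_add, h2, h4]⟩
  | mul x y _ _ hx hy =>
    obtain ⟨Ka, hKa, a₁, ha₁, rfl⟩ := hx
    obtain ⟨Kb, hKb, b₁, hb₁, rfl⟩ := hy
    obtain ⟨h1, h2⟩ := hpush Ka (Ka ⊔ Kb) le_sup_left a₁ ha₁
    obtain ⟨h3, h4⟩ := hpush Kb (Ka ⊔ Kb) le_sup_right b₁ hb₁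
    exact ⟨Ka ⊔ Kb, hKa.sup hKb, _, mul_mem h1 h3, by rw [map_mul, h2, h4]⟩
  | inv x _ hx =>
    obtain ⟨Ka, hKa, a₁, ha₁, rfl⟩ := hx
    exact ⟨Ka, hKa, a₁⁻¹, inv_mem ha₁, map_inv₀ _ _⟩


variable {ℓ} {A : ValuationSubring (AlgebraicClosure ℚ)}

theorem coeffMap_subtype_coeffMap_baseIncl {K₁ : IntermediateField ℚ (AlgebraicClosure ℚ)}
    (y₁ : LaurentSeries ↥(baseRing A K₁)) :
    coeffMap A.subtype (coeffMap (baseIncl A K₁) y₁) =
      coeffMap (algebraMap ↥K₁ Ω) (emb ↥(baseRing A K₁) ↥K₁ y₁) := by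
  ext n
  simp only [coeffMap_coeff, emb]
  rfl

/-- **(D2)** an integral element of `F_Ω` is defined and integral over a base. -/
theorem exists_isBase_of_integral (A : ValuationSubring (AlgebraicClosure ℚ))
    {y : LaurentSeries ↥A} (hy : coeffMap A.subtype y ∈ laurentBaseChange Ω F₀) :
    ∃ K₁ : IntermediateField ℚ Ω, IsBase ℓ K₁ ∧ ∃ y₁ : LaurentSeries ↥(baseRing A K₁),
      emb ↥(baseRing A K₁) ↥K₁ y₁ ∈ laurentBaseChange ↥K₁ F₀ ∧
      coeffMap (baseIncl A K₁) y₁ = y := by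
  obtain ⟨K₁, hK₁, f₁, hf₁, hf⟩ := exists_isBase_of_mem_laurentBaseChange ℓ F₀ hy
  have hcoeff : ∀ n, algebraMap ↥K₁ Ω (f₁.coeff n) = ((y.coeff n : ↥A) : Ω) := by
    intro n
    have := congrArg (fun z : LaurentSeries Ω => z.coeff n) hf
    simp only [coeffMap_coeff] at this
    exact this
  have hmem : ∀ n, f₁.coeff n ∈ baseRing A K₁ := by
    intro n
    rw [baseRing, ValuationSubring.mem_comap, hcoeff n]
    exact (y.coeff n).2
  obtain ⟨y₁, hy₁⟩ := exists_coeffMap_subtype_eq (baseRing A K₁) f₁ hmem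
  have hemb : emb ↥(baseRing A K₁) ↥K₁ y₁ = f₁ := hy₁
  refine ⟨K₁, hK₁, y₁, by rw [hemb]; exact hf₁, ?_⟩
  ext n
  rw [coeffMap_coeff, baseIncl_apply, ← hcoeff n, ← hemb]
  rfl

end Descent

end

end Fermat.Agent.JA
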