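/-
J-A — helper8 — valuation glue for (KEY): a discrete valuation subring is a maximal proper
valuation subring; and if a valuation subring `𝒱` of an algebraic extension `K / K₀` is the ONLY
valuation subring of `K` lying over the discrete valuation subring `𝒱₀` of `K₀`, then `𝒱` is
integral over `𝒱₀` (it is the integral closure of `𝒱₀` in `K`).
-/
import Mathlib

set_option autoImplicit false
set_option linter.unusedSectionVars false
set_option linter.style.haveILetI false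

namespace Fermat.Agent.JA

section Max

variable {K₀ : Type*} [Field K₀]

/-- a discrete valuation subring is maximal among the proper valuation subrings. -/
theorem eq_or_eq_top_of_le_of_isDiscreteValuationRing (𝒱₀ : ValuationSubring K₀)
    [IsDiscreteValuationRing ↥𝒱₀] (W : ValuationSubring K₀) (h : 𝒱₀ ≤ W) :
    W = 𝒱₀ ∨ W = ⊤ := by
  by_cases hW : W ≤ 𝒱₀
  · exact Or.inl (le_antisymm hW h)
  right
  obtain ⟨x, hxW, hx𝒱⟩ := SetLike.not_le_iff_exists.mp hW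
  obtain ⟨ϖ, hϖ⟩ := IsDiscreteValuationRing.exists_irreducible ↥𝒱₀
  have hϖ0 : (ϖ : K₀) ≠ 0 := fun h0 => hϖ.ne_zero (Subtype.ext h0)
  -- `ϖ⁻¹ ∈ W`
  have key : ∀ z : K₀, z ∉ 𝒱₀ → ∃ (n : ℕ) (u : (↥𝒱₀)ˣ), z * ((u : ↥𝒱₀) : K₀) * (ϖ : K₀) ^ (n + 1) = 1 := by
    intro z hz
    have hz0 : z ≠ 0 := fun h0 => hz (h0 ▸ 𝒱₀.zero_mem)
    have hzinv : z⁻¹ ∈ 𝒱₀ := (𝒱₀.mem_or_inv_mem z).resolve_left hz
    have hne : (⟨z⁻¹, hzinv⟩ : ↥𝒱₀) ≠ 0 := fun h0 => inv_ne_zero hz0 (congrArg Subtype.val h0)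
    obtain ⟨n, u, hu⟩ := IsDiscreteValuationRing.eq_unit_mul_pow_irreducible hne hϖ
    have hu' : z⁻¹ = ((u : ↥𝒱₀) : K₀) * (ϖ : K₀) ^ n := by
      have := congrArg Subtype.val hu
      simpa using this
    rcases Nat.eq_zero_or_pos n with rfl | hn
    · exfalso
      apply hz
      rw [pow_zero, mul_one] at hu'
      have h1 : z = ((u⁻¹ : (↥𝒱₀)ˣ) : ↥𝒱₀) := by
        have h2 : ((u : ↥𝒱₀) : K₀) * (((u⁻¹ : (↥𝒱₀)ˣ) : ↥𝒱₀) : K₀) = 1 := by
          rw [← Subring.coe_mul]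
          simp
        rw [← inv_inv z, hu']
        exact inv_eq_of_mul_eq_one_right h2
      rw [h1]
      exact Subtype.mem _
    · obtain ⟨k, rfl⟩ : ∃ k, n = k + 1 := ⟨n - 1, by omega⟩
      refine ⟨k, u, ?_⟩
      rw [mul_assoc, ← hu', mul_inv_cancel₀ hz0]
  obtain ⟨n, u, hn⟩ := key x hx𝒱
  have hϖinv : (ϖ : K₀)⁻¹ ∈ W := by
    have h1 : (ϖ : K₀)⁻¹ = x * ((u : ↥𝒱₀) : K₀) * (ϖ : K₀) ^ n := by
      apply inv_eq_of_mul_eq_one_right
      rw [pow_succ] at hn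
      linear_combination hn
    rw [h1]
    exact W.mul_mem _ _ (W.mul_mem _ _ hxW (h (Subtype.mem _))) (pow_mem (h (Subtype.mem _)) n)
  rw [eq_top_iff]
  intro z _
  by_cases hz : z ∈ 𝒱₀
  · exact h hz
  obtain ⟨k, v, hk⟩ := key z hz
  have hv : ((v : ↥𝒱₀) : K₀) ≠ 0 := by
    intro h0
    rw [h0, mul_zero, zero_mul] at hk
    exact zero_ne_one hk
  have h1 : z = (((v⁻¹ : (↥𝒱₀)ˣ) : ↥𝒱₀) : K₀) * ((ϖ : K₀)⁻¹) ^ (k + 1) := by
    have h2 : ((v : ↥𝒱₀) : K₀) * (((v⁻¹ : (↥𝒱₀)ˣ) : ↥𝒱₀) : K₀) = 1 := by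
      rw [← Subring.coe_mul]
      simp
    have h3 : (((v⁻¹ : (↥𝒱₀)ˣ) : ↥𝒱₀) : K₀) = (((v : ↥𝒱₀) : K₀))⁻¹ :=
      (inv_eq_of_mul_eq_one_right h2).symm
    rw [h3, inv_pow, ← mul_inv]
    apply eq_inv_of_mul_eq_one_left
    linear_combination hk
  rw [h1]
  exact W.mul_mem _ _ (h (Subtype.mem _)) (pow_mem hϖinv _)

end Max

section Integral

variable {K₀ K : Type*} [Field K₀] [Field K] [Algebra K₀ K]

/-- if all of `K₀` lies in the valuation subring `V` of the algebraic extension `K`, then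
`V = ⊤`. -/
theorem eq_top_of_comap_eq_top [Algebra.IsAlgebraic K₀ K] (V : ValuationSubring K)
    (hV : V.comap (algebraMap K₀ K) = ⊤) : V = ⊤ := by
  rw [eq_top_iff]
  intro x _
  have hmem : ∀ a : K₀, algebraMap K₀ K a ∈ V := by
    intro a
    have : a ∈ V.comap (algebraMap K₀ K) := by rw [hV]; trivial
    exact this
  letI : Algebra K₀ ↥V := ((algebraMap K₀ K).codRestrict V.toSubring hmem).toAlgebra
  haveI : IsScalarTower K₀ ↥V K := IsScalarTower.of_algebraMap_eq fun _ => rfl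
  have h1 : IsIntegral K₀ x := (Algebra.IsAlgebraic.isAlgebraic x).isIntegral
  have h2 : IsIntegral ↥V x := h1.tower_top
  obtain ⟨y, rfl⟩ := IsIntegrallyClosed.isIntegral_iff.mp h2
  exact y.2

/-- an element lying in every valuation subring of the algebraic extension `K / K₀` over the
discrete valuation subring `𝒱₀` of `K₀` is integral over `𝒱₀`. -/
theorem isIntegral_of_forall_mem_of_comap_eq [Algebra.IsAlgebraic K₀ K]
    (𝒱₀ : ValuationSubring K₀) [IsDiscreteValuationRing ↥𝒱₀] {x : K}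
    (hx : ∀ W : ValuationSubring K, W.comap (algebraMap K₀ K) = 𝒱₀ → x ∈ W) :
    IsIntegral ↥𝒱₀ x := by
  by_contra hnot
  set S : Subring K := (integralClosure ↥𝒱₀ K).toSubring with hS
  have hxS : x ∉ S := hnot
  obtain ⟨V, hSV, hxV⟩ := Subring.exists_le_valuationSubring_of_isIntegrallyClosedIn hxS
  have hle : 𝒱₀ ≤ V.comap (algebraMap K₀ K) := by
    intro a ha
    apply hSV
    have : algebraMap K₀ K a = algebraMap ↥𝒱₀ K ⟨a, ha⟩ := rfl
    show IsIntegral ↥𝒱₀ (algebraMap K₀ K a)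
    rw [this]
    exact isIntegral_algebraMap
  rcases eq_or_eq_top_of_le_of_isDiscreteValuationRing 𝒱₀ _ hle with h1 | h1
  · exact hxV (hx V h1)
  · have := eq_top_of_comap_eq_top V h1
    exact hxV (this ▸ trivial)

/-- **uniqueness of the extension implies integrality**: if `𝒱` is the only valuation subring of
the algebraic extension `K / K₀` lying over the discrete valuation subring `𝒱₀` of `K₀`, then every
element of `𝒱` is integral over `𝒱₀`. -/
theorem isIntegral_of_unique_extension [Algebra.IsAlgebraic K₀ K] (𝒱₀ : ValuationSubring K₀)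
    [IsDiscreteValuationRing ↥𝒱₀] (𝒱 : ValuationSubring K)
    (huniq : ∀ W : ValuationSubring K, W.comap (algebraMap K₀ K) = 𝒱₀ → W = 𝒱)
    {x : K} (hx : x ∈ 𝒱) : IsIntegral ↥𝒱₀ x :=
  isIntegral_of_forall_mem_of_comap_eq 𝒱₀ fun W hW => (huniq W hW) ▸ hx

end Integral

end Fermat.Agent.JA
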