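/-
J-A — helper8 — (G1.INT): the consumer form of helper5's uniqueness theorem (UNIQ) used by (KEY).

`F ⊆ L((q))` a field of Gauss-bounded series, `s = emb sR ∈ F` with transcendental reduction,
`K₀` an ABSTRACT copy of `L(s)` mapping to `F` (`j₀ ↦ s`).  Then
* the restriction to `K₀` of the Gauss valuation subring of `F` is a Gauss valuation subring in the
  sense of `IsGaussAt`;
* if `𝒢` is that restriction, `𝒢` is a discrete valuation ring and `F / K₀` is algebraic, then
  every Gauss-integral element of `F` is integral over `𝒢` (given helper5's (UNIQ) in the form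
  `mem_of_mem_gaussInt`).
-/
import Mathlib
import Fermat.Agent.JA.G1_helper5_Abstract
import Fermat.Agent.JA.GEO_lead_Spec
import Fermat.Agent.JA.VALGLUE_helper8

set_option autoImplicit false
set_option linter.unusedSectionVars false
set_option linter.style.haveILetI false

open Polynomial IntermediateField Fermat.Agent.Igusa ModularCurve

namespace Fermat.Agent.JA

noncomputable section

section G1Int

variable {R : Type*} [CommRing R] [IsDomain R] [IsDiscreteValuationRing R]
  {L : Type*} [Field L] [Algebra R L] [IsFractionRing R L]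
  (F : IntermediateField L (LaurentSeries L)) (hF : F ≤ gaussField R L)
  (sR : LaurentSeries R)
  {K₀ : Type*} [Field K₀] [Algebra L K₀] [Algebra R K₀] [IsScalarTower R L K₀]
  [Algebra K₀ ↥F] [IsScalarTower L K₀ ↥F]
  (j₀ : K₀) (hj₀ : ((algebraMap K₀ ↥F j₀ : ↥F) : LaurentSeries L) = emb R L sR)

/-- the composite `K₀ → F → L((q))`. -/
def baseToSeries : K₀ →ₐ[L] LaurentSeries L := F.val.comp (IsScalarTower.toAlgHom L K₀ ↥F)

theorem baseToSeries_apply (x : K₀) :
    baseToSeries F x = ((algebraMap K₀ ↥F x : ↥F) : LaurentSeries L) := rfl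

theorem baseToSeries_algebraMap (r : R) :
    baseToSeries F (algebraMap R K₀ r) = constR (L := L) r := by
  rw [IsScalarTower.algebraMap_apply R L K₀, AlgHom.commutes, constR_apply,
    algebraMap_laurentSeries_eq_single]
  rfl

include hj₀ in
theorem baseToSeries_aeval (f : R[X]) :
    baseToSeries F (aeval j₀ f) = emb R L (evalR sR f) := by
  have e1 : ((baseToSeries (K₀ := K₀) F : K₀ →+* LaurentSeries L).comp (algebraMap R K₀)) =
      constR (L := L) := RingHom.ext fun r => baseToSeries_algebraMap F r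
  have e2 : baseToSeries F j₀ = emb R L sR := hj₀
  rw [emb_evalR, aeval_def, ← AlgHom.coe_toRingHom, Polynomial.hom_eval₂, e1,
    AlgHom.coe_toRingHom, e2]

theorem mem_comap_gaussValSub_iff (x : K₀) :
    x ∈ (gaussValSub R L F hF).comap (algebraMap K₀ ↥F) ↔ baseToSeries F x ∈ gaussInt R L :=
  Iff.rfl

include hj₀ in
/-- the restriction of the Gauss valuation subring of `F` to `K₀` is a Gauss valuation subring. -/
theorem isGaussAt_comap_gaussValSub {π : R} (hπ : Irreducible π)
    (hst : Transcendental (IsLocalRing.ResidueField R) (red R sR)) :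
    IsGaussAt R π j₀ ((gaussValSub R L F hF).comap (algebraMap K₀ ↥F)) := by
  refine ⟨fun f => ?_, ?_, fun f hf => ?_⟩
  · rw [mem_comap_gaussValSub_iff, baseToSeries_aeval F sR j₀ hj₀]
    exact emb_mem_gaussInt R L _
  · rw [mem_comap_gaussValSub_iff, map_inv₀, baseToSeries_algebraMap, constR_apply]
    intro hmem
    have hC0 := C_algebraMap_ne_zero (L := L) hπ.ne_zero
    have hunit : IsUnit (⟨HahnSeries.C (algebraMap R L π), C_algebraMap_mem_gaussInt π⟩ :
        gaussInt R L) := by
      refine IsUnit.of_mul_eq_one ⟨_, hmem⟩ (Subtype.ext ?_)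
      exact mul_inv_cancel₀ hC0
    rw [isUnit_gaussInt_iff] at hunit
    apply hunit
    rw [gaussRed_eq_zero_iff hπ]
    exact ⟨1, by simp⟩
  · rw [mem_comap_gaussValSub_iff, map_inv₀, baseToSeries_aeval F sR j₀ hj₀]
    apply inv_mem_gaussInt_of_gaussRed_ne_zero (embW (L := L) (evalR sR f))
    rw [gaussRed_embW, red_evalR]
    intro h0
    have h1 : f.map (IsLocalRing.residue R) = 0 := (transcendental_iff.mp hst) _ h0
    apply hf
    rw [Polynomial.C_dvd_iff_dvd_coeff]
    intro i
    have h2 : IsLocalRing.residue R (f.coeff i) = 0 := by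
      rw [← Polynomial.coeff_map, h1, coeff_zero]
    rw [IsLocalRing.residue_eq_zero_iff, hπ.maximalIdeal_eq, Ideal.mem_span_singleton] at h2
    exact h2

include hj₀ in
/-- **(G1.INT)**: every Gauss-integral element of `F` is integral over the Gauss valuation
subring `𝒢` of `K₀`, given (UNIQ) in helper5's form `hmemW`. -/
theorem isIntegral_of_mem_gaussInt [Algebra.IsAlgebraic K₀ ↥F]
    (hmemW : ∀ W : ValuationSubring ↥F,
      (∀ c : ↥F, (c : LaurentSeries L) ∈ L⟮emb R L sR⟯ →
        (c ∈ W ↔ (c : LaurentSeries L) ∈ gaussInt R L)) →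
      ∀ z : ↥F, (z : LaurentSeries L) ∈ gaussInt R L → z ∈ W)
    (𝒢 : ValuationSubring K₀) [IsDiscreteValuationRing ↥𝒢]
    (h𝒢 : 𝒢 = (gaussValSub R L F hF).comap (algebraMap K₀ ↥F))
    (z : ↥F) (hz : (z : LaurentSeries L) ∈ gaussInt R L) : IsIntegral ↥𝒢 z := by
  apply isIntegral_of_forall_mem_of_comap_eq 𝒢
  intro W hW
  refine hmemW W (fun c hc => ?_) z hz
  -- `c` comes from `K₀`
  have hle : L⟮emb R L sR⟯ ≤ (baseToSeries (K₀ := K₀) F).fieldRange := by
    rw [adjoin_simple_le_iff]
    exact ⟨j₀, hj₀⟩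
  obtain ⟨c₀, hc₀⟩ := hle hc
  have hc₀' : algebraMap K₀ ↥F c₀ = c := Subtype.ext hc₀
  rw [← hc₀']
  have h1 : algebraMap K₀ ↥F c₀ ∈ W ↔ c₀ ∈ W.comap (algebraMap K₀ ↥F) := Iff.rfl
  rw [h1, hW, h𝒢, mem_comap_gaussValSub_iff]
  rfl

end G1Int

end

end Fermat.Agent.JA
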