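/-
J-A package G1 (helper5), part L0: a monogenic algebra `B = A[x]`, `m(x) = 0`, `m'(x)` a unit, is
formally unramified.
-/
import Mathlib

set_option autoImplicit false

open Polynomial

namespace Fermat.Agent.JA

/-- `B = A[x]` with `m(x) = 0` and `m'(x)` a unit is formally unramified over `A`. -/
theorem formallyUnramified_of_aeval_surjective {A B : Type*} [CommRing A] [CommRing B]
    [Algebra A B] (x : B) (hx : ∀ y : B, ∃ p : A[X], aeval x p = y) (m : A[X])
    (hm : aeval x m = 0) (hu : IsUnit (aeval x (derivative m))) :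
    Algebra.FormallyUnramified A B := by
  constructor
  have hDx : KaehlerDifferential.D A B x = 0 := by
    have h1 := (KaehlerDifferential.D A B).map_aeval m x
    rw [hm, map_zero] at h1
    obtain ⟨u, hu'⟩ := hu
    rw [← hu'] at h1
    have h2 : (u⁻¹ : Bˣ) • ((u : B) • KaehlerDifferential.D A B x) = 0 := by
      rw [← h1, smul_zero]
    rwa [Units.smul_def, smul_smul, Units.inv_mul, one_smul] at h2
  have hD : ∀ y : B, KaehlerDifferential.D A B y = 0 := by
    intro y
    obtain ⟨p, rfl⟩ := hx y
    rw [(KaehlerDifferential.D A B).map_aeval p x, hDx, smul_zero]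
  have htop : (⊤ : Submodule B (Ω[B⁄A])) = ⊥ := by
    rw [← KaehlerDifferential.span_range_derivation A B, Submodule.span_eq_bot]
    rintro _ ⟨y, rfl⟩
    exact hD y
  refine ⟨fun a b => ?_⟩
  have ha : a ∈ (⊤ : Submodule B (Ω[B⁄A])) := Submodule.mem_top
  have hb : b ∈ (⊤ : Submodule B (Ω[B⁄A])) := Submodule.mem_top
  rw [htop, Submodule.mem_bot] at ha hb
  rw [ha, hb]

end Fermat.Agent.JA
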