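/-
J-A package G1 (helper5), part L: (R-b) the Gauss place of the `j`-line is unramified in `F`:
`Unr 𝒢 ↥F` for every Gauss valuation subring `𝒢` of an abstract copy `K₀` of `L(s)`.
The integral closure of `𝒢` in `F` is the Gauss valuation ring `V_F = 𝒢[x]`, `m(x) = 0` with
`m̄` separable.
-/
import Fermat.Agent.JA.G1_helper5_Abstract2
import Fermat.Agent.JA.G1_helper5_UnrAlg
import Fermat.Agent.JA.G1_helper5_SepAlg
import Fermat.Agent.JA.G1INT_helper8
import Fermat.Agent.JA.GAUSSUNIQ_helper6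
import Fermat.Agent.JA.G1_helper5_Bases

set_option autoImplicit false
set_option linter.unusedSectionVars false
set_option linter.style.haveILetI false

open scoped MatrixGroups
open Polynomial IntermediateField Fermat.Agent.Igusa Fermat.Agent.X0N ModularCurve
  CongruenceSubgroup

namespace Fermat.Agent.JA

noncomputable section

section Unr

variable {R : Type*} [CommRing R] [IsDomain R] [IsDiscreteValuationRing R] [CharZero R]
  {L : Type*} [Field L] [Algebra R L] [IsFractionRing R L]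
  (F : IntermediateField L (LaurentSeries L)) (hF : F ≤ gaussField R L)
  (sR xR : LaurentSeries R) (hs : emb R L sR ∈ F) (hx : emb R L xR ∈ F)
  (hst : Transcendental (IsLocalRing.ResidueField R) (red R sR)) (n : ℕ)
  (hub : ∀ (ι : Type) [Fintype ι] (b : ι → LaurentSeries L), (∀ i, b i ∈ F) →
      LinearIndependent L⟮emb R L sR⟯ b → Fintype.card ι ≤ n)
  (hlb : LinearIndependent (IsLocalRing.ResidueField R)⟮red R sR⟯
    (fun i : Fin n => (red R xR) ^ (i : ℕ)))
  {K₀ : Type*} [Field K₀] [Algebra L K₀] [Algebra R K₀] [IsScalarTower R L K₀]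
  [Algebra K₀ ↥F] [IsScalarTower L K₀ ↥F]
  (j₀ : K₀) (hj₀ : ((algebraMap K₀ ↥F j₀ : ↥F) : LaurentSeries L) = emb R L sR)
  (ht : Transcendental L j₀) (hK₀ : IntermediateField.adjoin L {j₀} = ⊤)
  {π : R} (hπ : Irreducible π) (𝒢 : ValuationSubring K₀) (h𝒢 : IsGaussAt R π j₀ 𝒢)

local notation "kR" => IsLocalRing.ResidueField R

include hF hj₀ ht hK₀ hst hπ h𝒢 in
/-- membership in a Gauss valuation subring of `K₀` is Gauss-integrality of the image. -/
theorem mem_iff_of_isGaussAt (c : K₀) : c ∈ 𝒢 ↔ baseToSeries F c ∈ gaussInt R L := by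
  have h𝒢eq : 𝒢 = (gaussValSub R L F hF).comap (algebraMap K₀ ↥F) :=
    isGaussAt_unique π hπ j₀ ht hK₀ h𝒢 (isGaussAt_comap_gaussValSub F hF sR j₀ hj₀ hπ hst)
  rw [h𝒢eq]
  exact mem_comap_gaussValSub_iff F hF c

include hj₀ hK₀ in
/-- the image of `K₀` in `L((q))` is `L(s)`. -/
theorem fieldRange_baseToSeries :
    (baseToSeries (K₀ := K₀) F).fieldRange = L⟮emb R L sR⟯ := by
  rw [AlgHom.fieldRange_eq_map, ← hK₀, IntermediateField.adjoin_map, Set.image_singleton]
  congr 2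

include hj₀ hK₀ in
theorem baseToSeries_mem_adjoin (c : K₀) : baseToSeries F c ∈ L⟮emb R L sR⟯ := by
  rw [← fieldRange_baseToSeries F sR j₀ hj₀ hK₀]
  exact ⟨c, rfl⟩

include hj₀ hK₀ in
theorem exists_baseToSeries_eq {c : LaurentSeries L} (hc : c ∈ L⟮emb R L sR⟯) :
    ∃ c₀ : K₀, baseToSeries F c₀ = c := by
  rw [← fieldRange_baseToSeries F sR j₀ hj₀ hK₀] at hc
  exact hc


include hF hs hx hst hub hlb hj₀ ht hK₀ hπ h𝒢 in
/-- **(A2) over `𝒢`**: a Gauss-integral element of `F` is a `𝒢`-combination of `1, x, …, x^{n-1}`. -/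
theorem exists_coeff_of_mem_gaussInt (z : ↥F) (hz : (z : LaurentSeries L) ∈ gaussInt R L) :
    ∃ d : Fin n → ↥𝒢,
      z = ∑ i, algebraMap ↥𝒢 ↥F (d i) * (⟨emb R L xR, hx⟩ : ↥F) ^ (i : ℕ) := by
  obtain ⟨c, hc⟩ := exists_repr F sR xR hs hx hst n hub hlb z.2
  have hci := coord_mem_gaussInt (L := L) sR xR hst n hlb c (hc ▸ hz)
  have hex := fun i => exists_baseToSeries_eq F sR j₀ hj₀ hK₀ (c i).2
  choose c₀ hc₀ using hex
  have hmem : ∀ i, c₀ i ∈ 𝒢 := by
    intro i
    rw [mem_iff_of_isGaussAt F hF sR hst j₀ hj₀ ht hK₀ hπ 𝒢 h𝒢, hc₀ i]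
    exact hci i
  refine ⟨fun i => ⟨c₀ i, hmem i⟩, ?_⟩
  apply Subtype.ext
  rw [hc, AddSubmonoidClass.coe_finsetSum]
  apply Finset.sum_congr rfl
  intro i _
  rw [MulMemClass.coe_mul, SubmonoidClass.coe_pow, ← hc₀ i]
  rfl

include hF hst hj₀ ht hK₀ hπ h𝒢 in
/-- the valuation ring `V_F` is integrally closed: elements integral over `𝒢` are
Gauss-integral. -/
theorem mem_gaussInt_of_isIntegral (z : ↥F) (hz : IsIntegral ↥𝒢 z) :
    (z : LaurentSeries L) ∈ gaussInt R L := by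
  set V : ValuationSubring ↥F := gaussValSub R L F hF with hV
  have hmemV : ∀ a : ↥𝒢, algebraMap K₀ ↥F (a : K₀) ∈ V := by
    intro a
    rw [hV, mem_gaussValSub_iff]
    exact (mem_iff_of_isGaussAt F hF sR hst j₀ hj₀ ht hK₀ hπ 𝒢 h𝒢 (a : K₀)).mp a.2
  let φ : ↥𝒢 →+* ↥V :=
    ((algebraMap K₀ ↥F).comp 𝒢.subtype).codRestrict V.toSubring (fun a => hmemV a)
  have h1 : IsIntegral ↥V z := by
    have := IsIntegral.map_of_comp_eq (R := ↥𝒢) (S := ↥F) (T := ↥V) (U := ↥F) φ (RingHom.id ↥F)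
      (by ext a; rfl) hz
    exact this
  obtain ⟨y, hy⟩ := IsIntegrallyClosed.isIntegral_iff.mp h1
  have : z ∈ V := by
    rw [← hy]
    exact y.2
  exact this


variable (hsep : ∀ c : Fin n → LaurentSeries (IsLocalRing.ResidueField R),
    (∀ i, c i ∈ IntermediateField.adjoin (IsLocalRing.ResidueField R) {red R sR}) →
    (red R xR) ^ n = ∑ i, c i * (red R xR) ^ (i : ℕ) →
    (X ^ n - ∑ i, C (c i) * X ^ (i : ℕ) :
      (LaurentSeries (IsLocalRing.ResidueField R))[X]).Separable)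

include hF hs hx hst hub hlb hj₀ ht hK₀ hπ h𝒢 hsep in
/-- **(R-b)** the Gauss place of the `j`-line is unramified in `F`. -/
theorem unr_field_of_isGaussAt : Unr 𝒢 ↥F := by
  classical
  have hmem𝒢 := mem_iff_of_isGaussAt F hF sR hst j₀ hj₀ ht hK₀ hπ 𝒢 h𝒢
  have hcoeff := exists_coeff_of_mem_gaussInt F hF sR xR hs hx hst n hub hlb j₀ hj₀ ht hK₀ hπ 𝒢 h𝒢
  have hintcl := mem_gaussInt_of_isIntegral F hF sR hst j₀ hj₀ ht hK₀ hπ 𝒢 h𝒢
  set xF : ↥F := ⟨emb R L xR, hx⟩ with hxF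
  -- the ring homomorphism `𝒢 → 𝒲`
  let ι𝒢 : ↥𝒢 →+* ↥(gaussInt R L) :=
    ((baseToSeries (K₀ := K₀) F : K₀ →+* LaurentSeries L).comp 𝒢.subtype).codRestrict
      (gaussInt R L) (fun a => (hmem𝒢 (a : K₀)).mp a.2)
  let ρ : ↥𝒢 →+* LaurentSeries kR := (gaussRed R L).comp ι𝒢
  set xW : gaussInt R L := embW (L := L) xR with hxW
  -- evaluation of polynomials over `𝒢` at `x`
  have heval : ∀ p : (↥𝒢)[X],
      ((aeval xF p : ↥F) : LaurentSeries L) = ((eval₂ ι𝒢 xW p : gaussInt R L) : LaurentSeries L) := by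
    intro p
    induction p using Polynomial.induction_on' with
    | add p q hp hq =>
      rw [map_add, eval₂_add, AddMemClass.coe_add, hp, hq]
      rfl
    | monomial k a =>
      rw [aeval_monomial, eval₂_monomial, MulMemClass.coe_mul, SubmonoidClass.coe_pow]
      rfl
  have hred : ∀ p : (↥𝒢)[X], gaussRed R L (eval₂ ι𝒢 xW p) = eval (red R xR) (p.map ρ) := by
    intro p
    rw [Polynomial.hom_eval₂, eval_map, hxW, gaussRed_embW]
  -- the monic relation
  have hxn : ((xF ^ n : ↥F) : LaurentSeries L) ∈ gaussInt R L := by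
    rw [SubmonoidClass.coe_pow]
    exact (gaussInt R L).pow_mem (emb_mem_gaussInt R L xR) n
  obtain ⟨d, hd⟩ := hcoeff (xF ^ n) hxn
  set m : (↥𝒢)[X] := X ^ n - ∑ i, C (d i) * X ^ (i : ℕ) with hm
  have hmmonic : m.Monic := monic_X_pow_sub (degree_sum_fin_lt d)
  have hmroot : aeval xF m = 0 := by
    rw [hm, map_sub, map_pow, aeval_X, map_sum, hd, sub_eq_zero]
    apply Finset.sum_congr rfl
    intro i _
    rw [map_mul, aeval_C, map_pow, aeval_X]
  have hxint : IsIntegral ↥𝒢 xF := ⟨m, hmmonic, hmroot⟩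
  set xB : ↥(integralClosure ↥𝒢 ↥F) := ⟨xF, hxint⟩ with hxB
  have hcoe : ∀ p : (↥𝒢)[X], ((aeval xB p : ↥(integralClosure ↥𝒢 ↥F)) : ↥F) = aeval xF p :=
    fun p => (Subalgebra.aeval_coe _ xB p).symm
  -- every Gauss-integral element is a polynomial in `x`
  have hpoly : ∀ z : ↥F, (z : LaurentSeries L) ∈ gaussInt R L → ∃ p : (↥𝒢)[X], aeval xF p = z := by
    intro z hz
    obtain ⟨d', hd'⟩ := hcoeff z hz
    refine ⟨∑ i, C (d' i) * X ^ (i : ℕ), ?_⟩
    rw [map_sum, hd']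
    apply Finset.sum_congr rfl
    intro i _
    rw [map_mul, aeval_C, map_pow, aeval_X]
  -- the reduction of the relation
  have hρmem : ∀ a : ↥𝒢, ρ a ∈ IntermediateField.adjoin kR {red R sR} := by
    intro a
    have hst' : Transcendental kR (gaussRed R L ⟨emb R L sR, emb_mem_gaussInt R L sR⟩) := by
      rw [gaussRed_emb]; exact hst
    have h1 := gaussRed_mem_adjoin (emb_mem_gaussInt R L sR) hst'
      (baseToSeries_mem_adjoin F sR j₀ hj₀ hK₀ (a : K₀)) ((hmem𝒢 (a : K₀)).mp a.2)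
    rw [gaussRed_emb] at h1
    exact h1
  have hmmap : m.map ρ = X ^ n - ∑ i, C (ρ (d i)) * X ^ (i : ℕ) := by
    rw [hm, Polynomial.map_sub, Polynomial.map_pow, Polynomial.map_X, Polynomial.map_sum]
    congr 1
    apply Finset.sum_congr rfl
    intro i _
    rw [Polynomial.map_mul, Polynomial.map_pow, Polynomial.map_X, Polynomial.map_C]
  have hm0 : eval₂ ι𝒢 xW m = 0 := by
    apply Subtype.ext
    rw [← heval, hmroot]
    rfl
  have hroot' : eval (red R xR) (m.map ρ) = 0 := by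
    rw [← hred, hm0, map_zero]
  have hrel : (red R xR) ^ n = ∑ i, ρ (d i) * (red R xR) ^ (i : ℕ) := by
    rw [hmmap, eval_X_pow_sub_sum, sub_eq_zero] at hroot'
    exact hroot'
  have hsepm : (m.map ρ).Separable := by
    rw [hmmap]
    exact hsep (fun i => ρ (d i)) (fun i => hρmem (d i)) hrel
  have hder : eval (red R xR) ((derivative m).map ρ) ≠ 0 := by
    rw [← Polynomial.derivative_map]
    have h1 : aeval (red R xR) (m.map ρ) = 0 := by
      rw [Polynomial.coe_aeval_eq_eval]; exact hroot'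
    have h2 := hsepm.aeval_derivative_ne_zero h1
    rwa [Polynomial.coe_aeval_eq_eval] at h2
  -- `m'(x)` is a unit of the integral closure
  have hinv : ((eval₂ ι𝒢 xW (derivative m) : gaussInt R L) : LaurentSeries L)⁻¹ ∈ gaussInt R L := by
    apply inv_mem_gaussInt_of_gaussRed_ne_zero
    rw [hred]
    exact hder
  have hinv' : (((aeval xF (derivative m))⁻¹ : ↥F) : LaurentSeries L) ∈ gaussInt R L := by
    rw [IntermediateField.coe_inv, heval]
    exact hinv
  obtain ⟨p', hp'⟩ := hpoly _ hinv'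
  have hne : aeval xF (derivative m) ≠ 0 := by
    intro h0
    have h1 : ((eval₂ ι𝒢 xW (derivative m) : gaussInt R L) : LaurentSeries L) = 0 := by
      rw [← heval, h0]; rfl
    have h2 : eval₂ ι𝒢 xW (derivative m) = 0 := Subtype.ext h1
    apply hder
    rw [← hred, h2, map_zero]
  have hunit : IsUnit (aeval xB (derivative m)) := by
    rw [isUnit_iff_exists_inv]
    refine ⟨aeval xB p', Subtype.ext ?_⟩
    rw [MulMemClass.coe_mul, hcoe, hcoe, hp', OneMemClass.coe_one]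
    exact mul_inv_cancel₀ hne
  -- conclusion
  refine formallyUnramified_of_aeval_surjective xB ?_ m ?_ hunit
  · intro y
    obtain ⟨p, hp⟩ := hpoly (y : ↥F) (hintcl (y : ↥F) y.2)
    exact ⟨p, Subtype.ext (by rw [hcoe, hp])⟩
  · exact Subtype.ext (by rw [hcoe, hmroot]; rfl)

end Unr

section SepAll

variable {κ : Type*} [Field κ] (N : ℕ) [NeZero N]

/-- (SEP) for every monic relation of degree `[SL₂(ℤ) : Γ₀(N)]`, from the mod-`ℓ` data and
(HDEG). -/
theorem ModLData.separable_of_relation (h : ModLData κ N)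
    (hdeg : LinearIndependent κ⟮jqModC κ⟯
      (fun i : Fin (Gamma0 N).index => (jqNModC κ N) ^ (i : ℕ)))
    (c : Fin (Gamma0 N).index → LaurentSeries κ) (hcK : ∀ i, c i ∈ κ⟮jqModC κ⟯)
    (hrel : (jqNModC κ N) ^ (Gamma0 N).index = ∑ i, c i * (jqNModC κ N) ^ (i : ℕ)) :
    (X ^ (Gamma0 N).index - ∑ i, C (c i) * X ^ (i : ℕ) : (LaurentSeries κ)[X]).Separable := by
  obtain ⟨-, c₀, hc₀K, hrel₀, hsep₀⟩ := h
  have hzero : ∑ i : Fin (Gamma0 N).index,
      (⟨c i - c₀ i, sub_mem (hcK i) (hc₀K i)⟩ : κ⟮jqModC κ⟯) • (jqNModC κ N) ^ (i : ℕ) = 0 := by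
    have h1 : ∑ i : Fin (Gamma0 N).index, (c i - c₀ i) * (jqNModC κ N) ^ (i : ℕ) = 0 := by
      simp only [sub_mul, Finset.sum_sub_distrib]
      rw [← hrel, ← hrel₀, sub_self]
    rw [← h1]
    apply Finset.sum_congr rfl
    intro i _
    rfl
  have h2 := (linearIndependent_iff'.mp hdeg) Finset.univ _ hzero
  have hc : c = c₀ := by
    funext i
    have h3 := congrArg Subtype.val (h2 i (Finset.mem_univ i))
    exact sub_eq_zero.mp h3
  rw [hc]
  exact hsep₀

end SepAll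

section UnrModular

variable (R : Type*) [CommRing R] [IsDomain R] [IsDiscreteValuationRing R] [CharZero R]
  (L : Type*) [Field L] [Algebra R L] [IsFractionRing R L]
  [Algebra ℚ L] [Algebra L ℂ] [IsScalarTower ℚ L ℂ] (N : ℕ) [NeZero N]

/-- **(R-b), modular form**: for every model `F` of the function field of `X₀(N)` over `L` and
every abstract copy `K₀` of `L(j)` mapping to `F`, the Gauss place of `K₀` is unramified in `F`. -/
theorem unr_fullC_of_isGaussAt (F : IntermediateField L (LaurentSeries L))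
    (hFeq : F = modularFunctionFieldFullC L N)
    (hdeg : LinearIndependent
      (IntermediateField.adjoin (IsLocalRing.ResidueField R) {jqModC (IsLocalRing.ResidueField R)})
      (fun i : Fin (Gamma0 N).index => (jqNModC (IsLocalRing.ResidueField R) N) ^ (i : ℕ)))
    (hdata : ModLData (IsLocalRing.ResidueField R) N)
    {K₀ : Type*} [Field K₀] [Algebra L K₀] [Algebra R K₀] [IsScalarTower R L K₀]
    [Algebra K₀ ↥F] [IsScalarTower L K₀ ↥F]
    (j₀ : K₀) (hj₀ : ((algebraMap K₀ ↥F j₀ : ↥F) : LaurentSeries L) = jqModC L)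
    (ht : Transcendental L j₀) (hK₀ : IntermediateField.adjoin L {j₀} = ⊤)
    {π : R} (hπ : Irreducible π) (𝒢 : ValuationSubring K₀) (h𝒢 : IsGaussAt R π j₀ 𝒢) :
    Unr 𝒢 ↥F := by
  subst hFeq
  refine unr_field_of_isGaussAt (modularFunctionFieldFullC L N)
    (modularFunctionFieldFullC_le_gaussField R L N) (jqModC R) (jqNModC R N)
    (emb_jqModC_mem_fullC R L N) (emb_jqNModC_mem_fullC R L N) (transcendental_red_jqModC R)
    (Gamma0 N).index (hub_fullC R L N) (hlb_fullC R N hdeg) j₀ ?_ ht hK₀ hπ 𝒢 h𝒢 ?_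
  · rw [hj₀, emb_jqModC]
  · intro c hcK hrel
    rw [red_jqModC] at hcK
    rw [red_jqNModC] at hrel
    exact hdata.separable_of_relation N hdeg c hcK hrel

end UnrModular

section UnrBases

local notation "Ω" => AlgebraicClosure ℚ

variable {ℓ : ℕ} [Fact ℓ.Prime] {A : ValuationSubring (AlgebraicClosure ℚ)}
  (hA : A.LiesOverPrime ℓ) (N : ℕ) [NeZero N]
  {K₁ : IntermediateField ℚ (AlgebraicClosure ℚ)}

include hA in
/-- **(R-b) at a base** `R₁ = A ∩ K₁`, `K^♭ ≤ K₁`: `JLineHyp.gauss` for every model `F` of the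
function field over `K₁` and every abstract copy `K₀` of `K₁(j)`. -/
theorem unr_baseRing_of_isGaussAt (hℓN : ¬ ℓ ∣ N) (h : flatBase ℓ ≤ K₁)
    [IsDiscreteValuationRing ↥(baseRing A K₁)]
    (F : IntermediateField ↥K₁ (LaurentSeries ↥K₁))
    (hFeq : F = laurentBaseChange ↥K₁ (modularFunctionFieldFull N))
    {K₀ : Type*} [Field K₀] [Algebra ↥K₁ K₀] [Algebra ↥(baseRing A K₁) K₀]
    [IsScalarTower ↥(baseRing A K₁) ↥K₁ K₀] [Algebra K₀ ↥F] [IsScalarTower ↥K₁ K₀ ↥F]
    (j₀ : K₀) (hj₀ : ((algebraMap K₀ ↥F j₀ : ↥F) : LaurentSeries ↥K₁) = jqModC ↥K₁)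
    (ht : Transcendental ↥K₁ j₀) (hK₀ : IntermediateField.adjoin ↥K₁ {j₀} = ⊤)
    {π : ↥(baseRing A K₁)} (hπ : Irreducible π) (𝒢 : ValuationSubring K₀)
    (h𝒢 : IsGaussAt ↥(baseRing A K₁) π j₀ 𝒢) : Unr 𝒢 ↥F := by
  letI : Algebra ↥K₁ ℂ :=
    (((IsAlgClosed.lift : Ω →ₐ[ℚ] ℂ) : Ω →+* ℂ).comp (algebraMap ↥K₁ Ω)).toAlgebra
  haveI : IsScalarTower ℚ ↥K₁ ℂ := IsScalarTower.of_algebraMap_eq' (Subsingleton.elim _ _)
  exact unr_fullC_of_isGaussAt ↥(baseRing A K₁) ↥K₁ N F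
    (hFeq.trans (laurentBaseChange_full_eq_fullC ↥K₁ N))
    (hdeg_baseRing hA N hℓN h) (modLData_baseRing hA N hℓN h) j₀ hj₀ ht hK₀ hπ 𝒢 h𝒢

end UnrBases

end

end Fermat.Agent.JA
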