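/-
J-A package H0 (helper7), part 1: dictionary between the Prelude's notions for a finite separable
extension `F'/F` of function fields over `K` (`Place.restrict`, `Place.fiber`,
`Place.ramificationIndex`, `Place.inertiaDeg`) and the prime ideals of the integral closure of a
place (FF/Gal_helper7_*).  Consequence: `SumRamificationInertia K F F'` when all places have
degree one (e.g. `K` algebraically closed).
-/
import Mathlib
import Fermat.Agent.FF.Gal_helper7_Stab
import Fermat.Agent.FF.LocalDer
import Fermat.Prelude.Def_AlgebraicCurve_Correspondence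

set_option autoImplicit false
set_option linter.unusedSectionVars false

open AlgebraicCurve IsDedekindDomain

namespace Fermat.Agent.JA

open Fermat.Agent.FF Fermat.Agent.FF.Gal

variable {K F F' : Type*} [Field K] [Field F] [Field F'] [Algebra K F] [Algebra K F']
  [Algebra F F'] [IsScalarTower K F F']

section Dict

variable [Algebra.IsIntegral F F']

theorem liesOver_restrict_self (w : Place K F') : LiesOver w (w.restrict F) := rfl

theorem liesOver_iff_restrict_eq {w : Place K F'} {v : Place K F} :
    LiesOver w v ↔ w.restrict F = v :=
  ⟨fun h => Place.ext h, fun h => h ▸ liesOver_restrict_self w⟩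

/-- the Prelude's ramification index is the order of a uniformiser. -/
theorem ramificationIndex_eq_ord {w : Place K F'} {v : Place K F} (h : LiesOver w v)
    {ϖ : F} (hϖ : v.ord ϖ = 1) :
    (w.ramificationIndex F : ℤ) = w.ord (algebraMap F F' ϖ) := by
  rw [w.ord_restrict ϖ, liesOver_iff_restrict_eq.mp h, hϖ, mul_one]

variable [FiniteDimensional F F'] [Algebra.IsSeparable F F']

/-- the Prelude's ramification index is the ramification index of the center. -/
theorem ramificationIdx_center_eq {w : Place K F'} {v : Place K F} (h : LiesOver w v) :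
    (center h).ramificationIdx v.toValuationSubring = w.ramificationIndex F := by
  obtain ⟨ϖ, hϖ⟩ := IsDiscreteValuationRing.exists_irreducible v.toValuationSubring
  have h1 := ramificationIdx_center h hϖ
  have h2 := ramificationIndex_eq_ord h (v.ord_coe_irreducible hϖ)
  have h3 : ((center h).ramificationIdx v.toValuationSubring : ℤ) = (w.ramificationIndex F : ℤ) :=
    h1.trans h2.symm
  exact_mod_cast h3

/-- if both places have degree one, the Prelude's inertia degree is one. -/
theorem inertiaDeg_eq_one {w : Place K F'} (hw : w.deg = 1) (hv : (w.restrict F).deg = 1) :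
    w.inertiaDeg F = 1 := by
  have h := w.deg_restrict_mul_inertiaDeg (F := F)
  rw [hw, hv, one_mul] at h
  exact h

/-- if the place above has degree one, the inertia degree of its center is one. -/
theorem inertiaDeg_center_eq_one {w : Place K F'} {v : Place K F} (h : LiesOver w v)
    (hw : w.deg = 1) : (center h).inertiaDeg v.toValuationSubring = 1 := by
  apply inertiaDeg_center h
  intro x hx
  obtain ⟨a, ha⟩ := exists_const_sub_ordGE_one w hw hx
  refine ⟨a, ?_⟩
  rcases ha with ha | ha
  · left; exact sub_eq_zero.mp ha
  · right; omega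

/-- the center of the place attached to a maximal ideal is that ideal. -/
theorem center_placeOf (v : Place K F) (P : HeightOneSpectrum (intCl F' v)) :
    center (liesOver_placeOf v P) = P.asIdeal := by
  have hmax : P.asIdeal.IsMaximal := P.isMaximal
  symm
  apply hmax.eq_of_le (center_isPrime _).ne_top
  intro x hx
  rw [mem_center_iff]
  by_cases hx0 : (x : F') = 0
  · left; exact hx0
  right
  by_contra hcon
  -- then `x` is a unit of the valuation ring of `P`
  have hxmem : (x : F') ∈ (placeOf v P).toValuationSubring :=
    intCl_le (liesOver_placeOf v P) x x.2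
  have h0 : 0 ≤ (placeOf v P).ord (x : F') := (ord_nonneg_iff _ hx0).mpr hxmem
  have h1 : (placeOf v P).ord (x : F') = 0 := by omega
  have hinv : (x : F')⁻¹ ∈ (placeOf v P).toValuationSubring := by
    rw [← ord_nonneg_iff _ (inv_ne_zero hx0), Place.ord_inv, h1, neg_zero]
  rw [placeOf_toValuationSubring, Valuation.mem_valuationSubring_iff, map_inv₀] at hinv
  have hlt : P.valuation F' (algebraMap (intCl F' v) F' x) < 1 :=
    (P.valuation_lt_one_iff_mem x).mpr hx
  have hx' : algebraMap (intCl F' v) F' x = (x : F') := rfl
  rw [hx'] at hlt
  have hne : P.valuation F' (x : F') ≠ 0 := (Valuation.ne_zero_iff _).mpr hx0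
  have h2 : 1 < (P.valuation F' (x : F'))⁻¹ := by
    rw [one_lt_inv₀ (zero_lt_iff.mpr hne)]
    exact hlt
  exact absurd hinv (not_le.mpr h2)

end Dict

section Sum

variable [Algebra.IsIntegral F F'] [FiniteDimensional F F'] [Algebra.IsSeparable F F']
  [HasPrincipalDivisors K F']

open Classical in
/-- the bijection between the places over `v` and the primes of the integral closure over the
maximal ideal of `v`. -/
theorem sum_fiber_eq_sum_primesOver (v : Place K F) (g : Ideal (intCl F' v) → ℤ) :
    ∑ w ∈ v.fiber F', (if h : LiesOver w v then g (center h) else 0)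
      = ∑ q : (IsLocalRing.maximalIdeal v.toValuationSubring).primesOver (intCl F' v), g q.1 := by
  classical
  have hp0 : IsLocalRing.maximalIdeal v.toValuationSubring ≠ ⊥ :=
    IsDiscreteValuationRing.not_a_field _
  refine Finset.sum_bij
    (fun w hw => ⟨center (liesOver_iff_restrict_eq.mpr (Place.mem_fiber.mp hw)),
      center_isPrime _, inferInstance⟩) (fun _ _ => Finset.mem_univ _) ?_ ?_ ?_
  · intro w hw w' hw' heq
    exact eq_of_center_eq _ _ (congrArg Subtype.val heq)
  · rintro ⟨Q, hQ1, hQ2⟩ -
    have hQ0 : Q ≠ ⊥ := Ideal.ne_bot_of_mem_primesOver hp0 ⟨hQ1, hQ2⟩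
    refine ⟨placeOf v ⟨Q, hQ1, hQ0⟩,
      Place.mem_fiber.mpr (liesOver_iff_restrict_eq.mp (liesOver_placeOf v _)), ?_⟩
    apply Subtype.ext
    exact center_placeOf v ⟨Q, hQ1, hQ0⟩
  · intro w hw
    rw [dif_pos (liesOver_iff_restrict_eq.mpr (Place.mem_fiber.mp hw))]

/-- **The fundamental identity** `∑ e f = n` for a finite separable extension of function fields
all of whose places have degree one. -/
theorem sumRamificationInertia_of_deg_eq_one (hdeg : ∀ v : Place K F, v.deg = 1)
    (hdeg' : ∀ w : Place K F', w.deg = 1) : SumRamificationInertia K F F' where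
  sum_ramificationIndex_mul_inertiaDeg v := by
    classical
    have h1 := sum_fiber_eq_sum_primesOver (F' := F') v
      (fun Q => ((Q.ramificationIdx v.toValuationSubring : ℕ) : ℤ) *
        ((Q.inertiaDeg v.toValuationSubring : ℕ) : ℤ))
    have h2 := Ideal.sum_ramification_inertia_eq_finrank
      (IsLocalRing.maximalIdeal v.toValuationSubring) (intCl F' v)
    have h3 : Module.finrank v.toValuationSubring (intCl F' v) = Module.finrank F F' :=
      (IsFractionRing.finrank_eq v.toValuationSubring F (intCl F' v) F').symm
    rw [← h3, ← h2, Nat.cast_sum]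
    simp only [Nat.cast_mul]
    rw [← h1]
    refine Finset.sum_congr rfl fun w hw => ?_
    have hl : LiesOver w v := liesOver_iff_restrict_eq.mpr (Place.mem_fiber.mp hw)
    rw [dif_pos hl, ramificationIdx_center_eq hl, inertiaDeg_center_eq_one hl (hdeg' w),
      inertiaDeg_eq_one (hdeg' w) (hdeg _)]

end Sum

end Fermat.Agent.JA
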