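/-
J-A package ABH+EBC — helper4.
(KUM-loc) `O` a Dedekind domain with fraction field `E`, `E'' = E[y]` with `y ^ m = ε` a unit of
`O` and `m` invertible in `O`: the integral closure of `O` in `E''` is unramified over `O`
(it is the image of the standard étale algebra `O[X]/(X ^ m - ε)`).
-/
import Fermat.Agent.JA.ABH_helper4_Local
import Fermat.Agent.JA.EBC_helper4_Core

set_option autoImplicit false
set_option linter.style.haveILetI false
set_option linter.unusedSectionVars false

open Polynomial

namespace Fermat.Agent.JA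

section KumLocal

variable {O E E'' : Type*} [CommRing O] [IsDedekindDomain O] [Field E] [Algebra O E]
  [IsFractionRing O E] [Field E''] [Algebra E E''] [Algebra O E''] [IsScalarTower O E E'']

/-- **(KUM-loc)** -/
theorem formallyUnramified_integralClosure_of_root (m : ℕ) (hm0 : 0 < m) (hmu : IsUnit (m : O))
    (ε : Oˣ) (y : E'') (hy : y ^ m = algebraMap O E'' ε) (hgen : Algebra.adjoin E {y} = ⊤) :
    Algebra.FormallyUnramified O (integralClosure O E'') := by
  classical
  have hinj : Function.Injective (algebraMap O E'') := by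
    rw [IsScalarTower.algebraMap_eq O E E'']
    exact (algebraMap E E'').injective.comp (IsFractionRing.injective O E)
  set P := kummerPair ε m hm0 hmu with hP
  have hPf : P.f = X ^ m - C (ε : O) := rfl
  have hPg : P.g = 1 := rfl
  have hmap : P.HasMap y := by
    refine ⟨?_, ?_⟩
    · rw [hPf, map_sub, map_pow, aeval_X, aeval_C, hy, sub_self]
    · rw [hPg, map_one]; exact isUnit_one
  let ψ₀ : P.Ring →ₐ[O] E'' := P.lift y hmap
  haveI : Module.Finite O P.Ring := kummerPair_finite ε m hm0 hmu
  haveI : Algebra.IsIntegral O P.Ring := Algebra.IsIntegral.of_finite O P.Ring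
  let ψ : P.Ring →ₐ[O] integralClosure O E'' :=
    ψ₀.codRestrict (integralClosure O E'')
      (fun x => IsIntegral.map ψ₀ (Algebra.IsIntegral.isIntegral x))
  have hψ : ∀ x : P.Ring, algebraMap (integralClosure O E'') E'' (ψ x) = ψ₀ x := fun _ => rfl
  have hψX : ψ₀ P.X = y := P.lift_X y hmap
  refine (range_eq_top_of_unramified (D := O) (A := P.Ring) (E' := E'') ψ (fun x => ?_)).2
  obtain ⟨q₀, r, hr, hx⟩ := exists_aeval_eq_of_adjoin_eq_top (O := O) (E := E) y hgen x
  refine ⟨aeval P.X q₀, algebraMap O P.Ring r, ?_, ?_⟩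
  · rw [hψ, AlgHom.commutes]
    exact (map_ne_zero_iff _ hinj).mpr hr
  · rw [hψ, hψ, AlgHom.commutes, ← Polynomial.aeval_algHom_apply, hψX, ← hx, mul_comm]

end KumLocal

end Fermat.Agent.JA
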