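/-
J-A package ABH+EBC — helper4.
(KUM) Kummer extensions `E'' = E(u)`, `u ^ m = g`, of the fraction field of a Dedekind domain `W`
are unramified over `W` if `m` is invertible in every residue field and `g` is locally a unit
times an `m`-th power. No assumption on the residue fields (étale route: locally the integral
closure is the image of `O[X]/(X ^ m - ε)`; globalised through Kähler differentials).
-/
import Fermat.Agent.JA.KUM_helper4_Local

set_option autoImplicit false
set_option linter.style.haveILetI false
set_option linter.unusedSectionVars false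

open Polynomial

namespace Fermat.Agent.JA

section KumGlobAux

variable {R S A B : Type*} [CommRing R] [CommRing S] [Algebra R S] [CommRing A] [CommRing B]
  [Algebra R A] [Algebra R B] [Algebra A B] [Algebra S B] [IsScalarTower R A B]
  [IsScalarTower R S B]

/-- if the localisation of `A / R` at `p` is unramified, then every Kähler differential of
`A / R` is killed by an element of `p`. -/
theorem exists_smul_kaehler_eq_zero (p : Submonoid R) [IsLocalization p S]
    [IsLocalization (Algebra.algebraMapSubmonoid A p) B] [Algebra.FormallyUnramified S B]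
    (x : Ω[A⁄R]) : ∃ s ∈ p, s • x = 0 := by
  haveI : Subsingleton Ω[B⁄S] := inferInstance
  have h1 : ((KaehlerDifferential.map R S A B).restrictScalars R) x = 0 := Subsingleton.elim _ _
  obtain ⟨s, hs⟩ := (IsLocalizedModule.eq_zero_iff p
    ((KaehlerDifferential.map R S A B).restrictScalars R)).mp h1
  exact ⟨s.1, s.2, hs⟩

omit [CommRing S] [Algebra R S] [CommRing B] [Algebra R B] [Algebra A B] [Algebra S B]
  [IsScalarTower R A B] [IsScalarTower R S B] in
/-- local-global principle (over the base) for unramifiedness. -/
theorem formallyUnramified_of_forall_exists_smul_eq_zero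
    (h : ∀ Q : Ideal R, Q.IsMaximal → ∀ x : Ω[A⁄R], ∃ s : R, s ∉ Q ∧ s • x = 0) :
    Algebra.FormallyUnramified R A := by
  constructor
  rw [subsingleton_iff_forall_eq 0]
  intro x
  by_contra hx
  let I : Ideal R := { carrier := {r | r • x = 0}
                       zero_mem' := zero_smul R x
                       add_mem' := fun {a b} ha hb => by
                         show (a + b) • x = 0
                         rw [add_smul, ha, hb, add_zero]
                       smul_mem' := fun c a ha => by
                         show (c • a) • x = 0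
                         rw [smul_assoc, ha, smul_zero] }
  have hI : I ≠ ⊤ := by
    intro h1
    have h2 : (1 : R) ∈ I := by rw [h1]; trivial
    have h3 : (1 : R) • x = 0 := h2
    rw [one_smul] at h3
    exact hx h3
  obtain ⟨Q, hQ, hIQ⟩ := Ideal.exists_le_maximal I hI
  obtain ⟨s, hsQ, hs⟩ := h Q hQ x
  exact hsQ (hIQ hs)

end KumGlobAux

section KumGlob

variable {W E E'' : Type*} [CommRing W] [IsDedekindDomain W] [Field E] [Algebra W E]
  [IsFractionRing W E] [Field E''] [Algebra E E''] [Algebra W E''] [IsScalarTower W E E'']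

/-- the local step of (KUM): every Kähler differential of `integralClosure W E''` over `W` is
killed by an element outside `Q`. -/
theorem kum_exists_smul_eq_zero (m : ℕ) (g : E) (u : E'') (hu : u ^ m = algebraMap E E'' g)
    (hgen : Algebra.adjoin E {u} = ⊤) (Q : Ideal W) (hQ : Q.IsMaximal) (hmQ : (m : W) ∉ Q)
    (c : E) (a b : W) (ha : a ∉ Q) (hb : b ∉ Q) (hc : c ≠ 0)
    (hg : g * algebraMap W E b = algebraMap W E a * c ^ m)
    (x : Ω[integralClosure W E''⁄W]) : ∃ s : W, s ∉ Q ∧ s • x = 0 := by
  classical
  haveI := hQ
  haveI hQp : Q.IsPrime := hQ.isPrime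
  have hle : Q.primeCompl ≤ nonZeroDivisors W := Q.primeCompl_le_nonZeroDivisors
  let O : Subalgebra W E := Localization.subalgebra E Q.primeCompl hle
  haveI hOloc : IsLocalization.AtPrime O Q :=
    Localization.subalgebra.isLocalization_subalgebra E Q.primeCompl hle
  haveI : IsDedekindDomain O := IsLocalization.isDedekindDomain W hle O
  have hinjWE : Function.Injective (algebraMap W E) := IsFractionRing.injective W E
  have hm0 : 0 < m := by
    rcases Nat.eq_zero_or_pos m with h | h
    · exfalso
      rw [h, Nat.cast_zero] at hmQ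
      exact hmQ Q.zero_mem
    · exact h
  have hmu : IsUnit ((m : ℕ) : O) := by
    have h1 : IsUnit (algebraMap W O ((m : ℕ) : W)) :=
      IsLocalization.map_units O (⟨(m : W), hmQ⟩ : Q.primeCompl)
    rwa [map_natCast] at h1
  -- the unit `ε = a / b`
  have hau : IsUnit (algebraMap W O a) := IsLocalization.map_units O (⟨a, ha⟩ : Q.primeCompl)
  have hbu : IsUnit (algebraMap W O b) := IsLocalization.map_units O (⟨b, hb⟩ : Q.primeCompl)
  let ε : Oˣ := hau.unit * hbu.unit⁻¹
  have ha0 : algebraMap W E a ≠ 0 := (map_ne_zero_iff _ hinjWE).mpr (fun h => ha (h ▸ Q.zero_mem))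
  have hb0 : algebraMap W E b ≠ 0 := (map_ne_zero_iff _ hinjWE).mpr (fun h => hb (h ▸ Q.zero_mem))
  have hεE : algebraMap O E (ε : O) = algebraMap W E a / algebraMap W E b := by
    have h1 : (ε : O) * algebraMap W O b = algebraMap W O a := by
      show ((hau.unit * hbu.unit⁻¹ : Oˣ) : O) * algebraMap W O b = algebraMap W O a
      rw [Units.val_mul, mul_assoc]
      have : ((hbu.unit⁻¹ : Oˣ) : O) * algebraMap W O b = 1 := by
        have h2 := hbu.unit.inv_mul
        rwa [IsUnit.unit_spec] at h2
      rw [this, mul_one, IsUnit.unit_spec]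
    have h2 := congrArg (algebraMap O E) h1
    rw [map_mul, ← IsScalarTower.algebraMap_apply W O E, ← IsScalarTower.algebraMap_apply W O E]
      at h2
    rw [eq_div_iff hb0, h2]
  have hcE'' : algebraMap E E'' c ≠ 0 := (map_ne_zero_iff _ (algebraMap E E'').injective).mpr hc
  let y : E'' := u / algebraMap E E'' c
  have hy : y ^ m = algebraMap O E'' ε := by
    rw [IsScalarTower.algebraMap_apply O E E'', hεE]
    show (u / algebraMap E E'' c) ^ m = _
    rw [div_pow, hu, ← map_pow, ← map_div₀]
    congr 1
    rw [div_eq_div_iff (pow_ne_zero m hc) hb0, hg]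
  have hgeny : Algebra.adjoin E {y} = ⊤ := by
    rw [eq_top_iff, ← hgen]
    apply Algebra.adjoin_le
    rw [Set.singleton_subset_iff]
    have h1 : u = algebraMap E E'' c * y := by
      show u = algebraMap E E'' c * (u / algebraMap E E'' c)
      rw [mul_div_cancel₀ _ hcE'']
    rw [h1]
    exact Subalgebra.mul_mem _ (Subalgebra.algebraMap_mem _ c)
      (Algebra.subset_adjoin (Set.mem_singleton y))
  haveI hfu : Algebra.FormallyUnramified O (integralClosure O E'') :=
    formallyUnramified_integralClosure_of_root (E := E) m hm0 hmu ε y hy hgeny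
  -- the map `W'' → W_loc`
  let ι : ↥(integralClosure W E'') →+* ↥(integralClosure O E'') :=
    (algebraMap ↥(integralClosure W E'') E'').codRestrict (integralClosure O E'').toSubring
      (fun x => IsIntegral.tower_top (A := O) x.2)
  letI algWW : Algebra ↥(integralClosure W E'') ↥(integralClosure O E'') := ι.toAlgebra
  haveI towWWE : IsScalarTower ↥(integralClosure W E'') ↥(integralClosure O E'') E'' :=
    IsScalarTower.of_algebraMap_eq (fun _ => rfl)
  haveI towW : IsScalarTower W ↥(integralClosure W E'') ↥(integralClosure O E'') := by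
    refine IsScalarTower.of_algebraMap_eq (fun a => ?_)
    apply Subtype.ext
    rfl
  haveI locE : IsLocalization (Algebra.algebraMapSubmonoid E'' Q.primeCompl) E'' := by
    apply IsLocalization.of_le_isUnit
    rintro _ ⟨s, hs, rfl⟩
    apply IsUnit.mk0
    rw [IsScalarTower.algebraMap_apply W E E'', Ne, map_eq_zero, map_eq_zero_iff _ hinjWE]
    rintro rfl
    exact hs Q.zero_mem
  haveI locW : IsLocalization (Algebra.algebraMapSubmonoid ↥(integralClosure W E'') Q.primeCompl)
      ↥(integralClosure O E'') :=
    IsLocalization.integralClosure (R := W) (S := E'') (Rf := O) (Sf := E'') Q.primeCompl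
  obtain ⟨s, hs, hsx⟩ := exists_smul_kaehler_eq_zero (R := W) (S := O)
    (A := ↥(integralClosure W E'')) (B := ↥(integralClosure O E'')) Q.primeCompl x
  exact ⟨s, hs, hsx⟩


/-- **(KUM)** for the concrete integral closure. -/
theorem kum_integralClosure (m : ℕ) (hm : ∀ Q : Ideal W, Q.IsMaximal → (m : W) ∉ Q) (g : E)
    (hloc : ∀ Q : Ideal W, Q.IsMaximal → ∃ (c : E) (a b : W), a ∉ Q ∧ b ∉ Q ∧ c ≠ 0 ∧
      g * algebraMap W E b = algebraMap W E a * c ^ m)
    (u : E'') (hu : u ^ m = algebraMap E E'' g) (hgen : Algebra.adjoin E {u} = ⊤) :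
    Algebra.FormallyUnramified W ↥(integralClosure W E'') :=
  formallyUnramified_of_forall_exists_smul_eq_zero (fun Q hQ x => by
    obtain ⟨c, a, b, ha, hb, hc, hg⟩ := hloc Q hQ
    exact kum_exists_smul_eq_zero m g u hu hgen Q hQ (hm Q hQ) c a b ha hb hc hg x)

/-- **(KUM)** Kummer extensions with locally `m`-divisible divisor are unramified. -/
theorem kum {W'' : Type*} [CommRing W''] [Algebra W W''] [Algebra W'' E''] [IsScalarTower W W'' E'']
    [IsIntegralClosure W'' W E''] (m : ℕ) (hm : ∀ Q : Ideal W, Q.IsMaximal → (m : W) ∉ Q) (g : E)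
    (hloc : ∀ Q : Ideal W, Q.IsMaximal → ∃ (c : E) (a b : W), a ∉ Q ∧ b ∉ Q ∧ c ≠ 0 ∧
      g * algebraMap W E b = algebraMap W E a * c ^ m)
    (u : E'') (hu : u ^ m = algebraMap E E'' g) (hgen : Algebra.adjoin E {u} = ⊤) :
    Algebra.FormallyUnramified W W'' := by
  haveI := kum_integralClosure m hm g hloc u hu hgen
  exact Algebra.FormallyUnramified.of_equiv
    (IsIntegralClosure.equiv W ↥(integralClosure W E'') E'' W'')

end KumGlob

end Fermat.Agent.JA
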