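/-
J-A package ABH+EBC — helper4.
(KUM-tower) transfer of `Unr` / `TameAt` / `JLineHyp` along a Kummer extension `F'' = F'[u]`,
`u ^ m = g`, with `g` locally a unit times an `m`-th power (`m` invertible): `F'' / F'` is
unramified (KUM), hence `Unr` is preserved (composition) and all ramification indices are
unchanged (tower law).
-/
import Fermat.Agent.JA.KUM_helper4_Main
import Fermat.Agent.JA.GM_helper1_Main

set_option autoImplicit false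
set_option linter.style.haveILetI false
set_option linter.unusedSectionVars false

open Polynomial

namespace Fermat.Agent.JA

section KumTower

variable {K₀ F' F'' : Type*} [Field K₀] [CharZero K₀] [Field F'] [Algebra K₀ F']
  [FiniteDimensional K₀ F'] [Field F''] [Algebra F' F''] [Algebra K₀ F'']
  [IsScalarTower K₀ F' F'']

/-- **(KUM-tower)** `Unr` and `TameAt` pass from `F'` to the Kummer extension `F'' = F'[u]`. -/
theorem kummer_unr_tameAt (𝒱₀ : ValuationSubring K₀) [IsDiscreteValuationRing ↥𝒱₀]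
    (m : ℕ) (hm : IsUnit ((m : ℕ) : ↥𝒱₀)) (g : F') (u : F'')
    (hu : u ^ m = algebraMap F' F'' g) (hgen : Algebra.adjoin F' {u} = ⊤)
    (hloc : ∀ Q : Ideal ↥(integralClosure ↥𝒱₀ F'), Q.IsMaximal →
      ∃ (c : F') (a b : ↥(integralClosure ↥𝒱₀ F')), a ∉ Q ∧ b ∉ Q ∧ c ≠ 0 ∧
        g * algebraMap ↥(integralClosure ↥𝒱₀ F') F' b =
          algebraMap ↥(integralClosure ↥𝒱₀ F') F' a * c ^ m) :
    (Unr 𝒱₀ F' → Unr 𝒱₀ F'') ∧ ∀ n : ℕ, TameAt 𝒱₀ F' n → TameAt 𝒱₀ F'' n := by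
  classical
  haveI : Algebra.IsSeparable K₀ F' := inferInstance
  haveI : IsDedekindDomain ↥(integralClosure ↥𝒱₀ F') :=
    IsIntegralClosure.isDedekindDomain ↥𝒱₀ K₀ F' _
  haveI : IsFractionRing ↥(integralClosure ↥𝒱₀ F') F' :=
    IsIntegralClosure.isFractionRing_of_finite_extension ↥𝒱₀ K₀ F' _
  haveI : Algebra.IsIntegral ↥𝒱₀ ↥(integralClosure ↥𝒱₀ F') :=
    IsIntegralClosure.isIntegral_algebra ↥𝒱₀ F'
  -- the map `W → W''`
  let ι : ↥(integralClosure ↥𝒱₀ F') →+* ↥(integralClosure ↥𝒱₀ F'') :=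
    ((algebraMap F' F'').comp (algebraMap ↥(integralClosure ↥𝒱₀ F') F')).codRestrict
      (integralClosure ↥𝒱₀ F'').toSubring
      (fun x => by
        have h1 : IsIntegral ↥𝒱₀ (x : F') := x.2
        exact h1.map (IsScalarTower.toAlgHom ↥𝒱₀ F' F''))
  letI algWW : Algebra ↥(integralClosure ↥𝒱₀ F') ↥(integralClosure ↥𝒱₀ F'') := ι.toAlgebra
  haveI towWWF : IsScalarTower ↥(integralClosure ↥𝒱₀ F') ↥(integralClosure ↥𝒱₀ F'') F'' :=
    IsScalarTower.of_algebraMap_eq (fun _ => rfl)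
  haveI towVWW : IsScalarTower ↥𝒱₀ ↥(integralClosure ↥𝒱₀ F') ↥(integralClosure ↥𝒱₀ F'') := by
    refine IsScalarTower.of_algebraMap_eq (fun a => ?_)
    apply Subtype.ext
    show algebraMap ↥𝒱₀ F'' a = algebraMap F' F'' (algebraMap ↥𝒱₀ F' a)
    rw [IsScalarTower.algebraMap_apply ↥𝒱₀ K₀ F'', IsScalarTower.algebraMap_apply K₀ F' F'',
      ← IsScalarTower.algebraMap_apply ↥𝒱₀ K₀ F']
  haveI : IsIntegralClosure ↥(integralClosure ↥𝒱₀ F'') ↥(integralClosure ↥𝒱₀ F') F'' :=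
    IsIntegralClosure.tower_top (R := ↥𝒱₀)
  -- `m` is invertible
  have hmW : ∀ Q : Ideal ↥(integralClosure ↥𝒱₀ F'), Q.IsMaximal →
      ((m : ℕ) : ↥(integralClosure ↥𝒱₀ F')) ∉ Q := by
    intro Q hQ hmem
    have h1 : IsUnit ((m : ℕ) : ↥(integralClosure ↥𝒱₀ F')) := by
      have h2 := hm.map (algebraMap ↥𝒱₀ ↥(integralClosure ↥𝒱₀ F'))
      rwa [map_natCast] at h2
    exact hQ.ne_top (Ideal.eq_top_of_isUnit_mem _ hmem h1)
  haveI hfu : Algebra.FormallyUnramified ↥(integralClosure ↥𝒱₀ F') ↥(integralClosure ↥𝒱₀ F'') :=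
    kum (E := F') (E'' := F'') m hmW g hloc u hu hgen
  refine ⟨fun h => ?_, fun n h => ?_⟩
  · haveI : Algebra.FormallyUnramified ↥𝒱₀ ↥(integralClosure ↥𝒱₀ F') := h
    exact Algebra.FormallyUnramified.comp ↥𝒱₀ ↥(integralClosure ↥𝒱₀ F')
      ↥(integralClosure ↥𝒱₀ F'')
  · -- finiteness of `W''` over `W`
    have hm0 : 0 < m := by
      rcases Nat.eq_zero_or_pos m with h0 | h0
      · exfalso
        rw [h0, Nat.cast_zero] at hm
        exact not_isUnit_zero hm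
      · exact h0
    have huint : IsIntegral F' u := by
      refine ⟨X ^ m - C g, monic_X_pow_sub_C _ hm0.ne', ?_⟩
      rw [eval₂_sub, eval₂_X_pow, eval₂_C, hu, sub_self]
    haveI : FiniteDimensional F' F'' := by
      have h1 := huint.fg_adjoin_singleton
      rw [hgen] at h1
      exact ⟨by simpa using h1⟩
    haveI : CharZero F' := charZero_of_injective_algebraMap (algebraMap K₀ F').injective
    haveI : Algebra.IsSeparable F' F'' := inferInstance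
    haveI : Module.Finite ↥(integralClosure ↥𝒱₀ F') ↥(integralClosure ↥𝒱₀ F'') :=
      IsIntegralClosure.finite ↥(integralClosure ↥𝒱₀ F') F' F'' _
    haveI : Algebra.IsIntegral ↥(integralClosure ↥𝒱₀ F') ↥(integralClosure ↥𝒱₀ F'') :=
      Algebra.IsIntegral.of_finite _ _
    have hinjWW : Function.Injective
        (algebraMap ↥(integralClosure ↥𝒱₀ F') ↥(integralClosure ↥𝒱₀ F'')) := by
      intro a b hab
      apply Subtype.ext
      apply (algebraMap F' F'').injective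
      exact congrArg (fun z : ↥(integralClosure ↥𝒱₀ F'') => (z : F'')) hab
    haveI : IsDomain ↥(integralClosure ↥𝒱₀ F'') := inferInstance
    haveI : Module.Flat ↥(integralClosure ↥𝒱₀ F') ↥(integralClosure ↥𝒱₀ F'') :=
      flat_of_injective_of_isDedekindDomain hinjWW
    intro Q'' hQ''
    haveI := hQ''
    haveI hQ''p : Q''.IsPrime := hQ''.isPrime
    let Q : Ideal ↥(integralClosure ↥𝒱₀ F') := Q''.under ↥(integralClosure ↥𝒱₀ F')
    haveI : Q''.LiesOver Q := ⟨rfl⟩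
    haveI hQmax : Q.IsMaximal := Ideal.isMaximal_comap_of_isIntegral_of_isMaximal Q''
    have h1 := Ideal.ramificationIdx_tower (R := ↥𝒱₀) Q Q''
    haveI : Algebra.FormallyUnramified ↥(integralClosure ↥𝒱₀ F'') (Localization.AtPrime Q'') :=
      .of_isLocalization Q''.primeCompl
    haveI : Algebra.IsUnramifiedAt ↥(integralClosure ↥𝒱₀ F') Q'' :=
      Algebra.FormallyUnramified.comp ↥(integralClosure ↥𝒱₀ F') ↥(integralClosure ↥𝒱₀ F'')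
        (Localization.AtPrime Q'')
    have h2 : Q''.ramificationIdx ↥(integralClosure ↥𝒱₀ F') = 1 :=
      Ideal.ramificationIdx_eq_one Q'' _
    rw [h2, mul_one] at h1
    rw [h1]
    exact h Q hQmax

end KumTower

section KumJLine

variable {R : Type*} [CommRing R] [IsDomain R] [IsDiscreteValuationRing R] [CharZero R]
  {K₁ : Type*} [Field K₁] [Algebra R K₁] [IsFractionRing R K₁]
  {K₀ : Type*} [Field K₀] [Algebra K₁ K₀] [Algebra R K₀] [IsScalarTower R K₁ K₀]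
  {F' F'' : Type*} [Field F'] [Algebra K₀ F'] [FiniteDimensional K₀ F'] [Field F'']
  [Algebra F' F''] [Algebra K₀ F''] [IsScalarTower K₀ F' F'']

/-- **(KUM-JLine)** the `j`-line hypotheses pass to Kummer extensions with locally `m`-divisible
divisor. -/
theorem jLineHyp_kummer (π : R) (j : K₀) (N : ℕ) (m : ℕ) (hmR : IsUnit ((m : ℕ) : R))
    (g : F') (u : F'') (hu : u ^ m = algebraMap F' F'' g) (hgen : Algebra.adjoin F' {u} = ⊤)
    (hdvr : ∀ 𝒱₀ : ValuationSubring K₀, 𝒱₀ ≠ ⊤ → (∀ a : K₁, algebraMap K₁ K₀ a ∈ 𝒱₀) →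
      IsDiscreteValuationRing ↥𝒱₀)
    (hdvrG : ∀ 𝒢 : ValuationSubring K₀, IsGaussAt R π j 𝒢 → IsDiscreteValuationRing ↥𝒢)
    (hloc : ∀ 𝒱₀ : ValuationSubring K₀, 𝒱₀ ≠ ⊤ → (∀ a : K₁, algebraMap K₁ K₀ a ∈ 𝒱₀) →
      ∀ Q : Ideal ↥(integralClosure ↥𝒱₀ F'), Q.IsMaximal →
      ∃ (c : F') (a b : ↥(integralClosure ↥𝒱₀ F')), a ∉ Q ∧ b ∉ Q ∧ c ≠ 0 ∧
        g * algebraMap ↥(integralClosure ↥𝒱₀ F') F' b =
          algebraMap ↥(integralClosure ↥𝒱₀ F') F' a * c ^ m)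
    (hlocG : ∀ 𝒢 : ValuationSubring K₀, IsGaussAt R π j 𝒢 →
      ∀ Q : Ideal ↥(integralClosure ↥𝒢 F'), Q.IsMaximal →
      ∃ (c : F') (a b : ↥(integralClosure ↥𝒢 F')), a ∉ Q ∧ b ∉ Q ∧ c ≠ 0 ∧
        g * algebraMap ↥(integralClosure ↥𝒢 F') F' b =
          algebraMap ↥(integralClosure ↥𝒢 F') F' a * c ^ m)
    (hJ : JLineHyp (K₁ := K₁) π j F' N) : JLineHyp (K₁ := K₁) π j F'' N := by
  classical
  haveI : CharZero K₁ := charZero_of_injective_algebraMap (IsFractionRing.injective R K₁)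
  haveI : CharZero K₀ := charZero_of_injective_algebraMap (algebraMap K₁ K₀).injective
  have hm0 : m ≠ 0 := by
    rintro rfl
    rw [Nat.cast_zero] at hmR
    exact not_isUnit_zero hmR
  -- `m` is a unit at every `K₁`-place
  have hmK : ∀ 𝒱₀ : ValuationSubring K₀, (∀ a : K₁, algebraMap K₁ K₀ a ∈ 𝒱₀) →
      IsUnit ((m : ℕ) : ↥𝒱₀) := by
    intro 𝒱₀ h𝒱₀
    have hmK₁ : ((m : ℕ) : K₁) ≠ 0 := Nat.cast_ne_zero.mpr hm0
    have h1 : algebraMap K₁ K₀ ((m : ℕ) : K₁) ∈ 𝒱₀ := h𝒱₀ _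
    have h2 : algebraMap K₁ K₀ (((m : ℕ) : K₁)⁻¹) ∈ 𝒱₀ := h𝒱₀ _
    refine IsUnit.of_mul_eq_one (⟨algebraMap K₁ K₀ (((m : ℕ) : K₁)⁻¹), h2⟩ : ↥𝒱₀) ?_
    apply Subtype.ext
    show (((m : ℕ) : ↥𝒱₀) : K₀) * algebraMap K₁ K₀ (((m : ℕ) : K₁)⁻¹) = 1
    rw [show (((m : ℕ) : ↥𝒱₀) : K₀) = ((m : ℕ) : K₀) from by push_cast; rfl,
      ← map_natCast (algebraMap K₁ K₀), ← map_mul, mul_inv_cancel₀ hmK₁, map_one]
  -- `m` is a unit at the Gauss place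
  have hmG : ∀ 𝒢 : ValuationSubring K₀, IsGaussAt R π j 𝒢 → IsUnit ((m : ℕ) : ↥𝒢) := by
    intro 𝒢 h𝒢
    obtain ⟨r, hr⟩ := hmR.exists_right_inv
    have hmem : ∀ x : R, algebraMap R K₀ x ∈ 𝒢 := fun x => by
      have := h𝒢.1 (C x)
      rwa [aeval_C] at this
    refine IsUnit.of_mul_eq_one (⟨algebraMap R K₀ r, hmem r⟩ : ↥𝒢) ?_
    apply Subtype.ext
    show (((m : ℕ) : ↥𝒢) : K₀) * algebraMap R K₀ r = 1
    rw [show (((m : ℕ) : ↥𝒢) : K₀) = ((m : ℕ) : K₀) from by push_cast; rfl,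
      ← map_natCast (algebraMap R K₀), ← map_mul, hr, map_one]
  refine ⟨?_, ?_, ?_, ?_, ?_⟩
  · intro 𝒱₀ hne h𝒱₀ h1 h2 h3
    haveI := hdvr 𝒱₀ hne h𝒱₀
    exact (kummer_unr_tameAt 𝒱₀ m (hmK 𝒱₀ h𝒱₀) g u hu hgen (hloc 𝒱₀ hne h𝒱₀)).1
      (hJ.generic 𝒱₀ hne h𝒱₀ h1 h2 h3)
  · intro 𝒱₀ hne h𝒱₀ h1 h2
    haveI := hdvr 𝒱₀ hne h𝒱₀
    exact (kummer_unr_tameAt 𝒱₀ m (hmK 𝒱₀ h𝒱₀) g u hu hgen (hloc 𝒱₀ hne h𝒱₀)).2 3
      (hJ.zero 𝒱₀ hne h𝒱₀ h1 h2)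
  · intro 𝒱₀ hne h𝒱₀ h1 h2
    haveI := hdvr 𝒱₀ hne h𝒱₀
    exact (kummer_unr_tameAt 𝒱₀ m (hmK 𝒱₀ h𝒱₀) g u hu hgen (hloc 𝒱₀ hne h𝒱₀)).2 2
      (hJ.e1728 𝒱₀ hne h𝒱₀ h1 h2)
  · intro 𝒱₀ hne h𝒱₀ h1
    haveI := hdvr 𝒱₀ hne h𝒱₀
    exact (kummer_unr_tameAt 𝒱₀ m (hmK 𝒱₀ h𝒱₀) g u hu hgen (hloc 𝒱₀ hne h𝒱₀)).2 N
      (hJ.infty 𝒱₀ hne h𝒱₀ h1)
  · intro 𝒢 h𝒢
    haveI := hdvrG 𝒢 h𝒢
    exact (kummer_unr_tameAt 𝒢 m (hmG 𝒢 h𝒢) g u hu hgen (hlocG 𝒢 h𝒢)).1 (hJ.gauss 𝒢 h𝒢)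

end KumJLine

end Fermat.Agent.JA
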