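/-
J-A package DICT — helper4.
Dictionary between the `Place K₁ F'` / `Place.ord` language and the Dedekind language
(maximal ideals `Q` of `integralClosure ↥𝒱₀ F'`, `Ideal.ramificationIdx`, the local condition
`hloc` of (KUM)) for a DVR `𝒱₀ ⊂ K₀` containing the constants `K₁`, `F' / K₀` finite separable.
-/
import Fermat.Agent.JA.KUM_helper4_Tower
import Fermat.Agent.JA.H0_helper7_Dict
import Fermat.Agent.FF.Dedekind

set_option autoImplicit false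
set_option linter.style.haveILetI false
set_option linter.unusedSectionVars false

open AlgebraicCurve IsDedekindDomain

namespace Fermat.Agent.JA

section Pure

variable {W E : Type*} [CommRing W] [IsDedekindDomain W] [Field E] [Algebra W E]
  [IsFractionRing W E]

/-- if the `v`-adic order of `g` is divisible by `m`, then locally at `v` the element `g` is a
unit times an `m`-th power (the condition `hloc` of (KUM)). -/
theorem exists_hloc_of_dvd_log (v : HeightOneSpectrum W) (m : ℕ) (g : E) (hg : g ≠ 0)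
    (h : (m : ℤ) ∣ WithZero.log (v.valuation E g)) :
    ∃ (c : E) (a b : W), a ∉ v.asIdeal ∧ b ∉ v.asIdeal ∧ c ≠ 0 ∧
      g * algebraMap W E b = algebraMap W E a * c ^ m := by
  classical
  obtain ⟨k, hk⟩ := h
  obtain ⟨τ, hτ⟩ := v.valuation_exists_uniformizer E
  have hτ0 : τ ≠ 0 := by
    intro h0
    rw [h0, map_zero] at hτ
    exact WithZero.exp_ne_zero hτ.symm
  have hvg0 : v.valuation E g ≠ 0 := (Valuation.ne_zero_iff _).mpr hg
  set c : E := τ ^ (-k) with hc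
  have hc0 : c ≠ 0 := zpow_ne_zero _ hτ0
  have hvc : v.valuation E (c ^ m) = v.valuation E g := by
    rw [hc, map_pow, map_zpow₀, hτ, ← WithZero.exp_zsmul, ← WithZero.exp_nsmul,
      ← WithZero.exp_log hvg0, hk]
    congr 1
    simp only [smul_eq_mul, nsmul_eq_mul]
    ring
  have hx : v.valuation E (g / c ^ m) = 1 := by
    rw [map_div₀, hvc, div_self hvg0]
  obtain ⟨n, d, hnd⟩ := v.exists_primeCompl_mul_eq_of_integer (g / c ^ m) hx.le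
  have hd1 : v.valuation E (algebraMap W E d) = 1 :=
    (v.valuation_eq_one_iff_notMem (K := E)).mpr d.2
  have hn1 : v.valuation E (algebraMap W E n) = 1 := by
    rw [← hnd, map_mul, hx, hd1, one_mul]
  refine ⟨c, n, d, (v.valuation_eq_one_iff_notMem (K := E)).mp hn1, d.2, hc0, ?_⟩
  rw [← hnd]
  field_simp

end Pure

section Dict

open Fermat.Agent.FF Fermat.Agent.FF.Gal

variable {K₁ K₀ F' : Type*} [Field K₁] [Field K₀] [Field F'] [Algebra K₁ K₀] [Algebra K₁ F']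
  [Algebra K₀ F'] [IsScalarTower K₁ K₀ F'] [FiniteDimensional K₀ F'] [Algebra.IsSeparable K₀ F']

/-- the place of `K₀ / K₁` given by a discrete valuation subring containing the constants. -/
def placeOfDvr (𝒱₀ : ValuationSubring K₀) [IsDiscreteValuationRing ↥𝒱₀]
    (h𝒱₀ : ∀ a : K₁, algebraMap K₁ K₀ a ∈ 𝒱₀) : Place K₁ K₀ :=
  ⟨𝒱₀, h𝒱₀, dvr_ne_top 𝒱₀, inferInstance⟩

/-- a maximal ideal of the integral closure of a place is nonzero. -/
theorem ne_bot_of_isMaximal_intCl (v : Place K₁ K₀) (Q : Ideal (intCl F' v)) (hQ : Q.IsMaximal) :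
    Q ≠ ⊥ := by
  have hnf : ¬ IsField (intCl F' v) := by
    intro hf
    have hinj : Function.Injective (algebraMap v.toValuationSubring (intCl F' v)) :=
      FaithfulSMul.algebraMap_injective _ _
    exact IsDiscreteValuationRing.not_isField v.toValuationSubring
      (isField_of_isIntegral_of_isField hinj hf)
  exact Ring.ne_bot_of_isMaximal_of_not_isField hQ hnf

/-- **(DICT, place form)** every maximal ideal `Q` of the integral closure of the place `v` is the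
center of a place `P` of `F' / K₁` over `v`; `P.ord` is the `Q`-adic order and
`e(Q / v) = ord_P (uniformiser of v)`. -/
theorem exists_place_of_isMaximal_intCl (v : Place K₁ K₀) (Q : Ideal (intCl F' v))
    (hQ : Q.IsMaximal) :
    ∃ (P : Place K₁ F') (h : LiesOver P v) (Qs : HeightOneSpectrum (intCl F' v)),
      Qs.asIdeal = Q ∧ center h = Q ∧
      (∀ f : F', f ≠ 0 → P.ord f = -WithZero.log (Qs.valuation F' f)) ∧
      ∀ ϖ : v.toValuationSubring, Irreducible ϖ →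
        (Q.ramificationIdx v.toValuationSubring : ℤ) = P.ord (algebraMap K₀ F' (ϖ : K₀)) := by
  have hQ0 := ne_bot_of_isMaximal_intCl v Q hQ
  let Qs : HeightOneSpectrum (intCl F' v) := ⟨Q, hQ.isPrime, hQ0⟩
  have hc : center (liesOver_placeOf v Qs) = Q := center_placeOf v Qs
  refine ⟨placeOf v Qs, liesOver_placeOf v Qs, Qs, rfl, hc, ?_, ?_⟩
  · intro f hf
    exact Fermat.Agent.FF.ord_placeOf (k := K₁) Qs hf
  · intro ϖ hϖ
    rw [← ramificationIdx_center (liesOver_placeOf v Qs) hϖ, hc]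

/-- **(DICT, D-a)** for a discrete valuation subring `𝒱₀ ⊂ K₀` containing the constants `K₁`:
every maximal ideal `Q` of `integralClosure ↥𝒱₀ F'` is the center of a place `P` of `F' / K₁`
lying over `𝒱₀`, and `e(Q / 𝒱₀) = ord_P ϖ` for every uniformiser `ϖ` of `𝒱₀`. -/
theorem exists_place_of_isMaximal (𝒱₀ : ValuationSubring K₀) [IsDiscreteValuationRing ↥𝒱₀]
    (h𝒱₀ : ∀ a : K₁, algebraMap K₁ K₀ a ∈ 𝒱₀)
    (Q : Ideal ↥(integralClosure ↥𝒱₀ F')) (hQ : Q.IsMaximal) :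
    ∃ P : Place K₁ F',
      P.toValuationSubring.comap (algebraMap K₀ F') = 𝒱₀ ∧
      (∀ x : K₀, x ∈ 𝒱₀ → 0 ≤ P.ord (algebraMap K₀ F' x)) ∧
      (∀ x : ↥(integralClosure ↥𝒱₀ F'), x ∈ Q ↔ (x : F') = 0 ∨ 0 < P.ord (x : F')) ∧
      ∀ ϖ : ↥𝒱₀, Irreducible ϖ →
        (Q.ramificationIdx ↥𝒱₀ : ℤ) = P.ord (algebraMap K₀ F' (ϖ : K₀)) := by
  obtain ⟨P, h, Qs, hQs, hc, -, hram⟩ :=
    exists_place_of_isMaximal_intCl (F' := F') (placeOfDvr 𝒱₀ h𝒱₀) Q hQ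
  refine ⟨P, h, ?_, ?_, hram⟩
  · intro x hx
    by_cases hx0 : x = 0
    · rw [hx0, map_zero, Place.ord_zero]
    · have hx1 : algebraMap K₀ F' x ≠ 0 := (map_ne_zero _).mpr hx0
      rw [ord_nonneg_iff P hx1]
      exact (h.mem_iff x).mpr hx
  · intro x
    rw [← hc]
    exact mem_center_iff h x

omit [Algebra K₁ K₀] [Field K₁] [Field F'] [Algebra K₁ F'] [Algebra K₀ F'] [IsScalarTower K₁ K₀ F']
  [FiniteDimensional K₀ F'] [Algebra.IsSeparable K₀ F'] in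
/-- elementwise criterion for a uniformiser of a discrete valuation subring. -/
theorem irreducible_of_forall_mul_inv_mem (𝒱₀ : ValuationSubring K₀)
    [IsDiscreteValuationRing ↥𝒱₀] (ϖ₀ : K₀) (hϖ₀ : ϖ₀ ∈ 𝒱₀) (hinv : ϖ₀⁻¹ ∉ 𝒱₀)
    (hgen : ∀ x ∈ 𝒱₀, x⁻¹ ∉ 𝒱₀ → x * ϖ₀⁻¹ ∈ 𝒱₀) : Irreducible (⟨ϖ₀, hϖ₀⟩ : ↥𝒱₀) := by
  rw [IsDiscreteValuationRing.irreducible_iff_uniformizer]
  have hϖ0 : ϖ₀ ≠ 0 := by
    intro h0
    apply hinv
    rw [h0, inv_zero]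
    exact 𝒱₀.zero_mem
  have hnu : ¬ IsUnit (⟨ϖ₀, hϖ₀⟩ : ↥𝒱₀) := by
    intro hu
    exact hinv (Fermat.Agent.FF.inv_mem_of_isUnit 𝒱₀ hu)
  apply le_antisymm
  · intro x hx
    rw [Ideal.mem_span_singleton']
    by_cases hx0 : x = 0
    · exact ⟨0, by rw [hx0, zero_mul]⟩
    have hxK : (x : K₀) ≠ 0 := fun h => hx0 (Subtype.ext h)
    have hxinv : (x : K₀)⁻¹ ∉ 𝒱₀ := by
      intro hmem
      have hxu : IsUnit x :=
        IsUnit.of_mul_eq_one ⟨(x : K₀)⁻¹, hmem⟩ (Subtype.ext (mul_inv_cancel₀ hxK))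
      exact (IsLocalRing.mem_maximalIdeal x).mp hx hxu
    refine ⟨⟨(x : K₀) * ϖ₀⁻¹, hgen _ x.2 hxinv⟩, Subtype.ext ?_⟩
    show (x : K₀) * ϖ₀⁻¹ * ϖ₀ = x
    rw [mul_assoc, inv_mul_cancel₀ hϖ0, mul_one]
  · rw [Ideal.span_singleton_le_iff_mem]
    exact (IsLocalRing.mem_maximalIdeal _).mpr hnu

/-- **(DICT, ramification side)** if `ord_P ϖ ∣ n` for every place `P` of `F' / K₁` over `𝒱₀`
(`ϖ` a uniformiser of `𝒱₀`), then all ramification indices of `F'` over `𝒱₀` divide `n`. -/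
theorem tameAt_of_forall_ord_dvd (𝒱₀ : ValuationSubring K₀) [IsDiscreteValuationRing ↥𝒱₀]
    (h𝒱₀ : ∀ a : K₁, algebraMap K₁ K₀ a ∈ 𝒱₀) (n : ℕ) (ϖ : ↥𝒱₀) (hϖ : Irreducible ϖ)
    (h : ∀ P : Place K₁ F', P.toValuationSubring.comap (algebraMap K₀ F') = 𝒱₀ →
      P.ord (algebraMap K₀ F' (ϖ : K₀)) ∣ (n : ℤ)) :
    TameAt 𝒱₀ F' n := by
  intro Q hQ
  obtain ⟨P, hP, -, -, hram⟩ := exists_place_of_isMaximal (K₁ := K₁) 𝒱₀ h𝒱₀ Q hQ
  have h1 := h P hP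
  rw [← hram ϖ hϖ] at h1
  exact_mod_cast h1

/-- `tameAt_of_forall_ord_dvd` with the uniformiser given elementwise in `K₀`. -/
theorem tameAt_of_forall_ord_dvd' (𝒱₀ : ValuationSubring K₀) [IsDiscreteValuationRing ↥𝒱₀]
    (h𝒱₀ : ∀ a : K₁, algebraMap K₁ K₀ a ∈ 𝒱₀) (n : ℕ) (ϖ₀ : K₀) (hϖ₀ : ϖ₀ ∈ 𝒱₀)
    (hinv : ϖ₀⁻¹ ∉ 𝒱₀) (hgen : ∀ x ∈ 𝒱₀, x⁻¹ ∉ 𝒱₀ → x * ϖ₀⁻¹ ∈ 𝒱₀)
    (h : ∀ P : Place K₁ F', P.toValuationSubring.comap (algebraMap K₀ F') = 𝒱₀ →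
      P.ord (algebraMap K₀ F' ϖ₀) ∣ (n : ℤ)) :
    TameAt 𝒱₀ F' n :=
  tameAt_of_forall_ord_dvd (K₁ := K₁) 𝒱₀ h𝒱₀ n ⟨ϖ₀, hϖ₀⟩
    (irreducible_of_forall_mul_inv_mem 𝒱₀ ϖ₀ hϖ₀ hinv hgen) h

/-- **(DICT, unramified side)** in characteristic zero, if `ord_P ϖ = 1` for every place `P` of
`F' / K₁` over `𝒱₀` (`ϖ` a uniformiser of `𝒱₀`), then `F'` is unramified over `𝒱₀`. -/
theorem unr_of_forall_ord_eq_one [CharZero K₁] (𝒱₀ : ValuationSubring K₀)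
    [IsDiscreteValuationRing ↥𝒱₀]
    (h𝒱₀ : ∀ a : K₁, algebraMap K₁ K₀ a ∈ 𝒱₀) (ϖ : ↥𝒱₀) (hϖ : Irreducible ϖ)
    (h : ∀ P : Place K₁ F', P.toValuationSubring.comap (algebraMap K₀ F') = 𝒱₀ →
      P.ord (algebraMap K₀ F' (ϖ : K₀)) = 1) :
    Unr 𝒱₀ F' := by
  haveI := charZero_residueField_of_algebraMap_mem 𝒱₀ h𝒱₀
  apply unr_of_tameAt_one
  apply tameAt_of_forall_ord_dvd (K₁ := K₁) 𝒱₀ h𝒱₀ 1 ϖ hϖ
  intro P hP
  rw [h P hP]
  exact one_dvd _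

/-- **(DICT, Kummer side)** if `m ∣ ord_P g` for every place `P` of `F' / K₁` over `𝒱₀`, then
`g` satisfies the local condition `hloc` of (KUM) at every maximal ideal of
`integralClosure ↥𝒱₀ F'`. -/
theorem hloc_of_forall_dvd_ord (𝒱₀ : ValuationSubring K₀) [IsDiscreteValuationRing ↥𝒱₀]
    (h𝒱₀ : ∀ a : K₁, algebraMap K₁ K₀ a ∈ 𝒱₀) (m : ℕ) (g : F') (hg : g ≠ 0)
    (hdiv : ∀ P : Place K₁ F', P.toValuationSubring.comap (algebraMap K₀ F') = 𝒱₀ →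
      (m : ℤ) ∣ P.ord g)
    (Q : Ideal ↥(integralClosure ↥𝒱₀ F')) (hQ : Q.IsMaximal) :
    ∃ (c : F') (a b : ↥(integralClosure ↥𝒱₀ F')), a ∉ Q ∧ b ∉ Q ∧ c ≠ 0 ∧
      g * algebraMap ↥(integralClosure ↥𝒱₀ F') F' b
        = algebraMap ↥(integralClosure ↥𝒱₀ F') F' a * c ^ m := by
  obtain ⟨P, h, Qs, hQs, -, hord, -⟩ :=
    exists_place_of_isMaximal_intCl (F' := F') (placeOfDvr 𝒱₀ h𝒱₀) Q hQ
  have h1 : (m : ℤ) ∣ WithZero.log (Qs.valuation F' g) := by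
    have h2 := hdiv P h
    rw [hord g hg] at h2
    exact (dvd_neg).mp h2
  obtain ⟨c, a, b, ha, hb, hc, hab⟩ := exists_hloc_of_dvd_log Qs m g hg h1
  rw [hQs] at ha hb
  exact ⟨c, a, b, ha, hb, hc, hab⟩

end Dict

section Gauss

variable {K₀ F' : Type*} [Field K₀] [Field F'] [Algebra K₀ F']

/-- **(DICT, Gauss side)** if `g` and `g⁻¹` are integral over the valuation subring `𝒢`, the local
condition `hloc` of (KUM) holds trivially at every maximal ideal of `integralClosure ↥𝒢 F'`. -/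
theorem hlocG_of_isIntegral (𝒢 : ValuationSubring K₀) (m : ℕ) (g : F') (hg0 : g ≠ 0)
    (hg : IsIntegral ↥𝒢 g) (hg' : IsIntegral ↥𝒢 g⁻¹)
    (Q : Ideal ↥(integralClosure ↥𝒢 F')) (hQ : Q.IsMaximal) :
    ∃ (c : F') (a b : ↥(integralClosure ↥𝒢 F')), a ∉ Q ∧ b ∉ Q ∧ c ≠ 0 ∧
      g * algebraMap ↥(integralClosure ↥𝒢 F') F' b
        = algebraMap ↥(integralClosure ↥𝒢 F') F' a * c ^ m := by
  have hu : IsUnit (⟨g, hg⟩ : ↥(integralClosure ↥𝒢 F')) :=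
    IsUnit.of_mul_eq_one ⟨g⁻¹, hg'⟩ (Subtype.ext (mul_inv_cancel₀ hg0))
  refine ⟨1, ⟨g, hg⟩, 1, ?_, ?_, one_ne_zero, ?_⟩
  · intro hmem
    exact hQ.ne_top (Ideal.eq_top_of_isUnit_mem _ hmem hu)
  · intro hmem
    exact hQ.ne_top ((Ideal.eq_top_iff_one _).mpr hmem)
  · rw [map_one, one_pow, mul_one, mul_one]
    rfl

end Gauss

section Combined

variable {R : Type*} [CommRing R] [IsDomain R] [IsDiscreteValuationRing R] [CharZero R]
  {K₁ : Type*} [Field K₁] [Algebra R K₁] [IsFractionRing R K₁]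
  {K₀ : Type*} [Field K₀] [Algebra K₁ K₀] [Algebra R K₀] [IsScalarTower R K₁ K₀]
  {F' F'' : Type*} [Field F'] [Algebra K₀ F'] [FiniteDimensional K₀ F'] [Algebra K₁ F']
  [IsScalarTower K₁ K₀ F'] [Field F'']
  [Algebra F' F''] [Algebra K₀ F''] [IsScalarTower K₀ F' F'']

/-- **(KUM-JLine, divisor form)** the `j`-line hypotheses pass from `F'` to `F'' = F'(g^{1/m})`
when the divisor of `g` (as a function on the curve `F' / K₁`) is divisible by `m` and `g` is a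
unit at the Gauss places. -/
theorem jLineHyp_kummer_of_dvd_ord (π : R) (j : K₀) (N : ℕ) (m : ℕ) (hmR : IsUnit ((m : ℕ) : R))
    (g : F') (hg0 : g ≠ 0) (u : F'') (hu : u ^ m = algebraMap F' F'' g)
    (hgen : Algebra.adjoin F' {u} = ⊤)
    (hdvr : ∀ 𝒱₀ : ValuationSubring K₀, 𝒱₀ ≠ ⊤ → (∀ a : K₁, algebraMap K₁ K₀ a ∈ 𝒱₀) →
      IsDiscreteValuationRing ↥𝒱₀)
    (hdvrG : ∀ 𝒢 : ValuationSubring K₀, IsGaussAt R π j 𝒢 → IsDiscreteValuationRing ↥𝒢)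
    (hdiv : ∀ P : Place K₁ F', (m : ℤ) ∣ P.ord g)
    (hG : ∀ 𝒢 : ValuationSubring K₀, IsGaussAt R π j 𝒢 →
      IsIntegral ↥𝒢 g ∧ IsIntegral ↥𝒢 g⁻¹)
    (hJ : JLineHyp (K₁ := K₁) π j F' N) : JLineHyp (K₁ := K₁) π j F'' N := by
  haveI : CharZero K₁ := charZero_of_injective_algebraMap (IsFractionRing.injective R K₁)
  haveI : CharZero K₀ := charZero_of_injective_algebraMap (algebraMap K₁ K₀).injective
  haveI : Algebra.IsSeparable K₀ F' := Algebra.IsAlgebraic.isSeparable_of_perfectField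
  refine jLineHyp_kummer (K₁ := K₁) π j N m hmR g u hu hgen hdvr hdvrG ?_ ?_ hJ
  · intro 𝒱₀ hne h𝒱₀ Q hQ
    haveI := hdvr 𝒱₀ hne h𝒱₀
    exact hloc_of_forall_dvd_ord (K₁ := K₁) 𝒱₀ h𝒱₀ m g hg0 (fun P _ => hdiv P) Q hQ
  · intro 𝒢 h𝒢 Q hQ
    exact hlocG_of_isIntegral 𝒢 m g hg0 (hG 𝒢 h𝒢).1 (hG 𝒢 h𝒢).2 Q hQ

end Combined

end Fermat.Agent.JA
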