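/-
J-A project, package LINE (helper2), part 1: places of a rational function field `M = K(t)`.

For a place `P` of `M / K`, `M = K(t)`:
* if `t ∈ 𝒪_P` there is a monic irreducible `p` with `P.ord (p(t)) = 1` (the centre), and
  `P.ord (a(t)) = 0` for `p ∤ a`;
* if `t ∉ 𝒪_P` then `P.ord t = -1` and `P.ord (a(t)) = -deg a`.
-/
import Mathlib
import Fermat.Agent.JA.RAM0_helper2_Rational

set_option autoImplicit false

open AlgebraicCurve Polynomial IntermediateField

namespace Fermat.Agent.JA

open Fermat.Agent.FF Fermat.Agent.FF.Gal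

variable {K M : Type*} [Field K] [Field M] [Algebra K M]

/-- the order of a polynomial in `t` at a place where `t` is regular is nonnegative. -/
theorem ord_aeval_nonneg (P : Place K M) {t : M} (ht : t ∈ P.toValuationSubring) (a : K[X]) :
    0 ≤ P.ord (aeval t a) :=
  PlaceAux.ord_nonneg_of_mem P (aeval_mem_valuationSubring P ht a)

/-- a polynomial which is positive at `P` has an irreducible factor which is positive at `P`. -/
theorem exists_irreducible_factor_ord_pos (P : Place K M) {t : M}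
    (ht : t ∈ P.toValuationSubring) (a : K[X]) (ha : a ≠ 0) (hpos : 0 < P.ord (aeval t a)) :
    ∃ p : K[X], Irreducible p ∧ p ∣ a ∧ 0 < P.ord (aeval t p) := by
  induction a using UniqueFactorizationMonoid.induction_on_prime with
  | h₁ => exact absurd rfl ha
  | h₂ x hx =>
    exfalso
    obtain ⟨c, hc, rfl⟩ := Polynomial.isUnit_iff.mp hx
    rw [aeval_C, PlaceAux.ord_algebraMap] at hpos
    exact lt_irrefl _ hpos
  | h₃ a p ha0 hp ih =>
    by_cases hp1 : 0 < P.ord (aeval t p)
    · exact ⟨p, hp.irreducible, dvd_mul_right p a, hp1⟩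
    · have hpa : aeval t (p * a) ≠ 0 := by
        intro h
        rw [h, P.ord_zero] at hpos
        exact lt_irrefl _ hpos
      rw [map_mul] at hpa hpos
      rw [P.ord_mul (left_ne_zero_of_mul hpa) (right_ne_zero_of_mul hpa)] at hpos
      have h0 := ord_aeval_nonneg P ht p
      obtain ⟨q, hq, hqa, hq1⟩ := ih ha0 (by omega)
      exact ⟨q, hq, hqa.mul_left p, hq1⟩

/-- `c • p` evaluated at `t` has the same order as `p(t)` for a nonzero constant `c`. -/
theorem ord_aeval_C_mul (P : Place K M) (t : M) {c : K} (hc : c ≠ 0) (a : K[X]) :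
    P.ord (aeval t (C c * a)) = P.ord (aeval t a) := by
  rw [map_mul, aeval_C]
  by_cases ha : aeval t a = 0
  · rw [ha, mul_zero]
  · rw [P.ord_mul ((_root_.map_ne_zero _).mpr hc) ha, PlaceAux.ord_algebraMap, zero_add]

section Generated

variable {t : M} (hgen : K⟮t⟯ = ⊤)

include hgen

/-- every element of `M = K(t)` is a quotient of polynomials in `t`. -/
theorem exists_eq_aeval_div (x : M) : ∃ a b : K[X], x = aeval t a / aeval t b :=
  (mem_adjoin_simple_iff K x).mp (hgen ▸ IntermediateField.mem_top)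

/-- **Normalisation at a finite centre**: if `M = K(t)` and `p` is irreducible with
`0 < P.ord (p(t))` then `P.ord (p(t)) = 1`. -/
theorem ord_aeval_eq_one_of_pos (P : Place K M) {p : K[X]} (hp : Irreducible p)
    (hpos : 0 < P.ord (aeval t p)) : P.ord (aeval t p) = 1 := by
  obtain ⟨π, hπ0, hπ⟩ := exists_ord_eq_one P
  obtain ⟨a, b, rfl⟩ := exists_eq_aeval_div hgen π
  have hb0 : aeval t b ≠ 0 := by
    intro h
    rw [h, div_zero] at hπ0
    exact hπ0 rfl
  have ha0 : aeval t a ≠ 0 := by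
    intro h
    rw [h, zero_div] at hπ0
    exact hπ0 rfl
  have ha : a ≠ 0 := by
    rintro rfl
    exact ha0 (map_zero _)
  have hb : b ≠ 0 := by
    rintro rfl
    exact hb0 (map_zero _)
  obtain ⟨m, hm⟩ := exists_ord_aeval_eq (M := M) hp ha
  obtain ⟨n, hn⟩ := exists_ord_aeval_eq (M := M) hp hb
  rw [PlaceAux.ord_div P ha0 hb0, (hm P t hpos).2, (hn P t hpos).2, ← sub_mul] at hπ
  exact Int.eq_one_of_mul_eq_one_left hpos.le hπ

/-- **The centre of a place at which `t` is regular.** -/
theorem exists_center (P : Place K M) (ht : t ∈ P.toValuationSubring) :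
    ∃ p : K[X], p.Monic ∧ Irreducible p ∧ P.ord (aeval t p) = 1 := by
  obtain ⟨π, hπ0, hπ⟩ := exists_ord_eq_one P
  obtain ⟨a, b, rfl⟩ := exists_eq_aeval_div hgen π
  have hb0 : aeval t b ≠ 0 := by
    intro h
    rw [h, div_zero] at hπ0
    exact hπ0 rfl
  have ha0 : aeval t a ≠ 0 := by
    intro h
    rw [h, zero_div] at hπ0
    exact hπ0 rfl
  have ha : a ≠ 0 := by
    rintro rfl
    exact ha0 (map_zero _)
  rw [PlaceAux.ord_div P ha0 hb0] at hπ
  have hbn := ord_aeval_nonneg P ht b
  obtain ⟨p, hp, -, hp1⟩ := exists_irreducible_factor_ord_pos P ht a ha (by omega)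
  have hlc : p.leadingCoeff ≠ 0 := leadingCoeff_ne_zero.mpr hp.ne_zero
  refine ⟨C p.leadingCoeff⁻¹ * p, ?_, ?_, ?_⟩
  · rw [mul_comm]
    exact monic_mul_leadingCoeff_inv hp.ne_zero
  · exact (irreducible_isUnit_mul
      (Polynomial.isUnit_C.mpr (isUnit_iff_ne_zero.mpr (inv_ne_zero hlc)))).mpr hp
  · rw [ord_aeval_C_mul P t (inv_ne_zero hlc)]
    exact ord_aeval_eq_one_of_pos hgen P hp hp1

end Generated

/-- the order at a pole of `t` of a polynomial in `t`. -/
theorem ord_aeval_of_ord_neg (P : Place K M) {t : M} (ht : P.ord t < 0) {a : K[X]} (ha : a ≠ 0) :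
    aeval t a ≠ 0 ∧ P.ord (aeval t a) = a.natDegree * P.ord t := by
  have ht0 : t ≠ 0 := by
    rintro rfl
    rw [P.ord_zero] at ht
    exact lt_irrefl _ ht
  have h1 : aeval t a = t ^ a.natDegree * aeval t⁻¹ a.reverse := by
    letI := invertibleOfNonzero ht0
    have := eval₂_reverse_mul_pow (algebraMap K M) t a
    rw [invOf_eq_inv] at this
    rw [aeval_def, aeval_def, ← this, mul_comm]
  have hinv : 0 < P.ord (t⁻¹ - algebraMap K M 0) := by
    rw [map_zero, sub_zero, P.ord_inv]
    omega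
  have hrev : a.reverse.eval 0 ≠ 0 := by
    rw [← coeff_zero_eq_eval_zero, coeff_zero_reverse]
    exact leadingCoeff_ne_zero.mpr ha
  obtain ⟨h2, h3⟩ := ord_aeval_eq_zero_of_eval_ne_zero P hinv hrev
  refine ⟨?_, ?_⟩
  · rw [h1]
    exact mul_ne_zero (pow_ne_zero _ ht0) h2
  · rw [h1, P.ord_mul (pow_ne_zero _ ht0) h2, h3, add_zero, PlaceAux.ord_pow]

/-- **Normalisation at infinity**: if `M = K(t)` and `P.ord t < 0` then `P.ord t = -1`. -/
theorem ord_eq_neg_one_of_neg {t : M} (hgen : K⟮t⟯ = ⊤) (P : Place K M) (ht : P.ord t < 0) :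
    P.ord t = -1 := by
  have ht0 : t ≠ 0 := by
    rintro rfl
    rw [P.ord_zero] at ht
    exact lt_irrefl _ ht
  have hgen' : K⟮t⁻¹⟯ = ⊤ := by
    rw [eq_top_iff, ← hgen, adjoin_simple_le_iff]
    have h := inv_mem (mem_adjoin_simple_self K t⁻¹)
    rwa [inv_inv] at h
  have hpos : 0 < P.ord (aeval t⁻¹ (X : K[X])) := by
    rw [aeval_X, P.ord_inv]
    omega
  have := ord_aeval_eq_one_of_pos hgen' P irreducible_X hpos
  rw [aeval_X, P.ord_inv] at this
  omega

end Fermat.Agent.JA
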