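/-
J-A project, package LINE (helper2), part 7: every valuation subring `V ≠ ⊤` of a rational function
field `M = K(t)` with `K ⊆ V` is a discrete valuation ring (hence a `Place K M`).
-/
import Mathlib
import Fermat.Agent.JA.LINE_helper2_Places

set_option autoImplicit false

open Polynomial IntermediateField

namespace Fermat.Agent.JA

variable {K M : Type*} [Field K] [Field M] [Algebra K M]

/-- a valuation subring whose value group is generated by the value of one element of the maximal
ideal is a discrete valuation ring. -/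
theorem isDiscreteValuationRing_of_valuation_zpow (V : ValuationSubring M) (ϖ : M) (hϖ0 : ϖ ≠ 0)
    (hϖ : V.valuation ϖ < 1)
    (H : ∀ x : M, x ≠ 0 → ∃ n : ℤ, V.valuation x = V.valuation ϖ ^ n) :
    IsDiscreteValuationRing V := by
  set v := V.valuation with hv
  have hvϖ0 : v ϖ ≠ 0 := (Valuation.ne_zero_iff v).mpr hϖ0
  have hϖV : ϖ ∈ V := (V.valuation_le_one_iff ϖ).mp hϖ.le
  -- nonzero elements of `V` are `ϖ ^ n * unit`, `n : ℕ`
  have key : ∀ x : V, x ≠ 0 → ∃ n : ℕ, v (x : M) = v ϖ ^ n := by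
    intro x hx
    have hx' : (x : M) ≠ 0 := fun h => hx (Subtype.ext h)
    obtain ⟨n, hn⟩ := H x hx'
    have hle : v (x : M) ≤ 1 := (V.valuation_le_one_iff _).mpr x.2
    rcases le_or_gt 0 n with h0 | h0
    · lift n to ℕ using h0
      exact ⟨n, by rw [hn, zpow_natCast]⟩
    · exfalso
      obtain ⟨m, rfl⟩ : ∃ m : ℕ, n = -((m : ℤ) + 1) := ⟨(-n - 1).toNat, by omega⟩
      rw [hn, zpow_neg, ← Nat.cast_succ, zpow_natCast] at hle
      have h1 : v ϖ ^ (m + 1) < 1 := pow_lt_one₀ zero_le hϖ (Nat.succ_ne_zero m)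
      have h2 : (1 : V.ValueGroup) < (v ϖ ^ (m + 1))⁻¹ :=
        (one_lt_inv₀ (pow_pos (zero_lt_iff.mpr hvϖ0) _)).mpr h1
      exact absurd hle (not_le.mpr h2)
  refine IsDiscreteValuationRing.ofHasUnitMulPowIrreducibleFactorization
    ⟨⟨ϖ, hϖV⟩, ?_, ?_⟩
  · -- irreducibility
    have hnu : ¬ IsUnit (⟨ϖ, hϖV⟩ : V) := by
      rw [ValuationSubring.valuation_eq_one_iff]
      exact hϖ.ne
    refine ⟨hnu, ?_⟩
    intro a b hab
    by_contra hcon
    push Not at hcon
    obtain ⟨ha, hb⟩ := hcon
    have hab' : ϖ = (a : M) * (b : M) := congrArg Subtype.val hab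
    have ha0 : a ≠ 0 := by
      rintro rfl
      rw [ZeroMemClass.coe_zero, zero_mul] at hab'
      exact hϖ0 hab'
    have hb0 : b ≠ 0 := by
      rintro rfl
      rw [ZeroMemClass.coe_zero, mul_zero] at hab'
      exact hϖ0 hab'
    have hle : ∀ c : V, c ≠ 0 → ¬ IsUnit c → v (c : M) ≤ v ϖ := by
      intro c hc hcu
      obtain ⟨n, hn⟩ := key c hc
      rcases Nat.eq_zero_or_pos n with rfl | hn0
      · exact absurd ((ValuationSubring.valuation_eq_one_iff V c).mpr (by rw [hn, pow_zero])) hcu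
      · rw [hn]
        exact pow_le_of_le_one zero_le hϖ.le hn0.ne'
    have h1 := hle a ha0 ha
    have h2 := hle b hb0 hb
    have h3 : v ϖ ≤ v ϖ * v ϖ := by
      conv_lhs => rw [hab', map_mul]
      exact mul_le_mul' h1 h2
    have h4 : v ϖ * v ϖ < v ϖ := by
      have := mul_lt_mul_of_pos_left hϖ (zero_lt_iff.mpr hvϖ0)
      rwa [mul_one] at this
    exact absurd h3 (not_le.mpr h4)
  · intro x hx
    obtain ⟨n, hn⟩ := key x hx
    refine ⟨n, ?_⟩
    have hx' : (x : M) ≠ 0 := fun h => hx (Subtype.ext h)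
    have hu : v ((x : M) / ϖ ^ n) = 1 := by
      rw [map_div₀, map_pow, hn, div_self (pow_ne_zero _ hvϖ0)]
    have huV : (x : M) / ϖ ^ n ∈ V := (V.valuation_le_one_iff _).mp hu.le
    have hunit : IsUnit (⟨(x : M) / ϖ ^ n, huV⟩ : V) :=
      (ValuationSubring.valuation_eq_one_iff V _).mpr hu
    obtain ⟨u, hu'⟩ := hunit
    refine ⟨u, ?_⟩
    rw [hu']
    apply Subtype.ext
    show ϖ ^ n * ((x : M) / ϖ ^ n) = x
    field_simp

/-- polynomials in an element of a valuation subring containing the constants. -/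
theorem aeval_mem_of_mem (V : ValuationSubring M) (hK : ∀ a : K, algebraMap K M a ∈ V) {t : M}
    (ht : t ∈ V) (a : K[X]) : aeval t a ∈ V := by
  rw [aeval_eq_sum_range]
  refine sum_mem fun i _ => ?_
  rw [Algebra.smul_def]
  exact mul_mem (hK _) (pow_mem ht _)

theorem valuation_algebraMap_eq_one (V : ValuationSubring M) (hK : ∀ a : K, algebraMap K M a ∈ V)
    {c : K} (hc : c ≠ 0) : V.valuation (algebraMap K M c) = 1 := by
  refine le_antisymm ((V.valuation_le_one_iff _).mpr (hK c)) ?_
  have h1 : V.valuation (algebraMap K M c⁻¹) ≤ 1 := (V.valuation_le_one_iff _).mpr (hK c⁻¹)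
  have h2 : V.valuation (algebraMap K M c) * V.valuation (algebraMap K M c⁻¹) = 1 := by
    rw [← map_mul, ← map_mul, mul_inv_cancel₀ hc, map_one, map_one]
  calc (1 : V.ValueGroup) = V.valuation (algebraMap K M c) * V.valuation (algebraMap K M c⁻¹) :=
        h2.symm
    _ ≤ V.valuation (algebraMap K M c) * 1 := mul_le_mul_right h1 _
    _ = _ := mul_one _

section Line

variable (V : ValuationSubring M) (hK : ∀ a : K, algebraMap K M a ∈ V) {t : M} (ht : t ∈ V)

include hK ht

/-- a polynomial whose value at `t` is a non-unit has an irreducible factor with the same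
property. -/
theorem exists_irreducible_factor_valuation_lt_one (a : K[X]) (ha : a ≠ 0)
    (hlt : V.valuation (aeval t a) < 1) :
    ∃ p : K[X], Irreducible p ∧ p ∣ a ∧ V.valuation (aeval t p) < 1 := by
  induction a using UniqueFactorizationMonoid.induction_on_prime with
  | h₁ => exact absurd rfl ha
  | h₂ x hx =>
    exfalso
    obtain ⟨c, hc, rfl⟩ := Polynomial.isUnit_iff.mp hx
    rw [aeval_C, valuation_algebraMap_eq_one V hK hc.ne_zero] at hlt
    exact lt_irrefl _ hlt
  | h₃ a p ha0 hp ih =>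
    by_cases hp1 : V.valuation (aeval t p) < 1
    · exact ⟨p, hp.irreducible, dvd_mul_right p a, hp1⟩
    · have hp1' : V.valuation (aeval t p) = 1 :=
        le_antisymm ((V.valuation_le_one_iff _).mpr (aeval_mem_of_mem V hK ht p)) (not_lt.mp hp1)
      rw [map_mul, map_mul, hp1', one_mul] at hlt
      obtain ⟨q, hq, hqa, hq1⟩ := ih ha0 hlt
      exact ⟨q, hq, hqa.mul_left p, hq1⟩

/-- an irreducible polynomial not associated to the centre is a unit at `V`. -/
theorem valuation_aeval_eq_one_of_not_dvd {p q : K[X]} (hp : Irreducible p)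
    (hp1 : V.valuation (aeval t p) < 1) (hq : ¬ p ∣ q) : V.valuation (aeval t q) = 1 := by
  have hcop : IsCoprime p q := (EuclideanDomain.dvd_or_coprime p q hp).resolve_left hq
  obtain ⟨u, w, huw⟩ := hcop
  have h1 : aeval t u * aeval t p + aeval t w * aeval t q = 1 := by
    rw [← map_mul, ← map_mul, ← map_add, huw, map_one]
  have hle : ∀ a : K[X], V.valuation (aeval t a) ≤ 1 := fun a =>
    (V.valuation_le_one_iff _).mpr (aeval_mem_of_mem V hK ht a)
  refine le_antisymm (hle q) ?_
  by_contra hcon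
  push Not at hcon
  have h2 : V.valuation (aeval t u * aeval t p) < 1 := by
    rw [map_mul]
    exact lt_of_le_of_lt (mul_le_of_le_one_left zero_le (hle u)) hp1
  have h3 : V.valuation (aeval t w * aeval t q) < 1 := by
    rw [map_mul]
    exact lt_of_le_of_lt (mul_le_of_le_one_left zero_le (hle w)) hcon
  have h4 : V.valuation (1 : M) < 1 := by
    rw [← h1]
    exact lt_of_le_of_lt (Valuation.map_add _ _ _) (max_lt h2 h3)
  rw [map_one] at h4
  exact lt_irrefl _ h4

/-- values of polynomials are powers of the value of the centre. -/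
theorem exists_valuation_aeval_eq_center_pow {p : K[X]} (hp : Irreducible p)
    (hp1 : V.valuation (aeval t p) < 1) (a : K[X]) (ha : a ≠ 0) :
    ∃ n : ℕ, V.valuation (aeval t a) = V.valuation (aeval t p) ^ n := by
  induction a using UniqueFactorizationMonoid.induction_on_prime with
  | h₁ => exact absurd rfl ha
  | h₂ x hx =>
    obtain ⟨c, hc, rfl⟩ := Polynomial.isUnit_iff.mp hx
    exact ⟨0, by rw [aeval_C, valuation_algebraMap_eq_one V hK hc.ne_zero, pow_zero]⟩
  | h₃ a q ha0 hq ih =>
    obtain ⟨n, hn⟩ := ih ha0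
    by_cases hpq : p ∣ q
    · have hass : Associated p q := hp.associated_of_dvd hq.irreducible hpq
      obtain ⟨u, hu⟩ := hass
      obtain ⟨c, hc, hcu⟩ := Polynomial.isUnit_iff.mp u.isUnit
      refine ⟨n + 1, ?_⟩
      rw [map_mul, map_mul, hn, ← hu, ← hcu, map_mul, map_mul, aeval_C,
        valuation_algebraMap_eq_one V hK hc.ne_zero, mul_one, pow_succ, mul_comm]
    · refine ⟨n, ?_⟩
      rw [map_mul, map_mul, hn, valuation_aeval_eq_one_of_not_dvd V hK ht hp hp1 hpq, one_mul]

end Line

theorem adjoin_simple_inv_eq_top {t : M} (hgen : K⟮t⟯ = ⊤) : K⟮t⁻¹⟯ = ⊤ := by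
  rw [eq_top_iff, ← hgen, adjoin_simple_le_iff]
  have h : t⁻¹ ∈ K⟮t⁻¹⟯ := mem_adjoin_simple_self K t⁻¹
  simpa using inv_mem h

theorem isDiscreteValuationRing_of_adjoin_eq_top_aux (V : ValuationSubring M)
    (hK : ∀ a : K, algebraMap K M a ∈ V) (hne : V ≠ ⊤) {t : M} (hgen : K⟮t⟯ = ⊤) (ht : t ∈ V) :
    IsDiscreteValuationRing V := by
  have hle : ∀ a : K[X], V.valuation (aeval t a) ≤ 1 := fun a =>
    (V.valuation_le_one_iff _).mpr (aeval_mem_of_mem V hK ht a)
  -- the centre
  obtain ⟨p, hp, hp0, hp1⟩ : ∃ p : K[X], Irreducible p ∧ aeval t p ≠ 0 ∧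
      V.valuation (aeval t p) < 1 := by
    obtain ⟨x, hx⟩ : ∃ x : M, x ∉ V := by
      by_contra hcon
      push Not at hcon
      exact hne (eq_top_iff.mpr fun x _ => hcon x)
    obtain ⟨a, b, hab⟩ := exists_eq_aeval_div hgen x
    have hb0 : aeval t b ≠ 0 := by
      intro h0
      rw [h0, div_zero] at hab
      exact hx (hab ▸ zero_mem _)
    have hb : b ≠ 0 := by
      rintro rfl
      exact hb0 (map_zero _)
    have hxv : 1 < V.valuation x := by
      rw [← not_le, V.valuation_le_one_iff]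
      exact hx
    have hblt : V.valuation (aeval t b) < 1 := by
      rw [hab, map_div₀] at hxv
      have hvb0 : V.valuation (aeval t b) ≠ 0 := (Valuation.ne_zero_iff _).mpr hb0
      rw [one_lt_div₀ (zero_lt_iff.mpr hvb0)] at hxv
      exact lt_of_lt_of_le hxv (hle a)
    obtain ⟨p, hp, hpb, hp1⟩ := exists_irreducible_factor_valuation_lt_one V hK ht b hb hblt
    refine ⟨p, hp, ?_, hp1⟩
    intro h0
    obtain ⟨c, rfl⟩ := hpb
    rw [map_mul, h0, zero_mul] at hb0
    exact hb0 rfl
  refine isDiscreteValuationRing_of_valuation_zpow V (aeval t p) hp0 hp1 ?_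
  intro x hx
  obtain ⟨a, b, hab⟩ := exists_eq_aeval_div hgen x
  have hb0 : aeval t b ≠ 0 := by
    intro h0
    rw [h0, div_zero] at hab
    exact hx hab
  have ha0 : aeval t a ≠ 0 := by
    intro h0
    rw [h0, zero_div] at hab
    exact hx hab
  have ha : a ≠ 0 := by
    rintro rfl
    exact ha0 (map_zero _)
  have hb : b ≠ 0 := by
    rintro rfl
    exact hb0 (map_zero _)
  obtain ⟨n, hn⟩ := exists_valuation_aeval_eq_center_pow V hK ht hp hp1 a ha
  obtain ⟨m, hm⟩ := exists_valuation_aeval_eq_center_pow V hK ht hp hp1 b hb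
  refine ⟨(n : ℤ) - m, ?_⟩
  have hvp0 : V.valuation (aeval t p) ≠ 0 := (Valuation.ne_zero_iff _).mpr hp0
  rw [hab, map_div₀, hn, hm, zpow_sub₀ hvp0, zpow_natCast, zpow_natCast]

/-- **every valuation subring of `M = K(t)` containing `K`, other than `M`, is a discrete
valuation ring.** -/
theorem isDiscreteValuationRing_of_adjoin_eq_top (V : ValuationSubring M)
    (hK : ∀ a : K, algebraMap K M a ∈ V) (hne : V ≠ ⊤) {t : M} (hgen : K⟮t⟯ = ⊤) :
    IsDiscreteValuationRing V := by
  by_cases ht : t ∈ V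
  · exact isDiscreteValuationRing_of_adjoin_eq_top_aux V hK hne hgen ht
  · exact isDiscreteValuationRing_of_adjoin_eq_top_aux V hK hne (adjoin_simple_inv_eq_top hgen)
      ((V.mem_or_inv_mem t).resolve_left ht)

open AlgebraicCurve in
/-- the place of `M = K(t)` attached to a valuation subring containing the constants. -/
noncomputable def placeOfValuationSubring (V : ValuationSubring M)
    (hK : ∀ a : K, algebraMap K M a ∈ V) (hne : V ≠ ⊤) {t : M} (hgen : K⟮t⟯ = ⊤) : Place K M where
  toValuationSubring := V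
  algebraMap_mem' := hK
  ne_top' := hne
  isPrincipalIdealRing' :=
    haveI := isDiscreteValuationRing_of_adjoin_eq_top V hK hne hgen
    inferInstance

@[simp] theorem placeOfValuationSubring_toValuationSubring (V : ValuationSubring M)
    (hK : ∀ a : K, algebraMap K M a ∈ V) (hne : V ≠ ⊤) {t : M} (hgen : K⟮t⟯ = ⊤) :
    (placeOfValuationSubring V hK hne hgen).toValuationSubring = V := rfl

end Fermat.Agent.JA
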