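/-
J-A project, package LINE (helper2), part 2: homogenisation of a polynomial at `(A, B)` and its
chain rule `B·Q' = W·Q₁ + n·B'·Q`, `W = A'B - AB'`.
-/
import Mathlib

set_option autoImplicit false

open Polynomial

namespace Fermat.Agent.JA

variable {K : Type*} [Field K]

/-- the homogenisation `∑ qᵢ Aⁱ Bⁿ⁻ⁱ` of `q` in degree `n` at `(A, B)`. -/
noncomputable def homog (q : K[X]) (n : ℕ) (A B : K[X]) : K[X] :=
  ∑ i ∈ Finset.range (n + 1), C (q.coeff i) * A ^ i * B ^ (n - i)

/-- the homogenisation of `q'` in degree `n - 1` at `(A, B)`. -/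
noncomputable def homogD (q : K[X]) (n : ℕ) (A B : K[X]) : K[X] :=
  ∑ i ∈ Finset.range (n + 1), C (q.coeff i * (i : K)) * A ^ (i - 1) * B ^ (n - i)

theorem homog_term_identity (A B : K[X]) (i m : ℕ) :
    B * derivative (A ^ i * B ^ m) =
      (derivative A * B - A * derivative B) * (C (i : K) * A ^ (i - 1) * B ^ m) +
        C ((i + m : ℕ) : K) * derivative B * (A ^ i * B ^ m) := by
  rw [derivative_mul, derivative_pow, derivative_pow]
  rcases i with _ | i <;> rcases m with _ | m
  · simp
  · simp only [pow_zero, Nat.cast_zero, map_zero, zero_mul, mul_zero, zero_add, one_mul,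
      Nat.add_sub_cancel, Nat.cast_add, Nat.cast_one, map_add, map_one, zero_tsub]
    ring
  · simp only [pow_zero, Nat.cast_zero, map_zero, zero_mul, mul_zero, add_zero, mul_one,
      Nat.add_sub_cancel, Nat.cast_add, Nat.cast_one, map_add, map_one, zero_tsub]
    ring
  · simp only [Nat.add_sub_cancel, Nat.cast_add, Nat.cast_one, map_add, map_one]
    ring

/-- **Chain rule for the homogenisation**: `B·Q' = W·Q₁ + n·B'·Q`. -/
theorem B_mul_derivative_homog (q : K[X]) (n : ℕ) (A B : K[X]) :
    B * derivative (homog q n A B) =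
      (derivative A * B - A * derivative B) * homogD q n A B +
        C (n : K) * derivative B * homog q n A B := by
  unfold homog homogD
  rw [derivative_sum, Finset.mul_sum, Finset.mul_sum, Finset.mul_sum, ← Finset.sum_add_distrib]
  refine Finset.sum_congr rfl fun i hi => ?_
  have hin : i + (n - i) = n := by
    have := Finset.mem_range.mp hi
    omega
  have h1 : derivative (C (q.coeff i) * A ^ i * B ^ (n - i)) =
      C (q.coeff i) * derivative (A ^ i * B ^ (n - i)) := by
    rw [mul_assoc, derivative_C_mul]
  rw [h1, mul_left_comm, homog_term_identity, hin]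
  rw [map_mul]
  ring

variable {M : Type*} [Field M] [Algebra K M]

theorem aeval_homog (q : K[X]) (n : ℕ) (hn : q.natDegree ≤ n) (A B : K[X]) (t : M)
    (hB : aeval t B ≠ 0) :
    aeval t (homog q n A B) = aeval t B ^ n * aeval (aeval t A / aeval t B) q := by
  rw [aeval_eq_sum_range' (Nat.lt_succ_of_le hn), homog, map_sum, Finset.mul_sum]
  refine Finset.sum_congr rfl fun i hi => ?_
  have hin : i ≤ n := by
    have := Finset.mem_range.mp hi
    omega
  rw [map_mul, map_mul, map_pow, map_pow, aeval_C, Algebra.smul_def, div_pow]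
  have : aeval t B ^ n = aeval t B ^ (n - i) * aeval t B ^ i := by
    rw [← pow_add, Nat.sub_add_cancel hin]
  rw [this]
  field_simp

theorem aeval_homogD (q : K[X]) (m : ℕ) (hn : q.natDegree ≤ m + 1) (A B : K[X]) (t : M)
    (hB : aeval t B ≠ 0) :
    aeval t (homogD q (m + 1) A B) =
      aeval t B ^ m * aeval (aeval t A / aeval t B) (derivative q) := by
  have hd : (derivative q).natDegree < m + 1 := by
    rcases Nat.eq_zero_or_pos q.natDegree with h0 | h0
    · have hq : q = C (q.coeff 0) := eq_C_of_natDegree_eq_zero h0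
      rw [hq, derivative_C, natDegree_zero]
      omega
    · have := natDegree_derivative_lt (p := q) (by omega)
      omega
  rw [aeval_eq_sum_range' hd, homogD, map_sum, Finset.mul_sum, Finset.sum_range_succ' _ (m + 1)]
  simp only [Nat.cast_zero, mul_zero, map_zero, zero_mul, add_zero]
  refine Finset.sum_congr rfl fun i hi => ?_
  have him : i ≤ m := by
    have := Finset.mem_range.mp hi
    omega
  rw [map_mul, map_mul, map_pow, map_pow, aeval_C, Algebra.smul_def, div_pow, coeff_derivative,
    Nat.add_sub_cancel, Nat.add_sub_add_right]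
  have : aeval t B ^ m = aeval t B ^ (m - i) * aeval t B ^ i := by
    rw [← pow_add, Nat.sub_add_cancel him]
  rw [this]
  push_cast
  field_simp

/-- if `p² ∣ Q` then `p ∣ Q'`. -/
theorem dvd_derivative_of_sq_dvd {p Q : K[X]} (h : p ^ 2 ∣ Q) : p ∣ derivative Q := by
  obtain ⟨R, rfl⟩ := h
  rw [derivative_mul, derivative_pow]
  refine dvd_add ?_ ?_
  · exact Dvd.dvd.mul_right (Dvd.dvd.mul_right (Dvd.dvd.mul_left (by simp) _) _) _
  · exact Dvd.dvd.mul_right (dvd_pow_self p two_ne_zero) _

end Fermat.Agent.JA
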