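/-
J-A project, package LINE (helper2), part 3: the unramifiedness criterion for `K(t) / K(J(t))`,
`J = A / B`, in characteristic zero.

If the place `P` of `M = K(t)` is centred at the irreducible `p`, `p ∤ B` and
`p ∤ W = A'B - AB'`, then every irreducible `q` with `0 < P.ord (q(j))`, `j = A(t)/B(t)`, has
`P.ord (q(j)) = 1`: the uniformiser of the place of `K(j)` below `P` stays a uniformiser.
-/
import Mathlib
import Fermat.Agent.JA.LINE_helper2_Places
import Fermat.Agent.JA.LINE_helper2_Homog

set_option autoImplicit false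

open AlgebraicCurve Polynomial IntermediateField

namespace Fermat.Agent.JA

open Fermat.Agent.FF Fermat.Agent.FF.Gal

variable {K M : Type*} [Field K] [Field M] [Algebra K M]

/-- `j = A(t)/B(t)` is regular at a place where `t` is regular and `B(t)` is a unit. -/
theorem div_mem_of_ord_eq_zero (P : Place K M) {t : M} (ht : t ∈ P.toValuationSubring)
    (A : K[X]) {B : K[X]} (hB0 : aeval t B ≠ 0) (hB : P.ord (aeval t B) = 0) :
    aeval t A / aeval t B ∈ P.toValuationSubring := by
  by_cases hA : aeval t A = 0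
  · rw [hA, zero_div]
    exact zero_mem _
  · rw [PlaceAux.mem_iff_ord_nonneg' P (div_ne_zero hA hB0), PlaceAux.ord_div P hA hB0, hB,
      sub_zero]
    exact ord_aeval_nonneg P ht A

/-- **Unramifiedness criterion.** -/
theorem ord_aeval_div_eq_one [CharZero K] {t : M} (hgen : K⟮t⟯ = ⊤) (P : Place K M)
    {A B p : K[X]} (hp : Irreducible p) (hpos : 0 < P.ord (aeval t p)) (hpB : ¬ p ∣ B)
    (hpW : ¬ p ∣ derivative A * B - A * derivative B)
    {q : K[X]} (hq : Irreducible q)
    (hqpos : 0 < P.ord (aeval (aeval t A / aeval t B) q)) :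
    P.ord (aeval (aeval t A / aeval t B) q) = 1 := by
  have ht : t ∈ P.toValuationSubring := mem_of_ord_aeval_pos P hpos
  obtain ⟨hB0, hBord⟩ := ord_aeval_eq_zero_of_not_dvd P hp hpos hpB
  have hp1 := ord_aeval_eq_one_of_pos hgen P hp hpos
  have hpt0 : aeval t p ≠ 0 := by
    intro h
    rw [h, P.ord_zero] at hpos
    exact lt_irrefl _ hpos
  set j := aeval t A / aeval t B with hj
  have hjmem : j ∈ P.toValuationSubring := div_mem_of_ord_eq_zero P ht A hB0 hBord
  have hqj0 : aeval j q ≠ 0 := by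
    intro h
    rw [h, P.ord_zero] at hqpos
    exact lt_irrefl _ hqpos
  -- the degree of `q`
  obtain ⟨m, hm⟩ : ∃ m, q.natDegree = m + 1 :=
    Nat.exists_eq_succ_of_ne_zero hq.natDegree_pos.ne'
  -- the homogenisation
  set Q := homog q (m + 1) A B with hQdef
  have hQt : aeval t Q = aeval t B ^ (m + 1) * aeval j q := aeval_homog q (m + 1) hm.le A B t hB0
  have hQt0 : aeval t Q ≠ 0 := by
    rw [hQt]
    exact mul_ne_zero (pow_ne_zero _ hB0) hqj0
  have hQ0 : Q ≠ 0 := by
    intro h
    rw [h, map_zero] at hQt0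
    exact hQt0 rfl
  have hordQ : P.ord (aeval t Q) = P.ord (aeval j q) := by
    rw [hQt, P.ord_mul (pow_ne_zero _ hB0) hqj0, PlaceAux.ord_pow, hBord, mul_zero, zero_add]
  -- write `Q = p ^ k * Q'`
  obtain ⟨k, Q', hQ', hQeq⟩ := WfDvdMonoid.max_power_factor hQ0 hp
  obtain ⟨hQ't0, hQ'ord⟩ := ord_aeval_eq_zero_of_not_dvd P hp hpos hQ'
  have hk : P.ord (aeval t Q) = k := by
    rw [hQeq, map_mul, map_pow, P.ord_mul (pow_ne_zero _ hpt0) hQ't0, PlaceAux.ord_pow, hp1,
      hQ'ord]
    ring
  rw [← hordQ, hk]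
  rw [← hordQ, hk] at hqpos
  -- it suffices to exclude `2 ≤ k`
  by_contra hne
  have hk2 : 2 ≤ k := by
    have : (k : ℤ) ≠ 1 := hne
    have h0 : (0 : ℤ) < k := hqpos
    omega
  have hsq : p ^ 2 ∣ Q := by
    rw [hQeq]
    exact Dvd.dvd.mul_right (pow_dvd_pow p hk2) _
  have hpQ : p ∣ Q := (dvd_pow_self p two_ne_zero).trans hsq
  have hdQ : p ∣ derivative Q := dvd_derivative_of_sq_dvd hsq
  have hid := B_mul_derivative_homog q (m + 1) A B
  have hW : p ∣ (derivative A * B - A * derivative B) * homogD q (m + 1) A B := by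
    have h1 : p ∣ B * derivative Q := Dvd.dvd.mul_left hdQ _
    have h2 : p ∣ C ((m + 1 : ℕ) : K) * derivative B * Q := Dvd.dvd.mul_left hpQ _
    rw [← hQdef] at hid
    have h3 : (derivative A * B - A * derivative B) * homogD q (m + 1) A B =
        B * derivative Q - C ((m + 1 : ℕ) : K) * derivative B * Q := by
      rw [hid]; ring
    rw [h3]
    exact dvd_sub h1 h2
  have hQ1 : p ∣ homogD q (m + 1) A B := (hp.prime.dvd_or_dvd hW).resolve_left hpW
  obtain ⟨g, hg⟩ := hQ1
  have hD := aeval_homogD q m hm.le A B t hB0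
  rw [hg, map_mul] at hD
  -- `q'(j)` lies in the maximal ideal
  have hgmem : aeval t g ∈ P.toValuationSubring := aeval_mem_valuationSubring P ht g
  have hq'j : aeval j (derivative q) = aeval t p * (aeval t g / aeval t B ^ m) := by
    rw [mul_div_assoc', hD]
    exact (mul_div_cancel_left₀ _ (pow_ne_zero _ hB0)).symm
  have hunit : aeval t g / aeval t B ^ m ∈ P.toValuationSubring := by
    by_cases hg0 : aeval t g = 0
    · rw [hg0, zero_div]; exact zero_mem _
    · rw [PlaceAux.mem_iff_ord_nonneg' P (div_ne_zero hg0 (pow_ne_zero _ hB0)),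
        PlaceAux.ord_div P hg0 (pow_ne_zero _ hB0), PlaceAux.ord_pow, hBord, mul_zero, sub_zero]
      exact PlaceAux.ord_nonneg_of_mem P hgmem
  -- Bezout for `q` and `q'`
  obtain ⟨r, s, hrs⟩ := hq.separable
  have h1 : aeval j r * aeval j q + aeval j s * aeval j (derivative q) = 1 := by
    rw [← map_mul, ← map_mul, ← map_add, hrs, map_one]
  -- everything in the maximal ideal
  let 𝔪 := IsLocalRing.maximalIdeal P.toValuationSubring
  have hqm : (⟨aeval j q, aeval_mem_valuationSubring P hjmem q⟩ : P.toValuationSubring) ∈ 𝔪 := by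
    rw [mem_maximalIdeal_iff]
    right
    show 0 < P.ord (aeval j q)
    rw [← hordQ, hk]
    exact hqpos
  have hpm : (⟨aeval t p, aeval_mem_valuationSubring P ht p⟩ : P.toValuationSubring) ∈ 𝔪 := by
    rw [mem_maximalIdeal_iff]
    right
    exact hpos
  have hone : (1 : P.toValuationSubring) ∈ 𝔪 := by
    have e : (1 : P.toValuationSubring) =
        ⟨aeval j r, aeval_mem_valuationSubring P hjmem r⟩ *
            ⟨aeval j q, aeval_mem_valuationSubring P hjmem q⟩ +
          ⟨aeval j s, aeval_mem_valuationSubring P hjmem s⟩ *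
            (⟨aeval t p, aeval_mem_valuationSubring P ht p⟩ *
              ⟨aeval t g / aeval t B ^ m, hunit⟩) := by
      apply Subtype.ext
      show (1 : M) = aeval j r * aeval j q +
        aeval j s * (aeval t p * (aeval t g / aeval t B ^ m))
      rw [← hq'j, h1]
    rw [e]
    exact 𝔪.add_mem (𝔪.mul_mem_left _ hqm) (𝔪.mul_mem_left _ (𝔪.mul_mem_right _ hpm))
  exact (Ideal.ne_top_iff_one 𝔪).mp (IsLocalRing.maximalIdeal.isMaximal _).ne_top hone

end Fermat.Agent.JA
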