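/-
J-A project, package LINE (helper2), part 4: ramification of `K(t) / K(j)`, `j = A(t)/B(t)`, for a
rational function of "Belyi type":

  `A = cA · a₀³`,  `B = b₀ᵉ`,  `A - 1728 B = cS · s₀²`,  `A'B - AB' = cW · a₀² b₀ᵉ⁻¹ s₀`,
  `deg A = deg B + e`,

with `a₀, b₀, s₀` squarefree and pairwise coprime.  For every place `P` of `M = K(t)` over `K`
(characteristic zero):
* `0 < P.ord j → P.ord j = 3`;
* `0 < P.ord (j - 1728) → P.ord (j - 1728) = 2`;
* `P.ord j < 0 → P.ord j = -e`;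
* `P.ord j = 0 → P.ord (j - 1728) = 0 →` every irreducible `q` with `0 < P.ord (q(j))` has
  `P.ord (q(j)) = 1`.
-/
import Mathlib
import Fermat.Agent.JA.LINE_helper2_Unram

set_option autoImplicit false

open AlgebraicCurve Polynomial IntermediateField

namespace Fermat.Agent.JA

open Fermat.Agent.FF Fermat.Agent.FF.Gal

/-- the data of a rational function `J = A / B` of Belyi type (branched over `0, 1728, ∞` with
indices `3, 2, e`). -/
structure LineData (K : Type*) [Field K] where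
  A : K[X]
  B : K[X]
  a₀ : K[X]
  b₀ : K[X]
  s₀ : K[X]
  cA : K
  cS : K
  cW : K
  e : ℕ
  cA_ne : cA ≠ 0
  cS_ne : cS ≠ 0
  cW_ne : cW ≠ 0
  e_pos : 0 < e
  hA : A = C cA * a₀ ^ 3
  hB : B = b₀ ^ e
  hS : A - C 1728 * B = C cS * s₀ ^ 2
  hW : derivative A * B - A * derivative B = C cW * a₀ ^ 2 * b₀ ^ (e - 1) * s₀
  hdeg : A.natDegree = B.natDegree + e
  sq_a : Squarefree a₀
  sq_b : Squarefree b₀
  sq_s : Squarefree s₀
  cop_ab : IsCoprime a₀ b₀
  cop_as : IsCoprime a₀ s₀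
  cop_bs : IsCoprime b₀ s₀

namespace LineData

variable {K M : Type*} [Field K] [Field M] [Algebra K M] (D : LineData K)

/-- the function `j = A(t)/B(t)`. -/
noncomputable def j (t : M) : M := aeval t D.A / aeval t D.B

theorem a₀_ne_zero : D.a₀ ≠ 0 := D.sq_a.ne_zero
theorem b₀_ne_zero : D.b₀ ≠ 0 := D.sq_b.ne_zero
theorem s₀_ne_zero : D.s₀ ≠ 0 := D.sq_s.ne_zero

theorem A_ne_zero : D.A ≠ 0 := by
  rw [D.hA]
  exact mul_ne_zero (C_ne_zero.mpr D.cA_ne) (pow_ne_zero _ D.a₀_ne_zero)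

theorem B_ne_zero : D.B ≠ 0 := by
  rw [D.hB]
  exact pow_ne_zero _ D.b₀_ne_zero

/-- the order of a squarefree polynomial at a place centred at one of its irreducible factors. -/
theorem ord_aeval_squarefree (P : Place K M) {t : M} {p a : K[X]} (hp : Irreducible p)
    (hp1 : P.ord (aeval t p) = 1) (ha : Squarefree a) (hpa : p ∣ a) :
    aeval t a ≠ 0 ∧ P.ord (aeval t a) = 1 := by
  obtain ⟨c, rfl⟩ := hpa
  have hpc : ¬ p ∣ c := by
    intro h
    obtain ⟨d, rfl⟩ := h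
    exact hp.not_isUnit (ha p ⟨d, by ring⟩)
  have hpos : 0 < P.ord (aeval t p) := by omega
  have hpt0 : aeval t p ≠ 0 := by
    intro h
    rw [h, P.ord_zero] at hpos
    exact lt_irrefl _ hpos
  obtain ⟨hc0, hc⟩ := ord_aeval_eq_zero_of_not_dvd P hp hpos hpc
  refine ⟨?_, ?_⟩
  · rw [map_mul]
    exact mul_ne_zero hpt0 hc0
  · rw [map_mul, P.ord_mul hpt0 hc0, hp1, hc, add_zero]

variable {t : M}

theorem aeval_A (t : M) : aeval t D.A = algebraMap K M D.cA * aeval t D.a₀ ^ 3 := by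
  rw [D.hA, map_mul, map_pow, aeval_C]

theorem aeval_B (t : M) : aeval t D.B = aeval t D.b₀ ^ D.e := by
  rw [D.hB, map_pow]

theorem aeval_S (t : M) :
    aeval t D.A - 1728 * aeval t D.B = algebraMap K M D.cS * aeval t D.s₀ ^ 2 := by
  have := congrArg (aeval t) D.hS
  rw [map_sub, map_mul, map_mul, map_pow, aeval_C, aeval_C, map_ofNat] at this
  exact this

theorem j_sub (t : M) (hB : aeval t D.B ≠ 0) :
    D.j t - 1728 = algebraMap K M D.cS * aeval t D.s₀ ^ 2 / aeval t D.B := by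
  rw [← D.aeval_S, j]
  field_simp

/-- data at a finite centre `p`. -/
theorem ord_at_center (P : Place K M) {p : K[X]} (hp : Irreducible p)
    (hp1 : P.ord (aeval t p) = 1) (a : K[X]) (ha : Squarefree a) :
    aeval t a ≠ 0 ∧ ((p ∣ a ∧ P.ord (aeval t a) = 1) ∨ (¬ p ∣ a ∧ P.ord (aeval t a) = 0)) := by
  have hpos : 0 < P.ord (aeval t p) := by omega
  by_cases hpa : p ∣ a
  · obtain ⟨h0, h1⟩ := ord_aeval_squarefree P hp hp1 ha hpa
    exact ⟨h0, Or.inl ⟨hpa, h1⟩⟩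
  · obtain ⟨h0, h1⟩ := ord_aeval_eq_zero_of_not_dvd P hp hpos hpa
    exact ⟨h0, Or.inr ⟨hpa, h1⟩⟩

/-- an irreducible polynomial cannot divide two coprime polynomials. -/
theorem not_dvd_of_isCoprime {p a b : K[X]} (hp : Irreducible p) (h : IsCoprime a b) (ha : p ∣ a) :
    ¬ p ∣ b := fun hb => hp.not_isUnit (h.isUnit_of_dvd' ha hb)

section Main

variable [CharZero K] (hgen : K⟮t⟯ = ⊤) (P : Place K M)

include hgen

/-- the orders of `j` and `j - 1728` at a place of `K(t)` centred at `p`. -/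
theorem ord_j_at_center {p : K[X]} (hp : Irreducible p) (hp1 : P.ord (aeval t p) = 1) :
    aeval t D.B ≠ 0 ∧ D.j t ≠ 0 ∧ D.j t - 1728 ≠ 0 ∧
    ((p ∣ D.a₀ ∧ P.ord (D.j t) = 3 ∧ P.ord (D.j t - 1728) = 0) ∨
     (p ∣ D.b₀ ∧ P.ord (D.j t) = -D.e ∧ P.ord (D.j t - 1728) = -D.e) ∨
     (p ∣ D.s₀ ∧ P.ord (D.j t) = 0 ∧ P.ord (D.j t - 1728) = 2) ∨
     (¬ p ∣ D.a₀ ∧ ¬ p ∣ D.b₀ ∧ ¬ p ∣ D.s₀ ∧ P.ord (D.j t) = 0 ∧ P.ord (D.j t - 1728) = 0)) := by
  obtain ⟨ha0, ha⟩ := ord_at_center P hp hp1 D.a₀ D.sq_a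
  obtain ⟨hb0, hb⟩ := ord_at_center P hp hp1 D.b₀ D.sq_b
  obtain ⟨hs0, hs⟩ := ord_at_center P hp hp1 D.s₀ D.sq_s
  have hcA : algebraMap K M D.cA ≠ 0 := (_root_.map_ne_zero _).mpr D.cA_ne
  have hcS : algebraMap K M D.cS ≠ 0 := (_root_.map_ne_zero _).mpr D.cS_ne
  have hB0 : aeval t D.B ≠ 0 := by
    rw [D.aeval_B]
    exact pow_ne_zero _ hb0
  have hA0 : aeval t D.A ≠ 0 := by
    rw [D.aeval_A]
    exact mul_ne_zero hcA (pow_ne_zero _ ha0)
  have hj0 : D.j t ≠ 0 := div_ne_zero hA0 hB0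
  have hS0 : algebraMap K M D.cS * aeval t D.s₀ ^ 2 ≠ 0 := mul_ne_zero hcS (pow_ne_zero _ hs0)
  have hj1 : D.j t - 1728 ≠ 0 := by
    rw [D.j_sub t hB0]
    exact div_ne_zero hS0 hB0
  have hordj : P.ord (D.j t) = 3 * P.ord (aeval t D.a₀) - D.e * P.ord (aeval t D.b₀) := by
    rw [j, PlaceAux.ord_div P hA0 hB0, D.aeval_A, D.aeval_B, P.ord_mul hcA (pow_ne_zero _ ha0),
      PlaceAux.ord_algebraMap, PlaceAux.ord_pow, PlaceAux.ord_pow]
    push_cast
    ring
  have hordj1 : P.ord (D.j t - 1728) =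
      2 * P.ord (aeval t D.s₀) - D.e * P.ord (aeval t D.b₀) := by
    rw [D.j_sub t hB0, PlaceAux.ord_div P hS0 hB0, D.aeval_B, P.ord_mul hcS (pow_ne_zero _ hs0),
      PlaceAux.ord_algebraMap, PlaceAux.ord_pow, PlaceAux.ord_pow]
    push_cast
    ring
  refine ⟨hB0, hj0, hj1, ?_⟩
  rcases ha with ⟨hpa, ha1⟩ | ⟨hpa, ha1⟩
  · -- `p ∣ a₀`
    have hpb : ¬ p ∣ D.b₀ := not_dvd_of_isCoprime hp D.cop_ab hpa
    have hps : ¬ p ∣ D.s₀ := not_dvd_of_isCoprime hp D.cop_as hpa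
    have hb1 : P.ord (aeval t D.b₀) = 0 := by
      rcases hb with ⟨h, -⟩ | ⟨-, h⟩
      · exact absurd h hpb
      · exact h
    have hs1 : P.ord (aeval t D.s₀) = 0 := by
      rcases hs with ⟨h, -⟩ | ⟨-, h⟩
      · exact absurd h hps
      · exact h
    left
    refine ⟨hpa, ?_, ?_⟩
    · rw [hordj, ha1, hb1]; ring
    · rw [hordj1, hs1, hb1]; ring
  · rcases hb with ⟨hpb, hb1⟩ | ⟨hpb, hb1⟩
    · -- `p ∣ b₀`
      have hps : ¬ p ∣ D.s₀ := not_dvd_of_isCoprime hp D.cop_bs hpb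
      have hs1 : P.ord (aeval t D.s₀) = 0 := by
        rcases hs with ⟨h, -⟩ | ⟨-, h⟩
        · exact absurd h hps
        · exact h
      right; left
      refine ⟨hpb, ?_, ?_⟩
      · rw [hordj, ha1, hb1]; ring
      · rw [hordj1, hs1, hb1]; ring
    · rcases hs with ⟨hps, hs1⟩ | ⟨hps, hs1⟩
      · right; right; left
        refine ⟨hps, ?_, ?_⟩
        · rw [hordj, ha1, hb1]; ring
        · rw [hordj1, hs1, hb1]; ring
      · right; right; right
        refine ⟨hpa, hpb, hps, ?_, ?_⟩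
        · rw [hordj, ha1, hb1]; ring
        · rw [hordj1, hs1, hb1]; ring

/-- the orders of `j` and `j - 1728` at the place `t = ∞`. -/
theorem ord_j_at_infty (ht : P.ord t < 0) :
    D.j t ≠ 0 ∧ D.j t - 1728 ≠ 0 ∧ P.ord (D.j t) = -D.e ∧ P.ord (D.j t - 1728) = -D.e := by
  have ht1 := ord_eq_neg_one_of_neg hgen P ht
  obtain ⟨hA0, hA⟩ := ord_aeval_of_ord_neg P ht D.A_ne_zero
  obtain ⟨hB0, hB⟩ := ord_aeval_of_ord_neg P ht D.B_ne_zero
  have hj0 : D.j t ≠ 0 := div_ne_zero hA0 hB0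
  have hordj : P.ord (D.j t) = -D.e := by
    rw [j, PlaceAux.ord_div P hA0 hB0, hA, hB, ht1, D.hdeg]
    push_cast
    ring
  have he : (0 : ℤ) < D.e := by exact_mod_cast D.e_pos
  have h1728 : (1728 : M) ≠ 0 := by
    have : (1728 : M) = algebraMap K M 1728 := (map_ofNat _ 1728).symm
    rw [this]
    exact (_root_.map_ne_zero _).mpr (by norm_num)
  have hord1728 : P.ord (-1728 : M) = 0 := by
    rw [PlaceAux.ord_neg]
    have : (1728 : M) = algebraMap K M 1728 := (map_ofNat _ 1728).symm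
    rw [this, PlaceAux.ord_algebraMap]
  have hlt : P.ord (D.j t) < P.ord (-1728 : M) := by
    rw [hordj, hord1728]; omega
  have hsum := PlaceAux.ord_add_eq_of_lt P hj0 (neg_ne_zero.mpr h1728) hlt
  rw [← sub_eq_add_neg] at hsum
  refine ⟨hj0, ?_, hordj, ?_⟩
  · intro h
    rw [h, P.ord_zero, hordj] at hsum
    omega
  · rw [hsum, hordj]

/-- **(LINE.2b)** over `j = 0` the ramification index is `3`. -/
theorem ord_j_eq_three (h : 0 < P.ord (D.j t)) : P.ord (D.j t) = 3 := by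
  have he : (0 : ℤ) < D.e := by exact_mod_cast D.e_pos
  by_cases ht : t ∈ P.toValuationSubring
  · obtain ⟨p, -, hp, hp1⟩ := exists_center hgen P ht
    obtain ⟨-, -, -, h1 | h1 | h1 | h1⟩ := D.ord_j_at_center hgen P hp hp1
    · exact h1.2.1
    · rw [h1.2.1] at h; omega
    · rw [h1.2.1] at h; omega
    · rw [h1.2.2.2.1] at h; omega
  · have ht0 : t ≠ 0 := fun h0 => ht (h0 ▸ zero_mem _)
    have htn : P.ord t < 0 := by
      by_contra hn
      push Not at hn
      exact ht ((PlaceAux.mem_iff_ord_nonneg' P ht0).mpr hn)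
    obtain ⟨-, -, h1, -⟩ := D.ord_j_at_infty hgen P htn
    rw [h1] at h; omega

/-- **(LINE.2c)** over `j = 1728` the ramification index is `2`. -/
theorem ord_j_sub_eq_two (h : 0 < P.ord (D.j t - 1728)) : P.ord (D.j t - 1728) = 2 := by
  have he : (0 : ℤ) < D.e := by exact_mod_cast D.e_pos
  by_cases ht : t ∈ P.toValuationSubring
  · obtain ⟨p, -, hp, hp1⟩ := exists_center hgen P ht
    obtain ⟨-, -, -, h1 | h1 | h1 | h1⟩ := D.ord_j_at_center hgen P hp hp1
    · rw [h1.2.2] at h; omega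
    · rw [h1.2.2] at h; omega
    · exact h1.2.2
    · rw [h1.2.2.2.2] at h; omega
  · have ht0 : t ≠ 0 := fun h0 => ht (h0 ▸ zero_mem _)
    have htn : P.ord t < 0 := by
      by_contra hn
      push Not at hn
      exact ht ((PlaceAux.mem_iff_ord_nonneg' P ht0).mpr hn)
    obtain ⟨-, -, -, h1⟩ := D.ord_j_at_infty hgen P htn
    rw [h1] at h; omega

/-- **(LINE.2d)** over `j = ∞` the ramification index is `e`. -/
theorem ord_j_eq_neg (h : P.ord (D.j t) < 0) : P.ord (D.j t) = -D.e := by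
  by_cases ht : t ∈ P.toValuationSubring
  · obtain ⟨p, -, hp, hp1⟩ := exists_center hgen P ht
    obtain ⟨-, -, -, h1 | h1 | h1 | h1⟩ := D.ord_j_at_center hgen P hp hp1
    · rw [h1.2.1] at h; omega
    · exact h1.2.1
    · rw [h1.2.1] at h; omega
    · rw [h1.2.2.2.1] at h; omega
  · have ht0 : t ≠ 0 := fun h0 => ht (h0 ▸ zero_mem _)
    have htn : P.ord t < 0 := by
      by_contra hn
      push Not at hn
      exact ht ((PlaceAux.mem_iff_ord_nonneg' P ht0).mpr hn)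
    exact (D.ord_j_at_infty hgen P htn).2.2.1

/-- **(LINE.2a)** `K(t) / K(j)` is unramified outside `j ∈ {0, 1728, ∞}`. -/
theorem ord_aeval_j_eq_one (h0 : P.ord (D.j t) = 0) (h1 : P.ord (D.j t - 1728) = 0)
    {q : K[X]} (hq : Irreducible q) (hpos : 0 < P.ord (aeval (D.j t) q)) :
    P.ord (aeval (D.j t) q) = 1 := by
  have he : (0 : ℤ) < D.e := by exact_mod_cast D.e_pos
  by_cases ht : t ∈ P.toValuationSubring
  · obtain ⟨p, -, hp, hp1⟩ := exists_center hgen P ht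
    obtain ⟨-, -, -, h | h | h | h⟩ := D.ord_j_at_center hgen P hp hp1
    · rw [h.2.1] at h0; omega
    · rw [h.2.1] at h0; omega
    · rw [h.2.2] at h1; omega
    · obtain ⟨hpa, hpb, hps, -, -⟩ := h
      have hpB : ¬ p ∣ D.B := by
        rw [D.hB]
        exact fun hd => hpb (hp.prime.dvd_of_dvd_pow hd)
      have hpW : ¬ p ∣ derivative D.A * D.B - D.A * derivative D.B := by
        rw [D.hW]
        intro hd
        rcases hp.prime.dvd_or_dvd hd with hd | hd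
        · rcases hp.prime.dvd_or_dvd hd with hd | hd
          · rcases hp.prime.dvd_or_dvd hd with hd | hd
            · exact hp.not_isUnit (isUnit_of_dvd_unit hd
                (Polynomial.isUnit_C.mpr (isUnit_iff_ne_zero.mpr D.cW_ne)))
            · exact hpa (hp.prime.dvd_of_dvd_pow hd)
          · exact hpb (hp.prime.dvd_of_dvd_pow hd)
        · exact hps hd
      exact ord_aeval_div_eq_one hgen P hp (by omega) hpB hpW hq hpos
  · have ht0 : t ≠ 0 := fun h0 => ht (h0 ▸ zero_mem _)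
    have htn : P.ord t < 0 := by
      by_contra hn
      push Not at hn
      exact ht ((PlaceAux.mem_iff_ord_nonneg' P ht0).mpr hn)
    obtain ⟨-, -, h, -⟩ := D.ord_j_at_infty hgen P htn
    rw [h] at h0; omega

end Main

end LineData

end Fermat.Agent.JA
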