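/-
J-A project, package LINE (helper2), part 5: the two concrete rational functions.

* `legendreData K`: `J = 256 (X² - X + 1)³ / (X² (X - 1)²)`, `J - 1728 = 64 ((2X-1)(X-2)(X+1))² / B`,
  degree `6`, `e = 2`;
* `hesseData K`: `J = 27 X³ (X³ + 8)³ / (X³ - 1)³`, `J - 1728 = 27 (X⁶ - 20 X³ - 8)² / B`,
  degree `12`, `e = 3`.
-/
import Mathlib
import Fermat.Agent.JA.LINE_helper2_Data

set_option autoImplicit false

open Polynomial

namespace Fermat.Agent.JA

variable {K : Type*} [Field K]

theorem isCoprime_of_bezout {a b u v : K[X]} {c : K} (hc : c ≠ 0) (h : u * a + v * b = C c) :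
    IsCoprime a b :=
  ⟨C c⁻¹ * u, C c⁻¹ * v, by
    rw [mul_assoc, mul_assoc, ← mul_add, h, ← C_mul, inv_mul_cancel₀ hc, C_1]⟩

theorem squarefree_of_bezout {a u v : K[X]} {c : K} (hc : c ≠ 0)
    (h : u * a + v * derivative a = C c) : Squarefree a :=
  Separable.squarefree (isCoprime_of_bezout hc h)

variable (K) [CharZero K]

/-- the Legendre function `J = 256 (X² - X + 1)³ / (X² (X - 1)²)`. -/
noncomputable def legendreData : LineData K where
  A := 256 * (X ^ 2 - X + 1) ^ 3
  B := X ^ 2 * (X - 1) ^ 2
  a₀ := X ^ 2 - X + 1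
  b₀ := X * (X - 1)
  s₀ := (2 * X - 1) * (X - 2) * (X + 1)
  cA := 256
  cS := 64
  cW := 256
  e := 2
  cA_ne := by norm_num
  cS_ne := by norm_num
  cW_ne := by norm_num
  e_pos := by norm_num
  hA := by rw [map_ofNat]
  hB := by ring
  hS := by
    rw [map_ofNat, map_ofNat]
    ring
  hW := by
    rw [map_ofNat]
    simp only [derivative_mul, derivative_pow, derivative_add, derivative_sub, derivative_X,
      derivative_one, derivative_ofNat, Nat.cast_ofNat, map_ofNat]
    ring
  hdeg := by
    have hA : (256 * (X ^ 2 - X + 1) ^ 3 : K[X]).natDegree = 6 := by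
      compute_degree!
    have hB : (X ^ 2 * (X - 1) ^ 2 : K[X]).natDegree = 4 := by
      compute_degree!
    rw [hA, hB]
  sq_a := by
    refine squarefree_of_bezout (c := 3) (u := 4) (v := 1 - 2 * X) (by norm_num) ?_
    simp only [derivative_add, derivative_sub, derivative_X, derivative_one, derivative_X_pow,
      Nat.cast_ofNat, map_ofNat]
    ring
  sq_b := by
    refine squarefree_of_bezout (c := 1) (u := -4) (v := -1 + 2 * X) (by norm_num) ?_
    simp only [derivative_mul, derivative_sub, derivative_X, derivative_one, map_one]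
    ring
  sq_s := by
    refine squarefree_of_bezout (c := 27) (u := 6 - 12 * X) (v := -5 - 4 * X + 4 * X ^ 2)
      (by norm_num) ?_
    simp only [derivative_mul, derivative_add, derivative_sub, derivative_X, derivative_one,
      derivative_ofNat, map_ofNat]
    ring
  cop_ab := isCoprime_of_bezout (c := 1) (u := 1) (v := -1) (by norm_num) (by rw [map_one]; ring)
  cop_as := isCoprime_of_bezout (c := 9) (u := 11 + 4 * X - 4 * X ^ 2) (v := -1 + 2 * X)
    (by norm_num) (by rw [map_ofNat]; ring)
  cop_bs := isCoprime_of_bezout (c := 2) (u := -7 - 4 * X + 4 * X ^ 2) (v := 1 - 2 * X)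
    (by norm_num) (by rw [map_ofNat]; ring)


/-- the Hesse function `J = 27 X³ (X³ + 8)³ / (X³ - 1)³`. -/
noncomputable def hesseData : LineData K where
  A := 27 * X ^ 3 * (X ^ 3 + 8) ^ 3
  B := (X ^ 3 - 1) ^ 3
  a₀ := X * (X ^ 3 + 8)
  b₀ := X ^ 3 - 1
  s₀ := X ^ 6 - 20 * X ^ 3 - 8
  cA := 27
  cS := 27
  cW := 81
  e := 3
  cA_ne := by norm_num
  cS_ne := by norm_num
  cW_ne := by norm_num
  e_pos := by norm_num
  hA := by rw [map_ofNat]; ring
  hB := rfl
  hS := by
    rw [map_ofNat, map_ofNat]
    ring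
  hW := by
    rw [map_ofNat]
    simp only [derivative_mul, derivative_pow, derivative_add, derivative_sub, derivative_X,
      derivative_one, derivative_ofNat, derivative_X_pow, Nat.cast_ofNat, map_ofNat]
    ring
  hdeg := by
    have hA : (27 * X ^ 3 * (X ^ 3 + 8) ^ 3 : K[X]).natDegree = 12 := by
      compute_degree!
    have hB : ((X ^ 3 - 1) ^ 3 : K[X]).natDegree = 9 := by
      compute_degree!
    rw [hA, hB]
  sq_a := by
    refine squarefree_of_bezout (c := 48) (u := -4 * X ^ 2) (v := 6 + X ^ 3) (by norm_num) ?_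
    simp only [derivative_mul, derivative_add, derivative_X, derivative_ofNat, derivative_X_pow,
      Nat.cast_ofNat, map_ofNat]
    ring
  sq_b := by
    refine squarefree_of_bezout (c := 3) (u := -3) (v := X) (by norm_num) ?_
    simp only [derivative_sub, derivative_one, derivative_X_pow, Nat.cast_ofNat, map_ofNat]
    ring
  sq_s := by
    refine squarefree_of_bezout (c := 2592) (u := -324 + 30 * X ^ 3) (v := 104 * X - 5 * X ^ 4)
      (by norm_num) ?_
    simp only [derivative_mul, derivative_sub, derivative_ofNat, derivative_X_pow,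
      Nat.cast_ofNat, map_ofNat]
    ring
  cop_ab := isCoprime_of_bezout (c := 9) (u := X ^ 2) (v := -9 - X ^ 3) (by norm_num)
    (by rw [map_ofNat]; ring)
  cop_as := isCoprime_of_bezout (c := 432) (u := -142 * X ^ 2 + 7 * X ^ 5) (v := -54 - 7 * X ^ 3)
    (by norm_num) (by rw [map_ofNat]; ring)
  cop_bs := isCoprime_of_bezout (c := 27) (u := -19 + X ^ 3) (v := -1) (by norm_num)
    (by rw [map_ofNat]; ring)

variable {K}
variable {M : Type*} [Field M] [Algebra K M]

theorem legendreData_j (t : M) :
    (legendreData K).j t = 256 * (t ^ 2 - t + 1) ^ 3 / (t ^ 2 * (t - 1) ^ 2) := by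
  simp [LineData.j, legendreData, map_ofNat]

theorem hesseData_j (t : M) :
    (hesseData K).j t = 27 * t ^ 3 * (t ^ 3 + 8) ^ 3 / (t ^ 3 - 1) ^ 3 := by
  simp [LineData.j, hesseData, map_ofNat]

@[simp] theorem legendreData_e : (legendreData K).e = 2 := rfl
@[simp] theorem hesseData_e : (hesseData K).e = 3 := rfl

theorem legendreData_natDegree_A : (legendreData K).A.natDegree = 6 := by
  show (256 * (X ^ 2 - X + 1) ^ 3 : K[X]).natDegree = 6
  compute_degree!

theorem legendreData_natDegree_B : (legendreData K).B.natDegree = 4 := by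
  show (X ^ 2 * (X - 1) ^ 2 : K[X]).natDegree = 4
  compute_degree!

theorem hesseData_natDegree_A : (hesseData K).A.natDegree = 12 := by
  show (27 * X ^ 3 * (X ^ 3 + 8) ^ 3 : K[X]).natDegree = 12
  compute_degree!

theorem hesseData_natDegree_B : (hesseData K).B.natDegree = 9 := by
  show ((X ^ 3 - 1) ^ 3 : K[X]).natDegree = 9
  compute_degree!

end Fermat.Agent.JA
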