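/-
J-A project, package LINE (helper2), part 6 (LINE.1): the degree of `K(t) / K(j)`, `j = A(t)/B(t)`
with `A, B` coprime, is `max (deg A) (deg B)`; `j` is transcendental.  Transport of Mathlib's
`RatFunc.finrank_eq_max_natDegree` along `K(X) ≃ K(t)`.
-/
import Mathlib
import Fermat.Agent.JA.LINE_helper2_Legendre

set_option autoImplicit false

open Polynomial IntermediateField

namespace Fermat.Agent.JA

variable {K M : Type*} [Field K] [Field M] [Algebra K M]

/-- numerator and denominator degrees of a reduced fraction. -/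
theorem natDegree_num_denom_of_isCoprime {A B : K[X]} (hcop : IsCoprime A B) (hB : B ≠ 0) :
    (RatFunc.num (algebraMap K[X] (RatFunc K) A / algebraMap K[X] (RatFunc K) B)).natDegree
        = A.natDegree ∧
    (RatFunc.denom (algebraMap K[X] (RatFunc K) A / algebraMap K[X] (RatFunc K) B)).natDegree
        = B.natDegree := by
  set x : RatFunc K := algebraMap K[X] (RatFunc K) A / algebraMap K[X] (RatFunc K) B with hx
  have h := (RatFunc.num_mul_eq_mul_denom_iff (x := x) (p := A) hB).mpr rfl
  have hc := RatFunc.isCoprime_num_denom x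
  have h1 : A ∣ x.num := by
    have : A ∣ x.num * B := ⟨x.denom, h⟩
    exact hcop.dvd_of_dvd_mul_right this
  have h2 : x.num ∣ A := by
    have : x.num ∣ A * x.denom := ⟨B, h.symm⟩
    exact hc.dvd_of_dvd_mul_right this
  have h3 : B ∣ x.denom := by
    have : B ∣ A * x.denom := ⟨x.num, by rw [← h]; ring⟩
    exact hcop.symm.dvd_of_dvd_mul_left this
  have h4 : x.denom ∣ B := by
    have : x.denom ∣ x.num * B := ⟨A, by rw [h]; ring⟩
    exact hc.symm.dvd_of_dvd_mul_left this
  exact ⟨Polynomial.natDegree_eq_of_degree_eq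
      (Polynomial.degree_eq_degree_of_associated (associated_of_dvd_dvd h2 h1)),
    Polynomial.natDegree_eq_of_degree_eq
      (Polynomial.degree_eq_degree_of_associated (associated_of_dvd_dvd h4 h3))⟩

end Fermat.Agent.JA

namespace Fermat.Agent.JA

variable {K M : Type*} [Field K] [Field M] [Algebra K M]

/-- transport of `finrank` over an intermediate field along an algebra isomorphism. -/
theorem finrank_intermediateField_map {M' : Type*} [Field M'] [Algebra K M'] (e : M ≃ₐ[K] M')
    (F : IntermediateField K M) :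
    Module.finrank (F.map (e : M →ₐ[K] M')) M' = Module.finrank F M := by
  symm
  refine Algebra.finrank_eq_of_equiv_equiv
    (F.equivMap (e : M →ₐ[K] M')).toRingEquiv e.toRingEquiv ?_
  ext x
  rfl

/-- the isomorphism `K(X) ≃ M` for `M = K(t)`. -/
noncomputable def ratFuncEquivOfGen {t : M} (htr : Transcendental K t) (hgen : K⟮t⟯ = ⊤) :
    RatFunc K ≃ₐ[K] M :=
  (RatFunc.algEquivOfTranscendental t htr).trans
    ((IntermediateField.equivOfEq hgen).trans IntermediateField.topEquiv)

theorem ratFuncEquivOfGen_algebraMap {t : M} (htr : Transcendental K t) (hgen : K⟮t⟯ = ⊤)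
    (a : K[X]) : ratFuncEquivOfGen htr hgen (algebraMap K[X] (RatFunc K) a) = aeval t a := by
  simp [ratFuncEquivOfGen]

theorem ratFuncEquivOfGen_div {t : M} (htr : Transcendental K t) (hgen : K⟮t⟯ = ⊤)
    (a b : K[X]) :
    ratFuncEquivOfGen htr hgen (algebraMap K[X] (RatFunc K) a / algebraMap K[X] (RatFunc K) b)
      = aeval t a / aeval t b := by
  rw [map_div₀, ratFuncEquivOfGen_algebraMap, ratFuncEquivOfGen_algebraMap]

/-- **degree of `K(t) / K(A(t)/B(t))`** for coprime `A, B`. -/
theorem finrank_adjoin_aeval_div {t : M} (htr : Transcendental K t) (hgen : K⟮t⟯ = ⊤)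
    {A B : K[X]} (hcop : IsCoprime A B) (hB : B ≠ 0) :
    Module.finrank K⟮aeval t A / aeval t B⟯ M = max A.natDegree B.natDegree := by
  set f : RatFunc K := algebraMap K[X] (RatFunc K) A / algebraMap K[X] (RatFunc K) B with hf
  have h1 := finrank_intermediateField_map (ratFuncEquivOfGen htr hgen) K⟮f⟯
  rw [IntermediateField.adjoin_map, Set.image_singleton] at h1
  have h2 : ((ratFuncEquivOfGen htr hgen : RatFunc K ≃ₐ[K] M) : RatFunc K →ₐ[K] M) f
      = aeval t A / aeval t B := ratFuncEquivOfGen_div htr hgen A B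
  rw [h2] at h1
  rw [h1, RatFunc.finrank_eq_max_natDegree]
  obtain ⟨h3, h4⟩ := natDegree_num_denom_of_isCoprime hcop hB
  rw [h3, h4]

end Fermat.Agent.JA

namespace Fermat.Agent.JA

variable {K M : Type*} [Field K] [Field M] [Algebra K M]

/-- `A(t)/B(t)` is transcendental when `A, B` are coprime and `A` is not constant. -/
theorem transcendental_aeval_div {t : M} (htr : Transcendental K t) (hgen : K⟮t⟯ = ⊤)
    {A B : K[X]} (hcop : IsCoprime A B) (hB : B ≠ 0) (hA : 0 < A.natDegree) :
    Transcendental K (aeval t A / aeval t B) := by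
  set f : RatFunc K := algebraMap K[X] (RatFunc K) A / algebraMap K[X] (RatFunc K) B with hf
  have hne : ¬ ∃ c, f = RatFunc.C c := by
    rintro ⟨c, hc⟩
    have h3 := (natDegree_num_denom_of_isCoprime hcop hB).1
    rw [← hf, hc, RatFunc.num_C, natDegree_C] at h3
    omega
  have h1 : Transcendental K f := RatFunc.transcendental_of_ne_C f hne
  rw [← ratFuncEquivOfGen_div htr hgen A B]
  intro halg
  exact h1 ((isAlgebraic_algHom_iff ((ratFuncEquivOfGen htr hgen : RatFunc K ≃ₐ[K] M) :
    RatFunc K →ₐ[K] M) (ratFuncEquivOfGen htr hgen).injective).mp halg)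

namespace LineData

variable (D : LineData K)

theorem isCoprime_A_B : IsCoprime D.A D.B := by
  rw [D.hA, D.hB]
  refine IsCoprime.pow_right ?_
  refine (isCoprime_mul_unit_left_left (Polynomial.isUnit_C.mpr
    (isUnit_iff_ne_zero.mpr D.cA_ne)) _ _).mpr ?_
  exact IsCoprime.pow_left D.cop_ab

theorem natDegree_B_le : D.B.natDegree ≤ D.A.natDegree := by
  rw [D.hdeg]; omega

theorem natDegree_A_pos : 0 < D.A.natDegree := by
  rw [D.hdeg]; have := D.e_pos; omega

/-- **(LINE.1)** `[K(t) : K(j)] = deg A`. -/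
theorem finrank_adjoin_j {t : M} (htr : Transcendental K t) (hgen : K⟮t⟯ = ⊤) :
    Module.finrank K⟮D.j t⟯ M = D.A.natDegree := by
  rw [LineData.j, finrank_adjoin_aeval_div htr hgen D.isCoprime_A_B D.B_ne_zero,
    max_eq_left D.natDegree_B_le]

/-- **(LINE.1)** `j` is transcendental over `K`. -/
theorem transcendental_j {t : M} (htr : Transcendental K t) (hgen : K⟮t⟯ = ⊤) :
    Transcendental K (D.j t) :=
  transcendental_aeval_div htr hgen D.isCoprime_A_B D.B_ne_zero D.natDegree_A_pos

theorem finiteDimensional_adjoin_j {t : M} (htr : Transcendental K t) (hgen : K⟮t⟯ = ⊤) :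
    FiniteDimensional K⟮D.j t⟯ M :=
  Module.finite_of_finrank_pos (by rw [D.finrank_adjoin_j htr hgen]; exact D.natDegree_A_pos)

end LineData

theorem finrank_adjoin_legendre_j [CharZero K] {t : M} (htr : Transcendental K t)
    (hgen : K⟮t⟯ = ⊤) : Module.finrank K⟮(legendreData K).j t⟯ M = 6 := by
  rw [LineData.finrank_adjoin_j _ htr hgen, legendreData_natDegree_A]

theorem finrank_adjoin_hesse_j [CharZero K] {t : M} (htr : Transcendental K t)
    (hgen : K⟮t⟯ = ⊤) : Module.finrank K⟮(hesseData K).j t⟯ M = 12 := by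
  rw [LineData.finrank_adjoin_j _ htr hgen, hesseData_natDegree_A]

end Fermat.Agent.JA
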