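/-
J-A project, package LINE (helper2), part 8 (LINE.2 in valuation-subring form).

For `M = K(t)`, `j = J(t)` (`D : LineData K`), `V` a valuation subring of `M` with `K ⊆ V ≠ M` and
`V₀ = V.comap (algebraMap K⟮j⟯ M)`:
* `V` and `V₀` are discrete valuation rings;
* `LineData.ord_uniformizer`: the `V`-order of a uniformizer of `V₀` is `3 / 2 / e / 1` according to
  the position of `j`;
* `LineData.ramificationIdx_comap`: the same in Mathlib's form
  `(maximalIdeal V).ramificationIdx V₀` (for the algebra structure `comapAlgebra`).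
-/
import Mathlib
import Fermat.Agent.JA.LINE_helper2_DVR
import Fermat.Agent.JA.LINE_helper2_Degree

set_option autoImplicit false

open Polynomial IntermediateField IsLocalRing

namespace Fermat.Agent.JA

/-- ramification index of an extension of discrete valuation rings in terms of uniformizers. -/
theorem ramificationIdx_eq_of_associated_pow {V V' : Type*} [CommRing V] [IsDomain V]
    [IsDiscreteValuationRing V] [CommRing V'] [IsDomain V'] [IsDiscreteValuationRing V']
    [Algebra V V'] {ϖ₀ : V} (h₀ : Irreducible ϖ₀) {ϖ : V'} (h : Irreducible ϖ) {n : ℕ}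
    (hn : n ≠ 0) (hassoc : Associated (algebraMap V V' ϖ₀) (ϖ ^ n)) :
    (maximalIdeal V').ramificationIdx V = n := by
  have hmax₀ : maximalIdeal V = Ideal.span {ϖ₀} := h₀.maximalIdeal_eq
  have hmax : maximalIdeal V' = Ideal.span {ϖ} := h.maximalIdeal_eq
  have hmap : (maximalIdeal V).map (algebraMap V V') = (maximalIdeal V') ^ n := by
    rw [hmax₀, Ideal.map_span, Set.image_singleton, hmax, Ideal.span_singleton_pow,
      Ideal.span_singleton_eq_span_singleton]
    exact hassoc
  have hmem : algebraMap V V' ϖ₀ ∈ maximalIdeal V' := by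
    rw [hmax, Ideal.mem_span_singleton]
    exact (dvd_pow_self ϖ hn).trans hassoc.symm.dvd
  have : (maximalIdeal V').LiesOver (maximalIdeal V) := by
    constructor
    have hle : maximalIdeal V ≤ (maximalIdeal V').under V := by
      rw [hmax₀, Ideal.span_le, Set.singleton_subset_iff]
      exact hmem
    have hne : (maximalIdeal V').under V ≠ ⊤ := by
      intro htop
      have : (1 : V) ∈ (maximalIdeal V').under V := htop ▸ Submodule.mem_top
      rw [Ideal.mem_comap, map_one] at this
      exact (Ideal.ne_top_iff_one _).mp (maximalIdeal.isMaximal V').ne_top this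
    exact ((maximalIdeal.isMaximal V).eq_of_le hne hle)
  have hbot : (maximalIdeal V).map (algebraMap V V') ≠ ⊥ := by
    rw [hmap]
    exact pow_ne_zero _ (IsDiscreteValuationRing.not_a_field V')
  rw [Ideal.IsDedekindDomain.ramificationIdx_eq_multiplicity (maximalIdeal V) (maximalIdeal V') hbot,
    hmap]
  refine multiplicity_pow_self (IsDiscreteValuationRing.not_a_field V') ?_ n
  rw [Ideal.isUnit_iff]
  exact (maximalIdeal.isMaximal V').ne_top

end Fermat.Agent.JA

namespace Fermat.Agent.JA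

open AlgebraicCurve Fermat.Agent.FF

section ValOrd

variable {K M : Type*} [Field K] [Field M] [Algebra K M]

theorem one_lt_valuation_iff_ord_neg (P : Place K M) {x : M} (hx : x ≠ 0) :
    1 < P.toValuationSubring.valuation x ↔ P.ord x < 0 := by
  rw [← not_le, ValuationSubring.valuation_le_one_iff, PlaceAux.mem_iff_ord_nonneg' P hx, not_le]

theorem valuation_lt_one_iff_ord_pos (P : Place K M) {x : M} (hx : x ≠ 0) :
    P.toValuationSubring.valuation x < 1 ↔ 0 < P.ord x := by
  have h := one_lt_valuation_iff_ord_neg P (inv_ne_zero hx)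
  rw [map_inv₀, P.ord_inv, one_lt_inv₀ (zero_lt_iff.mpr ((Valuation.ne_zero_iff _).mpr hx))] at h
  rw [h]
  omega

theorem valuation_eq_one_iff_ord_eq_zero (P : Place K M) {x : M} (hx : x ≠ 0) :
    P.toValuationSubring.valuation x = 1 ↔ P.ord x = 0 := by
  have h1 := one_lt_valuation_iff_ord_neg P hx
  have h2 := valuation_lt_one_iff_ord_pos P hx
  constructor
  · intro h
    rw [h] at h1 h2
    have h1' := (not_congr h1).mp (lt_irrefl _)
    have h2' := (not_congr h2).mp (lt_irrefl _)
    omega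
  · intro h
    rw [h] at h1 h2
    have h1' := (not_congr h1).mpr (lt_irrefl _)
    have h2' := (not_congr h2).mpr (lt_irrefl _)
    exact le_antisymm (not_lt.mp h1') (not_lt.mp h2')

end ValOrd

section Comap

variable {L M : Type*} [Field L] [Field M]

/-- the canonical ring homomorphism `A.comap f → A`. -/
def comapRingHom (A : ValuationSubring M) (f : L →+* M) : A.comap f →+* A :=
  f.restrict (A.comap f) A (fun _ hx => hx)

/-- the canonical algebra structure `A.comap f → A`. -/
abbrev comapAlgebra (A : ValuationSubring M) (f : L →+* M) : Algebra (A.comap f) A :=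
  (comapRingHom A f).toAlgebra

@[simp] theorem coe_comapRingHom (A : ValuationSubring M) (f : L →+* M) (x : A.comap f) :
    ((comapRingHom A f x : A) : M) = f x := rfl

end Comap

section Sub

variable {K L M : Type*} [Field K] [Field L] [Field M] [Algebra K L] [Algebra K M] [Algebra L M]


/-- comparison of orders along a subfield. -/
theorem ord_algebraMap_eq_mul (P : Place K M) (P₀ : Place K L)
    (hP₀ : P₀.toValuationSubring = P.toValuationSubring.comap (algebraMap L M))
    {ϖ₀ : P₀.toValuationSubring} (hϖ₀ : Irreducible ϖ₀) (y : L) :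
    P.ord (algebraMap L M y) = P.ord (algebraMap L M ϖ₀) * P₀.ord y := by
  rcases eq_or_ne y 0 with rfl | hy
  · simp
  obtain ⟨u, hu⟩ := P₀.exists_unit_mul_zpow hy hϖ₀
  have hu0 : ((u : P₀.toValuationSubring) : L) ≠ 0 := by
    intro h
    exact u.ne_zero (Subtype.ext h)
  have hϖ0 : (ϖ₀ : L) ≠ 0 := fun h => hϖ₀.ne_zero (Subtype.ext h)
  have hiff : ∀ z : L, z ∈ P₀.toValuationSubring ↔ algebraMap L M z ∈ P.toValuationSubring :=
    fun z => by rw [hP₀]; rfl
  have hmem : ∀ w : P₀.toValuationSubring, algebraMap L M (w : L) ∈ P.toValuationSubring :=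
    fun w => (hiff _).mp w.2
  have hu1 : P.ord (algebraMap L M ((u : P₀.toValuationSubring) : L)) = 0 := by
    have h1 := PlaceAux.ord_nonneg_of_mem P (hmem (u : P₀.toValuationSubring))
    have h2 := PlaceAux.ord_nonneg_of_mem P (hmem ((u⁻¹ : P₀.toValuationSubringˣ) :
      P₀.toValuationSubring))
    have h3 : algebraMap L M (((u⁻¹ : P₀.toValuationSubringˣ) : P₀.toValuationSubring) : L)
        = (algebraMap L M ((u : P₀.toValuationSubring) : L))⁻¹ := by
      rw [← map_inv₀]
      congr 1
      refine eq_inv_of_mul_eq_one_left ?_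
      have h4 : ((u⁻¹ : P₀.toValuationSubringˣ) : P₀.toValuationSubring) *
          (u : P₀.toValuationSubring) = 1 := u.inv_mul
      exact congrArg Subtype.val h4
    rw [h3, P.ord_inv] at h2
    omega
  conv_lhs => rw [hu, map_mul, map_zpow₀]
  rw [P.ord_mul ((_root_.map_ne_zero _).mpr hu0)
    (zpow_ne_zero _ ((_root_.map_ne_zero _).mpr hϖ0)), hu1, zero_add, P.ord_zpow, mul_comm]

/-- a uniformizer of the subfield has positive order upstairs. -/
theorem ord_algebraMap_irreducible_pos (P : Place K M) (P₀ : Place K L)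
    (hP₀ : P₀.toValuationSubring = P.toValuationSubring.comap (algebraMap L M))
    {ϖ₀ : P₀.toValuationSubring} (hϖ₀ : Irreducible ϖ₀) :
    0 < P.ord (algebraMap L M ϖ₀) := by
  have hϖ0 : (ϖ₀ : L) ≠ 0 := fun h => hϖ₀.ne_zero (Subtype.ext h)
  have h0 : algebraMap L M (ϖ₀ : L) ≠ 0 := (_root_.map_ne_zero _).mpr hϖ0
  by_contra hcon
  push Not at hcon
  have h1 : (algebraMap L M (ϖ₀ : L))⁻¹ ∈ P.toValuationSubring := by
    rw [PlaceAux.mem_iff_ord_nonneg' P (inv_ne_zero h0), P.ord_inv]
    omega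
  rw [← map_inv₀] at h1
  have hiff : ∀ z : L, z ∈ P₀.toValuationSubring ↔ algebraMap L M z ∈ P.toValuationSubring :=
    fun z => by rw [hP₀]; rfl
  have h2 : (ϖ₀ : L)⁻¹ ∈ P₀.toValuationSubring := (hiff _).mpr h1
  apply hϖ₀.not_isUnit
  refine IsUnit.of_mul_eq_one ⟨(ϖ₀ : L)⁻¹, h2⟩ ?_
  apply Subtype.ext
  show (ϖ₀ : L) * (ϖ₀ : L)⁻¹ = 1
  exact mul_inv_cancel₀ hϖ0

end Sub

end Fermat.Agent.JA

namespace Fermat.Agent.JA

open AlgebraicCurve Fermat.Agent.FF

section Gen

variable {K M : Type*} [Field K] [Field M] [Algebra K M]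

/-- `K(α)` is generated by its canonical generator. -/
theorem adjoin_simple_gen_eq_top (α : M) : K⟮AdjoinSimple.gen K α⟯ = ⊤ := by
  rw [eq_top_iff]
  rintro ⟨x, hx⟩ -
  obtain ⟨r, s, hrs⟩ := (mem_adjoin_simple_iff K x).mp hx
  have h1 : (⟨x, hx⟩ : K⟮α⟯) = aeval (AdjoinSimple.gen K α) r / aeval (AdjoinSimple.gen K α) s := by
    apply Subtype.ext
    simp [hrs]
  rw [h1]
  exact div_mem (aeval_mem_adjoin_simple_self _ _) (aeval_mem_adjoin_simple_self _ _)

end Gen

end Fermat.Agent.JA

namespace Fermat.Agent.JA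

open AlgebraicCurve Fermat.Agent.FF

section ComapNeTop

variable {L M : Type*} [Field L] [Field M] [Algebra L M]

/-- the restriction of a nontrivial valuation subring to a subfield over which the big field is
algebraic is nontrivial. -/
theorem comap_ne_top_of_isAlgebraic [Algebra.IsAlgebraic L M] (V : ValuationSubring M)
    (hne : V ≠ ⊤) : V.comap (algebraMap L M) ≠ ⊤ := by
  intro htop
  apply hne
  rw [eq_top_iff]
  intro x _
  have hall : ∀ y : L, algebraMap L M y ∈ V := fun y => by
    have : y ∈ V.comap (algebraMap L M) := htop ▸ ValuationSubring.mem_top y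
    exact this
  let φ : L →+* V := (algebraMap L M).codRestrict V hall
  have hφ : (algebraMap V M).comp φ = algebraMap L M := by
    ext y
    rfl
  have hint : IsIntegral L x := (Algebra.IsAlgebraic.isAlgebraic x).isIntegral
  obtain ⟨p, hp, hpx⟩ := hint
  have hint' : IsIntegral V x := by
    refine ⟨p.map φ, hp.map φ, ?_⟩
    rw [Polynomial.eval₂_map, hφ]
    exact hpx
  obtain ⟨y, hy⟩ := (IsIntegrallyClosed.isIntegral_iff (R := V) (K := M)).mp hint'
  rw [← hy]
  exact y.2

end ComapNeTop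

end Fermat.Agent.JA

namespace Fermat.Agent.JA

open AlgebraicCurve Fermat.Agent.FF

namespace LineData

variable {K M : Type*} [Field K] [Field M] [Algebra K M] (D : LineData K) {t : M}
  (htr : Transcendental K t) (hgen : K⟮t⟯ = ⊤) (V : ValuationSubring M)
  (hK : ∀ a : K, algebraMap K M a ∈ V) (hne : V ≠ ⊤)

include htr hgen hne in
theorem comap_ne_top : V.comap (algebraMap K⟮D.j t⟯ M) ≠ ⊤ := by
  have := D.finiteDimensional_adjoin_j htr hgen
  have : Algebra.IsAlgebraic K⟮D.j t⟯ M := Algebra.IsAlgebraic.of_finite _ _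
  exact comap_ne_top_of_isAlgebraic V hne

/-- the place of `K(j)` below a valuation subring of `K(t)`. -/
noncomputable def subPlace : Place K K⟮D.j t⟯ :=
  placeOfValuationSubring (V.comap (algebraMap K⟮D.j t⟯ M))
    (fun a => by
      show algebraMap K⟮D.j t⟯ M (algebraMap K K⟮D.j t⟯ a) ∈ V
      rw [← IsScalarTower.algebraMap_apply]
      exact hK a)
    (D.comap_ne_top htr hgen V hne) (adjoin_simple_gen_eq_top (D.j t))

theorem subPlace_toValuationSubring :
    (D.subPlace htr hgen V hK hne).toValuationSubring = V.comap (algebraMap K⟮D.j t⟯ M) := rfl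

/-- **(LINE.2, `v`-form)** the order at `V` of a uniformizer `ϖ₀` of the place of `K(j)` below
`V`. -/
theorem ord_uniformizer [CharZero K] (htr : Transcendental K t)
    {ϖ₀ : V.comap (algebraMap K⟮D.j t⟯ M)} (hϖ₀ : Irreducible ϖ₀) :
    (V.valuation (D.j t) < 1 →
      (placeOfValuationSubring V hK hne hgen).ord ((ϖ₀ : K⟮D.j t⟯) : M) = 3) ∧
    (V.valuation (D.j t - 1728) < 1 →
      (placeOfValuationSubring V hK hne hgen).ord ((ϖ₀ : K⟮D.j t⟯) : M) = 2) ∧
    (1 < V.valuation (D.j t) →
      (placeOfValuationSubring V hK hne hgen).ord ((ϖ₀ : K⟮D.j t⟯) : M) = D.e) ∧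
    (V.valuation (D.j t) = 1 → V.valuation (D.j t - 1728) = 1 →
      (placeOfValuationSubring V hK hne hgen).ord ((ϖ₀ : K⟮D.j t⟯) : M) = 1) := by
  set P := placeOfValuationSubring V hK hne hgen with hP
  set P₀ := D.subPlace htr hgen V hK hne with hP₀
  have hPV : P.toValuationSubring = V := rfl
  have hcomp : P₀.toValuationSubring = P.toValuationSubring.comap (algebraMap K⟮D.j t⟯ M) := rfl
  have hgen₀ := adjoin_simple_gen_eq_top (K := K) (D.j t)
  set g : K⟮D.j t⟯ := AdjoinSimple.gen K (D.j t) with hg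
  have hmul := fun y : K⟮D.j t⟯ =>
    ord_algebraMap_eq_mul P P₀ hcomp (ϖ₀ := ϖ₀) hϖ₀ y
  have hpos := ord_algebraMap_irreducible_pos P P₀ hcomp (ϖ₀ := ϖ₀) hϖ₀
  have hcoe : algebraMap K⟮D.j t⟯ M ((ϖ₀ : K⟮D.j t⟯)) = ((ϖ₀ : K⟮D.j t⟯) : M) := rfl
  rw [hcoe] at hmul hpos
  set e' := P.ord ((ϖ₀ : K⟮D.j t⟯) : M) with he'
  have hjtr := D.transcendental_j htr hgen
  have hj0 : D.j t ≠ 0 := by
    intro h
    rw [h] at hjtr
    exact hjtr (isAlgebraic_zero)
  have hj1 : D.j t - 1728 ≠ 0 := by
    intro h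
    rw [sub_eq_zero] at h
    rw [h] at hjtr
    have h1728 : (1728 : M) = algebraMap K M 1728 := (map_ofNat _ 1728).symm
    rw [h1728] at hjtr
    exact hjtr (isAlgebraic_algebraMap _)
  have haev : ∀ q : K[X], algebraMap K⟮D.j t⟯ M (aeval g q) = aeval (D.j t) q := fun q => by
    rw [← aeval_algebraMap_apply]
    rfl
  refine ⟨?_, ?_, ?_, ?_⟩
  · intro h
    have h1 : 0 < P.ord (D.j t) := (valuation_lt_one_iff_ord_pos P hj0).mp h
    have h3 := D.ord_j_eq_three hgen P h1
    have h4 := hmul g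
    rw [AdjoinSimple.algebraMap_gen, h3] at h4
    have h5 : 0 < P₀.ord (aeval g (X : K[X])) := by
      rw [aeval_X]
      by_contra hcon
      push Not at hcon
      nlinarith
    have h6 := ord_aeval_eq_one_of_pos hgen₀ P₀ irreducible_X h5
    rw [aeval_X] at h6
    rw [h6, mul_one] at h4
    exact h4.symm
  · intro h
    have h1 : 0 < P.ord (D.j t - 1728) := (valuation_lt_one_iff_ord_pos P hj1).mp h
    have h3 := D.ord_j_sub_eq_two hgen P h1
    have h4 := hmul (aeval g (X - C 1728 : K[X]))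
    rw [haev, map_sub, aeval_X, aeval_C, map_ofNat, h3] at h4
    have h5 : 0 < P₀.ord (aeval g (X - C 1728 : K[X])) := by
      by_contra hcon
      push Not at hcon
      nlinarith
    have h6 := ord_aeval_eq_one_of_pos hgen₀ P₀ (irreducible_X_sub_C 1728) h5
    rw [h6, mul_one] at h4
    exact h4.symm
  · intro h
    have h1 : P.ord (D.j t) < 0 := (one_lt_valuation_iff_ord_neg P hj0).mp h
    have h3 := D.ord_j_eq_neg hgen P h1
    have h4 := hmul g
    rw [AdjoinSimple.algebraMap_gen, h3] at h4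
    have he : (0 : ℤ) < D.e := by exact_mod_cast D.e_pos
    have h5 : P₀.ord g < 0 := by
      by_contra hcon
      push Not at hcon
      nlinarith
    have h6 := ord_eq_neg_one_of_neg hgen₀ P₀ h5
    rw [h6] at h4
    omega
  · intro h0 h1
    have h0' : P.ord (D.j t) = 0 := (valuation_eq_one_iff_ord_eq_zero P hj0).mp h0
    have h1' : P.ord (D.j t - 1728) = 0 := (valuation_eq_one_iff_ord_eq_zero P hj1).mp h1
    have h4 := hmul g
    rw [AdjoinSimple.algebraMap_gen, h0'] at h4
    have h5 : P₀.ord g = 0 := by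
      rcases mul_eq_zero.mp h4.symm with h | h
      · omega
      · exact h
    have hg0 : g ≠ 0 := by
      intro h
      apply hj0
      have := congrArg (algebraMap K⟮D.j t⟯ M) h
      rwa [AdjoinSimple.algebraMap_gen, map_zero] at this
    have hgmem : g ∈ P₀.toValuationSubring :=
      (PlaceAux.mem_iff_ord_nonneg' P₀ hg0).mpr h5.ge
    obtain ⟨q, -, hq, hq1⟩ := exists_center hgen₀ P₀ hgmem
    have h6 := hmul (aeval g q)
    rw [haev, hq1, mul_one] at h6
    have h7 := D.ord_aeval_j_eq_one hgen P h0' h1' hq (by rw [h6]; exact hpos)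
    rw [h7] at h6
    exact h6.symm

end LineData

end Fermat.Agent.JA

namespace Fermat.Agent.JA

open AlgebraicCurve Fermat.Agent.FF

section RamIdx

variable {L M : Type*} [Field L] [Field M]

/-- ramification index of `V ∩ L ⊆ V` from uniformizers. -/
theorem ramificationIdx_comap_eq (V : ValuationSubring M) [IsDiscreteValuationRing V]
    (f : L →+* M) [IsDiscreteValuationRing (V.comap f)] {ϖ₀ : V.comap f} (hϖ₀ : Irreducible ϖ₀)
    {ϖ : V} (hϖ : Irreducible ϖ) {n : ℕ} (hn : n ≠ 0) (u : Vˣ)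
    (h : f (ϖ₀ : L) = ((u : V) : M) * (ϖ : M) ^ n) :
    letI := comapAlgebra V f
    (maximalIdeal V).ramificationIdx (V.comap f) = n := by
  letI := comapAlgebra V f
  refine ramificationIdx_eq_of_associated_pow hϖ₀ hϖ hn ?_
  refine ⟨u⁻¹, ?_⟩
  apply Subtype.ext
  show f (ϖ₀ : L) * (((u⁻¹ : Vˣ) : V) : M) = (ϖ : M) ^ n
  rw [h]
  have h1 : ((u : V) : M) * (((u⁻¹ : Vˣ) : V) : M) = 1 := by
    have h2 : (u : V) * ((u⁻¹ : Vˣ) : V) = 1 := u.mul_inv
    exact congrArg Subtype.val h2
  calc ((u : V) : M) * (ϖ : M) ^ n * (((u⁻¹ : Vˣ) : V) : M)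
      = (((u : V) : M) * (((u⁻¹ : Vˣ) : V) : M)) * (ϖ : M) ^ n := by ring
    _ = (ϖ : M) ^ n := by rw [h1, one_mul]

end RamIdx

namespace LineData

variable {K M : Type*} [Field K] [Field M] [Algebra K M] (D : LineData K) {t : M}
  (hgen : K⟮t⟯ = ⊤) (V : ValuationSubring M)
  (hK : ∀ a : K, algebraMap K M a ∈ V) (hne : V ≠ ⊤)

include hgen hK hne in
/-- **(LINE.2)** every place of `K(t)` is a DVR, and so is the place of `K(j)` below it. -/
theorem isDiscreteValuationRing_comap (htr : Transcendental K t) :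
    IsDiscreteValuationRing (V.comap (algebraMap K⟮D.j t⟯ M)) :=
  inferInstanceAs (IsDiscreteValuationRing (D.subPlace htr hgen V hK hne).toValuationSubring)

include hgen hK hne in
/-- ramification index from the order of a uniformizer. -/
theorem ramificationIdx_eq_of_ord_uniformizer (htr : Transcendental K t)
    {ϖ₀ : V.comap (algebraMap K⟮D.j t⟯ M)} (hϖ₀ : Irreducible ϖ₀) {n : ℕ} (hn : n ≠ 0)
    (h : (placeOfValuationSubring V hK hne hgen).ord ((ϖ₀ : K⟮D.j t⟯) : M) = n) :
    letI := comapAlgebra V (algebraMap K⟮D.j t⟯ M)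
    (maximalIdeal V).ramificationIdx (V.comap (algebraMap K⟮D.j t⟯ M)) = n := by
  haveI : IsDiscreteValuationRing V := isDiscreteValuationRing_of_adjoin_eq_top V hK hne hgen
  haveI := D.isDiscreteValuationRing_comap hgen V hK hne htr
  obtain ⟨ϖ, hϖ⟩ := IsDiscreteValuationRing.exists_irreducible V
  have hϖ0 : ((ϖ₀ : K⟮D.j t⟯) : M) ≠ 0 := by
    intro h0
    apply hϖ₀.ne_zero
    apply Subtype.ext
    apply Subtype.ext
    exact h0
  obtain ⟨u, hu⟩ := (placeOfValuationSubring V hK hne hgen).exists_unit_mul_zpow hϖ0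
    (π := ϖ) hϖ
  rw [h, zpow_natCast] at hu
  exact ramificationIdx_comap_eq V (algebraMap K⟮D.j t⟯ M) hϖ₀ hϖ hn u hu

include hgen hK hne in
/-- **(LINE.2, Mathlib form)** the ramification indices of `K(t) / K(j)`. -/
theorem ramificationIdx_comap [CharZero K] (htr : Transcendental K t) :
    letI := comapAlgebra V (algebraMap K⟮D.j t⟯ M)
    (V.valuation (D.j t) < 1 →
      (maximalIdeal V).ramificationIdx (V.comap (algebraMap K⟮D.j t⟯ M)) = 3) ∧
    (V.valuation (D.j t - 1728) < 1 →
      (maximalIdeal V).ramificationIdx (V.comap (algebraMap K⟮D.j t⟯ M)) = 2) ∧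
    (1 < V.valuation (D.j t) →
      (maximalIdeal V).ramificationIdx (V.comap (algebraMap K⟮D.j t⟯ M)) = D.e) ∧
    (V.valuation (D.j t) = 1 → V.valuation (D.j t - 1728) = 1 →
      (maximalIdeal V).ramificationIdx (V.comap (algebraMap K⟮D.j t⟯ M)) = 1) := by
  haveI := D.isDiscreteValuationRing_comap hgen V hK hne htr
  obtain ⟨ϖ₀, hϖ₀⟩ := IsDiscreteValuationRing.exists_irreducible
    (V.comap (algebraMap K⟮D.j t⟯ M))
  obtain ⟨h1, h2, h3, h4⟩ := D.ord_uniformizer hgen V hK hne htr hϖ₀
  refine ⟨fun h => ?_, fun h => ?_, fun h => ?_, fun h h' => ?_⟩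
  · exact D.ramificationIdx_eq_of_ord_uniformizer hgen V hK hne htr hϖ₀ (by norm_num) (h1 h)
  · exact D.ramificationIdx_eq_of_ord_uniformizer hgen V hK hne htr hϖ₀ (by norm_num) (h2 h)
  · exact D.ramificationIdx_eq_of_ord_uniformizer hgen V hK hne htr hϖ₀ D.e_pos.ne' (h3 h)
  · exact D.ramificationIdx_eq_of_ord_uniformizer hgen V hK hne htr hϖ₀ (by norm_num)
      (by rw [h4 h h']; rfl)

end LineData

end Fermat.Agent.JA
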