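/-
J-A package GM — helper1.
(JLine) the characteristic-zero fields of `JLineHyp` for `F' / K₁(j)` from ramification data in the
language of places (`AlgebraicCurve.Place K₁ F'`, = RAM0), via the dictionary
"maximal ideals of `integralClosure ↥𝒱₀ F'` ↦ places of `F'`" (`DictHyp`, = helper4's DICT).
-/
import Fermat.Agent.JA.LINE_helper2_Ram
import Fermat.Agent.JA.GM_helper1_Main
import Fermat.Agent.JA.DICT_helper4_Main

set_option autoImplicit false
set_option linter.style.haveILetI false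
set_option linter.unusedSectionVars false

open Polynomial IntermediateField AlgebraicCurve

namespace Fermat.Agent.JA

open Fermat.Agent.FF

section JLine

variable {K₁ : Type*} [Field K₁] {K₀ : Type*} [Field K₀] [Algebra K₁ K₀]
  {F' : Type*} [Field F'] [Algebra K₀ F'] [Algebra K₁ F'] [IsScalarTower K₁ K₀ F']

/-- the dictionary between maximal ideals of the integral closure and places, at one place `𝒱₀`
of `K₀`. -/
def DictHyp (K₁ : Type*) [Field K₁] {K₀ : Type*} [Field K₀] [Algebra K₁ K₀]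
    (F' : Type*) [Field F'] [Algebra K₀ F'] [Algebra K₁ F']
    (𝒱₀ : ValuationSubring K₀) : Prop :=
  ∀ Q : Ideal ↥(integralClosure ↥𝒱₀ F'), Q.IsMaximal →
    ∃ P : Place K₁ F', P.toValuationSubring.comap (algebraMap K₀ F') = 𝒱₀ ∧
      ∀ ϖ : ↥𝒱₀, Irreducible ϖ →
        P.ord (algebraMap K₀ F' (ϖ : K₀)) = (Q.ramificationIdx ↥𝒱₀ : ℤ)

variable (j : K₀) (hgen₀ : K₁⟮j⟯ = ⊤)

include hgen₀ in
/-- helper4's (DICT) gives the dictionary at every place of `K₀ = K₁(j)` over `K₁`. -/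
theorem dictHyp_of_adjoin_eq_top [FiniteDimensional K₀ F'] [Algebra.IsSeparable K₀ F']
    (𝒱₀ : ValuationSubring K₀) (hne : 𝒱₀ ≠ ⊤) (hK : ∀ a : K₁, algebraMap K₁ K₀ a ∈ 𝒱₀) :
    DictHyp K₁ F' 𝒱₀ := by
  haveI : IsDiscreteValuationRing ↥𝒱₀ := isDiscreteValuationRing_of_adjoin_eq_top 𝒱₀ hK hne hgen₀
  intro Q hQ
  obtain ⟨P, hP, -, -, hram⟩ := exists_place_of_isMaximal (K₁ := K₁) 𝒱₀ hK Q hQ
  exact ⟨P, hP, fun ϖ hϖ => (hram ϖ hϖ).symm⟩

include hgen₀ in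
/-- the key computation: for `Q` maximal over `𝒱₀` with associated place `P`, and `y ∈ K₀` of
order `1` at `𝒱₀`, the ramification index of `Q` is `P.ord y`. -/
theorem exists_place_ord_eq_ramIdx_mul (𝒱₀ : ValuationSubring K₀) (hne : 𝒱₀ ≠ ⊤)
    (hK : ∀ a : K₁, algebraMap K₁ K₀ a ∈ 𝒱₀) (hd : DictHyp K₁ F' 𝒱₀)
    (Q : Ideal ↥(integralClosure ↥𝒱₀ F')) (hQ : Q.IsMaximal) :
    ∃ P : Place K₁ F', 0 < Q.ramificationIdx ↥𝒱₀ ∧ ∀ y : K₀,
      P.ord (algebraMap K₀ F' y) = (Q.ramificationIdx ↥𝒱₀ : ℤ) *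
        (placeOfValuationSubring 𝒱₀ hK hne hgen₀).ord y := by
  obtain ⟨P, hPc, hPo⟩ := hd Q hQ
  haveI : IsDiscreteValuationRing ↥𝒱₀ := isDiscreteValuationRing_of_adjoin_eq_top 𝒱₀ hK hne hgen₀
  obtain ⟨ϖ, hϖ⟩ := IsDiscreteValuationRing.exists_irreducible ↥𝒱₀
  set P₀ := placeOfValuationSubring 𝒱₀ hK hne hgen₀ with hP₀
  have hcomp : P₀.toValuationSubring = P.toValuationSubring.comap (algebraMap K₀ F') :=
    hPc.symm
  have hϖ' : Irreducible (ϖ : ↥P₀.toValuationSubring) := hϖ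
  have hpos := ord_algebraMap_irreducible_pos P P₀ hcomp (ϖ₀ := ϖ) hϖ'
  have hmul := fun y : K₀ => ord_algebraMap_eq_mul P P₀ hcomp (ϖ₀ := ϖ) hϖ' y
  have he := hPo ϖ hϖ
  refine ⟨P, ?_, fun y => ?_⟩
  · have : (0 : ℤ) < (Q.ramificationIdx ↥𝒱₀ : ℤ) := by rw [← he]; exact hpos
    exact_mod_cast this
  · rw [hmul y, he]

end JLine

section Main

variable {R : Type*} [CommRing R] [IsDomain R] [IsDiscreteValuationRing R] [CharZero R]
  {K₁ : Type*} [Field K₁] [Algebra R K₁] [IsFractionRing R K₁]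
  {K₀ : Type*} [Field K₀] [Algebra K₁ K₀] [Algebra R K₀] [IsScalarTower R K₁ K₀]
  {F' : Type*} [Field F'] [Algebra K₀ F'] [Algebra K₁ F'] [IsScalarTower K₁ K₀ F']
  [FiniteDimensional K₀ F']

/-- **`JLineHyp` from ramification data on places** (RAM0-shape `r1`–`r4`), the dictionary
`DictHyp` and the Gauss-place input (G1). -/
theorem jLineHyp_of_ram_of_dictHyp (π : R) (j : K₀) (hgen₀ : K₁⟮j⟯ = ⊤) (N : ℕ)
    (hdict : ∀ 𝒱₀ : ValuationSubring K₀, 𝒱₀ ≠ ⊤ → (∀ a : K₁, algebraMap K₁ K₀ a ∈ 𝒱₀) →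
      DictHyp K₁ F' 𝒱₀)
    (r1 : ∀ (P : Place K₁ F') (q : K₁[X]), Irreducible q → q.Monic → q ≠ X → q ≠ X - C 1728 →
      0 < P.ord (aeval (algebraMap K₀ F' j) q) → P.ord (aeval (algebraMap K₀ F' j) q) = 1)
    (r2 : ∀ P : Place K₁ F', 0 < P.ord (algebraMap K₀ F' j) → P.ord (algebraMap K₀ F' j) ∣ 3)
    (r3 : ∀ P : Place K₁ F', 0 < P.ord (algebraMap K₀ F' j - 1728) →
      P.ord (algebraMap K₀ F' j - 1728) ∣ 2)
    (r4 : ∀ P : Place K₁ F', P.ord (algebraMap K₀ F' j) < 0 →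
      (-P.ord (algebraMap K₀ F' j)) ∣ (N : ℤ))
    (hgauss : ∀ 𝒢 : ValuationSubring K₀, IsGaussAt R π j 𝒢 → Unr 𝒢 F') :
    JLineHyp (K₁ := K₁) π j F' N := by
  haveI : CharZero K₁ := charZero_of_injective_algebraMap (IsFractionRing.injective R K₁)
  haveI : CharZero K₀ := charZero_of_injective_algebraMap (algebraMap K₁ K₀).injective
  haveI : Algebra.IsSeparable K₀ F' := Algebra.IsAlgebraic.isSeparable_of_perfectField
  refine ⟨fun 𝒱₀ hne hK hj hj0 hj1 => ?_, fun 𝒱₀ hne hK hj hj0 => ?_,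
    fun 𝒱₀ hne hK hj hj1 => ?_, fun 𝒱₀ hne hK hj => ?_, hgauss⟩
  · -- generic
    haveI : IsDiscreteValuationRing ↥𝒱₀ :=
      isDiscreteValuationRing_of_adjoin_eq_top 𝒱₀ hK hne hgen₀
    haveI : CharZero (IsLocalRing.ResidueField ↥𝒱₀) :=
      charZero_residueField_of_algebraMap_mem 𝒱₀ hK
    apply unr_of_tameAt_one
    intro Q hQ
    obtain ⟨P, hepos, hP⟩ :=
      exists_place_ord_eq_ramIdx_mul j hgen₀ 𝒱₀ hne hK (hdict 𝒱₀ hne hK) Q hQ
    set P₀ := placeOfValuationSubring 𝒱₀ hK hne hgen₀ with hP₀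
    obtain ⟨q, hqm, hqi, hq1⟩ := exists_center hgen₀ P₀ (show j ∈ P₀.toValuationSubring from hj)
    have hqX : q ≠ X := by
      rintro rfl
      rw [aeval_X] at hq1
      have h1 : 0 ≤ P₀.ord j⁻¹ :=
        PlaceAux.ord_nonneg_of_mem P₀ (show j⁻¹ ∈ P₀.toValuationSubring from hj0)
      rw [P₀.ord_inv, hq1] at h1
      omega
    have hq1728 : q ≠ X - C 1728 := by
      rintro rfl
      rw [map_sub, aeval_X, aeval_C, map_ofNat] at hq1
      have h1 : 0 ≤ P₀.ord (j - 1728)⁻¹ :=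
        PlaceAux.ord_nonneg_of_mem P₀ (show (j - 1728)⁻¹ ∈ P₀.toValuationSubring from hj1)
      rw [P₀.ord_inv, hq1] at h1
      omega
    have h2 := hP (aeval j q)
    rw [hq1, mul_one, ← Polynomial.aeval_algebraMap_apply] at h2
    have h3 := r1 P q hqi hqm hqX hq1728 (by rw [h2]; exact_mod_cast hepos)
    rw [h2] at h3
    have h4 : Q.ramificationIdx ↥𝒱₀ = 1 := by exact_mod_cast h3
    rw [h4]
  · -- over `j = 0`
    intro Q hQ
    obtain ⟨P, hepos, hP⟩ :=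
      exists_place_ord_eq_ramIdx_mul j hgen₀ 𝒱₀ hne hK (hdict 𝒱₀ hne hK) Q hQ
    set P₀ := placeOfValuationSubring 𝒱₀ hK hne hgen₀ with hP₀
    have hj0' : j ≠ 0 := by
      rintro rfl
      exact hj0 (by rw [inv_zero]; exact 𝒱₀.zero_mem)
    have hpos : 0 < P₀.ord j := by
      have h1 : ¬ 0 ≤ P₀.ord j⁻¹ := fun h =>
        hj0 ((PlaceAux.mem_iff_ord_nonneg' P₀ (inv_ne_zero hj0')).mpr h)
      rw [P₀.ord_inv] at h1
      omega
    have h1 := ord_aeval_eq_one_of_pos hgen₀ P₀ irreducible_X (by rwa [aeval_X])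
    rw [aeval_X] at h1
    have h2 := hP j
    rw [h1, mul_one] at h2
    have h3 := r2 P (by rw [h2]; exact_mod_cast hepos)
    rw [h2] at h3
    exact_mod_cast h3
  · -- over `j = 1728`
    intro Q hQ
    obtain ⟨P, hepos, hP⟩ :=
      exists_place_ord_eq_ramIdx_mul j hgen₀ 𝒱₀ hne hK (hdict 𝒱₀ hne hK) Q hQ
    set P₀ := placeOfValuationSubring 𝒱₀ hK hne hgen₀ with hP₀
    have hy0 : j - 1728 ≠ 0 := by
      intro h
      exact hj1 (by rw [h, inv_zero]; exact 𝒱₀.zero_mem)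
    have hpos : 0 < P₀.ord (j - 1728) := by
      have h1 : ¬ 0 ≤ P₀.ord (j - 1728)⁻¹ := fun h =>
        hj1 ((PlaceAux.mem_iff_ord_nonneg' P₀ (inv_ne_zero hy0)).mpr h)
      rw [P₀.ord_inv] at h1
      omega
    have haev : aeval j (X - C (1728 : K₁)) = j - 1728 := by
      rw [map_sub, aeval_X, aeval_C, map_ofNat]
    have h1 := ord_aeval_eq_one_of_pos hgen₀ P₀ (irreducible_X_sub_C (1728 : K₁))
      (by rwa [haev])
    rw [haev] at h1
    have h2 := hP (j - 1728)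
    rw [h1, mul_one, map_sub, map_ofNat] at h2
    have h3 := r3 P (by rw [h2]; exact_mod_cast hepos)
    rw [h2] at h3
    exact_mod_cast h3
  · -- over `j = ∞`
    intro Q hQ
    obtain ⟨P, hepos, hP⟩ :=
      exists_place_ord_eq_ramIdx_mul j hgen₀ 𝒱₀ hne hK (hdict 𝒱₀ hne hK) Q hQ
    set P₀ := placeOfValuationSubring 𝒱₀ hK hne hgen₀ with hP₀
    have hj0' : j ≠ 0 := by
      rintro rfl
      exact hj 𝒱₀.zero_mem
    have hneg : P₀.ord j < 0 := by
      have h1 : ¬ 0 ≤ P₀.ord j := fun h =>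
        hj ((PlaceAux.mem_iff_ord_nonneg' P₀ hj0').mpr h)
      omega
    have h1 := ord_eq_neg_one_of_neg hgen₀ P₀ hneg
    have h2 := hP j
    rw [h1] at h2
    have hlt : P.ord (algebraMap K₀ F' j) < 0 := by
      rw [h2]
      have : (0 : ℤ) < (Q.ramificationIdx ↥𝒱₀ : ℤ) := by exact_mod_cast hepos
      linarith
    have h3 := r4 P hlt
    rw [h2] at h3
    have h4 : -((Q.ramificationIdx ↥𝒱₀ : ℤ) * -1) = (Q.ramificationIdx ↥𝒱₀ : ℤ) := by ring
    rw [h4] at h3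
    exact_mod_cast h3

/-- **`JLineHyp` from ramification data on places** (RAM0-shape `r1`–`r4`) and the Gauss-place
input (G1); the dictionary is helper4's (DICT). -/
theorem jLineHyp_of_ram (π : R) (j : K₀) (hgen₀ : K₁⟮j⟯ = ⊤) (N : ℕ)
    (r1 : ∀ (P : Place K₁ F') (q : K₁[X]), Irreducible q → q.Monic → q ≠ X → q ≠ X - C 1728 →
      0 < P.ord (aeval (algebraMap K₀ F' j) q) → P.ord (aeval (algebraMap K₀ F' j) q) = 1)
    (r2 : ∀ P : Place K₁ F', 0 < P.ord (algebraMap K₀ F' j) → P.ord (algebraMap K₀ F' j) ∣ 3)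
    (r3 : ∀ P : Place K₁ F', 0 < P.ord (algebraMap K₀ F' j - 1728) →
      P.ord (algebraMap K₀ F' j - 1728) ∣ 2)
    (r4 : ∀ P : Place K₁ F', P.ord (algebraMap K₀ F' j) < 0 →
      (-P.ord (algebraMap K₀ F' j)) ∣ (N : ℤ))
    (hgauss : ∀ 𝒢 : ValuationSubring K₀, IsGaussAt R π j 𝒢 → Unr 𝒢 F') :
    JLineHyp (K₁ := K₁) π j F' N := by
  haveI : CharZero K₁ := charZero_of_injective_algebraMap (IsFractionRing.injective R K₁)
  haveI : CharZero K₀ := charZero_of_injective_algebraMap (algebraMap K₁ K₀).injective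
  haveI : Algebra.IsSeparable K₀ F' := Algebra.IsAlgebraic.isSeparable_of_perfectField
  exact jLineHyp_of_ram_of_dictHyp π j hgen₀ N
    (fun 𝒱₀ hne hK => dictHyp_of_adjoin_eq_top j hgen₀ 𝒱₀ hne hK) r1 r2 r3 r4 hgauss

end Main

end Fermat.Agent.JA
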