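/-
J-A package GM — helper1.
(JLineHost) `JLineHyp` for the image `F_w ⊂ K₁⸨x⸩` (`q = x^w`) of the function field of `X₀(N)`
over `K₁`, from RAM0 (helper2), the dictionary (DICT, helper4) and the Gauss-place input.
-/
import Fermat.Agent.JA.GM_helper1_JLine
import Fermat.Agent.JA.RAM0_helper2_Shapes
import Fermat.Agent.JA.HOST_helper3_Main
import Fermat.Agent.X0N.S24_helper7_Generic

set_option autoImplicit false
set_option linter.style.haveILetI false
set_option linter.unusedSectionVars false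

open Polynomial IntermediateField AlgebraicCurve

namespace Fermat.Agent.JA

open Fermat.Agent.FF Fermat.Agent.FF.Gal

section Transport

variable {K F F' : Type*} [Field K] [Field F] [Field F'] [Algebra K F] [Algebra K F']

/-- pull back a place along an isomorphism of function fields. -/
theorem exists_place_ord_comp_equiv (e : F ≃ₐ[K] F') (P' : Place K F') :
    ∃ P : Place K F, ∀ x : F, P.ord x = P'.ord (e x) := by
  have hν : IsOrdFun K (fun x : F => P'.ord (e x)) :=
    { map_mul := fun x y hx hy => by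
        show P'.ord (e (x * y)) = _
        rw [map_mul]
        exact P'.ord_mul ((map_ne_zero e).mpr hx) ((map_ne_zero e).mpr hy)
      map_add := fun x y hx hy hxy => by
        show _ ≤ P'.ord (e (x + y))
        rw [map_add]
        refine ord_add P' ((map_ne_zero e).mpr hx) ((map_ne_zero e).mpr hy) ?_
        rw [← map_add]
        exact (map_ne_zero e).mpr hxy
      map_algebraMap := fun a ha => by
        show P'.ord (e (algebraMap K F a)) = 0
        rw [e.commutes]
        exact Gal.ord_algebraMap P' ha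
      nontrivial := by
        obtain ⟨π, hπ0, hπ⟩ := exists_ord_eq_one P'
        refine ⟨e.symm π, (map_ne_zero e.symm).mpr hπ0, ?_⟩
        show P'.ord (e (e.symm π)) ≠ 0
        rw [e.apply_symm_apply, hπ]
        exact one_ne_zero }
  have h1 : ∃ y : F, y ≠ 0 ∧ (fun x : F => P'.ord (e x)) y = 1 := by
    obtain ⟨π, hπ0, hπ⟩ := exists_ord_eq_one P'
    refine ⟨e.symm π, (map_ne_zero e.symm).mpr hπ0, ?_⟩
    show P'.ord (e (e.symm π)) = 1
    rw [e.apply_symm_apply, hπ]
  refine ⟨hν.place, fun x => ?_⟩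
  rcases eq_or_ne x 0 with rfl | hx
  · rw [map_zero, Place.ord_zero, Place.ord_zero]
  · exact hν.place_ord_eq h1 hx

end Transport

section FinTransport

variable {K₁ H : Type*} [Field K₁] [Field H] [Algebra K₁ H]

open scoped Fermat.Agent.JA.Host in
/-- finiteness of `F / K₁(x)` transported along an isomorphism onto an intermediate field of a
host. -/
theorem finite_of_algEquiv_intermediateField {F : Type*} [Field F] [Algebra K₁ F]
    (B : IntermediateField K₁ H) (e : F ≃ₐ[K₁] ↥B) (x : F) (y : H) (hy : ((e x : ↥B) : H) = y)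
    [hle : Fact (K₁⟮y⟯ ≤ B)] [Module.Finite ↥K₁⟮x⟯ F] : Module.Finite ↥K₁⟮y⟯ ↥B := by
  let φ : F →ₐ[K₁] H := B.val.comp (e : F →ₐ[K₁] ↥B)
  have hφ : ∀ c : F, φ c = ((e c : ↥B) : H) := fun c => rfl
  have hmap : (K₁⟮x⟯).map φ = K₁⟮y⟯ := by
    rw [IntermediateField.adjoin_map, Set.image_singleton, hφ, hy]
  let e₁ : ↥K₁⟮x⟯ ≃ₐ[K₁] ↥K₁⟮y⟯ :=
    (IntermediateField.equivMap K₁⟮x⟯ φ).trans (IntermediateField.equivOfEq hmap)
  refine Module.Finite.of_equiv_equiv (e₁ : ↥K₁⟮x⟯ ≃+* ↥K₁⟮y⟯) (e : F ≃+* ↥B) ?_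
  ext c
  rfl

end FinTransport

section Host

open scoped Fermat.Agent.JA.Host
open ModularCurve Fermat.Agent.X0N

variable {K₁ : Type*} [Field K₁] [Algebra ℚ K₁] (N : ℕ) [NeZero N] (w : ℕ) [NeZero w]

/-- the coordinate `j(x^w)` is the image of `jGen` under `F_q ≃ F_w`. -/
theorem coe_hostImageEquiv_jGen :
    ((hostImageEquiv K₁ w (laurentBaseChange K₁ (modularFunctionFieldFull N)) (jGen K₁ N) :
      ↥(hostImage K₁ w (laurentBaseChange K₁ (modularFunctionFieldFull N)))) : LaurentSeries K₁)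
      = jqNModC K₁ w := by
  rw [coe_hostImageEquiv]
  show qExpand K₁ w (coeffEmb K₁ jq) = jqNModC K₁ w
  rw [jqNModC, coeffEmb, ← jqModC_rat, coeffMap_jqModC]

theorem jqNModC_mem_hostImage :
    jqNModC K₁ w ∈ hostImage K₁ w (laurentBaseChange K₁ (modularFunctionFieldFull N)) := by
  rw [← coe_hostImageEquiv_jGen N w]
  exact Subtype.mem _

theorem adjoin_jqNModC_le_hostImage :
    K₁⟮jqNModC K₁ w⟯ ≤ hostImage K₁ w (laurentBaseChange K₁ (modularFunctionFieldFull N)) := by
  rw [IntermediateField.adjoin_le_iff, Set.singleton_subset_iff]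
  exact jqNModC_mem_hostImage N w

/-- `F_w` is finite over `K₁(j(x^w))`. -/
theorem finite_hostImage_full [Algebra K₁ ℂ]
    [Fact (K₁⟮jqNModC K₁ w⟯ ≤
      hostImage K₁ w (laurentBaseChange K₁ (modularFunctionFieldFull N)))] :
    Module.Finite ↥K₁⟮jqNModC K₁ w⟯
      ↥(hostImage K₁ w (laurentBaseChange K₁ (modularFunctionFieldFull N))) := by
  haveI := (finrank_laurentBaseChange_full_eq K₁ N).1
  exact finite_of_algEquiv_intermediateField _
    (hostImageEquiv K₁ w (laurentBaseChange K₁ (modularFunctionFieldFull N))) (jGen K₁ N)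
    (jqNModC K₁ w) (coe_hostImageEquiv_jGen N w)

variable {R : Type*} [CommRing R] [IsDomain R] [IsDiscreteValuationRing R] [CharZero R]
  [Algebra R K₁] [IsFractionRing R K₁] [Algebra K₁ ℂ]

/-- **`JLineHyp` for `F_w`**, the image in `K₁⸨x⸩` of the function field of `X₀(N)` over `K₁`,
from RAM0 and (DICT), given the Gauss-place input (G1). -/
theorem jLineHyp_hostImage (hN : ∃ z : K₁, IsPrimitiveRoot z N) (π : R)
    [Fact (K₁⟮jqNModC K₁ w⟯ ≤
      hostImage K₁ w (laurentBaseChange K₁ (modularFunctionFieldFull N)))]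
    (hgauss : ∀ 𝒢 : ValuationSubring ↥K₁⟮jqNModC K₁ w⟯,
      IsGaussAt R π (AdjoinSimple.gen K₁ (jqNModC K₁ w)) 𝒢 →
      Unr 𝒢 ↥(hostImage K₁ w (laurentBaseChange K₁ (modularFunctionFieldFull N)))) :
    JLineHyp (K₁ := K₁) π (AdjoinSimple.gen K₁ (jqNModC K₁ w))
      ↥(hostImage K₁ w (laurentBaseChange K₁ (modularFunctionFieldFull N))) N := by
  haveI : Module.Finite ↥K₁⟮jqNModC K₁ w⟯
      ↥(hostImage K₁ w (laurentBaseChange K₁ (modularFunctionFieldFull N))) :=
    finite_hostImage_full N w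
  set e := hostImageEquiv K₁ w (laurentBaseChange K₁ (modularFunctionFieldFull N)) with he
  have hj : algebraMap ↥K₁⟮jqNModC K₁ w⟯
      ↥(hostImage K₁ w (laurentBaseChange K₁ (modularFunctionFieldFull N)))
      (AdjoinSimple.gen K₁ (jqNModC K₁ w)) = e (jGen K₁ N) := by
    apply Subtype.ext
    rw [Host.coe_algebraMap, AdjoinSimple.coe_gen, he, coe_hostImageEquiv_jGen]
  have haev : ∀ q : K₁[X], aeval (e (jGen K₁ N)) q = e (aeval (jGen K₁ N) q) := fun q =>
    Polynomial.aeval_algHom_apply e (jGen K₁ N) q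
  refine jLineHyp_of_ram π (AdjoinSimple.gen K₁ (jqNModC K₁ w)) (adjoin_simple_gen_eq_top _) N
    (fun P' q hq hm h0 h1 hpos => ?_) (fun P' hpos => ?_) (fun P' hpos => ?_)
    (fun P' hneg => ?_) hgauss
  · obtain ⟨P, hP⟩ := exists_place_ord_comp_equiv e P'
    rw [hj, haev, ← hP] at hpos ⊢
    exact ram0_generic' hN P q hq hm h0 h1 hpos
  · obtain ⟨P, hP⟩ := exists_place_ord_comp_equiv e P'
    rw [hj, ← hP] at hpos ⊢
    exact ram0_zero_dvd hN P hpos
  · obtain ⟨P, hP⟩ := exists_place_ord_comp_equiv e P'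
    have h1728 : e (jGen K₁ N) - 1728 = e (jGen K₁ N - 1728) := by
      rw [map_sub, map_ofNat]
    rw [hj, h1728, ← hP] at hpos ⊢
    exact ram0_1728_dvd hN P hpos
  · obtain ⟨P, hP⟩ := exists_place_ord_comp_equiv e P'
    rw [hj, ← hP] at hneg ⊢
    exact ram0_infty_neg hN P hneg

end Host

end Fermat.Agent.JA
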