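/-
J-A package G1 (helper5), part M: (R-b) in the host: the Gauss place of `K₁(j(x^w))` is unramified
in `F_w`, the image in `K₁((x))` (`q = x^w`) of the function field of `X₀(N)` over `K₁` —
literally the `hgauss` of helper1's `jLineHyp_hostImage`.
-/
import Fermat.Agent.JA.G1_helper5_Unr
import Fermat.Agent.JA.GM_helper1_JLineHost

set_option autoImplicit false
set_option linter.unusedSectionVars false
set_option linter.style.haveILetI false
set_option synthInstance.maxHeartbeats 200000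

open scoped MatrixGroups
open Polynomial IntermediateField Fermat.Agent.Igusa Fermat.Agent.X0N ModularCurve
  CongruenceSubgroup AlgebraicCurve

namespace Fermat.Agent.JA

noncomputable section

section UnrTransport

/-- `Unr` transfers along an isomorphism of extensions. -/
theorem unr_of_algEquiv {K : Type*} [Field K] (𝒱 : ValuationSubring K) {E E' : Type*} [Field E]
    [Field E'] [Algebra K E] [Algebra K E'] (e : E ≃ₐ[K] E') (h : Unr 𝒱 E) : Unr 𝒱 E' := by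
  unfold Unr at h ⊢
  have hint : ∀ x : E, IsIntegral ↥𝒱 x ↔ IsIntegral ↥𝒱 (e x) := by
    intro x
    have hcomp : (algebraMap ↥𝒱 E').comp (RingHom.id ↥𝒱) =
        (e : E →+* E').comp (algebraMap ↥𝒱 E) := by
      ext a
      exact (e.commutes (a : K)).symm
    have hcomp' : (algebraMap ↥𝒱 E).comp (RingHom.id ↥𝒱) =
        (e.symm : E' →+* E).comp (algebraMap ↥𝒱 E') := by
      ext a
      exact (e.symm.commutes (a : K)).symm
    constructor
    · intro hx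
      exact IsIntegral.map_of_comp_eq (RingHom.id ↥𝒱) (e : E →+* E') hcomp hx
    · intro hx
      have := IsIntegral.map_of_comp_eq (RingHom.id ↥𝒱) (e.symm : E' →+* E) hcomp' hx
      simpa using this
  let eB : ↥(integralClosure ↥𝒱 E) ≃ₐ[↥𝒱] ↥(integralClosure ↥𝒱 E') :=
    { toFun := fun x => ⟨e x, (hint x).mp x.2⟩
      invFun := fun y => ⟨e.symm y, (hint _).mpr (by rw [e.apply_symm_apply]; exact y.2)⟩
      left_inv := fun x => Subtype.ext (e.symm_apply_apply x)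
      right_inv := fun y => Subtype.ext (e.apply_symm_apply y)
      map_mul' := fun x y => Subtype.ext (map_mul e (x : E) (y : E))
      map_add' := fun x y => Subtype.ext (map_add e (x : E) (y : E))
      commutes' := fun a => Subtype.ext (e.commutes (a : K)) }
  exact Algebra.FormallyUnramified.of_equiv eB

end UnrTransport

section Host

open scoped Fermat.Agent.JA.Host

variable {K₁ : Type*} [Field K₁] [Algebra ℚ K₁] (N : ℕ) [NeZero N] (w : ℕ) [NeZero w]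

variable {R : Type*} [CommRing R] [IsDomain R] [IsDiscreteValuationRing R] [CharZero R]
  [Algebra R K₁] [IsFractionRing R K₁] [Algebra K₁ ℂ] [IsScalarTower ℚ K₁ ℂ]

theorem transcendental_jqNModC_host : Transcendental K₁ (jqNModC K₁ w) :=
  Host.transcendental_of_coeff_ne_zero (n := -(w : ℤ))
    (by rw [neg_ne_zero]; exact_mod_cast NeZero.ne w)
    (by rw [Host.coeff_jqNModC]; exact one_ne_zero)

/-- **(R-b) in the host**, literally the `hgauss` of `jLineHyp_hostImage`. -/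
theorem unr_hostImage_of_isGaussAt
    (hdeg : LinearIndependent
      (IntermediateField.adjoin (IsLocalRing.ResidueField R) {jqModC (IsLocalRing.ResidueField R)})
      (fun i : Fin (Gamma0 N).index => (jqNModC (IsLocalRing.ResidueField R) N) ^ (i : ℕ)))
    (hdata : ModLData (IsLocalRing.ResidueField R) N)
    [Fact (K₁⟮jqNModC K₁ w⟯ ≤
      hostImage K₁ w (laurentBaseChange K₁ (modularFunctionFieldFull N)))]
    {π : R} (hπ : Irreducible π)
    (𝒢 : ValuationSubring ↥K₁⟮jqNModC K₁ w⟯)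
    (h𝒢 : IsGaussAt R π (AdjoinSimple.gen K₁ (jqNModC K₁ w)) 𝒢) :
    Unr 𝒢 ↥(hostImage K₁ w (laurentBaseChange K₁ (modularFunctionFieldFull N))) := by
  have htr : Transcendental K₁ (AdjoinSimple.gen K₁ (jqNModC K₁ w)) :=
    Host.transcendental_gen (transcendental_jqNModC_host w)
  have hK : IntermediateField.adjoin K₁ {AdjoinSimple.gen K₁ (jqNModC K₁ w)} = ⊤ :=
    Host.adjoin_gen_eq_top _
  set Fq : IntermediateField K₁ (LaurentSeries K₁) :=
    laurentBaseChange K₁ (modularFunctionFieldFull N) with hFqdef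
  set Fw : IntermediateField K₁ (LaurentSeries K₁) := hostImage K₁ w Fq with hFwdef
  set e : ↥Fq ≃ₐ[K₁] ↥Fw := hostImageEquiv K₁ w Fq with he
  -- the twisted algebra structure `K₁(j_w) → F_q`
  let ρ : ↥K₁⟮jqNModC K₁ w⟯ →+* ↥Fq :=
    (e.symm : ↥Fw →+* ↥Fq).comp (algebraMap ↥K₁⟮jqNModC K₁ w⟯ ↥Fw)
  letI algρ : Algebra ↥K₁⟮jqNModC K₁ w⟯ ↥Fq := ρ.toAlgebra
  haveI towρ : IsScalarTower K₁ ↥K₁⟮jqNModC K₁ w⟯ ↥Fq :=
    IsScalarTower.of_algebraMap_eq fun c => by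
      show algebraMap K₁ ↥Fq c =
        e.symm (algebraMap ↥K₁⟮jqNModC K₁ w⟯ ↥Fw (algebraMap K₁ ↥K₁⟮jqNModC K₁ w⟯ c))
      rw [← IsScalarTower.algebraMap_apply K₁ ↥K₁⟮jqNModC K₁ w⟯ ↥Fw, e.symm.commutes]
  have hjq : jqModC K₁ ∈ Fq := by
    rw [hFqdef, laurentBaseChange_full_eq_fullC]
    exact jqModC_mem_fullC K₁ N
  have hj₀ : ((algebraMap ↥K₁⟮jqNModC K₁ w⟯ ↥Fq (AdjoinSimple.gen K₁ (jqNModC K₁ w)) : ↥Fq) :
      LaurentSeries K₁) = jqModC K₁ := by
    have h1 : e ⟨jqModC K₁, hjq⟩ =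
        algebraMap ↥K₁⟮jqNModC K₁ w⟯ ↥Fw (AdjoinSimple.gen K₁ (jqNModC K₁ w)) :=
      Subtype.ext rfl
    show ((e.symm (algebraMap ↥K₁⟮jqNModC K₁ w⟯ ↥Fw (AdjoinSimple.gen K₁ (jqNModC K₁ w))) : ↥Fq) :
      LaurentSeries K₁) = _
    rw [← h1, e.symm_apply_apply]
  have h1 : Unr 𝒢 ↥Fq :=
    unr_fullC_of_isGaussAt R K₁ N Fq (laurentBaseChange_full_eq_fullC K₁ N) hdeg hdata
      (AdjoinSimple.gen K₁ (jqNModC K₁ w)) hj₀ htr hK hπ 𝒢 h𝒢
  let eK : ↥Fq ≃ₐ[↥K₁⟮jqNModC K₁ w⟯] ↥Fw :=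
    { (e : ↥Fq ≃+* ↥Fw) with commutes' := fun r => e.apply_symm_apply _ }
  exact unr_of_algEquiv 𝒢 eK h1

end Host

section HostBases

open scoped Fermat.Agent.JA.Host

local notation "Ω" => AlgebraicClosure ℚ

variable {ℓ : ℕ} [Fact ℓ.Prime] {A : ValuationSubring (AlgebraicClosure ℚ)}
  (hA : A.LiesOverPrime ℓ) (N : ℕ) [NeZero N] (w : ℕ) [NeZero w]
  {K₁ : IntermediateField ℚ (AlgebraicClosure ℚ)}

include hA in
/-- **(R-b) in the host at a base** `R₁ = A ∩ K₁`. -/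
theorem unr_hostImage_baseRing_of_isGaussAt (hℓN : ¬ ℓ ∣ N) (h : flatBase ℓ ≤ K₁)
    [IsDiscreteValuationRing ↥(baseRing A K₁)]
    [Fact ((↥K₁)⟮jqNModC ↥K₁ w⟯ ≤
      hostImage ↥K₁ w (laurentBaseChange ↥K₁ (modularFunctionFieldFull N)))]
    {π : ↥(baseRing A K₁)} (hπ : Irreducible π)
    (𝒢 : ValuationSubring ↥((↥K₁)⟮jqNModC ↥K₁ w⟯))
    (h𝒢 : IsGaussAt ↥(baseRing A K₁) π (AdjoinSimple.gen ↥K₁ (jqNModC ↥K₁ w)) 𝒢) :
    Unr 𝒢 ↥(hostImage ↥K₁ w (laurentBaseChange ↥K₁ (modularFunctionFieldFull N))) := by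
  letI : Algebra ↥K₁ ℂ :=
    (((IsAlgClosed.lift : Ω →ₐ[ℚ] ℂ) : Ω →+* ℂ).comp (algebraMap ↥K₁ Ω)).toAlgebra
  haveI : IsScalarTower ℚ ↥K₁ ℂ := IsScalarTower.of_algebraMap_eq' (Subsingleton.elim _ _)
  exact unr_hostImage_of_isGaussAt N w (hdeg_baseRing hA N hℓN h) (modLData_baseRing hA N hℓN h)
    hπ 𝒢 h𝒢

include hA in
/-- **`JLineHyp` for `F_w` at a base** `R₁ = A ∩ K₁` (helper1's `jLineHyp_hostImage` with its
Gauss-place input discharged). -/
theorem jLineHyp_hostImage_baseRing (hℓN : ¬ ℓ ∣ N) (hK₁ : IsBase ℓ K₁)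
    [IsDiscreteValuationRing ↥(baseRing A K₁)]
    [Fact ((↥K₁)⟮jqNModC ↥K₁ w⟯ ≤
      hostImage ↥K₁ w (laurentBaseChange ↥K₁ (modularFunctionFieldFull N)))]
    {π : ↥(baseRing A K₁)} (hπ : Irreducible π) :
    JLineHyp (K₁ := ↥K₁) π (AdjoinSimple.gen ↥K₁ (jqNModC ↥K₁ w))
      ↥(hostImage ↥K₁ w (laurentBaseChange ↥K₁ (modularFunctionFieldFull N))) N := by
  letI : Algebra ↥K₁ ℂ :=
    (((IsAlgClosed.lift : Ω →ₐ[ℚ] ℂ) : Ω →+* ℂ).comp (algebraMap ↥K₁ Ω)).toAlgebra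
  haveI : IsScalarTower ℚ ↥K₁ ℂ := IsScalarTower.of_algebraMap_eq' (Subsingleton.elim _ _)
  have hN : ∃ z : ↥K₁, IsPrimitiveRoot z N :=
    hK₁.exists_isPrimitiveRoot (Nat.pos_of_ne_zero (NeZero.ne N)) hℓN
  exact jLineHyp_hostImage N w hN π (fun 𝒢 h𝒢 =>
    unr_hostImage_of_isGaussAt N w (hdeg_baseRing hA N hℓN hK₁.flatBase_le)
      (modLData_baseRing hA N hℓN hK₁.flatBase_le) hπ 𝒢 h𝒢)

end HostBases

end

end Fermat.Agent.JA
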