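/-
J-A — helper8 — (KEY) at a base: the geometric input (I1) in helper3's host tower, obtained by
plugging helper1's `gm` into lead's `geo_isLocalRing` (finiteness / generation / constants from
helper3's HOST kit).
-/
import Mathlib
import Fermat.Agent.JA.HOST_helper3_Main
import Fermat.Agent.JA.GM_helper1_Main
import Fermat.Agent.JA.GEO_lead_Main

set_option autoImplicit false
set_option linter.unusedSectionVars false
set_option linter.style.haveILetI false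
set_option synthInstance.maxHeartbeats 200000

open IntermediateField

namespace Fermat.Agent.JA.Host

open scoped Fermat.Agent.JA.Host

variable {R : Type*} [CommRing R] [IsDomain R] [IsDiscreteValuationRing R] [CharZero R]
  {K₁ : Type*} [Field K₁] [Algebra R K₁] [IsFractionRing R K₁]
  {H : Type*} [Field H] [Algebra K₁ H] [Algebra R H] [IsScalarTower R K₁ H]
  (F : IntermediateField K₁ H) (j t u : H)
  [Fact (K₁⟮j⟯ ≤ F)] [Fact (K₁⟮j⟯ ≤ K₁⟮t⟯)] [Module.Finite ↥K₁⟮j⟯ ↥F]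

set_option maxHeartbeats 1600000 in
/-- **GEO in the host tower**: the Gauss valuation of `K₁(t)` has a unique extension to
`E = K₁(t) · F(u)`, from the line hypotheses for `j = J(t)` and the `j`-line hypotheses for
`F(u)`. -/
theorem isLocalRing_integralClosure_Etu_of_hyps
    (hH : ∀ x : H, IsAlgebraic K₁ x → x ∈ Set.range (algebraMap K₁ H))
    (htr : Transcendental K₁ t) (ht : IsIntegral ↥K₁⟮j⟯ t) (hu : IsIntegral ↥F u)
    (π : R) (hπ : Irreducible π) (n : ℕ) (hn0 : 0 < n) (hn : IsUnit (n : R))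
    (hζ : ∃ ζ : R, IsPrimitiveRoot ζ n)
    (S : Finset R) (hS : ∀ a ∈ S, ∀ b ∈ S, a ≠ b → IsUnit (a - b))
    (hS0 : ∀ a ∈ S, a = 0 ∨ IsUnit a)
    (hL : LineHyp (K₁ := K₁) (K₀ := ↥K₁⟮j⟯) (K := ↥K₁⟮t⟯) π (AdjoinSimple.gen K₁ j)
      (AdjoinSimple.gen K₁ t) S)
    (hJ : JLineHyp (K₁ := K₁) π (AdjoinSimple.gen K₁ j) ↥(Fu F u) n)
    (𝒢t : ValuationSubring ↥K₁⟮t⟯) (h𝒢t : IsGaussAt R π (AdjoinSimple.gen K₁ t) 𝒢t) :
    IsLocalRing ↥(integralClosure ↥𝒢t ↥(Etu F t u)) := by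
  haveI : Module.Finite ↥K₁⟮t⟯ ↥(Etu F t u) := finite_Kt_Etu F j t u ht hu
  haveI : Module.Finite ↥K₁⟮j⟯ ↥(Fu F u) := finite_Kj_Fu F j u hu
  have hgen : Algebra.adjoin ↥K₁⟮t⟯ (Set.range (algebraMap ↥(Fu F u) ↥(Etu F t u))) = ⊤ :=
    adjoin_range_Fu_eq_top F t u
  obtain ⟨hM1, hM2, hM3⟩ := gm (K₁ := K₁) (K₀ := ↥K₁⟮j⟯) (K := ↥K₁⟮t⟯) (F' := ↥(Fu F u))
    (E := ↥(Etu F t u)) π (AdjoinSimple.gen K₁ j) (AdjoinSimple.gen K₁ t) S n hn0 hgen hL hJ
  exact geo_isLocalRing (K₁ := K₁) (K := ↥K₁⟮t⟯) (E := ↥(Etu F t u)) π hπ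
    (AdjoinSimple.gen K₁ t) (transcendental_gen htr) (adjoin_gen_eq_top t) n hn hζ S hS hS0
    hM1 hM2 hM3 (fun x hx => mem_range_algebraMap_of_isAlgebraic hH _ x hx) 𝒢t h𝒢t

end Fermat.Agent.JA.Host
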