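/-
J-A — helper8 — package KEY-END: the abstract Kummer–Galois end of (KEY).

Setting: fields `Kj ⊆ F ⊆ E` (`Kj = K₁(j)`, `F = F_{K₁}`, `E = K₁(F, t, u)`), a valuation subring
`𝒢` of `Kj` (the Gauss valuation subring), such that the integral closure `W` of `𝒢` in `E` is a
LOCAL ring (this is the output of the geometric theorem GEO, via the uniqueness of the Gauss
valuation of `K₁(t)` above `𝒢`).  If `g = 1 + π h ∈ F` with `h` integral over `𝒢` and `π` a
non-unit of `𝒢`, `m` is a unit of `𝒢`, `Kj` contains a primitive `m`-th root of unity, and `u ∈ E`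
satisfies `u ^ m = g`, then `u ∈ F`.

Proof: otherwise the minimal polynomial of `u` over `F` has a second root `ζ^i u ≠ u` in `E`,
and there is an `F`-embedding `φ : F(u) → E` with `φ u = ζ^i u`.  `F`-embeddings preserve
integrality over `𝒢` in both directions, hence they preserve the maximal ideal `𝔪` of `W`.  Some
`u − ζ^a` lies in `𝔪` (their product is `g − 1 = π h ∈ 𝔪`), hence `ζ^i u − ζ^a ∈ 𝔪`, hence
`ζ^a (ζ^i − 1) ∈ 𝔪`, hence `m ∈ 𝔪` (as `ζ^i − 1 ∣ m`): contradiction.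
-/
import Mathlib

set_option autoImplicit false
set_option linter.unusedSectionVars false
set_option linter.style.haveILetI false

open Polynomial IntermediateField

namespace Fermat.Agent.JA

section KeyEnd

variable {Kj F E : Type*} [Field Kj] [Field F] [Field E] [Algebra Kj F] [Algebra F E]
  [Algebra Kj E] [IsScalarTower Kj F E] (𝒢 : ValuationSubring Kj)

/-- `F`-embeddings of a field `L` into `E` see the same elements as integral over `𝒢`. -/
theorem isIntegral_algHom_transfer {L : Type*} [Field L] [Algebra F L] (ψ₁ ψ₂ : L →ₐ[F] E)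
    {x : L} (hx : IsIntegral ↥𝒢 (ψ₁ x)) : IsIntegral ↥𝒢 (ψ₂ x) := by
  obtain ⟨p, hp, h0⟩ := hx
  refine ⟨p, hp, ?_⟩
  have key : ∀ ψ : L →ₐ[F] E, eval₂ (algebraMap ↥𝒢 E) (ψ x) p =
      ψ (aeval x (p.map (algebraMap ↥𝒢 F))) := by
    intro ψ
    rw [← aeval_algHom_apply, aeval_def, eval₂_map, ← IsScalarTower.algebraMap_eq]
  rw [key] at h0 ⊢
  have h1 : aeval x (p.map (algebraMap ↥𝒢 F)) = 0 := by
    apply ψ₁.toRingHom.injective
    rw [map_zero]
    exact h0
  rw [h1, map_zero]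

/-- an element of `Kj` whose image in `E` is integral over `𝒢` lies in `𝒢`. -/
theorem mem_of_isIntegral_algebraMap {x : Kj} (hx : IsIntegral ↥𝒢 (algebraMap Kj E x)) :
    x ∈ 𝒢 := by
  have h1 : IsIntegral ↥𝒢 x :=
    (isIntegral_algebraMap_iff (algebraMap Kj E).injective).mp hx
  obtain ⟨y, rfl⟩ := IsIntegrallyClosed.isIntegral_iff.mp h1
  exact y.2

/-- **KEY-END, core form**: `W` is any local subring of `E` whose elements are exactly the
elements integral over `𝒢`. -/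
theorem mem_range_of_pow_eq_of_subring (W : Subring E) (hWloc : IsLocalRing ↥W)
    (hW : ∀ x : E, x ∈ W ↔ IsIntegral ↥𝒢 x)
    (π : Kj) (hπ : π ∈ 𝒢) (hπ' : π⁻¹ ∉ 𝒢)
    (m : ℕ) (hmK : (m : Kj) ≠ 0) (hm : ((m : Kj))⁻¹ ∈ 𝒢)
    (ζ : Kj) (hζ : IsPrimitiveRoot ζ m)
    (g h : F) (hh : IsIntegral ↥𝒢 h) (hg : g = 1 + algebraMap Kj F π * h)
    (u : E) (hu : u ^ m = algebraMap F E g) :
    u ∈ Set.range (algebraMap F E) := by
  classical
  have hm0 : m ≠ 0 := by
    rintro rfl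
    exact hmK Nat.cast_zero
  have hmpos : 0 < m := Nat.pos_of_ne_zero hm0
  -- integrality of the basic elements
  have hint_of_mem : ∀ x : Kj, x ∈ 𝒢 → IsIntegral ↥𝒢 (algebraMap Kj E x) := by
    intro x hx
    have : algebraMap Kj E x = algebraMap ↥𝒢 E ⟨x, hx⟩ := rfl
    rw [this]
    exact isIntegral_algebraMap
  have hhE : IsIntegral ↥𝒢 (algebraMap F E h) :=
    (isIntegral_algebraMap_iff (algebraMap F E).injective).mpr hh
  have hπE : IsIntegral ↥𝒢 (algebraMap Kj E π) := hint_of_mem π hπ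
  have hgE' : algebraMap F E g = 1 + algebraMap Kj E π * algebraMap F E h := by
    rw [hg, map_add, map_one, map_mul, ← IsScalarTower.algebraMap_apply]
  have hgE : IsIntegral ↥𝒢 (algebraMap F E g) := by
    rw [hgE']
    exact isIntegral_one.add (hπE.mul hhE)
  have huE : IsIntegral ↥𝒢 u := IsIntegral.of_pow hmpos (hu ▸ hgE)
  have hζm : ζ ^ m = 1 := hζ.pow_eq_one
  have hζE : IsIntegral ↥𝒢 (algebraMap Kj E ζ) := by
    apply IsIntegral.of_pow hmpos
    rw [← map_pow, hζm, map_one]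
    exact isIntegral_one
  -- elements of `W`
  set uW : ↥W := ⟨u, (hW u).mpr huE⟩ with huW
  set ζW : ↥W := ⟨algebraMap Kj E ζ, (hW _).mpr hζE⟩ with hζW
  set πW : ↥W := ⟨algebraMap Kj E π, (hW _).mpr hπE⟩ with hπW
  set hEW : ↥W := ⟨algebraMap F E h, (hW _).mpr hhE⟩ with hhEW
  have hζWm : ζW ^ m = 1 := by
    apply Subtype.ext
    rw [SubmonoidClass.coe_pow, hζW]
    simp only [OneMemClass.coe_one]
    rw [← map_pow, hζm, map_one]
  have hζWprim : IsPrimitiveRoot ζW m := by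
    have h1 : IsPrimitiveRoot (algebraMap Kj E ζ) m := hζ.map_of_injective (algebraMap Kj E).injective
    exact IsPrimitiveRoot.of_map_of_injective (f := W.subtype) h1 Subtype.val_injective
  -- a unit of `W` has its inverse integral
  have hunit : ∀ x : ↥W, IsUnit x ↔ (x : E) ≠ 0 ∧ IsIntegral ↥𝒢 ((x : E))⁻¹ := by
    intro x
    constructor
    · rintro ⟨v, rfl⟩
      have h1 : ((v : ↥W) : E) * ((v⁻¹ : (↥W)ˣ) : ↥W) = 1 := by
        rw [← Subring.coe_mul, Units.mul_inv, Subring.coe_one]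
      have h2 : ((v : ↥W) : E) ≠ 0 := left_ne_zero_of_mul_eq_one h1
      refine ⟨h2, ?_⟩
      have h3 : ((v : ↥W) : E)⁻¹ = ((v⁻¹ : (↥W)ˣ) : ↥W) := by
        rw [inv_eq_of_mul_eq_one_right h1]
      rw [h3]
      exact (hW _).mp (Subtype.mem _)
    · rintro ⟨h1, h2⟩
      refine IsUnit.of_mul_eq_one ⟨(x : E)⁻¹, (hW _).mpr h2⟩ ?_
      apply Subtype.ext
      rw [Subring.coe_mul, Subring.coe_one]
      exact mul_inv_cancel₀ h1
  -- `π` is a nonunit of `W`
  have hπmem : πW ∈ IsLocalRing.maximalIdeal ↥W := by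
    rw [IsLocalRing.mem_maximalIdeal, mem_nonunits_iff, hunit]
    rintro ⟨-, h2⟩
    apply hπ'
    apply mem_of_isIntegral_algebraMap (E := E) 𝒢
    rw [map_inv₀]
    exact h2
  -- `m` is a unit of `W`
  have hmunit : IsUnit ((m : ℕ) : ↥W) := by
    rw [hunit]
    have h1 : (((m : ℕ) : ↥W) : E) = algebraMap Kj E (m : Kj) := by
      rw [map_natCast]
      exact Subring.coe_natCast W m
    rw [h1]
    refine ⟨fun h0 => hmK ((map_eq_zero _).mp h0), ?_⟩
    rw [← map_inv₀]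
    exact hint_of_mem _ hm
  -- `∏ (u − ζ^a) = g − 1 = π h ∈ 𝔪`
  have hprod : ∏ a ∈ Finset.range m, (uW - ζW ^ a) = πW * hEW := by
    have h1 := X_pow_sub_C_eq_prod hζWprim (α := (1 : ↥W)) (a := 1) hmpos (one_pow m)
    have h2 := congrArg (Polynomial.eval uW) h1
    rw [eval_sub, eval_pow, eval_X, eval_C, eval_prod] at h2
    simp only [eval_sub, eval_X, eval_C, mul_one] at h2
    rw [← h2]
    apply Subtype.ext
    rw [AddSubgroupClass.coe_sub, SubmonoidClass.coe_pow, Subring.coe_one, Subring.coe_mul]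
    rw [huW, hπW, hhEW]
    simp only
    rw [hu, hgE']
    ring
  have hprodmem : ∏ a ∈ Finset.range m, (uW - ζW ^ a) ∈ IsLocalRing.maximalIdeal ↥W := by
    rw [hprod]
    exact Ideal.mul_mem_right _ _ hπmem
  have hprime : (IsLocalRing.maximalIdeal ↥W).IsPrime :=
    (IsLocalRing.maximalIdeal.isMaximal ↥W).isPrime
  obtain ⟨a, -, ha⟩ := Ideal.IsPrime.prod_mem_iff.mp hprodmem
  -- suppose `u ∉ F`
  by_contra hnot
  have hgne : g ≠ 0 := by
    intro hg0
    have h1 : algebraMap Kj E π * algebraMap F E h = -1 := by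
      have := hgE'
      rw [hg0, map_zero] at this
      linear_combination -this
    have h2 : πW * (-hEW) = 1 := by
      apply Subtype.ext
      rw [Subring.coe_mul, Subring.coe_neg, Subring.coe_one, hπW, hhEW]
      simp only
      linear_combination -h1
    exact (IsLocalRing.mem_maximalIdeal _).mp hπmem (IsUnit.of_mul_eq_one _ h2)
  have hualg : IsIntegral F u := by
    refine ⟨X ^ m - C g, monic_X_pow_sub_C g hm0, ?_⟩
    rw [eval₂_sub, eval₂_pow, eval₂_X, eval₂_C, hu, sub_self]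
  have hdeg : 2 ≤ (minpoly F u).natDegree := by
    rw [minpoly.two_le_natDegree_iff hualg]
    intro hmem
    exact hnot hmem
  have hdvd : minpoly F u ∣ X ^ m - C g := by
    apply minpoly.dvd
    rw [map_sub, map_pow, aeval_X, aeval_C, hu, sub_self]
  have hmF : (m : F) ≠ 0 := by
    have : (m : F) = algebraMap Kj F (m : Kj) := (map_natCast _ m).symm
    rw [this]
    exact fun h0 => hmK ((map_eq_zero _).mp h0)
  have hsep : (minpoly F u).Separable :=
    (separable_X_pow_sub_C g hmF hgne).of_dvd hdvd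
  -- the roots of the minimal polynomial in `E`
  have hζEprim : IsPrimitiveRoot (algebraMap Kj E ζ) m :=
    hζ.map_of_injective (algebraMap Kj E).injective
  have hfac : (X ^ m - C g).map (algebraMap F E) =
      ∏ i ∈ Finset.range m, (X - C ((algebraMap Kj E ζ) ^ i * u)) := by
    rw [Polynomial.map_sub, Polynomial.map_pow, map_X, map_C]
    exact X_pow_sub_C_eq_prod hζEprim hmpos hu
  have hsplit : ((minpoly F u).map (algebraMap F E)).Splits := by
    refine Polynomial.Splits.of_dvd ?_ ?_ (Polynomial.map_dvd _ hdvd)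
    · rw [hfac]
      exact Polynomial.Splits.prod fun i _ => Polynomial.Splits.X_sub_C _
    · rw [hfac]
      exact Finset.prod_ne_zero_iff.mpr fun i _ => X_sub_C_ne_zero _
  -- a second root `u'` of the minimal polynomial
  have hcard : ((minpoly F u).map (algebraMap F E)).roots.card = (minpoly F u).natDegree := by
    rw [← hsplit.natDegree_eq_card_roots, natDegree_map]
  have hnodup : ((minpoly F u).map (algebraMap F E)).roots.Nodup := nodup_roots hsep.map
  obtain ⟨u', hu'mem, hu'ne⟩ : ∃ u' ∈ ((minpoly F u).map (algebraMap F E)).roots.toFinset,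
      u' ≠ u := by
    apply Finset.exists_mem_ne
    rw [Multiset.toFinset_card_of_nodup hnodup, hcard]
    exact hdeg
  rw [Multiset.mem_toFinset] at hu'mem
  have hu'root : (X ^ m - C g).map (algebraMap F E) |>.IsRoot u' := by
    have h1 := (mem_roots'.mp hu'mem).2
    exact h1.dvd (Polynomial.map_dvd _ hdvd)
  obtain ⟨i, -, hi⟩ : ∃ i ∈ Finset.range m, u' = (algebraMap Kj E ζ) ^ i * u := by
    rw [hfac, IsRoot.def, eval_prod, Finset.prod_eq_zero_iff] at hu'root
    obtain ⟨i, hi, h0⟩ := hu'root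
    refine ⟨i, hi, ?_⟩
    rw [eval_sub, eval_X, eval_C, sub_eq_zero] at h0
    exact h0
  -- the embedding `φ : F(u) → E`, `u ↦ u'`
  have hu'aroot : u' ∈ (minpoly F u).aroots E := hu'mem
  set φ : ↥F⟮u⟯ →ₐ[F] E := (algHomAdjoinIntegralEquiv F hualg).symm ⟨u', hu'aroot⟩ with hφ
  have hφgen : φ (AdjoinSimple.gen F u) = u' :=
    algHomAdjoinIntegralEquiv_symm_apply_gen F hualg ⟨u', hu'aroot⟩
  set ψ : ↥F⟮u⟯ →ₐ[F] E := F⟮u⟯.val with hψ
  have hψgen : ψ (AdjoinSimple.gen F u) = u := rfl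
  set x : ↥F⟮u⟯ := AdjoinSimple.gen F u - algebraMap F ↥F⟮u⟯ (algebraMap Kj F ζ ^ a) with hx
  have hψx : ψ x = u - (algebraMap Kj E ζ) ^ a := by
    rw [hx, map_sub, hψgen, AlgHom.commutes, map_pow, ← IsScalarTower.algebraMap_apply]
  have hφx : φ x = u' - (algebraMap Kj E ζ) ^ a := by
    rw [hx, map_sub, hφgen, AlgHom.commutes, map_pow, ← IsScalarTower.algebraMap_apply]
  have hψxW : ψ x = ((uW - ζW ^ a : ↥W) : E) := by
    rw [hψx, AddSubgroupClass.coe_sub, SubmonoidClass.coe_pow]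
  have hφint : IsIntegral ↥𝒢 (φ x) := by
    apply isIntegral_algHom_transfer 𝒢 ψ φ
    rw [hψxW]
    exact (hW _).mp (Subtype.mem _)
  set yW : ↥W := ⟨φ x, (hW _).mpr hφint⟩ with hyW
  have hymem : yW ∈ IsLocalRing.maximalIdeal ↥W := by
    rw [IsLocalRing.mem_maximalIdeal, mem_nonunits_iff, hunit]
    rintro ⟨h1, h2⟩
    have h1' : φ x ≠ 0 := h1
    have h2' : IsIntegral ↥𝒢 (φ x)⁻¹ := h2
    have hx0 : x ≠ 0 := fun h0 => h1' (by rw [h0, map_zero])
    rw [← map_inv₀] at h2'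
    have h3 : IsIntegral ↥𝒢 (ψ x⁻¹) := isIntegral_algHom_transfer 𝒢 φ ψ h2'
    rw [map_inv₀] at h3
    apply (IsLocalRing.mem_maximalIdeal _).mp ha
    rw [hunit]
    rw [← hψxW]
    exact ⟨fun h0 => hx0 ((map_eq_zero ψ).mp h0), h3⟩
  -- `ζ^a (ζ^i − 1) ∈ 𝔪`
  have hdiff : ζW ^ a * (ζW ^ i - 1) ∈ IsLocalRing.maximalIdeal ↥W := by
    have h1 : ζW ^ a * (ζW ^ i - 1) = yW - ζW ^ i * (uW - ζW ^ a) := by
      apply Subtype.ext
      simp only [Subring.coe_mul, AddSubgroupClass.coe_sub, SubmonoidClass.coe_pow,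
        Subring.coe_one, hyW, hζW, huW]
      rw [hφx, hi]
      ring
    rw [h1]
    exact Ideal.sub_mem _ hymem (Ideal.mul_mem_left _ _ ha)
  have hζWunit : IsUnit ζW := IsUnit.of_pow_eq_one hζWm hm0
  have hdiff' : ζW ^ i - 1 ∈ IsLocalRing.maximalIdeal ↥W := by
    rcases hprime.mem_or_mem hdiff with h1 | h1
    · exact absurd (hζWunit.pow a) ((IsLocalRing.mem_maximalIdeal _).mp h1)
    · exact h1
  have hne1 : ζW ^ i ≠ 1 := by
    intro h1
    apply hu'ne
    have h2 : (algebraMap Kj E ζ) ^ i = 1 := by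
      have := congrArg (fun z : ↥W => (z : E)) h1
      simpa [hζW] using this
    rw [hi, h2, one_mul]
  -- `ζ^i − 1 ∣ m`
  have hsum : ∑ k ∈ Finset.range m, (ζW ^ i) ^ k = 0 := by
    have h1 : (∑ k ∈ Finset.range m, (ζW ^ i) ^ k) * (ζW ^ i - 1) = 0 := by
      rw [geom_sum_mul, ← pow_mul, mul_comm, pow_mul, hζWm, one_pow, sub_self]
    rcases mul_eq_zero.mp h1 with h2 | h2
    · exact h2
    · exact absurd (sub_eq_zero.mp h2) hne1
  have hdvdm : ζW ^ i - 1 ∣ (0 : ↥W) - (m : ↥W) := by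
    have h1 := sub_dvd_eval_sub (ζW ^ i) 1 (∑ k ∈ Finset.range m, (X : (↥W)[X]) ^ k)
    simp only [eval_finsetSum, eval_pow, eval_X, one_pow, Finset.sum_const, Finset.card_range,
      nsmul_eq_mul, mul_one] at h1
    rw [hsum] at h1
    exact h1
  obtain ⟨c, hc⟩ := hdvdm
  have hmmem : ((m : ℕ) : ↥W) ∈ IsLocalRing.maximalIdeal ↥W := by
    have h1 : ((m : ℕ) : ↥W) = (ζW ^ i - 1) * (-c) := by
      linear_combination -hc
    rw [h1]
    exact Ideal.mul_mem_right _ _ hdiff'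
  exact (IsLocalRing.mem_maximalIdeal _).mp hmmem hmunit

/-- **KEY-END**, for the integral closure of `𝒢` in `E`. -/
theorem mem_range_of_pow_eq_of_isLocalRing (hloc : IsLocalRing ↥(integralClosure ↥𝒢 E))
    (π : Kj) (hπ : π ∈ 𝒢) (hπ' : π⁻¹ ∉ 𝒢)
    (m : ℕ) (hmK : (m : Kj) ≠ 0) (hm : ((m : Kj))⁻¹ ∈ 𝒢)
    (ζ : Kj) (hζ : IsPrimitiveRoot ζ m)
    (g h : F) (hh : IsIntegral ↥𝒢 h) (hg : g = 1 + algebraMap Kj F π * h)
    (u : E) (hu : u ^ m = algebraMap F E g) :
    u ∈ Set.range (algebraMap F E) := by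
  set W : Subring E := (integralClosure ↥𝒢 E).toSubring with hW
  have e : ↥(integralClosure ↥𝒢 E) ≃+* ↥W :=
    { toFun := fun x => ⟨x.1, x.2⟩
      invFun := fun x => ⟨x.1, x.2⟩
      left_inv := fun _ => rfl
      right_inv := fun _ => rfl
      map_mul' := fun _ _ => rfl
      map_add' := fun _ _ => rfl }
  have hWloc : IsLocalRing ↥W := e.isLocalRing
  exact mem_range_of_pow_eq_of_subring 𝒢 W hWloc (fun x => Iff.rfl) π hπ hπ' m hmK hm ζ hζ g h hh
    hg u hu

end KeyEnd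

section Glue

variable {Kj Kt F E : Type*} [Field Kj] [Field Kt] [Field F] [Field E]
  [Algebra Kj Kt] [Algebra Kt E] [Algebra Kj E] [IsScalarTower Kj Kt E]
  (𝒢j : ValuationSubring Kj) (𝒢t : ValuationSubring Kt)

/-- if `𝒢t` contains `𝒢j` and is integral over it, then integrality over `𝒢t` and over `𝒢j` is
the same thing. -/
theorem isIntegral_iff_of_integral (hle : ∀ x ∈ 𝒢j, algebraMap Kj Kt x ∈ 𝒢t)
    (hint : ∀ x ∈ 𝒢t, IsIntegral ↥𝒢j x) (x : E) :
    IsIntegral ↥𝒢t x ↔ IsIntegral ↥𝒢j x := by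
  letI : Algebra ↥𝒢j ↥𝒢t :=
    ((algebraMap Kj Kt).restrict 𝒢j.toSubring 𝒢t.toSubring hle).toAlgebra
  haveI : IsScalarTower ↥𝒢j ↥𝒢t E := IsScalarTower.of_algebraMap_eq fun y =>
    IsScalarTower.algebraMap_apply Kj Kt E (y : Kj)
  haveI : IsScalarTower ↥𝒢j ↥𝒢t Kt := IsScalarTower.of_algebraMap_eq fun y => rfl
  haveI : Algebra.IsIntegral ↥𝒢j ↥𝒢t := ⟨fun y =>
    (isIntegral_algebraMap_iff (A := ↥𝒢t) (B := Kt) Subtype.val_injective).mp (hint _ y.2)⟩
  exact ⟨fun hx => isIntegral_trans x hx, fun hx => hx.tower_top⟩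

variable [Algebra Kj F] [Algebra F E] [IsScalarTower Kj F E]

/-- **KEY-END**, Gauss form: the integral closure in `E` of the valuation subring `𝒢t` of `Kt`
is local (the conclusion of the geometric theorem), `𝒢t` contains `𝒢j` and is integral over it
(uniqueness of the Gauss valuation of the auxiliary line above the Gauss valuation of the
`j`-line). -/
theorem mem_range_of_pow_eq_of_isLocalRing_of_integral
    (hloc : IsLocalRing ↥(integralClosure ↥𝒢t E))
    (hle : ∀ x ∈ 𝒢j, algebraMap Kj Kt x ∈ 𝒢t) (hint : ∀ x ∈ 𝒢t, IsIntegral ↥𝒢j x)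
    (π : Kj) (hπ : π ∈ 𝒢j) (hπ' : π⁻¹ ∉ 𝒢j)
    (m : ℕ) (hmK : (m : Kj) ≠ 0) (hm : ((m : Kj))⁻¹ ∈ 𝒢j)
    (ζ : Kj) (hζ : IsPrimitiveRoot ζ m)
    (g h : F) (hh : IsIntegral ↥𝒢j h) (hg : g = 1 + algebraMap Kj F π * h)
    (u : E) (hu : u ^ m = algebraMap F E g) :
    u ∈ Set.range (algebraMap F E) := by
  set W : Subring E := (integralClosure ↥𝒢t E).toSubring with hW
  have e : ↥(integralClosure ↥𝒢t E) ≃+* ↥W :=
    { toFun := fun x => ⟨x.1, x.2⟩
      invFun := fun x => ⟨x.1, x.2⟩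
      left_inv := fun _ => rfl
      right_inv := fun _ => rfl
      map_mul' := fun _ _ => rfl
      map_add' := fun _ _ => rfl }
  have hWloc : IsLocalRing ↥W := e.isLocalRing
  exact mem_range_of_pow_eq_of_subring 𝒢j W hWloc
    (fun x => isIntegral_iff_of_integral 𝒢j 𝒢t hle hint x) π hπ hπ' m hmK hm ζ hζ g h hh hg u hu

end Glue

end Fermat.Agent.JA
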