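/-
J-A package HOST — helper3.  Self-test 2: the concrete tower instantiates helper8's KEY-END
(`mem_range_of_pow_eq_of_isLocalRing_of_integral`) with `Kj := ↥K₁⟮j⟯`, `Kt := ↥K₁⟮t⟯`, `F := ↥F`,
`E := ↥(Etu F t u)`.
-/
import Mathlib
import Fermat.Agent.JA.HOST_helper3_Tower
import Fermat.Agent.JA.KEYEND_helper8

set_option autoImplicit false
set_option linter.style.haveILetI false
set_option linter.unusedVariables false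

open IntermediateField

namespace Fermat.Agent.JA.Host

open scoped Fermat.Agent.JA.Host

variable {K₁ H : Type*} [Field K₁] [Field H] [Algebra K₁ H]
  (F : IntermediateField K₁ H) (j t u : H)
  [Fact (K₁⟮j⟯ ≤ F)] [Fact (K₁⟮j⟯ ≤ K₁⟮t⟯)]

/-- KEY-END in the host: if `u ^ m = g` with `g ∈ F`, `g = 1 + π h`, then `u ∈ F`. -/
theorem mem_of_pow_eq_in_host
    (𝒢j : ValuationSubring ↥K₁⟮j⟯) (𝒢t : ValuationSubring ↥K₁⟮t⟯)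
    (hloc : IsLocalRing ↥(integralClosure ↥𝒢t ↥(Etu F t u)))
    (hle : ∀ x ∈ 𝒢j, algebraMap ↥K₁⟮j⟯ ↥K₁⟮t⟯ x ∈ 𝒢t)
    (hint : ∀ x ∈ 𝒢t, IsIntegral ↥𝒢j x)
    (π : ↥K₁⟮j⟯) (hπ : π ∈ 𝒢j) (hπ' : π⁻¹ ∉ 𝒢j)
    (m : ℕ) (hmK : (m : ↥K₁⟮j⟯) ≠ 0) (hm : ((m : ↥K₁⟮j⟯))⁻¹ ∈ 𝒢j)
    (ζ : ↥K₁⟮j⟯) (hζ : IsPrimitiveRoot ζ m)
    (g h : ↥F) (hh : IsIntegral ↥𝒢j h) (hg : g = 1 + algebraMap ↥K₁⟮j⟯ ↥F π * h)
    (hu : u ^ m = (g : H)) : u ∈ F := by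
  have hu' : (⟨u, (le_sup_right : Fu F u ≤ Etu F t u) (mem_Fu_self F u)⟩ : ↥(Etu F t u)) ^ m =
      algebraMap ↥F ↥(Etu F t u) g := Subtype.ext hu
  obtain ⟨x, hx⟩ := mem_range_of_pow_eq_of_isLocalRing_of_integral (Kj := ↥K₁⟮j⟯)
    (Kt := ↥K₁⟮t⟯) (F := ↥F) (E := ↥(Etu F t u)) 𝒢j 𝒢t hloc hle hint π hπ hπ' m hmK hm ζ hζ
    g h hh hg _ hu'
  have : (x : H) = u := congrArg (fun z : ↥(Etu F t u) => (z : H)) hx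
  rw [← this]
  exact x.2

end Fermat.Agent.JA.Host
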