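/-
J-A — helper8 — (KEY) at a base, part 2: the cusp `∞` as a place of a subfield of `K((q))`
(the `q`-order), so that the divisibility hypothesis of (KEY) gives `m ∣ order g`.
-/
import Mathlib
import Fermat.Agent.FF.Gal_helper7_OfOrd

set_option autoImplicit false
set_option linter.unusedSectionVars false

open HahnSeries IntermediateField AlgebraicCurve

namespace Fermat.Agent.JA

section Cusp

open Fermat.Agent.FF.Gal

variable {K : Type*} [Field K] (F : IntermediateField K (LaurentSeries K))

/-- the `q`-order on a subfield of `K((q))`. -/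
noncomputable def qOrd (x : ↥F) : ℤ := (x : LaurentSeries K).order

theorem isOrdFun_qOrd (hF : ∃ y : ↥F, y ≠ 0 ∧ qOrd F y ≠ 0) : IsOrdFun K (qOrd F) where
  map_mul x y hx hy := by
    have hx' : (x : LaurentSeries K) ≠ 0 := fun h => hx (Subtype.ext h)
    have hy' : (y : LaurentSeries K) ≠ 0 := fun h => hy (Subtype.ext h)
    show ((x * y : ↥F) : LaurentSeries K).order = _
    rw [IntermediateField.coe_mul, HahnSeries.order_mul hx' hy']
    rfl
  map_add x y hx hy hxy := by
    show min (x : LaurentSeries K).order (y : LaurentSeries K).order ≤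
      ((x + y : ↥F) : LaurentSeries K).order
    rw [IntermediateField.coe_add]
    apply HahnSeries.min_order_le_order_add
    intro h
    apply hxy
    apply Subtype.ext
    rw [IntermediateField.coe_add, h]
    rfl
  map_algebraMap a ha := by
    show ((algebraMap K ↥F a : ↥F) : LaurentSeries K).order = 0
    have h1 : ((algebraMap K ↥F a : ↥F) : LaurentSeries K) = HahnSeries.C a := by
      show algebraMap K (LaurentSeries K) a = HahnSeries.C a
      rw [HahnSeries.algebraMap_apply']
      simp
    rw [h1]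
    exact HahnSeries.order_C
  nontrivial := hF

/-- the cusp `∞` as a place of `F`. -/
noncomputable def cuspPlace (hF : ∃ y : ↥F, y ≠ 0 ∧ qOrd F y ≠ 0) : Place K ↥F := (isOrdFun_qOrd F hF).place

theorem cuspPlace_ord (hF : ∃ y : ↥F, y ≠ 0 ∧ qOrd F y ≠ 0)
    (h1 : ∃ y : ↥F, y ≠ 0 ∧ qOrd F y = 1) {x : ↥F} (hx : x ≠ 0) :
    (cuspPlace F hF).ord x = (x : LaurentSeries K).order :=
  (isOrdFun_qOrd F hF).place_ord_eq h1 hx

/-- if `F` contains an element of order `-1` (e.g. `j`), the `q`-order is the order function of a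
place of `F`. -/
theorem exists_place_ord_eq_order {y : LaurentSeries K} (hy : y ∈ F) (hy1 : y.order = -1) :
    ∃ P : Place K ↥F, ∀ x : ↥F, x ≠ 0 → P.ord x = (x : LaurentSeries K).order := by
  have hy0 : y ≠ 0 := by
    rintro rfl
    rw [HahnSeries.order_zero] at hy1
    omega
  have hF : ∃ z : ↥F, z ≠ 0 ∧ qOrd F z ≠ 0 :=
    ⟨⟨y, hy⟩, fun h => hy0 (congrArg Subtype.val h), by show y.order ≠ 0; omega⟩
  have h1 : ∃ z : ↥F, z ≠ 0 ∧ qOrd F z = 1 := by
    refine ⟨⟨y, hy⟩⁻¹, inv_ne_zero fun h => hy0 (congrArg Subtype.val h), ?_⟩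
    show ((⟨y, hy⟩⁻¹ : ↥F) : LaurentSeries K).order = 1
    rw [IntermediateField.coe_inv]
    show (y⁻¹).order = 1
    have h2 : (y⁻¹).order + y.order = 0 := by
      rw [← HahnSeries.order_mul (inv_ne_zero hy0) hy0, inv_mul_cancel₀ hy0, HahnSeries.order_one]
    omega
  exact ⟨cuspPlace F hF, fun x hx => cuspPlace_ord F hF h1 hx⟩

end Cusp

end Fermat.Agent.JA
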