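/-
J-A package LIFT — helper9. Every element of the characteristic-`ℓ` modular function field
`F̃ = k(j̃(q^d) : d ∣ N) ⊂ k((q))` is a quotient `ỹ₁ / ỹ₂` of reductions of integral elements
`y₁, y₂ ∈ A((q))` of the characteristic-zero modular function field.
-/
import Fermat.Prelude.Def_ModularCurve_ReductionModL

set_option autoImplicit false

open HahnSeries IntermediateField ModularCurve

namespace Fermat.Agent.JA

section Lift

variable {L : Type*} [Field L] [Algebra ℚ L] (A : ValuationSubring L)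
variable {k : Type*} [Field k] (π : A →+* k) (N : ℕ)

omit [Algebra ℚ L] in
/-- `j` over the valuation ring maps to `j` over the field. -/
theorem coeffMap_subtype_jqModC : coeffMap A.subtype (jqModC A) = jqModC L :=
  coeffMap_jqModC A.subtype

/-- the generators `j(q^d)` over `L` lie in the base-changed function field. -/
theorem qExpand_jqModC_mem_laurentBaseChange {d : ℕ} [NeZero d] (hd : d ∣ N) :
    qExpand L d (jqModC L) ∈ laurentBaseChange L (modularFunctionFieldFull N) := by
  have h1 : qExpand ℚ d (jqModC ℚ) ∈ modularFunctionFieldFull N := by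
    rw [← modularFunctionFieldFullC_rat]
    exact jqModCd_mem_full ℚ N hd
  have h2 := coeffEmb_mem_laurentBaseChange L h1
  have h3 : coeffEmb L (qExpand ℚ d (jqModC ℚ)) = qExpand L d (jqModC L) := by
    rw [coeffEmb, coeffMap_qExpand, coeffMap_jqModC]
  rw [h3] at h2
  exact h2

/-- constants. -/
theorem coeffMap_hahnC_h9 {R S : Type*} [CommRing R] [CommRing S] (f : R →+* S) (a : R) :
    coeffMap f (HahnSeries.C a : LaurentSeries R) = HahnSeries.C (f a) := by
  show coeffMap f (HahnSeries.single 0 a) = HahnSeries.single 0 (f a)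
  rw [coeffMap_single]

theorem hahnC_eq_algebraMap_h9 (K : Type*) [Field K] (c : K) :
    (HahnSeries.C c : LaurentSeries K) = algebraMap K (LaurentSeries K) c := by
  rw [algebraMap_laurentSeries_eq_single]
  rfl

variable {π} in
/-- **lifting the polynomial ring generated by the `j̃(q^d)`.** -/
theorem exists_integral_lift_of_mem_adjoin (hπ : Function.Surjective π) {x : LaurentSeries k}
    (hx : x ∈ Algebra.adjoin k (divisorExpansionsC k N)) :
    ∃ y : LaurentSeries A, coeffMap π y = x ∧
      coeffMap A.subtype y ∈ laurentBaseChange L (modularFunctionFieldFull N) := by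
  induction hx using Algebra.adjoin_induction with
  | mem x hx =>
    obtain ⟨d, hd0, hd, rfl⟩ := hx
    refine ⟨qExpand A d (jqModC A), ?_, ?_⟩
    · rw [coeffMap_qExpand, coeffMap_jqModC]
    · rw [coeffMap_qExpand, coeffMap_jqModC]
      exact qExpand_jqModC_mem_laurentBaseChange N hd
  | algebraMap c =>
    obtain ⟨a, rfl⟩ := hπ c
    refine ⟨HahnSeries.C a, ?_, ?_⟩
    · rw [coeffMap_hahnC_h9, hahnC_eq_algebraMap_h9]
    · rw [coeffMap_hahnC_h9, hahnC_eq_algebraMap_h9]
      exact (laurentBaseChange L (modularFunctionFieldFull N)).algebraMap_mem _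
  | add x y _ _ hx hy =>
    obtain ⟨y₁, h1, h1'⟩ := hx
    obtain ⟨y₂, h2, h2'⟩ := hy
    exact ⟨y₁ + y₂, by rw [map_add, h1, h2], by rw [map_add]; exact add_mem h1' h2'⟩
  | mul x y _ _ hx hy =>
    obtain ⟨y₁, h1, h1'⟩ := hx
    obtain ⟨y₂, h2, h2'⟩ := hy
    exact ⟨y₁ * y₂, by rw [map_mul, h1, h2], by rw [map_mul]; exact mul_mem h1' h2'⟩

theorem adjoin_le_modularFunctionFieldFullC {x : LaurentSeries k}
    (hx : x ∈ Algebra.adjoin k (divisorExpansionsC k N)) : x ∈ modularFunctionFieldFullC k N :=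
  IntermediateField.algebra_adjoin_le_adjoin k _ hx

variable {π} in
/-- **(LIFT)**: every `h̃ ∈ F̃` is `ỹ₁ / ỹ₂` with `y₁, y₂` integral, `ỹ₁, ỹ₂ ∈ F̃`, `ỹ₂ ≠ 0`. -/
theorem exists_integral_lift (hπ : Function.Surjective π) {h : LaurentSeries k}
    (hh : h ∈ modularFunctionFieldFullC k N) :
    ∃ y₁ y₂ : LaurentSeries A,
      coeffMap A.subtype y₁ ∈ laurentBaseChange L (modularFunctionFieldFull N) ∧
      coeffMap A.subtype y₂ ∈ laurentBaseChange L (modularFunctionFieldFull N) ∧
      coeffMap π y₁ ∈ modularFunctionFieldFullC k N ∧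
      coeffMap π y₂ ∈ modularFunctionFieldFullC k N ∧
      coeffMap π y₂ ≠ 0 ∧ h * coeffMap π y₂ = coeffMap π y₁ := by
  obtain ⟨r, hr, s, hs, rfl⟩ := IntermediateField.mem_adjoin_iff_div.1 hh
  by_cases hs0 : s = 0
  · -- `r / 0 = 0`
    obtain ⟨y₂, h2, h2'⟩ := exists_integral_lift_of_mem_adjoin A N hπ
      (Subalgebra.one_mem (Algebra.adjoin k (divisorExpansionsC k N)))
    refine ⟨0, y₂, ?_, h2', ?_, ?_, ?_, ?_⟩
    · rw [map_zero]; exact zero_mem _
    · rw [map_zero]; exact zero_mem _
    · rw [h2]; exact one_mem _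
    · rw [h2]; exact one_ne_zero
    · rw [hs0, div_zero, zero_mul, map_zero]
  · obtain ⟨y₁, h1, h1'⟩ := exists_integral_lift_of_mem_adjoin A N hπ hr
    obtain ⟨y₂, h2, h2'⟩ := exists_integral_lift_of_mem_adjoin A N hπ hs
    refine ⟨y₁, y₂, h1', h2', ?_, ?_, ?_, ?_⟩
    · rw [h1]; exact adjoin_le_modularFunctionFieldFullC N hr
    · rw [h2]; exact adjoin_le_modularFunctionFieldFullC N hs
    · rw [h2]; exact hs0
    · rw [h1, h2, div_mul_cancel₀ _ hs0]

end Lift

end Fermat.Agent.JA
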