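/-
J-A — helper8 — S18 end assembly, part 1: finite families of integral elements of the modular
function field with integer exponents ("integral pairs"): a divisor `E`, a function `g` with
`div g = E`, and the formal reduction `g̃` of `g`.
-/
import Mathlib
import Fermat.Prelude.Def_ModularCurve_ReductionModL

set_option autoImplicit false
set_option linter.unusedSectionVars false

open HahnSeries IntermediateField AlgebraicCurve ModularCurve

namespace Fermat.Agent.JA

section Ord

variable {K F : Type*} [Field K] [Field F] [Algebra K F]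

/-- the order of a finite product of integer powers. -/
theorem ord_prod_zpow (v : Place K F) {ι : Type*} (s : Finset ι) (f : ι → F) (ε : ι → ℤ)
    (hf : ∀ i ∈ s, f i ≠ 0) :
    v.ord (∏ i ∈ s, f i ^ ε i) = ∑ i ∈ s, ε i * v.ord (f i) := by
  classical
  induction s using Finset.induction_on with
  | empty => simp
  | insert a s ha ih =>
    rw [Finset.prod_insert ha, Finset.sum_insert ha]
    have h1 : f a ^ ε a ≠ 0 := zpow_ne_zero _ (hf a (Finset.mem_insert_self a s))
    have h2 : ∏ i ∈ s, f i ^ ε i ≠ 0 := by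
      rw [Finset.prod_ne_zero_iff]
      intro i hi
      exact zpow_ne_zero _ (hf i (Finset.mem_insert_of_mem hi))
    rw [v.ord_mul h1 h2, v.ord_zpow, ih fun i hi => hf i (Finset.mem_insert_of_mem hi)]

end Ord

section Fam

variable {L : Type*} [Field L] [Algebra ℚ L] (A : ValuationSubring L)
variable {k : Type*} [Field k] (π : A →+* k) (N : ℕ)

/-- the formal reduction of an integral Laurent series does not vanish only if the series does
not vanish. -/
theorem coeffMap_subtype_ne_zero {y : LaurentSeries A} (h : coeffMap π y ≠ 0) :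
    coeffMap A.subtype y ≠ 0 := by
  intro h0
  apply h
  have hy : y = 0 := by
    have hinj : Function.Injective (coeffMap A.subtype) := by
      intro a b hab
      ext n
      have h1 := congrArg (fun z : LaurentSeries L => z.coeff n) hab
      exact h1
    exact hinj (by rw [h0, map_zero])
  rw [hy, map_zero]

/-- **integral pairs**: `E = div g`, `g` a finite product of integer powers of integral elements
`y i` with nonzero formal reduction in the characteristic-`ℓ` function field, `g̃` the same product
of the reductions. -/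
def IsIntPair (E : Divisor L (laurentBaseChange L (modularFunctionFieldFull N)))
    (g : laurentBaseChange L (modularFunctionFieldFull N)) (gt : modularFunctionFieldFullC k N) :
    Prop :=
  ∃ (ι : Type) (_ : Fintype ι) (y : ι → LaurentSeries A) (ε : ι → ℤ)
    (hy : ∀ i, coeffMap A.subtype (y i) ∈ laurentBaseChange L (modularFunctionFieldFull N))
    (hyk : ∀ i, coeffMap π (y i) ∈ modularFunctionFieldFullC k N),
    (∀ i, coeffMap π (y i) ≠ 0) ∧
    (∃ Dv : ι → Divisor L (laurentBaseChange L (modularFunctionFieldFull N)),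
      (∀ i P, Dv i P = P.ord (⟨coeffMap A.subtype (y i), hy i⟩ :
        laurentBaseChange L (modularFunctionFieldFull N))) ∧ E = ∑ i, ε i • Dv i) ∧
    g = ∏ i, (⟨coeffMap A.subtype (y i), hy i⟩ :
      laurentBaseChange L (modularFunctionFieldFull N)) ^ ε i ∧
    gt = ∏ i, (⟨coeffMap π (y i), hyk i⟩ : modularFunctionFieldFullC k N) ^ ε i

variable {A π N}

theorem IsIntPair.zero :
    IsIntPair A π N 0 1 1 := by
  refine ⟨Empty, inferInstance, fun i => i.elim, fun i => i.elim, fun i => i.elim,
    fun i => i.elim, fun i => i.elim, ⟨fun i => i.elim, fun i => i.elim, ?_⟩, ?_, ?_⟩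
  · simp
  · simp
  · simp

theorem IsIntPair.of_mem {E : Divisor L (laurentBaseChange L (modularFunctionFieldFull N))}
    (hE : E ∈ integralPrincipalDivisors A π N) : ∃ g gt, IsIntPair A π N E g gt := by
  obtain ⟨y, hy, hyk, hne, hD⟩ := hE
  refine ⟨_, _, Unit, inferInstance, fun _ => y, fun _ => 1, fun _ => hy, fun _ => hyk,
    fun _ => hne, ⟨fun _ => E, fun _ P => hD P, ?_⟩, rfl, rfl⟩
  simp

theorem IsIntPair.mul {E E' : Divisor L (laurentBaseChange L (modularFunctionFieldFull N))}
    {g g' : laurentBaseChange L (modularFunctionFieldFull N)}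
    {gt gt' : modularFunctionFieldFullC k N}
    (h : IsIntPair A π N E g gt) (h' : IsIntPair A π N E' g' gt') :
    IsIntPair A π N (E + E') (g * g') (gt * gt') := by
  obtain ⟨ι, hι, y, ε, hy, hyk, hne, ⟨Dv, hDv, hE⟩, hg, hgt⟩ := h
  obtain ⟨ι', hι', y', ε', hy', hyk', hne', ⟨Dv', hDv', hE'⟩, hg', hgt'⟩ := h'
  refine ⟨ι ⊕ ι', inferInstance, Sum.elim y y', Sum.elim ε ε',
    fun i => Sum.casesOn i hy hy', fun i => Sum.casesOn i hyk hyk',
    fun i => Sum.casesOn i hne hne', ⟨Sum.elim Dv Dv', fun i => Sum.casesOn i hDv hDv', ?_⟩,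
    ?_, ?_⟩
  · rw [Fintype.sum_sum_type, hE, hE']
    rfl
  · rw [Fintype.prod_sum_type, hg, hg']
    rfl
  · rw [Fintype.prod_sum_type, hgt, hgt']
    rfl

theorem IsIntPair.zpow {E : Divisor L (laurentBaseChange L (modularFunctionFieldFull N))}
    {g : laurentBaseChange L (modularFunctionFieldFull N)} {gt : modularFunctionFieldFullC k N}
    (h : IsIntPair A π N E g gt) (n : ℤ) : IsIntPair A π N (n • E) (g ^ n) (gt ^ n) := by
  obtain ⟨ι, hι, y, ε, hy, hyk, hne, ⟨Dv, hDv, hE⟩, hg, hgt⟩ := h
  refine ⟨ι, hι, y, fun i => ε i * n, hy, hyk, hne, ⟨Dv, hDv, ?_⟩, ?_, ?_⟩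
  · rw [hE, Finset.smul_sum]
    refine Finset.sum_congr rfl fun i _ => ?_
    rw [smul_smul, mul_comm]
  · rw [hg, ← Finset.prod_zpow]
    refine Finset.prod_congr rfl fun i _ => ?_
    rw [zpow_mul]
  · rw [hgt, ← Finset.prod_zpow]
    refine Finset.prod_congr rfl fun i _ => ?_
    rw [zpow_mul]

theorem IsIntPair.inv {E : Divisor L (laurentBaseChange L (modularFunctionFieldFull N))}
    {g : laurentBaseChange L (modularFunctionFieldFull N)} {gt : modularFunctionFieldFullC k N}
    (h : IsIntPair A π N E g gt) : IsIntPair A π N (-E) g⁻¹ gt⁻¹ := by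
  have h1 := h.zpow (-1)
  rwa [neg_one_smul, zpow_neg_one, zpow_neg_one] at h1

/-- every element of the subgroup generated by the integral principal divisors is the divisor of
an integral pair. -/
theorem exists_isIntPair_of_mem_closure
    {E : Divisor L (laurentBaseChange L (modularFunctionFieldFull N))}
    (hE : E ∈ AddSubgroup.closure (integralPrincipalDivisors A π N)) :
    ∃ g gt, IsIntPair A π N E g gt := by
  induction hE using AddSubgroup.closure_induction with
  | mem E hE => exact IsIntPair.of_mem hE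
  | zero => exact ⟨1, 1, IsIntPair.zero⟩
  | add E E' _ _ hE hE' =>
    obtain ⟨g, gt, h⟩ := hE
    obtain ⟨g', gt', h'⟩ := hE'
    exact ⟨_, _, h.mul h'⟩
  | neg E _ hE =>
    obtain ⟨g, gt, h⟩ := hE
    exact ⟨_, _, h.inv⟩

theorem IsIntPair.ne_zero {E : Divisor L (laurentBaseChange L (modularFunctionFieldFull N))}
    {g : laurentBaseChange L (modularFunctionFieldFull N)} {gt : modularFunctionFieldFullC k N}
    (h : IsIntPair A π N E g gt) : g ≠ 0 ∧ gt ≠ 0 := by
  obtain ⟨ι, hι, y, ε, hy, hyk, hne, ⟨Dv, hDv, hE⟩, hg, hgt⟩ := h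
  constructor
  · rw [hg, Finset.prod_ne_zero_iff]
    intro i _
    refine zpow_ne_zero _ fun h0 => ?_
    exact coeffMap_subtype_ne_zero A π (hne i) (congrArg Subtype.val h0)
  · rw [hgt, Finset.prod_ne_zero_iff]
    intro i _
    refine zpow_ne_zero _ fun h0 => ?_
    exact hne i (congrArg Subtype.val h0)

/-- `E = div g`. -/
theorem IsIntPair.ord_eq {E : Divisor L (laurentBaseChange L (modularFunctionFieldFull N))}
    {g : laurentBaseChange L (modularFunctionFieldFull N)} {gt : modularFunctionFieldFullC k N}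
    (h : IsIntPair A π N E g gt)
    (P : Place L (laurentBaseChange L (modularFunctionFieldFull N))) : E P = P.ord g := by
  obtain ⟨ι, hι, y, ε, hy, hyk, hne, ⟨Dv, hDv, hE⟩, hg, hgt⟩ := h
  rw [hg, ord_prod_zpow P Finset.univ _ ε (fun i _ h0 =>
    coeffMap_subtype_ne_zero A π (hne i) (congrArg Subtype.val h0)), hE, Finsupp.finsetSum_apply]
  refine Finset.sum_congr rfl fun i _ => ?_
  rw [Finsupp.smul_apply, hDv i P, smul_eq_mul]

/-- `r_*(E) = div g̃` for a place reduction `r`. -/
theorem IsIntPair.mapDomain_eq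
    {r : Place L (laurentBaseChange L (modularFunctionFieldFull N)) →
      Place k (modularFunctionFieldFullC k N)} (hr : IsPlaceReductionAlong A π N r)
    {E : Divisor L (laurentBaseChange L (modularFunctionFieldFull N))}
    {g : laurentBaseChange L (modularFunctionFieldFull N)} {gt : modularFunctionFieldFullC k N}
    (h : IsIntPair A π N E g gt) (Q : Place k (modularFunctionFieldFullC k N)) :
    Finsupp.mapDomain r E Q = Q.ord gt := by
  obtain ⟨ι, hι, y, ε, hy, hyk, hne, ⟨Dv, hDv, hE⟩, hg, hgt⟩ := h
  rw [hgt, ord_prod_zpow Q Finset.univ _ ε (fun i _ h0 => hne i (congrArg Subtype.val h0)), hE,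
    ← Finsupp.mapDomain.addMonoidHom_apply, map_sum, Finsupp.finsetSum_apply]
  refine Finset.sum_congr rfl fun i _ => ?_
  rw [map_zsmul, Finsupp.smul_apply, Finsupp.mapDomain.addMonoidHom_apply,
    hr.2 (y i) (hy i) (hyk i) (hne i) (Dv i) (hDv i) Q, smul_eq_mul]

end Fam

end Fermat.Agent.JA
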