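/-
J-A — helper8 — (KEY) at a base: the literal statement `KeyBaseStatement` (the target of the
base-change package BC and the output of the geometric assembly), and its formal first step: a
product of integer powers of Gauss units with formal reduction `1` is `1 + ϖ h` with `h` in the
Gauss valuation ring.
-/
import Mathlib
import Fermat.Agent.JA.S18Asm_helper8_Main
import Fermat.Agent.Igusa.V_helper5_Gauss

set_option autoImplicit false
set_option linter.unusedSectionVars false

open HahnSeries IntermediateField AlgebraicCurve ModularCurve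

namespace Fermat.Agent.JA

/-- **(KEY) at a base** `K₁` with discrete valuation ring `R ⊂ K₁`: a finite product
`g = ∏ yᵢ^εᵢ` of integer powers of elements of the modular function field `F_{K₁}` with
coefficients in `R` and nonzero coefficientwise reductions, whose formal reduction is `1`, whose
divisor (over `K₁`) is divisible by `m`, and whose leading coefficient is an `m`-th power in `K₁`,
is an `m`-th power in `F_{K₁}`. -/
def KeyBaseStatement {K₁ : Type*} [Field K₁] [Algebra ℚ K₁] (R : ValuationSubring K₁)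
    (N m : ℕ) : Prop :=
  ∀ (ι : Type) [Fintype ι] (y : ι → LaurentSeries ↥R) (ε : ι → ℤ)
    (hy : ∀ i, coeffMap R.subtype (y i) ∈ laurentBaseChange K₁ (modularFunctionFieldFull N)),
    (∀ i, coeffMap (IsLocalRing.residue ↥R) (y i) ≠ 0) →
    (∏ i, (coeffMap (IsLocalRing.residue ↥R) (y i)) ^ ε i = 1) →
    (∀ P : Place K₁ (laurentBaseChange K₁ (modularFunctionFieldFull N)),
      (m : ℤ) ∣ P.ord (∏ i, (⟨coeffMap R.subtype (y i), hy i⟩ :
        laurentBaseChange K₁ (modularFunctionFieldFull N)) ^ ε i)) →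
    (∃ c : K₁, c ^ m = (∏ i, (coeffMap R.subtype (y i)) ^ ε i : LaurentSeries K₁).leadingCoeff) →
    ∃ u : laurentBaseChange K₁ (modularFunctionFieldFull N),
      u ^ m = ∏ i, (⟨coeffMap R.subtype (y i), hy i⟩ :
        laurentBaseChange K₁ (modularFunctionFieldFull N)) ^ ε i

section Formal

open Fermat.Agent.Igusa

variable {R : Type*} [CommRing R] [IsDomain R] [IsDiscreteValuationRing R]
variable {L : Type*} [Field L] [Algebra R L] [IsFractionRing R L]

/-- an element of `R((t))` with nonzero reduction is a unit of the Gauss valuation ring. -/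
theorem isUnit_emb_of_red_ne_zero {y : LaurentSeries R} (hy : red R y ≠ 0) :
    IsUnit (⟨emb R L y, emb_mem_gaussInt R L y⟩ : gaussInt R L) := by
  rw [isUnit_gaussInt_iff, gaussRed_emb]
  exact hy

/-- **formal step of (KEY)**: a product of integer powers of elements of `R((t))` with nonzero
reductions whose formal reduction is `1` has the form `1 + ϖ h` with `h` in the Gauss valuation
ring. -/
theorem exists_gaussInt_eq_one_add {ϖ : R} (hϖ : Irreducible ϖ) {ι : Type*} [Fintype ι]
    (y : ι → LaurentSeries R) (ε : ι → ℤ) (hne : ∀ i, red R (y i) ≠ 0)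
    (hred : ∏ i, (red R (y i)) ^ ε i = 1) :
    ∃ h : LaurentSeries L, h ∈ gaussInt R L ∧
      ∏ i, (emb R L (y i)) ^ ε i = 1 + HahnSeries.C (algebraMap R L ϖ) * h := by
  classical
  set x : ι → (↥(gaussInt R L))ˣ := fun i => (isUnit_emb_of_red_ne_zero (L := L) (hne i)).unit
    with hx
  set G : (↥(gaussInt R L))ˣ := ∏ i, x i ^ ε i with hG
  have hxval : ∀ i, (((x i : (↥(gaussInt R L))ˣ) : ↥(gaussInt R L)) : LaurentSeries L) =
      emb R L (y i) := fun i => rfl
  -- the value of `G` in `L((t))`
  have hGval : (((G : (↥(gaussInt R L))ˣ) : ↥(gaussInt R L)) : LaurentSeries L) =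
      ∏ i, (emb R L (y i)) ^ ε i := by
    have h1 : ((Units.map ((gaussInt R L).subtype : ↥(gaussInt R L) →* LaurentSeries L) G :
        (LaurentSeries L)ˣ) : LaurentSeries L) =
        (((G : (↥(gaussInt R L))ˣ) : ↥(gaussInt R L)) : LaurentSeries L) := rfl
    rw [← h1, hG, map_prod, Units.coe_prod]
    refine Finset.prod_congr rfl fun i _ => ?_
    rw [map_zpow, Units.val_zpow_eq_zpow_val]
    rfl
  -- the reduction of `G`
  have hGred : gaussRed R L ((G : (↥(gaussInt R L))ˣ) : ↥(gaussInt R L)) = 1 := by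
    have h1 : ((Units.map ((gaussRed R L : ↥(gaussInt R L) →+*
        LaurentSeries (IsLocalRing.ResidueField R)) : ↥(gaussInt R L) →*
        LaurentSeries (IsLocalRing.ResidueField R)) G :
        (LaurentSeries (IsLocalRing.ResidueField R))ˣ) :
        LaurentSeries (IsLocalRing.ResidueField R)) =
        gaussRed R L ((G : (↥(gaussInt R L))ˣ) : ↥(gaussInt R L)) := rfl
    rw [← h1, hG, map_prod, Units.coe_prod, ← hred]
    refine Finset.prod_congr rfl fun i _ => ?_
    rw [map_zpow, Units.val_zpow_eq_zpow_val]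
    congr 1
    exact gaussRed_emb R L (y i)
  have h0 : gaussRed R L (((G : (↥(gaussInt R L))ˣ) : ↥(gaussInt R L)) - 1) = 0 := by
    rw [map_sub, hGred, map_one, sub_self]
  obtain ⟨h, hh⟩ := (gaussRed_eq_zero_iff hϖ _).mp h0
  refine ⟨h, h.2, ?_⟩
  rw [← hGval, ← hh]
  simp

/-- the same for a valuation subring `R` of `K₁`, in the vocabulary of `KeyBaseStatement`. -/
theorem exists_gaussInt_eq_one_add_valuationSubring {K₁ : Type*} [Field K₁]
    (R : ValuationSubring K₁) [IsDiscreteValuationRing ↥R] {ϖ : ↥R} (hϖ : Irreducible ϖ)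
    {ι : Type*} [Fintype ι] (y : ι → LaurentSeries ↥R) (ε : ι → ℤ)
    (hne : ∀ i, coeffMap (IsLocalRing.residue ↥R) (y i) ≠ 0)
    (hred : ∏ i, (coeffMap (IsLocalRing.residue ↥R) (y i)) ^ ε i = 1) :
    ∃ h : LaurentSeries K₁, h ∈ gaussInt ↥R K₁ ∧
      ∏ i, (coeffMap R.subtype (y i)) ^ ε i = 1 + HahnSeries.C ((ϖ : ↥R) : K₁) * h :=
  exists_gaussInt_eq_one_add (L := K₁) hϖ y ε hne hred

end Formal

end Fermat.Agent.JA
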