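/-
J-A — helper8 — (KEY) at a base, part 3: `KeyBaseStatement` from the geometric input (I1)
(the integral closure of the Gauss valuation subring of `K₁(t)` in the cover `K₁(F, t, u)` is
local), the uniqueness of the Gauss valuations (LINE.3, G1.UNIQ) and KEY-END.
-/
import Mathlib
import Fermat.Agent.JA.KEYBASE_helper8_Def
import Fermat.Agent.JA.KEYBASE_helper8_Cusp
import Fermat.Agent.JA.G1INT_helper8
import Fermat.Agent.JA.HOST_helper3_Main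
import Fermat.Agent.JA.HOST_helper3_Test2
import Fermat.Agent.JA.LIFT_helper9
import Fermat.Agent.Igusa.V_helper5_GaussLemma

set_option autoImplicit false
set_option linter.unusedSectionVars false
set_option linter.style.haveILetI false
set_option synthInstance.maxHeartbeats 200000

open HahnSeries IntermediateField AlgebraicCurve ModularCurve Fermat.Agent.Igusa

namespace Fermat.Agent.JA

open scoped Fermat.Agent.JA.Host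

/-- the modular function field over `K₁` inside `K₁((q))`. -/
noncomputable abbrev keyFq (K₁ : Type*) [Field K₁] [Algebra ℚ K₁] (N : ℕ) :
    IntermediateField K₁ (LaurentSeries K₁) :=
  laurentBaseChange K₁ (modularFunctionFieldFull N)

/-- its image in the host `K₁((x))`, `q = x ^ w`. -/
noncomputable abbrev keyFw (K₁ : Type*) [Field K₁] [Algebra ℚ K₁] (N w : ℕ) [NeZero w] :
    IntermediateField K₁ (LaurentSeries K₁) :=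
  hostImage K₁ w (keyFq K₁ N)

section Main

variable {K₁ : Type*} [Field K₁] [Algebra ℚ K₁] (R : ValuationSubring K₁)
  [IsDiscreteValuationRing ↥R] (N m w : ℕ) [NeZero N] [NeZero w]

theorem jqModC_mem_keyFq : jqModC K₁ ∈ keyFq K₁ N := by
  have := qExpand_jqModC_mem_laurentBaseChange (L := K₁) N (one_dvd N)
  rwa [qExpand_one_apply] at this

theorem order_jqModC_eq : (jqModC K₁).order = -1 := by
  have hne := jqModC_ne_zero_of_nontrivial K₁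
  apply le_antisymm
  · exact HahnSeries.order_le_of_coeff_ne_zero
      (by rw [coeff_jqModC_neg_one]; exact one_ne_zero)
  · by_contra hlt
    rw [not_le] at hlt
    exact hne (HahnSeries.coeff_order_eq_zero.mp (coeff_jqModC_of_lt K₁ hlt))

theorem jqNModC_mem_keyFw : jqNModC K₁ w ∈ keyFw K₁ N w :=
  qExpand_mem_hostImage (jqModC_mem_keyFq N)

set_option maxHeartbeats 1600000 in
theorem keyBaseStatement_of_geo {ϖ : ↥R} (hϖ : Irreducible ϖ)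
    (hmK : (m : K₁) ≠ 0) (hmR : ((m : K₁))⁻¹ ∈ R) (ζ : K₁) (hζ : IsPrimitiveRoot ζ m)
    (hFq : keyFq K₁ N ≤ gaussField ↥R K₁)
    (hmemW : ∀ W : ValuationSubring ↥(keyFq K₁ N),
      (∀ c : ↥(keyFq K₁ N), (c : LaurentSeries K₁) ∈ K₁⟮emb ↥R K₁ (jqModC ↥R)⟯ →
        (c ∈ W ↔ (c : LaurentSeries K₁) ∈ gaussInt ↥R K₁)) →
      ∀ z : ↥(keyFq K₁ N), (z : LaurentSeries K₁) ∈ gaussInt ↥R K₁ → z ∈ W)
    (t : LaurentSeries K₁)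
    [Fact (K₁⟮jqNModC K₁ w⟯ ≤ keyFw K₁ N w)] [Fact (K₁⟮jqNModC K₁ w⟯ ≤ K₁⟮t⟯)]
    [Module.Finite ↥K₁⟮jqNModC K₁ w⟯ ↥(keyFw K₁ N w)]
    (hGex : ∃ 𝒢t : ValuationSubring ↥K₁⟮t⟯, IsGaussAt ↥R ϖ (AdjoinSimple.gen K₁ t) 𝒢t)
    (hline : ∀ 𝒢t : ValuationSubring ↥K₁⟮t⟯, IsGaussAt ↥R ϖ (AdjoinSimple.gen K₁ t) 𝒢t →
      IsGaussAt ↥R ϖ (AdjoinSimple.gen K₁ (jqNModC K₁ w))
        (𝒢t.comap (algebraMap ↥K₁⟮jqNModC K₁ w⟯ ↥K₁⟮t⟯)) ∧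
      ∀ x ∈ 𝒢t, IsIntegral ↥(𝒢t.comap (algebraMap ↥K₁⟮jqNModC K₁ w⟯ ↥K₁⟮t⟯)) x)
    (hGuniq : ∀ 𝒱 𝒱' : ValuationSubring ↥K₁⟮jqNModC K₁ w⟯,
      IsGaussAt ↥R ϖ (AdjoinSimple.gen K₁ (jqNModC K₁ w)) 𝒱 →
      IsGaussAt ↥R ϖ (AdjoinSimple.gen K₁ (jqNModC K₁ w)) 𝒱' → 𝒱 = 𝒱')
    (hGdvr : ∀ 𝒱 : ValuationSubring ↥K₁⟮jqNModC K₁ w⟯,
      IsGaussAt ↥R ϖ (AdjoinSimple.gen K₁ (jqNModC K₁ w)) 𝒱 → IsDiscreteValuationRing ↥𝒱)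
    (hI1 : ∀ g : ↥(keyFq K₁ N), g ≠ 0 → (g : LaurentSeries K₁) ∈ gaussInt ↥R K₁ →
      (g : LaurentSeries K₁)⁻¹ ∈ gaussInt ↥R K₁ →
      (∀ P : Place K₁ ↥(keyFq K₁ N), (m : ℤ) ∣ P.ord g) →
      ∀ u : LaurentSeries K₁, u ^ m = qExpand K₁ w (g : LaurentSeries K₁) →
      ∀ 𝒢t : ValuationSubring ↥K₁⟮t⟯, IsGaussAt ↥R ϖ (AdjoinSimple.gen K₁ t) 𝒢t →
      IsLocalRing ↥(integralClosure ↥𝒢t ↥(Host.Etu (keyFw K₁ N w) t u))) :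
    KeyBaseStatement R N m := by
  classical
  intro ι _ y ε hy hne hred hdiv hlead
  obtain ⟨c, hc⟩ := hlead
  -- notation
  set Fq : IntermediateField K₁ (LaurentSeries K₁) := keyFq K₁ N with hFqdef
  set Fw : IntermediateField K₁ (LaurentSeries K₁) := keyFw K₁ N w with hFwdef
  set e : ↥Fq ≃ₐ[K₁] ↥Fw := hostImageEquiv K₁ w Fq with he
  -- formal step
  obtain ⟨h, hh, hgh⟩ := exists_gaussInt_eq_one_add_valuationSubring R hϖ y ε hne hred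
  set g : ↥Fq := ∏ i, (⟨coeffMap R.subtype (y i), hy i⟩ : ↥Fq) ^ ε i with hg
  have hgval : (g : LaurentSeries K₁) = ∏ i, (coeffMap R.subtype (y i)) ^ ε i := by
    show Fq.val g = _
    rw [hg, map_prod]
    refine Finset.prod_congr rfl fun i _ => ?_
    rw [map_zpow₀]
    rfl
  -- `C ϖ ∈ Fq`, `h ∈ Fq`, `g` is a Gauss unit
  have hCϖ : (HahnSeries.C ((ϖ : ↥R) : K₁) : LaurentSeries K₁) =
      algebraMap K₁ (LaurentSeries K₁) ((ϖ : ↥R) : K₁) := by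
    rw [algebraMap_laurentSeries_eq_single]; rfl
  have hϖK : ((ϖ : ↥R) : K₁) ≠ 0 := fun h0 => hϖ.ne_zero (Subtype.ext h0)
  have hCϖ0 : (HahnSeries.C ((ϖ : ↥R) : K₁) : LaurentSeries K₁) ≠ 0 := by
    rw [hCϖ]
    exact fun h0 => hϖK ((map_eq_zero _).mp h0)
  have hhFq : h ∈ Fq := by
    have h1 : h = ((g : LaurentSeries K₁) - 1) * (HahnSeries.C ((ϖ : ↥R) : K₁))⁻¹ := by
      rw [hgval, hgh, add_sub_cancel_left, mul_comm, inv_mul_cancel_left₀ hCϖ0]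
    rw [h1]
    refine Fq.mul_mem (Fq.sub_mem g.2 Fq.one_mem) (Fq.inv_mem ?_)
    rw [hCϖ]
    exact Fq.algebraMap_mem _
  have hgint : (g : LaurentSeries K₁) ∈ gaussInt ↥R K₁ := by
    rw [hgval, hgh]
    exact (gaussInt ↥R K₁).add_mem (gaussInt ↥R K₁).one_mem
      ((gaussInt ↥R K₁).mul_mem (C_algebraMap_mem_gaussInt ϖ) hh)
  have hgred : gaussRed ↥R K₁ ⟨(g : LaurentSeries K₁), hgint⟩ = 1 := by
    have h1 : (⟨(g : LaurentSeries K₁), hgint⟩ : gaussInt ↥R K₁) =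
        1 + ⟨HahnSeries.C ((ϖ : ↥R) : K₁), C_algebraMap_mem_gaussInt ϖ⟩ * ⟨h, hh⟩ := by
      apply Subtype.ext
      rw [hgval, hgh]
      rfl
    have h2 : gaussRed ↥R K₁
        (⟨HahnSeries.C ((ϖ : ↥R) : K₁), C_algebraMap_mem_gaussInt ϖ⟩ * ⟨h, hh⟩) = 0 := by
      rw [gaussRed_eq_zero_iff hϖ]
      exact ⟨⟨h, hh⟩, rfl⟩
    rw [h1, map_add, map_one, h2, add_zero]
  have hginv : (g : LaurentSeries K₁)⁻¹ ∈ gaussInt ↥R K₁ :=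
    inv_mem_gaussInt_of_gaussRed_ne_zero ⟨_, hgint⟩ (by rw [hgred]; exact one_ne_zero)
  have hg0' : (g : LaurentSeries K₁) ≠ 0 := by
    intro h0
    have h1 : (⟨(g : LaurentSeries K₁), hgint⟩ : gaussInt ↥R K₁) = 0 := Subtype.ext h0
    rw [h1, map_zero] at hgred
    exact zero_ne_one hgred
  have hg0 : g ≠ 0 := fun h0 => hg0' (by rw [h0]; rfl)
  -- the `q`-order of `g` is divisible by `m`
  obtain ⟨Pinf, hPinf⟩ := exists_place_ord_eq_order Fq (jqModC_mem_keyFq N) order_jqModC_eq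
  have hord : (m : ℤ) ∣ (g : LaurentSeries K₁).order := by
    rw [← hPinf g hg0]
    exact hdiv Pinf
  -- the root `u` in the host
  obtain ⟨u, hu⟩ := exists_pow_eq_qExpand w m hmK (g : LaurentSeries K₁) hg0' hord c
    (by rw [hgval]; exact hc)
  -- Gauss valuation subrings
  obtain ⟨𝒢t, h𝒢t⟩ := hGex
  obtain ⟨h𝒢j, hint⟩ := hline 𝒢t h𝒢t
  set 𝒢j : ValuationSubring ↥K₁⟮jqNModC K₁ w⟯ :=
    𝒢t.comap (algebraMap ↥K₁⟮jqNModC K₁ w⟯ ↥K₁⟮t⟯) with h𝒢jdef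
  haveI : IsDiscreteValuationRing ↥𝒢j := hGdvr 𝒢j h𝒢j
  have hloc := hI1 g hg0 hgint hginv hdiv u hu 𝒢t h𝒢t
  -- the twisted algebra structure `K₁(j_w) → F_q`
  let ρ : ↥K₁⟮jqNModC K₁ w⟯ →+* ↥Fq :=
    (e.symm : ↥Fw →+* ↥Fq).comp (algebraMap ↥K₁⟮jqNModC K₁ w⟯ ↥Fw)
  letI algρ : Algebra ↥K₁⟮jqNModC K₁ w⟯ ↥Fq := ρ.toAlgebra
  haveI towρ : IsScalarTower K₁ ↥K₁⟮jqNModC K₁ w⟯ ↥Fq :=
    IsScalarTower.of_algebraMap_eq fun c => by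
      show algebraMap K₁ ↥Fq c =
        e.symm (algebraMap ↥K₁⟮jqNModC K₁ w⟯ ↥Fw (algebraMap K₁ ↥K₁⟮jqNModC K₁ w⟯ c))
      rw [← IsScalarTower.algebraMap_apply K₁ ↥K₁⟮jqNModC K₁ w⟯ ↥Fw, e.symm.commutes]
  have hj₀ : ((algebraMap ↥K₁⟮jqNModC K₁ w⟯ ↥Fq (AdjoinSimple.gen K₁ (jqNModC K₁ w)) : ↥Fq) :
      LaurentSeries K₁) = emb ↥R K₁ (jqModC ↥R) := by
    have h1 : e ⟨jqModC K₁, jqModC_mem_keyFq N⟩ =
        algebraMap ↥K₁⟮jqNModC K₁ w⟯ ↥Fw (AdjoinSimple.gen K₁ (jqNModC K₁ w)) :=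
      Subtype.ext rfl
    show ((e.symm (algebraMap ↥K₁⟮jqNModC K₁ w⟯ ↥Fw (AdjoinSimple.gen K₁ (jqNModC K₁ w))) : ↥Fq) :
      LaurentSeries K₁) = _
    rw [← h1, e.symm_apply_apply]
    show jqModC K₁ = coeffMap (algebraMap ↥R K₁) (jqModC ↥R)
    rw [coeffMap_jqModC]
  -- algebraicity
  haveI algFw : Algebra.IsAlgebraic ↥K₁⟮jqNModC K₁ w⟯ ↥Fw := Algebra.IsAlgebraic.of_finite _ _
  let eK : ↥Fq →ₐ[↥K₁⟮jqNModC K₁ w⟯] ↥Fw :=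
    { (e : ↥Fq →+* ↥Fw) with commutes' := fun r => e.apply_symm_apply _ }
  haveI algFq : Algebra.IsAlgebraic ↥K₁⟮jqNModC K₁ w⟯ ↥Fq :=
    Algebra.IsAlgebraic.of_injective eK e.injective
  -- identification of `𝒢j` with the restriction of the Gauss valuation subring of `F_q`
  have hst : Transcendental (IsLocalRing.ResidueField ↥R) (red ↥R (jqModC ↥R)) := by
    have h1 : red ↥R (jqModC ↥R) = jqModC (IsLocalRing.ResidueField ↥R) := coeffMap_jqModC _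
    rw [h1]
    exact transcendental_jqModC _
  have h𝒢 : 𝒢j = (gaussValSub ↥R K₁ Fq hFq).comap (algebraMap ↥K₁⟮jqNModC K₁ w⟯ ↥Fq) :=
    hGuniq _ _ h𝒢j (isGaussAt_comap_gaussValSub Fq hFq (jqModC ↥R)
      (AdjoinSimple.gen K₁ (jqNModC K₁ w)) hj₀ hϖ hst)
  -- `h` is integral over `𝒢j`
  have hhq : IsIntegral ↥𝒢j (⟨h, hhFq⟩ : ↥Fq) :=
    isIntegral_of_mem_gaussInt Fq hFq (jqModC ↥R) (AdjoinSimple.gen K₁ (jqNModC K₁ w)) hj₀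
      hmemW 𝒢j h𝒢 ⟨h, hhFq⟩ hh
  have hhw : IsIntegral ↥𝒢j (e ⟨h, hhFq⟩) := by
    refine IsIntegral.map_of_comp_eq (RingHom.id ↥𝒢j) (e : ↥Fq →+* ↥Fw) ?_ hhq
    refine RingHom.ext fun r => ?_
    show algebraMap ↥K₁⟮jqNModC K₁ w⟯ ↥Fw (r : ↥K₁⟮jqNModC K₁ w⟯) =
      e (e.symm (algebraMap ↥K₁⟮jqNModC K₁ w⟯ ↥Fw (r : ↥K₁⟮jqNModC K₁ w⟯)))
    rw [e.apply_symm_apply]
  -- the data of KEY-END
  have hπmem : algebraMap ↥R ↥K₁⟮jqNModC K₁ w⟯ ϖ ∈ 𝒢j := by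
    have := h𝒢j.1 (Polynomial.C ϖ)
    rwa [Polynomial.aeval_C] at this
  have hπinv : (algebraMap ↥R ↥K₁⟮jqNModC K₁ w⟯ ϖ)⁻¹ ∉ 𝒢j := h𝒢j.2.1
  have hmK' : ((m : ℕ) : ↥K₁⟮jqNModC K₁ w⟯) ≠ 0 := by
    have h1 : ((m : ℕ) : ↥K₁⟮jqNModC K₁ w⟯) = algebraMap K₁ ↥K₁⟮jqNModC K₁ w⟯ (m : K₁) :=
      (map_natCast _ m).symm
    rw [h1]
    exact fun h0 => hmK ((map_eq_zero _).mp h0)
  have hm' : (((m : ℕ) : ↥K₁⟮jqNModC K₁ w⟯))⁻¹ ∈ 𝒢j := by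
    have h1 := h𝒢j.1 (Polynomial.C (⟨(m : K₁)⁻¹, hmR⟩ : ↥R))
    rw [Polynomial.aeval_C] at h1
    have h2 : algebraMap ↥R ↥K₁⟮jqNModC K₁ w⟯ (⟨(m : K₁)⁻¹, hmR⟩ : ↥R) =
        (((m : ℕ) : ↥K₁⟮jqNModC K₁ w⟯))⁻¹ := by
      rw [IsScalarTower.algebraMap_apply ↥R K₁ ↥K₁⟮jqNModC K₁ w⟯]
      show algebraMap K₁ ↥K₁⟮jqNModC K₁ w⟯ ((m : K₁)⁻¹) = _
      rw [map_inv₀, map_natCast]
    rwa [h2] at h1
  have hζ' : IsPrimitiveRoot (algebraMap K₁ ↥K₁⟮jqNModC K₁ w⟯ ζ) m :=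
    hζ.map_of_injective (algebraMap K₁ ↥K₁⟮jqNModC K₁ w⟯).injective
  have hπcoe : ((algebraMap ↥K₁⟮jqNModC K₁ w⟯ ↥Fw (algebraMap ↥R ↥K₁⟮jqNModC K₁ w⟯ ϖ) : ↥Fw) :
      LaurentSeries K₁) = HahnSeries.C ((ϖ : ↥R) : K₁) := by
    rw [IsScalarTower.algebraMap_apply ↥R K₁ ↥K₁⟮jqNModC K₁ w⟯, hCϖ]
    rfl
  have hgw : e g = 1 + algebraMap ↥K₁⟮jqNModC K₁ w⟯ ↥Fw
      (algebraMap ↥R ↥K₁⟮jqNModC K₁ w⟯ ϖ) * e ⟨h, hhFq⟩ := by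
    apply Subtype.ext
    rw [IntermediateField.coe_add, IntermediateField.coe_one, IntermediateField.coe_mul, hπcoe,
      coe_hostImageEquiv, coe_hostImageEquiv, hgval, hgh, map_add, map_one, map_mul, qExpand_C]
  have hu' : u ^ m = ((e g : ↥Fw) : LaurentSeries K₁) := by
    rw [coe_hostImageEquiv]
    exact hu
  have hle : ∀ x ∈ 𝒢j, algebraMap ↥K₁⟮jqNModC K₁ w⟯ ↥K₁⟮t⟯ x ∈ 𝒢t := fun x hx => hx
  have humem : u ∈ Fw :=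
    Host.mem_of_pow_eq_in_host Fw (jqNModC K₁ w) t u 𝒢j 𝒢t hloc hle hint
      (algebraMap ↥R ↥K₁⟮jqNModC K₁ w⟯ ϖ) hπmem hπinv m hmK' hm'
      (algebraMap K₁ ↥K₁⟮jqNModC K₁ w⟯ ζ) hζ' (e g) (e ⟨h, hhFq⟩) hhw hgw hu'
  -- descent to `F_q`
  obtain ⟨u₀, hu₀, hu₀u⟩ := mem_hostImage_iff.mp humem
  refine ⟨⟨u₀, hu₀⟩, ?_⟩
  apply Subtype.ext
  apply qExpand_injective (R := K₁) (N := w)
  rw [IntermediateField.coe_pow, map_pow, hu₀u, hu]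

end Main

end Fermat.Agent.JA
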