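/-
J-A — helper8 — (KEY) at a base, part 4: integrality over the Gauss valuation subring of
`K₁(j_w)` of the Gauss-integral elements of the modular function field (host form), and
`KeyBaseStatement` from the geometric input with the Gauss-uniqueness hypotheses discharged.
-/
import Mathlib
import Fermat.Agent.JA.KEYBASE_helper8_Main
import Fermat.Agent.JA.GAUSSUNIQ_helper6

set_option autoImplicit false
set_option linter.unusedSectionVars false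
set_option linter.style.haveILetI false
set_option synthInstance.maxHeartbeats 200000

open HahnSeries IntermediateField AlgebraicCurve ModularCurve Fermat.Agent.Igusa

namespace Fermat.Agent.JA

open scoped Fermat.Agent.JA.Host

section Int

variable {K₁ : Type*} [Field K₁] [Algebra ℚ K₁] (R : ValuationSubring K₁)
  [IsDiscreteValuationRing ↥R] (N w : ℕ) [NeZero N] [NeZero w]

theorem charZero_valuationSubring_of_algebraRat : CharZero ↥R := by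
  haveI : CharZero K₁ := algebraRat.charZero K₁
  exact RingHom.charZero R.subtype

theorem transcendental_jqNModC : Transcendental K₁ (jqNModC K₁ w) :=
  Host.transcendental_of_coeff_ne_zero (n := -(w : ℤ))
    (by rw [neg_ne_zero]; exact_mod_cast NeZero.ne w)
    (by rw [Host.coeff_jqNModC]; exact one_ne_zero)

/-- **Gauss-integral elements of `F_q` are integral over every Gauss valuation subring of
`K₁(j_w)`** (after transport to the host). -/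
theorem isIntegral_hostImageEquiv_of_mem_gaussInt {ϖ : ↥R} (hϖ : Irreducible ϖ)
    (hFq : keyFq K₁ N ≤ gaussField ↥R K₁)
    (hmemW : ∀ W : ValuationSubring ↥(keyFq K₁ N),
      (∀ c : ↥(keyFq K₁ N), (c : LaurentSeries K₁) ∈ K₁⟮emb ↥R K₁ (jqModC ↥R)⟯ →
        (c ∈ W ↔ (c : LaurentSeries K₁) ∈ gaussInt ↥R K₁)) →
      ∀ z : ↥(keyFq K₁ N), (z : LaurentSeries K₁) ∈ gaussInt ↥R K₁ → z ∈ W)
    [Fact (K₁⟮jqNModC K₁ w⟯ ≤ keyFw K₁ N w)]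
    [Module.Finite ↥K₁⟮jqNModC K₁ w⟯ ↥(keyFw K₁ N w)]
    (𝒢 : ValuationSubring ↥K₁⟮jqNModC K₁ w⟯)
    (h𝒢 : IsGaussAt ↥R ϖ (AdjoinSimple.gen K₁ (jqNModC K₁ w)) 𝒢)
    (z : ↥(keyFq K₁ N)) (hz : (z : LaurentSeries K₁) ∈ gaussInt ↥R K₁) :
    IsIntegral ↥𝒢 (hostImageEquiv K₁ w (keyFq K₁ N) z) := by
  revert z
  haveI : CharZero ↥R := charZero_valuationSubring_of_algebraRat R
  have htr : Transcendental K₁ (AdjoinSimple.gen K₁ (jqNModC K₁ w)) :=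
    Host.transcendental_gen (transcendental_jqNModC w)
  have hK : IntermediateField.adjoin K₁ {AdjoinSimple.gen K₁ (jqNModC K₁ w)} = ⊤ :=
    Host.adjoin_gen_eq_top _
  haveI : IsDiscreteValuationRing ↥𝒢 :=
    isDiscreteValuationRing_of_isGaussAt ϖ hϖ _ htr hK h𝒢
  set Fq : IntermediateField K₁ (LaurentSeries K₁) := keyFq K₁ N with hFqdef
  set Fw : IntermediateField K₁ (LaurentSeries K₁) := keyFw K₁ N w with hFwdef
  set e : ↥Fq ≃ₐ[K₁] ↥Fw := hostImageEquiv K₁ w Fq with he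
  -- the twisted algebra structure `K₁(j_w) → F_q`
  let ρ : ↥K₁⟮jqNModC K₁ w⟯ →+* ↥Fq :=
    (e.symm : ↥Fw →+* ↥Fq).comp (algebraMap ↥K₁⟮jqNModC K₁ w⟯ ↥Fw)
  letI algρ : Algebra ↥K₁⟮jqNModC K₁ w⟯ ↥Fq := ρ.toAlgebra
  haveI towρ : IsScalarTower K₁ ↥K₁⟮jqNModC K₁ w⟯ ↥Fq :=
    IsScalarTower.of_algebraMap_eq fun c => by
      show algebraMap K₁ ↥Fq c =
        e.symm (algebraMap ↥K₁⟮jqNModC K₁ w⟯ ↥Fw (algebraMap K₁ ↥K₁⟮jqNModC K₁ w⟯ c))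
      rw [← IsScalarTower.algebraMap_apply K₁ ↥K₁⟮jqNModC K₁ w⟯ ↥Fw, e.symm.commutes]
  have hj₀ : ((algebraMap ↥K₁⟮jqNModC K₁ w⟯ ↥Fq (AdjoinSimple.gen K₁ (jqNModC K₁ w)) : ↥Fq) :
      LaurentSeries K₁) = emb ↥R K₁ (jqModC ↥R) := by
    have h1 : e ⟨jqModC K₁, jqModC_mem_keyFq N⟩ =
        algebraMap ↥K₁⟮jqNModC K₁ w⟯ ↥Fw (AdjoinSimple.gen K₁ (jqNModC K₁ w)) :=
      Subtype.ext rfl
    show ((e.symm (algebraMap ↥K₁⟮jqNModC K₁ w⟯ ↥Fw (AdjoinSimple.gen K₁ (jqNModC K₁ w))) : ↥Fq) :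
      LaurentSeries K₁) = _
    rw [← h1, e.symm_apply_apply]
    show jqModC K₁ = coeffMap (algebraMap ↥R K₁) (jqModC ↥R)
    rw [coeffMap_jqModC]
  haveI algFw : Algebra.IsAlgebraic ↥K₁⟮jqNModC K₁ w⟯ ↥Fw := Algebra.IsAlgebraic.of_finite _ _
  let eK : ↥Fq →ₐ[↥K₁⟮jqNModC K₁ w⟯] ↥Fw :=
    { (e : ↥Fq →+* ↥Fw) with commutes' := fun r => e.apply_symm_apply _ }
  haveI algFq : Algebra.IsAlgebraic ↥K₁⟮jqNModC K₁ w⟯ ↥Fq :=
    Algebra.IsAlgebraic.of_injective eK e.injective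
  have hst : Transcendental (IsLocalRing.ResidueField ↥R) (red ↥R (jqModC ↥R)) := by
    have h1 : red ↥R (jqModC ↥R) = jqModC (IsLocalRing.ResidueField ↥R) := coeffMap_jqModC _
    rw [h1]
    exact transcendental_jqModC _
  have h𝒢eq : 𝒢 = (gaussValSub ↥R K₁ Fq hFq).comap (algebraMap ↥K₁⟮jqNModC K₁ w⟯ ↥Fq) :=
    isGaussAt_unique ϖ hϖ _ htr hK h𝒢 (isGaussAt_comap_gaussValSub Fq hFq (jqModC ↥R)
      (AdjoinSimple.gen K₁ (jqNModC K₁ w)) hj₀ hϖ hst)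
  intro z hz
  have hzq : IsIntegral ↥𝒢 z :=
    isIntegral_of_mem_gaussInt Fq hFq (jqModC ↥R) (AdjoinSimple.gen K₁ (jqNModC K₁ w)) hj₀
      hmemW 𝒢 h𝒢eq z hz
  refine IsIntegral.map_of_comp_eq (RingHom.id ↥𝒢) (e : ↥Fq →+* ↥Fw) ?_ hzq
  refine RingHom.ext fun r => ?_
  show algebraMap ↥K₁⟮jqNModC K₁ w⟯ ↥Fw (r : ↥K₁⟮jqNModC K₁ w⟯) =
    e (e.symm (algebraMap ↥K₁⟮jqNModC K₁ w⟯ ↥Fw (r : ↥K₁⟮jqNModC K₁ w⟯)))
  rw [e.apply_symm_apply]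

/-- `KeyBaseStatement` from the geometric input (I1), the LINE.3 facts and (G1.UNIQ); the
existence / uniqueness / discreteness of the Gauss valuation subrings is supplied by helper6's
GAUSS-UNIQ. -/
theorem keyBaseStatement_of_geo' (m : ℕ) {ϖ : ↥R} (hϖ : Irreducible ϖ)
    (hmK : (m : K₁) ≠ 0) (hmR : ((m : K₁))⁻¹ ∈ R) (ζ : K₁) (hζ : IsPrimitiveRoot ζ m)
    (hFq : keyFq K₁ N ≤ gaussField ↥R K₁)
    (hmemW : ∀ W : ValuationSubring ↥(keyFq K₁ N),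
      (∀ c : ↥(keyFq K₁ N), (c : LaurentSeries K₁) ∈ K₁⟮emb ↥R K₁ (jqModC ↥R)⟯ →
        (c ∈ W ↔ (c : LaurentSeries K₁) ∈ gaussInt ↥R K₁)) →
      ∀ z : ↥(keyFq K₁ N), (z : LaurentSeries K₁) ∈ gaussInt ↥R K₁ → z ∈ W)
    (t : LaurentSeries K₁) (htr : Transcendental K₁ t)
    [Fact (K₁⟮jqNModC K₁ w⟯ ≤ keyFw K₁ N w)] [Fact (K₁⟮jqNModC K₁ w⟯ ≤ K₁⟮t⟯)]
    [Module.Finite ↥K₁⟮jqNModC K₁ w⟯ ↥(keyFw K₁ N w)]
    (hline : ∀ 𝒢t : ValuationSubring ↥K₁⟮t⟯, IsGaussAt ↥R ϖ (AdjoinSimple.gen K₁ t) 𝒢t →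
      IsGaussAt ↥R ϖ (AdjoinSimple.gen K₁ (jqNModC K₁ w))
        (𝒢t.comap (algebraMap ↥K₁⟮jqNModC K₁ w⟯ ↥K₁⟮t⟯)) ∧
      ∀ x ∈ 𝒢t, IsIntegral ↥(𝒢t.comap (algebraMap ↥K₁⟮jqNModC K₁ w⟯ ↥K₁⟮t⟯)) x)
    (hI1 : ∀ g : ↥(keyFq K₁ N), g ≠ 0 → (g : LaurentSeries K₁) ∈ gaussInt ↥R K₁ →
      (g : LaurentSeries K₁)⁻¹ ∈ gaussInt ↥R K₁ →
      (∀ P : Place K₁ ↥(keyFq K₁ N), (m : ℤ) ∣ P.ord g) →
      ∀ u : LaurentSeries K₁, u ^ m = qExpand K₁ w (g : LaurentSeries K₁) →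
      ∀ 𝒢t : ValuationSubring ↥K₁⟮t⟯, IsGaussAt ↥R ϖ (AdjoinSimple.gen K₁ t) 𝒢t →
      IsLocalRing ↥(integralClosure ↥𝒢t ↥(Host.Etu (keyFw K₁ N w) t u))) :
    KeyBaseStatement R N m := by
  haveI : CharZero ↥R := charZero_valuationSubring_of_algebraRat R
  have htrj : Transcendental K₁ (AdjoinSimple.gen K₁ (jqNModC K₁ w)) :=
    Host.transcendental_gen (transcendental_jqNModC w)
  have hKj : IntermediateField.adjoin K₁ {AdjoinSimple.gen K₁ (jqNModC K₁ w)} = ⊤ :=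
    Host.adjoin_gen_eq_top _
  exact keyBaseStatement_of_geo R N m w hϖ hmK hmR ζ hζ hFq hmemW t
    (exists_isGaussAt ϖ hϖ (AdjoinSimple.gen K₁ t) (Host.transcendental_gen htr)
      (Host.adjoin_gen_eq_top t))
    hline (fun 𝒱 𝒱' h h' => isGaussAt_unique ϖ hϖ _ htrj hKj h h')
    (fun 𝒱 h => isDiscreteValuationRing_of_isGaussAt ϖ hϖ _ htrj hKj h) hI1

end Int

end Fermat.Agent.JA
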