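/-
J-A project, package LINE (helper2), part 9 (LINE.3, first half): the Gauss valuation subring.

`R` a discrete valuation ring with uniformizer `π`, `K = Frac R`, `M = K(t)` (`t` transcendental).
* polynomial level: `C π` is prime in `R[X]`, extraction of the `π`-content;
* normal form `x = π ^ n * f(t) / g(t)` (`f, g` primitive) of the nonzero elements of `M`;
* for a valuation subring `𝒱` with `IsGaussAt R π t 𝒱` (lead's `GEO_lead_Spec`): description of the
  integers (`IsGaussAt.valuation_le_one_iff`) and of the maximal ideal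
  (`IsGaussAt.valuation_lt_one_iff`, `…_iff_le`), uniqueness (`IsGaussAt.eq_of_isGaussAt`);
* existence: `gaussVS hπ htr hgen : ValuationSubring M`, `isGaussAt_gaussVS`.
-/
import Mathlib
import Fermat.Agent.JA.GEO_lead_Spec
import Fermat.Agent.JA.LINE_helper2_Places

set_option autoImplicit false

open Polynomial IsLocalRing IntermediateField

namespace Fermat.Agent.JA

section GaussPoly

variable {R : Type*} [CommRing R] [IsDomain R] [IsDiscreteValuationRing R] {π : R}

/-- `C π ∣ f` iff `f` vanishes modulo the maximal ideal. -/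
theorem C_dvd_iff_map_residue_eq_zero (hπ : Irreducible π) (f : R[X]) :
    C π ∣ f ↔ f.map (residue R) = 0 := by
  rw [C_dvd_iff_dvd_coeff, Polynomial.ext_iff]
  refine forall_congr' fun i => ?_
  rw [coeff_map, coeff_zero, residue_eq_zero_iff, hπ.maximalIdeal_eq, Ideal.mem_span_singleton]

theorem prime_C_of_irreducible (hπ : Irreducible π) : Prime (C π : R[X]) :=
  prime_C_iff.mpr hπ.prime

theorem not_C_dvd_mul (hπ : Irreducible π) {f g : R[X]} (hf : ¬ C π ∣ f) (hg : ¬ C π ∣ g) :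
    ¬ C π ∣ f * g := fun h =>
  ((prime_C_of_irreducible hπ).dvd_or_dvd h).elim hf hg

theorem not_C_dvd_pow (hπ : Irreducible π) {f : R[X]} (hf : ¬ C π ∣ f) (n : ℕ) :
    ¬ C π ∣ f ^ n := fun h =>
  hf ((prime_C_of_irreducible hπ).dvd_of_dvd_pow h)

theorem not_C_dvd_one (hπ : Irreducible π) : ¬ C π ∣ (1 : R[X]) := fun h =>
  (prime_C_of_irreducible hπ).not_isUnit (isUnit_of_dvd_one h)

theorem not_C_dvd_prod (hπ : Irreducible π) {ι : Type*} (s : Finset ι) (g : ι → R[X])
    (hg : ∀ i ∈ s, ¬ C π ∣ g i) : ¬ C π ∣ ∏ i ∈ s, g i := by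
  classical
  induction s using Finset.induction_on with
  | empty => simpa using not_C_dvd_one hπ
  | insert a s ha ih =>
    rw [Finset.prod_insert ha]
    exact not_C_dvd_mul hπ (hg a (Finset.mem_insert_self a s))
      (ih fun i hi => hg i (Finset.mem_insert_of_mem hi))

/-- extraction of the `π`-content. -/
theorem exists_eq_C_pow_mul_not_dvd (hπ : Irreducible π) {f : R[X]} (hf : f ≠ 0) :
    ∃ (m : ℕ) (f₁ : R[X]), ¬ C π ∣ f₁ ∧ f = C π ^ m * f₁ :=
  WfDvdMonoid.max_power_factor' hf (prime_C_of_irreducible hπ).not_isUnit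

theorem ne_zero_of_not_C_dvd {f : R[X]} (hf : ¬ C π ∣ f) : f ≠ 0 := by
  rintro rfl
  exact hf (dvd_zero _)

end GaussPoly



section Fractions

variable {R : Type*} [CommRing R] [IsDomain R]
  {K : Type*} [Field K] [Algebra R K] [IsFractionRing R K]
  {M : Type*} [Field M] [Algebra K M] [Algebra R M] [IsScalarTower R K M] {t : M}

/-- integral polynomials evaluate injectively at a transcendental element. -/
theorem aeval_injective_of_transcendental (htr : Transcendental K t) :
    Function.Injective (aeval t : R[X] → M) := by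
  intro f g hfg
  rw [← aeval_map_algebraMap K t f, ← aeval_map_algebraMap K t g] at hfg
  have h1 := (transcendental_iff_injective.mp htr) hfg
  exact Polynomial.map_injective _ (IsFractionRing.injective R K) h1

theorem aeval_ne_zero_of_transcendental (htr : Transcendental K t) {f : R[X]} (hf : f ≠ 0) :
    aeval t f ≠ 0 := by
  intro h
  apply hf
  apply aeval_injective_of_transcendental (K := K) htr
  rw [h, map_zero]

/-- every element of `M = K(t)` is a quotient of integral polynomials in `t`. -/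
theorem exists_eq_aeval_div_integral (hgen : K⟮t⟯ = ⊤) (x : M) :
    ∃ f g : R[X], aeval t g ≠ 0 ∧ x = aeval t f / aeval t g := by
  obtain ⟨a, b, hab⟩ := exists_eq_aeval_div hgen x
  by_cases hb0 : aeval t b = 0
  · refine ⟨0, 1, by simp, ?_⟩
    rw [hab, hb0, div_zero, map_zero, zero_div]
  obtain ⟨c₁, hc₁, ha⟩ := IsLocalization.integerNormalization_spec (nonZeroDivisors R) a
  obtain ⟨c₂, hc₂, hb⟩ := IsLocalization.integerNormalization_spec (nonZeroDivisors R) b
  set a₁ := IsLocalization.integerNormalization (nonZeroDivisors R) a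
  set b₁ := IsLocalization.integerNormalization (nonZeroDivisors R) b
  have hc₁0 : algebraMap R M c₁ ≠ 0 := by
    rw [IsScalarTower.algebraMap_apply R K M]
    exact (_root_.map_ne_zero _).mpr
      ((map_ne_zero_iff _ (IsFractionRing.injective R K)).mpr (nonZeroDivisors.ne_zero hc₁))
  have hc₂0 : algebraMap R M c₂ ≠ 0 := by
    rw [IsScalarTower.algebraMap_apply R K M]
    exact (_root_.map_ne_zero _).mpr
      ((map_ne_zero_iff _ (IsFractionRing.injective R K)).mpr (nonZeroDivisors.ne_zero hc₂))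
  have ha' : aeval t a₁ = algebraMap R M c₁ * aeval t a := by
    rw [← aeval_map_algebraMap K t a₁, ha, ← algebraMap_smul K c₁ a, map_smul, Algebra.smul_def,
      ← IsScalarTower.algebraMap_apply]
  have hb' : aeval t b₁ = algebraMap R M c₂ * aeval t b := by
    rw [← aeval_map_algebraMap K t b₁, hb, ← algebraMap_smul K c₂ b, map_smul, Algebra.smul_def,
      ← IsScalarTower.algebraMap_apply]
  refine ⟨C c₂ * a₁, C c₁ * b₁, ?_, ?_⟩
  · rw [map_mul, aeval_C, hb']
    exact mul_ne_zero hc₁0 (mul_ne_zero hc₂0 hb0)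
  · rw [map_mul, map_mul, aeval_C, aeval_C, ha', hb', hab]
    field_simp

end Fractions


section Gauss

variable {R : Type*} [CommRing R] [IsDomain R] [IsDiscreteValuationRing R] {π : R}
  {K : Type*} [Field K] [Algebra R K] [IsFractionRing R K]
  {M : Type*} [Field M] [Algebra K M] [Algebra R M] [IsScalarTower R K M] {t : M}

variable (K) in
omit [IsDiscreteValuationRing R] in
include K in
theorem algebraMap_ne_zero_of_ne_zero {r : R} (hr : r ≠ 0) : algebraMap R M r ≠ 0 := by
  rw [IsScalarTower.algebraMap_apply R K M]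
  exact (_root_.map_ne_zero _).mpr ((map_ne_zero_iff _ (IsFractionRing.injective R K)).mpr hr)

/-- **normal form** of the elements of `M = K(t)`: `x = π ^ n * f(t) / g(t)` with `f, g`
primitive. -/
theorem exists_gauss_normal_form (hπ : Irreducible π) (htr : Transcendental K t)
    (hgen : K⟮t⟯ = ⊤) {x : M} (hx : x ≠ 0) :
    ∃ (n : ℤ) (f g : R[X]), ¬ C π ∣ f ∧ ¬ C π ∣ g ∧
      x = algebraMap R M π ^ n * (aeval t f / aeval t g) := by
  obtain ⟨F, G, hG0, hFG⟩ := exists_eq_aeval_div_integral (R := R) hgen x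
  have hF : F ≠ 0 := by
    rintro rfl
    rw [map_zero, zero_div] at hFG
    exact hx hFG
  have hG : G ≠ 0 := by
    rintro rfl
    exact hG0 (map_zero _)
  obtain ⟨m, f, hf, rfl⟩ := exists_eq_C_pow_mul_not_dvd hπ hF
  obtain ⟨l, g, hg, rfl⟩ := exists_eq_C_pow_mul_not_dvd hπ hG
  have hϖ0 : algebraMap R M π ≠ 0 := algebraMap_ne_zero_of_ne_zero K hπ.ne_zero
  have hg0 : aeval t g ≠ 0 := aeval_ne_zero_of_transcendental (K := K) htr (ne_zero_of_not_C_dvd hg)
  refine ⟨(m : ℤ) - l, f, g, hf, hg, ?_⟩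
  rw [hFG, map_mul, map_mul, map_pow, map_pow, aeval_C, zpow_sub₀ hϖ0, zpow_natCast, zpow_natCast]
  field_simp

variable {𝒱 : ValuationSubring M}

omit [IsDomain R] [IsDiscreteValuationRing R] in
theorem IsGaussAt.valuation_aeval_le_one (h : IsGaussAt R π t 𝒱) (f : R[X]) :
    𝒱.valuation (aeval t f) ≤ 1 :=
  (𝒱.valuation_le_one_iff _).mpr (h.1 f)

omit [IsDomain R] [IsDiscreteValuationRing R] in
theorem IsGaussAt.valuation_algebraMap_lt_one (h : IsGaussAt R π t 𝒱) :
    𝒱.valuation (algebraMap R M π) < 1 := by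
  have h1 : 𝒱.valuation (algebraMap R M π) ≤ 1 := by
    have := h.valuation_aeval_le_one (C π)
    rwa [aeval_C] at this
  refine lt_of_le_of_ne h1 ?_
  intro heq
  apply h.2.1
  rw [← 𝒱.valuation_le_one_iff, map_inv₀, heq, inv_one]

theorem IsGaussAt.valuation_aeval_eq_one (h : IsGaussAt R π t 𝒱) (htr : Transcendental K t)
    {f : R[X]} (hf : ¬ C π ∣ f) : 𝒱.valuation (aeval t f) = 1 := by
  refine le_antisymm (h.valuation_aeval_le_one f) ?_
  have h0 : aeval t f ≠ 0 := aeval_ne_zero_of_transcendental (K := K) htr (ne_zero_of_not_C_dvd hf)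
  have h1 : 𝒱.valuation (aeval t f)⁻¹ ≤ 1 := (𝒱.valuation_le_one_iff _).mpr (h.2.2 f hf)
  rw [map_inv₀] at h1
  have hv0 : 𝒱.valuation (aeval t f) ≠ 0 := (Valuation.ne_zero_iff _).mpr h0
  exact (inv_le_one₀ (zero_lt_iff.mpr hv0)).mp h1

theorem IsGaussAt.valuation_eq_zpow (h : IsGaussAt R π t 𝒱) (htr : Transcendental K t)
    {n : ℤ} {f g : R[X]} (hf : ¬ C π ∣ f) (hg : ¬ C π ∣ g) :
    𝒱.valuation (algebraMap R M π ^ n * (aeval t f / aeval t g))
      = 𝒱.valuation (algebraMap R M π) ^ n := by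
  rw [map_mul, map_zpow₀, map_div₀, h.valuation_aeval_eq_one htr hf,
    h.valuation_aeval_eq_one htr hg, div_one, mul_one]


/-- powers of a value `< 1`. -/
theorem zpow_le_one_iff_of_lt_one {Γ : Type*} [LinearOrderedCommGroupWithZero Γ] {a : Γ}
    (ha0 : a ≠ 0) (ha : a < 1) (n : ℤ) : a ^ n ≤ 1 ↔ 0 ≤ n := by
  constructor
  · intro h
    by_contra hn
    push Not at hn
    obtain ⟨m, rfl⟩ : ∃ m : ℕ, n = -((m : ℤ) + 1) := ⟨(-n - 1).toNat, by omega⟩
    rw [zpow_neg, ← Nat.cast_succ, zpow_natCast] at h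
    have h1 : a ^ (m + 1) < 1 := pow_lt_one₀ zero_le ha (Nat.succ_ne_zero m)
    have h2 : (1 : Γ) < (a ^ (m + 1))⁻¹ :=
      (one_lt_inv₀ (pow_pos (zero_lt_iff.mpr ha0) _)).mpr h1
    exact absurd h (not_le.mpr h2)
  · intro h
    lift n to ℕ using h
    rw [zpow_natCast]
    exact pow_le_one₀ zero_le ha.le

theorem zpow_lt_one_iff_of_lt_one {Γ : Type*} [LinearOrderedCommGroupWithZero Γ] {a : Γ}
    (ha0 : a ≠ 0) (ha : a < 1) (n : ℤ) : a ^ n < 1 ↔ 0 < n := by
  constructor
  · intro h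
    by_contra hn
    push Not at hn
    have h1 : a ^ (-n) ≤ 1 := (zpow_le_one_iff_of_lt_one ha0 ha (-n)).mpr (by omega)
    rw [zpow_neg] at h1
    have h2 : (1 : Γ) < (a ^ n)⁻¹ :=
      (one_lt_inv₀ (zero_lt_iff.mpr (zpow_ne_zero n ha0))).mpr h
    exact absurd h1 (not_le.mpr h2)
  · intro h
    obtain ⟨m, rfl⟩ : ∃ m : ℕ, n = (m : ℤ) + 1 := ⟨(n - 1).toNat, by omega⟩
    rw [← Nat.cast_succ, zpow_natCast]
    exact pow_lt_one₀ zero_le ha (Nat.succ_ne_zero m)

/-- **integers of a Gauss valuation subring.** -/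
theorem IsGaussAt.valuation_le_one_iff (h : IsGaussAt R π t 𝒱) (hπ : Irreducible π)
    (htr : Transcendental K t) (hgen : K⟮t⟯ = ⊤) (x : M) :
    𝒱.valuation x ≤ 1 ↔ ∃ f g : R[X], ¬ C π ∣ g ∧ x * aeval t g = aeval t f := by
  have hϖ0 : algebraMap R M π ≠ 0 := algebraMap_ne_zero_of_ne_zero K hπ.ne_zero
  have hvϖ0 : 𝒱.valuation (algebraMap R M π) ≠ 0 := (Valuation.ne_zero_iff _).mpr hϖ0
  constructor
  · intro hx
    rcases eq_or_ne x 0 with rfl | hx0
    · exact ⟨0, 1, not_C_dvd_one hπ, by simp⟩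
    obtain ⟨n, f, g, hf, hg, rfl⟩ := exists_gauss_normal_form hπ htr hgen hx0
    rw [h.valuation_eq_zpow htr hf hg,
      zpow_le_one_iff_of_lt_one hvϖ0 h.valuation_algebraMap_lt_one] at hx
    lift n to ℕ using hx
    have hg0 : aeval t g ≠ 0 :=
      aeval_ne_zero_of_transcendental (K := K) htr (ne_zero_of_not_C_dvd hg)
    refine ⟨C π ^ n * f, g, hg, ?_⟩
    rw [map_mul, map_pow, aeval_C, zpow_natCast]
    field_simp
  · rintro ⟨f, g, hg, hfg⟩
    have h1 := h.valuation_aeval_eq_one htr hg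
    have h2 := congrArg 𝒱.valuation hfg
    rw [map_mul, h1, mul_one] at h2
    rw [h2]
    exact h.valuation_aeval_le_one f

/-- **maximal ideal of a Gauss valuation subring.** -/
theorem IsGaussAt.valuation_lt_one_iff (h : IsGaussAt R π t 𝒱) (hπ : Irreducible π)
    (htr : Transcendental K t) (hgen : K⟮t⟯ = ⊤) (x : M) :
    𝒱.valuation x < 1 ↔
      ∃ f g : R[X], ¬ C π ∣ g ∧ x * aeval t g = algebraMap R M π * aeval t f := by
  have hϖ0 : algebraMap R M π ≠ 0 := algebraMap_ne_zero_of_ne_zero K hπ.ne_zero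
  have hvϖ0 : 𝒱.valuation (algebraMap R M π) ≠ 0 := (Valuation.ne_zero_iff _).mpr hϖ0
  constructor
  · intro hx
    rcases eq_or_ne x 0 with rfl | hx0
    · exact ⟨0, 1, not_C_dvd_one hπ, by simp⟩
    obtain ⟨n, f, g, hf, hg, rfl⟩ := exists_gauss_normal_form hπ htr hgen hx0
    rw [h.valuation_eq_zpow htr hf hg,
      zpow_lt_one_iff_of_lt_one hvϖ0 h.valuation_algebraMap_lt_one] at hx
    obtain ⟨m, rfl⟩ : ∃ m : ℕ, n = (m : ℤ) + 1 := ⟨(n - 1).toNat, by omega⟩
    have hg0 : aeval t g ≠ 0 :=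
      aeval_ne_zero_of_transcendental (K := K) htr (ne_zero_of_not_C_dvd hg)
    refine ⟨C π ^ m * f, g, hg, ?_⟩
    rw [map_mul, map_pow, aeval_C, zpow_add_one₀ hϖ0, zpow_natCast]
    field_simp
  · rintro ⟨f, g, hg, hfg⟩
    have h1 := h.valuation_aeval_eq_one htr hg
    have h2 := congrArg 𝒱.valuation hfg
    rw [map_mul, h1, mul_one, map_mul] at h2
    rw [h2]
    calc 𝒱.valuation (algebraMap R M π) * 𝒱.valuation (aeval t f)
        ≤ 𝒱.valuation (algebraMap R M π) * 1 := mul_le_mul_right (h.valuation_aeval_le_one f) _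
      _ = 𝒱.valuation (algebraMap R M π) := mul_one _
      _ < 1 := h.valuation_algebraMap_lt_one

/-- `π` generates the maximal ideal of a Gauss valuation subring. -/
theorem IsGaussAt.valuation_lt_one_iff_le (h : IsGaussAt R π t 𝒱) (hπ : Irreducible π)
    (htr : Transcendental K t) (hgen : K⟮t⟯ = ⊤) (x : M) :
    𝒱.valuation x < 1 ↔ 𝒱.valuation x ≤ 𝒱.valuation (algebraMap R M π) := by
  have hϖ0 : algebraMap R M π ≠ 0 := algebraMap_ne_zero_of_ne_zero K hπ.ne_zero
  have hvϖ0 : 𝒱.valuation (algebraMap R M π) ≠ 0 := (Valuation.ne_zero_iff _).mpr hϖ0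
  constructor
  · intro hx
    obtain ⟨f, g, hg, hfg⟩ := (h.valuation_lt_one_iff hπ htr hgen x).mp hx
    have h1 := h.valuation_aeval_eq_one htr hg
    have h2 := congrArg 𝒱.valuation hfg
    rw [map_mul, h1, mul_one, map_mul] at h2
    rw [h2]
    calc 𝒱.valuation (algebraMap R M π) * 𝒱.valuation (aeval t f)
        ≤ 𝒱.valuation (algebraMap R M π) * 1 := mul_le_mul_right (h.valuation_aeval_le_one f) _
      _ = 𝒱.valuation (algebraMap R M π) := mul_one _
  · intro hx
    exact lt_of_le_of_lt hx h.valuation_algebraMap_lt_one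

/-- for integral polynomials: `f(t)` is a non-unit iff `π ∣ f`. -/
theorem IsGaussAt.valuation_aeval_lt_one_iff (h : IsGaussAt R π t 𝒱)
    (htr : Transcendental K t) (f : R[X]) :
    𝒱.valuation (aeval t f) < 1 ↔ C π ∣ f := by
  constructor
  · intro hlt
    by_contra hf
    rw [h.valuation_aeval_eq_one htr hf] at hlt
    exact lt_irrefl _ hlt
  · rintro ⟨f', rfl⟩
    rw [map_mul, aeval_C, map_mul]
    calc 𝒱.valuation (algebraMap R M π) * 𝒱.valuation (aeval t f')
        ≤ 𝒱.valuation (algebraMap R M π) * 1 := mul_le_mul_right (h.valuation_aeval_le_one f') _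
      _ = 𝒱.valuation (algebraMap R M π) := mul_one _
      _ < 1 := h.valuation_algebraMap_lt_one

/-- **uniqueness of the Gauss valuation subring.** -/
theorem IsGaussAt.eq_of_isGaussAt {𝒱' : ValuationSubring M} (h : IsGaussAt R π t 𝒱)
    (h' : IsGaussAt R π t 𝒱') (hπ : Irreducible π) (htr : Transcendental K t)
    (hgen : K⟮t⟯ = ⊤) : 𝒱 = 𝒱' := by
  ext x
  rw [← 𝒱.valuation_le_one_iff, ← 𝒱'.valuation_le_one_iff, h.valuation_le_one_iff hπ htr hgen,
    h'.valuation_le_one_iff hπ htr hgen]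


section Existence

variable (hπ : Irreducible π) (htr : Transcendental K t) (hgen : K⟮t⟯ = ⊤)

/-- **the Gauss valuation subring** of `M = K(t)`, `K = Frac R`: quotients `f(t) / g(t)` of
integral polynomials with `g` primitive. -/
def gaussVS : ValuationSubring M where
  carrier := {x | ∃ f g : R[X], ¬ C π ∣ g ∧ x * aeval t g = aeval t f}
  mul_mem' := by
    rintro x y ⟨f, g, hg, hfg⟩ ⟨f', g', hg', hfg'⟩
    refine ⟨f * f', g * g', not_C_dvd_mul hπ hg hg', ?_⟩
    rw [map_mul, map_mul, ← hfg, ← hfg']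
    ring
  one_mem' := ⟨1, 1, not_C_dvd_one hπ, by simp⟩
  add_mem' := by
    rintro x y ⟨f, g, hg, hfg⟩ ⟨f', g', hg', hfg'⟩
    refine ⟨f * g' + f' * g, g * g', not_C_dvd_mul hπ hg hg', ?_⟩
    rw [map_mul, map_add, map_mul, map_mul, ← hfg, ← hfg']
    ring
  zero_mem' := ⟨0, 1, not_C_dvd_one hπ, by simp⟩
  neg_mem' := by
    rintro x ⟨f, g, hg, hfg⟩
    exact ⟨-f, g, hg, by rw [map_neg, ← hfg]; ring⟩
  mem_or_inv_mem' := by
    intro x
    rcases eq_or_ne x 0 with rfl | hx0
    · exact Or.inl ⟨0, 1, not_C_dvd_one hπ, by simp⟩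
    obtain ⟨n, f, g, hf, hg, rfl⟩ := exists_gauss_normal_form hπ htr hgen hx0
    have hϖ0 : algebraMap R M π ≠ 0 := algebraMap_ne_zero_of_ne_zero K hπ.ne_zero
    have hg0 : aeval t g ≠ 0 :=
      aeval_ne_zero_of_transcendental (K := K) htr (ne_zero_of_not_C_dvd hg)
    have hf0 : aeval t f ≠ 0 :=
      aeval_ne_zero_of_transcendental (K := K) htr (ne_zero_of_not_C_dvd hf)
    rcases le_or_gt 0 n with hn | hn
    · left
      lift n to ℕ using hn
      refine ⟨C π ^ n * f, g, hg, ?_⟩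
      rw [map_mul, map_pow, aeval_C, zpow_natCast]
      field_simp
    · right
      obtain ⟨m, rfl⟩ : ∃ m : ℕ, n = -(m : ℤ) := ⟨(-n).toNat, by omega⟩
      refine ⟨C π ^ m * g, f, hf, ?_⟩
      rw [map_mul, map_pow, aeval_C, zpow_neg, zpow_natCast]
      field_simp

theorem mem_gaussVS_iff (x : M) :
    x ∈ gaussVS hπ htr hgen ↔ ∃ f g : R[X], ¬ C π ∣ g ∧ x * aeval t g = aeval t f := Iff.rfl

/-- **existence of the Gauss valuation subring.** -/
theorem isGaussAt_gaussVS : IsGaussAt R π t (gaussVS hπ htr hgen) := by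
  refine ⟨fun f => ⟨f, 1, not_C_dvd_one hπ, by simp⟩, ?_, ?_⟩
  · rintro ⟨f, g, hg, hfg⟩
    have hϖ0 : algebraMap R M π ≠ 0 := algebraMap_ne_zero_of_ne_zero K hπ.ne_zero
    apply hg
    refine ⟨f, ?_⟩
    apply aeval_injective_of_transcendental (K := K) htr
    rw [map_mul, aeval_C, ← hfg]
    field_simp
  · intro f hf
    have hf0 : aeval t f ≠ 0 :=
      aeval_ne_zero_of_transcendental (K := K) htr (ne_zero_of_not_C_dvd hf)
    exact ⟨1, f, hf, by rw [map_one, inv_mul_cancel₀ hf0]⟩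

theorem IsGaussAt.eq_gaussVS (h : IsGaussAt R π t 𝒱) : 𝒱 = gaussVS hπ htr hgen :=
  h.eq_of_isGaussAt (isGaussAt_gaussVS hπ htr hgen) hπ htr hgen

end Existence

end Gauss

end Fermat.Agent.JA
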