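/-
J-A project, package LINE (helper2), part 14: a Gauss valuation subring (`IsGaussAt R π t 𝒱`,
`R` a DVR with uniformizer `π`, `M = K(t)`, `K = Frac R`) is a discrete valuation ring with
uniformizer `π`.
-/
import Mathlib
import Fermat.Agent.JA.LINE_helper2_Gauss
import Fermat.Agent.JA.LINE_helper2_DVR

set_option autoImplicit false

open Polynomial IsLocalRing IntermediateField

namespace Fermat.Agent.JA

variable {R : Type*} [CommRing R] [IsDomain R] [IsDiscreteValuationRing R] {π : R}
  {K : Type*} [Field K] [Algebra R K] [IsFractionRing R K]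
  {M : Type*} [Field M] [Algebra K M] [Algebra R M] [IsScalarTower R K M] {t : M}
  {𝒱 : ValuationSubring M}

/-- **a Gauss valuation subring is a discrete valuation ring.** -/
theorem IsGaussAt.isDiscreteValuationRing (h : IsGaussAt R π t 𝒱) (hπ : Irreducible π)
    (htr : Transcendental K t) (hgen : K⟮t⟯ = ⊤) : IsDiscreteValuationRing 𝒱 := by
  have hϖ0 : algebraMap R M π ≠ 0 := algebraMap_ne_zero_of_ne_zero K hπ.ne_zero
  refine isDiscreteValuationRing_of_valuation_zpow 𝒱 (algebraMap R M π) hϖ0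
    h.valuation_algebraMap_lt_one ?_
  intro x hx
  obtain ⟨n, f, g, hf, hg, rfl⟩ := exists_gauss_normal_form hπ htr hgen hx
  exact ⟨n, h.valuation_eq_zpow htr hf hg⟩

/-- `π` is a uniformizer of a Gauss valuation subring. -/
theorem IsGaussAt.irreducible_algebraMap (h : IsGaussAt R π t 𝒱) (hπ : Irreducible π)
    (htr : Transcendental K t) (hgen : K⟮t⟯ = ⊤) :
    Irreducible (⟨algebraMap R M π, by have := h.1 (C π); rwa [aeval_C] at this⟩ : 𝒱) := by
  have := h.isDiscreteValuationRing hπ htr hgen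
  set ϖ : 𝒱 := ⟨algebraMap R M π, by have := h.1 (C π); rwa [aeval_C] at this⟩ with hϖ
  obtain ⟨p, hp⟩ := IsDiscreteValuationRing.exists_irreducible 𝒱
  -- `p` is a non-unit, hence `v p ≤ v π`, so `π ∣ p`... we show `π` is associated to `p`
  have hϖ0 : algebraMap R M π ≠ 0 := algebraMap_ne_zero_of_ne_zero K hπ.ne_zero
  have hpnu : 𝒱.valuation (p : M) < 1 := by
    rw [← ValuationSubring.valuation_lt_one_iff]
    exact (mem_maximalIdeal p).mpr hp.not_isUnit
  have hple : 𝒱.valuation (p : M) ≤ 𝒱.valuation (algebraMap R M π) :=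
    (h.valuation_lt_one_iff_le hπ htr hgen _).mp hpnu
  -- `p = π * y`, `y ∈ 𝒱`
  have hy : (p : M) / algebraMap R M π ∈ 𝒱 := by
    rw [← 𝒱.valuation_le_one_iff, map_div₀]
    exact (div_le_one₀ (zero_lt_iff.mpr ((Valuation.ne_zero_iff _).mpr hϖ0))).mpr hple
  have hpeq : p = ϖ * ⟨(p : M) / algebraMap R M π, hy⟩ := by
    apply Subtype.ext
    show (p : M) = algebraMap R M π * ((p : M) / algebraMap R M π)
    field_simp
  have hϖnu : ¬ IsUnit ϖ := by
    rw [ValuationSubring.valuation_eq_one_iff]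
    exact h.valuation_algebraMap_lt_one.ne
  rcases hp.isUnit_or_isUnit hpeq with hu | hu
  · exact absurd hu hϖnu
  · have hassoc : Associated ϖ p := ⟨hu.unit, hpeq.symm⟩
    exact hassoc.symm.irreducible hp

end Fermat.Agent.JA
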