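/-
J-A project, package LINE (helper2), part 10 (LINE.3): homogenisation over a ring and the residue
core: for coprime `A, B ∈ k[X]` (`k` a field, `deg B ≤ deg A = n ≥ 1`) the powers `1, X, …, X^(n-1)`
are linearly independent over `k(A/B)` — in the fraction-free form
`∑ᵢ (homogenisation of hᵢ at (A,B)) · Xⁱ = 0 → ∀ i, hᵢ = 0`.
-/
import Mathlib
import Fermat.Agent.JA.LINE_helper2_Degree

set_option autoImplicit false

open Polynomial IntermediateField

namespace Fermat.Agent.JA

section HomogR

variable {R : Type*} [CommRing R]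

/-- the homogenisation `∑ qᵢ Aⁱ Bⁿ⁻ⁱ` of `q` in degree `n` at `(A, B)` (over a ring). -/
noncomputable def homogR (q : R[X]) (n : ℕ) (A B : R[X]) : R[X] :=
  ∑ i ∈ Finset.range (n + 1), C (q.coeff i) * A ^ i * B ^ (n - i)

theorem map_homogR {S : Type*} [CommRing S] (φ : R →+* S) (q : R[X]) (n : ℕ) (A B : R[X]) :
    (homogR q n A B).map φ = homogR (q.map φ) n (A.map φ) (B.map φ) := by
  unfold homogR
  rw [Polynomial.map_sum]
  refine Finset.sum_congr rfl fun i _ => ?_
  rw [Polynomial.map_mul, Polynomial.map_mul, Polynomial.map_pow, Polynomial.map_pow, map_C,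
    coeff_map]

theorem aeval_homogR {M : Type*} [Field M] [Algebra R M] (q : R[X]) (n : ℕ)
    (hn : q.natDegree ≤ n) (A B : R[X]) (t : M) (hB : aeval t B ≠ 0) :
    aeval t (homogR q n A B) = aeval t B ^ n * aeval (aeval t A / aeval t B) q := by
  rw [aeval_eq_sum_range' (Nat.lt_succ_of_le hn), homogR, map_sum, Finset.mul_sum]
  refine Finset.sum_congr rfl fun i hi => ?_
  have hin : i ≤ n := by
    have := Finset.mem_range.mp hi
    omega
  rw [map_mul, map_mul, map_pow, map_pow, aeval_C, Algebra.smul_def, div_pow]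
  have : aeval t B ^ n = aeval t B ^ (n - i) * aeval t B ^ i := by
    rw [← pow_add, Nat.sub_add_cancel hin]
  rw [this]
  field_simp

theorem homogR_add (q q' : R[X]) (n : ℕ) (A B : R[X]) :
    homogR (q + q') n A B = homogR q n A B + homogR q' n A B := by
  unfold homogR
  rw [← Finset.sum_add_distrib]
  refine Finset.sum_congr rfl fun i _ => ?_
  rw [coeff_add, C_add]
  ring

end HomogR

end Fermat.Agent.JA

namespace Fermat.Agent.JA

section Core

variable {k : Type*} [Field k]

/-- **the residue core**: for coprime `A, B ∈ k[X]` with `deg B ≤ deg A = n ≥ 1`, the powers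
`1, X, …, X^(n-1)` are linearly independent over `k(A/B)`, in homogenised polynomial form. -/
theorem homogR_sum_eq_zero {A B : k[X]} (hcop : IsCoprime A B) (hB : B ≠ 0)
    (hAB : B.natDegree ≤ A.natDegree) (hA : 0 < A.natDegree)
    (h : Fin A.natDegree → k[X]) (d : ℕ) (hd : ∀ i, (h i).natDegree ≤ d)
    (hsum : ∑ i : Fin A.natDegree, homogR (h i) d A B * X ^ (i : ℕ) = 0) :
    ∀ i, h i = 0 := by
  set L := RatFunc k
  set x : L := RatFunc.X with hx
  have htr : Transcendental k x := RatFunc.transcendental_X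
  have hgen : k⟮x⟯ = ⊤ := RatFunc.adjoin_X
  have hBx : aeval x B ≠ 0 := by
    intro h0
    exact hB ((transcendental_iff.mp htr) B h0)
  set J : L := aeval x A / aeval x B with hJ
  have hJtr : Transcendental k J := transcendental_aeval_div htr hgen hcop hB hA
  have hfin : Module.finrank k⟮J⟯ L = A.natDegree := by
    rw [hJ, finrank_adjoin_aeval_div htr hgen hcop hB, max_eq_left hAB]
  have : FiniteDimensional k⟮J⟯ L := Module.finite_of_finrank_pos (by rw [hfin]; exact hA)
  have hint : IsIntegral k⟮J⟯ x := IsIntegral.of_finite _ _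
  have htop : k⟮J⟯⟮x⟯ = ⊤ := by
    rw [eq_top_iff]
    intro y _
    have hy : y ∈ k⟮x⟯ := hgen ▸ IntermediateField.mem_top
    have hle : k⟮x⟯ ≤ (k⟮J⟯⟮x⟯).restrictScalars k := by
      rw [adjoin_simple_le_iff]
      exact mem_adjoin_simple_self _ x
    exact hle hy
  have hdeg : (minpoly k⟮J⟯ x).natDegree = A.natDegree := by
    rw [← IntermediateField.adjoin.finrank hint, htop, IntermediateField.finrank_top', hfin]
  have hli := linearIndependent_pow (K := k⟮J⟯) x
  rw [Fintype.linearIndependent_iff] at hli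
  -- the relation in `L`
  have hrel : ∑ i : Fin A.natDegree, aeval J (h i) * x ^ (i : ℕ) = 0 := by
    have h1 := congrArg (aeval x) hsum
    rw [map_sum, map_zero] at h1
    have h2 : ∀ i : Fin A.natDegree, aeval x (homogR (h i) d A B * X ^ (i : ℕ))
        = aeval x B ^ d * (aeval J (h i) * x ^ (i : ℕ)) := by
      intro i
      rw [map_mul, aeval_homogR (h i) d (hd i) A B x hBx, map_pow, aeval_X, mul_assoc]
    rw [Finset.sum_congr rfl fun i _ => h2 i, ← Finset.mul_sum] at h1
    exact (mul_eq_zero.mp h1).resolve_left (pow_ne_zero _ hBx)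
  intro i
  -- transport along `Fin.cast`
  let g : Fin (minpoly k⟮J⟯ x).natDegree → k⟮J⟯ := fun i' =>
    ⟨aeval J (h (Fin.cast hdeg i')), aeval_mem_adjoin_simple_self _ _⟩
  have hg : ∑ i' : Fin (minpoly k⟮J⟯ x).natDegree, g i' • x ^ (i' : ℕ) = 0 := by
    rw [← hrel]
    refine Fintype.sum_equiv (finCongr hdeg) _ _ fun i' => ?_
    rfl
  have h3 := hli g hg (Fin.cast hdeg.symm i)
  have h4 : aeval J (h i) = 0 := by
    have := congrArg Subtype.val h3
    simpa [g] using this
  exact (transcendental_iff.mp hJtr) (h i) h4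


/-- `ℕ`-indexed version of `homogR_sum_eq_zero`. -/
theorem homogR_sum_range_eq_zero {A B : k[X]} (hcop : IsCoprime A B) (hB : B ≠ 0)
    (hAB : B.natDegree ≤ A.natDegree) (hA : 0 < A.natDegree)
    (h : ℕ → k[X]) (d : ℕ) (hd : ∀ i, (h i).natDegree ≤ d)
    (hsum : ∑ i ∈ Finset.range A.natDegree, homogR (h i) d A B * X ^ i = 0) :
    ∀ i < A.natDegree, h i = 0 := by
  intro i hi
  have := homogR_sum_eq_zero hcop hB hAB hA (fun i' : Fin A.natDegree => h i') d
    (fun i' => hd i') (by rw [← hsum, Finset.sum_range]) ⟨i, hi⟩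
  exact this

theorem homogR_zero (n : ℕ) (A B : k[X]) : homogR (0 : k[X]) n A B = 0 := by
  unfold homogR
  simp

/-- the homogenisation of a nonzero polynomial at `(A, B)` is nonzero. -/
theorem homogR_ne_zero {A B : k[X]} (hcop : IsCoprime A B) (hB : B ≠ 0)
    (hAB : B.natDegree ≤ A.natDegree) (hA : 0 < A.natDegree) {q : k[X]} (hq : q ≠ 0) {d : ℕ}
    (hd : q.natDegree ≤ d) : homogR q d A B ≠ 0 := by
  intro h0
  apply hq
  have := homogR_sum_range_eq_zero hcop hB hAB hA (fun i => if i = 0 then q else 0) d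
    (fun i => by by_cases hi : i = 0 <;> simp [hi, hd]) ?_ 0 hA
  · simpa using this
  · rw [Finset.sum_eq_single_of_mem 0 (Finset.mem_range.mpr hA)]
    · simp [h0]
    · intro i _ hi
      simp [hi, homogR_zero]

end Core

end Fermat.Agent.JA
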