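/-
J-A project, package LINE (helper2), part 11 (LINE.3): the Gauss valuation along `j = A(t)/B(t)`.

`R` a DVR with uniformizer `π`, `K = Frac R`, `M = K(t)`, `A, B ∈ R[X]` with `GaussLineHyp π A B`
(coprime mod `π`, `deg B < deg A = n`, unit leading coefficient, Wronskian nonzero mod `π`),
`j = A(t)/B(t)`, `𝒢` resp. `𝒱` Gauss valuation subrings of `K(j)` resp. `K(t)` (lead's `IsGaussAt`).
* `comap_eq_of_isGaussAt`: `𝒱 ∩ K(j) = 𝒢`;
* `valuation_coeff_lt_one` (key lemma): `1, t, …, t^(n-1)` are linearly independent mod `π` over `𝒢`;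
* `linearIndependent_pow_of_isGaussAt`, `exists_coeff_of_valuation_le_one`: `𝒱 = ⊕ 𝒢 tⁱ`.
-/
import Mathlib
import Fermat.Agent.JA.LINE_helper2_Gauss
import Fermat.Agent.JA.LINE_helper2_Core
import Fermat.Agent.JA.LINE_helper2_Ram

set_option autoImplicit false

open Polynomial IsLocalRing IntermediateField

namespace Fermat.Agent.JA

theorem isScalarTower_intermediateField {R K M : Type*} [CommRing R] [Field K] [Algebra R K]
    [Field M] [Algebra K M] [Algebra R M] [IsScalarTower R K M] (F : IntermediateField K M) :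
    IsScalarTower R ↥F M :=
  IsScalarTower.of_algebraMap_eq fun _ => rfl

/-- the reduction hypotheses on a rational function `A / B` with coefficients in the discrete
valuation ring `R`: coprime modulo `π`, `deg B < deg A`, unit leading coefficient, and nonzero
Wronskian modulo `π`. -/
structure GaussLineHyp {R : Type*} [CommRing R] [IsLocalRing R] (π : R) (A B : R[X]) : Prop where
  hcop : IsCoprime (A.map (residue R)) (B.map (residue R))
  hdeg : B.natDegree < A.natDegree
  hlc : IsUnit A.leadingCoeff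
  hW : ¬ C π ∣ (derivative A * B - A * derivative B)

namespace GaussLineHyp

variable {R : Type*} [CommRing R] [IsDomain R] [IsDiscreteValuationRing R] {π : R}
  {A B : R[X]}

theorem natDegree_pos (H : GaussLineHyp π A B) : 0 < A.natDegree :=
  lt_of_le_of_lt (Nat.zero_le _) H.hdeg

theorem natDegree_map_A (H : GaussLineHyp π A B) :
    (A.map (residue R)).natDegree = A.natDegree := by
  apply natDegree_map_of_leadingCoeff_ne_zero
  exact (H.hlc.map (residue R)).ne_zero

theorem natDegree_map_B_le (H : GaussLineHyp π A B) :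
    (B.map (residue R)).natDegree ≤ (A.map (residue R)).natDegree := by
  rw [H.natDegree_map_A]
  exact le_trans natDegree_map_le H.hdeg.le

theorem map_B_ne_zero (H : GaussLineHyp π A B) : B.map (residue R) ≠ 0 := by
  intro h0
  have h1 := H.hcop
  rw [h0, isCoprime_zero_right] at h1
  have h2 := natDegree_eq_zero_of_isUnit h1
  rw [H.natDegree_map_A] at h2
  have := H.natDegree_pos
  omega

theorem not_dvd_B (H : GaussLineHyp π A B) (hπ : Irreducible π) : ¬ C π ∣ B := by
  rw [C_dvd_iff_map_residue_eq_zero hπ]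
  exact H.map_B_ne_zero

/-- homogenisation at `(A, B)` preserves primitivity. -/
theorem not_dvd_homogR (H : GaussLineHyp π A B) (hπ : Irreducible π) {q : R[X]}
    (hq : ¬ C π ∣ q) {d : ℕ} (hd : q.natDegree ≤ d) : ¬ C π ∣ homogR q d A B := by
  rw [C_dvd_iff_map_residue_eq_zero hπ] at hq ⊢
  rw [map_homogR]
  refine homogR_ne_zero H.hcop H.map_B_ne_zero H.natDegree_map_B_le ?_ hq
    (le_trans natDegree_map_le hd)
  rw [H.natDegree_map_A]
  exact H.natDegree_pos

end GaussLineHyp


section Line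

variable {R : Type*} [CommRing R] [IsDomain R] [IsDiscreteValuationRing R] {π : R}
  {K : Type*} [Field K] [Algebra R K] [IsFractionRing R K]
  {M : Type*} [Field M] [Algebra K M] [Algebra R M] [IsScalarTower R K M] {t : M}
  {A B : R[X]} {j : M}
  (H : GaussLineHyp π A B) (hπ : Irreducible π) (htr : Transcendental K t) (hgen : K⟮t⟯ = ⊤)
  (hj : j = aeval t A / aeval t B) (htrj : Transcendental K j)
  {𝒢 : ValuationSubring K⟮j⟯} (h𝒢 : IsGaussAt R π (AdjoinSimple.gen K j) 𝒢)
  {𝒱 : ValuationSubring M} (h𝒱 : IsGaussAt R π t 𝒱)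

include H hπ htr in
theorem aeval_B_ne_zero : aeval t B ≠ 0 :=
  aeval_ne_zero_of_transcendental (K := K) htr (ne_zero_of_not_C_dvd (H.not_dvd_B hπ))

include H hπ htr hj in
theorem aeval_homogR_eq (q : R[X]) {d : ℕ} (hd : q.natDegree ≤ d) :
    aeval t (homogR q d A B) = aeval t B ^ d * aeval j q := by
  rw [aeval_homogR q d hd A B t (aeval_B_ne_zero H hπ htr), hj]

omit [IsDomain R] [IsDiscreteValuationRing R] [IsFractionRing R K] in
theorem algebraMap_aeval_gen (q : R[X]) :
    algebraMap K⟮j⟯ M (aeval (AdjoinSimple.gen K j) q) = aeval j q := by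
  have := isScalarTower_intermediateField (R := R) K⟮j⟯
  rw [← aeval_algebraMap_apply]
  rfl

include htrj in
omit [IsDomain R] [IsDiscreteValuationRing R] [IsFractionRing R K] [Algebra R M]
  [IsScalarTower R K M] in
theorem transcendental_gen : Transcendental K (AdjoinSimple.gen K j) :=
  (transcendental_algebraMap_iff (algebraMap K⟮j⟯ M).injective).mp htrj

include H hπ htr hgen hj htrj h𝒢 h𝒱 in
/-- integers of the Gauss subring of `K(j)` are integers of the Gauss subring of `K(t)`. -/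
theorem gaussLine_valuation_coe_le_one {y : K⟮j⟯} (hy : 𝒢.valuation y ≤ 1) :
    𝒱.valuation (y : M) ≤ 1 := by
  obtain ⟨f, g, hg, hfg⟩ := (h𝒢.valuation_le_one_iff hπ (transcendental_gen htrj)
    (adjoin_simple_gen_eq_top j) y).mp hy
  have h1 : (y : M) * aeval j g = aeval j f := by
    have h0 := congrArg (algebraMap K⟮j⟯ M) hfg
    rwa [map_mul, algebraMap_aeval_gen, algebraMap_aeval_gen] at h0
  set d := max f.natDegree g.natDegree with hd
  rw [h𝒱.valuation_le_one_iff hπ htr hgen]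
  refine ⟨homogR f d A B, homogR g d A B, H.not_dvd_homogR hπ hg (le_max_right _ _), ?_⟩
  rw [aeval_homogR_eq H hπ htr hj g (le_max_right _ _),
    aeval_homogR_eq H hπ htr hj f (le_max_left _ _), ← h1]
  ring

include H hπ htr hgen hj htrj h𝒢 h𝒱 in
/-- the maximal ideal of the Gauss subring of `K(j)` lies in that of the Gauss subring of
`K(t)`. -/
theorem gaussLine_valuation_coe_lt_one {y : K⟮j⟯} (hy : 𝒢.valuation y < 1) :
    𝒱.valuation (y : M) < 1 := by
  obtain ⟨f, g, hg, hfg⟩ := (h𝒢.valuation_lt_one_iff hπ (transcendental_gen htrj)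
    (adjoin_simple_gen_eq_top j) y).mp hy
  have h1 : (y : M) * aeval j g = algebraMap R M π * aeval j f := by
    have h0 := congrArg (algebraMap K⟮j⟯ M) hfg
    have := isScalarTower_intermediateField (R := R) K⟮j⟯
    rwa [map_mul, map_mul, algebraMap_aeval_gen, algebraMap_aeval_gen,
      ← IsScalarTower.algebraMap_apply] at h0
  set d := max f.natDegree g.natDegree with hd
  rw [h𝒱.valuation_lt_one_iff hπ htr hgen]
  refine ⟨homogR f d A B, homogR g d A B, H.not_dvd_homogR hπ hg (le_max_right _ _), ?_⟩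
  rw [aeval_homogR_eq H hπ htr hj g (le_max_right _ _),
    aeval_homogR_eq H hπ htr hj f (le_max_left _ _)]
  calc (y : M) * (aeval t B ^ d * aeval j g) = aeval t B ^ d * ((y : M) * aeval j g) := by ring
    _ = aeval t B ^ d * (algebraMap R M π * aeval j f) := by rw [h1]
    _ = _ := by ring

include H hπ htr hgen hj htrj h𝒢 h𝒱 in
/-- **the Gauss subring of `K(t)` restricts to the Gauss subring of `K(j)`.** -/
theorem comap_eq_of_isGaussAt : 𝒱.comap (algebraMap K⟮j⟯ M) = 𝒢 := by
  ext y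
  rw [ValuationSubring.mem_comap, ← 𝒱.valuation_le_one_iff, ← 𝒢.valuation_le_one_iff]
  constructor
  · intro hy
    by_contra hcon
    push Not at hcon
    have hy0 : y ≠ 0 := by
      rintro rfl
      rw [map_zero] at hcon
      exact absurd hcon (not_lt.mpr zero_le)
    have h1 : 𝒢.valuation y⁻¹ < 1 := by
      rw [map_inv₀]
      exact (inv_lt_one₀ (lt_trans zero_lt_one hcon)).mpr hcon
    have h2 := gaussLine_valuation_coe_lt_one H hπ htr hgen hj htrj h𝒢 h𝒱 h1
    have h3 : ((y⁻¹ : K⟮j⟯) : M) = (algebraMap K⟮j⟯ M y)⁻¹ := by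
      rw [← map_inv₀]; rfl
    rw [h3, map_inv₀] at h2
    have hv0 : 𝒱.valuation (algebraMap K⟮j⟯ M y) ≠ 0 :=
      (Valuation.ne_zero_iff _).mpr ((_root_.map_ne_zero _).mpr hy0)
    have h4 := (inv_lt_one₀ (zero_lt_iff.mpr hv0)).mp h2
    exact absurd hy (not_le.mpr h4)
  · intro hy
    exact gaussLine_valuation_coe_le_one H hπ htr hgen hj htrj h𝒢 h𝒱 hy


include H hπ htr hgen hj htrj h𝒢 h𝒱 in
/-- **Key lemma**: `1, t, …, t^(n-1)` are linearly independent modulo `π` over the Gauss subring of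
`K(j)`. -/
theorem valuation_coeff_lt_one (c : ℕ → K⟮j⟯) (hc : ∀ i, 𝒢.valuation (c i) ≤ 1)
    (hsum : 𝒱.valuation (∑ i ∈ Finset.range A.natDegree, (c i : M) * t ^ i) < 1) :
    ∀ i < A.natDegree, 𝒢.valuation (c i) < 1 := by
  classical
  have htrg := transcendental_gen htrj
  have hgeng := adjoin_simple_gen_eq_top (K := K) j
  choose f g hg hfg using fun i => (h𝒢.valuation_le_one_iff hπ htrg hgeng (c i)).mp (hc i)
  set n := A.natDegree with hn
  set s := Finset.range n with hs
  set G : R[X] := ∏ i ∈ s, g i with hG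
  set h : ℕ → R[X] := fun i => if i < n then f i * ∏ l ∈ s.erase i, g l else 0 with hh
  -- the relation `cᵢ · G(j) = hᵢ(j)`
  have hfgM : ∀ i, (c i : M) * aeval j (g i) = aeval j (f i) := by
    intro i
    have h0 := congrArg (algebraMap K⟮j⟯ M) (hfg i)
    rwa [map_mul, algebraMap_aeval_gen, algebraMap_aeval_gen] at h0
  have hcG : ∀ i ∈ s, (c i : M) * aeval j G = aeval j (h i) := by
    intro i hi
    have hin : i < n := Finset.mem_range.mp hi
    rw [hG, ← Finset.mul_prod_erase s g hi, hh]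
    simp only [hin, if_true]
    rw [map_mul, map_mul, ← mul_assoc, hfgM i]
  obtain ⟨p, q, hq, hpq⟩ := (h𝒱.valuation_lt_one_iff hπ htr hgen _).mp hsum
  set d := (s.sup fun i => (h i).natDegree) ⊔ G.natDegree with hd
  have hdh : ∀ i, (h i).natDegree ≤ d := by
    intro i
    by_cases hi : i < n
    · exact le_trans (Finset.le_sup (f := fun i => (h i).natDegree) (Finset.mem_range.mpr hi))
        le_sup_left
    · simp [hh, hi]
  have hdG : G.natDegree ≤ d := le_sup_right
  -- polynomial identity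
  have hpoly : (∑ i ∈ s, homogR (h i) d A B * X ^ i) * q = C π * p * homogR G d A B := by
    apply aeval_injective_of_transcendental (K := K) htr
    rw [map_mul, map_sum, map_mul, map_mul, aeval_C, aeval_homogR_eq H hπ htr hj G hdG]
    have h1 : ∀ i ∈ s, aeval t (homogR (h i) d A B * X ^ i)
        = aeval t B ^ d * aeval j G * ((c i : M) * t ^ i) := by
      intro i hi
      rw [map_mul, aeval_homogR_eq H hπ htr hj (h i) (hdh i), map_pow, aeval_X, ← hcG i hi]
      ring
    rw [Finset.sum_congr rfl h1, ← Finset.mul_sum, mul_assoc, hpq]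
    ring
  have hdvd : C π ∣ ∑ i ∈ s, homogR (h i) d A B * X ^ i := by
    have h1 : C π ∣ (∑ i ∈ s, homogR (h i) d A B * X ^ i) * q := by
      rw [hpoly, mul_assoc]
      exact dvd_mul_right _ _
    exact ((prime_C_of_irreducible hπ).dvd_or_dvd h1).resolve_right hq
  rw [C_dvd_iff_map_residue_eq_zero hπ, Polynomial.map_sum] at hdvd
  have hdvd' : ∑ i ∈ Finset.range (A.map (residue R)).natDegree,
      homogR ((h i).map (residue R)) d (A.map (residue R)) (B.map (residue R)) * X ^ i = 0 := by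
    rw [H.natDegree_map_A, ← hdvd]
    refine Finset.sum_congr rfl fun i _ => ?_
    rw [Polynomial.map_mul, Polynomial.map_pow, map_X, map_homogR]
  have hcore := homogR_sum_range_eq_zero H.hcop H.map_B_ne_zero H.natDegree_map_B_le
    (by rw [H.natDegree_map_A]; exact H.natDegree_pos) (fun i => (h i).map (residue R)) d
    (fun i => le_trans natDegree_map_le (hdh i)) hdvd'
  intro i hi
  have h2 := hcore i (by rw [H.natDegree_map_A]; exact hi)
  rw [← C_dvd_iff_map_residue_eq_zero hπ] at h2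
  have h3 : C π ∣ f i := by
    have : h i = f i * ∏ l ∈ s.erase i, g l := by simp [hh, hi]
    rw [this] at h2
    exact ((prime_C_of_irreducible hπ).dvd_or_dvd h2).resolve_right
      (not_C_dvd_prod hπ _ _ fun l _ => hg l)
  obtain ⟨f', hf'⟩ := h3
  rw [h𝒢.valuation_lt_one_iff hπ htrg hgeng]
  have := isScalarTower_intermediateField (R := R) K⟮j⟯
  refine ⟨f', g i, hg i, ?_⟩
  rw [hfg i, hf', map_mul, aeval_C]


include H hπ htr hgen hj htrj h𝒢 h𝒱 in
/-- `Fin`-indexed version of the key lemma. -/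
theorem valuation_coeff_lt_one_fin (c : Fin A.natDegree → K⟮j⟯)
    (hc : ∀ i, 𝒢.valuation (c i) ≤ 1)
    (hsum : 𝒱.valuation (∑ i : Fin A.natDegree, (c i : M) * t ^ (i : ℕ)) < 1) :
    ∀ i, 𝒢.valuation (c i) < 1 := by
  set c' : ℕ → K⟮j⟯ := fun i => if h : i < A.natDegree then c ⟨i, h⟩ else 0 with hc'
  have h1 : ∀ i, 𝒢.valuation (c' i) ≤ 1 := by
    intro i
    by_cases hi : i < A.natDegree
    · simp only [hc', hi, dif_pos]; exact hc _
    · simp [hc', hi]
  have h2 : ∑ i ∈ Finset.range A.natDegree, (c' i : M) * t ^ i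
      = ∑ i : Fin A.natDegree, (c i : M) * t ^ (i : ℕ) := by
    rw [Finset.sum_range]
    refine Finset.sum_congr rfl fun i _ => ?_
    simp [hc', i.2]
  have h3 := valuation_coeff_lt_one H hπ htr hgen hj htrj h𝒢 h𝒱 c' h1 (by rw [h2]; exact hsum)
  intro i
  have := h3 i i.2
  simpa [hc', i.2] using this

include H hπ htr hgen hj htrj h𝒢 h𝒱 in
/-- scaling a nontrivial combination of `1, t, …, t^(n-1)` by its largest coefficient gives a
unit-level element. -/
theorem exists_max_coeff (c₀ : Fin A.natDegree → K⟮j⟯) (hne : ∃ i, c₀ i ≠ 0) :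
    ∃ i0, c₀ i0 ≠ 0 ∧ (∀ i, 𝒢.valuation (c₀ i) ≤ 𝒢.valuation (c₀ i0)) ∧
      ¬ 𝒱.valuation ((∑ i : Fin A.natDegree, (c₀ i : M) * t ^ (i : ℕ)) / (c₀ i0 : M)) < 1 := by
  obtain ⟨i1, hi1⟩ := hne
  obtain ⟨i0, -, hmax⟩ := Finset.exists_max_image Finset.univ (fun i => 𝒢.valuation (c₀ i))
    ⟨i1, Finset.mem_univ _⟩
  have hi0 : c₀ i0 ≠ 0 := by
    intro h0
    have h1 := hmax i1 (Finset.mem_univ _)
    rw [h0, map_zero] at h1
    exact hi1 ((map_eq_zero _).mp (le_antisymm h1 zero_le))
  have hv0 : 𝒢.valuation (c₀ i0) ≠ 0 := (Valuation.ne_zero_iff _).mpr hi0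
  refine ⟨i0, hi0, fun i => hmax i (Finset.mem_univ _), ?_⟩
  intro hlt
  have h1 : ∀ i, 𝒢.valuation (c₀ i / c₀ i0) ≤ 1 := by
    intro i
    rw [map_div₀]
    exact (div_le_one₀ (zero_lt_iff.mpr hv0)).mpr (hmax i (Finset.mem_univ _))
  have h2 : (∑ i : Fin A.natDegree, (c₀ i : M) * t ^ (i : ℕ)) / (c₀ i0 : M)
      = ∑ i : Fin A.natDegree, ((c₀ i / c₀ i0 : K⟮j⟯) : M) * t ^ (i : ℕ) := by
    rw [Finset.sum_div]
    refine Finset.sum_congr rfl fun i _ => ?_
    push_cast
    ring
  rw [h2] at hlt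
  have h3 := valuation_coeff_lt_one_fin H hπ htr hgen hj htrj h𝒢 h𝒱 _ h1 hlt i0
  rw [div_self hi0, map_one] at h3
  exact lt_irrefl _ h3

include H hπ htr hgen hj htrj h𝒢 h𝒱 in
/-- `1, t, …, t^(n-1)` are linearly independent over `K(j)`. -/
theorem linearIndependent_pow_of_isGaussAt :
    LinearIndependent K⟮j⟯ (fun i : Fin A.natDegree => t ^ (i : ℕ)) := by
  rw [Fintype.linearIndependent_iff]
  intro c₀ hsum
  by_contra hcon
  push Not at hcon
  obtain ⟨i0, -, -, hnot⟩ := exists_max_coeff H hπ htr hgen hj htrj h𝒢 h𝒱 c₀ hcon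
  apply hnot
  have h1 : ∑ i : Fin A.natDegree, (c₀ i : M) * t ^ (i : ℕ) = 0 := by
    rw [← hsum]
    refine Finset.sum_congr rfl fun i _ => ?_
    rw [IntermediateField.smul_def, smul_eq_mul]
  rw [h1, zero_div, map_zero]
  exact zero_lt_one

include H hπ htr hgen hj htrj h𝒢 h𝒱 in
/-- **structure of the Gauss subring of `K(t)`**: it is spanned by `1, t, …, t^(n-1)` over the Gauss
subring of `K(j)`. -/
theorem exists_coeff_of_valuation_le_one (hfin : Module.finrank K⟮j⟯ M = A.natDegree) {x : M}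
    (hx : 𝒱.valuation x ≤ 1) :
    ∃ c : Fin A.natDegree → K⟮j⟯, (∀ i, 𝒢.valuation (c i) ≤ 1) ∧
      x = ∑ i : Fin A.natDegree, (c i : M) * t ^ (i : ℕ) := by
  have hli := linearIndependent_pow_of_isGaussAt H hπ htr hgen hj htrj h𝒢 h𝒱
  have : Nonempty (Fin A.natDegree) := ⟨⟨0, H.natDegree_pos⟩⟩
  let b := basisOfLinearIndependentOfCardEqFinrank hli (by rw [Fintype.card_fin, hfin])
  have hb : ∀ i, b i = t ^ (i : ℕ) := fun i =>
    congrFun (coe_basisOfLinearIndependentOfCardEqFinrank hli _) i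
  set c₀ : Fin A.natDegree → K⟮j⟯ := fun i => b.repr x i with hc₀
  have hxsum : x = ∑ i : Fin A.natDegree, (c₀ i : M) * t ^ (i : ℕ) := by
    conv_lhs => rw [← b.sum_repr x]
    refine Finset.sum_congr rfl fun i _ => ?_
    rw [hb i, IntermediateField.smul_def, smul_eq_mul]
  refine ⟨c₀, ?_, hxsum⟩
  by_cases hne : ∃ i, c₀ i ≠ 0
  · obtain ⟨i0, hi0, hmax, hnot⟩ := exists_max_coeff H hπ htr hgen hj htrj h𝒢 h𝒱 c₀ hne
    rw [← hxsum] at hnot
    have hle : 𝒢.valuation (c₀ i0) ≤ 1 := by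
      by_contra hcon
      push Not at hcon
      apply hnot
      have h1 : 𝒢.valuation (c₀ i0)⁻¹ < 1 := by
        rw [map_inv₀]
        exact (inv_lt_one₀ (lt_trans zero_lt_one hcon)).mpr hcon
      have h2 := gaussLine_valuation_coe_lt_one H hπ htr hgen hj htrj h𝒢 h𝒱 h1
      have h3 : (((c₀ i0)⁻¹ : K⟮j⟯) : M) = ((c₀ i0 : K⟮j⟯) : M)⁻¹ := by push_cast; rfl
      rw [h3] at h2
      rw [div_eq_mul_inv, map_mul]
      calc 𝒱.valuation x * 𝒱.valuation ((c₀ i0 : K⟮j⟯) : M)⁻¹
          ≤ 1 * 𝒱.valuation ((c₀ i0 : K⟮j⟯) : M)⁻¹ := mul_le_mul_left hx _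
        _ = 𝒱.valuation ((c₀ i0 : K⟮j⟯) : M)⁻¹ := one_mul _
        _ < 1 := h2
    exact fun i => le_trans (hmax i) hle
  · push Not at hne
    intro i
    rw [hne i, map_zero]
    exact zero_le

end Line

end Fermat.Agent.JA
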