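/-
J-A project, package LINE (helper2), part 12 (LINE.3, main theorems).

Setting of `LINE_helper2_GaussLine` (`R` DVR, `π`, `K = Frac R`, `M = K(t)`, `j = A(t)/B(t)` with
`GaussLineHyp π A B`, `A, B` coprime over `K`), `𝒢` the Gauss valuation subring of `K(j)`:
* `unr_of_isGaussAt : Unr 𝒢 M` (lead's currency: `integralClosure ↥𝒢 M` formally unramified over `𝒢`);
* `mem_integralClosure_iff_of_isGaussAt`: `integralClosure ↥𝒢 M` = the Gauss subring of `M`;
* `isGaussAt_comap`: the Gauss subring of `M` restricts to the Gauss subring of `K(j)`;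
* `eq_of_comap_eq`, `isGaussAt_of_comap_eq`: it is the only valuation subring of `M` above `𝒢`.
-/
import Mathlib
import Fermat.Agent.JA.LINE_helper2_GaussLine

set_option autoImplicit false

open Polynomial IsLocalRing IntermediateField

namespace Fermat.Agent.JA

/-- a monogenic algebra `S₀ = R₀[τ]` with `P(τ) = 0` and `P'(τ)` a unit is formally unramified. -/
theorem formallyUnramified_of_aeval_derivative_isUnit {R₀ S₀ : Type*} [CommRing R₀] [CommRing S₀]
    [Algebra R₀ S₀] (τ : S₀) (hτ : ∀ s : S₀, ∃ q : R₀[X], s = aeval τ q) (P : R₀[X])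
    (hP : aeval τ P = 0) (hu : IsUnit (aeval τ (derivative P))) :
    Algebra.FormallyUnramified R₀ S₀ := by
  constructor
  set D := KaehlerDifferential.D R₀ S₀ with hD
  have h1 : D τ = 0 := by
    have h2 : D (aeval τ P) = aeval τ (derivative P) • D τ := D.map_aeval P τ
    rw [hP, map_zero] at h2
    exact (hu.smul_eq_zero).mp h2.symm
  have h3 : ∀ s : S₀, D s = 0 := by
    intro s
    obtain ⟨q, rfl⟩ := hτ s
    rw [D.map_aeval, h1, smul_zero]
  have h4 : (⊤ : Submodule S₀ (Ω[S₀⁄R₀])) = ⊥ := by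
    rw [← KaehlerDifferential.span_range_derivation, Submodule.span_eq_bot]
    rintro _ ⟨s, rfl⟩
    exact h3 s
  exact (Submodule.subsingleton_iff S₀).mp (subsingleton_of_bot_eq_top h4.symm)


section IntegrallyClosed

variable {L M : Type*} [Field L] [Field M] [Algebra L M]

/-- elements of `M` integral over a valuation subring `𝒢` of a subfield lie in every valuation
subring of `M` containing `𝒢`. -/
theorem mem_of_isIntegral_of_le (𝒢 : ValuationSubring L) (𝒲 : ValuationSubring M)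
    (hle : ∀ y : L, y ∈ 𝒢 → algebraMap L M y ∈ 𝒲) {x : M} (hx : IsIntegral 𝒢 x) : x ∈ 𝒲 := by
  let φ : 𝒢 →+* 𝒲 := ((algebraMap L M).comp 𝒢.subtype).codRestrict 𝒲 fun y => hle y y.2
  have hφ : (algebraMap 𝒲 M).comp φ = algebraMap 𝒢 M := by
    ext y
    rfl
  obtain ⟨p, hp, hpx⟩ := hx
  have hint' : IsIntegral 𝒲 x := by
    refine ⟨p.map φ, hp.map φ, ?_⟩
    rw [Polynomial.eval₂_map, hφ]
    exact hpx
  obtain ⟨y, hy⟩ := (IsIntegrallyClosed.isIntegral_iff (R := 𝒲) (K := M)).mp hint'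
  rw [← hy]
  exact y.2

end IntegrallyClosed

section Line

variable {R : Type*} [CommRing R] [IsDomain R] [IsDiscreteValuationRing R] {π : R}
  {K : Type*} [Field K] [Algebra R K] [IsFractionRing R K]
  {M : Type*} [Field M] [Algebra K M] [Algebra R M] [IsScalarTower R K M] {t : M}
  {A B : R[X]} {j : M}
  (H : GaussLineHyp π A B) (hπ : Irreducible π) (htr : Transcendental K t) (hgen : K⟮t⟯ = ⊤)
  (hj : j = aeval t A / aeval t B) (htrj : Transcendental K j)
  (hfin : Module.finrank K⟮j⟯ M = A.natDegree)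
  {𝒢 : ValuationSubring K⟮j⟯} (h𝒢 : IsGaussAt R π (AdjoinSimple.gen K j) 𝒢)
  {𝒱 : ValuationSubring M} (h𝒱 : IsGaussAt R π t 𝒱)

include H hπ htr hgen hj htrj h𝒢 h𝒱 in
theorem coe_mem_of_mem {y : K⟮j⟯} (hy : y ∈ 𝒢) : (y : M) ∈ 𝒱 := by
  rw [← 𝒱.valuation_le_one_iff]
  exact gaussLine_valuation_coe_le_one H hπ htr hgen hj htrj h𝒢 h𝒱 ((𝒢.valuation_le_one_iff _).mpr hy)

include H hπ htr hgen hj htrj hfin h𝒢 h𝒱 in
/-- the Gauss subring of `K(t)` is a finitely generated module over the Gauss subring of `K(j)`,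
hence integral over it. -/
theorem isIntegral_of_mem {x : M} (hx : x ∈ 𝒱) : IsIntegral 𝒢 x := by
  let 𝒱' : Subalgebra 𝒢 M :=
    { 𝒱.toSubring.toSubsemiring with
      algebraMap_mem' := fun y => coe_mem_of_mem H hπ htr hgen hj htrj h𝒢 h𝒱 y.2 }
  have hmem : ∀ z : M, z ∈ 𝒱' ↔ z ∈ 𝒱 := fun z => Iff.rfl
  have ht : t ∈ 𝒱 := by
    have := h𝒱.1 X
    rwa [aeval_X] at this
  have hspan : Subalgebra.toSubmodule 𝒱' =
      Submodule.span 𝒢 (Set.range fun i : Fin A.natDegree => t ^ (i : ℕ)) := by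
    apply le_antisymm
    · intro z hz
      have hz' : z ∈ 𝒱 := hz
      obtain ⟨c, hc, rfl⟩ := exists_coeff_of_valuation_le_one H hπ htr hgen hj htrj h𝒢 h𝒱 hfin
        ((𝒱.valuation_le_one_iff z).mpr hz')
      refine Submodule.sum_mem _ fun i _ => ?_
      have h1 : ((c i : K⟮j⟯) : M) * t ^ (i : ℕ)
          = (⟨c i, (𝒢.valuation_le_one_iff _).mp (hc i)⟩ : 𝒢) • t ^ (i : ℕ) := rfl
      rw [h1]
      exact Submodule.smul_mem _ _ (Submodule.subset_span ⟨i, rfl⟩)
    · rw [Submodule.span_le]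
      rintro _ ⟨i, rfl⟩
      exact pow_mem ht _
  have hfg : (Subalgebra.toSubmodule 𝒱').FG := by
    rw [hspan]
    exact Submodule.fg_span (Set.finite_range _)
  exact IsIntegral.of_mem_of_fg 𝒱' hfg x ((hmem x).mpr hx)

include H hπ htr hgen hj htrj hfin h𝒢 h𝒱 in
/-- **the integral closure of the Gauss subring of `K(j)` in `K(t)` is the Gauss subring of
`K(t)`.** -/
theorem mem_integralClosure_iff (x : M) : x ∈ integralClosure 𝒢 M ↔ x ∈ 𝒱 :=
  ⟨fun hx => mem_of_isIntegral_of_le 𝒢 𝒱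
      (fun _ hy => coe_mem_of_mem H hπ htr hgen hj htrj h𝒢 h𝒱 hy) hx,
    fun hx => isIntegral_of_mem H hπ htr hgen hj htrj hfin h𝒢 h𝒱 hx⟩


include H hπ htr hgen hj htrj hfin h𝒢 h𝒱 in
/-- **`K(t) / K(j)` is unramified at the Gauss valuation.** -/
theorem formallyUnramified_integralClosure :
    Algebra.FormallyUnramified 𝒢 (integralClosure 𝒢 M) := by
  have hiff := mem_integralClosure_iff H hπ htr hgen hj htrj hfin h𝒢 h𝒱
  have ht : t ∈ 𝒱 := by
    have := h𝒱.1 X
    rwa [aeval_X] at this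
  have hB0 : aeval t B ≠ 0 := aeval_B_ne_zero H hπ htr
  have hR : ∀ r : R, algebraMap R K⟮j⟯ r ∈ 𝒢 := fun r => by
    have := h𝒢.1 (C r)
    rwa [aeval_C] at this
  have hγ : AdjoinSimple.gen K j ∈ 𝒢 := by
    have := h𝒢.1 X
    rwa [aeval_X] at this
  let φ : R →+* 𝒢 := (algebraMap R K⟮j⟯).codRestrict 𝒢 hR
  have hφM : (algebraMap 𝒢 M).comp φ = algebraMap R M := by
    ext r
    have := isScalarTower_intermediateField (R := R) K⟮j⟯
    exact (IsScalarTower.algebraMap_apply R K⟮j⟯ M r).symm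
  have haevalφ : ∀ q : R[X], aeval t (q.map φ) = aeval t q := by
    intro q
    rw [aeval_def, eval₂_map, hφM, ← aeval_def]
  let γ : 𝒢 := ⟨AdjoinSimple.gen K j, hγ⟩
  have hγM : algebraMap 𝒢 M γ = j := rfl
  let P : (𝒢)[X] := A.map φ - C γ * B.map φ
  let τ : integralClosure 𝒢 M := ⟨t, (hiff t).mpr ht⟩
  have hcoe : ∀ Q : (𝒢)[X], ((aeval τ Q : integralClosure 𝒢 M) : M) = aeval t Q := fun Q =>
    (Subalgebra.aeval_coe (integralClosure 𝒢 M) τ Q).symm
  refine formallyUnramified_of_aeval_derivative_isUnit τ ?_ P ?_ ?_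
  · intro s
    have hs : (s : M) ∈ 𝒱 := (hiff _).mp s.2
    obtain ⟨c, hc, hsum⟩ := exists_coeff_of_valuation_le_one H hπ htr hgen hj htrj h𝒢 h𝒱 hfin
      ((𝒱.valuation_le_one_iff _).mpr hs)
    refine ⟨∑ i : Fin A.natDegree,
      C (⟨c i, (𝒢.valuation_le_one_iff _).mp (hc i)⟩ : 𝒢) * X ^ (i : ℕ), ?_⟩
    apply Subtype.ext
    rw [hcoe, hsum, map_sum]
    refine Finset.sum_congr rfl fun i _ => ?_
    rw [map_mul, aeval_C, map_pow, aeval_X]
    rfl
  · apply Subtype.ext
    rw [hcoe]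
    show aeval t (A.map φ - C γ * B.map φ) = 0
    rw [map_sub, map_mul, aeval_C, haevalφ, haevalφ, hγM, hj, div_mul_cancel₀ _ hB0, sub_self]
  · have hder : derivative P = (derivative A).map φ - C γ * (derivative B).map φ := by
      show derivative (A.map φ - C γ * B.map φ) = _
      rw [derivative_sub, derivative_C_mul, derivative_map, derivative_map]
    set w : M := aeval t (derivative A) - j * aeval t (derivative B) with hw
    have hwcoe : ((aeval τ (derivative P) : integralClosure 𝒢 M) : M) = w := by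
      rw [hcoe, hder, map_sub, map_mul, aeval_C, haevalφ, haevalφ, hγM]
    have hwB : w * aeval t B = aeval t (derivative A * B - A * derivative B) := by
      rw [hw, hj, map_sub, map_mul, map_mul]
      field_simp
    have hvw : 𝒱.valuation w = 1 := by
      have h1 := congrArg 𝒱.valuation hwB
      rw [map_mul, h𝒱.valuation_aeval_eq_one htr (H.not_dvd_B hπ), mul_one,
        h𝒱.valuation_aeval_eq_one htr H.hW] at h1
      exact h1
    have hw0 : w ≠ 0 := by
      intro h0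
      rw [h0, map_zero] at hvw
      exact zero_ne_one hvw
    have hwinv : w⁻¹ ∈ 𝒱 := by
      rw [← 𝒱.valuation_le_one_iff, map_inv₀, hvw, inv_one]
    refine IsUnit.of_mul_eq_one ⟨w⁻¹, (hiff _).mpr hwinv⟩ ?_
    apply Subtype.ext
    show ((aeval τ (derivative P) : integralClosure 𝒢 M) : M) * w⁻¹ = 1
    rw [hwcoe, mul_inv_cancel₀ hw0]

end Line


section Final

variable {R : Type*} [CommRing R] [IsDomain R] [IsDiscreteValuationRing R] {π : R}
  {K : Type*} [Field K] [Algebra R K] [IsFractionRing R K]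
  {M : Type*} [Field M] [Algebra K M] [Algebra R M] [IsScalarTower R K M] {t : M}
  {A B : R[X]} {j : M}
  (H : GaussLineHyp π A B) (hπ : Irreducible π) (htr : Transcendental K t) (hgen : K⟮t⟯ = ⊤)
  (hj : j = aeval t A / aeval t B)
  (hcopK : IsCoprime (A.map (algebraMap R K)) (B.map (algebraMap R K)))
  {𝒢 : ValuationSubring K⟮j⟯} {𝒱 : ValuationSubring M}

include H hπ htr hgen hj hcopK in
theorem transcendental_of_gaussLineHyp : Transcendental K j := by
  have hB : B.map (algebraMap R K) ≠ 0 := by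
    rw [Ne, Polynomial.map_eq_zero_iff (IsFractionRing.injective R K)]
    exact ne_zero_of_not_C_dvd (H.not_dvd_B hπ)
  have hA : 0 < (A.map (algebraMap R K)).natDegree := by
    rw [natDegree_map_eq_of_injective (IsFractionRing.injective R K)]
    exact H.natDegree_pos
  have := transcendental_aeval_div htr hgen hcopK hB hA
  rwa [aeval_map_algebraMap, aeval_map_algebraMap, ← hj] at this

include H hπ htr hgen hj hcopK in
theorem finrank_of_gaussLineHyp : Module.finrank K⟮j⟯ M = A.natDegree := by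
  have hB : B.map (algebraMap R K) ≠ 0 := by
    rw [Ne, Polynomial.map_eq_zero_iff (IsFractionRing.injective R K)]
    exact ne_zero_of_not_C_dvd (H.not_dvd_B hπ)
  have := finrank_adjoin_aeval_div htr hgen hcopK hB
  rw [natDegree_map_eq_of_injective (IsFractionRing.injective R K),
    natDegree_map_eq_of_injective (IsFractionRing.injective R K), max_eq_left H.hdeg.le] at this
  rw [aeval_map_algebraMap, aeval_map_algebraMap, ← hj] at this
  exact this

include H hπ htr hgen hj hcopK in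
/-- **(LINE.3)** `K(t) / K(j)` is unramified over the Gauss valuation subring of `K(j)`
(lead's currency). -/
theorem unr_of_isGaussAt (h𝒢 : IsGaussAt R π (AdjoinSimple.gen K j) 𝒢) : Unr 𝒢 M :=
  formallyUnramified_integralClosure H hπ htr hgen hj
    (transcendental_of_gaussLineHyp H hπ htr hgen hj hcopK)
    (finrank_of_gaussLineHyp H hπ htr hgen hj hcopK) h𝒢 (isGaussAt_gaussVS hπ htr hgen)

include H hπ htr hgen hj hcopK in
/-- **(LINE.3)** the integral closure of the Gauss subring of `K(j)` in `K(t)` is the Gauss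
subring of `K(t)`. -/
theorem mem_integralClosure_iff_of_isGaussAt (h𝒢 : IsGaussAt R π (AdjoinSimple.gen K j) 𝒢)
    (h𝒱 : IsGaussAt R π t 𝒱) (x : M) : x ∈ integralClosure 𝒢 M ↔ x ∈ 𝒱 :=
  mem_integralClosure_iff H hπ htr hgen hj
    (transcendental_of_gaussLineHyp H hπ htr hgen hj hcopK)
    (finrank_of_gaussLineHyp H hπ htr hgen hj hcopK) h𝒢 h𝒱 x

include H hπ htr hgen hj hcopK in
/-- **(LINE.3)** the Gauss subring of `K(t)` restricts to the Gauss subring of `K(j)`. -/
theorem isGaussAt_comap (h𝒱 : IsGaussAt R π t 𝒱) :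
    IsGaussAt R π (AdjoinSimple.gen K j) (𝒱.comap (algebraMap K⟮j⟯ M)) := by
  have htrj := transcendental_of_gaussLineHyp H hπ htr hgen hj hcopK
  have h𝒢 := isGaussAt_gaussVS (R := R) hπ (transcendental_gen htrj)
    (adjoin_simple_gen_eq_top (K := K) j)
  rw [comap_eq_of_isGaussAt H hπ htr hgen hj htrj h𝒢 h𝒱]
  exact h𝒢

include H hπ htr hgen hj hcopK in
/-- **(LINE.3)** uniqueness of the extension: a valuation subring of `K(t)` lying over the Gauss
subring of `K(j)` is the Gauss subring of `K(t)`. -/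
theorem eq_of_comap_eq (h𝒢 : IsGaussAt R π (AdjoinSimple.gen K j) 𝒢)
    (h𝒱 : IsGaussAt R π t 𝒱) {𝒲 : ValuationSubring M}
    (h : 𝒲.comap (algebraMap K⟮j⟯ M) = 𝒢) : 𝒲 = 𝒱 := by
  have htrj := transcendental_of_gaussLineHyp H hπ htr hgen hj hcopK
  have hfin := finrank_of_gaussLineHyp H hπ htr hgen hj hcopK
  have hle : ∀ y : K⟮j⟯, y ∈ 𝒢 → algebraMap K⟮j⟯ M y ∈ 𝒲 := by
    intro y hy
    rw [← h] at hy
    exact hy
  have hsub : ∀ x : M, x ∈ 𝒱 → x ∈ 𝒲 := fun x hx =>
    mem_of_isIntegral_of_le 𝒢 𝒲 hle (isIntegral_of_mem H hπ htr hgen hj htrj hfin h𝒢 h𝒱 hx)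
  ext x
  refine ⟨fun hx => ?_, hsub x⟩
  by_contra hcon
  rw [← 𝒱.valuation_le_one_iff, not_le] at hcon
  have hx0 : x ≠ 0 := by
    rintro rfl
    rw [map_zero] at hcon
    exact absurd hcon (not_lt.mpr zero_le)
  have hϖ0 : algebraMap R M π ≠ 0 := algebraMap_ne_zero_of_ne_zero K hπ.ne_zero
  have h1 : 𝒱.valuation x⁻¹ < 1 := by
    rw [map_inv₀]
    exact (inv_lt_one₀ (lt_trans zero_lt_one hcon)).mpr hcon
  rw [h𝒱.valuation_lt_one_iff_le hπ htr hgen] at h1
  have h2 : x⁻¹ / algebraMap R M π ∈ 𝒱 := by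
    rw [← 𝒱.valuation_le_one_iff, map_div₀]
    exact (div_le_one₀ (zero_lt_iff.mpr ((Valuation.ne_zero_iff _).mpr hϖ0))).mpr h1
  have h3 : (algebraMap R M π)⁻¹ ∈ 𝒲 := by
    have := 𝒲.mul_mem _ _ hx (hsub _ h2)
    have h4 : x * (x⁻¹ / algebraMap R M π) = (algebraMap R M π)⁻¹ := by
      field_simp
    rwa [h4] at this
  have h5 : (algebraMap R K⟮j⟯ π)⁻¹ ∈ 𝒲.comap (algebraMap K⟮j⟯ M) := by
    rw [ValuationSubring.mem_comap, map_inv₀]
    have := isScalarTower_intermediateField (R := R) K⟮j⟯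
    rw [← IsScalarTower.algebraMap_apply]
    exact h3
  rw [h] at h5
  exact h𝒢.2.1 h5

include H hπ htr hgen hj hcopK in
/-- **(LINE.3)** a valuation subring of `K(t)` lying over the Gauss subring of `K(j)` is Gauss. -/
theorem isGaussAt_of_comap_eq (h𝒢 : IsGaussAt R π (AdjoinSimple.gen K j) 𝒢)
    {𝒲 : ValuationSubring M} (h : 𝒲.comap (algebraMap K⟮j⟯ M) = 𝒢) : IsGaussAt R π t 𝒲 := by
  rw [eq_of_comap_eq H hπ htr hgen hj hcopK h𝒢 (isGaussAt_gaussVS hπ htr hgen) h]
  exact isGaussAt_gaussVS hπ htr hgen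

end Final

end Fermat.Agent.JA
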