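/-
J-A project, package LINE (helper2), part 13 (LINE.3 + LINE.4, concrete statements).

* `LineData.unr_of_isGaussAt`, `LineData.isGaussAt_comap`, `LineData.isGaussAt_of_comap_eq`,
  `LineData.mem_integralClosure_iff_of_isGaussAt`: LINE.3 for a `LineData` with an integral model
  `A, B ∈ R[X]` satisfying `GaussLineHyp π A B`;
* `gaussLineHyp_legendre` (residue characteristic `≠ 2`), `gaussLineHyp_hesse` (`≠ 3`);
* `legendre_unr`, `legendre_isGaussAt_comap`, `legendre_isGaussAt_of_comap_eq`, `hesse_…`;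
* LINE.4: `separable_legendre_cusps`, `separable_hesse_cusps`, `residue_ne_of_pow_three_eq_one`.
-/
import Mathlib
import Fermat.Agent.JA.LINE_helper2_GaussUnr

set_option autoImplicit false

open Polynomial IsLocalRing IntermediateField

namespace Fermat.Agent.JA

namespace LineData

variable {R : Type*} [CommRing R] [IsDomain R] [IsDiscreteValuationRing R] {π : R}
  {K : Type*} [Field K] [Algebra R K] [IsFractionRing R K]
  {M : Type*} [Field M] [Algebra K M] [Algebra R M] [IsScalarTower R K M] {t : M}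
  (D : LineData K) {A B : R[X]}
  (hA : A.map (algebraMap R K) = D.A) (hB : B.map (algebraMap R K) = D.B)
  (H : GaussLineHyp π A B) (hπ : Irreducible π) (htr : Transcendental K t) (hgen : K⟮t⟯ = ⊤)
  {𝒢 : ValuationSubring K⟮D.j t⟯} {𝒱 : ValuationSubring M}

include hA hB in
omit [IsDomain R] [IsDiscreteValuationRing R] [IsFractionRing R K] in
theorem j_eq_aeval_div : D.j t = aeval t A / aeval t B := by
  rw [LineData.j, ← hA, ← hB, aeval_map_algebraMap, aeval_map_algebraMap]

include hA hB in
omit [IsDomain R] [IsDiscreteValuationRing R] [IsFractionRing R K] [Algebra R M]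
  [IsScalarTower R K M] in
theorem isCoprime_map : IsCoprime (A.map (algebraMap R K)) (B.map (algebraMap R K)) := by
  rw [hA, hB]
  exact D.isCoprime_A_B

include hA hB H hπ htr hgen in
/-- **(LINE.3)** `K(t) / K(j)` is unramified over the Gauss valuation subring of `K(j)`. -/
theorem unr_of_isGaussAt (h𝒢 : IsGaussAt R π (AdjoinSimple.gen K (D.j t)) 𝒢) : Unr 𝒢 M :=
  Fermat.Agent.JA.unr_of_isGaussAt H hπ htr hgen (D.j_eq_aeval_div hA hB)
    (D.isCoprime_map hA hB) h𝒢

include hA hB H hπ htr hgen in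
/-- **(LINE.3)** the Gauss subring of `K(t)` restricts to the Gauss subring of `K(j)`. -/
theorem isGaussAt_comap (h𝒱 : IsGaussAt R π t 𝒱) :
    IsGaussAt R π (AdjoinSimple.gen K (D.j t)) (𝒱.comap (algebraMap K⟮D.j t⟯ M)) :=
  Fermat.Agent.JA.isGaussAt_comap H hπ htr hgen (D.j_eq_aeval_div hA hB)
    (D.isCoprime_map hA hB) h𝒱

include hA hB H hπ htr hgen in
/-- **(LINE.3)** the Gauss subring of `K(t)` is the only valuation subring above the Gauss subring
of `K(j)`. -/
theorem isGaussAt_of_comap_eq (h𝒢 : IsGaussAt R π (AdjoinSimple.gen K (D.j t)) 𝒢)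
    {𝒲 : ValuationSubring M} (h : 𝒲.comap (algebraMap K⟮D.j t⟯ M) = 𝒢) : IsGaussAt R π t 𝒲 :=
  Fermat.Agent.JA.isGaussAt_of_comap_eq H hπ htr hgen (D.j_eq_aeval_div hA hB)
    (D.isCoprime_map hA hB) h𝒢 h

include hA hB H hπ htr hgen in
/-- **(LINE.3)** the integral closure of the Gauss subring of `K(j)` in `K(t)`. -/
theorem mem_integralClosure_iff_of_isGaussAt
    (h𝒢 : IsGaussAt R π (AdjoinSimple.gen K (D.j t)) 𝒢) (h𝒱 : IsGaussAt R π t 𝒱) (x : M) :
    x ∈ integralClosure 𝒢 M ↔ x ∈ 𝒱 :=
  Fermat.Agent.JA.mem_integralClosure_iff_of_isGaussAt H hπ htr hgen (D.j_eq_aeval_div hA hB)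
    (D.isCoprime_map hA hB) h𝒢 h𝒱 x

end LineData

end Fermat.Agent.JA

namespace Fermat.Agent.JA

section Concrete

/-- the numerator of the Legendre `J`, over any ring. -/
noncomputable def legendreA (R : Type*) [CommRing R] : R[X] := 256 * (X ^ 2 - X + 1) ^ 3
/-- the denominator of the Legendre `J`, over any ring. -/
noncomputable def legendreB (R : Type*) [CommRing R] : R[X] := X ^ 2 * (X - 1) ^ 2
/-- the numerator of the Hesse `J`, over any ring. -/
noncomputable def hesseA (R : Type*) [CommRing R] : R[X] := 27 * X ^ 3 * (X ^ 3 + 8) ^ 3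
/-- the denominator of the Hesse `J`, over any ring. -/
noncomputable def hesseB (R : Type*) [CommRing R] : R[X] := (X ^ 3 - 1) ^ 3

variable {R S : Type*} [CommRing R] [CommRing S] (φ : R →+* S)

theorem legendreA_map : (legendreA R).map φ = legendreA S := by
  simp [legendreA, Polynomial.map_ofNat]
theorem legendreB_map : (legendreB R).map φ = legendreB S := by
  simp [legendreB]
theorem hesseA_map : (hesseA R).map φ = hesseA S := by
  simp [hesseA, Polynomial.map_ofNat]
theorem hesseB_map : (hesseB R).map φ = hesseB S := by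
  simp [hesseB]

theorem legendre_wronskian :
    derivative (legendreA R) * legendreB R - legendreA R * derivative (legendreB R)
      = 256 * (X ^ 2 - X + 1) ^ 2 * (X * (X - 1)) * ((2 * X - 1) * (X - 2) * (X + 1)) := by
  simp only [legendreA, legendreB, derivative_mul, derivative_pow, derivative_add, derivative_sub,
    derivative_X, derivative_one, derivative_ofNat, Nat.cast_ofNat, map_ofNat]
  ring

theorem hesse_wronskian :
    derivative (hesseA R) * hesseB R - hesseA R * derivative (hesseB R)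
      = 81 * (X * (X ^ 3 + 8)) ^ 2 * (X ^ 3 - 1) ^ 2 * (X ^ 6 - 20 * X ^ 3 - 8) := by
  simp only [hesseA, hesseB, derivative_mul, derivative_pow, derivative_add, derivative_sub,
    derivative_X, derivative_one, derivative_ofNat, Nat.cast_ofNat, map_ofNat]
  ring

end Concrete

end Fermat.Agent.JA

namespace Fermat.Agent.JA

section ConcreteField

variable {k : Type*} [Field k]

theorem legendre_isCoprime (h2 : (2 : k) ≠ 0) : IsCoprime (legendreA k) (legendreB k) := by
  have h256 : (256 : k) ≠ 0 := by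
    have : (256 : k) = 2 ^ 8 := by norm_num
    rw [this]
    exact pow_ne_zero _ h2
  have hu : IsUnit (256 : k[X]) := by
    have : (256 : k[X]) = C 256 := (map_ofNat C 256).symm
    rw [this]
    exact Polynomial.isUnit_C.mpr (isUnit_iff_ne_zero.mpr h256)
  have hB : legendreB k = (X * (X - 1)) ^ 2 := by
    unfold legendreB; ring
  rw [legendreA, hB]
  refine (isCoprime_mul_unit_left_left hu _ _).mpr (IsCoprime.pow ?_)
  exact ⟨1, -1, by ring⟩

theorem hesse_isCoprime (h3 : (3 : k) ≠ 0) : IsCoprime (hesseA k) (hesseB k) := by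
  have h27 : (27 : k) ≠ 0 := by
    have : (27 : k) = 3 ^ 3 := by norm_num
    rw [this]
    exact pow_ne_zero _ h3
  have h9 : (9 : k) ≠ 0 := by
    have : (9 : k) = 3 ^ 2 := by norm_num
    rw [this]
    exact pow_ne_zero _ h3
  have hu : IsUnit (27 : k[X]) := by
    have : (27 : k[X]) = C 27 := (map_ofNat C 27).symm
    rw [this]
    exact Polynomial.isUnit_C.mpr (isUnit_iff_ne_zero.mpr h27)
  have hA : hesseA k = 27 * (X * (X ^ 3 + 8)) ^ 3 := by
    unfold hesseA; ring
  rw [hA, hesseB]
  refine (isCoprime_mul_unit_left_left hu _ _).mpr (IsCoprime.pow ?_)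
  refine isCoprime_of_bezout (c := 9) (u := X ^ 2) (v := -9 - X ^ 3) h9 ?_
  rw [map_ofNat]
  ring

theorem legendre_wronskian_ne_zero (h2 : (2 : k) ≠ 0) :
    (256 * (X ^ 2 - X + 1) ^ 2 * (X * (X - 1)) * ((2 * X - 1) * (X - 2) * (X + 1)) : k[X]) ≠ 0 := by
  have h256 : (256 : k) ≠ 0 := by
    have : (256 : k) = 2 ^ 8 := by norm_num
    rw [this]
    exact pow_ne_zero _ h2
  have e1 : (256 : k[X]) ≠ 0 := by
    have : (256 : k[X]) = C 256 := (map_ofNat C 256).symm
    rw [this]
    exact C_ne_zero.mpr h256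
  have e2 : (X ^ 2 - X + 1 : k[X]) ≠ 0 := fun h => by
    have := congrArg (fun p => coeff p 0) h
    simp at this
  have e3 : (X : k[X]) ≠ 0 := X_ne_zero
  have e4 : (X - 1 : k[X]) ≠ 0 := X_sub_C_ne_zero 1
  have e5 : (2 * X - 1 : k[X]) ≠ 0 := fun h => by
    have := congrArg (fun p => coeff p 0) h
    simp [coeff_ofNat_mul] at this
  have e6 : (X - 2 : k[X]) ≠ 0 := by
    have : (X - 2 : k[X]) = X - C 2 := by rw [map_ofNat]
    rw [this]
    exact X_sub_C_ne_zero 2
  have e7 : (X + 1 : k[X]) ≠ 0 := X_add_C_ne_zero 1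
  exact mul_ne_zero (mul_ne_zero (mul_ne_zero e1 (pow_ne_zero _ e2)) (mul_ne_zero e3 e4))
    (mul_ne_zero (mul_ne_zero e5 e6) e7)

theorem hesse_wronskian_ne_zero (h3 : (3 : k) ≠ 0) :
    (81 * (X * (X ^ 3 + 8)) ^ 2 * (X ^ 3 - 1) ^ 2 * (X ^ 6 - 20 * X ^ 3 - 8) : k[X]) ≠ 0 := by
  have h81 : (81 : k) ≠ 0 := by
    have : (81 : k) = 3 ^ 4 := by norm_num
    rw [this]
    exact pow_ne_zero _ h3
  have e1 : (81 : k[X]) ≠ 0 := by
    have : (81 : k[X]) = C 81 := (map_ofNat C 81).symm
    rw [this]
    exact C_ne_zero.mpr h81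
  have e2 : (X : k[X]) ≠ 0 := X_ne_zero
  have e3 : (X ^ 3 + 8 : k[X]) ≠ 0 := by
    have : (X ^ 3 + 8 : k[X]) = X ^ 3 + C 8 := by rw [map_ofNat]
    rw [this]
    exact (monic_X_pow_add_C 8 (by norm_num)).ne_zero
  have e4 : (X ^ 3 - 1 : k[X]) ≠ 0 := by
    have : (X ^ 3 - 1 : k[X]) = X ^ 3 - C 1 := by rw [map_one]
    rw [this]
    exact (monic_X_pow_sub_C 1 (by norm_num)).ne_zero
  have e5 : (X ^ 6 - 20 * X ^ 3 - 8 : k[X]) ≠ 0 := fun h => by
    have := congrArg (fun p => coeff p 6) h
    simp [coeff_ofNat_mul, coeff_X_pow] at this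
  exact mul_ne_zero (mul_ne_zero (mul_ne_zero e1 (pow_ne_zero _ (mul_ne_zero e2 e3)))
    (pow_ne_zero _ e4)) e5

end ConcreteField

end Fermat.Agent.JA

namespace Fermat.Agent.JA

section ConcreteDVR

variable {R : Type*} [CommRing R] [IsDomain R] [IsDiscreteValuationRing R] {π : R}

theorem isUnit_of_residue_ne_zero {r : R} (h : residue R r ≠ 0) : IsUnit r := by
  by_contra hr
  exact h ((residue_eq_zero_iff r).mpr ((mem_maximalIdeal r).mpr hr))

/-- **the Legendre function has good reduction at every residue characteristic `≠ 2`.** -/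
theorem gaussLineHyp_legendre (hπ : Irreducible π) (h2 : (2 : ResidueField R) ≠ 0) :
    GaussLineHyp π (legendreA R) (legendreB R) := by
  have h256 : IsUnit (256 : R) := by
    apply isUnit_of_residue_ne_zero
    rw [map_ofNat]
    have : (256 : ResidueField R) = 2 ^ 8 := by norm_num
    rw [this]
    exact pow_ne_zero _ h2
  have hA : (legendreA R).natDegree = 6 := by
    unfold legendreA
    have : (256 : R) ≠ 0 := h256.ne_zero
    compute_degree!
  have hB : (legendreB R).natDegree = 4 := by
    unfold legendreB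
    compute_degree!
  refine ⟨?_, ?_, ?_, ?_⟩
  · rw [legendreA_map, legendreB_map]
    exact legendre_isCoprime h2
  · rw [hA, hB]; norm_num
  · have : (legendreA R).leadingCoeff = 256 := by
      rw [leadingCoeff, hA]
      unfold legendreA
      compute_degree!
    rw [this]
    exact h256
  · rw [C_dvd_iff_map_residue_eq_zero hπ, legendre_wronskian]
    simp only [Polynomial.map_mul, Polynomial.map_pow, Polynomial.map_sub, Polynomial.map_add,
      map_X, Polynomial.map_one, Polynomial.map_ofNat]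
    exact legendre_wronskian_ne_zero h2

/-- **the Hesse function has good reduction at every residue characteristic `≠ 3`.** -/
theorem gaussLineHyp_hesse (hπ : Irreducible π) (h3 : (3 : ResidueField R) ≠ 0) :
    GaussLineHyp π (hesseA R) (hesseB R) := by
  have h27 : IsUnit (27 : R) := by
    apply isUnit_of_residue_ne_zero
    rw [map_ofNat]
    have : (27 : ResidueField R) = 3 ^ 3 := by norm_num
    rw [this]
    exact pow_ne_zero _ h3
  have hA : (hesseA R).natDegree = 12 := by
    unfold hesseA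
    have : (27 : R) ≠ 0 := h27.ne_zero
    compute_degree!
  have hB : (hesseB R).natDegree = 9 := by
    unfold hesseB
    compute_degree!
  refine ⟨?_, ?_, ?_, ?_⟩
  · rw [hesseA_map, hesseB_map]
    exact hesse_isCoprime h3
  · rw [hA, hB]; norm_num
  · have : (hesseA R).leadingCoeff = 27 := by
      rw [leadingCoeff, hA]
      unfold hesseA
      compute_degree!
    rw [this]
    exact h27
  · rw [C_dvd_iff_map_residue_eq_zero hπ, hesse_wronskian]
    simp only [Polynomial.map_mul, Polynomial.map_pow, Polynomial.map_sub, Polynomial.map_add,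
      map_X, Polynomial.map_one, Polynomial.map_ofNat]
    exact hesse_wronskian_ne_zero h3

end ConcreteDVR

end Fermat.Agent.JA

namespace Fermat.Agent.JA

section FinalConcrete

variable {R : Type*} [CommRing R] [IsDomain R] [IsDiscreteValuationRing R] {π : R}
  {K : Type*} [Field K] [CharZero K] [Algebra R K] [IsFractionRing R K]
  {M : Type*} [Field M] [Algebra K M] [Algebra R M] [IsScalarTower R K M] {t : M}
  (hπ : Irreducible π) (htr : Transcendental K t) (hgen : K⟮t⟯ = ⊤)

omit [IsDomain R] [IsDiscreteValuationRing R] [IsFractionRing R K] in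
theorem legendreA_map_eq : (legendreA R).map (algebraMap R K) = (legendreData K).A :=
  legendreA_map _
omit [IsDomain R] [IsDiscreteValuationRing R] [IsFractionRing R K] in
theorem legendreB_map_eq : (legendreB R).map (algebraMap R K) = (legendreData K).B :=
  legendreB_map _
omit [IsDomain R] [IsDiscreteValuationRing R] [IsFractionRing R K] in
theorem hesseA_map_eq : (hesseA R).map (algebraMap R K) = (hesseData K).A :=
  hesseA_map _
omit [IsDomain R] [IsDiscreteValuationRing R] [IsFractionRing R K] in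
theorem hesseB_map_eq : (hesseB R).map (algebraMap R K) = (hesseData K).B :=
  hesseB_map _

include hπ htr hgen in
/-- **(LINE.3, Legendre, `ℓ ≠ 2`)** `K(t) / K(j)` is unramified over the Gauss valuation subring of
`K(j)`. -/
theorem legendre_unr (h2 : (2 : ResidueField R) ≠ 0)
    {𝒢 : ValuationSubring K⟮(legendreData K).j t⟯}
    (h𝒢 : IsGaussAt R π (AdjoinSimple.gen K ((legendreData K).j t)) 𝒢) : Unr 𝒢 M :=
  (legendreData K).unr_of_isGaussAt legendreA_map_eq legendreB_map_eq
    (gaussLineHyp_legendre hπ h2) hπ htr hgen h𝒢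

include hπ htr hgen in
/-- **(LINE.3, Legendre)** the Gauss subring of `K(t)` restricts to the Gauss subring of `K(j)`. -/
theorem legendre_isGaussAt_comap (h2 : (2 : ResidueField R) ≠ 0) {𝒱 : ValuationSubring M}
    (h𝒱 : IsGaussAt R π t 𝒱) :
    IsGaussAt R π (AdjoinSimple.gen K ((legendreData K).j t))
      (𝒱.comap (algebraMap K⟮(legendreData K).j t⟯ M)) :=
  (legendreData K).isGaussAt_comap legendreA_map_eq legendreB_map_eq
    (gaussLineHyp_legendre hπ h2) hπ htr hgen h𝒱

include hπ htr hgen in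
/-- **(LINE.3, Legendre)** uniqueness of the extension of the Gauss valuation. -/
theorem legendre_isGaussAt_of_comap_eq (h2 : (2 : ResidueField R) ≠ 0)
    {𝒢 : ValuationSubring K⟮(legendreData K).j t⟯}
    (h𝒢 : IsGaussAt R π (AdjoinSimple.gen K ((legendreData K).j t)) 𝒢)
    {𝒲 : ValuationSubring M} (h : 𝒲.comap (algebraMap K⟮(legendreData K).j t⟯ M) = 𝒢) :
    IsGaussAt R π t 𝒲 :=
  (legendreData K).isGaussAt_of_comap_eq legendreA_map_eq legendreB_map_eq
    (gaussLineHyp_legendre hπ h2) hπ htr hgen h𝒢 h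

include hπ htr hgen in
/-- **(LINE.3, Hesse, `ℓ ≠ 3`, in particular `ℓ = 2`)** `K(t) / K(j)` is unramified over the Gauss
valuation subring of `K(j)`. -/
theorem hesse_unr (h3 : (3 : ResidueField R) ≠ 0)
    {𝒢 : ValuationSubring K⟮(hesseData K).j t⟯}
    (h𝒢 : IsGaussAt R π (AdjoinSimple.gen K ((hesseData K).j t)) 𝒢) : Unr 𝒢 M :=
  (hesseData K).unr_of_isGaussAt hesseA_map_eq hesseB_map_eq
    (gaussLineHyp_hesse hπ h3) hπ htr hgen h𝒢

include hπ htr hgen in
/-- **(LINE.3, Hesse)** the Gauss subring of `K(t)` restricts to the Gauss subring of `K(j)`. -/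
theorem hesse_isGaussAt_comap (h3 : (3 : ResidueField R) ≠ 0) {𝒱 : ValuationSubring M}
    (h𝒱 : IsGaussAt R π t 𝒱) :
    IsGaussAt R π (AdjoinSimple.gen K ((hesseData K).j t))
      (𝒱.comap (algebraMap K⟮(hesseData K).j t⟯ M)) :=
  (hesseData K).isGaussAt_comap hesseA_map_eq hesseB_map_eq
    (gaussLineHyp_hesse hπ h3) hπ htr hgen h𝒱

include hπ htr hgen in
/-- **(LINE.3, Hesse)** uniqueness of the extension of the Gauss valuation. -/
theorem hesse_isGaussAt_of_comap_eq (h3 : (3 : ResidueField R) ≠ 0)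
    {𝒢 : ValuationSubring K⟮(hesseData K).j t⟯}
    (h𝒢 : IsGaussAt R π (AdjoinSimple.gen K ((hesseData K).j t)) 𝒢)
    {𝒲 : ValuationSubring M} (h : 𝒲.comap (algebraMap K⟮(hesseData K).j t⟯ M) = 𝒢) :
    IsGaussAt R π t 𝒲 :=
  (hesseData K).isGaussAt_of_comap_eq hesseA_map_eq hesseB_map_eq
    (gaussLineHyp_hesse hπ h3) hπ htr hgen h𝒢 h

end FinalConcrete

section Cusps

variable {k : Type*} [Field k]

/-- **(LINE.4, Legendre)** the finite cusps `0, 1` stay distinct in every residue field. -/
theorem separable_legendre_cusps : (X * (X - 1) : k[X]).Separable := by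
  have h : (X * (X - 1) : k[X]) = (X - C 0) * (X - C 1) := by simp
  rw [h]
  refine Separable.mul (separable_X_sub_C) (separable_X_sub_C) ?_
  exact ⟨1, -1, by simp⟩

/-- **(LINE.4, Hesse)** the finite cusps (cube roots of unity) stay distinct in every residue
characteristic `≠ 3`. -/
theorem separable_hesse_cusps (h3 : (3 : k) ≠ 0) : (X ^ 3 - 1 : k[X]).Separable := by
  have h : (X ^ 3 - 1 : k[X]) = X ^ 3 - C 1 := by simp
  rw [h]
  exact separable_X_pow_sub_C (1 : k) (by exact_mod_cast h3) one_ne_zero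

end Cusps

section CuspsDVR

variable {R : Type*} [CommRing R] [IsLocalRing R]

/-- **(LINE.4, Hesse)** distinct cube roots of unity in a local ring with `3` invertible in the
residue field have distinct residues. -/
theorem residue_ne_of_pow_three_eq_one [IsDomain R] (h3 : (3 : ResidueField R) ≠ 0) {c c' : R}
    (hc : c ^ 3 = 1) (hc' : c' ^ 3 = 1) (hne : c ≠ c') : residue R c ≠ residue R c' := by
  intro heq
  have h1 : (c - c') * (c ^ 2 + c * c' + c' ^ 2) = 0 := by
    have : (c - c') * (c ^ 2 + c * c' + c' ^ 2) = c ^ 3 - c' ^ 3 := by ring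
    rw [this, hc, hc', sub_self]
  have h2 : c ^ 2 + c * c' + c' ^ 2 = 0 :=
    (mul_eq_zero.mp h1).resolve_left (sub_ne_zero.mpr hne)
  have h3' := congrArg (residue R) h2
  rw [map_add, map_add, map_mul, map_pow, map_pow, ← heq, map_zero] at h3'
  have h4 : (3 : ResidueField R) * residue R c ^ 2 = 0 := by
    rw [← h3']; ring
  have h5 : residue R c ^ 2 = 0 := (mul_eq_zero.mp h4).resolve_left h3
  have h6 : residue R c = 0 := pow_eq_zero_iff (two_ne_zero) |>.mp h5
  have h7 := congrArg (residue R) hc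
  rw [map_pow, h6, map_one] at h7
  simp at h7

end CuspsDVR

end Fermat.Agent.JA
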