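/-
J-A project, package LINE (helper2), part 15: the `gauss` package consumed by GM:
for the Gauss valuation subring `𝒢` of `M = K(t)`, its restriction to `K(j)` is the Gauss
valuation subring w.r.t. `j`, and both are discrete valuation rings.
-/
import Mathlib
import Fermat.Agent.JA.LINE_helper2_Main
import Fermat.Agent.JA.LINE_helper2_GaussDVR

set_option autoImplicit false

open Polynomial IsLocalRing IntermediateField

namespace Fermat.Agent.JA

namespace LineData

variable {R : Type*} [CommRing R] [IsDomain R] [IsDiscreteValuationRing R] {π : R}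
  {K : Type*} [Field K] [Algebra R K] [IsFractionRing R K]
  {M : Type*} [Field M] [Algebra K M] [Algebra R M] [IsScalarTower R K M] {t : M}
  (D : LineData K) {A B : R[X]}

/-- **(LINE.3, GM form)** restriction of the Gauss valuation subring of `K(t)` to `K(j)` and the
two DVR statements. -/
theorem isGaussAt_comap_and_dvr (hA : A.map (algebraMap R K) = D.A)
    (hB : B.map (algebraMap R K) = D.B) (H : GaussLineHyp π A B) (hπ : Irreducible π)
    (htr : Transcendental K t) (hgen : K⟮t⟯ = ⊤) {𝒱 : ValuationSubring M}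
    (h𝒱 : IsGaussAt R π t 𝒱) :
    IsGaussAt R π (AdjoinSimple.gen K (D.j t)) (𝒱.comap (algebraMap K⟮D.j t⟯ M)) ∧
      IsDiscreteValuationRing 𝒱 ∧
      IsDiscreteValuationRing (𝒱.comap (algebraMap K⟮D.j t⟯ M)) := by
  have h1 := D.isGaussAt_comap hA hB H hπ htr hgen h𝒱
  have htrj : Transcendental K (D.j t) :=
    transcendental_of_gaussLineHyp H hπ htr hgen (D.j_eq_aeval_div hA hB) (D.isCoprime_map hA hB)
  exact ⟨h1, h𝒱.isDiscreteValuationRing hπ htr hgen,
    h1.isDiscreteValuationRing hπ (transcendental_gen htrj) (adjoin_simple_gen_eq_top _)⟩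

end LineData

section Concrete

variable {R : Type*} [CommRing R] [IsDomain R] [IsDiscreteValuationRing R] {π : R}
  {K : Type*} [Field K] [CharZero K] [Algebra R K] [IsFractionRing R K]
  {M : Type*} [Field M] [Algebra K M] [Algebra R M] [IsScalarTower R K M] {t : M}

/-- **(LINE.3, GM form, Legendre, residue characteristic `≠ 2`)**. -/
theorem legendre_isGaussAt_comap_and_dvr (hπ : Irreducible π) (htr : Transcendental K t)
    (hgen : K⟮t⟯ = ⊤) (h2 : (2 : ResidueField R) ≠ 0) {𝒱 : ValuationSubring M}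
    (h𝒱 : IsGaussAt R π t 𝒱) :
    IsGaussAt R π (AdjoinSimple.gen K ((legendreData K).j t))
        (𝒱.comap (algebraMap K⟮(legendreData K).j t⟯ M)) ∧
      IsDiscreteValuationRing 𝒱 ∧
      IsDiscreteValuationRing (𝒱.comap (algebraMap K⟮(legendreData K).j t⟯ M)) :=
  (legendreData K).isGaussAt_comap_and_dvr legendreA_map_eq legendreB_map_eq
    (gaussLineHyp_legendre hπ h2) hπ htr hgen h𝒱

/-- **(LINE.3, GM form, Hesse, residue characteristic `≠ 3`)**. -/
theorem hesse_isGaussAt_comap_and_dvr (hπ : Irreducible π) (htr : Transcendental K t)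
    (hgen : K⟮t⟯ = ⊤) (h3 : (3 : ResidueField R) ≠ 0) {𝒱 : ValuationSubring M}
    (h𝒱 : IsGaussAt R π t 𝒱) :
    IsGaussAt R π (AdjoinSimple.gen K ((hesseData K).j t))
        (𝒱.comap (algebraMap K⟮(hesseData K).j t⟯ M)) ∧
      IsDiscreteValuationRing 𝒱 ∧
      IsDiscreteValuationRing (𝒱.comap (algebraMap K⟮(hesseData K).j t⟯ M)) :=
  (hesseData K).isGaussAt_comap_and_dvr hesseA_map_eq hesseB_map_eq
    (gaussLineHyp_hesse hπ h3) hπ htr hgen h𝒱

end Concrete

end Fermat.Agent.JA
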