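/-
J-A package GM — helper1.
(Line) bridge from helper2's package LINE to the structure `LineHyp` consumed by `gm`.
-/
import Fermat.Agent.JA.LINE_helper2_Final
import Fermat.Agent.JA.GM_helper1_Main

set_option autoImplicit false
set_option linter.style.haveILetI false
set_option linter.unusedSectionVars false

open Polynomial IntermediateField AlgebraicCurve

namespace Fermat.Agent.JA

section ValAux

variable {M : Type*} [Field M]

theorem valuation_lt_one_of_inv_notMem (V : ValuationSubring M) {x : M}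
    (hx' : x⁻¹ ∉ V) : V.valuation x < 1 := by
  have hx0 : x ≠ 0 := by
    rintro rfl
    apply hx'
    rw [inv_zero]
    exact V.zero_mem
  have h1 : ¬ V.valuation x⁻¹ ≤ 1 := fun h => hx' ((V.valuation_le_one_iff _).mp h)
  rw [map_inv₀, not_le] at h1
  have hpos : 0 < V.valuation x := zero_lt_iff.mpr ((Valuation.ne_zero_iff _).mpr hx0)
  exact (one_lt_inv₀ hpos).mp h1

end ValAux

namespace LineData

variable {K M : Type*} [Field K] [Field M] [Algebra K M] (D : LineData K) {t : M}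
  (hgen : K⟮t⟯ = ⊤) (V : ValuationSubring M)
  (hK : ∀ a : K, algebraMap K M a ∈ V) (hne : V ≠ ⊤)

include hgen hK hne in
/-- `RamIdxEq` from the order of a uniformizer. -/
theorem ramIdxEq_of_ord_uniformizer (htr : Transcendental K t) {n : ℕ}
    (h : ∀ ϖ₀ : V.comap (algebraMap K⟮D.j t⟯ M), Irreducible ϖ₀ →
      (placeOfValuationSubring V hK hne hgen).ord ((ϖ₀ : K⟮D.j t⟯) : M) = n) :
    RamIdxEq (V.comap (algebraMap K⟮D.j t⟯ M)) V n := by
  haveI : IsDiscreteValuationRing V := isDiscreteValuationRing_of_adjoin_eq_top V hK hne hgen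
  haveI := D.isDiscreteValuationRing_comap hgen V hK hne htr
  obtain ⟨ϖ₀, hϖ₀⟩ := IsDiscreteValuationRing.exists_irreducible
    (V.comap (algebraMap K⟮D.j t⟯ M))
  obtain ⟨ϖ, hϖ⟩ := IsDiscreteValuationRing.exists_irreducible V
  have hϖ0 : ((ϖ₀ : K⟮D.j t⟯) : M) ≠ 0 := by
    intro h0
    apply hϖ₀.ne_zero
    apply Subtype.ext
    apply Subtype.ext
    exact h0
  obtain ⟨u, hu⟩ := (placeOfValuationSubring V hK hne hgen).exists_unit_mul_zpow hϖ0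
    (π := ϖ) hϖ
  rw [h ϖ₀ hϖ₀, zpow_natCast] at hu
  exact ⟨ϖ₀, ϖ, u, hϖ₀, hϖ, hu⟩

end LineData

section Bridge

variable {R : Type*} [CommRing R] [IsDomain R] [IsDiscreteValuationRing R] [CharZero R]
  {K₁ : Type*} [Field K₁] [Algebra R K₁] [IsFractionRing R K₁]
  {M : Type*} [Field M] [Algebra K₁ M] [Algebra R M] [IsScalarTower R K₁ M]

/-- **LINE → `LineHyp`**, for an abstract `LineData`; the recognition of the cusps (`noncusp`) and
the Gauss place (`gauss`, = LINE.3) are hypotheses. -/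
theorem lineHyp_of_lineData (D : LineData K₁) {t : M} (htr : Transcendental K₁ t)
    (hgen : K₁⟮t⟯ = ⊤) (π : R) (S : Finset R)
    (hcusp : ∀ 𝒱 : ValuationSubring M, 𝒱 ≠ ⊤ → (∀ a : K₁, algebraMap K₁ M a ∈ 𝒱) → t ∈ 𝒱 →
      (∀ a ∈ S, (t - algebraMap R M a)⁻¹ ∈ 𝒱) → D.j t ∈ 𝒱)
    (hgauss : ∀ 𝒢 : ValuationSubring M, IsGaussAt R π t 𝒢 →
      IsGaussAt R π (AdjoinSimple.gen K₁ (D.j t)) (𝒢.comap (algebraMap K₁⟮D.j t⟯ M)) ∧
      IsDiscreteValuationRing ↥𝒢 ∧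
      IsDiscreteValuationRing ↥(𝒢.comap (algebraMap K₁⟮D.j t⟯ M))) :
    LineHyp (K₁ := K₁) (K₀ := K₁⟮D.j t⟯) (K := M) π (AdjoinSimple.gen K₁ (D.j t)) t S := by
  haveI : CharZero K₁ := charZero_of_injective_algebraMap (IsFractionRing.injective R K₁)
  refine ⟨fun 𝒱 hne hK => ⟨isDiscreteValuationRing_of_adjoin_eq_top 𝒱 hK hne hgen,
    D.isDiscreteValuationRing_comap hgen 𝒱 hK hne htr⟩, fun 𝒱 hne hK ht hS => ?_,
    fun 𝒱 hne hK hj hj' => ?_, fun 𝒱 hne hK hj hj' => ?_, hgauss⟩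
  · rw [AdjoinSimple.algebraMap_gen]
    exact hcusp 𝒱 hne hK ht hS
  · rw [AdjoinSimple.algebraMap_gen] at hj'
    refine D.ramIdxEq_of_ord_uniformizer hgen 𝒱 hK hne htr (fun ϖ₀ hϖ₀ => ?_)
    have h := (D.ord_uniformizer hgen 𝒱 hK hne htr hϖ₀).1
      (valuation_lt_one_of_inv_notMem 𝒱 hj')
    exact_mod_cast h
  · rw [map_sub, AdjoinSimple.algebraMap_gen, map_ofNat] at hj'
    refine D.ramIdxEq_of_ord_uniformizer hgen 𝒱 hK hne htr (fun ϖ₀ hϖ₀ => ?_)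
    have h := (D.ord_uniformizer hgen 𝒱 hK hne htr hϖ₀).2.1
      (valuation_lt_one_of_inv_notMem 𝒱 hj')
    exact_mod_cast h

/-- the Legendre covering: places with `t`, `t⁻¹`, `(t - 1)⁻¹` integral are not cusps. -/
theorem legendre_noncusp [CharZero K₁] {t : M} (S : Finset R) (hS0 : (0 : R) ∈ S)
    (hS1 : (1 : R) ∈ S) (𝒱 : ValuationSubring M) (ht : t ∈ 𝒱)
    (hS : ∀ a ∈ S, (t - algebraMap R M a)⁻¹ ∈ 𝒱) :
    (legendreData K₁).j t ∈ 𝒱 := by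
  have h0 : t⁻¹ ∈ 𝒱 := by simpa using hS 0 hS0
  have h1 : (t - 1)⁻¹ ∈ 𝒱 := by simpa using hS 1 hS1
  rw [legendreData_j, div_eq_mul_inv, mul_inv, ← inv_pow, ← inv_pow]
  have h256 : (256 : M) ∈ 𝒱 := ofNat_mem 𝒱 256
  have h3 : t ^ 2 - t + 1 ∈ 𝒱 := add_mem (sub_mem (pow_mem ht 2) ht) (one_mem 𝒱)
  exact mul_mem (mul_mem h256 (pow_mem h3 3)) (mul_mem (pow_mem h0 2) (pow_mem h1 2))

/-- the Hesse covering: places with `t`, `(t - ω^i)⁻¹` integral are not cusps. -/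
theorem hesse_noncusp [CharZero K₁] {t : M} (ω : R) (hω : ω ^ 2 + ω + 1 = 0) (S : Finset R)
    (hS1 : (1 : R) ∈ S) (hSω : ω ∈ S) (hSω2 : ω ^ 2 ∈ S) (𝒱 : ValuationSubring M)
    (ht : t ∈ 𝒱) (hS : ∀ a ∈ S, (t - algebraMap R M a)⁻¹ ∈ 𝒱) :
    (hesseData K₁).j t ∈ 𝒱 := by
  have h1 : (t - 1)⁻¹ ∈ 𝒱 := by simpa using hS 1 hS1
  have h2 : (t - algebraMap R M ω)⁻¹ ∈ 𝒱 := hS ω hSω
  have h3 : (t - algebraMap R M ω ^ 2)⁻¹ ∈ 𝒱 := by simpa using hS (ω ^ 2) hSω2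
  set w : M := algebraMap R M ω with hw
  have hw2 : w ^ 2 + w + 1 = 0 := by
    have := congrArg (algebraMap R M) hω
    simpa using this
  have hfac : t ^ 3 - 1 = (t - 1) * (t - w) * (t - w ^ 2) := by
    linear_combination (t ^ 2 - w * t + w - 1) * hw2
  rw [hesseData_j, div_eq_mul_inv, ← inv_pow, hfac, mul_inv, mul_inv]
  have h27 : (27 : M) ∈ 𝒱 := ofNat_mem 𝒱 27
  have h8 : (8 : M) ∈ 𝒱 := ofNat_mem 𝒱 8
  exact mul_mem (mul_mem (mul_mem h27 (pow_mem ht 3))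
    (pow_mem (add_mem (pow_mem ht 3) h8) 3)) (pow_mem (mul_mem (mul_mem h1 h2) h3) 3)

/-- **`LineHyp` for the Legendre covering** (residue characteristic `≠ 2`); `S ∋ 0, 1`. -/
theorem lineHyp_legendre [CharZero K₁] {t : M} (htr : Transcendental K₁ t) (hgen : K₁⟮t⟯ = ⊤)
    (π : R) (hπ : Irreducible π) (h2 : (2 : IsLocalRing.ResidueField R) ≠ 0) (S : Finset R)
    (hS0 : (0 : R) ∈ S) (hS1 : (1 : R) ∈ S) :
    LineHyp (K₁ := K₁) (K₀ := K₁⟮(legendreData K₁).j t⟯) (K := M) π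
      (AdjoinSimple.gen K₁ ((legendreData K₁).j t)) t S :=
  lineHyp_of_lineData (legendreData K₁) htr hgen π S
    (fun 𝒱 _ _ ht hS => legendre_noncusp S hS0 hS1 𝒱 ht hS)
    (fun _ h𝒢 => legendre_isGaussAt_comap_and_dvr hπ htr hgen h2 h𝒢)

/-- **`LineHyp` for the Hesse covering** (residue characteristic `≠ 3`); `S ∋ 1, ω, ω²`. -/
theorem lineHyp_hesse [CharZero K₁] {t : M} (htr : Transcendental K₁ t) (hgen : K₁⟮t⟯ = ⊤)
    (π : R) (hπ : Irreducible π) (h3 : (3 : IsLocalRing.ResidueField R) ≠ 0) (ω : R)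
    (hω : ω ^ 2 + ω + 1 = 0) (S : Finset R) (hS1 : (1 : R) ∈ S) (hSω : ω ∈ S)
    (hSω2 : ω ^ 2 ∈ S) :
    LineHyp (K₁ := K₁) (K₀ := K₁⟮(hesseData K₁).j t⟯) (K := M) π
      (AdjoinSimple.gen K₁ ((hesseData K₁).j t)) t S :=
  lineHyp_of_lineData (hesseData K₁) htr hgen π S
    (fun 𝒱 _ _ ht hS => hesse_noncusp ω hω S hS1 hSω hSω2 𝒱 ht hS)
    (fun _ h𝒢 => hesse_isGaussAt_comap_and_dvr hπ htr hgen h3 h𝒢)

end Bridge

end Fermat.Agent.JA
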