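/-
J-A project, package LINE (helper2), HOST-shape transport, part 1.

helper1's structure `LineHyp π j t S` depends on the field `K₀ = K₁(j)` only through the map
`K₀ → K`.  We transport it (and the related notions `IsGaussAt`, `RamIdxEq`, integrality over the
restricted valuation subring) along an isomorphism `e : K₀ ≃ₐ[K₁] K₀'` compatible with the maps to
`K`, and construct such an isomorphism `K₁⟮x⟯ ≃ₐ[K₁] K₀` for an abstract `K₀ = K₁(j₀)` with
`j₀ ↦ x`.
-/
import Mathlib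
import Fermat.Agent.JA.GM_helper1_Line

set_option autoImplicit false
set_option linter.style.haveILetI false
set_option linter.unusedSectionVars false

open Polynomial IntermediateField

namespace Fermat.Agent.JA

section Tower

variable {R : Type*} [CommRing R] {K₁ : Type*} [Field K₁] [Algebra R K₁]
  {K₀ K : Type*} [Field K₀] [Field K]
  [Algebra K₁ K₀] [Algebra R K₀] [IsScalarTower R K₁ K₀]
  [Algebra K₁ K] [Algebra R K] [IsScalarTower R K₁ K]
  [Algebra K₀ K] [IsScalarTower K₁ K₀ K]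

include K₁ in
/-- the tower `R → K₀ → K` obtained from `R → K₁ → K₀`, `R → K₁ → K`, `K₁ → K₀ → K`. -/
theorem isScalarTower_of_towers : IsScalarTower R K₀ K := by
  refine IsScalarTower.of_algebraMap_eq (fun r => ?_)
  rw [IsScalarTower.algebraMap_apply R K₁ K, IsScalarTower.algebraMap_apply K₁ K₀ K,
    ← IsScalarTower.algebraMap_apply R K₁ K₀]

include K₁ in
/-- `IsGaussAt` for a restricted valuation subring only depends on the image of the coordinate. -/
theorem isGaussAt_comap_iff (π : R) (j : K₀) (𝒱 : ValuationSubring K) :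
    IsGaussAt R π j (𝒱.comap (algebraMap K₀ K)) ↔ IsGaussAt R π (algebraMap K₀ K j) 𝒱 := by
  haveI : IsScalarTower R K₀ K := isScalarTower_of_towers (K₁ := K₁)
  have hae : ∀ f : R[X], algebraMap K₀ K (aeval j f) = aeval (algebraMap K₀ K j) f := fun f => by
    rw [← aeval_algebraMap_apply]
  unfold IsGaussAt
  simp only [ValuationSubring.mem_comap, map_inv₀, hae,
    ← IsScalarTower.algebraMap_apply R K₀ K]

end Tower

section Transport

variable {R : Type*} [CommRing R] [IsDomain R] [IsDiscreteValuationRing R] [CharZero R]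
  {K₁ : Type*} [Field K₁] [Algebra R K₁] [IsFractionRing R K₁]
  {K₀ K₀' K : Type*} [Field K₀] [Field K₀'] [Field K]
  [Algebra K₁ K₀] [Algebra R K₀] [IsScalarTower R K₁ K₀]
  [Algebra K₁ K₀'] [Algebra R K₀'] [IsScalarTower R K₁ K₀']
  [Algebra K₁ K] [Algebra R K] [IsScalarTower R K₁ K]
  [Algebra K₀ K] [IsScalarTower K₁ K₀ K] [Algebra K₀' K] [IsScalarTower K₁ K₀' K]
  (e : K₀ ≃ₐ[K₁] K₀') (he : ∀ x, algebraMap K₀' K (e x) = algebraMap K₀ K x)

include he in
omit [IsDomain R] [IsDiscreteValuationRing R] [CharZero R] [IsFractionRing R K₁] [Algebra R K₁]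
  [Algebra R K₀] [IsScalarTower R K₁ K₀] [Algebra R K₀'] [IsScalarTower R K₁ K₀'] [Algebra R K]
  [IsScalarTower R K₁ K] in
theorem algebraMap_symm_apply_of_compat (y : K₀') :
    algebraMap K₀ K (e.symm y) = algebraMap K₀' K y := by
  rw [← he, AlgEquiv.apply_symm_apply]

include he in
omit [IsDomain R] [IsDiscreteValuationRing R] [CharZero R] [IsFractionRing R K₁] [Algebra R K₁]
  [Algebra R K₀] [IsScalarTower R K₁ K₀] [Algebra R K₀'] [IsScalarTower R K₁ K₀'] [Algebra R K]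
  [IsScalarTower R K₁ K] in
/-- membership in the two restrictions of `𝒱`. -/
theorem mem_comap_iff_of_compat (𝒱 : ValuationSubring K) (x : K₀) :
    e x ∈ 𝒱.comap (algebraMap K₀' K) ↔ x ∈ 𝒱.comap (algebraMap K₀ K) := by
  rw [ValuationSubring.mem_comap, ValuationSubring.mem_comap, he]

include he in
omit [IsDomain R] [IsDiscreteValuationRing R] [CharZero R] [IsFractionRing R K₁] [Algebra R K₁]
  [Algebra R K₀] [IsScalarTower R K₁ K₀] [Algebra R K₀'] [IsScalarTower R K₁ K₀'] [Algebra R K]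
  [IsScalarTower R K₁ K] in
/-- the two restrictions of `𝒱` correspond under `e`. -/
theorem comap_eq_comap_comap_of_compat (𝒱 : ValuationSubring K) :
    𝒱.comap (algebraMap K₀ K) =
      (𝒱.comap (algebraMap K₀' K)).comap ((e : K₀ ≃+* K₀') : K₀ →+* K₀') := by
  ext x
  rw [ValuationSubring.mem_comap]
  exact (mem_comap_iff_of_compat e he 𝒱 x).symm

/-- the ring isomorphism between the two restrictions of `𝒱`. -/
noncomputable def comapRingEquivOfCompat (𝒱 : ValuationSubring K) :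
    ↥(𝒱.comap (algebraMap K₀ K)) ≃+* ↥(𝒱.comap (algebraMap K₀' K)) where
  toFun x := ⟨e x, (mem_comap_iff_of_compat e he 𝒱 x).mpr x.2⟩
  invFun y := ⟨e.symm y, by
    rw [← mem_comap_iff_of_compat e he 𝒱, AlgEquiv.apply_symm_apply]
    exact y.2⟩
  left_inv x := Subtype.ext (e.symm_apply_apply x)
  right_inv y := Subtype.ext (e.apply_symm_apply y)
  map_mul' x y := Subtype.ext (map_mul e (x : K₀) (y : K₀))
  map_add' x y := Subtype.ext (map_add e (x : K₀) (y : K₀))

omit [IsDomain R] [IsDiscreteValuationRing R] [CharZero R] [IsFractionRing R K₁] [Algebra R K₁]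
  [Algebra R K₀] [IsScalarTower R K₁ K₀] [Algebra R K₀'] [IsScalarTower R K₁ K₀'] [Algebra R K]
  [IsScalarTower R K₁ K] in
@[simp] theorem coe_comapRingEquivOfCompat (𝒱 : ValuationSubring K)
    (x : ↥(𝒱.comap (algebraMap K₀ K))) :
    ((comapRingEquivOfCompat e he 𝒱 x : ↥(𝒱.comap (algebraMap K₀' K))) : K₀') = e (x : K₀) := rfl

include he in
omit [IsDomain R] [IsDiscreteValuationRing R] [CharZero R] [IsFractionRing R K₁] [Algebra R K₁]
  [Algebra R K₀] [IsScalarTower R K₁ K₀] [Algebra R K₀'] [IsScalarTower R K₁ K₀'] [Algebra R K]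
  [IsScalarTower R K₁ K] in
/-- transport of discreteness. -/
theorem isDiscreteValuationRing_comap_of_compat (𝒱 : ValuationSubring K)
    (h : IsDiscreteValuationRing ↥(𝒱.comap (algebraMap K₀ K))) :
    IsDiscreteValuationRing ↥(𝒱.comap (algebraMap K₀' K)) :=
  IsDiscreteValuationRing.RingEquivClass.isDiscreteValuationRing (comapRingEquivOfCompat e he 𝒱)

include he in
omit [IsDomain R] [IsDiscreteValuationRing R] [CharZero R] [IsFractionRing R K₁] [Algebra R K₁]
  [Algebra R K₀] [IsScalarTower R K₁ K₀] [Algebra R K₀'] [IsScalarTower R K₁ K₀'] [Algebra R K]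
  [IsScalarTower R K₁ K] in
/-- transport of `RamIdxEq`. -/
theorem ramIdxEq_comap_of_compat (𝒱 : ValuationSubring K) {n : ℕ}
    (h : RamIdxEq (𝒱.comap (algebraMap K₀ K)) 𝒱 n) :
    RamIdxEq (𝒱.comap (algebraMap K₀' K)) 𝒱 n := by
  obtain ⟨ϖ, s, u, hϖ, hs, h⟩ := h
  refine ⟨comapRingEquivOfCompat e he 𝒱 ϖ, s, u, ?_, hs, ?_⟩
  · exact (MulEquiv.irreducible_iff (comapRingEquivOfCompat e he 𝒱)).mpr hϖ
  · rw [coe_comapRingEquivOfCompat, he, h]

include he in
omit [IsDomain R] [IsDiscreteValuationRing R] [CharZero R] [IsFractionRing R K₁] in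
/-- transport of `IsGaussAt` for the restrictions. -/
theorem isGaussAt_comap_of_compat (π : R) (j : K₀) (𝒱 : ValuationSubring K)
    (h : IsGaussAt R π j (𝒱.comap (algebraMap K₀ K))) :
    IsGaussAt R π (e j) (𝒱.comap (algebraMap K₀' K)) := by
  rw [isGaussAt_comap_iff (K₁ := K₁)] at h ⊢
  rwa [he]

include he in
omit [IsDomain R] [IsDiscreteValuationRing R] [CharZero R] [IsFractionRing R K₁] [Algebra R K₁]
  [Algebra R K₀] [IsScalarTower R K₁ K₀] [Algebra R K₀'] [IsScalarTower R K₁ K₀'] [Algebra R K]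
  [IsScalarTower R K₁ K] in
/-- transport of integrality over the restriction. -/
theorem isIntegral_comap_of_compat (𝒱 : ValuationSubring K) {x : K}
    (h : IsIntegral ↥(𝒱.comap (algebraMap K₀ K)) x) :
    IsIntegral ↥(𝒱.comap (algebraMap K₀' K)) x := by
  have := IsIntegral.map_of_comp_eq
    ((comapRingEquivOfCompat e he 𝒱 : ↥(𝒱.comap (algebraMap K₀ K)) ≃+*
      ↥(𝒱.comap (algebraMap K₀' K))) : ↥(𝒱.comap (algebraMap K₀ K)) →+*
      ↥(𝒱.comap (algebraMap K₀' K))) (RingHom.id K) ?_ h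
  · simpa using this
  · ext y
    exact he (y : K₀)

include he in
/-- **transport of `LineHyp`** along an isomorphism of the `j`-line fields compatible with the maps
to `K`. -/
theorem LineHyp.of_algEquiv {π : R} {j : K₀} {t : K} {S : Finset R}
    (h : LineHyp (K₁ := K₁) π j t S) : LineHyp (K₁ := K₁) π (e j) t S := by
  refine ⟨fun 𝒱 hne hK => ?_, fun 𝒱 hne hK ht hS => ?_, fun 𝒱 hne hK hj hj' => ?_,
    fun 𝒱 hne hK hj hj' => ?_, fun 𝒢 h𝒢 => ?_⟩
  · obtain ⟨h1, h2⟩ := h.dvr 𝒱 hne hK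
    exact ⟨h1, isDiscreteValuationRing_comap_of_compat e he 𝒱 h2⟩
  · rw [he]
    exact h.noncusp 𝒱 hne hK ht hS
  · rw [he] at hj hj'
    exact ramIdxEq_comap_of_compat e he 𝒱 (h.e_zero 𝒱 hne hK hj hj')
  · have h1728 : algebraMap K₀' K (e j - 1728) = algebraMap K₀ K (j - 1728) := by
      have h1 : e j - 1728 = e (j - 1728) := by rw [map_sub, map_ofNat]
      rw [h1, he]
    rw [he] at hj
    rw [h1728] at hj'
    exact ramIdxEq_comap_of_compat e he 𝒱 (h.e_1728 𝒱 hne hK hj hj')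
  · obtain ⟨h1, h2, h3⟩ := h.gauss 𝒢 h𝒢
    exact ⟨isGaussAt_comap_of_compat (K₁ := K₁) e he π j 𝒢 h1, h2,
      isDiscreteValuationRing_comap_of_compat e he 𝒢 h3⟩

end Transport

section Iso

variable {K₁ : Type*} [Field K₁] {K₀ K : Type*} [Field K₀] [Field K]
  [Algebra K₁ K₀] [Algebra K₁ K] [Algebra K₀ K] [IsScalarTower K₁ K₀ K]

/-- the range of `K₀ = K₁(j) → K` is `K₁(image of j)`. -/
theorem fieldRange_toAlgHom_eq_adjoin {j : K₀} (hK₀ : K₁⟮j⟯ = ⊤) :
    (IsScalarTower.toAlgHom K₁ K₀ K).fieldRange = K₁⟮algebraMap K₀ K j⟯ := by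
  rw [AlgHom.fieldRange_eq_map, ← hK₀, IntermediateField.adjoin_map, Set.image_singleton]
  rfl

/-- an abstract simple extension `K₀ = K₁(j)` mapping to `K` is isomorphic to the subfield
`K₁⟮x⟯` of `K`, `x` the image of `j`. -/
noncomputable def adjoinEquivOfGen {j : K₀} (hK₀ : K₁⟮j⟯ = ⊤) {x : K}
    (hx : algebraMap K₀ K j = x) : ↥K₁⟮x⟯ ≃ₐ[K₁] K₀ :=
  ((AlgEquiv.ofInjectiveField (IsScalarTower.toAlgHom K₁ K₀ K)).trans
    (IntermediateField.equivOfEq
      ((fieldRange_toAlgHom_eq_adjoin (K := K) hK₀).trans (by rw [hx])))).symm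

theorem algebraMap_adjoinEquivOfGen {j : K₀} (hK₀ : K₁⟮j⟯ = ⊤) {x : K}
    (hx : algebraMap K₀ K j = x) (y : ↥K₁⟮x⟯) :
    algebraMap K₀ K (adjoinEquivOfGen hK₀ hx y) = algebraMap ↥K₁⟮x⟯ K y := by
  obtain ⟨z, rfl⟩ := (adjoinEquivOfGen hK₀ hx).symm.surjective y
  rw [AlgEquiv.apply_symm_apply]
  rfl

theorem adjoinEquivOfGen_gen {j : K₀} (hK₀ : K₁⟮j⟯ = ⊤) {x : K}
    (hx : algebraMap K₀ K j = x) :
    adjoinEquivOfGen hK₀ hx (AdjoinSimple.gen K₁ x) = j := by
  apply (algebraMap K₀ K).injective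
  rw [algebraMap_adjoinEquivOfGen, AdjoinSimple.algebraMap_gen, hx]

end Iso

end Fermat.Agent.JA
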