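/-
J-A project, package LINE (helper2), HOST-shape transport, part 2.

LINE for an ABSTRACT `j`-line field `K₀ = K₁(j)` mapping to `K = K₁(t)` with `j ↦ J(t)` (the shape
of the HOST tower, where `K₀ = ↥K₁⟮j_w⟯` and `K = ↥K₁⟮t⟯` are both subfields of `K₁⸨x⸩`):

* `lineHyp_legendre_of_gen`, `lineHyp_hesse_of_gen` (`hj : algebraMap K₀ K j = J(t)`),
  `lineHyp_legendre_of_mul_eq`, `lineHyp_hesse_of_mul_eq` (`hj : j · B(t) = A(t)`):
  helper1's `LineHyp π j t S`;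
* `LineData.isGaussAt_comap_of_gen`, `LineData.isIntegral_of_mem_of_gen`,
  `LineData.eq_of_comap_eq_of_gen` (+ `legendre_…`, `hesse_…` instances): the restriction of the
  Gauss subring `𝒢t` of `K` to `K₀` is the Gauss subring, every element of `𝒢t` is integral over
  it, and `𝒢t` is the only valuation subring of `K` above it.
-/
import Mathlib
import Fermat.Agent.JA.LINEHYP_helper2_Transport

set_option autoImplicit false
set_option linter.style.haveILetI false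
set_option linter.unusedSectionVars false

open Polynomial IntermediateField IsLocalRing

namespace Fermat.Agent.JA

section MulEq

variable {K₁ : Type*} [Field K₁] {K : Type*} [Field K] [Algebra K₁ K] (D : LineData K₁) {t : K}

/-- `x · B(t) = A(t)` with `t` transcendental means `x = J(t)`. -/
theorem LineData.eq_j_of_mul_eq (htr : Transcendental K₁ t) {x : K}
    (hx : x * aeval t D.B = aeval t D.A) : x = D.j t := by
  have hB : aeval t D.B ≠ 0 := fun h => D.B_ne_zero (by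
    by_contra hne
    exact htr ⟨D.B, hne, h⟩)
  rw [LineData.j, eq_div_iff hB, hx]

/-- the relation `x · B(t) = A(t)` can be checked in an overfield. -/
theorem LineData.mul_eq_of_map_mul_eq {H : Type*} [Field H] [Algebra K₁ H] (φ : K →ₐ[K₁] H)
    {x : K} (hx : φ x * aeval (φ t) D.B = aeval (φ t) D.A) :
    x * aeval t D.B = aeval t D.A := by
  have hinj : Function.Injective φ := φ.toRingHom.injective
  apply hinj
  rw [map_mul, ← aeval_algHom_apply, ← aeval_algHom_apply, hx]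

end MulEq

section Abstract

variable {R : Type*} [CommRing R] [IsDomain R] [IsDiscreteValuationRing R] [CharZero R]
  {K₁ : Type*} [Field K₁] [CharZero K₁] [Algebra R K₁] [IsFractionRing R K₁]
  {K₀ K : Type*} [Field K₀] [Field K]
  [Algebra K₁ K₀] [Algebra R K₀] [IsScalarTower R K₁ K₀]
  [Algebra K₁ K] [Algebra R K] [IsScalarTower R K₁ K]
  [Algebra K₀ K] [IsScalarTower K₁ K₀ K]
  {j : K₀} (hK₀ : K₁⟮j⟯ = ⊤) {t : K} (htr : Transcendental K₁ t) (hgen : K₁⟮t⟯ = ⊤)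

include hK₀ in
/-- transport of `LineHyp` from the subfield `K₁⟮x⟯ ⊆ K` to an abstract `K₀ = K₁(j)`, `j ↦ x`. -/
theorem lineHyp_of_gen {x : K} (hj : algebraMap K₀ K j = x) {π : R} {S : Finset R}
    (h : LineHyp (K₁ := K₁) (K₀ := K₁⟮x⟯) (K := K) π (AdjoinSimple.gen K₁ x) t S) :
    LineHyp (K₁ := K₁) π j t S := by
  have h1 := LineHyp.of_algEquiv (K₁ := K₁) (adjoinEquivOfGen hK₀ hj)
    (algebraMap_adjoinEquivOfGen hK₀ hj) h
  rwa [adjoinEquivOfGen_gen] at h1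

include hK₀ htr hgen in
/-- **`LineHyp` for the Legendre covering, abstract `K₀ = K₁(j)`** (residue characteristic `≠ 2`;
`S ∋ 0, 1`). -/
theorem lineHyp_legendre_of_gen (π : R) (hπ : Irreducible π) (h2 : (2 : ResidueField R) ≠ 0)
    (hj : algebraMap K₀ K j = (legendreData K₁).j t) (S : Finset R) (hS0 : (0 : R) ∈ S)
    (hS1 : (1 : R) ∈ S) : LineHyp (K₁ := K₁) π j t S := by
  exact lineHyp_of_gen hK₀ hj (lineHyp_legendre htr hgen π hπ h2 S hS0 hS1)

include hK₀ htr hgen in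
/-- the same with the hypothesis in the form `j · B(t) = A(t)`, `A = 256 (X² − X + 1)³`,
`B = X² (X − 1)²`. -/
theorem lineHyp_legendre_of_mul_eq (π : R) (hπ : Irreducible π) (h2 : (2 : ResidueField R) ≠ 0)
    (hj : algebraMap K₀ K j * aeval t (X ^ 2 * (X - 1) ^ 2 : K₁[X]) =
      aeval t (256 * (X ^ 2 - X + 1) ^ 3 : K₁[X])) (S : Finset R) (hS0 : (0 : R) ∈ S)
    (hS1 : (1 : R) ∈ S) : LineHyp (K₁ := K₁) π j t S := by
  exact lineHyp_legendre_of_gen hK₀ htr hgen π hπ h2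
    ((legendreData K₁).eq_j_of_mul_eq htr hj) S hS0 hS1

include hK₀ htr hgen in
/-- **`LineHyp` for the Hesse covering, abstract `K₀ = K₁(j)`** (residue characteristic `≠ 3`;
`S ∋ 1, ω, ω²`). -/
theorem lineHyp_hesse_of_gen (π : R) (hπ : Irreducible π) (h3 : (3 : ResidueField R) ≠ 0)
    (hj : algebraMap K₀ K j = (hesseData K₁).j t) (ω : R) (hω : ω ^ 2 + ω + 1 = 0)
    (S : Finset R) (hS1 : (1 : R) ∈ S) (hSω : ω ∈ S) (hSω2 : ω ^ 2 ∈ S) :
    LineHyp (K₁ := K₁) π j t S := by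
  exact lineHyp_of_gen hK₀ hj (lineHyp_hesse htr hgen π hπ h3 ω hω S hS1 hSω hSω2)

include hK₀ htr hgen in
/-- the same with the hypothesis in the form `j · B(t) = A(t)`, `A = 27 X³ (X³ + 8)³`,
`B = (X³ − 1)³`. -/
theorem lineHyp_hesse_of_mul_eq (π : R) (hπ : Irreducible π) (h3 : (3 : ResidueField R) ≠ 0)
    (hj : algebraMap K₀ K j * aeval t ((X ^ 3 - 1) ^ 3 : K₁[X]) =
      aeval t (27 * X ^ 3 * (X ^ 3 + 8) ^ 3 : K₁[X])) (ω : R) (hω : ω ^ 2 + ω + 1 = 0)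
    (S : Finset R) (hS1 : (1 : R) ∈ S) (hSω : ω ∈ S) (hSω2 : ω ^ 2 ∈ S) :
    LineHyp (K₁ := K₁) π j t S := by
  exact lineHyp_hesse_of_gen hK₀ htr hgen π hπ h3
    ((hesseData K₁).eq_j_of_mul_eq htr hj) ω hω S hS1 hSω hSω2

end Abstract

namespace LineData

variable {R : Type*} [CommRing R] [IsDomain R] [IsDiscreteValuationRing R] {π : R}
  {K₁ : Type*} [Field K₁] [Algebra R K₁] [IsFractionRing R K₁]
  {K₀ K : Type*} [Field K₀] [Field K]
  [Algebra K₁ K₀] [Algebra R K₀] [IsScalarTower R K₁ K₀]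
  [Algebra K₁ K] [Algebra R K] [IsScalarTower R K₁ K]
  [Algebra K₀ K] [IsScalarTower K₁ K₀ K]
  (D : LineData K₁) {A B : R[X]}
  (hA : A.map (algebraMap R K₁) = D.A) (hB : B.map (algebraMap R K₁) = D.B)
  (H : GaussLineHyp π A B) (hπ : Irreducible π)
  {j : K₀} (hK₀ : K₁⟮j⟯ = ⊤) {t : K} (htr : Transcendental K₁ t) (hgen : K₁⟮t⟯ = ⊤)
  (hj : algebraMap K₀ K j = D.j t) {𝒢t : ValuationSubring K}

include hA hB H hπ hK₀ htr hgen hj in
/-- **(LINE.3, abstract `K₀`)** the Gauss subring of `K = K₁(t)` restricts to the Gauss subring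
of `K₀ = K₁(j)`. -/
theorem isGaussAt_comap_of_gen (h𝒢t : IsGaussAt R π t 𝒢t) :
    IsGaussAt R π j (𝒢t.comap (algebraMap K₀ K)) := by
  have h1 := isGaussAt_comap_of_compat (K₁ := K₁) (adjoinEquivOfGen hK₀ hj)
    (algebraMap_adjoinEquivOfGen hK₀ hj) π (AdjoinSimple.gen K₁ (D.j t)) 𝒢t
    (D.isGaussAt_comap hA hB H hπ htr hgen h𝒢t)
  rwa [adjoinEquivOfGen_gen] at h1

include hA hB H hπ hK₀ htr hgen hj in
/-- **(LINE.3, abstract `K₀`)** every element of the Gauss subring of `K₁(t)` is integral over its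
restriction to `K₀ = K₁(j)`. -/
theorem isIntegral_of_mem_of_gen (h𝒢t : IsGaussAt R π t 𝒢t) {x : K} (hx : x ∈ 𝒢t) :
    IsIntegral ↥(𝒢t.comap (algebraMap K₀ K)) x := by
  refine isIntegral_comap_of_compat (adjoinEquivOfGen hK₀ hj)
    (algebraMap_adjoinEquivOfGen hK₀ hj) 𝒢t ?_
  exact (D.mem_integralClosure_iff_of_isGaussAt hA hB H hπ htr hgen
    (D.isGaussAt_comap hA hB H hπ htr hgen h𝒢t) h𝒢t x).mpr hx

include hA hB H hπ hK₀ htr hgen hj in
/-- **(LINE.3, abstract `K₀`)** the Gauss subring of `K₁(t)` is the only valuation subring of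
`K₁(t)` with the same restriction to `K₀ = K₁(j)`. -/
theorem eq_of_comap_eq_of_gen (h𝒢t : IsGaussAt R π t 𝒢t) {𝒲 : ValuationSubring K}
    (h : 𝒲.comap (algebraMap K₀ K) = 𝒢t.comap (algebraMap K₀ K)) : 𝒲 = 𝒢t := by
  have h1 : 𝒲.comap (algebraMap K₁⟮D.j t⟯ K) = 𝒢t.comap (algebraMap K₁⟮D.j t⟯ K) := by
    rw [comap_eq_comap_comap_of_compat (adjoinEquivOfGen hK₀ hj)
      (algebraMap_adjoinEquivOfGen hK₀ hj) 𝒲,
      comap_eq_comap_comap_of_compat (adjoinEquivOfGen hK₀ hj)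
      (algebraMap_adjoinEquivOfGen hK₀ hj) 𝒢t, h]
  have h2 : IsGaussAt R π t 𝒲 := D.isGaussAt_of_comap_eq hA hB H hπ htr hgen
    (D.isGaussAt_comap hA hB H hπ htr hgen h𝒢t) h1
  exact h2.eq_of_isGaussAt h𝒢t hπ htr hgen

end LineData

section Concrete

variable {R : Type*} [CommRing R] [IsDomain R] [IsDiscreteValuationRing R] {π : R}
  {K₁ : Type*} [Field K₁] [CharZero K₁] [Algebra R K₁] [IsFractionRing R K₁]
  {K₀ K : Type*} [Field K₀] [Field K]
  [Algebra K₁ K₀] [Algebra R K₀] [IsScalarTower R K₁ K₀]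
  [Algebra K₁ K] [Algebra R K] [IsScalarTower R K₁ K]
  [Algebra K₀ K] [IsScalarTower K₁ K₀ K]
  (hπ : Irreducible π)
  {j : K₀} (hK₀ : K₁⟮j⟯ = ⊤) {t : K} (htr : Transcendental K₁ t) (hgen : K₁⟮t⟯ = ⊤)
  {𝒢t : ValuationSubring K}

include hπ hK₀ htr hgen in
theorem legendre_isGaussAt_comap_of_gen (h2 : (2 : ResidueField R) ≠ 0)
    (hj : algebraMap K₀ K j = (legendreData K₁).j t) (h𝒢t : IsGaussAt R π t 𝒢t) :
    IsGaussAt R π j (𝒢t.comap (algebraMap K₀ K)) :=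
  (legendreData K₁).isGaussAt_comap_of_gen legendreA_map_eq legendreB_map_eq
    (gaussLineHyp_legendre hπ h2) hπ hK₀ htr hgen hj h𝒢t

include hπ hK₀ htr hgen in
/-- **KEY-END `hint`, Legendre**: every element of the Gauss subring `𝒢t` of `K₁(t)` is integral
over `𝒢j = 𝒢t ∩ K₁(j)`. -/
theorem legendre_isIntegral_of_mem_of_gen (h2 : (2 : ResidueField R) ≠ 0)
    (hj : algebraMap K₀ K j = (legendreData K₁).j t) (h𝒢t : IsGaussAt R π t 𝒢t) :
    ∀ x ∈ 𝒢t, IsIntegral ↥(𝒢t.comap (algebraMap K₀ K)) x := fun _ hx =>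
  (legendreData K₁).isIntegral_of_mem_of_gen legendreA_map_eq legendreB_map_eq
    (gaussLineHyp_legendre hπ h2) hπ hK₀ htr hgen hj h𝒢t hx

include hπ hK₀ htr hgen in
theorem legendre_eq_of_comap_eq_of_gen (h2 : (2 : ResidueField R) ≠ 0)
    (hj : algebraMap K₀ K j = (legendreData K₁).j t) (h𝒢t : IsGaussAt R π t 𝒢t)
    {𝒲 : ValuationSubring K}
    (h : 𝒲.comap (algebraMap K₀ K) = 𝒢t.comap (algebraMap K₀ K)) : 𝒲 = 𝒢t :=
  (legendreData K₁).eq_of_comap_eq_of_gen legendreA_map_eq legendreB_map_eq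
    (gaussLineHyp_legendre hπ h2) hπ hK₀ htr hgen hj h𝒢t h

include hπ hK₀ htr hgen in
theorem hesse_isGaussAt_comap_of_gen (h3 : (3 : ResidueField R) ≠ 0)
    (hj : algebraMap K₀ K j = (hesseData K₁).j t) (h𝒢t : IsGaussAt R π t 𝒢t) :
    IsGaussAt R π j (𝒢t.comap (algebraMap K₀ K)) :=
  (hesseData K₁).isGaussAt_comap_of_gen hesseA_map_eq hesseB_map_eq
    (gaussLineHyp_hesse hπ h3) hπ hK₀ htr hgen hj h𝒢t

include hπ hK₀ htr hgen in
/-- **KEY-END `hint`, Hesse**: every element of the Gauss subring `𝒢t` of `K₁(t)` is integral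
over `𝒢j = 𝒢t ∩ K₁(j)`. -/
theorem hesse_isIntegral_of_mem_of_gen (h3 : (3 : ResidueField R) ≠ 0)
    (hj : algebraMap K₀ K j = (hesseData K₁).j t) (h𝒢t : IsGaussAt R π t 𝒢t) :
    ∀ x ∈ 𝒢t, IsIntegral ↥(𝒢t.comap (algebraMap K₀ K)) x := fun _ hx =>
  (hesseData K₁).isIntegral_of_mem_of_gen hesseA_map_eq hesseB_map_eq
    (gaussLineHyp_hesse hπ h3) hπ hK₀ htr hgen hj h𝒢t hx

include hπ hK₀ htr hgen in
theorem hesse_eq_of_comap_eq_of_gen (h3 : (3 : ResidueField R) ≠ 0)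
    (hj : algebraMap K₀ K j = (hesseData K₁).j t) (h𝒢t : IsGaussAt R π t 𝒢t)
    {𝒲 : ValuationSubring K}
    (h : 𝒲.comap (algebraMap K₀ K) = 𝒢t.comap (algebraMap K₀ K)) : 𝒲 = 𝒢t :=
  (hesseData K₁).eq_of_comap_eq_of_gen hesseA_map_eq hesseB_map_eq
    (gaussLineHyp_hesse hπ h3) hπ hK₀ htr hgen hj h𝒢t h

end Concrete

end Fermat.Agent.JA
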