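/-
J-A project, package LINE (helper2), HOST-shape transport, part 3: the statements of
`LINEHYP_helper2_Main` instantiated in helper3's tower of subfields of a host `H / K₁`
(`K₀ := ↥K₁⟮j⟯`, `K := ↥K₁⟮t⟯`, inclusion algebra from `[Fact (K₁⟮j⟯ ≤ K₁⟮t⟯)]`), with the
relation between `j` and `t` stated inside `H`: `j · B(t) = A(t)`.
-/
import Mathlib
import Fermat.Agent.JA.LINEHYP_helper2_Main
import Fermat.Agent.JA.HOST_helper3_Kit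

set_option autoImplicit false
set_option linter.style.haveILetI false
set_option linter.unusedSectionVars false

open Polynomial IntermediateField IsLocalRing

namespace Fermat.Agent.JA.Host

open scoped Fermat.Agent.JA.Host

variable {R : Type*} [CommRing R] [IsDomain R] [IsDiscreteValuationRing R] [CharZero R]
  {K₁ : Type*} [Field K₁] [CharZero K₁] [Algebra R K₁] [IsFractionRing R K₁]
  {H : Type*} [Field H] [Algebra K₁ H] [Algebra R H] [IsScalarTower R K₁ H]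
  (j t : H) [Fact (K₁⟮j⟯ ≤ K₁⟮t⟯)]

omit [IsDomain R] [IsDiscreteValuationRing R] [CharZero R] [CharZero K₁] [IsFractionRing R K₁]
  [Algebra R K₁] [Algebra R H] [IsScalarTower R K₁ H] in
/-- the relation `j · B(t) = A(t)` in the host, read in `↥K₁⟮t⟯`. -/
theorem gen_mul_aeval_gen_eq (A B : K₁[X]) (hj : j * aeval t B = aeval t A) :
    algebraMap ↥K₁⟮j⟯ ↥K₁⟮t⟯ (AdjoinSimple.gen K₁ j) * aeval (AdjoinSimple.gen K₁ t) B =
      aeval (AdjoinSimple.gen K₁ t) A := by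
  apply Subtype.ext
  have h1 : ∀ p : K₁[X], ((aeval (AdjoinSimple.gen K₁ t) p : ↥K₁⟮t⟯) : H) = aeval t p := fun p => by
    rw [← IntermediateField.aeval_coe, AdjoinSimple.coe_gen]
  rw [MulMemClass.coe_mul, h1, h1, ← hj]
  rfl

/-- **`LineHyp` in the host tower, Legendre** (`A = 256 (X² − X + 1)³`, `B = X² (X − 1)²`). -/
theorem lineHyp_legendre_host (htr : Transcendental K₁ t)
    (hj : j * aeval t (X ^ 2 * (X - 1) ^ 2 : K₁[X]) = aeval t (256 * (X ^ 2 - X + 1) ^ 3 : K₁[X]))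
    (π : R) (hπ : Irreducible π) (h2 : (2 : ResidueField R) ≠ 0) (S : Finset R)
    (hS0 : (0 : R) ∈ S) (hS1 : (1 : R) ∈ S) :
    LineHyp (K₁ := K₁) (K₀ := ↥K₁⟮j⟯) (K := ↥K₁⟮t⟯) π (AdjoinSimple.gen K₁ j)
      (AdjoinSimple.gen K₁ t) S :=
  lineHyp_legendre_of_mul_eq (adjoin_gen_eq_top j) (transcendental_gen htr) (adjoin_gen_eq_top t)
    π hπ h2 (gen_mul_aeval_gen_eq j t _ _ hj) S hS0 hS1

/-- **`LineHyp` in the host tower, Hesse** (`A = 27 X³ (X³ + 8)³`, `B = (X³ − 1)³`). -/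
theorem lineHyp_hesse_host (htr : Transcendental K₁ t)
    (hj : j * aeval t ((X ^ 3 - 1) ^ 3 : K₁[X]) = aeval t (27 * X ^ 3 * (X ^ 3 + 8) ^ 3 : K₁[X]))
    (π : R) (hπ : Irreducible π) (h3 : (3 : ResidueField R) ≠ 0) (ω : R)
    (hω : ω ^ 2 + ω + 1 = 0) (S : Finset R) (hS1 : (1 : R) ∈ S) (hSω : ω ∈ S)
    (hSω2 : ω ^ 2 ∈ S) :
    LineHyp (K₁ := K₁) (K₀ := ↥K₁⟮j⟯) (K := ↥K₁⟮t⟯) π (AdjoinSimple.gen K₁ j)
      (AdjoinSimple.gen K₁ t) S :=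
  lineHyp_hesse_of_mul_eq (adjoin_gen_eq_top j) (transcendental_gen htr) (adjoin_gen_eq_top t)
    π hπ h3 (gen_mul_aeval_gen_eq j t _ _ hj) ω hω S hS1 hSω hSω2

omit [CharZero R] in
/-- **KEY-END data in the host tower, Legendre**: for the Gauss subring `𝒢t` of `↥K₁⟮t⟯` and
`𝒢j := 𝒢t ∩ K₁(j)`: `𝒢j` is the Gauss subring of `↥K₁⟮j⟯`, every element of `𝒢t` is integral over
`𝒢j`, and `𝒢t` is the only valuation subring above `𝒢j`. -/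
theorem legendre_keyEnd_host (htr : Transcendental K₁ t)
    (hj : j * aeval t (X ^ 2 * (X - 1) ^ 2 : K₁[X]) = aeval t (256 * (X ^ 2 - X + 1) ^ 3 : K₁[X]))
    {π : R} (hπ : Irreducible π) (h2 : (2 : ResidueField R) ≠ 0)
    {𝒢t : ValuationSubring ↥K₁⟮t⟯} (h𝒢t : IsGaussAt R π (AdjoinSimple.gen K₁ t) 𝒢t) :
    IsGaussAt R π (AdjoinSimple.gen K₁ j) (𝒢t.comap (algebraMap ↥K₁⟮j⟯ ↥K₁⟮t⟯)) ∧
    (∀ x ∈ 𝒢t, IsIntegral ↥(𝒢t.comap (algebraMap ↥K₁⟮j⟯ ↥K₁⟮t⟯)) x) ∧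
    ∀ 𝒲 : ValuationSubring ↥K₁⟮t⟯, 𝒲.comap (algebraMap ↥K₁⟮j⟯ ↥K₁⟮t⟯) =
      𝒢t.comap (algebraMap ↥K₁⟮j⟯ ↥K₁⟮t⟯) → 𝒲 = 𝒢t := by
  have hj' : algebraMap ↥K₁⟮j⟯ ↥K₁⟮t⟯ (AdjoinSimple.gen K₁ j) =
      (legendreData K₁).j (AdjoinSimple.gen K₁ t) :=
    (legendreData K₁).eq_j_of_mul_eq (transcendental_gen htr) (gen_mul_aeval_gen_eq j t _ _ hj)
  exact ⟨legendre_isGaussAt_comap_of_gen hπ (adjoin_gen_eq_top j) (transcendental_gen htr)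
      (adjoin_gen_eq_top t) h2 hj' h𝒢t,
    legendre_isIntegral_of_mem_of_gen hπ (adjoin_gen_eq_top j) (transcendental_gen htr)
      (adjoin_gen_eq_top t) h2 hj' h𝒢t,
    fun 𝒲 h => legendre_eq_of_comap_eq_of_gen hπ (adjoin_gen_eq_top j) (transcendental_gen htr)
      (adjoin_gen_eq_top t) h2 hj' h𝒢t h⟩

omit [CharZero R] in
/-- **KEY-END data in the host tower, Hesse.** -/
theorem hesse_keyEnd_host (htr : Transcendental K₁ t)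
    (hj : j * aeval t ((X ^ 3 - 1) ^ 3 : K₁[X]) = aeval t (27 * X ^ 3 * (X ^ 3 + 8) ^ 3 : K₁[X]))
    {π : R} (hπ : Irreducible π) (h3 : (3 : ResidueField R) ≠ 0)
    {𝒢t : ValuationSubring ↥K₁⟮t⟯} (h𝒢t : IsGaussAt R π (AdjoinSimple.gen K₁ t) 𝒢t) :
    IsGaussAt R π (AdjoinSimple.gen K₁ j) (𝒢t.comap (algebraMap ↥K₁⟮j⟯ ↥K₁⟮t⟯)) ∧
    (∀ x ∈ 𝒢t, IsIntegral ↥(𝒢t.comap (algebraMap ↥K₁⟮j⟯ ↥K₁⟮t⟯)) x) ∧
    ∀ 𝒲 : ValuationSubring ↥K₁⟮t⟯, 𝒲.comap (algebraMap ↥K₁⟮j⟯ ↥K₁⟮t⟯) =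
      𝒢t.comap (algebraMap ↥K₁⟮j⟯ ↥K₁⟮t⟯) → 𝒲 = 𝒢t := by
  have hj' : algebraMap ↥K₁⟮j⟯ ↥K₁⟮t⟯ (AdjoinSimple.gen K₁ j) =
      (hesseData K₁).j (AdjoinSimple.gen K₁ t) :=
    (hesseData K₁).eq_j_of_mul_eq (transcendental_gen htr) (gen_mul_aeval_gen_eq j t _ _ hj)
  exact ⟨hesse_isGaussAt_comap_of_gen hπ (adjoin_gen_eq_top j) (transcendental_gen htr)
      (adjoin_gen_eq_top t) h3 hj' h𝒢t,
    hesse_isIntegral_of_mem_of_gen hπ (adjoin_gen_eq_top j) (transcendental_gen htr)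
      (adjoin_gen_eq_top t) h3 hj' h𝒢t,
    fun 𝒲 h => hesse_eq_of_comap_eq_of_gen hπ (adjoin_gen_eq_top j) (transcendental_gen htr)
      (adjoin_gen_eq_top t) h3 hj' h𝒢t h⟩

end Fermat.Agent.JA.Host
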