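/-
J-A — helper8 — (KEY) at a base, final assembly: `KeyBaseStatement (baseRing A K₁) N m` for every
base `K₁` from the geometric inputs at that base.
-/
import Mathlib
import Fermat.Agent.JA.KEYBASE_helper8_Kum
import Fermat.Agent.JA.G1_helper5_Bases
import Fermat.Agent.JA.G1_helper5_UnrHost
import Fermat.Agent.JA.LINEHYP_helper2_Host
import Fermat.Agent.JA.GM_helper1_JLineHost
import Fermat.Agent.JA.BASE_helper1_Main
import Fermat.Agent.JA.HOST_helper3_Line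
import Fermat.Agent.JA.KEYBASE_helper8_Glue

set_option autoImplicit false
set_option linter.unusedSectionVars false
set_option linter.style.haveILetI false
set_option synthInstance.maxHeartbeats 200000

open HahnSeries IntermediateField AlgebraicCurve ModularCurve Fermat.Agent.Igusa Polynomial

namespace Fermat.Agent.JA

open scoped Fermat.Agent.JA.Host

/-- `Ω = AlgebraicClosure ℚ`. -/
local notation "Ω" => AlgebraicClosure ℚ

section Final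

variable {ℓ : ℕ} [Fact ℓ.Prime] {A : ValuationSubring Ω} (hA : A.LiesOverPrime ℓ)
  (N : ℕ) [NeZero N] {K₁ : IntermediateField ℚ Ω}

include hA in
/-- inverses of integers prime to `ℓ` lie in `R₁`. -/
theorem inv_natCast_mem_baseRing {m : ℕ} (hℓm : ¬ ℓ ∣ m) :
    ((m : ↥K₁))⁻¹ ∈ baseRing A K₁ := by
  rw [mem_baseRing_iff]
  have h1 : (((m : ↥K₁)⁻¹ : ↥K₁) : Ω) = ((m : Ω))⁻¹ := by
    push_cast
    rfl
  rw [h1, map_inv₀,
    Fermat.Agent.TW.Kill.valuation_natCast_eq_one (Fact.out : ℓ.Prime) hℓm hA, inv_one]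

include hA in
/-- integers prime to `ℓ` are units of `R₁`. -/
theorem isUnit_natCast_baseRing {n : ℕ} (hℓn : ¬ ℓ ∣ n) :
    IsUnit ((n : ℕ) : ↥(baseRing A K₁)) := by
  rw [isUnit_baseRing_iff]
  have h1 : ((((n : ℕ) : ↥(baseRing A K₁)) : ↥K₁) : Ω) = (n : Ω) := by
    push_cast
    rfl
  rw [h1, Fermat.Agent.TW.Kill.valuation_natCast_eq_one (Fact.out : ℓ.Prime) hℓn hA]

include hA in
/-- integers prime to `ℓ` are non-zero in the residue field of `R₁`. -/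
theorem natCast_residueField_baseRing_ne_zero {n : ℕ} (hℓn : ¬ ℓ ∣ n) :
    ((n : ℕ) : IsLocalRing.ResidueField ↥(baseRing A K₁)) ≠ 0 := by
  haveI := charP_residueField_baseRing hA K₁
  rw [Ne, CharP.cast_eq_zero_iff (IsLocalRing.ResidueField ↥(baseRing A K₁)) ℓ]
  exact hℓn

/-- the branch set `{0, 1}` of the Legendre coordinate. -/
theorem legendre_branch_facts (R : Type*) [CommRing R] [DecidableEq R] :
    (∀ a ∈ ({0, 1} : Finset R), ∀ b ∈ ({0, 1} : Finset R), a ≠ b → IsUnit (a - b)) ∧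
    (∀ a ∈ ({0, 1} : Finset R), a = 0 ∨ IsUnit a) := by
  constructor
  · intro a ha b hb hab
    simp only [Finset.mem_insert, Finset.mem_singleton] at ha hb
    rcases ha with rfl | rfl <;> rcases hb with rfl | rfl
    · exact absurd rfl hab
    · rw [zero_sub]; exact isUnit_one.neg
    · rw [sub_zero]; exact isUnit_one
    · exact absurd rfl hab
  · intro a ha
    simp only [Finset.mem_insert, Finset.mem_singleton] at ha
    rcases ha with rfl | rfl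
    · exact Or.inl rfl
    · exact Or.inr isUnit_one

/-- the branch set `{1, ω, ω²}` of the Hesse coordinate. -/
theorem hesse_branch_facts (R : Type*) [CommRing R] [DecidableEq R] (h3 : IsUnit (3 : R)) (ω : R)
    (hω : ω ^ 2 + ω + 1 = 0) :
    (∀ a ∈ ({1, ω, ω ^ 2} : Finset R), ∀ b ∈ ({1, ω, ω ^ 2} : Finset R), a ≠ b →
      IsUnit (a - b)) ∧
    (∀ a ∈ ({1, ω, ω ^ 2} : Finset R), a = 0 ∨ IsUnit a) := by
  have hω3 : ω ^ 3 = 1 := by linear_combination (ω - 1) * hω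
  have huω : IsUnit ω := IsUnit.of_mul_eq_one (ω ^ 2) (by linear_combination hω3)
  have h1 : IsUnit (1 - ω) := by
    have : (1 - ω) * (1 - ω ^ 2) = 3 := by linear_combination (-1 : R) * hω + hω3
    exact isUnit_of_mul_isUnit_left (this ▸ h3)
  have h2 : IsUnit (1 - ω ^ 2) := by
    have : (1 - ω) * (1 - ω ^ 2) = 3 := by linear_combination (-1 : R) * hω + hω3
    exact isUnit_of_mul_isUnit_right (this ▸ h3)
  have h3' : IsUnit (ω - ω ^ 2) := by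
    have : ω - ω ^ 2 = ω * (1 - ω) := by ring
    rw [this]; exact huω.mul h1
  have hneg : ∀ x y : R, IsUnit (x - y) → IsUnit (y - x) := fun x y h => by
    rw [← neg_sub]; exact h.neg
  constructor
  · intro a ha b hb hab
    simp only [Finset.mem_insert, Finset.mem_singleton] at ha hb
    rcases ha with rfl | rfl | rfl <;> rcases hb with rfl | rfl | rfl
    · exact absurd rfl hab
    · exact h1
    · exact h2
    · exact hneg _ _ h1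
    · exact absurd rfl hab
    · exact h3'
    · exact hneg _ _ h2
    · exact hneg _ _ h3'
    · exact absurd rfl hab
  · intro a ha
    simp only [Finset.mem_insert, Finset.mem_singleton] at ha
    rcases ha with rfl | rfl | rfl
    · exact Or.inr isUnit_one
    · exact Or.inr huω
    · exact Or.inr (huω.pow 2)

include hA in
/-- a primitive cube root of unity in `R₁` when `ℓ ≠ 3`. -/
theorem exists_cubeRoot_baseRing (hK₁ : IsBase ℓ K₁) (hℓ3 : ℓ ≠ 3) :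
    ∃ ω : ↥(baseRing A K₁), ω ^ 2 + ω + 1 = 0 := by
  have h3 : ¬ ℓ ∣ 3 := fun h =>
    hℓ3 ((Nat.prime_dvd_prime_iff_eq (Fact.out : ℓ.Prime) Nat.prime_three).mp h)
  obtain ⟨ω, hω⟩ := hK₁.exists_isPrimitiveRoot_baseRing A (n := 3) (by norm_num) h3
  refine ⟨ω, ?_⟩
  have := hω.geom_sum_eq_zero (by norm_num : 1 < 3)
  rw [Finset.sum_range_succ, Finset.sum_range_succ, Finset.sum_range_one] at this
  linear_combination this

set_option maxHeartbeats 1600000 in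
include hA in
/-- **`KeyBaseStatement` at a base, generic host coordinate**: everything discharged except the
line facts for the coordinate `t` and the geometric input (I1). -/
theorem keyBaseStatement_baseRing_of_host (m : ℕ) (hm : 0 < m) (hℓN : ¬ ℓ ∣ N) (hℓm : ¬ ℓ ∣ m)
    (hK₁ : IsBase ℓ K₁) [IsDiscreteValuationRing ↥(baseRing A K₁)]
    (w : ℕ) [NeZero w] {ϖ : ↥(baseRing A K₁)} (hϖ : Irreducible ϖ)
    (t : LaurentSeries ↥K₁) (htr : Transcendental ↥K₁ t)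
    [Fact ((↥K₁)⟮jqNModC ↥K₁ w⟯ ≤ keyFw ↥K₁ N w)] [Fact ((↥K₁)⟮jqNModC ↥K₁ w⟯ ≤ (↥K₁)⟮t⟯)]
    (hline : ∀ 𝒢t : ValuationSubring ↥(↥K₁)⟮t⟯,
      IsGaussAt ↥(baseRing A K₁) ϖ (AdjoinSimple.gen ↥K₁ t) 𝒢t →
      IsGaussAt ↥(baseRing A K₁) ϖ (AdjoinSimple.gen ↥K₁ (jqNModC ↥K₁ w))
        (𝒢t.comap (algebraMap ↥(↥K₁)⟮jqNModC ↥K₁ w⟯ ↥(↥K₁)⟮t⟯)) ∧
      ∀ x ∈ 𝒢t, IsIntegral ↥(𝒢t.comap (algebraMap ↥(↥K₁)⟮jqNModC ↥K₁ w⟯ ↥(↥K₁)⟮t⟯)) x)
    (hglue : ∀ u : LaurentSeries ↥K₁, IsIntegral ↥(keyFw ↥K₁ N w) u →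
      JLineHyp (K₁ := ↥K₁) ϖ (AdjoinSimple.gen ↥K₁ (jqNModC ↥K₁ w))
        ↥(Host.Fu (keyFw ↥K₁ N w) u) N →
      ∀ 𝒢t : ValuationSubring ↥(↥K₁)⟮t⟯,
        IsGaussAt ↥(baseRing A K₁) ϖ (AdjoinSimple.gen ↥K₁ t) 𝒢t →
        IsLocalRing ↥(integralClosure ↥𝒢t ↥(Host.Etu (keyFw ↥K₁ N w) t u))) :
    KeyBaseStatement (baseRing A K₁) N m := by
  haveI : CharZero ↥(baseRing A K₁) := charZero_valuationSubring_of_algebraRat _
  haveI : Module.Finite ↥(↥K₁)⟮jqNModC ↥K₁ w⟯ ↥(keyFw ↥K₁ N w) := by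
    letI : Algebra ↥K₁ ℂ :=
      (((IsAlgClosed.lift : Ω →ₐ[ℚ] ℂ) : Ω →+* ℂ).comp (algebraMap ↥K₁ Ω)).toAlgebra
    exact finite_hostImage_full N w
  have hJ : JLineHyp (K₁ := ↥K₁) ϖ (AdjoinSimple.gen ↥K₁ (jqNModC ↥K₁ w)) ↥(keyFw ↥K₁ N w) N :=
    jLineHyp_hostImage_baseRing hA N w hℓN hK₁ hϖ
  obtain ⟨ζ, hζ⟩ := hK₁.exists_isPrimitiveRoot hm hℓm
  have hmK : ((m : ℕ) : ↥K₁) ≠ 0 := Nat.cast_ne_zero.mpr hm.ne'
  have hmR : ((m : ↥K₁))⁻¹ ∈ baseRing A K₁ := inv_natCast_mem_baseRing hA hℓm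
  have hFq : keyFq ↥K₁ N ≤ gaussField ↥(baseRing A K₁) ↥K₁ :=
    laurentBaseChange_full_le_gaussField ↥(baseRing A K₁) ↥K₁ N
  have hmemW : ∀ W : ValuationSubring ↥(keyFq ↥K₁ N),
      (∀ c : ↥(keyFq ↥K₁ N), (c : LaurentSeries ↥K₁) ∈
          (↥K₁)⟮emb ↥(baseRing A K₁) ↥K₁ (jqModC ↥(baseRing A K₁))⟯ →
        (c ∈ W ↔ (c : LaurentSeries ↥K₁) ∈ gaussInt ↥(baseRing A K₁) ↥K₁)) →
      ∀ z : ↥(keyFq ↥K₁ N), (z : LaurentSeries ↥K₁) ∈ gaussInt ↥(baseRing A K₁) ↥K₁ → z ∈ W :=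
    fun W hW z hz => mem_of_mem_gaussInt_baseRing hA N hℓN hK₁.flatBase_le W hW z hz
  refine keyBaseStatement_of_geo' (baseRing A K₁) N w m hϖ hmK hmR ζ hζ hFq hmemW t htr hline ?_
  intro g hg0 hg hginv hdiv u hu 𝒢t h𝒢t
  have hJu := jLineHyp_Fu_of_jLineHyp (baseRing A K₁) N w m hϖ hmR hmK hFq hmemW hJ g hg0 hg
    hginv hdiv u hu
  refine hglue u ?_ hJu 𝒢t h𝒢t
  -- `u` is integral over `F_w`: `u ^ m = qExpand g ∈ F_w`
  have hmem : qExpand ↥K₁ w (g : LaurentSeries ↥K₁) ∈ keyFw ↥K₁ N w := by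
    have := (hostImageEquiv ↥K₁ w (keyFq ↥K₁ N) g).2
    rwa [coe_hostImageEquiv] at this
  refine IsIntegral.of_pow hm ?_
  rw [hu]
  exact isIntegral_algebraMap (R := ↥(keyFw ↥K₁ N w)) (x := ⟨_, hmem⟩)

set_option maxHeartbeats 1600000 in
include hA in
/-- **`KeyBaseStatement` at a base, `ℓ ≠ 2`** (Legendre coordinate, `w = 2`). -/
theorem keyBaseStatement_baseRing_of_ne_two (m : ℕ) (hm : 0 < m) (hℓN : ¬ ℓ ∣ N) (hℓm : ¬ ℓ ∣ m)
    (hK₁ : IsBase ℓ K₁) (hℓ2 : ℓ ≠ 2) : KeyBaseStatement (baseRing A K₁) N m := by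
  classical
  haveI := hK₁.isDiscreteValuationRing hA
  haveI : CharZero ↥(baseRing A K₁) := charZero_valuationSubring_of_algebraRat _
  obtain ⟨ϖ, hϖ⟩ := IsDiscreteValuationRing.exists_irreducible ↥(baseRing A K₁)
  have h2 : (2 : ↥K₁) ≠ 0 := two_ne_zero
  obtain ⟨t, htr, -, hj, hjmem, hint, -⟩ := Host.exists_legendre_host h2
  haveI : Fact ((↥K₁)⟮jqNModC ↥K₁ 2⟯ ≤ keyFw ↥K₁ N 2) := ⟨adjoin_jqNModC_le_hostImage N 2⟩
  haveI : Fact ((↥K₁)⟮jqNModC ↥K₁ 2⟯ ≤ (↥K₁)⟮t⟯) :=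
    ⟨by rw [adjoin_simple_le_iff]; exact hjmem⟩
  haveI : Module.Finite ↥(↥K₁)⟮jqNModC ↥K₁ 2⟯ ↥(keyFw ↥K₁ N 2) := by
    letI : Algebra ↥K₁ ℂ :=
      (((IsAlgClosed.lift : Ω →ₐ[ℚ] ℂ) : Ω →+* ℂ).comp (algebraMap ↥K₁ Ω)).toAlgebra
    exact finite_hostImage_full N 2
  have hℓ2' : ¬ ℓ ∣ 2 := fun h =>
    hℓ2 ((Nat.prime_dvd_prime_iff_eq (Fact.out : ℓ.Prime) Nat.prime_two).mp h)
  have h2res : (2 : IsLocalRing.ResidueField ↥(baseRing A K₁)) ≠ 0 := by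
    have := natCast_residueField_baseRing_ne_zero hA (K₁ := K₁) hℓ2'
    exact_mod_cast this
  have hj' : jqNModC ↥K₁ 2 * aeval t (X ^ 2 * (X - 1) ^ 2 : (↥K₁)[X]) =
      aeval t (256 * (X ^ 2 - X + 1) ^ 3 : (↥K₁)[X]) := hj
  refine keyBaseStatement_baseRing_of_host hA N m hm hℓN hℓm hK₁ 2 hϖ t htr ?_ ?_
  · intro 𝒢t h𝒢t
    obtain ⟨h1, h2, -⟩ := Host.legendre_keyEnd_host (jqNModC ↥K₁ 2) t htr hj' hϖ h2res h𝒢t
    exact ⟨h1, h2⟩
  · intro u hu hJu 𝒢t h𝒢t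
    have hL := Host.lineHyp_legendre_host (jqNModC ↥K₁ 2) t htr hj' ϖ hϖ h2res
      ({0, 1} : Finset ↥(baseRing A K₁)) (by simp) (by simp)
    obtain ⟨hS, hS0⟩ := legendre_branch_facts ↥(baseRing A K₁)
    exact Host.isLocalRing_integralClosure_Etu_of_hyps (keyFw ↥K₁ N 2) (jqNModC ↥K₁ 2) t u
      (fun x hx => laurentSeries_mem_range_algebraMap_of_isAlgebraic x hx) htr hint hu ϖ hϖ N
      (Nat.pos_of_ne_zero (NeZero.ne N)) (isUnit_natCast_baseRing hA hℓN)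
      (hK₁.exists_isPrimitiveRoot_baseRing A (Nat.pos_of_ne_zero (NeZero.ne N)) hℓN)
      _ hS hS0 hL hJu 𝒢t h𝒢t

set_option maxHeartbeats 1600000 in
include hA in
/-- **`KeyBaseStatement` at a base, `ℓ ≠ 3`** (Hesse coordinate, `w = 3`). -/
theorem keyBaseStatement_baseRing_of_ne_three (m : ℕ) (hm : 0 < m) (hℓN : ¬ ℓ ∣ N)
    (hℓm : ¬ ℓ ∣ m) (hK₁ : IsBase ℓ K₁) (hℓ3 : ℓ ≠ 3) :
    KeyBaseStatement (baseRing A K₁) N m := by
  classical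
  haveI := hK₁.isDiscreteValuationRing hA
  haveI : CharZero ↥(baseRing A K₁) := charZero_valuationSubring_of_algebraRat _
  obtain ⟨ϖ, hϖ⟩ := IsDiscreteValuationRing.exists_irreducible ↥(baseRing A K₁)
  have h3 : (3 : ↥K₁) ≠ 0 := three_ne_zero
  obtain ⟨t, htr, -, hj, hjmem, hint, -⟩ := Host.exists_hesse_host h3
  haveI : Fact ((↥K₁)⟮jqNModC ↥K₁ 3⟯ ≤ keyFw ↥K₁ N 3) := ⟨adjoin_jqNModC_le_hostImage N 3⟩
  haveI : Fact ((↥K₁)⟮jqNModC ↥K₁ 3⟯ ≤ (↥K₁)⟮t⟯) :=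
    ⟨by rw [adjoin_simple_le_iff]; exact hjmem⟩
  haveI : Module.Finite ↥(↥K₁)⟮jqNModC ↥K₁ 3⟯ ↥(keyFw ↥K₁ N 3) := by
    letI : Algebra ↥K₁ ℂ :=
      (((IsAlgClosed.lift : Ω →ₐ[ℚ] ℂ) : Ω →+* ℂ).comp (algebraMap ↥K₁ Ω)).toAlgebra
    exact finite_hostImage_full N 3
  have hℓ3' : ¬ ℓ ∣ 3 := fun h =>
    hℓ3 ((Nat.prime_dvd_prime_iff_eq (Fact.out : ℓ.Prime) Nat.prime_three).mp h)
  have h3res : (3 : IsLocalRing.ResidueField ↥(baseRing A K₁)) ≠ 0 := by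
    have := natCast_residueField_baseRing_ne_zero hA (K₁ := K₁) hℓ3'
    exact_mod_cast this
  have h3unit : IsUnit (3 : ↥(baseRing A K₁)) := by
    have := isUnit_natCast_baseRing hA (K₁ := K₁) hℓ3'
    exact_mod_cast this
  obtain ⟨ω, hω⟩ := exists_cubeRoot_baseRing hA hK₁ hℓ3
  have hj' : jqNModC ↥K₁ 3 * aeval t ((X ^ 3 - 1) ^ 3 : (↥K₁)[X]) =
      aeval t (27 * X ^ 3 * (X ^ 3 + 8) ^ 3 : (↥K₁)[X]) := hj
  refine keyBaseStatement_baseRing_of_host hA N m hm hℓN hℓm hK₁ 3 hϖ t htr ?_ ?_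
  · intro 𝒢t h𝒢t
    obtain ⟨h1, h2, -⟩ := Host.hesse_keyEnd_host (jqNModC ↥K₁ 3) t htr hj' hϖ h3res h𝒢t
    exact ⟨h1, h2⟩
  · intro u hu hJu 𝒢t h𝒢t
    have hL := Host.lineHyp_hesse_host (jqNModC ↥K₁ 3) t htr hj' ϖ hϖ h3res ω hω
      ({1, ω, ω ^ 2} : Finset ↥(baseRing A K₁)) (by simp) (by simp) (by simp)
    obtain ⟨hS, hS0⟩ := hesse_branch_facts ↥(baseRing A K₁) h3unit ω hω
    exact Host.isLocalRing_integralClosure_Etu_of_hyps (keyFw ↥K₁ N 3) (jqNModC ↥K₁ 3) t u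
      (fun x hx => laurentSeries_mem_range_algebraMap_of_isAlgebraic x hx) htr hint hu ϖ hϖ N
      (Nat.pos_of_ne_zero (NeZero.ne N)) (isUnit_natCast_baseRing hA hℓN)
      (hK₁.exists_isPrimitiveRoot_baseRing A (Nat.pos_of_ne_zero (NeZero.ne N)) hℓN)
      _ hS hS0 hL hJu 𝒢t h𝒢t

include hA in
/-- **(KEY) at every base** `R₁ = A ∩ K₁`. -/
theorem keyBaseStatement_baseRing (m : ℕ) (hm : 0 < m) (hℓN : ¬ ℓ ∣ N) (hℓm : ¬ ℓ ∣ m)
    (hK₁ : IsBase ℓ K₁) : KeyBaseStatement (baseRing A K₁) N m := by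
  by_cases hℓ2 : ℓ = 2
  · exact keyBaseStatement_baseRing_of_ne_three hA N m hm hℓN hℓm hK₁ (by omega)
  · exact keyBaseStatement_baseRing_of_ne_two hA N m hm hℓN hℓm hK₁ hℓ2

end Final

end Fermat.Agent.JA
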