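/-
J-A project, package (ES1) (helper2), part 1: the dilation operator `f ↦ f(m ·)` on the rings
`HolH`, `MerH` of holomorphic / meromorphic functions on the upper half plane, and its
compatibility with the realisation `realN` of the Prelude function fields:
`realN (N m) (β x) = dilate m (realN N x)`, `realN (N m) (α x) = realN N x`.
-/
import Mathlib
import Fermat.Agent.X0N.Mer_helper6_RealN
import Fermat.Prelude.Def_ModularCurve_HeckeOperator
import Fermat.Prelude.Thm_ModularCurve_coeffMap_qExpand

set_option autoImplicit false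

namespace Fermat.Agent.X0N

open UpperHalfPlane Complex Filter Topology ModularCurve IntermediateField ModularForm
open Fermat.Agent.RatStr
open scoped MatrixGroups Manifold

/-! ### dilation on `HolH` and `MerH` -/

/-- precomposition with `τ ↦ m τ` as a ring homomorphism of `HolH`. -/
noncomputable def HolH.dilateHom (m : ℕ) : HolH →+* HolH where
  toFun f := ⟨dilate m (f : ℍ → ℂ),
    f.2.comp (UpperHalfPlane.mdifferentiable_smul (det_heckeDiagMatrix_pos m))⟩
  map_one' := rfl
  map_mul' _ _ := rfl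
  map_zero' := rfl
  map_add' _ _ := rfl

@[simp] theorem HolH.dilateHom_apply (m : ℕ) (f : HolH) (τ : ℍ) :
    (HolH.dilateHom m f : ℍ → ℂ) τ = (f : ℍ → ℂ) (heckeDiagMatrix m • τ) := rfl

theorem HolH.dilateHom_injective (m : ℕ) : Function.Injective (HolH.dilateHom m) := by
  intro f g h
  ext τ
  have h1 := congrFun (congrArg Subtype.val h) ((heckeDiagMatrix m)⁻¹ • τ)
  simp only [HolH.dilateHom_apply, smul_inv_smul] at h1
  exact h1

/-- precomposition with `τ ↦ m τ` as a ring homomorphism of `MerH`. -/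
noncomputable def MerH.dilate (m : ℕ) : MerH →+* MerH :=
  IsFractionRing.map (HolH.dilateHom_injective m)

@[simp] theorem MerH.dilate_ofHol (m : ℕ) (f : HolH) :
    MerH.dilate m (MerH.ofHol f) = MerH.ofHol (HolH.dilateHom m f) := by
  unfold MerH.dilate MerH.ofHol
  exact IsLocalization.map_eq _ f

theorem MerH.dilate_const (m : ℕ) (c : ℂ) : MerH.dilate m (MerH.const c) = MerH.const c := by
  have h1 : MerH.const c = MerH.ofHol (HolH.const c) := rfl
  rw [h1, MerH.dilate_ofHol]
  congr 1

theorem MerH.dilate_injective (m : ℕ) : Function.Injective (MerH.dilate m) :=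
  (MerH.dilate m).injective

/-- dilations compose. -/
theorem HolH.dilateHom_dilateHom {m n : ℕ} (hm : m ≠ 0) (hn : n ≠ 0) (f : HolH) :
    HolH.dilateHom m (HolH.dilateHom n f) = HolH.dilateHom (n * m) f := by
  ext τ
  simp only [HolH.dilateHom_apply]
  refine congrArg _ (UpperHalfPlane.ext ?_)
  rw [coe_heckeDiagMatrix_smul hn, coe_heckeDiagMatrix_smul hm,
    coe_heckeDiagMatrix_smul (mul_ne_zero hn hm)]
  push_cast
  ring

theorem MerH.dilate_dilate {m n : ℕ} (hm : m ≠ 0) (hn : n ≠ 0) (x : MerH) :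
    MerH.dilate m (MerH.dilate n x) = MerH.dilate (n * m) x := by
  obtain ⟨a, b, hb, rfl⟩ := MerH.exists_div x
  simp only [map_div₀, MerH.dilate_ofHol, HolH.dilateHom_dilateHom hm hn]

/-- the dilation of `j(d ·)` is `j(d m ·)`. -/
theorem HolH.dilateHom_jdHol (d m : ℕ) [NeZero d] [NeZero m] [NeZero (d * m)] :
    HolH.dilateHom m (jdHol d) = jdHol (d * m) := by
  ext τ
  simp only [HolH.dilateHom_apply, jdHol_apply, jFunN, dilate_apply]
  refine congrArg _ (UpperHalfPlane.ext ?_)
  rw [coe_heckeDiagMatrix_smul (NeZero.ne d), coe_heckeDiagMatrix_smul (NeZero.ne m),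
    coe_heckeDiagMatrix_smul (NeZero.ne (d * m))]
  push_cast
  ring

/-! ### compatibility with the realisation -/

section Real

variable {k : Type*} [Field k] [Algebra ℚ k] (ι : k →+* ℂ) (N ℓ : ℕ) [NeZero N] [NeZero ℓ]

theorem heckeAlphaBar_jdBar {d : ℕ} [NeZero d] (hd : d ∣ N) :
    heckeAlphaBar k N ℓ (jdBar N hd) = jdBar (N * ℓ) (hd.trans (dvd_mul_right N ℓ)) :=
  Subtype.ext rfl

omit [NeZero N] in
theorem heckeBetaBar_jdBar {d : ℕ} [NeZero d] [NeZero (d * ℓ)] (hd : d ∣ N) :
    heckeBetaBar k N ℓ (jdBar N hd) = jdBar (N * ℓ) (Nat.mul_dvd_mul_right hd ℓ) := by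
  apply Subtype.ext
  show qExpand k ℓ (coeffEmb k (qExpand ℚ d jq)) = coeffEmb k (qExpand ℚ (d * ℓ) jq)
  rw [coeffEmb, ← coeffMap_qExpand, qExpand_qExpand]
  exact congrArg _ (qExpand_congr (mul_comm ℓ d) _)

/-- the realisation of `α x` (the same series at level `N ℓ`) is the realisation of `x`. -/
theorem realN_heckeAlphaBar (x : ↥(laurentBaseChange k (modularFunctionFieldFull N))) :
    realN ι (N * ℓ) (heckeAlphaBar k N ℓ x) = realN ι N x := by
  induction x using modularFunctionField_induction with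
  | hconst c =>
    rw [AlgHom.commutes, realN_algebraMap, realN_algebraMap]
  | hgen d hd =>
    rw [heckeAlphaBar_jdBar, realN_jdBar, realN_jdBar]
  | hadd x y h1 h2 => rw [map_add, map_add, map_add, h1, h2]
  | hmul x y h1 h2 => rw [map_mul, map_mul, map_mul, h1, h2]
  | hinv x h1 => rw [map_inv₀, map_inv₀, map_inv₀, h1]

/-- the realisation of `β x = x(q^ℓ)` is the dilation of the realisation of `x`. -/
theorem realN_heckeBetaBar (x : ↥(laurentBaseChange k (modularFunctionFieldFull N))) :
    realN ι (N * ℓ) (heckeBetaBar k N ℓ x) = MerH.dilate ℓ (realN ι N x) := by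
  induction x using modularFunctionField_induction with
  | hconst c =>
    rw [AlgHom.commutes, realN_algebraMap, realN_algebraMap, MerH.dilate_const]
  | hgen d hd =>
    haveI : NeZero (d * ℓ) := ⟨mul_ne_zero (NeZero.ne d) (NeZero.ne ℓ)⟩
    rw [heckeBetaBar_jdBar, realN_jdBar, realN_jdBar, MerH.dilate_ofHol, HolH.dilateHom_jdHol]
  | hadd x y h1 h2 => rw [map_add, map_add, map_add, map_add, h1, h2]
  | hmul x y h1 h2 => rw [map_mul, map_mul, map_mul, map_mul, h1, h2]
  | hinv x h1 => rw [map_inv₀, map_inv₀, map_inv₀, map_inv₀, h1]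

end Real

end Fermat.Agent.X0N
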