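/-
J-A project, package (ES1) (helper2), part 2: the Atkin–Lehner operator on `MerH`.

For `ℓ x + N y = 1` let `γ₁ = (1 −y; N ℓx)`, `γ₂ = (ℓ −y; N x)` (both in `Γ₀(N)`).  The operator
`T f = f ∘ γ₁ ∘ (ℓ ·)` on `MerH` satisfies `T ∘ (dilate ℓ) = comp γ₂`; hence on `Γ₀(N)`-invariant
functions `g`: `T g = g(ℓ ·)` and `T (g(ℓ ·)) = g`.
-/
import Mathlib
import Fermat.Agent.JA.ES1_helper2_Dilate

set_option autoImplicit false

namespace Fermat.Agent.X0N

open UpperHalfPlane Complex Filter Topology ModularCurve IntermediateField ModularForm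
open Fermat.Agent.RatStr
open scoped MatrixGroups Manifold

section Matrices

variable (N ℓ : ℕ) (x y : ℤ)

/-- `γ₁ = (1 −y; N ℓx)`. -/
def alGammaOne (h : (ℓ : ℤ) * x + N * y = 1) : SL(2, ℤ) :=
  ⟨!![1, -y; (N : ℤ), ℓ * x], by rw [Matrix.det_fin_two_of]; linear_combination h⟩

/-- `γ₂ = (ℓ −y; N x)`. -/
def alGammaTwo (h : (ℓ : ℤ) * x + N * y = 1) : SL(2, ℤ) :=
  ⟨!![(ℓ : ℤ), -y; (N : ℤ), x], by rw [Matrix.det_fin_two_of]; linear_combination h⟩

variable {N ℓ x y}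

theorem alGammaOne_mem (h : (ℓ : ℤ) * x + N * y = 1) :
    alGammaOne N ℓ x y h ∈ CongruenceSubgroup.Gamma0 N := by
  rw [CongruenceSubgroup.Gamma0_mem]
  show (((N : ℤ) : ℤ) : ZMod N) = 0
  simp

theorem alGammaTwo_mem (h : (ℓ : ℤ) * x + N * y = 1) :
    alGammaTwo N ℓ x y h ∈ CongruenceSubgroup.Gamma0 N := by
  rw [CongruenceSubgroup.Gamma0_mem]
  show (((N : ℤ) : ℤ) : ZMod N) = 0
  simp

/-- the key identity `diag(ℓ,1) γ₁ diag(ℓ,1) = ℓ · γ₂`, as an identity of Möbius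
transformations. -/
theorem heckeDiagMatrix_smul_alGammaOne_smul (hN : N ≠ 0) (hℓ : ℓ ≠ 0)
    (h : (ℓ : ℤ) * x + N * y = 1) (τ : ℍ) :
    heckeDiagMatrix ℓ • (alGammaOne N ℓ x y h • (heckeDiagMatrix ℓ • τ)) =
      alGammaTwo N ℓ x y h • τ := by
  apply UpperHalfPlane.ext
  rw [coe_heckeDiagMatrix_smul hℓ, coe_specialLinearGroup_apply, coe_heckeDiagMatrix_smul hℓ,
    coe_specialLinearGroup_apply]
  have e1 : ∀ i j, ((algebraMap ℤ ℝ (alGammaOne N ℓ x y h i j) : ℝ) : ℂ) =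
      ((alGammaOne N ℓ x y h i j : ℤ) : ℂ) := fun i j => by simp
  have e2 : ∀ i j, ((algebraMap ℤ ℝ (alGammaTwo N ℓ x y h i j) : ℝ) : ℂ) =
      ((alGammaTwo N ℓ x y h i j : ℤ) : ℂ) := fun i j => by simp
  rw [e1, e1, e1, e1, e2, e2, e2, e2]
  have a00 : alGammaOne N ℓ x y h 0 0 = 1 := rfl
  have a01 : alGammaOne N ℓ x y h 0 1 = -y := rfl
  have a10 : alGammaOne N ℓ x y h 1 0 = N := rfl
  have a11 : alGammaOne N ℓ x y h 1 1 = ℓ * x := rfl
  have b00 : alGammaTwo N ℓ x y h 0 0 = ℓ := rfl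
  have b01 : alGammaTwo N ℓ x y h 0 1 = -y := rfl
  have b10 : alGammaTwo N ℓ x y h 1 0 = N := rfl
  have b11 : alGammaTwo N ℓ x y h 1 1 = x := rfl
  rw [a00, a01, a10, a11, b00, b01, b10, b11]
  push_cast
  have hℓ' : (ℓ : ℂ) ≠ 0 := by exact_mod_cast hℓ
  have hden : (N : ℂ) * (τ : ℂ) + (x : ℂ) ≠ 0 := by
    intro h0
    have him := congrArg Complex.im h0
    simp only [add_im, mul_im, natCast_re, natCast_im, coe_im, zero_mul, add_zero, intCast_im,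
      zero_im] at him
    have hN' : (N : ℝ) ≠ 0 := by exact_mod_cast hN
    exact (mul_ne_zero hN' τ.im_ne_zero) him
  have hden' : (N : ℂ) * ((ℓ : ℂ) * (τ : ℂ)) + (ℓ : ℂ) * (x : ℂ) ≠ 0 := by
    have : (N : ℂ) * ((ℓ : ℂ) * (τ : ℂ)) + (ℓ : ℂ) * (x : ℂ) =
        (ℓ : ℂ) * ((N : ℂ) * (τ : ℂ) + (x : ℂ)) := by ring
    rw [this]
    exact mul_ne_zero hℓ' hden
  rw [← mul_div_assoc, div_eq_div_iff hden' hden]
  ring

end Matrices

section Operator

variable {N ℓ : ℕ} {x y : ℤ} (h : (ℓ : ℤ) * x + N * y = 1)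

/-- the Atkin–Lehner operator `f ↦ f ∘ γ₁ ∘ (ℓ ·)` on `MerH`. -/
noncomputable def MerH.atkinLehner : MerH →+* MerH :=
  (MerH.dilate ℓ).comp (MerH.comp (alGammaOne N ℓ x y h)).toRingHom

theorem MerH.atkinLehner_apply (f : MerH) :
    MerH.atkinLehner h f = MerH.dilate ℓ (MerH.comp (alGammaOne N ℓ x y h) f) := rfl

theorem MerH.atkinLehner_const (c : ℂ) : MerH.atkinLehner h (MerH.const c) = MerH.const c := by
  rw [MerH.atkinLehner_apply, MerH.comp_const, MerH.dilate_const]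

/-- `T (f(ℓ ·)) = f ∘ γ₂`. -/
theorem MerH.atkinLehner_dilate (hN : N ≠ 0) (hℓ : ℓ ≠ 0) (f : MerH) :
    MerH.atkinLehner h (MerH.dilate ℓ f) = MerH.comp (alGammaTwo N ℓ x y h) f := by
  obtain ⟨a, b, hb, rfl⟩ := MerH.exists_div f
  rw [MerH.atkinLehner_apply]
  simp only [map_div₀, MerH.dilate_ofHol]
  have key : ∀ g : HolH, MerH.dilate ℓ (MerH.comp (alGammaOne N ℓ x y h)
      (MerH.ofHol (HolH.dilateHom ℓ g))) = MerH.comp (alGammaTwo N ℓ x y h) (MerH.ofHol g) := by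
    intro g
    have h1 : ∀ (γ : SL(2, ℤ)) (g : HolH), MerH.comp γ (MerH.ofHol g) =
        MerH.ofHol (HolH.comp γ g) := fun γ g => MerH.comp_algebraMap γ g
    rw [h1, h1, MerH.dilate_ofHol]
    congr 1
    ext τ
    simp only [HolH.dilateHom_apply, HolH.comp_apply]
    rw [heckeDiagMatrix_smul_alGammaOne_smul hN hℓ h τ]
  rw [key, key]

/-- on `Γ₀(N)`-invariant functions `T` is the dilation. -/
theorem MerH.atkinLehner_of_invariant {f : MerH}
    (hf : MerH.comp (alGammaOne N ℓ x y h) f = f) :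
    MerH.atkinLehner h f = MerH.dilate ℓ f := by
  rw [MerH.atkinLehner_apply, hf]

/-- on dilations of `Γ₀(N)`-invariant functions `T` is the inverse of the dilation. -/
theorem MerH.atkinLehner_dilate_of_invariant (hN : N ≠ 0) (hℓ : ℓ ≠ 0) {f : MerH}
    (hf : MerH.comp (alGammaTwo N ℓ x y h) f = f) :
    MerH.atkinLehner h (MerH.dilate ℓ f) = f := by
  rw [MerH.atkinLehner_dilate h hN hℓ, hf]

end Operator

end Fermat.Agent.X0N
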