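/-
J-A project, package (ES1) (helper2), part 3: the Atkin–Lehner involution `W` of the function
field `F' = k(j(q^d) : d ∣ N ℓ)` of `X₀(N ℓ)` (`ℓ` prime, `ℓ ∤ N`), for a field `k ⊆ ℂ`:
a ring homomorphism `W : F' →+* F'` fixing the constants with `W (α y) = β y`, `W (β y) = α y`
(`α` the inclusion of `F = k(j(q^d) : d ∣ N)`, `β = (q ↦ q^ℓ)`), `W ∘ W = id`.
-/
import Mathlib
import Fermat.Agent.JA.ES1_helper2_AL

set_option autoImplicit false

namespace Fermat.Agent.X0N

open UpperHalfPlane Complex Filter Topology ModularCurve IntermediateField ModularForm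
open Fermat.Agent.RatStr
open scoped MatrixGroups Manifold

variable {k : Type*} [Field k] [Algebra ℚ k] (ι : k →+* ℂ) (N ℓ : ℕ) [NeZero N] [NeZero ℓ]

/-- **induction principle for `F'`**: it is generated by the constants, `α F` and `β F`. -/
theorem induction_alpha_beta (hℓ : ℓ.Prime)
    {p : ↥(laurentBaseChange k (modularFunctionFieldFull (N * ℓ))) → Prop}
    (hconst : ∀ c : k, p (algebraMap k _ c))
    (hα : ∀ y : ↥(laurentBaseChange k (modularFunctionFieldFull N)), p (heckeAlphaBar k N ℓ y))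
    (hβ : ∀ y : ↥(laurentBaseChange k (modularFunctionFieldFull N)), p (heckeBetaBar k N ℓ y))
    (hadd : ∀ x y, p x → p y → p (x + y))
    (hmul : ∀ x y, p x → p y → p (x * y))
    (hinv : ∀ x, p x → p x⁻¹)
    (z : ↥(laurentBaseChange k (modularFunctionFieldFull (N * ℓ)))) : p z := by
  induction z using modularFunctionField_induction with
  | hconst c => exact hconst c
  | hgen d hd =>
    by_cases hℓd : ℓ ∣ d
    · obtain ⟨d₀, rfl⟩ := hℓd
      have hd₀ : d₀ ∣ N := by
        rw [mul_comm N ℓ] at hd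
        exact Nat.dvd_of_mul_dvd_mul_left hℓ.pos hd
      haveI : NeZero d₀ := ⟨fun h0 => NeZero.ne (ℓ * d₀) (by rw [h0, mul_zero])⟩
      haveI : NeZero (d₀ * ℓ) := ⟨mul_ne_zero (NeZero.ne d₀) (NeZero.ne ℓ)⟩
      have h1 := hβ (jdBar N hd₀)
      rw [heckeBetaBar_jdBar] at h1
      convert h1 using 1
      apply Subtype.ext
      show coeffEmb k (qExpand ℚ (ℓ * d₀) jq) = coeffEmb k (qExpand ℚ (d₀ * ℓ) jq)
      exact congrArg _ (qExpand_congr (mul_comm ℓ d₀) _)
    · have hdN : d ∣ N := by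
        have hcop : Nat.Coprime d ℓ := (Nat.Coprime.symm ((Nat.Prime.coprime_iff_not_dvd hℓ).mpr hℓd))
        exact hcop.dvd_of_dvd_mul_right hd
      have h1 := hα (jdBar N hdN)
      rw [heckeAlphaBar_jdBar] at h1
      exact h1
  | hadd x y h1 h2 => exact hadd x y h1 h2
  | hmul x y h1 h2 => exact hmul x y h1 h2
  | hinv x h1 => exact hinv x h1

section Construction

variable {N ℓ} {x y : ℤ} (h : (ℓ : ℤ) * x + N * y = 1)

theorem atkinLehner_realN_alpha (z : ↥(laurentBaseChange k (modularFunctionFieldFull N))) :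
    MerH.atkinLehner h (realN ι (N * ℓ) (heckeAlphaBar k N ℓ z)) =
      realN ι (N * ℓ) (heckeBetaBar k N ℓ z) := by
  rw [realN_heckeAlphaBar, realN_heckeBetaBar]
  exact MerH.atkinLehner_of_invariant h (comp_realN_of_mem_Gamma0 ι N (alGammaOne_mem h) z)

theorem atkinLehner_realN_beta (z : ↥(laurentBaseChange k (modularFunctionFieldFull N))) :
    MerH.atkinLehner h (realN ι (N * ℓ) (heckeBetaBar k N ℓ z)) =
      realN ι (N * ℓ) (heckeAlphaBar k N ℓ z) := by
  rw [realN_heckeAlphaBar, realN_heckeBetaBar]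
  exact MerH.atkinLehner_dilate_of_invariant h (NeZero.ne N) (NeZero.ne ℓ)
    (comp_realN_of_mem_Gamma0 ι N (alGammaTwo_mem h) z)

theorem atkinLehner_realN_mem_range (hℓ : ℓ.Prime)
    (z : ↥(laurentBaseChange k (modularFunctionFieldFull (N * ℓ)))) :
    MerH.atkinLehner h (realN ι (N * ℓ) z) ∈ (realN ι (N * ℓ)).range := by
  induction z using induction_alpha_beta N ℓ hℓ with
  | hconst c =>
    rw [realN_algebraMap, MerH.atkinLehner_const]
    exact ⟨algebraMap k _ c, realN_algebraMap ι (N * ℓ) c⟩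
  | hα z => exact ⟨_, (atkinLehner_realN_alpha ι h z).symm⟩
  | hβ z => exact ⟨_, (atkinLehner_realN_beta ι h z).symm⟩
  | hadd a b h1 h2 =>
    rw [map_add, map_add]
    exact Subring.add_mem _ h1 h2
  | hmul a b h1 h2 =>
    rw [map_mul, map_mul]
    exact Subring.mul_mem _ h1 h2
  | hinv a h1 =>
    obtain ⟨b, hb⟩ := h1
    refine ⟨b⁻¹, ?_⟩
    rw [map_inv₀, map_inv₀, map_inv₀, hb]

/-- the ring isomorphism of `F'` onto its realisation. -/
noncomputable def realNEquiv (N : ℕ) [NeZero N] :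
    ↥(laurentBaseChange k (modularFunctionFieldFull N)) ≃+* ↥(realN ι N).range :=
  RingEquiv.ofBijective (realN ι N).rangeRestrict
    ⟨fun a b hab => realN_injective ι N (congrArg Subtype.val hab),
      (realN ι N).rangeRestrict_surjective⟩

theorem coe_realNEquiv (N : ℕ) [NeZero N]
    (z : ↥(laurentBaseChange k (modularFunctionFieldFull N))) :
    ((realNEquiv ι N z : ↥(realN ι N).range) : MerH) = realN ι N z := rfl

/-- **the Atkin–Lehner involution** of `F' = k(j(q^d) : d ∣ N ℓ)`, defined through the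
realisation `realN`. -/
noncomputable def atkinLehnerN (hℓ : ℓ.Prime) :
    ↥(laurentBaseChange k (modularFunctionFieldFull (N * ℓ))) →+*
      ↥(laurentBaseChange k (modularFunctionFieldFull (N * ℓ))) :=
  ((realNEquiv ι (N * ℓ)).symm : ↥(realN ι (N * ℓ)).range →+* _).comp
    (((MerH.atkinLehner h).comp (realN ι (N * ℓ))).codRestrict (realN ι (N * ℓ)).range
      (fun z => atkinLehner_realN_mem_range ι h hℓ z))

theorem realN_atkinLehnerN (hℓ : ℓ.Prime)
    (z : ↥(laurentBaseChange k (modularFunctionFieldFull (N * ℓ)))) :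
    realN ι (N * ℓ) (atkinLehnerN ι h hℓ z) = MerH.atkinLehner h (realN ι (N * ℓ) z) := by
  rw [← coe_realNEquiv]
  unfold atkinLehnerN
  simp only [RingHom.comp_apply, RingHom.coe_coe, RingEquiv.apply_symm_apply]
  rfl

theorem atkinLehnerN_alpha (hℓ : ℓ.Prime)
    (z : ↥(laurentBaseChange k (modularFunctionFieldFull N))) :
    atkinLehnerN ι h hℓ (heckeAlphaBar k N ℓ z) = heckeBetaBar k N ℓ z := by
  apply realN_injective ι (N * ℓ)
  rw [realN_atkinLehnerN, atkinLehner_realN_alpha]

theorem atkinLehnerN_beta (hℓ : ℓ.Prime)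
    (z : ↥(laurentBaseChange k (modularFunctionFieldFull N))) :
    atkinLehnerN ι h hℓ (heckeBetaBar k N ℓ z) = heckeAlphaBar k N ℓ z := by
  apply realN_injective ι (N * ℓ)
  rw [realN_atkinLehnerN, atkinLehner_realN_beta]

theorem atkinLehnerN_algebraMap (hℓ : ℓ.Prime) (c : k) :
    atkinLehnerN ι h hℓ (algebraMap k _ c) = algebraMap k _ c := by
  apply realN_injective ι (N * ℓ)
  rw [realN_atkinLehnerN, realN_algebraMap, MerH.atkinLehner_const]

/-- `W` is an involution. -/
theorem atkinLehnerN_atkinLehnerN (hℓ : ℓ.Prime)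
    (z : ↥(laurentBaseChange k (modularFunctionFieldFull (N * ℓ)))) :
    atkinLehnerN ι h hℓ (atkinLehnerN ι h hℓ z) = z := by
  induction z using induction_alpha_beta N ℓ hℓ with
  | hconst c => rw [atkinLehnerN_algebraMap, atkinLehnerN_algebraMap]
  | hα z => rw [atkinLehnerN_alpha, atkinLehnerN_beta]
  | hβ z => rw [atkinLehnerN_beta, atkinLehnerN_alpha]
  | hadd a b h1 h2 => rw [map_add, map_add, h1, h2]
  | hmul a b h1 h2 => rw [map_mul, map_mul, h1, h2]
  | hinv a h1 => rw [map_inv₀, map_inv₀, h1]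

theorem atkinLehnerN_bijective (hℓ : ℓ.Prime) :
    Function.Bijective (atkinLehnerN ι h hℓ) :=
  Function.Involutive.bijective (atkinLehnerN_atkinLehnerN ι h hℓ)

end Construction

end Fermat.Agent.X0N
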