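/-
J-A third wave, package (UP) (helper7), part 1: the embedding of the modular function field
`F_K = K·ℚ(j_d : d ∣ N) ⊂ K((q))` into the tower field `E_K = K(t)·F_w ⊂ K((x))`, `q = x ^ w`
(`legE` for `w = 2`, `hesE` for `w = 3`), its compatibility with coefficient change, and the
finiteness of `E_K / F_K`.
-/
import Mathlib
import Fermat.Agent.JA.GEOBASE_helper8_Compat

set_option autoImplicit false
set_option linter.unusedSectionVars false
set_option linter.style.haveILetI false
set_option synthInstance.maxHeartbeats 200000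

open HahnSeries IntermediateField AlgebraicCurve ModularCurve Polynomial

namespace Fermat.Agent.JA

open scoped Fermat.Agent.JA.Host

noncomputable section

section General

variable (K : Type*) [Field K] [Algebra ℚ K] (N w : ℕ) [NeZero N] [NeZero w]
  (t : LaurentSeries K)

theorem keyFw_le_Etu : keyFw K N w ≤ Host.Etu (keyFw K N w) t 1 :=
  le_trans (le_sup_left : keyFw K N w ≤ Host.Fu (keyFw K N w) 1) le_sup_right

/-- the embedding `F_K → E_K = K(t)·F_w`, `f(q) ↦ f(x ^ w)`. -/
def fullToEtu : ↥(keyFq K N) →ₐ[K] ↥(Host.Etu (keyFw K N w) t 1) :=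
  (IntermediateField.inclusion (keyFw_le_Etu K N w t)).comp
    (hostImageEquiv K w (keyFq K N)).toAlgHom

theorem coe_fullToEtu (f : ↥(keyFq K N)) :
    ((fullToEtu K N w t f : ↥(Host.Etu (keyFw K N w) t 1)) : LaurentSeries K) =
      qExpand K w (f : LaurentSeries K) := rfl

theorem Etu_one_eq_sup : Host.Etu (keyFw K N w) t 1 = keyFw K N w ⊔ K⟮t⟯ := by
  have h : Host.Fu (keyFw K N w) 1 = keyFw K N w := by
    refine le_antisymm (sup_le le_rfl ?_) le_sup_left
    rw [adjoin_simple_le_iff]
    exact one_mem _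
  show K⟮t⟯ ⊔ Host.Fu (keyFw K N w) 1 = _
  rw [h, sup_comm]

/-- `E_K / F_w` is finite when `t` is integral over `K(j(x ^ w))`. -/
theorem finite_keyFw_Etu (ht : IsIntegral ↥K⟮jqNModC K w⟯ t) :
    Module.Finite ↥(keyFw K N w) ↥(Host.Etu (keyFw K N w) t 1) := by
  refine Host.finite_of_eq_sup_simple t (Etu_one_eq_sup K N w t) ?_
  exact ht.tower_top

/-- `E_K / F_K` is finite (for the algebra structure given by `fullToEtu`). -/
theorem finite_fullToEtu (ht : IsIntegral ↥K⟮jqNModC K w⟯ t) :
    letI := (fullToEtu K N w t).toRingHom.toAlgebra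
    Module.Finite ↥(keyFq K N) ↥(Host.Etu (keyFw K N w) t 1) := by
  letI := (fullToEtu K N w t).toRingHom.toAlgebra
  haveI := finite_keyFw_Etu K N w t ht
  refine Module.Finite.of_equiv_equiv (A₁ := ↥(keyFw K N w))
    (B₁ := ↥(Host.Etu (keyFw K N w) t 1))
    (hostImageEquiv K w (keyFq K N)).symm.toRingEquiv (RingEquiv.refl _) ?_
  refine RingHom.ext fun y => ?_
  obtain ⟨x, rfl⟩ := (hostImageEquiv K w (keyFq K N)).surjective y
  show fullToEtu K N w t ((hostImageEquiv K w (keyFq K N)).symm
    (hostImageEquiv K w (keyFq K N) x)) = _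
  rw [AlgEquiv.symm_apply_apply]
  rfl

end General

section Coeff

variable {K L : Type*} [Field K] [Field L] [Algebra ℚ K] [Algebra ℚ L] (φ : K →+* L)
  (N w : ℕ) [NeZero N] [NeZero w]

/-- compatibility of the embeddings `F → E` with coefficient change. -/
theorem coeffMap_fullToEtu (t : LaurentSeries K) (t' : LaurentSeries L) (f : ↥(keyFq K N)) :
    coeffMap φ ((fullToEtu K N w t f : ↥(Host.Etu (keyFw K N w) t 1)) : LaurentSeries K) =
      ((fullToEtu L N w t' ⟨coeffMap φ (f : LaurentSeries K),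
        coeffMap_hom_mem_laurentBaseChange φ _ f.2⟩ :
          ↥(Host.Etu (keyFw L N w) t' 1)) : LaurentSeries L) := by
  rw [coe_fullToEtu, coe_fullToEtu, coeffMap_qExpand]

end Coeff

section LegHes

variable (K : Type*) [Field K] [Algebra ℚ K] (N : ℕ) [NeZero N]

/-- the embedding `F_K → legE K N`. -/
def fullToLegE : ↥(keyFq K N) →ₐ[K] ↥(legE K N) := fullToEtu K N 2 (legT K)

/-- the embedding `F_K → hesE K N`. -/
def fullToHesE : ↥(keyFq K N) →ₐ[K] ↥(hesE K N) := fullToEtu K N 3 (hesT K)

theorem coe_fullToLegE (f : ↥(keyFq K N)) :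
    ((fullToLegE K N f : ↥(legE K N)) : LaurentSeries K) = qExpand K 2 (f : LaurentSeries K) :=
  rfl

theorem coe_fullToHesE (f : ↥(keyFq K N)) :
    ((fullToHesE K N f : ↥(hesE K N)) : LaurentSeries K) = qExpand K 3 (f : LaurentSeries K) :=
  rfl

variable {K} in
theorem coeffMap_fullToLegE {L : Type*} [Field L] [Algebra ℚ L] (φ : K →+* L)
    (f : ↥(keyFq K N)) :
    coeffMap φ ((fullToLegE K N f : ↥(legE K N)) : LaurentSeries K) =
      ((fullToLegE L N ⟨coeffMap φ (f : LaurentSeries K),
        coeffMap_hom_mem_laurentBaseChange φ _ f.2⟩ : ↥(legE L N)) : LaurentSeries L) :=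
  coeffMap_fullToEtu φ N 2 (legT K) (legT L) f

variable {K} in
theorem coeffMap_fullToHesE {L : Type*} [Field L] [Algebra ℚ L] (φ : K →+* L)
    (f : ↥(keyFq K N)) :
    coeffMap φ ((fullToHesE K N f : ↥(hesE K N)) : LaurentSeries K) =
      ((fullToHesE L N ⟨coeffMap φ (f : LaurentSeries K),
        coeffMap_hom_mem_laurentBaseChange φ _ f.2⟩ : ↥(hesE L N)) : LaurentSeries L) :=
  coeffMap_fullToEtu φ N 3 (hesT K) (hesT L) f

/-- `legE K N / F_K` is finite. -/
theorem finite_fullToLegE :
    letI := (fullToLegE K N).toRingHom.toAlgebra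
    Module.Finite ↥(keyFq K N) ↥(legE K N) :=
  finite_fullToEtu K N 2 (legT K) (isIntegral_legT K)

/-- `hesE K N / F_K` is finite. -/
theorem finite_fullToHesE :
    letI := (fullToHesE K N).toRingHom.toAlgebra
    Module.Finite ↥(keyFq K N) ↥(hesE K N) :=
  finite_fullToEtu K N 3 (hesT K) (isIntegral_hesT K)

end LegHes

end

end Fermat.Agent.JA
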