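/-
J-A package BC — helper9. **(BC1), descent of finitely many elements**: every element of the
function field `Ω·F₀` comes from `K₁·F₀` for every intermediate field `K₁` containing finitely many
prescribed constants; Laurent series with coefficients in a subring lift coefficientwise; the
leading coefficient commutes with coefficientwise injective maps.
-/
import Mathlib
import Fermat.Agent.X0N.LD_helper1_Laurent

set_option autoImplicit false
set_option linter.unusedSectionVars false

open HahnSeries IntermediateField ModularCurve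

namespace Fermat.Agent.JA

open Fermat.Agent.X0N

section Desc

variable {Ω : Type*} [Field Ω] [Algebra ℚ Ω] (F₀ : IntermediateField ℚ (LaurentSeries ℚ))

/-- **(BC1)**: an element of `Ω·F₀` is defined over every intermediate field containing a suitable
finite set of constants. -/
theorem exists_finset_forall_descent {x : LaurentSeries Ω} (hx : x ∈ laurentBaseChange Ω F₀) :
    ∃ s : Finset Ω, ∀ K₁ : IntermediateField ℚ Ω, (∀ c ∈ s, c ∈ K₁) →
      ∃ x₁ ∈ laurentBaseChange ↥K₁ F₀, iota ↥K₁ Ω x₁ = x := by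
  classical
  rw [mem_laurentBaseChange_iff] at hx
  induction hx using Subfield.closure_induction with
  | mem x hx =>
    rcases hx with ⟨c, rfl⟩ | ⟨z, hz, rfl⟩
    · refine ⟨{c}, fun K₁ hK₁ => ?_⟩
      have hc : c ∈ K₁ := hK₁ c (Finset.mem_singleton_self c)
      refine ⟨algebraMap ↥K₁ (LaurentSeries ↥K₁) ⟨c, hc⟩,
        (laurentBaseChange ↥K₁ F₀).algebraMap_mem _, ?_⟩
      rw [iota_algebraMap]
      rfl
    · exact ⟨∅, fun K₁ _ => ⟨coeffEmb ↥K₁ z, coeffEmb_mem_laurentBaseChange ↥K₁ hz,
        iota_coeffEmb z⟩⟩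
  | one => exact ⟨∅, fun K₁ _ => ⟨1, one_mem _, map_one _⟩⟩
  | add x y hx hy ihx ihy =>
    obtain ⟨s, hs⟩ := ihx
    obtain ⟨t, ht⟩ := ihy
    refine ⟨s ∪ t, fun K₁ hK₁ => ?_⟩
    obtain ⟨x₁, hx₁, rfl⟩ := hs K₁ (fun c hc => hK₁ c (Finset.mem_union_left _ hc))
    obtain ⟨y₁, hy₁, rfl⟩ := ht K₁ (fun c hc => hK₁ c (Finset.mem_union_right _ hc))
    exact ⟨x₁ + y₁, add_mem hx₁ hy₁, map_add _ _ _⟩
  | neg x hx ihx =>
    obtain ⟨s, hs⟩ := ihx
    refine ⟨s, fun K₁ hK₁ => ?_⟩
    obtain ⟨x₁, hx₁, rfl⟩ := hs K₁ hK₁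
    exact ⟨-x₁, neg_mem hx₁, map_neg _ _⟩
  | inv x hx ihx =>
    obtain ⟨s, hs⟩ := ihx
    refine ⟨s, fun K₁ hK₁ => ?_⟩
    obtain ⟨x₁, hx₁, rfl⟩ := hs K₁ hK₁
    exact ⟨x₁⁻¹, inv_mem hx₁, map_inv₀ _ _⟩
  | mul x y hx hy ihx ihy =>
    obtain ⟨s, hs⟩ := ihx
    obtain ⟨t, ht⟩ := ihy
    refine ⟨s ∪ t, fun K₁ hK₁ => ?_⟩
    obtain ⟨x₁, hx₁, rfl⟩ := hs K₁ (fun c hc => hK₁ c (Finset.mem_union_left _ hc))
    obtain ⟨y₁, hy₁, rfl⟩ := ht K₁ (fun c hc => hK₁ c (Finset.mem_union_right _ hc))
    exact ⟨x₁ * y₁, mul_mem hx₁ hy₁, map_mul _ _ _⟩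

/-- the same for a finite family. -/
theorem exists_finset_forall_descent_family {ι : Type*} [Fintype ι] {x : ι → LaurentSeries Ω}
    (hx : ∀ i, x i ∈ laurentBaseChange Ω F₀) :
    ∃ s : Finset Ω, ∀ K₁ : IntermediateField ℚ Ω, (∀ c ∈ s, c ∈ K₁) →
      ∀ i, ∃ x₁ ∈ laurentBaseChange ↥K₁ F₀, iota ↥K₁ Ω x₁ = x i := by
  classical
  choose s hs using fun i => exists_finset_forall_descent F₀ (hx i)
  refine ⟨Finset.univ.biUnion s, fun K₁ hK₁ i => hs i K₁ fun c hc => hK₁ c ?_⟩
  exact Finset.mem_biUnion.mpr ⟨i, Finset.mem_univ i, hc⟩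

end Desc

section LiftCoeff

variable {R S : Type*} [CommRing R] [CommRing S]

/-- a Laurent series all of whose coefficients lie in the range of `f` is a coefficientwise
image. -/
theorem exists_coeffMap_eq_of_forall_mem_range (f : R →+* S) (x : LaurentSeries S)
    (hx : ∀ n, x.coeff n ∈ f.range) : ∃ y : LaurentSeries R, coeffMap f y = x := by
  classical
  choose c hc using hx
  refine ⟨⟨fun n => if x.coeff n = 0 then 0 else c n, ?_⟩, ?_⟩
  · refine x.isPWO_support.mono fun n hn => ?_
    rw [Function.mem_support] at hn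
    rw [HahnSeries.mem_support]
    intro h
    exact hn (if_pos h)
  · ext n
    rw [coeffMap_coeff]
    change f (if x.coeff n = 0 then 0 else c n) = x.coeff n
    split_ifs with h
    · rw [map_zero, h]
    · exact hc n

/-- the order of a Laurent series is unchanged by a coefficientwise injective map. -/
theorem order_coeffMap_of_injective {f : R →+* S} (hf : Function.Injective f)
    (x : LaurentSeries R) : (coeffMap f x).order = x.order := by
  by_cases hx : x = 0
  · rw [hx, map_zero, HahnSeries.order_zero, HahnSeries.order_zero]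
  · have hfx : coeffMap f x ≠ 0 := by
      intro h
      apply hx
      ext n
      have h1 := congrArg (fun z => z.coeff n) h
      simp only [coeffMap_coeff, HahnSeries.coeff_zero] at h1
      rw [HahnSeries.coeff_zero]
      exact hf (by rw [h1, map_zero])
    apply le_antisymm
    · apply HahnSeries.order_le_of_coeff_ne_zero
      rw [coeffMap_coeff]
      intro h
      exact hx (HahnSeries.coeff_order_eq_zero.mp (hf (by rw [h, map_zero])))
    · apply HahnSeries.order_le_of_coeff_ne_zero
      intro h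
      apply hfx
      apply HahnSeries.coeff_order_eq_zero.mp
      rw [coeffMap_coeff, h, map_zero]

/-- the leading coefficient commutes with a coefficientwise injective map. -/
theorem leadingCoeff_coeffMap_of_injective {f : R →+* S} (hf : Function.Injective f)
    (x : LaurentSeries R) : (coeffMap f x).leadingCoeff = f x.leadingCoeff := by
  rw [HahnSeries.leadingCoeff_eq, HahnSeries.leadingCoeff_eq, order_coeffMap_of_injective hf,
    coeffMap_coeff]

end LiftCoeff

end Fermat.Agent.JA
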