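/-
J-A package ES / C3 (helper4), part 1: values of functions at places.

`HasValueAt P f c` : the function `f` is regular at the place `P` and takes the value `c : K`
there (i.e. `f - c` lies in the maximal ideal of `P`).  Relational form: no junk values and no
regularity side conditions.  Ring-hom rules, uniqueness, existence at places of degree one,
transport along semilinear automorphisms and restriction along field embeddings.
-/
import Mathlib
import Fermat.Prelude.Def_AlgebraicCurve_Correspondence
import Fermat.Prelude.Def_AlgebraicCurve_Repartitions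
import Fermat.Agent.FF.PlaceBasic
import Fermat.Agent.FF.LocalDer

set_option autoImplicit false
set_option linter.unusedSectionVars false
set_option linter.style.haveILetI false

open AlgebraicCurve WithZero

namespace Fermat.Agent.JA

variable {K F : Type*} [Field K] [Field F] [Algebra K F]

/-- `f` is regular at `P` with value `c`. -/
def HasValueAt (P : Place K F) (f : F) (c : K) : Prop :=
  P.adicValuation (f - algebraMap K F c) < 1

namespace HasValueAt

variable {P : Place K F} {f g : F} {c d : K}

theorem iff_ord : HasValueAt P f c ↔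
    f - algebraMap K F c = 0 ∨ 0 < P.ord (f - algebraMap K F c) := by
  unfold HasValueAt
  by_cases h0 : f - algebraMap K F c = 0
  · rw [h0, map_zero]
    exact ⟨fun _ => Or.inl rfl, fun _ => zero_lt_one⟩
  · rw [P.adicValuation_eq_exp_neg_ord h0, ← exp_zero, exp_lt_exp, or_iff_right h0]
    omega

theorem of_eq (h : f = algebraMap K F c) : HasValueAt P f c := by
  unfold HasValueAt
  rw [h, sub_self, map_zero]
  exact zero_lt_one

theorem of_ord_pos (h : 0 < P.ord (f - algebraMap K F c)) : HasValueAt P f c :=
  iff_ord.mpr (Or.inr h)

theorem algebraMap' (P : Place K F) (c : K) : HasValueAt P (algebraMap K F c) c := of_eq rfl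

theorem zero' (P : Place K F) : HasValueAt P (0 : F) (0 : K) := of_eq (map_zero _).symm

theorem one' (P : Place K F) : HasValueAt P (1 : F) (1 : K) := of_eq (map_one _).symm

/-- a function with a value at `P` is regular at `P`. -/
theorem mem (h : HasValueAt P f c) : f ∈ P.toValuationSubring := by
  have h1 : f - algebraMap K F c ∈ P.toValuationSubring :=
    (Fermat.Agent.FF.PlaceAux.mem_iff_adicValuation_le_one P).mpr (le_of_lt h)
  have h2 := P.toValuationSubring.add_mem _ _ h1 (P.algebraMap_mem' c)
  rwa [sub_add_cancel] at h2

theorem adicValuation_le_one (h : HasValueAt P f c) : P.adicValuation f ≤ 1 :=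
  P.adicValuation_le_one_of_mem h.mem

theorem add (hf : HasValueAt P f c) (hg : HasValueAt P g d) : HasValueAt P (f + g) (c + d) := by
  unfold HasValueAt at *
  have e : f + g - algebraMap K F (c + d) = (f - algebraMap K F c) + (g - algebraMap K F d) := by
    rw [map_add]; ring
  rw [e]
  exact Valuation.map_add_lt _ hf hg

theorem neg (hf : HasValueAt P f c) : HasValueAt P (-f) (-c) := by
  unfold HasValueAt at *
  have e : -f - algebraMap K F (-c) = -(f - algebraMap K F c) := by
    rw [map_neg]; ring
  rw [e, Valuation.map_neg]
  exact hf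

theorem sub (hf : HasValueAt P f c) (hg : HasValueAt P g d) : HasValueAt P (f - g) (c - d) := by
  rw [sub_eq_add_neg, sub_eq_add_neg]
  exact hf.add hg.neg

theorem mul (hf : HasValueAt P f c) (hg : HasValueAt P g d) : HasValueAt P (f * g) (c * d) := by
  have hg1 := hg.adicValuation_le_one
  have hc1 : P.adicValuation (algebraMap K F c) ≤ 1 := P.adicValuation_algebraMap_le_one c
  unfold HasValueAt at *
  have e : f * g - algebraMap K F (c * d)
      = (f - algebraMap K F c) * g + algebraMap K F c * (g - algebraMap K F d) := by
    rw [map_mul]; ring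
  rw [e]
  refine Valuation.map_add_lt _ ?_ ?_
  · rw [map_mul]
    calc P.adicValuation (f - algebraMap K F c) * P.adicValuation g
        ≤ P.adicValuation (f - algebraMap K F c) * 1 := by gcongr
      _ < 1 := by rw [mul_one]; exact hf
  · rw [map_mul]
    calc P.adicValuation (algebraMap K F c) * P.adicValuation (g - algebraMap K F d)
        ≤ 1 * P.adicValuation (g - algebraMap K F d) := by gcongr
      _ < 1 := by rw [one_mul]; exact hg

theorem pow (hf : HasValueAt P f c) (n : ℕ) : HasValueAt P (f ^ n) (c ^ n) := by
  induction n with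
  | zero => rw [pow_zero, pow_zero]; exact one' P
  | succ n ih => rw [pow_succ, pow_succ]; exact ih.mul hf

theorem prod {ι : Type*} (s : Finset ι) (f : ι → F) (c : ι → K)
    (h : ∀ i ∈ s, HasValueAt P (f i) (c i)) : HasValueAt P (∏ i ∈ s, f i) (∏ i ∈ s, c i) := by
  classical
  induction s using Finset.induction_on with
  | empty => rw [Finset.prod_empty, Finset.prod_empty]; exact one' P
  | insert a s ha ih =>
    rw [Finset.prod_insert ha, Finset.prod_insert ha]
    exact (h a (Finset.mem_insert_self a s)).mul
      (ih fun i hi => h i (Finset.mem_insert_of_mem hi))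

theorem sum {ι : Type*} (s : Finset ι) (f : ι → F) (c : ι → K)
    (h : ∀ i ∈ s, HasValueAt P (f i) (c i)) : HasValueAt P (∑ i ∈ s, f i) (∑ i ∈ s, c i) := by
  classical
  induction s using Finset.induction_on with
  | empty => rw [Finset.sum_empty, Finset.sum_empty]; exact zero' P
  | insert a s ha ih =>
    rw [Finset.sum_insert ha, Finset.sum_insert ha]
    exact (h a (Finset.mem_insert_self a s)).add
      (ih fun i hi => h i (Finset.mem_insert_of_mem hi))

/-- the valuation of a nonzero constant is one. -/
theorem adicValuation_algebraMap_eq_one (P : Place K F) {a : K} (ha : a ≠ 0) :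
    P.adicValuation (algebraMap K F a) = 1 := by
  apply le_antisymm (P.adicValuation_algebraMap_le_one a)
  have h1 : P.adicValuation (algebraMap K F a⁻¹) ≤ 1 := P.adicValuation_algebraMap_le_one a⁻¹
  have h2 : P.adicValuation (algebraMap K F a) * P.adicValuation (algebraMap K F a⁻¹) = 1 := by
    rw [← map_mul, ← map_mul, mul_inv_cancel₀ ha, map_one, map_one]
  by_contra hlt
  rw [not_le] at hlt
  have h3 : P.adicValuation (algebraMap K F a) * P.adicValuation (algebraMap K F a⁻¹) < 1 := by
    calc P.adicValuation (algebraMap K F a) * P.adicValuation (algebraMap K F a⁻¹)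
        ≤ P.adicValuation (algebraMap K F a) * 1 := by gcongr
      _ < 1 := by rw [mul_one]; exact hlt
  exact absurd h2 (ne_of_lt h3)

/-- the value is unique. -/
theorem unique (h : HasValueAt P f c) (h' : HasValueAt P f d) : c = d := by
  by_contra hne
  have hsub := h'.neg.add h
  have e : -f + f = 0 := by ring
  unfold HasValueAt at hsub
  rw [e, zero_sub, Valuation.map_neg, adicValuation_algebraMap_eq_one P (by
    intro h0
    apply hne
    have : c - d = 0 := by rw [← h0]; ring
    exact sub_eq_zero.mp this)] at hsub
  exact lt_irrefl _ hsub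

theorem eq_of_algebraMap (h : HasValueAt P (algebraMap K F c) d) : c = d :=
  (algebraMap' P c).unique h

/-- a function vanishing at `P` (value `0`) has positive order, unless it is zero. -/
theorem zero_iff : HasValueAt P f 0 ↔ f = 0 ∨ 0 < P.ord f := by
  rw [iff_ord, map_zero, sub_zero]

theorem zero_iff_lt : HasValueAt P f 0 ↔ P.adicValuation f < 1 := by
  unfold HasValueAt
  rw [map_zero, sub_zero]

/-- a function with nonzero value at `P` is a unit at `P`. -/
theorem ord_eq_zero (h : HasValueAt P f c) (hc : c ≠ 0) : f ≠ 0 ∧ P.ord f = 0 := by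
  have h1 : P.adicValuation f = 1 := by
    have e : f = algebraMap K F c + (f - algebraMap K F c) := by ring
    rw [e, Valuation.map_add_eq_of_lt_left]
    · exact adicValuation_algebraMap_eq_one P hc
    · rw [adicValuation_algebraMap_eq_one P hc]; exact h
  have hf0 : f ≠ 0 := by
    intro h0
    rw [h0, map_zero] at h1
    exact zero_ne_one h1
  refine ⟨hf0, ?_⟩
  rw [P.adicValuation_eq_exp_neg_ord hf0, ← exp_zero, exp_inj] at h1
  omega

theorem inv (h : HasValueAt P f c) (hc : c ≠ 0) : HasValueAt P f⁻¹ c⁻¹ := by
  obtain ⟨hf0, hord⟩ := h.ord_eq_zero hc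
  have hvf : P.adicValuation f = 1 := by
    rw [P.adicValuation_eq_exp_neg_ord hf0, hord, neg_zero, exp_zero]
  have hcF : algebraMap K F c ≠ 0 := (map_ne_zero _).mpr hc
  unfold HasValueAt at *
  have e : f⁻¹ - algebraMap K F c⁻¹
      = -(f - algebraMap K F c) * (f⁻¹ * (algebraMap K F c)⁻¹) := by
    rw [map_inv₀]; field_simp; ring
  rw [e, map_mul, Valuation.map_neg, map_mul, map_inv₀, map_inv₀, hvf,
    adicValuation_algebraMap_eq_one P hc, inv_one, mul_one, mul_one]
  exact h

/-- at a place of degree one every regular function has a value. -/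
theorem exists_of_mem (hdeg : P.deg = 1) (hf : f ∈ P.toValuationSubring) :
    ∃ c : K, HasValueAt P f c := by
  obtain ⟨a, ha⟩ := Fermat.Agent.FF.exists_const_sub_ordGE_one P hdeg hf
  refine ⟨a, iff_ord.mpr ?_⟩
  rcases ha with ha | ha
  · exact Or.inl ha
  · exact Or.inr (by omega)

end HasValueAt

section ValueAt

open Classical in
/-- the value of `f` at `P` (junk value `0` if `f` has no value at `P`). -/
noncomputable def valueAt (P : Place K F) (f : F) : K :=
  if h : ∃ c : K, HasValueAt P f c then h.choose else 0

theorem HasValueAt.valueAt_eq {P : Place K F} {f : F} {c : K} (h : HasValueAt P f c) :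
    valueAt P f = c := by
  have hex : ∃ c : K, HasValueAt P f c := ⟨c, h⟩
  unfold valueAt
  rw [dif_pos hex]
  exact hex.choose_spec.unique h

theorem hasValueAt_valueAt {P : Place K F} {f : F} (h : ∃ c : K, HasValueAt P f c) :
    HasValueAt P f (valueAt P f) := by
  obtain ⟨c, hc⟩ := h
  rw [hc.valueAt_eq]
  exact hc

theorem hasValueAt_valueAt_of_mem {P : Place K F} {f : F} (hdeg : P.deg = 1)
    (hf : f ∈ P.toValuationSubring) : HasValueAt P f (valueAt P f) :=
  hasValueAt_valueAt (HasValueAt.exists_of_mem hdeg hf)

end ValueAt

section Semilinear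

variable {P : Place K F} {f : F} {c : K}

/-- transport of values along a semilinear automorphism. -/
theorem HasValueAt.smul (g : SemilinearAut K F) (h : HasValueAt P f c) :
    HasValueAt (g • P) (g • f) (SemilinearAut.baseAut g c) := by
  rw [HasValueAt.iff_ord] at h ⊢
  have e : g • f - algebraMap K F (SemilinearAut.baseAut g c) = g • (f - algebraMap K F c) := by
    rw [smul_sub, SemilinearAut.smul_algebraMap]
  rw [e, SemilinearAut.ord_smul]
  rcases h with h | h
  · left; rw [h, smul_zero]
  · right; exact h

theorem hasValueAt_smul_iff (g : SemilinearAut K F) :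
    HasValueAt (g • P) (g • f) (SemilinearAut.baseAut g c) ↔ HasValueAt P f c := by
  refine ⟨fun h => ?_, fun h => h.smul g⟩
  have h' := h.smul g⁻¹
  rwa [inv_smul_smul, inv_smul_smul, SemilinearAut.baseAut_inv, RingEquiv.symm_apply_apply] at h'

/-- value of `g • f` at `P` in terms of the value of `f` at `g⁻¹ • P`. -/
theorem hasValueAt_smul_left_iff (g : SemilinearAut K F) :
    HasValueAt P (g • f) (SemilinearAut.baseAut g c) ↔ HasValueAt (g⁻¹ • P) f c := by
  rw [← hasValueAt_smul_iff g (P := g⁻¹ • P), smul_inv_smul]

end Semilinear

section Restrict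

variable {F' : Type*} [Field F'] [Algebra K F']

/-- values along a field embedding: the value of `φ f` at `P'` is the value of `f` at the
restriction of `P'`. -/
theorem hasValueAt_restrictAlong_iff (φ : F →ₐ[K] F') (hφ : φ.toRingHom.IsIntegral)
    (P' : Place K F') (f : F) (c : K) :
    HasValueAt (P'.restrictAlong φ hφ) f c ↔ HasValueAt P' (φ f) c := by
  rw [HasValueAt.iff_ord, HasValueAt.iff_ord]
  have e : φ f - algebraMap K F' c = φ (f - algebraMap K F c) := by
    rw [map_sub, AlgHom.commutes]
  rw [e, Place.ord_restrictAlong φ hφ P' (f - algebraMap K F c)]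
  have hpos : 0 < Place.ramificationIndexAlong φ P' := by
    letI := algebraAlong φ
    haveI := isScalarTower_along φ
    haveI := isIntegral_along φ hφ
    exact Place.ramificationIndex_pos (F := F) P'
  have hinj : φ (f - algebraMap K F c) = 0 ↔ f - algebraMap K F c = 0 :=
    map_eq_zero_iff φ φ.toRingHom.injective
  rw [hinj]
  constructor
  · rintro (h | h)
    · exact Or.inl h
    · right
      exact Int.mul_pos (by exact_mod_cast hpos) h
  · rintro (h | h)
    · exact Or.inl h
    · right
      have h2 : (0 : ℤ) < (Place.ramificationIndexAlong φ P' : ℤ) := by exact_mod_cast hpos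
      exact (mul_pos_iff_of_pos_left h2).mp h

end Restrict

end Fermat.Agent.JA
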