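/-
J-A third wave, package R4 (base-change dictionary for places) — helper9. Part 3: the concrete
coefficient extensions of the host tower.

* `coeffHom φ E_K E_L h : ↥E_K →+* ↥E_L` — the coefficientwise map between intermediate fields of
  Laurent series, `coeffHom_algebraMap`, and the generation criterion `closure_range_coeffHom`;
* generation: `keyFq`, `keyFw`, `legE`, `hesE` over `L` are generated over `L` by the images of the
  corresponding fields over `K`;
* `coordOfHost` : a coordinate (`FF.Coord`) on an intermediate field of a host from a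
  transcendental `t` with `E / K(t)` finite; `finite_legE`, `finite_hesE`, and the coordinates
  `legCoord`, `hesCoord` (any `K ⊆ ℂ`), `legCoordBar`, `hesCoordBar` (over `Ω`), `legCoordBase`,
  `hesCoordBase`, `keyFqCoordBase` (over an intermediate field `K₁ ⊆ Ω`);
* all places of `legE Ω N`, `hesE Ω N` have degree one.
-/
import Mathlib
import Fermat.Agent.JA.GEOBASE_helper8_Compat
import Fermat.Agent.FF.Residue

set_option autoImplicit false
set_option linter.unusedSectionVars false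
set_option linter.style.haveILetI false
set_option synthInstance.maxHeartbeats 200000

open HahnSeries IntermediateField AlgebraicCurve ModularCurve Polynomial

namespace Fermat.Agent.JA

section CoeffHom

variable {K L : Type*} [Field K] [Field L] (φ : K →+* L)
  (E_K : IntermediateField K (LaurentSeries K)) (E_L : IntermediateField L (LaurentSeries L))
  (h : ∀ x ∈ E_K, coeffMap φ x ∈ E_L)

/-- the coefficientwise map between intermediate fields of Laurent series. -/
noncomputable def coeffHom : ↥E_K →+* ↥E_L where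
  toFun x := ⟨coeffMap φ x.1, h x.1 x.2⟩
  map_one' := Subtype.ext (map_one (coeffMap φ))
  map_mul' x y := Subtype.ext (map_mul (coeffMap φ) x.1 y.1)
  map_zero' := Subtype.ext (map_zero (coeffMap φ))
  map_add' x y := Subtype.ext (map_add (coeffMap φ) x.1 y.1)

theorem coe_coeffHom (x : ↥E_K) :
    ((coeffHom φ E_K E_L h x : ↥E_L) : LaurentSeries L) = coeffMap φ (x : LaurentSeries K) := rfl

theorem coeffHom_algebraMap (a : K) :
    coeffHom φ E_K E_L h (algebraMap K ↥E_K a) = algebraMap L ↥E_L (φ a) := by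
  apply Subtype.ext
  rw [coe_coeffHom]
  exact Fermat.Agent.Igusa.coeffMap_algebraMap' φ a

/-- **generation criterion**: if `E_L` is generated over `L` by the image of `E_K`, then the
subfield generated by the range of `coeffHom` and the constants is everything. -/
theorem closure_range_coeffHom
    (hgen : E_L ≤ IntermediateField.adjoin L (⇑(coeffMap φ) '' (E_K : Set (LaurentSeries K)))) :
    Subfield.closure (Set.range (coeffHom φ E_K E_L h) ∪ Set.range (algebraMap L ↥E_L)) = ⊤ := by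
  rw [eq_top_iff]
  rintro ⟨z, hz⟩ -
  have key : ∀ x : LaurentSeries L,
      x ∈ IntermediateField.adjoin L (⇑(coeffMap φ) '' (E_K : Set (LaurentSeries K))) →
      ∃ w : ↥E_L, (w : LaurentSeries L) = x ∧ w ∈
        Subfield.closure (Set.range (coeffHom φ E_K E_L h) ∪ Set.range (algebraMap L ↥E_L)) := by
    intro x hx
    induction hx using IntermediateField.adjoin_induction with
    | mem x hx =>
      obtain ⟨y, hy, rfl⟩ := hx
      refine ⟨coeffHom φ E_K E_L h ⟨y, hy⟩, rfl, Subfield.subset_closure (Or.inl ?_)⟩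
      exact ⟨(⟨y, hy⟩ : ↥E_K), rfl⟩
    | algebraMap c =>
      refine ⟨algebraMap L ↥E_L c, rfl, Subfield.subset_closure (Or.inr ?_)⟩
      exact ⟨c, rfl⟩
    | add x y _ _ hx hy =>
      obtain ⟨w₁, rfl, hw₁⟩ := hx
      obtain ⟨w₂, rfl, hw₂⟩ := hy
      exact ⟨w₁ + w₂, rfl, Subfield.add_mem _ hw₁ hw₂⟩
    | inv x _ hx =>
      obtain ⟨w₁, rfl, hw₁⟩ := hx
      exact ⟨w₁⁻¹, rfl, Subfield.inv_mem _ hw₁⟩
    | mul x y _ _ hx hy =>
      obtain ⟨w₁, rfl, hw₁⟩ := hx
      obtain ⟨w₂, rfl, hw₂⟩ := hy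
      exact ⟨w₁ * w₂, rfl, Subfield.mul_mem _ hw₁ hw₂⟩
  obtain ⟨w, hw1, hw2⟩ := key z (hgen hz)
  have hwz : w = ⟨z, hz⟩ := Subtype.ext hw1
  rw [← hwz]
  exact hw2

end CoeffHom

section Generation

open scoped Fermat.Agent.JA.Host

variable {K L : Type*} [Field K] [Field L] [Algebra ℚ K] [Algebra ℚ L] (φ : K →+* L)
  (N : ℕ) [NeZero N]

/-- `F_q(L)` is generated over `L` by the image of `F_q(K)`. -/
theorem keyFq_le_adjoin_image :
    keyFq L N ≤ IntermediateField.adjoin L (⇑(coeffMap φ) '' (keyFq K N : Set (LaurentSeries K))) := by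
  show IntermediateField.adjoin L _ ≤ _
  rw [IntermediateField.adjoin_le_iff]
  rintro _ ⟨z, hz, rfl⟩
  refine IntermediateField.subset_adjoin L _ ⟨coeffEmb K z, coeffEmb_mem_laurentBaseChange K hz, ?_⟩
  exact coeffMap_coeffEmb_hom φ z

/-- `F_w(L)` is generated over `L` by the image of `F_w(K)`. -/
theorem keyFw_le_adjoin_image (w : ℕ) [NeZero w] :
    keyFw L N w ≤
      IntermediateField.adjoin L (⇑(coeffMap φ) '' (keyFw K N w : Set (LaurentSeries K))) := by
  have h1 : keyFq L N ≤ (IntermediateField.adjoin L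
      (⇑(coeffMap φ) '' (keyFw K N w : Set (LaurentSeries K)))).comap (qExpandAlgHomC L w) := by
    show IntermediateField.adjoin L _ ≤ _
    rw [IntermediateField.adjoin_le_iff]
    rintro _ ⟨z, hz, rfl⟩
    show qExpandAlgHomC L w (coeffEmb L z) ∈ IntermediateField.adjoin L
      (⇑(coeffMap φ) '' (keyFw K N w : Set (LaurentSeries K)))
    rw [qExpandAlgHomC_apply]
    refine IntermediateField.subset_adjoin L _ ⟨qExpand K w (coeffEmb K z), ?_, ?_⟩
    · exact qExpand_mem_hostImage (coeffEmb_mem_laurentBaseChange K hz)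
    · rw [coeffMap_qExpand, coeffMap_coeffEmb_hom]
  exact IntermediateField.map_le_iff_le_comap.mpr h1

/-- `E(L) = L(t)·F_w(L)` is generated over `L` by the image of `E(K)`. -/
theorem etu_le_adjoin_image (w : ℕ) [NeZero w] (tK : LaurentSeries K) (tL : LaurentSeries L)
    (ht : coeffMap φ tK = tL) :
    Host.Etu (keyFw L N w) tL 1 ≤ IntermediateField.adjoin L
      (⇑(coeffMap φ) '' (Host.Etu (keyFw K N w) tK 1 : Set (LaurentSeries K))) := by
  have hsub : keyFw K N w ≤ Host.Etu (keyFw K N w) tK 1 :=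
    (le_sup_left : keyFw K N w ≤ Host.Fu (keyFw K N w) 1).trans
      (le_sup_right : Host.Fu (keyFw K N w) 1 ≤ Host.Etu (keyFw K N w) tK 1)
  refine sup_le ?_ (sup_le ?_ ?_)
  · rw [adjoin_simple_le_iff]
    exact IntermediateField.subset_adjoin L _ ⟨tK, Host.mem_Etu_t _ _ _, ht⟩
  · refine (keyFw_le_adjoin_image φ N w).trans (IntermediateField.adjoin.mono L _ _ ?_)
    exact Set.image_mono fun x hx => hsub hx
  · rw [adjoin_simple_le_iff]
    exact one_mem _

theorem legE_le_adjoin_image :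
    legE L N ≤ IntermediateField.adjoin L (⇑(coeffMap φ) '' (legE K N : Set (LaurentSeries K))) :=
  etu_le_adjoin_image φ N 2 (legT K) (legT L) (coeffMap_legT φ)

theorem hesE_le_adjoin_image :
    hesE L N ≤ IntermediateField.adjoin L (⇑(coeffMap φ) '' (hesE K N : Set (LaurentSeries K))) :=
  etu_le_adjoin_image φ N 3 (hesT K) (hesT L) (coeffMap_hesT φ)

end Generation

section CoordHost

open scoped Fermat.Agent.JA.Host

variable {K H : Type*} [Field K] [Field H] [Algebra K H]

/-- a coordinate on an intermediate field `E` of a host `H / K`: a transcendental `t ∈ E` with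
`E / K(t)` finite (inclusion algebra). -/
noncomputable def coordOfHost (E : IntermediateField K H) (t : H) (htr : Transcendental K t)
    [hle : Fact (K⟮t⟯ ≤ E)] [hfin : Module.Finite ↥K⟮t⟯ ↥E] : FF.Coord K ↥E where
  x := ⟨t, hle.out (IntermediateField.mem_adjoin_simple_self K t)⟩
  trans := by
    intro halg
    exact htr ((isAlgebraic_algHom_iff E.val Subtype.val_injective).mpr halg)
  fin := by
    set x : ↥E := ⟨t, hle.out (IntermediateField.mem_adjoin_simple_self K t)⟩ with hx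
    have hmap : (K⟮x⟯).map E.val = K⟮t⟯ := by
      rw [IntermediateField.adjoin_map, Set.image_singleton]
      rfl
    let e₁ : ↥K⟮x⟯ ≃ₐ[K] ↥K⟮t⟯ :=
      (IntermediateField.equivMap K⟮x⟯ E.val).trans (IntermediateField.equivOfEq hmap)
    refine Module.Finite.of_equiv_equiv (e₁.symm : ↥K⟮t⟯ ≃+* ↥K⟮x⟯) (RingEquiv.refl ↥E) ?_
    ext c
    obtain ⟨c', rfl⟩ := e₁.surjective c
    simp only [RingHom.comp_apply]
    have h1 : (e₁.symm : ↥K⟮t⟯ ≃+* ↥K⟮x⟯) (e₁ c') = c' := e₁.symm_apply_apply c'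
    erw [h1]
    rfl

theorem coe_coordOfHost_x (E : IntermediateField K H) (t : H) (htr : Transcendental K t)
    [hle : Fact (K⟮t⟯ ≤ E)] [hfin : Module.Finite ↥K⟮t⟯ ↥E] :
    (((coordOfHost E t htr).x : ↥E) : H) = t := rfl

end CoordHost

section Concrete

open scoped Fermat.Agent.JA.Host

variable (K : Type*) [Field K] [Algebra ℚ K] [Algebra K ℂ] (N : ℕ) [NeZero N]

set_option maxHeartbeats 1600000 in
/-- `E / K(t)` is finite, Legendre tower (`K ⊆ ℂ`). -/
theorem finite_legE : Module.Finite ↥K⟮legT K⟯ ↥(legE K N) := by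
  haveI : Module.Finite ↥K⟮jqNModC K 2⟯ ↥(keyFw K N 2) := finite_hostImage_full N 2
  exact Host.finite_Kt_Etu (keyFw K N 2) (jqNModC K 2) (legT K) 1 (isIntegral_legT K)
    isIntegral_one

set_option maxHeartbeats 1600000 in
/-- `E / K(t)` is finite, Hesse tower (`K ⊆ ℂ`). -/
theorem finite_hesE : Module.Finite ↥K⟮hesT K⟯ ↥(hesE K N) := by
  haveI : Module.Finite ↥K⟮jqNModC K 3⟯ ↥(keyFw K N 3) := finite_hostImage_full N 3
  exact Host.finite_Kt_Etu (keyFw K N 3) (jqNModC K 3) (hesT K) 1 (isIntegral_hesT K)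
    isIntegral_one

/-- the Legendre coordinate `t` on `E = K(t)·F_2`. -/
noncomputable def legCoord : FF.Coord K ↥(legE K N) :=
  haveI := finite_legE K N
  coordOfHost (legE K N) (legT K) (transcendental_legT K)

/-- the Hesse coordinate `t` on `E = K(t)·F_3`. -/
noncomputable def hesCoord : FF.Coord K ↥(hesE K N) :=
  haveI := finite_hesE K N
  coordOfHost (hesE K N) (hesT K) (transcendental_hesT K)

theorem coe_legCoord_x : (((legCoord K N).x : ↥(legE K N)) : LaurentSeries K) = legT K := rfl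

theorem coe_hesCoord_x : (((hesCoord K N).x : ↥(hesE K N)) : LaurentSeries K) = hesT K := rfl

end Concrete

section Bar

/-- `Ω = AlgebraicClosure ℚ`. -/
local notation "Ω" => AlgebraicClosure ℚ

variable (N : ℕ) [NeZero N]

/-- the Legendre coordinate on `E(Ω)`. -/
noncomputable def legCoordBar : FF.Coord Ω ↥(legE Ω N) :=
  letI : Algebra Ω ℂ := ((IsAlgClosed.lift : Ω →ₐ[ℚ] ℂ) : Ω →+* ℂ).toAlgebra
  legCoord Ω N

/-- the Hesse coordinate on `E(Ω)`. -/
noncomputable def hesCoordBar : FF.Coord Ω ↥(hesE Ω N) :=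
  letI : Algebra Ω ℂ := ((IsAlgClosed.lift : Ω →ₐ[ℚ] ℂ) : Ω →+* ℂ).toAlgebra
  hesCoord Ω N

theorem coe_legCoordBar_x :
    (((legCoordBar N).x : ↥(legE Ω N)) : LaurentSeries Ω) = legT Ω := rfl

theorem coe_hesCoordBar_x :
    (((hesCoordBar N).x : ↥(hesE Ω N)) : LaurentSeries Ω) = hesT Ω := rfl

/-- all places of the Legendre tower field over `Ω` have degree one. -/
theorem bcd_deg_eq_one_legE (P : Place Ω ↥(legE Ω N)) : P.deg = 1 := (legCoordBar N).deg_eq_one P

/-- all places of the Hesse tower field over `Ω` have degree one. -/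
theorem bcd_deg_eq_one_hesE (P : Place Ω ↥(hesE Ω N)) : P.deg = 1 := (hesCoordBar N).deg_eq_one P

variable (K₁ : IntermediateField ℚ Ω)

/-- the Legendre coordinate on `E(K₁)`, `K₁ ⊆ Ω`. -/
noncomputable def legCoordBase : FF.Coord ↥K₁ ↥(legE ↥K₁ N) :=
  letI : Algebra ↥K₁ ℂ :=
    (((IsAlgClosed.lift : Ω →ₐ[ℚ] ℂ) : Ω →+* ℂ).comp (algebraMap ↥K₁ Ω)).toAlgebra
  legCoord ↥K₁ N

/-- the Hesse coordinate on `E(K₁)`, `K₁ ⊆ Ω`. -/
noncomputable def hesCoordBase : FF.Coord ↥K₁ ↥(hesE ↥K₁ N) :=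
  letI : Algebra ↥K₁ ℂ :=
    (((IsAlgClosed.lift : Ω →ₐ[ℚ] ℂ) : Ω →+* ℂ).comp (algebraMap ↥K₁ Ω)).toAlgebra
  hesCoord ↥K₁ N

/-- the `j`-coordinate on `F(K₁)`, `K₁ ⊆ Ω`. -/
noncomputable def keyFqCoordBase : FF.Coord ↥K₁ ↥(keyFq ↥K₁ N) :=
  letI : Algebra ↥K₁ ℂ :=
    (((IsAlgClosed.lift : Ω →ₐ[ℚ] ℂ) : Ω →+* ℂ).comp (algebraMap ↥K₁ Ω)).toAlgebra
  Fermat.Agent.X0N.jCoordK ↥K₁ N

theorem coe_legCoordBase_x :
    (((legCoordBase N K₁).x : ↥(legE ↥K₁ N)) : LaurentSeries ↥K₁) = legT ↥K₁ := rfl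

theorem coe_hesCoordBase_x :
    (((hesCoordBase N K₁).x : ↥(hesE ↥K₁ N)) : LaurentSeries ↥K₁) = hesT ↥K₁ := rfl

end Bar

end Fermat.Agent.JA
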