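/-
J-A package BC — helper9. The abstract one-step lemma behind "constant field extensions are
unramified": `V → P` a local homomorphism of local rings, the maximal ideal of `V` generated by
`ϖ`, `α ∈ P` a root of a polynomial `f ∈ V[X]` whose reduction is separable. Then every element
`b(α)`, `b ∈ V[X]`, which divides a power of `ϖ` in `P` is a unit times a power of `ϖ`.
-/
import Mathlib

set_option autoImplicit false

open Polynomial IsLocalRing

namespace Fermat.Agent.JA

section AbstractStep

variable {V P : Type*} [CommRing V] [IsLocalRing V] [CommRing P] [IsLocalRing P]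
  (inc : V →+* P) [IsLocalHom inc] (ϖ : V) (hϖ : maximalIdeal V = Ideal.span {ϖ})
  (α : P) (f : V[X]) (hfα : eval₂ inc α f = 0) (hsep : (f.map (residue V)).Separable)

/-- evaluation commutes with reduction. -/
theorem residue_eval₂_eq (p : V[X]) :
    residue P (eval₂ inc α p) =
      eval₂ (ResidueField.map inc) (residue P α) (p.map (residue V)) := by
  rw [Polynomial.eval₂_map, Polynomial.hom_eval₂]
  have h : (residue P).comp inc = (ResidueField.map inc).comp (residue V) :=
    RingHom.ext fun r => (ResidueField.map_residue inc r).symm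
  rw [h]

include hϖ hfα hsep in
/-- **the local structure of `V[α]` at the point of `P`**: if `b(α)` is a non-unit of `P`, then
`g(α) b(α) = ϖ r(α)` with `g(α)` a unit of `P`. -/
theorem exists_unit_mul_eq (b : V[X]) (hb : eval₂ inc α b ∈ maximalIdeal P) :
    ∃ g r : V[X], IsUnit (eval₂ inc α g) ∧
      eval₂ inc α g * eval₂ inc α b = inc ϖ * eval₂ inc α r := by
  classical
  set j := ResidueField.map inc with hj
  set αbar := residue P α with hαbar
  set bt := b.map (residue V) with hbt
  set ft := f.map (residue V) with hft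
  have hb0 : eval₂ j αbar bt = 0 := by
    rw [← residue_eval₂_eq]
    exact (residue_eq_zero_iff _).2 hb
  have hf0 : eval₂ j αbar ft = 0 := by
    rw [← residue_eval₂_eq, hfα, map_zero]
  -- the gcd
  set D := EuclideanDomain.gcd bt ft with hD
  have hD0 : eval₂ j αbar D = 0 := by
    rw [hD, EuclideanDomain.gcd_eq_gcd_ab, eval₂_add, eval₂_mul, eval₂_mul, hb0, hf0, zero_mul,
      zero_mul, add_zero]
  obtain ⟨gt, hgt⟩ : D ∣ ft := EuclideanDomain.gcd_dvd_right bt ft
  obtain ⟨b', hb'⟩ : D ∣ bt := EuclideanDomain.gcd_dvd_left bt ft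
  have hcop : IsCoprime D gt := by
    have h := hsep
    rw [hgt] at h
    exact h.isCoprime
  obtain ⟨a, c, hac⟩ := hcop
  have hgunit : eval₂ j αbar gt ≠ 0 := by
    intro h0
    have h1 := congrArg (eval₂ j αbar) hac
    rw [eval₂_add, eval₂_mul, eval₂_mul, hD0, h0, mul_zero, mul_zero, add_zero, eval₂_one] at h1
    exact zero_ne_one h1
  -- lifts
  obtain ⟨g, hg⟩ := Polynomial.map_surjective (residue V) residue_surjective gt
  obtain ⟨q, hq⟩ := Polynomial.map_surjective (residue V) residue_surjective b'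
  have hmap : (g * b - f * q).map (residue V) = 0 := by
    rw [Polynomial.map_sub, Polynomial.map_mul, Polynomial.map_mul, hg, hq, ← hbt, ← hft, hgt,
      hb']
    ring
  have hmem : g * b - f * q ∈ Ideal.map (C : V →+* V[X]) (Ideal.span {ϖ}) := by
    rw [Ideal.mem_map_C_iff]
    intro n
    rw [← hϖ, ← residue_eq_zero_iff, ← Polynomial.coeff_map, hmap, coeff_zero]
  rw [Ideal.map_span, Set.image_singleton, Ideal.mem_span_singleton'] at hmem
  obtain ⟨r, hr⟩ := hmem
  refine ⟨g, r, ?_, ?_⟩
  · have h1 : residue P (eval₂ inc α g) ≠ 0 := by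
      rw [residue_eval₂_eq, hg]
      exact hgunit
    by_contra hnu
    exact h1 ((residue_eq_zero_iff _).2 ((mem_maximalIdeal _).2 hnu))
  · have h2 := congrArg (eval₂ inc α) hr
    rw [eval₂_mul, eval₂_C, eval₂_sub, eval₂_mul, eval₂_mul, hfα, zero_mul, sub_zero] at h2
    rw [← h2]
    ring

include hϖ hfα hsep in
/-- **termination**: an element `b(α)` dividing `ϖ ^ l` in the domain `P` is a unit times a power
of `ϖ`. -/
theorem exists_unit_mul_pow [IsDomain P] (hϖP : inc ϖ ≠ 0) (l : ℕ) :
    ∀ (b : V[X]) (p : P), eval₂ inc α b * p = inc ϖ ^ l →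
      ∃ (n : ℕ) (u : Pˣ), eval₂ inc α b = u * inc ϖ ^ n := by
  induction l with
  | zero =>
    intro b p h
    rw [pow_zero] at h
    exact ⟨0, (IsUnit.of_mul_eq_one _ h).unit, by simp⟩
  | succ l ih =>
    intro b p h
    by_cases hu : IsUnit (eval₂ inc α b)
    · exact ⟨0, hu.unit, by simp⟩
    · have hb : eval₂ inc α b ∈ maximalIdeal P := (mem_maximalIdeal _).2 hu
      obtain ⟨g, r, hg, hgr⟩ := exists_unit_mul_eq inc ϖ hϖ α f hfα hsep b hb
      have h1 : inc ϖ * (eval₂ inc α r * p) = inc ϖ * (eval₂ inc α g * inc ϖ ^ l) := by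
        rw [← mul_assoc, ← hgr, mul_assoc, h, pow_succ]
        ring
      have h2 := mul_left_cancel₀ hϖP h1
      have h3 : eval₂ inc α r * (p * ((hg.unit⁻¹ : Pˣ) : P)) = inc ϖ ^ l := by
        rw [← mul_assoc, h2, mul_comm (eval₂ inc α g), mul_assoc]
        have : eval₂ inc α g * ((hg.unit⁻¹ : Pˣ) : P) = 1 := by
          have := hg.unit.mul_inv
          rwa [IsUnit.unit_spec] at this
        rw [this, mul_one]
      obtain ⟨n, u, hnu⟩ := ih r _ h3
      refine ⟨n + 1, hg.unit⁻¹ * u, ?_⟩
      have h4 : eval₂ inc α b = ((hg.unit⁻¹ : Pˣ) : P) * (inc ϖ * eval₂ inc α r) := by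
        rw [← hgr, ← mul_assoc]
        have : ((hg.unit⁻¹ : Pˣ) : P) * eval₂ inc α g = 1 := by
          have := hg.unit.inv_mul
          rwa [IsUnit.unit_spec] at this
        rw [this, one_mul]
      rw [h4, hnu, Units.val_mul, pow_succ]
      ring

end AbstractStep

end Fermat.Agent.JA
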