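/-
J-A package BC — helper9. Field-level form of the one-step lemma: `P` a valuation subring of a
field `E`, `F'` a subfield all of whose nonzero elements have `P`-value a power of the value of
`ϖ ∈ F'`; adjoining an element `α` algebraic over a subfield of constants `K₀ ⊆ F' ∩ P`
(characteristic zero) preserves this property.
-/
import Fermat.Agent.JA.BC_helper9_Step

set_option autoImplicit false

open Polynomial IsLocalRing

namespace Fermat.Agent.JA

section Good

variable {E : Type*} [Field E]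

/-- the `P`-values of the nonzero elements of `F'` are powers of the value of `ϖ`. -/
def ValGood (P : ValuationSubring E) (ϖ : E) (F' : Subfield E) : Prop :=
  ∀ x ∈ F', x ≠ 0 → ∃ n : ℤ, P.valuation x = P.valuation ϖ ^ n

variable (P : ValuationSubring E) (ϖ : E) (F' : Subfield E)

/-- the valuation subring `P ∩ F'` of `F'`. -/
abbrev subVal : ValuationSubring ↥F' := P.comap F'.subtype

theorem mem_subVal_iff (x : ↥F') : x ∈ subVal P F' ↔ (x : E) ∈ P := Iff.rfl

/-- the inclusion `P ∩ F' → P`. -/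
def subValInc : ↥(subVal P F') →+* ↥P :=
  (F'.subtype.comp (subVal P F').subtype).codRestrict P (fun x => x.2)

@[simp] theorem coe_subValInc (x : ↥(subVal P F')) :
    ((subValInc P F' x : ↥P) : E) = ((x : ↥F') : E) := rfl

instance isLocalHom_subValInc : IsLocalHom (subValInc P F') where
  map_nonunit a ha := by
    obtain ⟨u, hu⟩ := ha
    have hu1 : ((u : ↥P) : E) = ((a : ↥F') : E) := by rw [hu]; rfl
    have hinv : ((u⁻¹ : (↥P)ˣ) : ↥P).1 * ((a : ↥F') : E) = 1 := by
      rw [← hu1]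
      have h1 : (((u⁻¹ : (↥P)ˣ) : ↥P) * (u : ↥P) : ↥P) = 1 := u.inv_mul
      exact congrArg (fun z : ↥P => (z : E)) h1
    have ha0 : ((a : ↥F') : E) ≠ 0 := by
      intro h0
      rw [h0, mul_zero] at hinv
      exact zero_ne_one hinv
    have hinv' : ((u⁻¹ : (↥P)ˣ) : ↥P).1 = ((a : ↥F') : E)⁻¹ := eq_inv_of_mul_eq_one_left hinv
    have hmem : ((a : ↥F')⁻¹ : ↥F') ∈ subVal P F' := by
      rw [mem_subVal_iff]
      have : (((a : ↥F')⁻¹ : ↥F') : E) = ((a : ↥F') : E)⁻¹ := rfl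
      rw [this, ← hinv']
      exact ((u⁻¹ : (↥P)ˣ) : ↥P).2
    refine IsUnit.of_mul_eq_one ⟨(a : ↥F')⁻¹, hmem⟩ ?_
    apply Subtype.ext
    apply Subtype.ext
    show ((a : ↥F') : E) * ((a : ↥F') : E)⁻¹ = 1
    exact mul_inv_cancel₀ ha0

variable {P ϖ F'}

theorem valuation_pos {x : E} (hx : x ≠ 0) : 0 < P.valuation x :=
  zero_lt_iff.2 ((Valuation.ne_zero_iff _).2 hx)

/-- under `ValGood`, the maximal ideal of `P ∩ F'` is generated by `ϖ`. -/
theorem maximalIdeal_subVal_eq (hϖ1 : P.valuation ϖ < 1) (hϖ0 : ϖ ≠ 0) (hϖF : ϖ ∈ F')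
    (hgood : ValGood P ϖ F') :
    maximalIdeal ↥(subVal P F') =
      Ideal.span {(⟨⟨ϖ, hϖF⟩, (P.valuation_le_one_iff ϖ).1 hϖ1.le⟩ : ↥(subVal P F'))} := by
  have hpos := valuation_pos (P := P) hϖ0
  apply le_antisymm
  · intro x hx
    rw [Ideal.mem_span_singleton']
    by_cases hx0 : x = 0
    · exact ⟨0, by rw [hx0, zero_mul]⟩
    have hxE : ((x : ↥F') : E) ≠ 0 := fun h => hx0 (Subtype.ext (Subtype.ext h))
    have hxlt : P.valuation ((x : ↥F') : E) < 1 := by
      rcases lt_or_eq_of_le ((P.valuation_le_one_iff _).2 x.2) with h | h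
      · exact h
      · exfalso
        have hu : IsUnit (subValInc P F' x) := (P.valuation_eq_one_iff _).2 h
        have hu' : IsUnit x := (isUnit_map_iff (subValInc P F') x).1 hu
        exact (mem_maximalIdeal _).1 hx hu'
    obtain ⟨n, hn⟩ := hgood _ (x : ↥F').2 hxE
    have hnpos : 0 < n := by
      rw [hn] at hxlt
      exact (zpow_lt_one_iff_right_of_lt_one₀ hpos hϖ1).1 hxlt
    have hmem : ((x : ↥F') * (⟨ϖ, hϖF⟩ : ↥F')⁻¹ : ↥F') ∈ subVal P F' := by
      rw [mem_subVal_iff]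
      have : (((x : ↥F') * (⟨ϖ, hϖF⟩ : ↥F')⁻¹ : ↥F') : E) = ((x : ↥F') : E) * ϖ⁻¹ := rfl
      rw [this, ← P.valuation_le_one_iff, map_mul, map_inv₀, hn, ← zpow_neg_one, ← zpow_add₀
        hpos.ne']
      exact (zpow_le_one_iff_right_of_lt_one₀ hpos hϖ1).2 (by omega)
    refine ⟨⟨_, hmem⟩, ?_⟩
    apply Subtype.ext
    apply Subtype.ext
    show ((x : ↥F') : E) * ϖ⁻¹ * ϖ = ((x : ↥F') : E)
    rw [inv_mul_cancel_right₀ hϖ0]
  · rw [Ideal.span_singleton_le_iff_mem, mem_maximalIdeal, mem_nonunits_iff]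
    intro hu
    have hu' : IsUnit (subValInc P F' ⟨⟨ϖ, hϖF⟩, (P.valuation_le_one_iff ϖ).1 hϖ1.le⟩) :=
      hu.map _
    have := (P.valuation_eq_one_iff _).1 hu'
    exact hϖ1.ne this

end Good

end Fermat.Agent.JA
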