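/-
J-A package BC — helper9. The field-level one-step theorem `valGood_closure_insert`.
-/
import Fermat.Agent.JA.BC_helper9_Good

set_option autoImplicit false

open Polynomial IsLocalRing

namespace Fermat.Agent.JA

section OneStep

variable {E : Type*} [Field E] {P : ValuationSubring E} {ϖ : E} {F' : Subfield E}

/-- clearing denominators: a polynomial over `F'` times a power of `ϖ` has coefficients in
`P ∩ F'`. -/
theorem exists_pow_mul_eq_map (hϖ1 : P.valuation ϖ < 1) (hϖ0 : ϖ ≠ 0) (hϖF : ϖ ∈ F')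
    (hgood : ValGood P ϖ F') (c : (↥F')[X]) :
    ∃ (N : ℕ) (b : (↥(subVal P F'))[X]),
      C ((⟨ϖ, hϖF⟩ : ↥F') ^ N) * c = b.map (subVal P F').subtype := by
  have hpos := valuation_pos (P := P) hϖ0
  have hϖP : ϖ ∈ P := (P.valuation_le_one_iff ϖ).1 hϖ1.le
  induction c using Polynomial.induction_on' with
  | add p q hp hq =>
    obtain ⟨N₁, b₁, h₁⟩ := hp
    obtain ⟨N₂, b₂, h₂⟩ := hq
    have hϖV : (⟨ϖ, hϖF⟩ : ↥F') ∈ subVal P F' := hϖP
    refine ⟨N₁ + N₂, C ((⟨⟨ϖ, hϖF⟩, hϖV⟩ : ↥(subVal P F')) ^ N₂) * b₁ +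
      C ((⟨⟨ϖ, hϖF⟩, hϖV⟩ : ↥(subVal P F')) ^ N₁) * b₂, ?_⟩
    have hsub : ∀ k : ℕ, (subVal P F').subtype ((⟨⟨ϖ, hϖF⟩, hϖV⟩ : ↥(subVal P F')) ^ k) =
        (⟨ϖ, hϖF⟩ : ↥F') ^ k := fun k => rfl
    rw [Polynomial.map_add, Polynomial.map_mul, Polynomial.map_mul, Polynomial.map_C,
      Polynomial.map_C, ← h₁, ← h₂, hsub, hsub, pow_add, C_mul]
    ring
  | monomial n a =>
    by_cases ha : a = 0
    · refine ⟨0, 0, ?_⟩
      rw [ha, monomial_zero_right, mul_zero, Polynomial.map_zero]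
    · have haE : (a : E) ≠ 0 := fun h => ha (Subtype.ext h)
      obtain ⟨k, hk⟩ := hgood _ a.2 haE
      have hmem : ((⟨ϖ, hϖF⟩ : ↥F') ^ (-k).toNat * a : ↥F') ∈ subVal P F' := by
        rw [mem_subVal_iff]
        have : (((⟨ϖ, hϖF⟩ : ↥F') ^ (-k).toNat * a : ↥F') : E) = ϖ ^ (-k).toNat * (a : E) := rfl
        rw [this, ← P.valuation_le_one_iff, map_mul, map_pow, hk, ← zpow_natCast, ← zpow_add₀
          hpos.ne']
        exact (zpow_le_one_iff_right_of_lt_one₀ hpos hϖ1).2 (by omega)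
      refine ⟨(-k).toNat, monomial n ⟨_, hmem⟩, ?_⟩
      rw [C_mul_monomial, Polynomial.map_monomial]
      rfl

/-- elements of `F'(α)` are polynomials in `α`. -/
theorem exists_eval₂_eq_of_mem_closure {α : E} (hα : IsIntegral ↥F' α) {x : E}
    (hx : x ∈ Subfield.closure ((F' : Set E) ∪ {α})) :
    ∃ c : (↥F')[X], eval₂ F'.subtype α c = x := by
  have h1 : x ∈ IntermediateField.adjoin ↥F' {α} := by
    have hr : Set.range (algebraMap ↥F' E) = (F' : Set E) := Subtype.range_coe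
    change x ∈ Subfield.closure (Set.range (algebraMap ↥F' E) ∪ {α})
    rw [hr]
    exact hx
  have h2 : x ∈ (IntermediateField.adjoin ↥F' {α}).toSubalgebra := h1
  rw [IntermediateField.adjoin_simple_toSubalgebra_of_isAlgebraic hα.isAlgebraic,
    Algebra.adjoin_singleton_eq_range_aeval] at h2
  obtain ⟨c, hc⟩ := h2
  exact ⟨c, hc⟩

variable [CharZero E]

/-- **one step**: adjoining a constant `α` (algebraic over a subfield `K₀ ⊆ F' ∩ P`) preserves
`ValGood`. -/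
theorem valGood_closure_insert (hϖ1 : P.valuation ϖ < 1) (hϖ0 : ϖ ≠ 0) (hϖF : ϖ ∈ F')
    (hgood : ValGood P ϖ F') (K₀ : Subfield E) (hK₀F : K₀ ≤ F') (hK₀P : ∀ x ∈ K₀, x ∈ P)
    (α : E) (hα : IsIntegral ↥K₀ α) :
    ValGood P ϖ (Subfield.closure ((F' : Set E) ∪ {α})) := by
  classical
  have hpos := valuation_pos (P := P) hϖ0
  have hϖP : ϖ ∈ P := (P.valuation_le_one_iff ϖ).1 hϖ1.le
  haveI : CharZero ↥K₀ := (algebraMap ↥K₀ E).charZero
  -- the minimal polynomial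
  set f₀ := minpoly ↥K₀ α with hf₀
  have hsep₀ : f₀.Separable := (minpoly.irreducible hα).separable
  -- constants into `P ∩ F'`
  let κ₀ : ↥K₀ →+* ↥(subVal P F') :=
    ((Subfield.inclusion hK₀F : ↥K₀ →+* ↥F').codRestrict (subVal P F')
      (fun x => hK₀P _ x.2))
  have hκ₀ : ∀ x : ↥K₀, (((κ₀ x : ↥(subVal P F')) : ↥F') : E) = (x : E) := fun x => rfl
  -- `α ∈ P`
  have hαP : α ∈ P := by
    let ψ : ↥K₀ →+* ↥P := (K₀.subtype).codRestrict P (fun x => hK₀P _ x.2)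
    have hint : IsIntegral ↥P α := by
      refine ⟨f₀.map ψ, (minpoly.monic hα).map ψ, ?_⟩
      rw [Polynomial.eval₂_map]
      have : (algebraMap ↥P E).comp ψ = algebraMap ↥K₀ E := rfl
      rw [this]
      exact minpoly.aeval ↥K₀ α
    obtain ⟨y, hy⟩ := IsIntegrallyClosed.algebraMap_eq_of_integral hint
    rw [← hy]
    exact y.2
  set α' : ↥P := ⟨α, hαP⟩ with hα'
  set f : (↥(subVal P F'))[X] := f₀.map κ₀ with hf
  -- coercion of evaluations
  have hcoe : ∀ b : (↥(subVal P F'))[X],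
      ((eval₂ (subValInc P F') α' b : ↥P) : E) =
        eval₂ F'.subtype α (b.map (subVal P F').subtype) := by
    intro b
    have h1 := Polynomial.hom_eval₂ b (subValInc P F') P.subtype α'
    have h2 : P.subtype (eval₂ (subValInc P F') α' b) =
        ((eval₂ (subValInc P F') α' b : ↥P) : E) := rfl
    rw [← h2, h1, Polynomial.eval₂_map]
    rfl
  have hfα : eval₂ (subValInc P F') α' f = 0 := by
    apply Subtype.ext
    rw [hcoe, hf, Polynomial.map_map, Polynomial.eval₂_map]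
    have : F'.subtype.comp ((subVal P F').subtype.comp κ₀) = algebraMap ↥K₀ E := rfl
    rw [this]
    exact minpoly.aeval ↥K₀ α
  have hsep : (f.map (residue ↥(subVal P F'))).Separable := by
    rw [hf, Polynomial.map_map]
    exact hsep₀.map
  have hmax := maximalIdeal_subVal_eq hϖ1 hϖ0 hϖF hgood
  have hincϖ : subValInc P F' ⟨⟨ϖ, hϖF⟩, hϖP⟩ ≠ 0 := by
    intro h0
    exact hϖ0 (congrArg (fun z : ↥P => (z : E)) h0)
  -- the element
  have hαF : IsIntegral ↥F' α := by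
    obtain ⟨p, hp, hpα⟩ := hα
    refine ⟨p.map (Subfield.inclusion hK₀F), hp.map _, ?_⟩
    rw [Polynomial.eval₂_map]
    exact hpα
  intro x hx hx0
  obtain ⟨c, hc⟩ := exists_eval₂_eq_of_mem_closure hαF hx
  obtain ⟨c₃, hc₃⟩ := exists_eval₂_eq_of_mem_closure hαF
    ((Subfield.closure ((F' : Set E) ∪ {α})).inv_mem hx)
  obtain ⟨N, b, hb⟩ := exists_pow_mul_eq_map hϖ1 hϖ0 hϖF hgood c
  obtain ⟨N₃, b₃, hb₃⟩ := exists_pow_mul_eq_map hϖ1 hϖ0 hϖF hgood c₃
  have hbval : ((eval₂ (subValInc P F') α' b : ↥P) : E) = ϖ ^ N * x := by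
    rw [hcoe, ← hb, eval₂_mul, eval₂_C, hc]
    rfl
  have hb₃val : ((eval₂ (subValInc P F') α' b₃ : ↥P) : E) = ϖ ^ N₃ * x⁻¹ := by
    rw [hcoe, ← hb₃, eval₂_mul, eval₂_C, hc₃]
    rfl
  have hprod : eval₂ (subValInc P F') α' b * eval₂ (subValInc P F') α' b₃ =
      subValInc P F' ⟨⟨ϖ, hϖF⟩, hϖP⟩ ^ (N + N₃) := by
    apply Subtype.ext
    have h1 : ((eval₂ (subValInc P F') α' b * eval₂ (subValInc P F') α' b₃ : ↥P) : E) =
        ((eval₂ (subValInc P F') α' b : ↥P) : E) * ((eval₂ (subValInc P F') α' b₃ : ↥P) : E) :=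
      rfl
    have h2 : ((subValInc P F' ⟨⟨ϖ, hϖF⟩, hϖP⟩ ^ (N + N₃) : ↥P) : E) = ϖ ^ (N + N₃) := rfl
    rw [h1, h2, hbval, hb₃val, pow_add]
    field_simp
  obtain ⟨n, u, hnu⟩ := exists_unit_mul_pow (subValInc P F') _ hmax α' f hfα hsep hincϖ
    (N + N₃) b _ hprod
  have hval := congrArg (fun z : ↥P => P.valuation (z : E)) hnu
  have h3 : (((u : ↥P) * subValInc P F' ⟨⟨ϖ, hϖF⟩, hϖP⟩ ^ n : ↥P) : E) =
      ((u : ↥P) : E) * ϖ ^ n := rfl
  simp only [hbval, h3, map_mul, map_pow, P.valuation_unit u, one_mul] at hval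
  refine ⟨(n : ℤ) - N, ?_⟩
  rw [zpow_sub₀ hpos.ne', zpow_natCast, zpow_natCast, ← hval]
  field_simp

end OneStep

end Fermat.Agent.JA
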