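/-
J-A package BC — helper9. Extension of a valuation subring along a field embedding (Chevalley),
and membership of elements integral over a subfield of constants.
-/
import Fermat.Agent.JA.BC_helper9_OneStep

set_option autoImplicit false

open Polynomial IsLocalRing

namespace Fermat.Agent.JA

section Chevalley

variable {F₁ E : Type*} [Field F₁] [Field E]

/-- **Chevalley's extension theorem**, in the form: a valuation subring of `F₁` is the
contraction of a valuation subring of any extension field. -/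
theorem exists_valuationSubring_comap_eq (φ : F₁ →+* E) (V₁ : ValuationSubring F₁) :
    ∃ P : ValuationSubring E, P.comap φ = V₁ := by
  let f : ↥V₁ →+* E := φ.comp V₁.subtype
  obtain ⟨B, hle, hloc⟩ := (LocalSubring.range f).exists_le_valuationSubring
  refine ⟨B, ?_⟩
  have hfmem : ∀ x : ↥V₁, f x ∈ B := fun x => hle ⟨x, rfl⟩
  ext x
  rw [ValuationSubring.mem_comap]
  constructor
  · intro hx
    by_contra hxV
    have hx0 : x ≠ 0 := fun h => hxV (h ▸ V₁.zero_mem)
    have hxi : x⁻¹ ∈ V₁ := (V₁.mem_or_inv_mem x).resolve_left hxV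
    -- `f x⁻¹` is a unit of `B`
    have hmemA : f ⟨x⁻¹, hxi⟩ ∈ (LocalSubring.range f).toSubring := ⟨_, rfl⟩
    have hval : f ⟨x⁻¹, hxi⟩ = (φ x)⁻¹ := by
      show φ x⁻¹ = (φ x)⁻¹
      rw [map_inv₀]
    have hφx0 : φ x ≠ 0 := (map_ne_zero φ).2 hx0
    have hunitB : IsUnit (Subring.inclusion hle ⟨f ⟨x⁻¹, hxi⟩, hmemA⟩) := by
      refine IsUnit.of_mul_eq_one ⟨φ x, hx⟩ ?_
      apply Subtype.ext
      show f ⟨x⁻¹, hxi⟩ * φ x = 1
      rw [hval, inv_mul_cancel₀ hφx0]
    have hunitA : IsUnit (⟨f ⟨x⁻¹, hxi⟩, hmemA⟩ : (LocalSubring.range f).toSubring) :=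
      hloc.map_nonunit _ hunitB
    obtain ⟨⟨a', ⟨w, rfl⟩⟩, ha'⟩ := isUnit_iff_exists_inv.1 hunitA
    have h1 : f ⟨x⁻¹, hxi⟩ * f w = 1 := congrArg Subtype.val ha'
    rw [hval] at h1
    have h2 : f w = φ x := by
      have := congrArg (fun z => φ x * z) h1
      simpa [mul_inv_cancel_left₀ hφx0] using this
    have h3 : (w : F₁) = x := φ.injective h2
    exact hxV (h3 ▸ w.2)
  · intro hx
    exact hfmem ⟨x, hx⟩

/-- an element integral over a subfield contained in a valuation subring lies in it. -/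
theorem mem_valuationSubring_of_isIntegral_subfield (P : ValuationSubring E) (K₀ : Subfield E)
    (hK₀P : ∀ x ∈ K₀, x ∈ P) {α : E} (hα : IsIntegral ↥K₀ α) : α ∈ P := by
  let ψ : ↥K₀ →+* ↥P := (K₀.subtype).codRestrict P (fun x => hK₀P _ x.2)
  obtain ⟨p, hp, hpα⟩ := hα
  have hint : IsIntegral ↥P α := by
    refine ⟨p.map ψ, hp.map ψ, ?_⟩
    rw [Polynomial.eval₂_map]
    exact hpα
  obtain ⟨y, hy⟩ := IsIntegrallyClosed.algebraMap_eq_of_integral hint
  rw [← hy]
  exact y.2

end Chevalley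

end Fermat.Agent.JA
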