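/-
J-A package BC — helper9. A valuation subring `P` of a field `E` all of whose nonzero elements
have value a power of the value of `ϖ` (`v ϖ < 1`) is a discrete valuation ring with
uniformizer `ϖ`.
-/
import Fermat.Agent.JA.BC_helper9_Chev

set_option autoImplicit false

open Polynomial IsLocalRing

namespace Fermat.Agent.JA

section Dvr

variable {E : Type*} [Field E] {P : ValuationSubring E} {ϖ : E}

/-- a unit of `P` from an element of value one. -/
theorem isUnit_of_valuation_eq_one {x : E} (hx : P.valuation x = 1) :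
    IsUnit (⟨x, (P.valuation_le_one_iff x).1 hx.le⟩ : ↥P) :=
  (P.valuation_eq_one_iff _).2 hx

/-- `ϖ` is irreducible in `P`. -/
theorem irreducible_of_valGood_top (hϖ1 : P.valuation ϖ < 1) (hϖ0 : ϖ ≠ 0)
    (hgood : ValGood P ϖ ⊤) :
    Irreducible (⟨ϖ, (P.valuation_le_one_iff ϖ).1 hϖ1.le⟩ : ↥P) := by
  have hpos := valuation_pos (P := P) hϖ0
  refine ⟨?_, ?_⟩
  · intro hu
    exact hϖ1.ne ((P.valuation_eq_one_iff _).1 hu)
  · intro a b hab
    have habE : ϖ = (a : E) * (b : E) := congrArg (fun z : ↥P => (z : E)) hab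
    have ha0 : (a : E) ≠ 0 := by
      intro h; rw [h, zero_mul] at habE; exact hϖ0 habE
    have hb0 : (b : E) ≠ 0 := by
      intro h; rw [h, mul_zero] at habE; exact hϖ0 habE
    obtain ⟨i, hi⟩ := hgood _ (Subfield.mem_top _) ha0
    obtain ⟨j, hj⟩ := hgood _ (Subfield.mem_top _) hb0
    have hi0 : 0 ≤ i := by
      have := (P.valuation_le_one_iff _).2 a.2
      rw [hi] at this
      exact (zpow_le_one_iff_right_of_lt_one₀ hpos hϖ1).1 this
    have hj0 : 0 ≤ j := by
      have := (P.valuation_le_one_iff _).2 b.2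
      rw [hj] at this
      exact (zpow_le_one_iff_right_of_lt_one₀ hpos hϖ1).1 this
    have hsum : i + j = 1 := by
      have h1 : P.valuation ϖ ^ (1 : ℤ) = P.valuation ϖ ^ (i + j) := by
        rw [zpow_one, zpow_add₀ hpos.ne', ← hi, ← hj, ← map_mul, ← habE]
      exact ((zpow_right_inj₀ hpos hϖ1.ne).1 h1).symm
    rcases (show i = 0 ∨ j = 0 by omega) with h | h
    · left
      rw [h, zpow_zero] at hi
      exact (P.valuation_eq_one_iff _).2 hi
    · right
      rw [h, zpow_zero] at hj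
      exact (P.valuation_eq_one_iff _).2 hj

/-- `P` is a discrete valuation ring. -/
theorem isDiscreteValuationRing_of_valGood_top (hϖ1 : P.valuation ϖ < 1) (hϖ0 : ϖ ≠ 0)
    (hgood : ValGood P ϖ ⊤) : IsDiscreteValuationRing ↥P := by
  have hpos := valuation_pos (P := P) hϖ0
  apply IsDiscreteValuationRing.ofHasUnitMulPowIrreducibleFactorization
  refine ⟨⟨ϖ, (P.valuation_le_one_iff ϖ).1 hϖ1.le⟩, irreducible_of_valGood_top hϖ1 hϖ0 hgood, ?_⟩
  intro x hx
  have hxE : (x : E) ≠ 0 := fun h => hx (Subtype.ext h)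
  obtain ⟨n, hn⟩ := hgood _ (Subfield.mem_top _) hxE
  have hn0 : 0 ≤ n := by
    have := (P.valuation_le_one_iff _).2 x.2
    rw [hn] at this
    exact (zpow_le_one_iff_right_of_lt_one₀ hpos hϖ1).1 this
  obtain ⟨k, rfl⟩ := Int.eq_ofNat_of_zero_le hn0
  rw [zpow_natCast] at hn
  have hval : P.valuation ((x : E) * (ϖ ^ k)⁻¹) = 1 := by
    rw [map_mul, map_inv₀, map_pow, hn, mul_inv_cancel₀ (pow_ne_zero _ hpos.ne')]
  refine ⟨k, ?_⟩
  refine ⟨(isUnit_of_valuation_eq_one hval).unit, ?_⟩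
  apply Subtype.ext
  show ϖ ^ k * ((x : E) * (ϖ ^ k)⁻¹) = (x : E)
  field_simp

end Dvr

end Fermat.Agent.JA
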