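/-
J-A package BC — helper9. **(BC2), abstract form**: constant field extensions are unramified.
`K₁ ⊆ Ω` algebraic (characteristic zero), `φ : F₁ → F_Ω` a field embedding compatible with
`K₁ → Ω` such that `F_Ω` is generated by `φ(F₁)` and `Ω`. Every place `P₁` of `F₁/K₁` extends to a
place `P` of `F_Ω/Ω` with `ord_P (φ x) = ord_{P₁} x`.
-/
import Fermat.Agent.JA.BC_helper9_Dvr
import Fermat.Prelude.Def_AlgebraicCurve_DivisorClassGroup

set_option autoImplicit false
set_option linter.unusedSectionVars false

open Polynomial IsLocalRing AlgebraicCurve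

namespace Fermat.Agent.JA

section Iterate

variable {Ω E : Type*} [Field Ω] [Field E] [Algebra Ω E] [CharZero E]
  {P : ValuationSubring E} {ϖ : E}

/-- the subfield generated by `F'` and finitely many constants. -/
def constClosure (F' : Subfield E) (s : Finset Ω) : Subfield E :=
  Subfield.closure ((F' : Set E) ∪ (algebraMap Ω E '' (s : Set Ω)))

theorem le_constClosure (F' : Subfield E) (s : Finset Ω) : F' ≤ constClosure F' s :=
  fun _ hx => Subfield.subset_closure (Or.inl hx)

theorem constClosure_mono (F' : Subfield E) {s t : Finset Ω} (h : s ⊆ t) :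
    constClosure F' s ≤ constClosure F' t := by
  apply Subfield.closure_mono
  apply Set.union_subset_union_right
  exact Set.image_mono (Finset.coe_subset.2 h)

theorem constClosure_insert [DecidableEq Ω] (F' : Subfield E) (s : Finset Ω) (a : Ω) :
    constClosure F' (insert a s) =
      Subfield.closure (((constClosure F' s : Subfield E) : Set E) ∪ {algebraMap Ω E a}) := by
  apply le_antisymm
  · rw [constClosure, Subfield.closure_le]
    rintro x (hx | ⟨b, hb, rfl⟩)
    · exact Subfield.subset_closure (Or.inl (le_constClosure F' s hx))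
    · rw [Finset.coe_insert] at hb
      rcases hb with rfl | hb
      · exact Subfield.subset_closure (Or.inr rfl)
      · exact Subfield.subset_closure (Or.inl (Subfield.subset_closure (Or.inr ⟨b, hb, rfl⟩)))
  · rw [Subfield.closure_le]
    rintro x (hx | hx)
    · exact constClosure_mono F' (Finset.subset_insert a s) hx
    · rw [Set.mem_singleton_iff] at hx
      rw [hx]
      exact Subfield.subset_closure (Or.inr ⟨a, Finset.mem_coe.2 (Finset.mem_insert_self a s), rfl⟩)

/-- `ValGood` is preserved by adjoining finitely many constants algebraic over `K₀`. -/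
theorem valGood_constClosure (hϖ1 : P.valuation ϖ < 1) (hϖ0 : ϖ ≠ 0) (F' : Subfield E)
    (hϖF : ϖ ∈ F') (hgood : ValGood P ϖ F') (K₀ : Subfield E) (hK₀F : K₀ ≤ F')
    (hK₀P : ∀ x ∈ K₀, x ∈ P) (hint : ∀ a : Ω, IsIntegral ↥K₀ (algebraMap Ω E a))
    (s : Finset Ω) : ValGood P ϖ (constClosure F' s) := by
  classical
  induction s using Finset.induction_on with
  | empty =>
    have : constClosure F' (∅ : Finset Ω) = F' := by
      rw [constClosure, Finset.coe_empty, Set.image_empty, Set.union_empty, Subfield.closure_eq]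
    rw [this]
    exact hgood
  | insert a s _ ih =>
    rw [constClosure_insert]
    exact valGood_closure_insert hϖ1 hϖ0 (le_constClosure F' s hϖF) ih K₀
      (hK₀F.trans (le_constClosure F' s)) hK₀P _ (hint a)

/-- every element of the field generated by `F'` and the constants lies in some
`constClosure F' s`. -/
theorem exists_mem_constClosure (F' : Subfield E) {x : E}
    (hx : x ∈ Subfield.closure ((F' : Set E) ∪ Set.range (algebraMap Ω E))) :
    ∃ s : Finset Ω, x ∈ constClosure F' s := by
  classical
  induction hx using Subfield.closure_induction with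
  | mem y hy =>
    rcases hy with hy | ⟨a, rfl⟩
    · exact ⟨∅, le_constClosure F' ∅ hy⟩
    · exact ⟨{a}, Subfield.subset_closure (Or.inr ⟨a, by simp, rfl⟩)⟩
  | one => exact ⟨∅, (constClosure F' ∅).one_mem⟩
  | add y z _ _ hy hz =>
    obtain ⟨s, hs⟩ := hy
    obtain ⟨t, ht⟩ := hz
    exact ⟨s ∪ t, (constClosure F' (s ∪ t)).add_mem
      (constClosure_mono F' Finset.subset_union_left hs)
      (constClosure_mono F' Finset.subset_union_right ht)⟩
  | neg y _ hy =>
    obtain ⟨s, hs⟩ := hy
    exact ⟨s, (constClosure F' s).neg_mem hs⟩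
  | inv y _ hy =>
    obtain ⟨s, hs⟩ := hy
    exact ⟨s, (constClosure F' s).inv_mem hs⟩
  | mul y z _ _ hy hz =>
    obtain ⟨s, hs⟩ := hy
    obtain ⟨t, ht⟩ := hz
    exact ⟨s ∪ t, (constClosure F' (s ∪ t)).mul_mem
      (constClosure_mono F' Finset.subset_union_left hs)
      (constClosure_mono F' Finset.subset_union_right ht)⟩

/-- `ValGood` for the whole field. -/
theorem valGood_top (hϖ1 : P.valuation ϖ < 1) (hϖ0 : ϖ ≠ 0) (F' : Subfield E)
    (hϖF : ϖ ∈ F') (hgood : ValGood P ϖ F') (K₀ : Subfield E) (hK₀F : K₀ ≤ F')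
    (hK₀P : ∀ x ∈ K₀, x ∈ P) (hint : ∀ a : Ω, IsIntegral ↥K₀ (algebraMap Ω E a))
    (hgen : Subfield.closure ((F' : Set E) ∪ Set.range (algebraMap Ω E)) = ⊤) :
    ValGood P ϖ ⊤ := by
  intro x _ hx0
  have hx : x ∈ Subfield.closure ((F' : Set E) ∪ Set.range (algebraMap Ω E)) := by
    rw [hgen]; exact Subfield.mem_top x
  obtain ⟨s, hs⟩ := exists_mem_constClosure F' hx
  exact valGood_constClosure hϖ1 hϖ0 F' hϖF hgood K₀ hK₀F hK₀P hint s x hs hx0

end Iterate

end Fermat.Agent.JA
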