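/-
J-A package BC — helper9. **(BC2), abstract form**: every place `P₁` of `F₁/K₁` extends to a
place `P` of `F_Ω/Ω` with `ord_P (φ x) = ord_{P₁} x` (constant field extensions are unramified).
-/
import Fermat.Agent.JA.BC_helper9_Ext

set_option autoImplicit false
set_option linter.unusedSectionVars false

open Polynomial IsLocalRing AlgebraicCurve

namespace Fermat.Agent.JA

section PlaceExt

variable {K₁ Ω F₁ FΩ : Type*} [Field K₁] [Field Ω] [Algebra K₁ Ω] [Algebra.IsAlgebraic K₁ Ω]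
  [Field F₁] [Algebra K₁ F₁] [Field FΩ] [Algebra Ω FΩ] [CharZero FΩ]

/-- **(BC2)**: extension of places along an algebraic extension of the constant field, with
ramification index one. -/
theorem exists_place_ord_eq (φ : F₁ →+* FΩ)
    (hφ : ∀ a : K₁, φ (algebraMap K₁ F₁ a) = algebraMap Ω FΩ (algebraMap K₁ Ω a))
    (hgen : Subfield.closure (Set.range φ ∪ Set.range (algebraMap Ω FΩ)) = ⊤)
    (P₁ : Place K₁ F₁) : ∃ P : Place Ω FΩ, ∀ x : F₁, P.ord (φ x) = P₁.ord x := by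
  classical
  set V₁ := P₁.toValuationSubring with hV₁
  obtain ⟨PV, hPV⟩ := exists_valuationSubring_comap_eq φ V₁
  have hmemPV : ∀ x : F₁, φ x ∈ PV ↔ x ∈ V₁ := fun x => by
    rw [← hPV, ValuationSubring.mem_comap]
  obtain ⟨ϖ₁, hϖ₁⟩ := IsDiscreteValuationRing.exists_irreducible ↥V₁
  set ϖ : FΩ := φ (ϖ₁ : F₁) with hϖ
  have hϖ₁0 : (ϖ₁ : F₁) ≠ 0 := fun h => hϖ₁.ne_zero (Subtype.ext h)
  have hϖ0 : ϖ ≠ 0 := (map_ne_zero φ).2 hϖ₁0
  have hϖP : ϖ ∈ PV := (hmemPV _).2 ϖ₁.2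
  have hpos := valuation_pos (P := PV) hϖ0
  have hϖ1 : PV.valuation ϖ < 1 := by
    rcases lt_or_eq_of_le ((PV.valuation_le_one_iff ϖ).2 hϖP) with h | h
    · exact h
    · exfalso
      have h1 : PV.valuation ϖ⁻¹ ≤ 1 := by rw [map_inv₀, h, inv_one]
      have h2 : φ ((ϖ₁ : F₁)⁻¹) ∈ PV := by
        rw [map_inv₀]
        exact (PV.valuation_le_one_iff _).1 h1
      have h3 : (ϖ₁ : F₁)⁻¹ ∈ V₁ := (hmemPV _).1 h2
      apply hϖ₁.not_isUnit
      refine IsUnit.of_mul_eq_one ⟨_, h3⟩ ?_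
      apply Subtype.ext
      exact mul_inv_cancel₀ hϖ₁0
  -- the restriction of `φ` to the valuation rings
  let ψ : ↥V₁ →+* ↥PV := (φ.comp V₁.subtype).codRestrict PV (fun x => (hmemPV _).2 x.2)
  have hψ : ∀ x : ↥V₁, ((ψ x : ↥PV) : FΩ) = φ (x : F₁) := fun x => rfl
  -- the subfields
  set F' : Subfield FΩ := φ.fieldRange with hF'
  set K₀ : Subfield FΩ := ((algebraMap Ω FΩ).comp (algebraMap K₁ Ω)).fieldRange with hK₀
  have hϖF : ϖ ∈ F' := ⟨_, rfl⟩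
  have hK₀F : K₀ ≤ F' := by
    rintro x ⟨a, rfl⟩
    exact ⟨algebraMap K₁ F₁ a, hφ a⟩
  have hK₀P : ∀ x ∈ K₀, x ∈ PV := by
    rintro x ⟨a, rfl⟩
    have : (algebraMap Ω FΩ).comp (algebraMap K₁ Ω) a = φ (algebraMap K₁ F₁ a) := (hφ a).symm
    rw [this, hmemPV]
    exact P₁.algebraMap_mem' a
  have hint : ∀ a : Ω, IsIntegral ↥K₀ (algebraMap Ω FΩ a) := by
    intro a
    obtain ⟨p, hp, hpa⟩ := Algebra.IsIntegral.isIntegral (R := K₁) a
    let ψ₀ : K₁ →+* ↥K₀ := ((algebraMap Ω FΩ).comp (algebraMap K₁ Ω)).rangeRestrictField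
    refine ⟨p.map ψ₀, hp.map ψ₀, ?_⟩
    rw [Polynomial.eval₂_map]
    have h1 : (algebraMap ↥K₀ FΩ).comp ψ₀ = (algebraMap Ω FΩ).comp (algebraMap K₁ Ω) := rfl
    rw [h1, ← Polynomial.hom_eval₂, hpa, map_zero]
  have hunitval : ∀ u : (↥V₁)ˣ, PV.valuation (φ ((u : ↥V₁) : F₁)) = 1 := by
    intro u
    exact PV.valuation_unit (Units.map (ψ : ↥V₁ →* ↥PV) u)
  have hgood : ValGood PV ϖ F' := by
    rintro x ⟨y, rfl⟩ hx0
    have hy0 : y ≠ 0 := fun h => hx0 (by rw [h, map_zero])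
    obtain ⟨u, hu⟩ := P₁.exists_unit_mul_zpow hy0 hϖ₁
    refine ⟨P₁.ord y, ?_⟩
    conv_lhs => rw [hu]
    rw [map_mul, map_zpow₀, map_mul, map_zpow₀, hunitval, one_mul]
  have hgen' : Subfield.closure ((F' : Set FΩ) ∪ Set.range (algebraMap Ω FΩ)) = ⊤ := by
    rw [hF', RingHom.coe_fieldRange]
    exact hgen
  have hgoodtop := valGood_top hϖ1 hϖ0 F' hϖF hgood K₀ hK₀F hK₀P hint hgen'
  have hdvr : IsDiscreteValuationRing ↥PV := isDiscreteValuationRing_of_valGood_top hϖ1 hϖ0 hgoodtop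
  have hirr := irreducible_of_valGood_top hϖ1 hϖ0 hgoodtop
  let P : Place Ω FΩ :=
    { toValuationSubring := PV
      algebraMap_mem' := fun a => mem_valuationSubring_of_isIntegral_subfield PV K₀ hK₀P (hint a)
      ne_top' := by
        intro htop
        have h1 : ϖ⁻¹ ∈ PV := by rw [htop]; exact ValuationSubring.mem_top _
        have h2 := (PV.valuation_le_one_iff _).2 h1
        rw [map_inv₀, inv_le_one₀ hpos] at h2
        exact absurd hϖ1 (not_lt.2 h2)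
      isPrincipalIdealRing' := inferInstance }
  refine ⟨P, fun x => ?_⟩
  by_cases hx0 : x = 0
  · rw [hx0, map_zero, Place.ord_zero, Place.ord_zero]
  · obtain ⟨u, hu⟩ := P₁.exists_unit_mul_zpow hx0 hϖ₁
    have h1 : φ x = (((Units.map (ψ : ↥V₁ →* ↥PV) u : (↥PV)ˣ) : ↥PV) : FΩ) *
        (((⟨ϖ, (PV.valuation_le_one_iff ϖ).1 hϖ1.le⟩ : ↥PV) : FΩ) ^ (P₁.ord x)) := by
      conv_lhs => rw [hu]
      rw [map_mul, map_zpow₀]
      rfl
    rw [h1]
    exact P.ord_unit_smul_zpow (Units.map (ψ : ↥V₁ →* ↥PV) u) hirr (P₁.ord x)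

end PlaceExt

end Fermat.Agent.JA
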