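/-
J-A third wave, package R4 (base-change dictionary for places) — helper9. Part 1: restriction.

Setting: `K₁ ⊂ Ω` algebraic, function fields `F₁ / K₁` and `FΩ / Ω` (characteristic zero) with a
ring hom `φ : F₁ → FΩ` compatible with the constants, `FΩ = Ω·φ(F₁)`.

* `exists_place_of_comap_eq` : a valuation subring of `FΩ` lying over a place `P₁` of `F₁` is a
  place, with `ord (φ x) = ord_{P₁} x` (ramification index one);
* `ord_map_eq_of_comap_eq` : the same for a given place `P` over `P₁`;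
* `comap_toValuationSubring_ne_top`, `isDiscreteValuationRing_comap_place` : the restriction of a
  place of `FΩ / Ω` to `F₁` is a nontrivial discrete valuation ring (the restriction map
  `restrictBC` itself is helper1's, `JA/REDO_helper1_SumBC`).
-/
import Mathlib
import Fermat.Agent.JA.BC_helper9_Place
import Fermat.Agent.FF.PlaceBasic

set_option autoImplicit false
set_option linter.unusedSectionVars false
set_option linter.style.haveILetI false

open Polynomial IsLocalRing AlgebraicCurve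

namespace Fermat.Agent.JA

open Fermat.Agent.FF

section Restrict

variable {K₁ Ω F₁ FΩ : Type*} [Field K₁] [Field Ω] [Algebra K₁ Ω] [Algebra.IsAlgebraic K₁ Ω]
  [Field F₁] [Algebra K₁ F₁] [Field FΩ] [Algebra Ω FΩ] [CharZero FΩ]
  (φ : F₁ →+* FΩ)
  (hφ : ∀ a : K₁, φ (algebraMap K₁ F₁ a) = algebraMap Ω FΩ (algebraMap K₁ Ω a))
  (hgen : Subfield.closure (Set.range φ ∪ Set.range (algebraMap Ω FΩ)) = ⊤)

include hφ in
/-- the constants of `FΩ` are integral over the image of `F₁`. -/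
theorem isIntegral_fieldRange_algebraMap (a : Ω) :
    IsIntegral ↥φ.fieldRange (algebraMap Ω FΩ a) := by
  obtain ⟨p, hp, hpa⟩ := Algebra.IsIntegral.isIntegral (R := K₁) a
  let ψ₀ : K₁ →+* ↥φ.fieldRange :=
    (φ.comp (algebraMap K₁ F₁)).codRestrict φ.fieldRange (fun a => ⟨_, rfl⟩)
  refine ⟨p.map ψ₀, hp.map ψ₀, ?_⟩
  rw [Polynomial.eval₂_map]
  have h1 : (algebraMap ↥φ.fieldRange FΩ).comp ψ₀ = (algebraMap Ω FΩ).comp (algebraMap K₁ Ω) := by
    ext a
    exact hφ a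
  rw [h1, ← Polynomial.hom_eval₂, hpa, map_zero]

include hφ hgen in
/-- every element of `FΩ` is integral over the image of `F₁`. -/
theorem isIntegral_fieldRange (z : FΩ) : IsIntegral ↥φ.fieldRange z := by
  have hz : z ∈ Subfield.closure (Set.range φ ∪ Set.range (algebraMap Ω FΩ)) := by
    rw [hgen]; exact Subfield.mem_top z
  induction hz using Subfield.closure_induction with
  | mem x hx =>
    rcases hx with ⟨y, rfl⟩ | ⟨a, rfl⟩
    · exact isIntegral_algebraMap (R := ↥φ.fieldRange) (x := (⟨φ y, ⟨y, rfl⟩⟩ : ↥φ.fieldRange))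
    · exact isIntegral_fieldRange_algebraMap φ hφ a
  | one => exact isIntegral_one
  | add x y _ _ hx hy => exact hx.add hy
  | neg x _ hx => exact hx.neg
  | inv x _ hx => exact hx.inv
  | mul x y _ _ hx hy => exact hx.mul hy

include hφ hgen in
/-- **ramification index one, general form**: a valuation subring of `FΩ` lying over a place of
`F₁` is (the valuation ring of) a place of `FΩ / Ω` with the same orders. -/
theorem exists_place_of_comap_eq (P₁ : Place K₁ F₁) (PV : ValuationSubring FΩ)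
    (hPV : PV.comap φ = P₁.toValuationSubring) :
    ∃ P : Place Ω FΩ, P.toValuationSubring = PV ∧ ∀ x : F₁, P.ord (φ x) = P₁.ord x := by
  classical
  set V₁ := P₁.toValuationSubring with hV₁
  have hmemPV : ∀ x : F₁, φ x ∈ PV ↔ x ∈ V₁ := fun x => by
    rw [← hPV, ValuationSubring.mem_comap]
  obtain ⟨ϖ₁, hϖ₁⟩ := IsDiscreteValuationRing.exists_irreducible ↥V₁
  set ϖ : FΩ := φ (ϖ₁ : F₁) with hϖ
  have hϖ₁0 : (ϖ₁ : F₁) ≠ 0 := fun h => hϖ₁.ne_zero (Subtype.ext h)
  have hϖ0 : ϖ ≠ 0 := (map_ne_zero φ).2 hϖ₁0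
  have hϖP : ϖ ∈ PV := (hmemPV _).2 ϖ₁.2
  have hpos := valuation_pos (P := PV) hϖ0
  have hϖ1 : PV.valuation ϖ < 1 := by
    rcases lt_or_eq_of_le ((PV.valuation_le_one_iff ϖ).2 hϖP) with h | h
    · exact h
    · exfalso
      have h1 : PV.valuation ϖ⁻¹ ≤ 1 := by rw [map_inv₀, h, inv_one]
      have h2 : φ ((ϖ₁ : F₁)⁻¹) ∈ PV := by
        rw [map_inv₀]
        exact (PV.valuation_le_one_iff _).1 h1
      have h3 : (ϖ₁ : F₁)⁻¹ ∈ V₁ := (hmemPV _).1 h2
      apply hϖ₁.not_isUnit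
      refine IsUnit.of_mul_eq_one ⟨_, h3⟩ ?_
      apply Subtype.ext
      exact mul_inv_cancel₀ hϖ₁0
  -- the restriction of `φ` to the valuation rings
  let ψ : ↥V₁ →+* ↥PV := (φ.comp V₁.subtype).codRestrict PV (fun x => (hmemPV _).2 x.2)
  have hψ : ∀ x : ↥V₁, ((ψ x : ↥PV) : FΩ) = φ (x : F₁) := fun x => rfl
  -- the subfields
  set F' : Subfield FΩ := φ.fieldRange with hF'
  set K₀ : Subfield FΩ := ((algebraMap Ω FΩ).comp (algebraMap K₁ Ω)).fieldRange with hK₀
  have hϖF : ϖ ∈ F' := ⟨_, rfl⟩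
  have hK₀F : K₀ ≤ F' := by
    rintro x ⟨a, rfl⟩
    exact ⟨algebraMap K₁ F₁ a, hφ a⟩
  have hK₀P : ∀ x ∈ K₀, x ∈ PV := by
    rintro x ⟨a, rfl⟩
    have : (algebraMap Ω FΩ).comp (algebraMap K₁ Ω) a = φ (algebraMap K₁ F₁ a) := (hφ a).symm
    rw [this, hmemPV]
    exact P₁.algebraMap_mem' a
  have hint : ∀ a : Ω, IsIntegral ↥K₀ (algebraMap Ω FΩ a) := by
    intro a
    obtain ⟨p, hp, hpa⟩ := Algebra.IsIntegral.isIntegral (R := K₁) a
    let ψ₀ : K₁ →+* ↥K₀ := ((algebraMap Ω FΩ).comp (algebraMap K₁ Ω)).rangeRestrictField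
    refine ⟨p.map ψ₀, hp.map ψ₀, ?_⟩
    rw [Polynomial.eval₂_map]
    have h1 : (algebraMap ↥K₀ FΩ).comp ψ₀ = (algebraMap Ω FΩ).comp (algebraMap K₁ Ω) := rfl
    rw [h1, ← Polynomial.hom_eval₂, hpa, map_zero]
  have hunitval : ∀ u : (↥V₁)ˣ, PV.valuation (φ ((u : ↥V₁) : F₁)) = 1 := by
    intro u
    exact PV.valuation_unit (Units.map (ψ : ↥V₁ →* ↥PV) u)
  have hgood : ValGood PV ϖ F' := by
    rintro x ⟨y, rfl⟩ hx0
    have hy0 : y ≠ 0 := fun h => hx0 (by rw [h, map_zero])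
    obtain ⟨u, hu⟩ := P₁.exists_unit_mul_zpow hy0 hϖ₁
    refine ⟨P₁.ord y, ?_⟩
    conv_lhs => rw [hu]
    rw [map_mul, map_zpow₀, map_mul, map_zpow₀, hunitval, one_mul]
  have hgen' : Subfield.closure ((F' : Set FΩ) ∪ Set.range (algebraMap Ω FΩ)) = ⊤ := by
    rw [hF', RingHom.coe_fieldRange]
    exact hgen
  have hgoodtop := valGood_top hϖ1 hϖ0 F' hϖF hgood K₀ hK₀F hK₀P hint hgen'
  have hdvr : IsDiscreteValuationRing ↥PV := isDiscreteValuationRing_of_valGood_top hϖ1 hϖ0 hgoodtop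
  have hirr := irreducible_of_valGood_top hϖ1 hϖ0 hgoodtop
  let P : Place Ω FΩ :=
    { toValuationSubring := PV
      algebraMap_mem' := fun a => mem_valuationSubring_of_isIntegral_subfield PV K₀ hK₀P (hint a)
      ne_top' := by
        intro htop
        have h1 : ϖ⁻¹ ∈ PV := by rw [htop]; exact ValuationSubring.mem_top _
        have h2 := (PV.valuation_le_one_iff _).2 h1
        rw [map_inv₀, inv_le_one₀ hpos] at h2
        exact absurd hϖ1 (not_lt.2 h2)
      isPrincipalIdealRing' := inferInstance }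
  refine ⟨P, rfl, fun x => ?_⟩
  by_cases hx0 : x = 0
  · rw [hx0, map_zero, Place.ord_zero, Place.ord_zero]
  · obtain ⟨u, hu⟩ := P₁.exists_unit_mul_zpow hx0 hϖ₁
    have h1 : φ x = (((Units.map (ψ : ↥V₁ →* ↥PV) u : (↥PV)ˣ) : ↥PV) : FΩ) *
        (((⟨ϖ, (PV.valuation_le_one_iff ϖ).1 hϖ1.le⟩ : ↥PV) : FΩ) ^ (P₁.ord x)) := by
      conv_lhs => rw [hu]
      rw [map_mul, map_zpow₀]
      rfl
    rw [h1]
    exact P.ord_unit_smul_zpow (Units.map (ψ : ↥V₁ →* ↥PV) u) hirr (P₁.ord x)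

include hφ hgen in
/-- **ramification index one**: a place `P` of `FΩ / Ω` over a place `P₁` of `F₁ / K₁` has the
same orders. -/
theorem ord_map_eq_of_comap_eq (P : Place Ω FΩ) (P₁ : Place K₁ F₁)
    (h : P.toValuationSubring.comap φ = P₁.toValuationSubring) (x : F₁) :
    P.ord (φ x) = P₁.ord x := by
  obtain ⟨P', hP', hord⟩ := exists_place_of_comap_eq φ hφ hgen P₁ P.toValuationSubring h
  have : P' = P := Place.ext hP'
  rw [← this]
  exact hord x

include hφ hgen in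
/-- every place of `F₁ / K₁` is the restriction of a place of `FΩ / Ω`. -/
theorem exists_place_comap_eq (P₁ : Place K₁ F₁) :
    ∃ P : Place Ω FΩ, P.toValuationSubring.comap φ = P₁.toValuationSubring := by
  obtain ⟨PV, hPV⟩ := exists_valuationSubring_comap_eq φ P₁.toValuationSubring
  obtain ⟨P, hP, -⟩ := exists_place_of_comap_eq φ hφ hgen P₁ PV hPV
  exact ⟨P, by rw [hP]; exact hPV⟩

include hφ hgen in
/-- the restriction of a place of `FΩ / Ω` to `F₁` is not the trivial valuation ring. -/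
theorem comap_toValuationSubring_ne_top (P : Place Ω FΩ) :
    P.toValuationSubring.comap φ ≠ ⊤ := by
  intro htop
  apply P.ne_top'
  refine SetLike.ext fun z => ⟨fun _ => ValuationSubring.mem_top z, fun _ => ?_⟩
  refine mem_valuationSubring_of_isIntegral_subfield P.toValuationSubring φ.fieldRange ?_
    (isIntegral_fieldRange φ hφ hgen z)
  rintro _ ⟨x, rfl⟩
  have : x ∈ P.toValuationSubring.comap φ := by rw [htop]; exact ValuationSubring.mem_top x
  exact this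

include hφ hgen in
/-- the restriction of a place of `FΩ / Ω` to `F₁` is a discrete valuation ring. -/
theorem isDiscreteValuationRing_comap_place (P : Place Ω FΩ) :
    IsDiscreteValuationRing ↥(P.toValuationSubring.comap φ) := by
  classical
  set V₁ := P.toValuationSubring.comap φ with hV₁
  have hmem : ∀ x : F₁, x ∈ V₁ ↔ φ x ∈ P.toValuationSubring := fun x => Iff.rfl
  have hmem0 : ∀ x : F₁, x ≠ 0 → (x ∈ V₁ ↔ 0 ≤ P.ord (φ x)) := fun x hx => by
    rw [hmem, PlaceAux.mem_iff_ord_nonneg' P ((map_ne_zero φ).2 hx)]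
  -- an element of negative order
  obtain ⟨x₀, hx₀⟩ : ∃ x₀ : F₁, x₀ ∉ V₁ := by
    by_contra hcon
    push Not at hcon
    exact comap_toValuationSubring_ne_top φ hφ hgen P (SetLike.ext fun x =>
      ⟨fun _ => ValuationSubring.mem_top x, fun _ => hcon x⟩)
  have hx₀0 : x₀ ≠ 0 := fun h => hx₀ (h ▸ V₁.zero_mem)
  have hx₀neg : P.ord (φ x₀) < 0 := by
    have := (hmem0 x₀ hx₀0).not.mp hx₀
    omega
  -- the minimal positive order
  have hex : ∃ n : ℕ, 0 < n ∧ ∃ x : F₁, P.ord (φ x) = n := by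
    refine ⟨(-P.ord (φ x₀)).toNat, by omega, x₀⁻¹, ?_⟩
    rw [map_inv₀, P.ord_inv]
    omega
  set e := Nat.find hex with he
  obtain ⟨he0, ϖ₁, hϖ₁⟩ := Nat.find_spec hex
  have hmin : ∀ n : ℕ, 0 < n → (∃ x : F₁, P.ord (φ x) = n) → e ≤ n := fun n hn hx =>
    Nat.find_min' hex ⟨hn, hx⟩
  have hϖ₁0 : ϖ₁ ≠ 0 := by
    rintro rfl
    rw [map_zero, P.ord_zero] at hϖ₁
    omega
  have hφϖ0 : φ ϖ₁ ≠ 0 := (map_ne_zero φ).2 hϖ₁0
  -- divisibility of all orders by `e`
  have hdvd : ∀ x : F₁, x ≠ 0 → ∃ q : ℤ, P.ord (φ x) = q * e := by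
    intro x hx
    have hφx0 : φ x ≠ 0 := (map_ne_zero φ).2 hx
    set n := P.ord (φ x) with hn
    have he' : (0 : ℤ) < e := by exact_mod_cast he0
    set y : F₁ := x * ϖ₁ ^ (-(n / e)) with hy
    have hy_ord : P.ord (φ y) = n % e := by
      rw [hy, map_mul, map_zpow₀, P.ord_mul hφx0 (zpow_ne_zero _ hφϖ0), P.ord_zpow, hϖ₁, ← hn]
      have := Int.emod_add_mul_ediv n e
      linarith
    have h1 : 0 ≤ n % e := Int.emod_nonneg _ he'.ne'
    have h2 : n % e < e := Int.emod_lt_of_pos _ he'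
    have h3 : n % (e : ℤ) = 0 := by
      by_contra hne
      have hpos : 0 < n % (e : ℤ) := lt_of_le_of_ne h1 (Ne.symm hne)
      have := hmin (n % (e : ℤ)).toNat (by omega) ⟨y, by rw [hy_ord]; omega⟩
      omega
    refine ⟨n / e, ?_⟩
    have := Int.emod_add_mul_ediv n e
    rw [h3] at this
    linarith
  -- `ValGood`
  have hunit : ∀ y : F₁, y ≠ 0 → P.ord (φ y) = 0 → V₁.valuation y = 1 := by
    intro y hy0 hy
    have h1 : y ∈ V₁ := (hmem0 y hy0).2 hy.ge
    have h2 : y⁻¹ ∈ V₁ := by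
      rw [hmem0 _ (inv_ne_zero hy0), map_inv₀, P.ord_inv, hy]
      simp
    have h3 : V₁.valuation y ≤ 1 := (V₁.valuation_le_one_iff y).2 h1
    have h4 : V₁.valuation y⁻¹ ≤ 1 := (V₁.valuation_le_one_iff _).2 h2
    rw [map_inv₀] at h4
    have hpos : 0 < V₁.valuation y := valuation_pos (P := V₁) hy0
    rw [inv_le_one₀ hpos] at h4
    exact le_antisymm h3 h4
  have hϖ1 : V₁.valuation ϖ₁ < 1 := by
    have h1 : ϖ₁ ∈ V₁ := (hmem0 ϖ₁ hϖ₁0).2 (by rw [hϖ₁]; positivity)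
    rcases lt_or_eq_of_le ((V₁.valuation_le_one_iff ϖ₁).2 h1) with h | h
    · exact h
    · exfalso
      have h2 : V₁.valuation ϖ₁⁻¹ ≤ 1 := by rw [map_inv₀, h, inv_one]
      have h3 : ϖ₁⁻¹ ∈ V₁ := (V₁.valuation_le_one_iff _).1 h2
      rw [hmem0 _ (inv_ne_zero hϖ₁0), map_inv₀, P.ord_inv, hϖ₁] at h3
      have : (0 : ℤ) < e := by exact_mod_cast he0
      omega
  have hgood : ValGood V₁ ϖ₁ ⊤ := by
    intro x _ hx
    obtain ⟨q, hq⟩ := hdvd x hx
    refine ⟨q, ?_⟩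
    have hy0 : x * ϖ₁ ^ (-q) ≠ 0 := mul_ne_zero hx (zpow_ne_zero _ hϖ₁0)
    have hy : P.ord (φ (x * ϖ₁ ^ (-q))) = 0 := by
      rw [map_mul, map_zpow₀, P.ord_mul ((map_ne_zero φ).2 hx) (zpow_ne_zero _ hφϖ0), P.ord_zpow,
        hϖ₁, hq]
      ring
    have h1 := hunit _ hy0 hy
    rw [map_mul, map_zpow₀, zpow_neg] at h1
    have hpos : 0 < V₁.valuation ϖ₁ := valuation_pos (P := V₁) hϖ₁0
    rw [mul_inv_eq_one₀ (zpow_ne_zero _ hpos.ne')] at h1
    exact h1
  exact isDiscreteValuationRing_of_valGood_top hϖ1 hϖ₁0 hgood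

end Restrict

end Fermat.Agent.JA
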