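/-
J-A — helper6 — (LOC-core): the commutative algebra of a "good point" `O` of an arithmetic surface.

`O` a noetherian local domain, `π ∈ O` a prime element such that the maximal ideal is `(π, h₀)`
(`O / π` a discrete valuation ring with uniformizer `h₀`).

* `eq_span_singleton_of_maximalIdeal_eq` : a prime `𝔭 ∌ π` containing an `h` with
  `(π, h) = 𝔫` is `(h)` ("horizontal primes through a good point are principal").
* `exists_mem_maximalIdeal_eq_span_pair` : if `𝔭 + (π) = 𝔫` such an `h ∈ 𝔭` exists.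
-/
import Mathlib

set_option autoImplicit false
set_option linter.unusedSectionVars false
set_option linter.style.haveILetI false

namespace Fermat.Agent.JA

open IsLocalRing

section Principal

variable {O : Type*} [CommRing O] [IsLocalRing O] [IsNoetherianRing O]

/-- **(LOC-A)** horizontal primes through a good point are principal. -/
theorem eq_span_singleton_of_maximalIdeal_eq {π h : O} (𝔭 : Ideal O) [h𝔭 : 𝔭.IsPrime]
    (hπ𝔭 : π ∉ 𝔭) (hh : h ∈ 𝔭) (hgen : maximalIdeal O = Ideal.span {π, h}) :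
    𝔭 = Ideal.span {h} := by
  apply le_antisymm
  · -- Nakayama: `𝔭 ≤ (h) + 𝔫 • 𝔭`
    refine Submodule.le_of_le_smul_of_le_jacobson_bot (I := maximalIdeal O)
      (IsNoetherian.noetherian 𝔭) (IsLocalRing.maximalIdeal_le_jacobson ⊥) ?_
    intro x hx
    have hxn : x ∈ maximalIdeal O := by
      have : 𝔭 ≤ maximalIdeal O := IsLocalRing.le_maximalIdeal h𝔭.ne_top
      exact this hx
    rw [hgen, Ideal.mem_span_pair] at hxn
    obtain ⟨a, b, hab⟩ := hxn
    have haπ : a * π ∈ 𝔭 := by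
      have : a * π = x - b * h := by rw [← hab]; ring
      rw [this]
      exact 𝔭.sub_mem hx (𝔭.mul_mem_left b hh)
    have ha : a ∈ 𝔭 := (h𝔭.mem_or_mem haπ).resolve_right hπ𝔭
    rw [← hab, add_comm]
    refine Submodule.add_mem_sup ?_ ?_
    · exact Ideal.mul_mem_left _ b (Ideal.subset_span (Set.mem_singleton h))
    · have : π ∈ maximalIdeal O := by
        rw [hgen]; exact Ideal.subset_span (Set.mem_insert _ _)
      rw [mul_comm]
      exact Submodule.smul_mem_smul this ha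
  · exact (Ideal.span_singleton_le_iff_mem 𝔭).2 hh

/-- **(LOC-A')** if `𝔭 + (π) = 𝔫 = (π, h₀)` then `𝔭` contains an `h` with `(π, h) = 𝔫`. -/
theorem exists_mem_maximalIdeal_eq_span_pair {π h₀ : O} (𝔭 : Ideal O)
    (hsup : 𝔭 ⊔ Ideal.span {π} = maximalIdeal O) (hgen : maximalIdeal O = Ideal.span {π, h₀}) :
    ∃ h ∈ 𝔭, maximalIdeal O = Ideal.span {π, h} := by
  have h0 : h₀ ∈ 𝔭 ⊔ Ideal.span {π} := by
    rw [hsup, hgen]; exact Ideal.subset_span (Set.mem_insert_of_mem _ (Set.mem_singleton _))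
  obtain ⟨p, hp, q, hq, hpq⟩ := Submodule.mem_sup.1 h0
  obtain ⟨c, rfl⟩ := Ideal.mem_span_singleton'.1 hq
  refine ⟨p, hp, ?_⟩
  rw [hgen]
  have hπ1 : π ∈ Ideal.span {π, p} := Ideal.subset_span (Set.mem_insert _ _)
  have hπ2 : π ∈ Ideal.span {π, h₀} := Ideal.subset_span (Set.mem_insert _ _)
  have hh1 : h₀ ∈ Ideal.span {π, p} := by
    rw [← hpq, Ideal.mem_span_pair]
    exact ⟨c, 1, by ring⟩
  have hp2 : p ∈ Ideal.span {π, h₀} := by
    rw [Ideal.mem_span_pair]
    exact ⟨-c, 1, by rw [← hpq]; ring⟩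
  apply le_antisymm
  · rw [Ideal.span_le]
    intro x hx
    rcases hx with hx | hx
    · rw [hx]; exact hπ1
    · rw [Set.mem_singleton_iff.1 hx]; exact hh1
  · rw [Ideal.span_le]
    intro x hx
    rcases hx with hx | hx
    · rw [hx]; exact hπ2
    · rw [Set.mem_singleton_iff.1 hx]; exact hp2

end Principal

section Factor

variable {O : Type*} [CommRing O] [IsDomain O] [IsLocalRing O] [IsNoetherianRing O]

/-- an element not divisible by the prime `π` and not a unit lies in a prime avoiding `π` -/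
theorem exists_isPrime_mem_not_mem_of_not_dvd {π : O} (hπ : Prime π) {a : O} (ha : ¬ π ∣ a)
    (hau : ¬ IsUnit a) : ∃ 𝔭 : Ideal O, 𝔭.IsPrime ∧ a ∈ 𝔭 ∧ π ∉ 𝔭 := by
  -- `π` is not nilpotent modulo `a`
  have hnil : ¬ IsNilpotent (Ideal.Quotient.mk (Ideal.span {a}) π) := by
    rintro ⟨m, hm⟩
    rw [← map_pow, Ideal.Quotient.eq_zero_iff_mem, Ideal.mem_span_singleton] at hm
    -- `a ∣ π ^ m` with `π ∤ a` forces `a` to be a unit
    obtain ⟨c, hc⟩ := hm
    have key : ∀ m : ℕ, ∀ c : O, π ^ m = a * c → IsUnit a := by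
      intro m
      induction m with
      | zero =>
        intro c hc
        rw [pow_zero] at hc
        exact isUnit_iff_exists_inv.2 ⟨c, hc.symm⟩
      | succ m ih =>
        intro c hc
        have h1 : π ∣ a * c := ⟨π ^ m, by rw [← hc, pow_succ']⟩
        obtain ⟨c', rfl⟩ := (hπ.dvd_or_dvd h1).resolve_left ha
        apply ih c'
        have h2 : π * π ^ m = π * (a * c') := by rw [← pow_succ', hc]; ring
        exact mul_left_cancel₀ hπ.ne_zero h2
    exact hau (key m c hc)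
  rw [← mem_nilradical, nilradical_eq_sInf, Ideal.mem_sInf] at hnil
  obtain ⟨𝔮, h𝔮, hπ𝔮⟩ : ∃ 𝔮 : Ideal (O ⧸ Ideal.span {a}), 𝔮.IsPrime ∧
      Ideal.Quotient.mk (Ideal.span {a}) π ∉ 𝔮 := by
    by_contra hcon
    apply hnil
    intro I hI
    by_contra hI'
    exact hcon ⟨I, hI, hI'⟩
  haveI : 𝔮.IsPrime := h𝔮
  refine ⟨𝔮.comap (Ideal.Quotient.mk (Ideal.span {a})), inferInstance, ?_, hπ𝔮⟩
  rw [Ideal.mem_comap]
  have : Ideal.Quotient.mk (Ideal.span {a}) a = 0 :=
    Ideal.Quotient.eq_zero_iff_mem.2 (Ideal.mem_span_singleton_self a)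
  rw [this]
  exact 𝔮.zero_mem

/-- **(LOC-B)** factorisation: an element `a` of a good point `O`, not divisible by `π`, all of
whose horizontal primes are rational (`∃ h ∈ 𝔭, 𝔫 = (π, h)`), is a unit times a product of prime
elements `h` with `𝔫 = (π, h)`. -/
theorem exists_units_mul_multiset_prod_eq {π : O} (hπ : Prime π) (a : O) (ha : ¬ π ∣ a)
    (H : ∀ 𝔭 : Ideal O, 𝔭.IsPrime → a ∈ 𝔭 → π ∉ 𝔭 →
      ∃ h ∈ 𝔭, maximalIdeal O = Ideal.span {π, h}) :
    ∃ (u : Oˣ) (s : Multiset O), a = u * s.prod ∧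
      ∀ h ∈ s, Prime h ∧ maximalIdeal O = Ideal.span {π, h} ∧ h ∣ a := by
  induction a using (wellFounded_dvdNotUnit (α := O)).induction with
  | _ a ih =>
    have ha0 : a ≠ 0 := by rintro rfl; exact ha (dvd_zero π)
    by_cases hau : IsUnit a
    · exact ⟨hau.unit, 0, by simp, by simp⟩
    · obtain ⟨𝔭, h𝔭, ha𝔭, hπ𝔭⟩ := exists_isPrime_mem_not_mem_of_not_dvd hπ ha hau
      obtain ⟨h, hh𝔭, hgen⟩ := H 𝔭 h𝔭 ha𝔭 hπ𝔭
      have h𝔭eq : 𝔭 = Ideal.span {h} := eq_span_singleton_of_maximalIdeal_eq 𝔭 hπ𝔭 hh𝔭 hgen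
      have hh0 : h ≠ 0 := by
        rintro rfl
        rw [h𝔭eq, Ideal.mem_span_singleton, zero_dvd_iff] at ha𝔭
        exact ha0 ha𝔭
      have hhprime : Prime h := by
        rw [← Ideal.span_singleton_prime hh0, ← h𝔭eq]; exact h𝔭
      have hhdvd : h ∣ a := by
        rw [h𝔭eq, Ideal.mem_span_singleton] at ha𝔭; exact ha𝔭
      obtain ⟨a', rfl⟩ := hhdvd
      have ha'0 : a' ≠ 0 := right_ne_zero_of_mul ha0
      have hdnu : DvdNotUnit a' (h * a') :=
        ⟨ha'0, h, hhprime.not_isUnit, mul_comm h a'⟩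
      have ha' : ¬ π ∣ a' := fun hd => ha (Dvd.dvd.mul_left hd h)
      have H' : ∀ 𝔮 : Ideal O, 𝔮.IsPrime → a' ∈ 𝔮 → π ∉ 𝔮 →
          ∃ h' ∈ 𝔮, maximalIdeal O = Ideal.span {π, h'} :=
        fun 𝔮 h𝔮 ha'𝔮 hπ𝔮 => H 𝔮 h𝔮 (𝔮.mul_mem_left h ha'𝔮) hπ𝔮
      obtain ⟨u, s', hus', hs'⟩ := ih a' hdnu ha' H'
      refine ⟨u, h ::ₘ s', ?_, ?_⟩
      · rw [Multiset.prod_cons, hus']; ring
      · intro h' hh'
        rcases Multiset.mem_cons.1 hh' with rfl | hh'
        · exact ⟨hhprime, hgen, Dvd.intro _ rfl⟩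
        · obtain ⟨h1, h2, h3⟩ := hs' h' hh'
          exact ⟨h1, h2, Dvd.dvd.mul_left h3 h⟩

end Factor

section Card

variable {O : Type*} [CommRing O] [IsLocalRing O]

/-- units of `O / I` lift to units of the local ring `O` -/
theorem isUnit_of_isUnit_quotient_mk {I : Ideal O} (hI : I ≠ ⊤) {x : O}
    (hx : IsUnit (Ideal.Quotient.mk I x)) : IsUnit x := by
  obtain ⟨y, hy⟩ := isUnit_iff_exists_inv.1 hx
  obtain ⟨y, rfl⟩ := Ideal.Quotient.mk_surjective y
  rw [← map_mul, ← map_one (Ideal.Quotient.mk I), Ideal.Quotient.eq] at hy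
  by_contra hxu
  have hxm : x ∈ maximalIdeal O := (IsLocalRing.mem_maximalIdeal x).2 hxu
  have h1 : x * y - 1 ∈ maximalIdeal O := IsLocalRing.le_maximalIdeal hI hy
  have h2 : (1 : O) ∈ maximalIdeal O := by
    have : (1 : O) = x * y - (x * y - 1) := by ring
    rw [this]
    exact (maximalIdeal O).sub_mem ((maximalIdeal O).mul_mem_right y hxm) h1
  exact (Ideal.ne_top_iff_one _).1 (IsLocalRing.maximalIdeal.isMaximal O).ne_top h2

variable [IsDomain O] [IsNoetherianRing O]

/-- if `𝔫 = (π, h)` then `h` maps to a uniformizer of the discrete valuation ring `O / π` -/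
theorem irreducible_quotient_mk_of_maximalIdeal_eq {π h : O}
    [IsDomain (O ⧸ Ideal.span {π})] [IsDiscreteValuationRing (O ⧸ Ideal.span {π})]
    (hgen : maximalIdeal O = Ideal.span {π, h}) :
    Irreducible (Ideal.Quotient.mk (Ideal.span {π}) h) := by
  have hne : (Ideal.span {π} : Ideal O) ≠ ⊤ := by
    intro htop
    have : Subsingleton (O ⧸ Ideal.span {π}) := Ideal.Quotient.subsingleton_iff.2 htop
    exact not_subsingleton (O ⧸ Ideal.span {π}) this
  rw [IsDiscreteValuationRing.irreducible_iff_uniformizer]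
  apply le_antisymm
  · intro x hx
    obtain ⟨x, rfl⟩ := Ideal.Quotient.mk_surjective x
    rw [IsLocalRing.mem_maximalIdeal, mem_nonunits_iff] at hx
    have hxm : x ∈ maximalIdeal O := by
      rw [IsLocalRing.mem_maximalIdeal, mem_nonunits_iff]
      exact fun hu => hx (hu.map _)
    rw [hgen, Ideal.mem_span_pair] at hxm
    obtain ⟨a, b, rfl⟩ := hxm
    rw [Ideal.mem_span_singleton]
    refine ⟨Ideal.Quotient.mk _ b, ?_⟩
    have hπ0 : Ideal.Quotient.mk (Ideal.span {π}) π = 0 :=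
      Ideal.Quotient.eq_zero_iff_mem.2 (Ideal.mem_span_singleton_self π)
    rw [map_add, map_mul, map_mul, hπ0, mul_zero, zero_add, mul_comm]
  · rw [Ideal.span_singleton_le_iff_mem, IsLocalRing.mem_maximalIdeal, mem_nonunits_iff]
    intro hu
    have hhu : IsUnit h := isUnit_of_isUnit_quotient_mk hne hu
    have hhm : h ∈ maximalIdeal O := by
      rw [hgen]; exact Ideal.subset_span (Set.mem_insert_of_mem _ (Set.mem_singleton _))
    exact (IsLocalRing.mem_maximalIdeal h).1 hhm hhu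

/-- **(LOC-B, order form)**: the order of `a mod π` in the discrete valuation ring `O / π` is the
number of horizontal prime factors of `a`. -/
theorem exists_units_mul_multiset_prod_eq_card {π : O} (hπ : Prime π)
    [IsDomain (O ⧸ Ideal.span {π})] [IsDiscreteValuationRing (O ⧸ Ideal.span {π})]
    (a : O) (ha : ¬ π ∣ a)
    (H : ∀ 𝔭 : Ideal O, 𝔭.IsPrime → a ∈ 𝔭 → π ∉ 𝔭 →
      ∃ h ∈ 𝔭, maximalIdeal O = Ideal.span {π, h}) :
    ∃ (u : Oˣ) (s : Multiset O), a = u * s.prod ∧
      (∀ h ∈ s, Prime h ∧ maximalIdeal O = Ideal.span {π, h} ∧ h ∣ a) ∧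
      IsDiscreteValuationRing.addVal (O ⧸ Ideal.span {π}) (Ideal.Quotient.mk (Ideal.span {π}) a) =
        (Multiset.card s : ℕ∞) := by
  obtain ⟨u, s, hus, hs⟩ := exists_units_mul_multiset_prod_eq hπ a ha H
  refine ⟨u, s, hus, hs, ?_⟩
  have hs' : ∀ h ∈ s, maximalIdeal O = Ideal.span {π, h} := fun h hh => (hs h hh).2.1
  have hprod : ∀ t : Multiset O, (∀ h ∈ t, maximalIdeal O = Ideal.span {π, h}) →
      IsDiscreteValuationRing.addVal (O ⧸ Ideal.span {π})
        (Ideal.Quotient.mk (Ideal.span {π}) t.prod) = (Multiset.card t : ℕ∞) := by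
    intro t
    induction t using Multiset.induction_on with
    | empty => intro _; simp
    | cons h t ih =>
      intro ht
      rw [Multiset.prod_cons, map_mul, IsDiscreteValuationRing.addVal_mul,
        ih (fun h' hh' => ht h' (Multiset.mem_cons_of_mem hh')),
        IsDiscreteValuationRing.addVal_uniformizer
          (irreducible_quotient_mk_of_maximalIdeal_eq (ht h (Multiset.mem_cons_self h t))),
        Multiset.card_cons, Nat.cast_add, Nat.cast_one, add_comm]
  rw [hus, map_mul, IsDiscreteValuationRing.addVal_mul, hprod s hs']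
  have hu : IsUnit (Ideal.Quotient.mk (Ideal.span {π}) (u : O)) := u.isUnit.map _
  have h0 : IsDiscreteValuationRing.addVal (O ⧸ Ideal.span {π})
      (Ideal.Quotient.mk (Ideal.span {π}) (u : O)) = 0 := by
    have := IsDiscreteValuationRing.addVal_eq_zero_of_unit (R := O ⧸ Ideal.span {π}) hu.unit
    simpa using this
  rw [h0, zero_add]

end Card

section Val

variable {O : Type*} [CommRing O] [IsDomain O] [IsNoetherianRing O]
  {E : Type*} [Field E] [Algebra O E] [IsFractionRing O E]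

/-- every nonzero element of `E = Frac O` is `h ^ n * (a / b)` with `a`, `b` prime to the prime
element `h` -/
theorem exists_zpow_mul_div_of_prime {h : O} (hh : Prime h) (x : E) (hx : x ≠ 0) :
    ∃ (n : ℤ) (a b : O), ¬ h ∣ a ∧ ¬ h ∣ b ∧
      x = algebraMap O E h ^ n * (algebraMap O E a / algebraMap O E b) := by
  have hinj : Function.Injective (algebraMap O E) := IsFractionRing.injective O E
  obtain ⟨a, b, hb, rfl⟩ := IsFractionRing.div_surjective (A := O) x
  have hb0 : b ≠ 0 := nonZeroDivisors.ne_zero hb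
  have ha0 : a ≠ 0 := by
    rintro rfl
    rw [map_zero, zero_div] at hx
    exact hx rfl
  obtain ⟨i, a', ha', hi⟩ := WfDvdMonoid.max_power_factor' ha0 hh.not_isUnit
  obtain ⟨j, b', hb', hj⟩ := WfDvdMonoid.max_power_factor' hb0 hh.not_isUnit
  have hhE : algebraMap O E h ≠ 0 := (map_ne_zero_iff _ hinj).2 hh.ne_zero
  have hb'0 : b' ≠ 0 := by rintro rfl; exact hb' (dvd_zero h)
  have hb'E : algebraMap O E b' ≠ 0 := (map_ne_zero_iff _ hinj).2 hb'0
  refine ⟨(i : ℤ) - j, a', b', ha', hb', ?_⟩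
  rw [hi, hj, map_mul, map_mul, map_pow, map_pow, zpow_sub₀ hhE, zpow_natCast, zpow_natCast]
  field_simp

end Val

end Fermat.Agent.JA
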