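/-
J-A — helper6 — (LOC) L1–L4: a noetherian local domain `O` with a prime element `π` such that
`O / π` is a discrete valuation ring ("good point of an arithmetic surface").

* (L1) `exists_eq_span_singleton_of_not_mem` : every prime `𝔭 ∌ π` is principal.
* (L2) `uniqueFactorizationMonoid_of_isDiscreteValuationRing_quotient` : `O` is a UFD.
* (L3) `span_sup_span_eq_maximalIdeal_iff` : transversality `(f) + (π) = 𝔫 ↔ f̄` uniformizer.
* (L4) `addVal_mk_eq_sum_factors`, `addVal_mk_eq_card_factors` : the order formula.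
-/
import Mathlib
import Fermat.Agent.JA.LOC_helper6_Core

set_option autoImplicit false
set_option linter.unusedSectionVars false
set_option linter.style.haveILetI false

namespace Fermat.Agent.JA

open IsLocalRing

section L1

variable {O : Type*} [CommRing O] [IsLocalRing O] [IsNoetherianRing O] {π : O}
  [IsDomain (O ⧸ Ideal.span {π})] [IsDiscreteValuationRing (O ⧸ Ideal.span {π})]

omit [IsNoetherianRing O] [IsDiscreteValuationRing (O ⧸ Ideal.span {π})] in
theorem span_singleton_ne_top_of_isDomain_quotient : (Ideal.span {π} : Ideal O) ≠ ⊤ := by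
  intro htop
  have : Subsingleton (O ⧸ Ideal.span {π}) := Ideal.Quotient.subsingleton_iff.2 htop
  exact not_subsingleton (O ⧸ Ideal.span {π}) this

omit [IsNoetherianRing O] [IsDiscreteValuationRing (O ⧸ Ideal.span {π})] in
theorem mem_maximalIdeal_of_isDomain_quotient : π ∈ maximalIdeal O :=
  IsLocalRing.le_maximalIdeal span_singleton_ne_top_of_isDomain_quotient
    (Ideal.mem_span_singleton_self π)

/-- **(L1)** every prime ideal of `O` not containing `π` is principal. -/
theorem exists_eq_span_singleton_of_not_mem (𝔭 : Ideal O) [h𝔭 : 𝔭.IsPrime] (hπ𝔭 : π ∉ 𝔭) :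
    ∃ f : O, 𝔭 = Ideal.span {f} := by
  -- a generator of the image of `𝔭` in the principal ideal ring `O / π`
  have hprinc : (𝔭.map (Ideal.Quotient.mk (Ideal.span {π}))).IsPrincipal :=
    IsPrincipalIdealRing.principal _
  obtain ⟨g, hg⟩ := hprinc
  have hgmem : g ∈ 𝔭.map (Ideal.Quotient.mk (Ideal.span {π})) := by
    rw [hg]; exact Submodule.mem_span_singleton_self g
  obtain ⟨f, hf𝔭, rfl⟩ :=
    (Ideal.mem_map_iff_of_surjective _ Ideal.Quotient.mk_surjective).1 hgmem
  refine ⟨f, le_antisymm ?_ ((Ideal.span_singleton_le_iff_mem 𝔭).2 hf𝔭)⟩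
  refine Submodule.le_of_le_smul_of_le_jacobson_bot (I := maximalIdeal O)
    (IsNoetherian.noetherian 𝔭) (IsLocalRing.maximalIdeal_le_jacobson ⊥) ?_
  intro x hx
  have hxm : Ideal.Quotient.mk (Ideal.span {π}) x ∈
      𝔭.map (Ideal.Quotient.mk (Ideal.span {π})) := Ideal.mem_map_of_mem _ hx
  rw [hg] at hxm
  obtain ⟨c, hc⟩ := Submodule.mem_span_singleton.1 hxm
  obtain ⟨c, rfl⟩ := Ideal.Quotient.mk_surjective c
  rw [smul_eq_mul, ← map_mul, Ideal.Quotient.eq, Ideal.mem_span_singleton] at hc
  obtain ⟨y, hy⟩ := hc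
  have hπy : π * y ∈ 𝔭 := by
    rw [← hy]; exact 𝔭.sub_mem (𝔭.mul_mem_left c hf𝔭) hx
  have hy𝔭 : y ∈ 𝔭 := (h𝔭.mem_or_mem hπy).resolve_left hπ𝔭
  have hxeq : x = c * f + π * (-y) := by
    have : π * y = c * f - x := hy.symm
    linear_combination this
  rw [hxeq]
  refine Submodule.add_mem_sup ?_ ?_
  · exact Ideal.mul_mem_left _ c (Ideal.subset_span (Set.mem_singleton f))
  · exact Submodule.smul_mem_smul mem_maximalIdeal_of_isDomain_quotient (𝔭.neg_mem hy𝔭)

end L1

section L2

variable {O : Type*} [CommRing O] [IsDomain O] [IsLocalRing O] [IsNoetherianRing O] {π : O}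
  [IsDomain (O ⧸ Ideal.span {π})] [IsDiscreteValuationRing (O ⧸ Ideal.span {π})]

/-- irreducible elements of a good point are prime -/
theorem prime_of_irreducible_of_isDiscreteValuationRing_quotient (hπ : Prime π) {q : O}
    (hq : Irreducible q) : Prime q := by
  by_cases hd : π ∣ q
  · obtain ⟨c, rfl⟩ := hd
    have hc : IsUnit c := (hq.isUnit_or_isUnit rfl).resolve_left hπ.not_isUnit
    exact (associated_mul_unit_right π c hc).prime hπ
  · obtain ⟨𝔭, h𝔭, hq𝔭, hπ𝔭⟩ := exists_isPrime_mem_not_mem_of_not_dvd hπ hd hq.not_isUnit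
    obtain ⟨f, rfl⟩ := exists_eq_span_singleton_of_not_mem 𝔭 hπ𝔭
    obtain ⟨c, rfl⟩ := Ideal.mem_span_singleton.1 hq𝔭
    have hfu : ¬ IsUnit f := fun hu =>
      h𝔭.ne_top (Ideal.span_singleton_eq_top.2 hu)
    have hc : IsUnit c := (hq.isUnit_or_isUnit rfl).resolve_left hfu
    have hf0 : f ≠ 0 := left_ne_zero_of_mul hq.ne_zero
    have hfprime : Prime f := (Ideal.span_singleton_prime hf0).1 h𝔭
    exact (associated_mul_unit_right f c hc).prime hfprime

/-- **(L2)** a good point is a unique factorisation domain. -/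
theorem uniqueFactorizationMonoid_of_isDiscreteValuationRing_quotient (hπ : Prime π) :
    UniqueFactorizationMonoid O :=
  { toIsWellFounded := IsNoetherianRing.wfDvdMonoid
    irreducible_iff_prime := fun {_} =>
      ⟨prime_of_irreducible_of_isDiscreteValuationRing_quotient hπ, Prime.irreducible⟩ }

end L2

section L3

variable {O : Type*} [CommRing O] [IsLocalRing O] {π : O}
  [IsDomain (O ⧸ Ideal.span {π})] [IsDiscreteValuationRing (O ⧸ Ideal.span {π})]

omit [IsDiscreteValuationRing (O ⧸ Ideal.span {π})] in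
/-- membership in the maximal ideal of `O / π` -/
theorem mk_mem_maximalIdeal_quotient_iff [IsLocalRing (O ⧸ Ideal.span {π})] (x : O) :
    Ideal.Quotient.mk (Ideal.span {π}) x ∈ maximalIdeal (O ⧸ Ideal.span {π}) ↔
      x ∈ maximalIdeal O := by
  rw [IsLocalRing.mem_maximalIdeal, mem_nonunits_iff, IsLocalRing.mem_maximalIdeal,
    mem_nonunits_iff, not_iff_not]
  exact ⟨isUnit_of_isUnit_quotient_mk span_singleton_ne_top_of_isDomain_quotient,
    fun h => h.map _⟩

/-- **(L3)** transversality: `(f) + (π) = 𝔫` iff `f mod π` is a uniformizer of `O / π`. -/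
theorem span_sup_span_eq_maximalIdeal_iff (f : O) :
    Ideal.span {f} ⊔ Ideal.span {π} = maximalIdeal O ↔
      Irreducible (Ideal.Quotient.mk (Ideal.span {π}) f) := by
  rw [IsDiscreteValuationRing.irreducible_iff_uniformizer]
  constructor
  · intro h
    apply le_antisymm
    · intro x hx
      obtain ⟨x, rfl⟩ := Ideal.Quotient.mk_surjective x
      rw [mk_mem_maximalIdeal_quotient_iff, ← h] at hx
      obtain ⟨a, ha, b, hb, rfl⟩ := Submodule.mem_sup.1 hx
      obtain ⟨c, rfl⟩ := Ideal.mem_span_singleton'.1 ha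
      have hb0 : Ideal.Quotient.mk (Ideal.span {π}) b = 0 := Ideal.Quotient.eq_zero_iff_mem.2 hb
      rw [map_add, hb0, add_zero, map_mul]
      exact Ideal.mul_mem_left _ _ (Ideal.subset_span (Set.mem_singleton _))
    · rw [Ideal.span_singleton_le_iff_mem, mk_mem_maximalIdeal_quotient_iff, ← h]
      exact Ideal.mem_sup_left (Ideal.mem_span_singleton_self f)
  · intro h
    have hfm : f ∈ maximalIdeal O := by
      rw [← mk_mem_maximalIdeal_quotient_iff (π := π), h]
      exact Ideal.mem_span_singleton_self _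
    apply le_antisymm
    · rw [sup_le_iff, Ideal.span_singleton_le_iff_mem, Ideal.span_singleton_le_iff_mem]
      exact ⟨hfm, mem_maximalIdeal_of_isDomain_quotient⟩
    · intro x hx
      rw [← mk_mem_maximalIdeal_quotient_iff (π := π), h, Ideal.mem_span_singleton] at hx
      obtain ⟨c, hc⟩ := hx
      obtain ⟨c, rfl⟩ := Ideal.Quotient.mk_surjective c
      rw [← map_mul, Ideal.Quotient.eq] at hc
      have : x = f * c + (x - f * c) := by ring
      rw [this]
      exact Submodule.add_mem_sup (Ideal.mul_mem_right c _ (Ideal.mem_span_singleton_self f)) hc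

/-- transversality criterion: if `O / (f)` maps isomorphically onto a local ring whose maximal
ideal is generated by the image of `π`, then `(f) + (π) = 𝔫`. -/
theorem span_sup_span_eq_maximalIdeal_of_surjective {R : Type*} [CommRing R] [IsLocalRing R]
    (φ : O →+* R) (hφ : Function.Surjective φ) {f : O} (hker : RingHom.ker φ = Ideal.span {f})
    (hmax : maximalIdeal R = Ideal.span {φ π}) :
    Ideal.span {f} ⊔ Ideal.span {π} = maximalIdeal O := by
  apply le_antisymm
  · rw [sup_le_iff, Ideal.span_singleton_le_iff_mem, Ideal.span_singleton_le_iff_mem]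
    refine ⟨?_, mem_maximalIdeal_of_isDomain_quotient⟩
    rw [IsLocalRing.mem_maximalIdeal, mem_nonunits_iff]
    intro hu
    have h1 : f ∈ RingHom.ker φ := by rw [hker]; exact Ideal.mem_span_singleton_self f
    have h2 : IsUnit (φ f) := hu.map φ
    rw [RingHom.mem_ker] at h1
    rw [h1] at h2
    exact not_isUnit_zero h2
  · intro x hx
    have hφx : φ x ∈ maximalIdeal R := by
      rw [IsLocalRing.mem_maximalIdeal, mem_nonunits_iff] at hx ⊢
      intro hu
      apply hx
      obtain ⟨y, hy⟩ := isUnit_iff_exists_inv.1 hu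
      obtain ⟨y, rfl⟩ := hφ y
      -- `x * y - 1 ∈ ker φ ⊆ 𝔫`
      have h1 : x * y - 1 ∈ RingHom.ker φ := by
        rw [RingHom.mem_ker, map_sub, map_mul, hy, map_one, sub_self]
      have hkerle : RingHom.ker φ ≤ maximalIdeal O :=
        IsLocalRing.le_maximalIdeal (RingHom.ker_ne_top φ)
      by_contra hxu
      have hxm : x ∈ maximalIdeal O := (IsLocalRing.mem_maximalIdeal x).2 hxu
      have h2 : (1 : O) ∈ maximalIdeal O := by
        have : (1 : O) = x * y - (x * y - 1) := by ring
        rw [this]
        exact (maximalIdeal O).sub_mem ((maximalIdeal O).mul_mem_right y hxm) (hkerle h1)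
      exact (Ideal.ne_top_iff_one _).1 (IsLocalRing.maximalIdeal.isMaximal O).ne_top h2
    rw [hmax, Ideal.mem_span_singleton] at hφx
    obtain ⟨c, hc⟩ := hφx
    obtain ⟨c, rfl⟩ := hφ c
    have h1 : x - π * c ∈ RingHom.ker φ := by
      rw [RingHom.mem_ker, map_sub, map_mul, hc, sub_self]
    rw [hker] at h1
    have : x = (x - π * c) + π * c := by ring
    rw [this]
    exact Submodule.add_mem_sup h1 (Ideal.mul_mem_right c _ (Ideal.mem_span_singleton_self π))

end L3

section L4

variable {O : Type*} [CommRing O] [IsDomain O] [IsLocalRing O] [IsNoetherianRing O] {π : O}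
  [IsDomain (O ⧸ Ideal.span {π})] [IsDiscreteValuationRing (O ⧸ Ideal.span {π})]

omit [IsDomain O] [IsNoetherianRing O] in
/-- the order in `O / π` of a unit times a product -/
theorem addVal_mk_units_mul_prod (u : Oˣ) (s : Multiset O) :
    IsDiscreteValuationRing.addVal (O ⧸ Ideal.span {π})
        (Ideal.Quotient.mk (Ideal.span {π}) ((u : O) * s.prod)) =
      (s.map (fun p => IsDiscreteValuationRing.addVal (O ⧸ Ideal.span {π})
        (Ideal.Quotient.mk (Ideal.span {π}) p))).sum := by
  have hu : IsUnit (Ideal.Quotient.mk (Ideal.span {π}) (u : O)) := u.isUnit.map _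
  have h0 : IsDiscreteValuationRing.addVal (O ⧸ Ideal.span {π})
      (Ideal.Quotient.mk (Ideal.span {π}) (u : O)) = 0 := by
    have := IsDiscreteValuationRing.addVal_eq_zero_of_unit (R := O ⧸ Ideal.span {π}) hu.unit
    simpa using this
  rw [map_mul, IsDiscreteValuationRing.addVal_mul, h0, zero_add]
  induction s using Multiset.induction_on with
  | empty => simp
  | cons p t ih =>
    rw [Multiset.prod_cons, map_mul, IsDiscreteValuationRing.addVal_mul, ih, Multiset.map_cons,
      Multiset.sum_cons]

/-- **(L4)** the order formula: the order of `a mod π` is the sum of the orders of the prime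
factors of `a` (with multiplicity). -/
theorem addVal_mk_eq_sum_factors (hπ : Prime π) {a : O} (ha : a ≠ 0) :
    haveI := uniqueFactorizationMonoid_of_isDiscreteValuationRing_quotient (O := O) hπ
    IsDiscreteValuationRing.addVal (O ⧸ Ideal.span {π}) (Ideal.Quotient.mk (Ideal.span {π}) a) =
      ((UniqueFactorizationMonoid.factors a).map
        (fun p => IsDiscreteValuationRing.addVal (O ⧸ Ideal.span {π})
          (Ideal.Quotient.mk (Ideal.span {π}) p))).sum := by
  haveI := uniqueFactorizationMonoid_of_isDiscreteValuationRing_quotient (O := O) hπ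
  obtain ⟨u, hu⟩ := UniqueFactorizationMonoid.factors_prod ha
  have key : a = (u : O) * (UniqueFactorizationMonoid.factors a).prod := by
    rw [mul_comm]; exact hu.symm
  conv_lhs => rw [key]
  exact addVal_mk_units_mul_prod u _

/-- **(L4), transversal case**: if all prime factors of `a` are transversal to `π`, the order of
`a mod π` is the number of prime factors of `a` (with multiplicity). -/
theorem addVal_mk_eq_card_factors (hπ : Prime π) {a : O} (ha : a ≠ 0)
    (htr : haveI := uniqueFactorizationMonoid_of_isDiscreteValuationRing_quotient (O := O) hπ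
      ∀ p ∈ UniqueFactorizationMonoid.factors a,
        Ideal.span {p} ⊔ Ideal.span {π} = maximalIdeal O) :
    haveI := uniqueFactorizationMonoid_of_isDiscreteValuationRing_quotient (O := O) hπ
    IsDiscreteValuationRing.addVal (O ⧸ Ideal.span {π}) (Ideal.Quotient.mk (Ideal.span {π}) a) =
      (Multiset.card (UniqueFactorizationMonoid.factors a) : ℕ∞) := by
  haveI := uniqueFactorizationMonoid_of_isDiscreteValuationRing_quotient (O := O) hπ
  rw [addVal_mk_eq_sum_factors hπ ha]
  have h1 : ∀ p ∈ UniqueFactorizationMonoid.factors a,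
      IsDiscreteValuationRing.addVal (O ⧸ Ideal.span {π})
        (Ideal.Quotient.mk (Ideal.span {π}) p) = 1 := fun p hp =>
    IsDiscreteValuationRing.addVal_uniformizer
      ((span_sup_span_eq_maximalIdeal_iff p).1 (htr p hp))
  rw [Multiset.map_congr rfl h1, Multiset.map_const', Multiset.sum_replicate, nsmul_eq_mul,
    mul_one]

end L4

end Fermat.Agent.JA
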