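/-
J-A — helper6 — (LOC) L5: instantiation.  `B` a domain, `π ∈ B` prime with `B / π` a Dedekind
domain, `𝔫 ∋ π` a maximal ideal different from `(π)`.  Then `O := B_𝔫` is a good point: the image
of `π` is prime and `O / π` is a discrete valuation ring.
-/
import Mathlib
import Fermat.Agent.JA.LOC_helper6_Ufd

set_option autoImplicit false
set_option linter.unusedSectionVars false
set_option linter.style.haveILetI false

namespace Fermat.Agent.JA

open IsLocalRing

section L5

variable {B : Type*} [CommRing B] [IsDomain B] (π : B)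

omit [IsDomain B] in
theorem map_span_singleton_localization (𝔫 : Ideal B) [𝔫.IsPrime] :
    (Ideal.span {π}).map (algebraMap B (Localization.AtPrime 𝔫)) =
      Ideal.span {algebraMap B (Localization.AtPrime 𝔫) π} := by
  rw [Ideal.map_span, Set.image_singleton]

/-- the image of a prime element `π ∈ 𝔫` in the localisation `B_𝔫` is prime -/
theorem prime_algebraMap_localization_atPrime (hπ : Prime π) (𝔫 : Ideal B) [𝔫.IsPrime]
    (hπ𝔫 : π ∈ 𝔫) : Prime (algebraMap B (Localization.AtPrime 𝔫) π) := by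
  have hinj : Function.Injective (algebraMap B (Localization.AtPrime 𝔫)) :=
    IsLocalization.injective _ 𝔫.primeCompl_le_nonZeroDivisors
  have h0 : algebraMap B (Localization.AtPrime 𝔫) π ≠ 0 := (map_ne_zero_iff _ hinj).2 hπ.ne_zero
  have hI : (Ideal.span {π} : Ideal B).IsPrime := (Ideal.span_singleton_prime hπ.ne_zero).2 hπ
  have hdisj : Disjoint (𝔫.primeCompl : Set B) (Ideal.span {π} : Ideal B) := by
    rw [Set.disjoint_left]
    intro x hx hx'
    exact hx ((Ideal.span_singleton_le_iff_mem 𝔫).2 hπ𝔫 hx')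
  have hprime := IsLocalization.isPrime_of_isPrime_disjoint 𝔫.primeCompl
    (Localization.AtPrime 𝔫) (Ideal.span {π}) hI hdisj
  rw [map_span_singleton_localization] at hprime
  exact (Ideal.span_singleton_prime h0).1 hprime

omit [IsDomain B] in
/-- the image of the complement of `𝔫` in `B / π` is the complement of the image of `𝔫` -/
theorem algebraMapSubmonoid_quotient_primeCompl (𝔫 : Ideal B) [𝔫.IsPrime] (hπ𝔫 : π ∈ 𝔫)
    [(𝔫.map (Ideal.Quotient.mk (Ideal.span {π}))).IsPrime] :
    Algebra.algebraMapSubmonoid (B ⧸ Ideal.span {π}) 𝔫.primeCompl =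
      (𝔫.map (Ideal.Quotient.mk (Ideal.span {π}))).primeCompl := by
  ext x
  constructor
  · rintro ⟨y, hy, rfl⟩
    intro hmem
    obtain ⟨z, hz, hzy⟩ := (Ideal.mem_map_iff_of_surjective _ Ideal.Quotient.mk_surjective).1 hmem
    apply hy
    have h1 : z - y ∈ Ideal.span {π} := Ideal.Quotient.eq.1 hzy
    have h2 : z - y ∈ 𝔫 := (Ideal.span_singleton_le_iff_mem 𝔫).2 hπ𝔫 h1
    have : y = z - (z - y) := by ring
    show y ∈ 𝔫
    rw [this]
    exact 𝔫.sub_mem hz h2
  · intro hx
    obtain ⟨y, rfl⟩ := Ideal.Quotient.mk_surjective x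
    refine ⟨y, ?_, rfl⟩
    intro hy
    exact hx (Ideal.mem_map_of_mem _ hy)

/-- **(L5)** the localisation of `B` at a maximal ideal `𝔫 ∋ π`, `𝔫 ≠ (π)`, with `B / π` Dedekind,
is a good point: `O / π` is a discrete valuation ring. -/
theorem exists_isDiscreteValuationRing_quotient_localization
    [IsDedekindDomain (B ⧸ Ideal.span {π})] (hπ : Prime π) (𝔫 : Ideal B) [h𝔫 : 𝔫.IsMaximal]
    (hπ𝔫 : π ∈ 𝔫) (hne : 𝔫 ≠ Ideal.span {π}) :
    ∃ (_ : IsDomain (Localization.AtPrime 𝔫 ⧸
        Ideal.span {algebraMap B (Localization.AtPrime 𝔫) π})),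
      IsDiscreteValuationRing (Localization.AtPrime 𝔫 ⧸
        Ideal.span {algebraMap B (Localization.AtPrime 𝔫) π}) := by
  have hπO := prime_algebraMap_localization_atPrime π hπ 𝔫 hπ𝔫
  rw [← map_span_singleton_localization]
  have hprimeI : ((Ideal.span {π}).map (algebraMap B (Localization.AtPrime 𝔫))).IsPrime := by
    rw [map_span_singleton_localization]
    exact (Ideal.span_singleton_prime hπO.ne_zero).2 hπO
  have hdom : IsDomain (Localization.AtPrime 𝔫 ⧸
      (Ideal.span {π}).map (algebraMap B (Localization.AtPrime 𝔫))) := Ideal.Quotient.isDomain _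
  refine ⟨hdom, ?_⟩
  -- the image of `𝔫` in `B / π`
  have hker : RingHom.ker (Ideal.Quotient.mk (Ideal.span {π})) ≤ 𝔫 := by
    rw [Ideal.mk_ker]; exact (Ideal.span_singleton_le_iff_mem 𝔫).2 hπ𝔫
  have hmax : (𝔫.map (Ideal.Quotient.mk (Ideal.span {π}))).IsMaximal :=
    Ideal.IsMaximal.map_of_surjective_of_ker_le Ideal.Quotient.mk_surjective hker
  haveI : (𝔫.map (Ideal.Quotient.mk (Ideal.span {π}))).IsPrime := hmax.isPrime
  have hbot : 𝔫.map (Ideal.Quotient.mk (Ideal.span {π})) ≠ ⊥ := by
    intro h0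
    apply hne
    apply le_antisymm
    · have := (Ideal.map_eq_bot_iff_le_ker _).1 h0
      rwa [Ideal.mk_ker] at this
    · exact (Ideal.span_singleton_le_iff_mem 𝔫).2 hπ𝔫
  haveI : IsLocalization.AtPrime (Localization.AtPrime 𝔫 ⧸
      (Ideal.span {π}).map (algebraMap B (Localization.AtPrime 𝔫)))
      (𝔫.map (Ideal.Quotient.mk (Ideal.span {π}))) := by
    show IsLocalization (𝔫.map (Ideal.Quotient.mk (Ideal.span {π}))).primeCompl _
    rw [← algebraMapSubmonoid_quotient_primeCompl π 𝔫 hπ𝔫]
    infer_instance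
  exact IsLocalization.AtPrime.isDiscreteValuationRing_of_dedekind_domain (B ⧸ Ideal.span {π})
    hbot _

/-- the localisation of an integrally closed domain at a prime is integrally closed -/
theorem isIntegrallyClosed_localization_atPrime [IsIntegrallyClosed B] (𝔫 : Ideal B) [𝔫.IsPrime] :
    IsIntegrallyClosed (Localization.AtPrime 𝔫) :=
  isIntegrallyClosed_of_isLocalization (Localization.AtPrime 𝔫) 𝔫.primeCompl
    𝔫.primeCompl_le_nonZeroDivisors

end L5

end Fermat.Agent.JA
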