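/-
J-A — helper6 — (LOC) extras: the maximal ideal of a good point is `(π, h₀)`; good points obtained
by localising a chart; the order formula for good points given as localisations.
-/
import Mathlib
import Fermat.Agent.JA.LOC_helper6_Inst

set_option autoImplicit false
set_option linter.unusedSectionVars false
set_option linter.style.haveILetI false

namespace Fermat.Agent.JA

open IsLocalRing

section Extra

variable {O : Type*} [CommRing O] [IsLocalRing O] {π : O}
  [IsDomain (O ⧸ Ideal.span {π})] [IsDiscreteValuationRing (O ⧸ Ideal.span {π})]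

/-- the maximal ideal of a good point is generated by `π` and a lift of a uniformizer of `O / π` -/
theorem exists_maximalIdeal_eq_span_pair : ∃ h₀ : O, maximalIdeal O = Ideal.span {π, h₀} := by
  obtain ⟨ϖ, hϖ⟩ := IsDiscreteValuationRing.exists_irreducible (O ⧸ Ideal.span {π})
  obtain ⟨h₀, rfl⟩ := Ideal.Quotient.mk_surjective ϖ
  refine ⟨h₀, ?_⟩
  rw [← (span_sup_span_eq_maximalIdeal_iff h₀).2 hϖ, sup_comm, ← Ideal.span_union,
    Set.singleton_union]

/-- a uniformizer of `O / π` lifts to an `h₀` with `𝔫 = (π, h₀)` -/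
theorem maximalIdeal_eq_span_pair_of_irreducible {h₀ : O}
    (h : Irreducible (Ideal.Quotient.mk (Ideal.span {π}) h₀)) :
    maximalIdeal O = Ideal.span {π, h₀} := by
  rw [← (span_sup_span_eq_maximalIdeal_iff h₀).2 h, sup_comm, ← Ideal.span_union,
    Set.singleton_union]

end Extra

section Loc

variable {B : Type*} [CommRing B] [IsDomain B] (π : B) [IsDedekindDomain (B ⧸ Ideal.span {π})]

/-- **(L5')** the localisation at `𝔫` of a chart `B` with `B / π` Dedekind has maximal ideal
`(π, h₀)`. -/
theorem exists_maximalIdeal_localization_eq_span_pair (hπ : Prime π) (𝔫 : Ideal B)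
    [h𝔫 : 𝔫.IsMaximal] (hπ𝔫 : π ∈ 𝔫) (hne : 𝔫 ≠ Ideal.span {π}) :
    ∃ h₀ : Localization.AtPrime 𝔫, maximalIdeal (Localization.AtPrime 𝔫) =
      Ideal.span {algebraMap B (Localization.AtPrime 𝔫) π, h₀} := by
  obtain ⟨_, _⟩ := exists_isDiscreteValuationRing_quotient_localization π hπ 𝔫 hπ𝔫 hne
  exact exists_maximalIdeal_eq_span_pair

end Loc

end Fermat.Agent.JA
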