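/-
J-A — helper6 — (LOC), place level: orders of a place `P` of `E / K₁` whose valuation ring
contains a noetherian domain `O` with `Frac O = E` and whose centre on `O` is a principal prime
`(h)`.
-/
import Mathlib
import Fermat.Agent.FF.PlaceBasic
import Fermat.Agent.JA.LOC_helper6_Core

set_option autoImplicit false
set_option linter.unusedSectionVars false
set_option linter.style.haveILetI false

open AlgebraicCurve

namespace Fermat.Agent.JA

section PlaceOrd

variable {K₁ : Type*} [Field K₁] {E : Type*} [Field E] [Algebra K₁ E]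

theorem ord_eq_zero_of_mem_of_inv_mem (P : Place K₁ E) {x : E}
    (hx : x ∈ P.toValuationSubring) (hx' : x⁻¹ ∈ P.toValuationSubring) : P.ord x = 0 := by
  have h1 := Fermat.Agent.FF.PlaceAux.ord_nonneg_of_mem P hx
  have h2 := Fermat.Agent.FF.PlaceAux.ord_nonneg_of_mem P hx'
  rw [P.ord_inv] at h2
  omega

theorem ord_pos_of_mem_of_inv_not_mem (P : Place K₁ E) {x : E}
    (hx : x ∈ P.toValuationSubring) (hx' : x⁻¹ ∉ P.toValuationSubring) : 0 < P.ord x := by
  have hx0 : x ≠ 0 := by
    rintro rfl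
    rw [inv_zero] at hx'
    exact hx' P.toValuationSubring.zero_mem
  have h1 := Fermat.Agent.FF.PlaceAux.ord_nonneg_of_mem P hx
  rcases h1.lt_or_eq with h | h
  · exact h
  · exfalso
    apply hx'
    rw [Fermat.Agent.FF.PlaceAux.mem_iff_ord_nonneg' P (inv_ne_zero hx0), P.ord_inv, ← h]
    exact le_of_eq neg_zero.symm

variable {O : Type*} [CommRing O] [IsDomain O] [IsNoetherianRing O] [Algebra O E]
  [IsFractionRing O E]

/-- a prime element `h` of `O` generating the centre of `P` is a uniformizer at `P` -/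
theorem ord_algebraMap_eq_one_of_center (P : Place K₁ E)
    (hO : ∀ x : O, algebraMap O E x ∈ P.toValuationSubring) {h : O} (hh : Prime h)
    (hunit : ∀ x : O, ¬ h ∣ x → (algebraMap O E x)⁻¹ ∈ P.toValuationSubring)
    (hnon : (algebraMap O E h)⁻¹ ∉ P.toValuationSubring) : P.ord (algebraMap O E h) = 1 := by
  have hinj : Function.Injective (algebraMap O E) := IsFractionRing.injective O E
  have hpos : 0 < P.ord (algebraMap O E h) := ord_pos_of_mem_of_inv_not_mem P (hO h) hnon
  obtain ⟨ϖ, hϖ⟩ := IsDiscreteValuationRing.exists_irreducible ↥P.toValuationSubring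
  have hϖ0 : (ϖ : E) ≠ 0 := by
    intro h0
    exact hϖ.ne_zero (Subtype.ext h0)
  obtain ⟨n, a, b, ha, hb, hab⟩ := exists_zpow_mul_div_of_prime (E := E) hh (ϖ : E) hϖ0
  have ha0 : algebraMap O E a ≠ 0 :=
    (map_ne_zero_iff _ hinj).2 (by rintro rfl; exact ha (dvd_zero h))
  have hb0 : algebraMap O E b ≠ 0 :=
    (map_ne_zero_iff _ hinj).2 (by rintro rfl; exact hb (dvd_zero h))
  have hh0 : algebraMap O E h ≠ 0 := (map_ne_zero_iff _ hinj).2 hh.ne_zero
  have hoa : P.ord (algebraMap O E a) = 0 := ord_eq_zero_of_mem_of_inv_mem P (hO a) (hunit a ha)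
  have hob : P.ord (algebraMap O E b) = 0 := ord_eq_zero_of_mem_of_inv_mem P (hO b) (hunit b hb)
  have h1 : P.ord (ϖ : E) = 1 := P.ord_coe_irreducible hϖ
  rw [hab, P.ord_mul (zpow_ne_zero n hh0) (div_ne_zero ha0 hb0), P.ord_zpow, div_eq_mul_inv,
    P.ord_mul ha0 (inv_ne_zero hb0), P.ord_inv, hoa, hob] at h1
  have h2 : n * P.ord (algebraMap O E h) = 1 := by omega
  exact Int.eq_one_of_mul_eq_one_left hpos.le h2

/-- elements of `O` prime to `h` have order zero at `P` -/
theorem ord_algebraMap_eq_zero_of_not_dvd (P : Place K₁ E)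
    (hO : ∀ x : O, algebraMap O E x ∈ P.toValuationSubring) {h : O}
    (hunit : ∀ x : O, ¬ h ∣ x → (algebraMap O E x)⁻¹ ∈ P.toValuationSubring) {x : O}
    (hx : ¬ h ∣ x) : P.ord (algebraMap O E x) = 0 :=
  ord_eq_zero_of_mem_of_inv_mem P (hO x) (hunit x hx)

/-- the order at `P` of a prime element `h'` of `O`: `1` if `h' ~ h`, `0` otherwise -/
theorem ord_algebraMap_prime_eq_ite (P : Place K₁ E)
    (hO : ∀ x : O, algebraMap O E x ∈ P.toValuationSubring) {h : O} (hh : Prime h)
    (hunit : ∀ x : O, ¬ h ∣ x → (algebraMap O E x)⁻¹ ∈ P.toValuationSubring)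
    (hnon : (algebraMap O E h)⁻¹ ∉ P.toValuationSubring) [DecidablePred (h ∣ ·)] {h' : O}
    (hh' : Prime h') : P.ord (algebraMap O E h') = if h ∣ h' then 1 else 0 := by
  have hinj : Function.Injective (algebraMap O E) := IsFractionRing.injective O E
  split_ifs with hd
  · obtain ⟨c, rfl⟩ := hd
    have hc : IsUnit c := (hh'.irreducible.isUnit_or_isUnit rfl).resolve_left hh.not_isUnit
    have hhc : ¬ h ∣ c := fun hd => hh.not_isUnit (isUnit_of_dvd_unit hd hc)
    have hh0 : algebraMap O E h ≠ 0 := (map_ne_zero_iff _ hinj).2 hh.ne_zero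
    have hc0 : algebraMap O E c ≠ 0 := (map_ne_zero_iff _ hinj).2 hc.ne_zero
    rw [map_mul, P.ord_mul hh0 hc0, ord_algebraMap_eq_one_of_center P hO hh hunit hnon,
      ord_algebraMap_eq_zero_of_not_dvd P hO hunit hhc, add_zero]
  · exact ord_algebraMap_eq_zero_of_not_dvd P hO hunit hd

/-- the order at `P` of a unit times a product of prime elements: the number of factors associated
to the generator `h` of the centre of `P` -/
theorem ord_algebraMap_units_mul_prod (P : Place K₁ E)
    (hO : ∀ x : O, algebraMap O E x ∈ P.toValuationSubring) {h : O} (hh : Prime h)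
    (hunit : ∀ x : O, ¬ h ∣ x → (algebraMap O E x)⁻¹ ∈ P.toValuationSubring)
    (hnon : (algebraMap O E h)⁻¹ ∉ P.toValuationSubring) [DecidablePred (h ∣ ·)] (u : Oˣ)
    (s : Multiset O) (hs : ∀ h' ∈ s, Prime h') :
    P.ord (algebraMap O E ((u : O) * s.prod)) = (Multiset.card (s.filter (h ∣ ·)) : ℤ) := by
  have hinj : Function.Injective (algebraMap O E) := IsFractionRing.injective O E
  have hu : P.ord (algebraMap O E (u : O)) = 0 :=
    ord_algebraMap_eq_zero_of_not_dvd P hO hunit
      (fun hd => hh.not_isUnit (isUnit_of_dvd_unit hd u.isUnit))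
  have hprod0 : ∀ t : Multiset O, (∀ h' ∈ t, Prime h') → t.prod ≠ 0 := by
    intro t ht h0
    have hx : (0 : O) ∈ t := Multiset.prod_eq_zero_iff.1 h0
    exact (ht 0 hx).ne_zero rfl
  have hprod : ∀ t : Multiset O, (∀ h' ∈ t, Prime h') →
      P.ord (algebraMap O E t.prod) = (Multiset.card (t.filter (h ∣ ·)) : ℤ) := by
    intro t
    induction t using Multiset.induction_on with
    | empty => intro _; simp
    | cons x t ih =>
      intro ht
      have hx : Prime x := ht x (Multiset.mem_cons_self x t)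
      have ht' : ∀ h' ∈ t, Prime h' := fun h' hh' => ht h' (Multiset.mem_cons_of_mem hh')
      have hx0 : algebraMap O E x ≠ 0 := (map_ne_zero_iff _ hinj).2 hx.ne_zero
      have ht0 : algebraMap O E t.prod ≠ 0 := (map_ne_zero_iff _ hinj).2 (hprod0 t ht')
      rw [Multiset.prod_cons, map_mul, P.ord_mul hx0 ht0, ih ht',
        ord_algebraMap_prime_eq_ite P hO hh hunit hnon hx, Multiset.filter_cons]
      split_ifs with hd
      · simp [add_comm]
      · simp
  have hu0 : algebraMap O E (u : O) ≠ 0 := (map_ne_zero_iff _ hinj).2 u.ne_zero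
  have hs0 : algebraMap O E s.prod ≠ 0 := (map_ne_zero_iff _ hinj).2 (hprod0 s hs)
  rw [map_mul, P.ord_mul hu0 hs0, hu, zero_add, hprod s hs]

end PlaceOrd

end Fermat.Agent.JA
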