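/-
J-A third wave, package RED-A (B3) — helper1.
(Rational) rational places of `E / K₁`, the centre of a place on a subring `O ⊂ E`, and the
transversality of the centre of a rational place on a local `R₁`-algebra `O` whose maximal ideal
contains the uniformizer `π` of `R₁`: `centre + (π) = maximalIdeal O`.
-/
import Mathlib
import Fermat.Agent.FF.PlaceBasic
import Fermat.Agent.FF.Gal_helper7_Basic
import Fermat.Agent.FF.Dedekind
import Fermat.Agent.JA.LOC_helper6_Place

set_option autoImplicit false
set_option linter.style.haveILetI false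
set_option linter.unusedSectionVars false

open AlgebraicCurve

namespace Fermat.Agent.JA

open Fermat.Agent.FF

section Rational

variable {K₁ : Type*} [Field K₁] {E : Type*} [Field E] [Algebra K₁ E]

/-- `z` lies in the maximal ideal of the place `P`. -/
def Place.IsZeroAt (P : Place K₁ E) (z : E) : Prop := z = 0 ∨ 0 < P.ord z

/-- a rational place of `E / K₁`: every function regular at `P` has a value in `K₁`. -/
def IsRationalPlace (P : Place K₁ E) : Prop :=
  ∀ x ∈ P.toValuationSubring, ∃ c : K₁, Place.IsZeroAt P (x - algebraMap K₁ E c)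

theorem Place.isZeroAt_iff (P : Place K₁ E) (z : E) :
    Place.IsZeroAt P z ↔ z ∈ P.toValuationSubring ∧ (z = 0 ∨ z⁻¹ ∉ P.toValuationSubring) := by
  constructor
  · rintro (rfl | h)
    · exact ⟨P.toValuationSubring.zero_mem, Or.inl rfl⟩
    · have hz : z ≠ 0 := by
        rintro rfl
        rw [P.ord_zero] at h
        exact lt_irrefl _ h
      refine ⟨(PlaceAux.mem_iff_ord_nonneg' P hz).mpr h.le, Or.inr fun hinv => ?_⟩
      have := PlaceAux.ord_nonneg_of_mem P hinv
      rw [P.ord_inv] at this
      omega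
  · rintro ⟨hz, rfl | hinv⟩
    · exact Or.inl rfl
    · exact Or.inr (ord_pos_of_mem_of_inv_not_mem P hz hinv)

theorem Place.isZeroAt_zero (P : Place K₁ E) : Place.IsZeroAt P 0 := Or.inl rfl

theorem Place.IsZeroAt.mem {P : Place K₁ E} {z : E} (h : Place.IsZeroAt P z) :
    z ∈ P.toValuationSubring := ((Place.isZeroAt_iff P z).mp h).1

theorem Place.IsZeroAt.add {P : Place K₁ E} {z z' : E} (h : Place.IsZeroAt P z)
    (h' : Place.IsZeroAt P z') : Place.IsZeroAt P (z + z') := by
  rcases h with rfl | h
  · rwa [zero_add]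
  rcases h' with rfl | h'
  · rw [add_zero]; exact Or.inr h
  by_cases h0 : z + z' = 0
  · exact Or.inl h0
  · exact Or.inr (PlaceAux.ord_add_ge P h0 (n := 1) (Or.inr h) (Or.inr h'))

theorem Place.IsZeroAt.mul_mem {P : Place K₁ E} {z x : E} (h : Place.IsZeroAt P z)
    (hx : x ∈ P.toValuationSubring) : Place.IsZeroAt P (x * z) := by
  rcases h with rfl | h
  · rw [mul_zero]; exact Or.inl rfl
  by_cases hx0 : x = 0
  · rw [hx0, zero_mul]; exact Or.inl rfl
  have hz : z ≠ 0 := by
    rintro rfl
    rw [P.ord_zero] at h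
    exact lt_irrefl _ h
  refine Or.inr ?_
  rw [P.ord_mul hx0 hz]
  have := PlaceAux.ord_nonneg_of_mem P hx
  omega

theorem Place.IsZeroAt.neg {P : Place K₁ E} {z : E} (h : Place.IsZeroAt P z) :
    Place.IsZeroAt P (-z) := by
  have := h.mul_mem (x := -1) (P.toValuationSubring.neg_mem _ P.toValuationSubring.one_mem)
  rwa [neg_one_mul] at this

/-- a unit of the valuation ring is not in the maximal ideal. -/
theorem Place.not_isZeroAt_of_inv_mem {P : Place K₁ E} {z : E} (hz : z ≠ 0)
    (hinv : z⁻¹ ∈ P.toValuationSubring) : ¬ Place.IsZeroAt P z := by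
  intro h
  rcases ((Place.isZeroAt_iff P z).mp h).2 with h0 | h0
  · exact hz h0
  · exact h0 hinv

end Rational

section Centre

variable {K₁ : Type*} [Field K₁] {E : Type*} [Field E] [Algebra K₁ E]
  {O : Type*} [CommRing O] [Algebra O E]

/-- the ring hom `O → O_P` for a place `P` whose valuation ring contains `O`. -/
noncomputable def toPlaceRingHom (P : Place K₁ E)
    (hO : ∀ x : O, algebraMap O E x ∈ P.toValuationSubring) : O →+* ↥P.toValuationSubring :=
  (algebraMap O E).codRestrict P.toValuationSubring.toSubring hO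

/-- the centre on `O` of a place `P` whose valuation ring contains `O`. -/
noncomputable def centreIdeal (P : Place K₁ E)
    (hO : ∀ x : O, algebraMap O E x ∈ P.toValuationSubring) : Ideal O :=
  (IsLocalRing.maximalIdeal ↥P.toValuationSubring).comap (toPlaceRingHom P hO)

instance centreIdeal_isPrime (P : Place K₁ E)
    (hO : ∀ x : O, algebraMap O E x ∈ P.toValuationSubring) : (centreIdeal P hO).IsPrime :=
  Ideal.comap_isPrime _ _

theorem mem_centreIdeal_iff (P : Place K₁ E)
    (hO : ∀ x : O, algebraMap O E x ∈ P.toValuationSubring) (x : O) :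
    x ∈ centreIdeal P hO ↔ Place.IsZeroAt P (algebraMap O E x) := by
  rw [centreIdeal, Ideal.mem_comap, IsLocalRing.mem_maximalIdeal, mem_nonunits_iff,
    Place.isZeroAt_iff]
  constructor
  · intro hnu
    refine ⟨hO x, ?_⟩
    by_cases h0 : algebraMap O E x = 0
    · exact Or.inl h0
    refine Or.inr fun hinv => hnu ?_
    exact IsUnit.of_mul_eq_one ⟨(algebraMap O E x)⁻¹, hinv⟩
      (Subtype.ext (mul_inv_cancel₀ h0))
  · rintro ⟨-, h0 | hinv⟩ hu
    · have : toPlaceRingHom P hO x = 0 := Subtype.ext h0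
      rw [this] at hu
      exact not_isUnit_zero hu
    · exact hinv (inv_mem_of_isUnit P.toValuationSubring hu)

/-- units of `O` are not in the centre. -/
theorem not_mem_centreIdeal_of_isUnit (P : Place K₁ E)
    (hO : ∀ x : O, algebraMap O E x ∈ P.toValuationSubring) {x : O} (hx : IsUnit x) :
    x ∉ centreIdeal P hO := fun h =>
  (centreIdeal_isPrime P hO).ne_top (Ideal.eq_top_of_isUnit_mem _ h hx)

end Centre

section Transversal

variable {R₁ : Type*} [CommRing R₁] [IsDomain R₁] [IsDiscreteValuationRing R₁]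
  {K₁ : Type*} [Field K₁] [Algebra R₁ K₁] [IsFractionRing R₁ K₁]
  {E : Type*} [Field E] [Algebra K₁ E] [Algebra R₁ E] [IsScalarTower R₁ K₁ E]
  {O : Type*} [CommRing O] [IsLocalRing O] [Algebra R₁ O] [Algebra O E] [IsScalarTower R₁ O E]

omit [IsLocalRing O] in
/-- nonzero elements of `R₁` are not in the centre of a place of `E / K₁`. -/
theorem algebraMap_not_mem_centreIdeal (P : Place K₁ E)
    (hO : ∀ x : O, algebraMap O E x ∈ P.toValuationSubring) {r : R₁} (hr : r ≠ 0) :
    algebraMap R₁ O r ∉ centreIdeal P hO := by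
  rw [mem_centreIdeal_iff, ← IsScalarTower.algebraMap_apply, IsScalarTower.algebraMap_apply R₁ K₁ E]
  have hr' : algebraMap R₁ K₁ r ≠ 0 :=
    (map_ne_zero_iff _ (IsFractionRing.injective R₁ K₁)).mpr hr
  apply Place.not_isZeroAt_of_inv_mem ((map_ne_zero _).mpr hr')
  rw [← map_inv₀]
  exact P.algebraMap_mem' _

/-- the value in `K₁` of an element of `O` at a place whose valuation ring contains `O` is
integral, if the maximal ideal of `R₁` maps into the maximal ideal of `O`. -/
theorem exists_algebraMap_eq_of_isZeroAt (P : Place K₁ E)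
    (hO : ∀ x : O, algebraMap O E x ∈ P.toValuationSubring)
    (hloc : ∀ r : R₁, r ∈ IsLocalRing.maximalIdeal R₁ →
      algebraMap R₁ O r ∈ IsLocalRing.maximalIdeal O)
    (x : O) (c : K₁) (hc : Place.IsZeroAt P (algebraMap O E x - algebraMap K₁ E c)) :
    ∃ r : R₁, c = algebraMap R₁ K₁ r := by
  by_cases hc0 : c = 0
  · exact ⟨0, by rw [hc0, map_zero]⟩
  rcases ValuationRing.isInteger_or_isInteger R₁ c with ⟨r, hr⟩ | ⟨r, hr⟩
  · exact ⟨r, hr.symm⟩
  by_cases hru : IsUnit r
  · obtain ⟨u, rfl⟩ := hru
    refine ⟨((u⁻¹ : R₁ˣ) : R₁), ?_⟩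
    have h1 : algebraMap R₁ K₁ (u : R₁) * algebraMap R₁ K₁ ((u⁻¹ : R₁ˣ) : R₁) = 1 := by
      rw [← map_mul, Units.mul_inv, map_one]
    rw [hr] at h1
    field_simp at h1
    exact h1.symm
  exfalso
  have hrm : r ∈ IsLocalRing.maximalIdeal R₁ := (IsLocalRing.mem_maximalIdeal r).mpr hru
  -- `z = 1 - r x` is a unit of `O`
  have hz : IsUnit (1 - algebraMap R₁ O r * x) := by
    have hnu : algebraMap R₁ O r * x ∈ IsLocalRing.maximalIdeal O :=
      Ideal.mul_mem_right _ _ (hloc r hrm)
    have := IsLocalRing.isUnit_one_sub_self_of_mem_nonunits _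
      ((IsLocalRing.mem_maximalIdeal _).mp hnu)
    exact this
  have hznot := not_mem_centreIdeal_of_isUnit P hO hz
  apply hznot
  rw [mem_centreIdeal_iff]
  have himg : algebraMap O E (1 - algebraMap R₁ O r * x) =
      (-(algebraMap K₁ E c)⁻¹) * (algebraMap O E x - algebraMap K₁ E c) := by
    have hcE : algebraMap K₁ E c ≠ 0 := (map_ne_zero _).mpr hc0
    rw [map_sub, map_one, map_mul, ← IsScalarTower.algebraMap_apply,
      IsScalarTower.algebraMap_apply R₁ K₁ E, hr, map_inv₀]
    field_simp
    ring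
  rw [himg]
  apply hc.mul_mem
  apply P.toValuationSubring.neg_mem
  rw [← map_inv₀]
  exact P.algebraMap_mem' _

/-- **(D2) transversality of the centre of a rational place**: if `O` is a local `R₁`-algebra
contained in the valuation ring of the rational place `P` of `E / K₁`, and `π` (a uniformizer of
`R₁`) lies in the maximal ideal of `O`, then `centre + (π) = maximalIdeal O`. -/
theorem centreIdeal_sup_span_eq_maximalIdeal (P : Place K₁ E)
    (hO : ∀ x : O, algebraMap O E x ∈ P.toValuationSubring) {π : R₁} (hπ : Irreducible π)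
    (hπO : algebraMap R₁ O π ∈ IsLocalRing.maximalIdeal O) (hrat : IsRationalPlace P) :
    centreIdeal P hO ⊔ Ideal.span {algebraMap R₁ O π} = IsLocalRing.maximalIdeal O := by
  have hloc : ∀ r : R₁, r ∈ IsLocalRing.maximalIdeal R₁ →
      algebraMap R₁ O r ∈ IsLocalRing.maximalIdeal O := by
    intro r hr
    rw [hπ.maximalIdeal_eq, Ideal.mem_span_singleton'] at hr
    obtain ⟨a, rfl⟩ := hr
    rw [map_mul]
    exact Ideal.mul_mem_left _ _ hπO
  apply le_antisymm
  · apply sup_le
    · exact IsLocalRing.le_maximalIdeal (centreIdeal_isPrime P hO).ne_top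
    · rw [Ideal.span_singleton_le_iff_mem]
      exact hπO
  · intro x hx
    obtain ⟨c, hc⟩ := hrat _ (hO x)
    obtain ⟨r, rfl⟩ := exists_algebraMap_eq_of_isZeroAt P hO hloc x c hc
    have hmem : x - algebraMap R₁ O r ∈ centreIdeal P hO := by
      rw [mem_centreIdeal_iff, map_sub, ← IsScalarTower.algebraMap_apply,
        IsScalarTower.algebraMap_apply R₁ K₁ E]
      exact hc
    have hrm : r ∈ IsLocalRing.maximalIdeal R₁ := by
      rw [IsLocalRing.mem_maximalIdeal]
      intro hru
      have hru' : IsUnit (algebraMap R₁ O r) := hru.map _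
      have hxu : IsUnit (x - algebraMap R₁ O r) := by
        have h1 : IsUnit (algebraMap R₁ O r - x) := by
          rcases IsLocalRing.isUnit_or_isUnit_of_isUnit_add
            (a := algebraMap R₁ O r - x) (b := x) (by rwa [sub_add_cancel]) with h | h
          · exact h
          · exact absurd h ((IsLocalRing.mem_maximalIdeal x).mp hx)
        have h2 : x - algebraMap R₁ O r = -(algebraMap R₁ O r - x) := by ring
        rw [h2]
        exact h1.neg
      exact not_mem_centreIdeal_of_isUnit P hO hxu hmem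
    have hx' : x = (x - algebraMap R₁ O r) + algebraMap R₁ O r := by ring
    rw [hx']
    refine Ideal.add_mem _ (Ideal.mem_sup_left hmem) (Ideal.mem_sup_right ?_)
    rw [hπ.maximalIdeal_eq, Ideal.mem_span_singleton'] at hrm
    obtain ⟨a, rfl⟩ := hrm
    rw [map_mul]
    exact Ideal.mul_mem_left _ _ (Ideal.subset_span rfl)

/-- the values of elements of `O` at a rational place `P ⊇ O` lie in `R₁`. -/
theorem exists_isZeroAt_sub_algebraMap (P : Place K₁ E)
    (hO : ∀ x : O, algebraMap O E x ∈ P.toValuationSubring) {π : R₁} (hπ : Irreducible π)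
    (hπO : algebraMap R₁ O π ∈ IsLocalRing.maximalIdeal O) (hrat : IsRationalPlace P) (x : O) :
    ∃ r : R₁, x - algebraMap R₁ O r ∈ centreIdeal P hO := by
  have hloc : ∀ r : R₁, r ∈ IsLocalRing.maximalIdeal R₁ →
      algebraMap R₁ O r ∈ IsLocalRing.maximalIdeal O := by
    intro r hr
    rw [hπ.maximalIdeal_eq, Ideal.mem_span_singleton'] at hr
    obtain ⟨a, rfl⟩ := hr
    rw [map_mul]
    exact Ideal.mul_mem_left _ _ hπO
  obtain ⟨c, hc⟩ := hrat _ (hO x)
  obtain ⟨r, rfl⟩ := exists_algebraMap_eq_of_isZeroAt P hO hloc x c hc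
  refine ⟨r, ?_⟩
  rw [mem_centreIdeal_iff, map_sub, ← IsScalarTower.algebraMap_apply,
    IsScalarTower.algebraMap_apply R₁ K₁ E]
  exact hc

end Transversal

end Fermat.Agent.JA
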