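/-
J-A third wave, package RED-A (B3) — helper1.
(PrimePlace) the place of `E / K₁` attached to a principal prime `(h)` of a noetherian domain
`O ⊂ E` with `Frac O = E` (`K₁ ⊂ O_(h)`), and its uniqueness.
-/
import Mathlib
import Fermat.Agent.FF.Gal_helper7_OfOrd
import Fermat.Agent.JA.REDA_helper1_Rational

set_option autoImplicit false
set_option linter.style.haveILetI false
set_option linter.unusedSectionVars false

open AlgebraicCurve IsDedekindDomain

namespace Fermat.Agent.JA

open Fermat.Agent.FF Fermat.Agent.FF.Gal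

section PrimePlace

variable {K₁ : Type*} [Field K₁] {E : Type*} [Field E] [Algebra K₁ E]
  {O : Type*} [CommRing O] [IsDomain O] [IsNoetherianRing O] [Algebra O E] [IsFractionRing O E]

/-- **(D1)** the place attached to a principal prime `(h)` of `O`: if every element of `K₁` is a
fraction `x / s` with `x, s ∈ O`, `h ∤ s`, there is a place `P` of `E / K₁` with `O ⊂ O_P`,
`O ∖ (h) ⊂ O_Pˣ` and `h` a non-unit at `P`. -/
theorem exists_place_of_prime {h : O} (hh : Prime h)
    (hK : ∀ c : K₁, ∃ x s : O, ¬ h ∣ s ∧ algebraMap K₁ E c * algebraMap O E s = algebraMap O E x) :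
    ∃ P : Place K₁ E, (∀ x : O, algebraMap O E x ∈ P.toValuationSubring) ∧
      (∀ x : O, ¬ h ∣ x → (algebraMap O E x)⁻¹ ∈ P.toValuationSubring) ∧
      (algebraMap O E h)⁻¹ ∉ P.toValuationSubring := by
  classical
  have hinj : Function.Injective (algebraMap O E) := IsFractionRing.injective O E
  have hprime : (Ideal.span {h} : Ideal O).IsPrime :=
    (Ideal.span_singleton_prime hh.ne_zero).mpr hh
  have hS : (Ideal.span {h} : Ideal O).primeCompl ≤ nonZeroDivisors O :=
    Ideal.primeCompl_le_nonZeroDivisors _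
  set Oh : Subalgebra O E :=
    Localization.subalgebra.ofField E (Ideal.span {h} : Ideal O).primeCompl hS with hOh
  haveI : IsLocalization.AtPrime ↥Oh (Ideal.span {h} : Ideal O) :=
    Localization.subalgebra.isLocalization_ofField E _ hS
  haveI : IsLocalRing ↥Oh := IsLocalization.AtPrime.isLocalRing ↥Oh (Ideal.span {h} : Ideal O)
  haveI : IsNoetherianRing ↥Oh :=
    IsLocalization.isNoetherianRing (Ideal.span {h} : Ideal O).primeCompl ↥Oh inferInstance
  have hmax : IsLocalRing.maximalIdeal ↥Oh = Ideal.span {algebraMap O ↥Oh h} := by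
    rw [← IsLocalization.AtPrime.map_eq_maximalIdeal (Ideal.span {h} : Ideal O) ↥Oh,
      Ideal.map_span, Set.image_singleton]
  have hinjOh : Function.Injective (algebraMap O ↥Oh) :=
    IsLocalization.injective ↥Oh hS
  have hh0 : algebraMap O ↥Oh h ≠ 0 := (map_ne_zero_iff _ hinjOh).mpr hh.ne_zero
  have hnf : ¬ IsField ↥Oh := by
    intro hf
    have : IsLocalRing.maximalIdeal ↥Oh = ⊥ := IsLocalRing.isField_iff_maximalIdeal_eq.mp hf
    rw [hmax, Ideal.span_singleton_eq_bot] at this
    exact hh0 this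
  haveI : IsDiscreteValuationRing ↥Oh := by
    have h1 := (IsDiscreteValuationRing.TFAE ↥Oh hnf).out 0 4
    rw [h1]
    exact ⟨⟨_, hmax⟩⟩
  let w : HeightOneSpectrum ↥Oh := IsDiscreteValuationRing.maximalIdeal ↥Oh
  have hwI : w.asIdeal = IsLocalRing.maximalIdeal ↥Oh := rfl
  -- membership of `O_h` in the valuation ring
  have hmemOh : ∀ z : ↥Oh, w.valuation E (z : E) ≤ 1 := fun z => w.valuation_le_one z
  have hcoe : ∀ x : O, ((algebraMap O ↥Oh x : ↥Oh) : E) = algebraMap O E x := fun x => rfl
  have hunitval : ∀ x : O, ¬ h ∣ x → w.valuation E (algebraMap O E x) = 1 := by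
    intro x hx
    have hxu : IsUnit (algebraMap O ↥Oh x) := by
      apply IsLocalization.map_units ↥Oh
        (⟨x, fun hmem => hx (Ideal.mem_span_singleton.mp hmem)⟩ :
          (Ideal.span {h} : Ideal O).primeCompl)
    have h1 : w.intValuation (algebraMap O ↥Oh x) = 1 := by
      rw [HeightOneSpectrum.intValuation_eq_one_iff, hwI, IsLocalRing.mem_maximalIdeal,
        mem_nonunits_iff, not_not]
      exact hxu
    rw [← hcoe x]
    have := w.valuation_of_algebraMap (K := E) (algebraMap O ↥Oh x)
    rw [← h1, ← this]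
    rfl
  have hhval : w.valuation E (algebraMap O E h) < 1 := by
    rw [← hcoe h]
    have h1 : (algebraMap ↥Oh E (algebraMap O ↥Oh h)) = ((algebraMap O ↥Oh h : ↥Oh) : E) := rfl
    rw [← h1, HeightOneSpectrum.valuation_lt_one_iff_mem, hwI, hmax]
    exact Ideal.subset_span rfl
  have hKmem : ∀ c : K₁, algebraMap K₁ E c ∈ (w.valuation E).valuationSubring := by
    intro c
    obtain ⟨x, s, hs, hcs⟩ := hK c
    rw [Valuation.mem_valuationSubring_iff]
    have hs0 : algebraMap O E s ≠ 0 :=
      (map_ne_zero_iff _ hinj).mpr (by rintro rfl; exact hs (dvd_zero h))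
    have h1 : algebraMap K₁ E c = algebraMap O E x * (algebraMap O E s)⁻¹ := by
      field_simp
      exact hcs
    rw [h1, map_mul, map_inv₀, hunitval s hs, inv_one, mul_one, ← hcoe x]
    exact hmemOh _
  have hν := isOrdFun_valuation (K := K₁) w hKmem
  refine ⟨hν.place, fun x => ?_, fun x hx => ?_, fun hmem => ?_⟩
  · rw [IsOrdFun.place_toValuationSubring, IsOrdFun.mem_valuationSubring_iff]
    by_cases hx0 : algebraMap O E x = 0
    · exact Or.inl hx0
    · right
      have h1 := hmemOh (algebraMap O ↥Oh x)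
      rw [hcoe] at h1
      have h2 : w.valuation E (algebraMap O E x) ≠ 0 := (Valuation.ne_zero_iff _).mpr hx0
      have := (WithZero.log_le_log h2 one_ne_zero).mpr h1
      rw [WithZero.log_one] at this
      show 0 ≤ -WithZero.log (w.valuation E (algebraMap O E x))
      omega
  · rw [IsOrdFun.place_toValuationSubring, IsOrdFun.mem_valuationSubring_iff]
    right
    show 0 ≤ -WithZero.log (w.valuation E (algebraMap O E x)⁻¹)
    rw [map_inv₀, hunitval x hx, inv_one, WithZero.log_one, neg_zero]
  · rw [IsOrdFun.place_toValuationSubring, IsOrdFun.mem_valuationSubring_iff] at hmem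
    have hh0E : algebraMap O E h ≠ 0 := (map_ne_zero_iff _ hinj).mpr hh.ne_zero
    rcases hmem with h0 | h0
    · exact inv_ne_zero hh0E h0
    · have h1 : 0 ≤ -WithZero.log (w.valuation E (algebraMap O E h)⁻¹) := h0
      rw [map_inv₀, WithZero.log_inv, neg_neg] at h1
      have h2 : w.valuation E (algebraMap O E h) ≠ 0 := (Valuation.ne_zero_iff _).mpr hh0E
      have h3 := (WithZero.log_lt_log h2 one_ne_zero).mpr hhval
      rw [WithZero.log_one] at h3
      omega

/-- two places centred at the same principal prime `(h)` of `O` coincide. -/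
theorem place_eq_of_center_eq {h : O} (hh : Prime h) (P P' : Place K₁ E)
    (hO : ∀ x : O, algebraMap O E x ∈ P.toValuationSubring)
    (hunit : ∀ x : O, ¬ h ∣ x → (algebraMap O E x)⁻¹ ∈ P.toValuationSubring)
    (hnon : (algebraMap O E h)⁻¹ ∉ P.toValuationSubring)
    (hO' : ∀ x : O, algebraMap O E x ∈ P'.toValuationSubring)
    (hunit' : ∀ x : O, ¬ h ∣ x → (algebraMap O E x)⁻¹ ∈ P'.toValuationSubring) : P = P' := by
  have hinj : Function.Injective (algebraMap O E) := IsFractionRing.injective O E
  apply Place.eq_of_le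
  intro x hx
  by_cases hx0 : x = 0
  · rw [hx0]; exact P'.toValuationSubring.zero_mem
  obtain ⟨n, a, b, ha, hb, rfl⟩ := exists_zpow_mul_div_of_prime (E := E) hh x hx0
  have ha0 : algebraMap O E a ≠ 0 :=
    (map_ne_zero_iff _ hinj).2 (by rintro rfl; exact ha (dvd_zero h))
  have hb0 : algebraMap O E b ≠ 0 :=
    (map_ne_zero_iff _ hinj).2 (by rintro rfl; exact hb (dvd_zero h))
  have hh0 : algebraMap O E h ≠ 0 := (map_ne_zero_iff _ hinj).2 hh.ne_zero
  have hoa : P.ord (algebraMap O E a) = 0 := ord_eq_zero_of_mem_of_inv_mem P (hO a) (hunit a ha)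
  have hob : P.ord (algebraMap O E b) = 0 := ord_eq_zero_of_mem_of_inv_mem P (hO b) (hunit b hb)
  have hoh : P.ord (algebraMap O E h) = 1 := ord_algebraMap_eq_one_of_center P hO hh hunit hnon
  have h1 := PlaceAux.ord_nonneg_of_mem P hx
  rw [P.ord_mul (zpow_ne_zero n hh0) (div_ne_zero ha0 hb0), P.ord_zpow, div_eq_mul_inv,
    P.ord_mul ha0 (inv_ne_zero hb0), P.ord_inv, hoa, hob, hoh] at h1
  have hn : 0 ≤ n := by omega
  obtain ⟨m, rfl⟩ := Int.eq_ofNat_of_zero_le hn
  rw [zpow_natCast, div_eq_mul_inv]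
  exact P'.toValuationSubring.mul_mem _ _ (P'.toValuationSubring.pow_mem (hO' h) m)
    (P'.toValuationSubring.mul_mem _ _ (hO' a) (hunit' b hb))

end PrimePlace

end Fermat.Agent.JA
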