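/-
J-A third wave, package RED-A (B3) — helper1.
(Local) the local form of `r_*(div y) = div ỹ` at a good point `O` of an arithmetic surface:
for `a ∈ O`, `π ∤ a`, all of whose zeros (places of `E / K₁` through `O`) are rational, the sum of
the orders of `a` at the places through `O` is the order of the reduction of `a` at the point.
-/
import Mathlib
import Fermat.Agent.JA.LOC_helper6_Extra
import Fermat.Agent.JA.REDA_helper1_PrimePlace

set_option autoImplicit false
set_option linter.style.haveILetI false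
set_option linter.unusedSectionVars false

open AlgebraicCurve IsLocalRing

namespace Fermat.Agent.JA

open Fermat.Agent.FF

section Local

variable {R₁ : Type*} [CommRing R₁] [IsDomain R₁] [IsDiscreteValuationRing R₁]
  {K₁ : Type*} [Field K₁] [Algebra R₁ K₁] [IsFractionRing R₁ K₁]
  {E : Type*} [Field E] [Algebra K₁ E] [Algebra R₁ E] [IsScalarTower R₁ K₁ E]
  {O : Type*} [CommRing O] [IsDomain O] [IsLocalRing O] [IsNoetherianRing O]
  [Algebra R₁ O] [Algebra O E] [IsScalarTower R₁ O E] [IsFractionRing O E]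

/-- `P` passes through `O`: the valuation ring of `P` contains `O`. -/
def Through (O : Type*) [CommRing O] {K₁ E : Type*} [Field K₁] [Field E] [Algebra K₁ E]
    [Algebra O E] (P : Place K₁ E) : Prop :=
  ∀ x : O, algebraMap O E x ∈ P.toValuationSubring

/-- nonzero elements of `R₁` are not in a prime of `O` avoiding the uniformizer. -/
theorem algebraMap_not_mem_of_irreducible {π : R₁} (hπ : Irreducible π) (𝔭 : Ideal O)
    [h𝔭 : 𝔭.IsPrime] (hπ𝔭 : algebraMap R₁ O π ∉ 𝔭) {r : R₁} (hr : r ≠ 0) :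
    algebraMap R₁ O r ∉ 𝔭 := by
  obtain ⟨n, hn⟩ := IsDiscreteValuationRing.associated_pow_irreducible hr hπ
  obtain ⟨u, hu⟩ := hn.symm
  rw [← hu, map_mul, map_pow]
  intro hmem
  rcases h𝔭.mem_or_mem hmem with h1 | h1
  · exact hπ𝔭 (h𝔭.mem_of_pow_mem n h1)
  · exact h𝔭.ne_top (Ideal.eq_top_of_isUnit_mem _ h1 (u.isUnit.map _))

/-- the hypothesis `hK` of `exists_place_of_prime` for a prime `h` of `O` not dividing `π`. -/
theorem exists_mul_eq_of_not_dvd {π : R₁} (hπ : Irreducible π) {h : O} (hh : Prime h)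
    (hπh : ¬ h ∣ algebraMap R₁ O π) (c : K₁) :
    ∃ x s : O, ¬ h ∣ s ∧ algebraMap K₁ E c * algebraMap O E s = algebraMap O E x := by
  obtain ⟨r, s, hs, rfl⟩ := IsFractionRing.div_surjective (A := R₁) c
  have hs0 : s ≠ 0 := nonZeroDivisors.ne_zero hs
  haveI : (Ideal.span {h} : Ideal O).IsPrime := (Ideal.span_singleton_prime hh.ne_zero).mpr hh
  have h1 := algebraMap_not_mem_of_irreducible hπ (Ideal.span {h} : Ideal O)
    (fun hmem => hπh (Ideal.mem_span_singleton.mp hmem)) hs0
  refine ⟨algebraMap R₁ O r, algebraMap R₁ O s, fun hd => h1 (Ideal.mem_span_singleton.mpr hd), ?_⟩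
  have hsK : algebraMap R₁ K₁ s ≠ 0 :=
    (map_ne_zero_iff _ (IsFractionRing.injective R₁ K₁)).mpr hs0
  rw [← IsScalarTower.algebraMap_apply R₁ O E, ← IsScalarTower.algebraMap_apply R₁ O E,
    IsScalarTower.algebraMap_apply R₁ K₁ E, IsScalarTower.algebraMap_apply R₁ K₁ E, ← map_mul,
    div_mul_cancel₀ _ hsK]

/-- a place through `O` whose centre contains `h`, where `maximalIdeal O = (π, h)`, is centred at
`(h)`. -/
theorem center_props_of_mem {π : R₁} (P : Place K₁ E) (hO : Through O P) {h : O} (hh : Prime h)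
    (hπ0 : π ≠ 0)
    (hgen : maximalIdeal O = Ideal.span {algebraMap R₁ O π, h}) (hmem : h ∈ centreIdeal P hO) :
    (∀ x : O, ¬ h ∣ x → (algebraMap O E x)⁻¹ ∈ P.toValuationSubring) ∧
      (algebraMap O E h)⁻¹ ∉ P.toValuationSubring := by
  have hinj : Function.Injective (algebraMap O E) := IsFractionRing.injective O E
  have hπ𝔭 : algebraMap R₁ O π ∉ centreIdeal P hO := algebraMap_not_mem_centreIdeal P hO hπ0
  have heq : centreIdeal P hO = Ideal.span {h} :=
    eq_span_singleton_of_maximalIdeal_eq (centreIdeal P hO) hπ𝔭 hmem hgen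
  constructor
  · intro x hx
    have hx' : x ∉ centreIdeal P hO := by
      rw [heq, Ideal.mem_span_singleton]; exact hx
    rw [mem_centreIdeal_iff, Place.isZeroAt_iff] at hx'
    by_contra hinv
    exact hx' ⟨hO x, Or.inr hinv⟩
  · rw [mem_centreIdeal_iff, Place.isZeroAt_iff] at hmem
    rcases hmem.2 with h0 | h0
    · exact absurd ((map_eq_zero_iff _ hinj).mp h0) hh.ne_zero
    · exact h0

variable {π : R₁} [IsDomain (O ⧸ Ideal.span {algebraMap R₁ O π})]
  [IsDiscreteValuationRing (O ⧸ Ideal.span {algebraMap R₁ O π})]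

/-- **the hypothesis (H) of (LOC-B) from rationality of the zeros**: if every place of `E / K₁`
through `O` at which `a` vanishes is rational, then every horizontal prime of `O` containing `a`
is transversal. -/
theorem exists_mem_maximalIdeal_eq_of_rational (hπ : Irreducible π) {a : O} (ha0 : a ≠ 0)
    (hrat : ∀ P : Place K₁ E, Through O P → 0 < P.ord (algebraMap O E a) → IsRationalPlace P)
    (𝔭 : Ideal O) (h𝔭 : 𝔭.IsPrime) (ha : a ∈ 𝔭) (hπ𝔭 : algebraMap R₁ O π ∉ 𝔭) :
    ∃ h ∈ 𝔭, maximalIdeal O = Ideal.span {algebraMap R₁ O π, h} := by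
  have hinj : Function.Injective (algebraMap O E) := IsFractionRing.injective O E
  obtain ⟨f, hf⟩ := exists_eq_span_singleton_of_not_mem 𝔭 hπ𝔭
  have hf0 : f ≠ 0 := by
    rintro rfl
    rw [hf, Ideal.mem_span_singleton, zero_dvd_iff] at ha
    exact ha0 ha
  have hfp : Prime f := by
    rw [← Ideal.span_singleton_prime hf0, ← hf]; exact h𝔭
  have hπf : ¬ f ∣ algebraMap R₁ O π := fun hd => hπ𝔭 (by
    rw [hf, Ideal.mem_span_singleton]; exact hd)
  obtain ⟨P, hO, hunit, hnon⟩ := exists_place_of_prime (K₁ := K₁) (E := E) hfp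
    (exists_mul_eq_of_not_dvd hπ hfp hπf)
  have hfa : f ∣ a := by
    rw [hf, Ideal.mem_span_singleton] at ha; exact ha
  have hpos : 0 < P.ord (algebraMap O E a) := by
    obtain ⟨c, rfl⟩ := hfa
    have hc0 : c ≠ 0 := right_ne_zero_of_mul ha0
    rw [map_mul, P.ord_mul ((map_ne_zero_iff _ hinj).mpr hf0) ((map_ne_zero_iff _ hinj).mpr hc0),
      ord_algebraMap_eq_one_of_center P hO hfp hunit hnon]
    have := PlaceAux.ord_nonneg_of_mem P (hO c)
    omega
  have hratP := hrat P hO hpos
  have hcentre : centreIdeal P hO = 𝔭 := by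
    rw [hf]
    apply le_antisymm
    · intro x hx
      rw [Ideal.mem_span_singleton]
      by_contra hd
      rw [mem_centreIdeal_iff, Place.isZeroAt_iff] at hx
      rcases hx.2 with h0 | h0
      · rw [(map_eq_zero_iff _ hinj).mp h0] at hd
        exact hd (dvd_zero f)
      · exact h0 (hunit x hd)
    · rw [Ideal.span_singleton_le_iff_mem, mem_centreIdeal_iff, Place.isZeroAt_iff]
      exact ⟨hO f, Or.inr hnon⟩
  have hsup := centreIdeal_sup_span_eq_maximalIdeal P hO hπ
    (mem_maximalIdeal_of_isDomain_quotient (π := algebraMap R₁ O π)) hratP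
  rw [hcentre] at hsup
  obtain ⟨h₀, hgen⟩ := exists_maximalIdeal_eq_span_pair (O := O) (π := algebraMap R₁ O π)
  exact exists_mem_maximalIdeal_eq_span_pair 𝔭 hsup hgen

end Local

end Fermat.Agent.JA
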