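/-
J-A third wave, package RED-A (B3) — helper1.
(Sum) at a good point `O`: for `x = u · ∏ h_i` (`h_i` prime with `maximalIdeal O = (π, h_i)`) the
places of `E / K₁` through `O` at which `x` vanishes form a finite set `S`, and
`∑_{P ∈ S} ord_P x = #{h_i}`; the order of the reduction of `x` at the special place is also
`#{h_i}`.
-/
import Mathlib
import Fermat.Agent.JA.REDA_helper1_Local

set_option autoImplicit false
set_option linter.style.haveILetI false
set_option linter.unusedSectionVars false

open AlgebraicCurve IsLocalRing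

namespace Fermat.Agent.JA

open Fermat.Agent.FF

section Sum

variable {R₁ : Type*} [CommRing R₁] [IsDomain R₁] [IsDiscreteValuationRing R₁]
  {K₁ : Type*} [Field K₁] [Algebra R₁ K₁] [IsFractionRing R₁ K₁]
  {E : Type*} [Field E] [Algebra K₁ E] [Algebra R₁ E] [IsScalarTower R₁ K₁ E]
  {O : Type*} [CommRing O] [IsDomain O] [IsLocalRing O] [IsNoetherianRing O]
  [Algebra R₁ O] [Algebra O E] [IsScalarTower R₁ O E] [IsFractionRing O E]

/-- the zeros of `x` among the places through `O` form the finite set `S`, with total order `n`. -/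
def ZeroSum (K₁ : Type*) {E O : Type*} [Field K₁] [Field E] [Algebra K₁ E] [CommRing O]
    [Algebra O E] (x : O) (n : ℤ) : Prop :=
  ∃ S : Finset (Place K₁ E),
    (∀ P ∈ S, Through O P ∧ 0 < P.ord (algebraMap O E x)) ∧
    (∀ P : Place K₁ E, Through O P → 0 < P.ord (algebraMap O E x) → P ∈ S) ∧
    ∑ P ∈ S, P.ord (algebraMap O E x) = n

/-- a unit of `O` has no zeros through `O`. -/
theorem zeroSum_of_isUnit {x : O} (hx : IsUnit x) : ZeroSum K₁ (E := E) x 0 := by
  refine ⟨∅, by simp, fun P hP hpos => ?_, by simp⟩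
  exfalso
  obtain ⟨y, hy⟩ := hx.exists_right_inv
  have hinj : Function.Injective (algebraMap O E) := IsFractionRing.injective O E
  have h1 : algebraMap O E x * algebraMap O E y = 1 := by rw [← map_mul, hy, map_one]
  have hx0 : algebraMap O E x ≠ 0 := left_ne_zero_of_mul_eq_one h1
  have hinv : (algebraMap O E x)⁻¹ = algebraMap O E y := by
    field_simp
    rw [h1]
  have := ord_eq_zero_of_mem_of_inv_mem P (hP x) (by rw [hinv]; exact hP y)
  omega

/-- adding a transversal prime factor `h` adds one zero (counted with multiplicity). -/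
theorem ZeroSum.mul_prime {π : R₁} (hπ : Irreducible π) {h : O} (hh : Prime h)
    (hgen : maximalIdeal O = Ideal.span {algebraMap R₁ O π, h})
    (hπh : ¬ h ∣ algebraMap R₁ O π) {x : O} (hx0 : x ≠ 0) {n : ℤ}
    (hx : ZeroSum K₁ (E := E) x n) : ZeroSum K₁ (E := E) (h * x) (n + 1) := by
  classical
  have hinj : Function.Injective (algebraMap O E) := IsFractionRing.injective O E
  have hhE : algebraMap O E h ≠ 0 := (map_ne_zero_iff _ hinj).mpr hh.ne_zero
  have hxE : algebraMap O E x ≠ 0 := (map_ne_zero_iff _ hinj).mpr hx0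
  obtain ⟨S, hS1, hS2, hS3⟩ := hx
  obtain ⟨Ph, hO, hunit, hnon⟩ := exists_place_of_prime (K₁ := K₁) (E := E) hh
    (exists_mul_eq_of_not_dvd hπ hh hπh)
  have hordh : Ph.ord (algebraMap O E h) = 1 :=
    ord_algebraMap_eq_one_of_center Ph hO hh hunit hnon
  -- a place through `O` at which `h` vanishes is `Ph`
  have huniq : ∀ P : Place K₁ E, Through O P → 0 < P.ord (algebraMap O E h) → P = Ph := by
    intro P hP hpos
    have hmem : h ∈ centreIdeal P hP := by
      rw [mem_centreIdeal_iff]; exact Or.inr hpos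
    obtain ⟨hu, hn⟩ := center_props_of_mem P hP hh hπ.ne_zero hgen hmem
    exact place_eq_of_center_eq hh P Ph hP hu hn hO hunit
  have hordh' : ∀ P : Place K₁ E, Through O P → P ≠ Ph → P.ord (algebraMap O E h) = 0 := by
    intro P hP hne
    have h1 := PlaceAux.ord_nonneg_of_mem P (hP h)
    by_contra h0
    exact hne (huniq P hP (lt_of_le_of_ne h1 (Ne.symm h0)))
  have hmul : ∀ P : Place K₁ E, P.ord (algebraMap O E (h * x)) =
      P.ord (algebraMap O E h) + P.ord (algebraMap O E x) := by
    intro P
    rw [map_mul, P.ord_mul hhE hxE]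
  refine ⟨insert Ph S, ?_, ?_, ?_⟩
  · intro P hP
    rcases Finset.mem_insert.mp hP with rfl | hP
    · refine ⟨hO, ?_⟩
      rw [hmul, hordh]
      have := PlaceAux.ord_nonneg_of_mem P (hO x)
      omega
    · refine ⟨(hS1 P hP).1, ?_⟩
      rw [hmul]
      have := PlaceAux.ord_nonneg_of_mem P ((hS1 P hP).1 h)
      have := (hS1 P hP).2
      omega
  · intro P hP hpos
    rw [hmul] at hpos
    by_cases hxpos : 0 < P.ord (algebraMap O E x)
    · exact Finset.mem_insert_of_mem (hS2 P hP hxpos)
    · have h1 := PlaceAux.ord_nonneg_of_mem P (hP x)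
      have : 0 < P.ord (algebraMap O E h) := by omega
      rw [huniq P hP this]
      exact Finset.mem_insert_self _ _
  · have hsum1 : ∑ P ∈ insert Ph S, P.ord (algebraMap O E h) = 1 := by
      rw [Finset.sum_eq_single Ph]
      · exact hordh
      · intro P hP hne
        rcases Finset.mem_insert.mp hP with rfl | hP
        · exact absurd rfl hne
        · exact hordh' P (hS1 P hP).1 hne
      · intro hnot
        exact absurd (Finset.mem_insert_self _ _) hnot
    have hsum2 : ∑ P ∈ insert Ph S, P.ord (algebraMap O E x) = n := by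
      by_cases hmem : Ph ∈ S
      · rw [Finset.insert_eq_of_mem hmem, hS3]
      · rw [Finset.sum_insert hmem, hS3]
        have h1 := PlaceAux.ord_nonneg_of_mem Ph (hO x)
        have h2 : ¬ 0 < Ph.ord (algebraMap O E x) := fun hpos => hmem (hS2 Ph hO hpos)
        omega
    simp_rw [hmul]
    rw [Finset.sum_add_distrib, hsum1, hsum2]
    ring

/-- the zeros through `O` of `u · ∏ h_i`. -/
theorem zeroSum_units_mul_prod {π : R₁} (hπ : Irreducible π) (u : Oˣ) (s : Multiset O)
    (hs : ∀ h ∈ s, Prime h ∧ maximalIdeal O = Ideal.span {algebraMap R₁ O π, h} ∧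
      ¬ h ∣ algebraMap R₁ O π) :
    ZeroSum K₁ (E := E) ((u : O) * s.prod) (Multiset.card s) := by
  induction s using Multiset.induction_on with
  | empty =>
    rw [Multiset.prod_zero, mul_one, Multiset.card_zero, Nat.cast_zero]
    exact zeroSum_of_isUnit u.isUnit
  | cons h t ih =>
    have ht : ∀ h' ∈ t, Prime h' ∧ maximalIdeal O = Ideal.span {algebraMap R₁ O π, h'} ∧
        ¬ h' ∣ algebraMap R₁ O π := fun h' hh' => hs h' (Multiset.mem_cons_of_mem hh')
    obtain ⟨hh, hgen, hπh⟩ := hs h (Multiset.mem_cons_self h t)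
    have hprod0 : t.prod ≠ 0 := by
      intro h0
      have hx : (0 : O) ∈ t := Multiset.prod_eq_zero_iff.1 h0
      exact (ht 0 hx).1.ne_zero rfl
    have hx0 : (u : O) * t.prod ≠ 0 := mul_ne_zero u.ne_zero hprod0
    have := (ih ht).mul_prime hπ hh hgen hπh hx0
    rw [Multiset.prod_cons, Multiset.card_cons]
    have heq : (u : O) * (h * t.prod) = h * ((u : O) * t.prod) := by ring
    rw [heq]
    push_cast
    exact this

end Sum

end Fermat.Agent.JA
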