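/-
J-A third wave, package RED-A (B3) — helper1.
(Special) the reduction map at a good point `O` into the valuation ring of the special place `Q`
of `Ẽ / k`, and the local form of `r_*(div a) = div ã`: if all zeros of `a ∈ O`, `π ∤ a`, through
`O` are rational, then `∑_{P through O} ord_P a = ord_Q ã`.
-/
import Mathlib
import Fermat.Agent.JA.REDA_helper1_Sum

set_option autoImplicit false
set_option linter.style.haveILetI false
set_option linter.unusedSectionVars false

open AlgebraicCurve IsLocalRing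

namespace Fermat.Agent.JA

open Fermat.Agent.FF

section Special

variable {k Et : Type*} [Field k] [Field Et] [Algebra k Et]
  {O : Type*} [CommRing O] [IsLocalRing O]

/-- `ρO : O → Ẽ` is the reduction map at the good point `O`, landing in the valuation ring of the
place `Q` of `Ẽ / k`, local, killing `π`, and hitting a uniformizer of `Q`. -/
structure IsReductionAt (π' : O) (Q : Place k Et) (ρO : O →+* Et) : Prop where
  map_pi : ρO π' = 0
  mem : ∀ x : O, ρO x ∈ Q.toValuationSubring
  isZeroAt : ∀ x ∈ maximalIdeal O, Place.IsZeroAt Q (ρO x)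
  exists_unif : ∃ x ∈ maximalIdeal O, Q.ord (ρO x) = 1

namespace IsReductionAt

variable {π' : O} {Q : Place k Et} {ρO : O →+* Et} (hred : IsReductionAt π' Q ρO)
include hred

theorem ord_unit {x : O} (hx : IsUnit x) : ρO x ≠ 0 ∧ Q.ord (ρO x) = 0 := by
  obtain ⟨y, hy⟩ := hx.exists_right_inv
  have h1 : ρO x * ρO y = 1 := by rw [← map_mul, hy, map_one]
  have hx0 : ρO x ≠ 0 := left_ne_zero_of_mul_eq_one h1
  have hinv : (ρO x)⁻¹ = ρO y := by
    field_simp
    rw [h1]
  exact ⟨hx0, ord_eq_zero_of_mem_of_inv_mem Q (hred.mem x) (by rw [hinv]; exact hred.mem y)⟩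

/-- a generator `h` of the maximal ideal modulo `π` reduces to a uniformizer of `Q`. -/
theorem ord_eq_one_of_maximalIdeal_eq {h : O} (hgen : maximalIdeal O = Ideal.span {π', h}) :
    ρO h ≠ 0 ∧ Q.ord (ρO h) = 1 := by
  obtain ⟨x₀, hx₀, hord⟩ := hred.exists_unif
  rw [hgen, Ideal.mem_span_pair] at hx₀
  obtain ⟨α, β, hαβ⟩ := hx₀
  have h1 : ρO x₀ = ρO β * ρO h := by
    rw [← hαβ, map_add, map_mul, map_mul, hred.map_pi, mul_zero, zero_add]
  have hx0 : ρO x₀ ≠ 0 := by
    intro h0
    rw [h0, Q.ord_zero] at hord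
    exact zero_ne_one hord
  rw [h1] at hx0 hord
  have hβ0 : ρO β ≠ 0 := left_ne_zero_of_mul hx0
  have hh0 : ρO h ≠ 0 := right_ne_zero_of_mul hx0
  rw [Q.ord_mul hβ0 hh0] at hord
  have hβ := PlaceAux.ord_nonneg_of_mem Q (hred.mem β)
  have hhm : h ∈ maximalIdeal O := by
    rw [hgen]; exact Ideal.subset_span (by simp)
  have hpos : 0 < Q.ord (ρO h) := by
    rcases hred.isZeroAt h hhm with h0 | h0
    · exact absurd h0 hh0
    · exact h0
  exact ⟨hh0, by omega⟩

/-- the order at `Q` of the reduction of `u · ∏ h_i`. -/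
theorem ord_units_mul_prod (u : Oˣ) (s : Multiset O)
    (hs : ∀ h ∈ s, maximalIdeal O = Ideal.span {π', h}) :
    ρO ((u : O) * s.prod) ≠ 0 ∧ Q.ord (ρO ((u : O) * s.prod)) = (Multiset.card s : ℤ) := by
  induction s using Multiset.induction_on with
  | empty =>
    rw [Multiset.prod_zero, mul_one, Multiset.card_zero, Nat.cast_zero]
    exact hred.ord_unit u.isUnit
  | cons h t ih =>
    have ht : ∀ h' ∈ t, maximalIdeal O = Ideal.span {π', h'} :=
      fun h' hh' => hs h' (Multiset.mem_cons_of_mem hh')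
    obtain ⟨h0, h1⟩ := ih ht
    obtain ⟨hh0, hh1⟩ := hred.ord_eq_one_of_maximalIdeal_eq (hs h (Multiset.mem_cons_self h t))
    have heq : (u : O) * (h ::ₘ t).prod = h * ((u : O) * t.prod) := by
      rw [Multiset.prod_cons]; ring
    rw [heq, map_mul, Multiset.card_cons]
    refine ⟨mul_ne_zero hh0 h0, ?_⟩
    rw [Q.ord_mul hh0 h0, hh1, h1]
    push_cast
    ring

end IsReductionAt

end Special

section Main

variable {R₁ : Type*} [CommRing R₁] [IsDomain R₁] [IsDiscreteValuationRing R₁]
  {K₁ : Type*} [Field K₁] [Algebra R₁ K₁] [IsFractionRing R₁ K₁]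
  {E : Type*} [Field E] [Algebra K₁ E] [Algebra R₁ E] [IsScalarTower R₁ K₁ E]
  {O : Type*} [CommRing O] [IsDomain O] [IsLocalRing O] [IsNoetherianRing O]
  [Algebra R₁ O] [Algebra O E] [IsScalarTower R₁ O E] [IsFractionRing O E]
  {k Et : Type*} [Field k] [Field Et] [Algebra k Et]
  {π : R₁} [IsDomain (O ⧸ Ideal.span {algebraMap R₁ O π})]
  [IsDiscreteValuationRing (O ⧸ Ideal.span {algebraMap R₁ O π})]

/-- **local form of `r_*(div a) = div ã`** at a good point `O`: if all the places of `E / K₁`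
through `O` at which `a` vanishes are rational (`π ∤ a`), these places form a finite set and the
sum of the orders of `a` is the order of the reduction of `a` at the special place `Q`. -/
theorem zeroSum_of_rational (hπ : Irreducible π) (hπO : Prime (algebraMap R₁ O π))
    {Q : Place k Et} {ρO : O →+* Et} (hred : IsReductionAt (algebraMap R₁ O π) Q ρO)
    (a : O) (ha : ¬ algebraMap R₁ O π ∣ a)
    (hrat : ∀ P : Place K₁ E, Through O P → 0 < P.ord (algebraMap O E a) → IsRationalPlace P) :
    ρO a ≠ 0 ∧ ZeroSum K₁ (E := E) a (Q.ord (ρO a)) := by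
  have ha0 : a ≠ 0 := by rintro rfl; exact ha (dvd_zero _)
  obtain ⟨u, s, hus, hs⟩ := exists_units_mul_multiset_prod_eq hπO a ha
    (exists_mem_maximalIdeal_eq_of_rational hπ ha0 hrat)
  have hπh : ∀ h ∈ s, ¬ h ∣ algebraMap R₁ O π := by
    intro h hh hd
    obtain ⟨hp, -, hha⟩ := hs h hh
    obtain ⟨c, hc⟩ := hd
    rcases hπO.irreducible.isUnit_or_isUnit hc with h1 | h1
    · exact hp.not_isUnit h1
    · obtain ⟨v, rfl⟩ := h1
      apply ha
      refine Dvd.dvd.trans ?_ hha
      refine ⟨((v⁻¹ : Oˣ) : O), ?_⟩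
      rw [hc, mul_assoc, Units.mul_inv, mul_one]
  obtain ⟨h0, h1⟩ := hred.ord_units_mul_prod u s (fun h hh => (hs h hh).2.1)
  rw [← hus] at h0 h1
  refine ⟨h0, ?_⟩
  rw [h1, hus]
  exact zeroSum_units_mul_prod hπ u s (fun h hh => ⟨(hs h hh).1, (hs h hh).2.1, hπh h hh⟩)

end Main

end Fermat.Agent.JA
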