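/-
J-A third wave, package RED-A (B3) — helper1.
(Chart) the chart level: `B` a noetherian domain over the DVR `R₁` with `Frac B = E`, `π` prime in
`B`, reduction `ρ : B → B̄` onto a Dedekind domain with kernel `(π)`; for a maximal ideal `w` of
`B̄`, the localisation of `B` at `𝔫 = ρ⁻¹(w)` is a good point with reduction map into the
valuation ring of the special place `placeOf w` of `Ẽ = Frac B̄`.
-/
import Mathlib
import Fermat.Agent.JA.REDA_helper1_Special

set_option autoImplicit false
set_option linter.style.haveILetI false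
set_option linter.unusedSectionVars false

open AlgebraicCurve IsLocalRing IsDedekindDomain

namespace Fermat.Agent.JA

open Fermat.Agent.FF

/-- Dedekind domains transport along ring isomorphisms. -/
theorem isDedekindDomain_of_ringEquiv_reda {A A' : Type*} [CommRing A] [CommRing A']
    (e : A ≃+* A') [IsDedekindDomain A'] : IsDedekindDomain A := by
  haveI : IsDomain A := e.toMulEquiv.isDomain A'
  haveI : IsNoetherianRing A := isNoetherianRing_of_ringEquiv A' e.symm
  haveI : Ring.DimensionLEOne A := Ring.DimensionLEOne.of_ringEquiv e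
  haveI : IsIntegrallyClosed A := IsIntegrallyClosed.of_equiv e.symm
  exact { }

section LocAlgebra

variable {B : Type*} [CommRing B] [IsDomain B] {E : Type*} [Field E] [Algebra B E]
  [IsFractionRing B E] (𝔫 : Ideal B) [𝔫.IsPrime]

/-- the embedding of the localisation `B_𝔫` into the fraction field `E`. -/
noncomputable def locToField : Localization.AtPrime 𝔫 →+* E :=
  IsLocalization.lift (M := 𝔫.primeCompl) (g := algebraMap B E) (fun y =>
    IsUnit.mk0 _ ((map_ne_zero_iff _ (IsFractionRing.injective B E)).mpr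
      (fun h0 => y.2 (by rw [h0]; exact 𝔫.zero_mem))))

/-- the `B_𝔫`-algebra structure of the fraction field `E` of `B`. -/
@[reducible] noncomputable def locAlgebra : Algebra (Localization.AtPrime 𝔫) E :=
  (locToField (E := E) 𝔫).toAlgebra

attribute [local instance] locAlgebra

theorem locAlgebra_algebraMap_apply (x : B) :
    algebraMap (Localization.AtPrime 𝔫) E (algebraMap B (Localization.AtPrime 𝔫) x) =
      algebraMap B E x :=
  IsLocalization.lift_eq _ x

theorem locAlgebra_isScalarTower : IsScalarTower B (Localization.AtPrime 𝔫) E :=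
  IsScalarTower.of_algebraMap_eq fun x => (locAlgebra_algebraMap_apply 𝔫 x).symm

theorem locAlgebra_isFractionRing : IsFractionRing (Localization.AtPrime 𝔫) E := by
  haveI := locAlgebra_isScalarTower (E := E) 𝔫
  exact IsFractionRing.isFractionRing_of_isDomain_of_isLocalization 𝔫.primeCompl
    (Localization.AtPrime 𝔫) E

theorem locAlgebra_mk' (b : B) (s : 𝔫.primeCompl) :
    algebraMap (Localization.AtPrime 𝔫) E (IsLocalization.mk' (Localization.AtPrime 𝔫) b s) =
      algebraMap B E b * (algebraMap B E s)⁻¹ := by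
  have hs0 : algebraMap B E s ≠ 0 := (map_ne_zero_iff _ (IsFractionRing.injective B E)).mpr
    (fun h0 => s.2 (by rw [h0]; exact 𝔫.zero_mem))
  have h1 := congrArg (algebraMap (Localization.AtPrime 𝔫) E)
    (IsLocalization.mk'_spec (Localization.AtPrime 𝔫) b s)
  rw [map_mul, locAlgebra_algebraMap_apply, locAlgebra_algebraMap_apply] at h1
  rw [← h1, mul_assoc, mul_inv_cancel₀ hs0, mul_one]

end LocAlgebra

section Chart

attribute [local instance] locAlgebra

variable {R₁ : Type*} [CommRing R₁] [IsDomain R₁] [IsDiscreteValuationRing R₁]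
  {K₁ : Type*} [Field K₁] [Algebra R₁ K₁] [IsFractionRing R₁ K₁]
  {E : Type*} [Field E] [Algebra K₁ E] [Algebra R₁ E] [IsScalarTower R₁ K₁ E]
  {B : Type*} [CommRing B] [IsDomain B] [Algebra R₁ B] [Algebra B E]
  [IsScalarTower R₁ B E] [IsFractionRing B E]

/-- the place `P` of `E / K₁` is centred at the prime ideal `𝔫` of the chart `B`:
`B ⊂ O_P` and `B ∖ 𝔫 ⊂ O_Pˣ`. -/
def CentredAt (𝔫 : Ideal B) (P : Place K₁ E) : Prop :=
  (∀ x : B, algebraMap B E x ∈ P.toValuationSubring) ∧
    ∀ x : B, x ∉ 𝔫 → (algebraMap B E x)⁻¹ ∈ P.toValuationSubring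

theorem locAlgebra_isScalarTower_base (𝔫 : Ideal B) [𝔫.IsPrime] :
    IsScalarTower R₁ (Localization.AtPrime 𝔫) E :=
  IsScalarTower.of_algebraMap_eq fun r => by
    rw [IsScalarTower.algebraMap_apply R₁ B (Localization.AtPrime 𝔫),
      locAlgebra_algebraMap_apply, ← IsScalarTower.algebraMap_apply]

/-- a place passes through the local ring `B_𝔫` iff it is centred at `𝔫`. -/
theorem through_localization_iff (𝔫 : Ideal B) [𝔫.IsPrime] (P : Place K₁ E) :
    Through (Localization.AtPrime 𝔫) P ↔ CentredAt 𝔫 P := by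
  constructor
  · intro h
    refine ⟨fun x => ?_, fun x hx => ?_⟩
    · rw [← locAlgebra_algebraMap_apply 𝔫 x]
      exact h _
    · have h1 := h (IsLocalization.mk' (Localization.AtPrime 𝔫) (1 : B) (⟨x, hx⟩ : 𝔫.primeCompl))
      rw [locAlgebra_mk', map_one, one_mul] at h1
      exact h1
  · rintro ⟨h1, h2⟩ x
    obtain ⟨b, s, rfl⟩ := IsLocalization.exists_mk'_eq 𝔫.primeCompl x
    rw [locAlgebra_mk']
    exact P.toValuationSubring.mul_mem _ _ (h1 b) (h2 s s.2)

variable {k Et : Type*} [Field k] [Field Et] [Algebra k Et]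
  {Bb : Type*} [CommRing Bb] [IsDedekindDomain Bb] [Algebra k Bb] [Algebra Bb Et]
  [IsFractionRing Bb Et] [IsScalarTower k Bb Et]

/-- the reduction map of the local ring of the chart at `𝔫 = ρ⁻¹(w)` into `Ẽ = Frac B̄`. -/
noncomputable def locReduction (ρ : B →+* Bb) (w : HeightOneSpectrum Bb) :
    Localization.AtPrime (w.asIdeal.comap ρ) →+* Et :=
  IsLocalization.lift (M := (w.asIdeal.comap ρ).primeCompl) (g := (algebraMap Bb Et).comp ρ)
    (fun y => IsUnit.mk0 _ ((map_ne_zero_iff _ (IsFractionRing.injective Bb Et)).mpr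
      (fun h0 => y.2 (by
        show ρ y ∈ w.asIdeal
        rw [h0]; exact w.asIdeal.zero_mem))))

theorem locReduction_algebraMap (ρ : B →+* Bb) (w : HeightOneSpectrum Bb) (x : B) :
    locReduction (Et := Et) ρ w (algebraMap B _ x) = algebraMap Bb Et (ρ x) :=
  IsLocalization.lift_eq _ x

theorem locReduction_mk' (ρ : B →+* Bb) (w : HeightOneSpectrum Bb) (b : B)
    (s : (w.asIdeal.comap ρ).primeCompl) :
    locReduction (Et := Et) ρ w (IsLocalization.mk' _ b s) =
      algebraMap Bb Et (ρ b) * (algebraMap Bb Et (ρ s))⁻¹ := by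
  have hs0 : algebraMap Bb Et (ρ s) ≠ 0 :=
    (map_ne_zero_iff _ (IsFractionRing.injective Bb Et)).mpr (fun h0 => s.2 (by
      show ρ s ∈ w.asIdeal
      rw [h0]; exact w.asIdeal.zero_mem))
  have h1 := congrArg (locReduction (Et := Et) ρ w)
    (IsLocalization.mk'_spec (Localization.AtPrime (w.asIdeal.comap ρ)) b s)
  rw [map_mul, locReduction_algebraMap, locReduction_algebraMap] at h1
  rw [← h1, mul_assoc, mul_inv_cancel₀ hs0, mul_one]

/-- the reduction map at `𝔫 = ρ⁻¹(w)` is a reduction map at the special place `placeOf w`. -/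
theorem isReductionAt_locReduction (ρ : B →+* Bb) (hρ : Function.Surjective ρ) {π' : B}
    (hπ' : ρ π' = 0) (w : HeightOneSpectrum Bb) :
    IsReductionAt (algebraMap B (Localization.AtPrime (w.asIdeal.comap ρ)) π')
      (placeOf (k := k) (F := Et) w) (locReduction (Et := Et) ρ w) := by
  have hinjb : Function.Injective (algebraMap Bb Et) := IsFractionRing.injective Bb Et
  have hunit : ∀ s : (w.asIdeal.comap ρ).primeCompl,
      (algebraMap Bb Et (ρ s))⁻¹ ∈ (placeOf (k := k) (F := Et) w).toValuationSubring := by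
    intro s
    rw [mem_placeOf_iff, map_inv₀, HeightOneSpectrum.valuation_of_algebraMap,
      HeightOneSpectrum.intValuation_eq_one_iff.mpr (fun h => s.2 h), inv_one]
  refine ⟨?_, fun x => ?_, fun x hx => ?_, ?_⟩
  · rw [locReduction_algebraMap, hπ', map_zero]
  · obtain ⟨b, s, rfl⟩ := IsLocalization.exists_mk'_eq (w.asIdeal.comap ρ).primeCompl x
    rw [locReduction_mk']
    exact (placeOf (k := k) (F := Et) w).toValuationSubring.mul_mem _ _
      (algebraMap_mem_placeOf w _) (hunit s)
  · obtain ⟨b, s, rfl⟩ := IsLocalization.exists_mk'_eq (w.asIdeal.comap ρ).primeCompl x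
    have hb : b ∈ w.asIdeal.comap ρ :=
      (IsLocalization.AtPrime.mk'_mem_maximal_iff (Localization.AtPrime (w.asIdeal.comap ρ))
        (w.asIdeal.comap ρ) b s).mp hx
    rw [locReduction_mk', mul_comm]
    apply Place.IsZeroAt.mul_mem _ (hunit s)
    by_cases hb0 : ρ b = 0
    · rw [hb0, map_zero]; exact Or.inl rfl
    · exact Or.inr ((ord_placeOf_algebraMap_pos_iff (k := k) (F := Et) w (ρ b) hb0).mpr hb)
  · obtain ⟨ϖb, hϖb⟩ := w.intValuation_exists_uniformizer
    obtain ⟨ϖ, rfl⟩ := hρ ϖb
    have hmem : ρ ϖ ∈ w.asIdeal := by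
      rw [← HeightOneSpectrum.intValuation_lt_one_iff_mem, hϖb, ← WithZero.exp_zero,
        WithZero.exp_lt_exp]
      omega
    refine ⟨algebraMap B _ ϖ, ?_, ?_⟩
    · have := (IsLocalization.AtPrime.mk'_mem_maximal_iff
        (Localization.AtPrime (w.asIdeal.comap ρ)) (w.asIdeal.comap ρ) ϖ 1).mpr hmem
      rwa [IsLocalization.mk'_one] at this
    · rw [locReduction_algebraMap]
      have h0 : algebraMap Bb Et (ρ ϖ) ≠ 0 := by
        rw [map_ne_zero_iff _ hinjb]
        intro h0
        rw [h0, map_zero] at hϖb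
        exact WithZero.exp_ne_zero hϖb.symm
      rw [ord_placeOf w h0, HeightOneSpectrum.valuation_of_algebraMap, hϖb, WithZero.log_exp]
      ring

end Chart

end Fermat.Agent.JA
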