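/-
J-A third wave, package RED-A (B3) — helper1.
(Centre) the centre on a chart `B` of a place of `E / K₁` whose values on `B` lie in `R₁`:
`𝔫(P) = {x ∈ B : x(P) ∈ π R₁}` is a maximal ideal containing `π`, `P` is centred at it, and it is
the only such maximal ideal; conversely a rational place centred at a maximal ideal containing `π`
has its values on `B` in `R₁`.
-/
import Mathlib
import Fermat.Agent.JA.REDA_helper1_Chart

set_option autoImplicit false
set_option linter.style.haveILetI false
set_option linter.unusedSectionVars false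

open AlgebraicCurve IsLocalRing

namespace Fermat.Agent.JA

open Fermat.Agent.FF

section Centre

attribute [local instance] locAlgebra

variable {R₁ : Type*} [CommRing R₁] [IsDomain R₁] [IsDiscreteValuationRing R₁]
  {K₁ : Type*} [Field K₁] [Algebra R₁ K₁] [IsFractionRing R₁ K₁]
  {E : Type*} [Field E] [Algebra K₁ E] [Algebra R₁ E] [IsScalarTower R₁ K₁ E]
  {B : Type*} [CommRing B] [IsDomain B] [Algebra R₁ B] [Algebra B E]
  [IsScalarTower R₁ B E] [IsFractionRing B E]

/-- for a place with `B ⊂ O_P`: `P` is centred at `𝔫` iff the centre of `P` on `B` is contained in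
`𝔫`. -/
theorem centredAt_iff_centreIdeal_le (𝔫 : Ideal B) (P : Place K₁ E)
    (hB : ∀ x : B, algebraMap B E x ∈ P.toValuationSubring) :
    CentredAt 𝔫 P ↔ centreIdeal P hB ≤ 𝔫 := by
  have hinj : Function.Injective (algebraMap B E) := IsFractionRing.injective B E
  constructor
  · rintro ⟨-, h2⟩ x hx
    by_contra hx𝔫
    rw [mem_centreIdeal_iff, Place.isZeroAt_iff] at hx
    rcases hx.2 with h0 | h0
    · rw [(map_eq_zero_iff _ hinj).mp h0] at hx𝔫
      exact hx𝔫 𝔫.zero_mem
    · exact h0 (h2 x hx𝔫)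
  · intro hle
    refine ⟨hB, fun x hx => ?_⟩
    have hx' : x ∉ centreIdeal P hB := fun h => hx (hle h)
    rw [mem_centreIdeal_iff, Place.isZeroAt_iff] at hx'
    by_contra hinv
    exact hx' ⟨hB x, Or.inr hinv⟩

/-- the values of the place `P` on the chart `B` lie in `R₁`. -/
def HasIntegralValues (B : Type*) [CommRing B] {R₁ K₁ E : Type*} [CommRing R₁] [Field K₁]
    [Field E] [Algebra K₁ E] [Algebra R₁ E] [Algebra B E] (P : Place K₁ E) : Prop :=
  ∀ x : B, ∃ r : R₁, Place.IsZeroAt P (algebraMap B E x - algebraMap R₁ E r)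

/-- the centre `𝔫(P) = centre + (π)` on the chart of a place with integral values. -/
noncomputable def chartCentre (π : R₁) (P : Place K₁ E)
    (hB : ∀ x : B, algebraMap B E x ∈ P.toValuationSubring) : Ideal B :=
  centreIdeal P hB ⊔ Ideal.span {algebraMap R₁ B π}

theorem exists_sub_mem_centreIdeal (P : Place K₁ E)
    (hB : ∀ x : B, algebraMap B E x ∈ P.toValuationSubring)
    (hval : HasIntegralValues (R₁ := R₁) B P) (x : B) :
    ∃ r : R₁, x - algebraMap R₁ B r ∈ centreIdeal P hB := by
  obtain ⟨r, hr⟩ := hval x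
  refine ⟨r, ?_⟩
  rw [mem_centreIdeal_iff, map_sub, ← IsScalarTower.algebraMap_apply]
  exact hr

theorem mem_chartCentre_iff {π : R₁} (hπ : Irreducible π) (P : Place K₁ E)
    (hB : ∀ x : B, algebraMap B E x ∈ P.toValuationSubring)
    (hval : HasIntegralValues (R₁ := R₁) B P) (x : B) :
    x ∈ chartCentre π P hB ↔
      ∃ r ∈ maximalIdeal R₁, x - algebraMap R₁ B r ∈ centreIdeal P hB := by
  constructor
  · intro hx
    rw [chartCentre, Submodule.mem_sup] at hx
    obtain ⟨c, hc, d, hd, rfl⟩ := hx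
    rw [Ideal.mem_span_singleton'] at hd
    obtain ⟨z, rfl⟩ := hd
    obtain ⟨rz, hrz⟩ := exists_sub_mem_centreIdeal P hB hval z
    refine ⟨rz * π, ?_, ?_⟩
    · rw [hπ.maximalIdeal_eq]
      exact Ideal.mul_mem_left _ _ (Ideal.subset_span rfl)
    · have : c + z * algebraMap R₁ B π - algebraMap R₁ B (rz * π) =
          c + algebraMap R₁ B π * (z - algebraMap R₁ B rz) := by
        rw [map_mul]; ring
      rw [this]
      exact Ideal.add_mem _ hc (Ideal.mul_mem_left _ _ hrz)
  · rintro ⟨r, hr, hx⟩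
    rw [hπ.maximalIdeal_eq, Ideal.mem_span_singleton'] at hr
    obtain ⟨r', rfl⟩ := hr
    have : x = (x - algebraMap R₁ B (r' * π)) + algebraMap R₁ B r' * algebraMap R₁ B π := by
      rw [map_mul]; ring
    rw [this, chartCentre]
    exact Ideal.add_mem _ (Ideal.mem_sup_left hx)
      (Ideal.mem_sup_right (Ideal.mul_mem_left _ _ (Ideal.subset_span rfl)))

/-- `𝔫(P)` is a maximal ideal. -/
theorem chartCentre_isMaximal {π : R₁} (hπ : Irreducible π) (P : Place K₁ E)
    (hB : ∀ x : B, algebraMap B E x ∈ P.toValuationSubring)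
    (hval : HasIntegralValues (R₁ := R₁) B P) : (chartCentre π P hB).IsMaximal := by
  rw [Ideal.isMaximal_iff]
  constructor
  · intro h1
    rw [mem_chartCentre_iff hπ P hB hval] at h1
    obtain ⟨r, hr, h1⟩ := h1
    have hu : IsUnit (1 - r) := by
      have := IsLocalRing.isUnit_one_sub_self_of_mem_nonunits r
        ((IsLocalRing.mem_maximalIdeal r).mp hr)
      exact this
    have h2 : (1 : B) - algebraMap R₁ B r = algebraMap R₁ B (1 - r) := by
      rw [map_sub, map_one]
    rw [h2] at h1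
    exact algebraMap_not_mem_centreIdeal P hB hu.ne_zero h1
  · intro J x hle hx hxJ
    obtain ⟨r, hr⟩ := exists_sub_mem_centreIdeal P hB hval x
    have hru : IsUnit r := by
      by_contra hnu
      exact hx ((mem_chartCentre_iff hπ P hB hval x).mpr
        ⟨r, (IsLocalRing.mem_maximalIdeal r).mpr hnu, hr⟩)
    obtain ⟨r', hr'⟩ := hru.exists_right_inv
    have h1 : (1 : B) = x * algebraMap R₁ B r' - (x - algebraMap R₁ B r) * algebraMap R₁ B r' := by
      have : algebraMap R₁ B r * algebraMap R₁ B r' = 1 := by rw [← map_mul, hr', map_one]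
      linear_combination -this
    rw [h1]
    exact J.sub_mem (J.mul_mem_right _ hxJ)
      (J.mul_mem_right _ (hle (Ideal.mem_sup_left hr)))

theorem algebraMap_mem_chartCentre (π : R₁) (P : Place K₁ E)
    (hB : ∀ x : B, algebraMap B E x ∈ P.toValuationSubring) :
    algebraMap R₁ B π ∈ chartCentre π P hB :=
  Ideal.mem_sup_right (Ideal.subset_span rfl)

/-- `P` is centred at `𝔫(P)`. -/
theorem centredAt_chartCentre (π : R₁) (P : Place K₁ E)
    (hB : ∀ x : B, algebraMap B E x ∈ P.toValuationSubring) :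
    CentredAt (chartCentre π P hB) P :=
  (centredAt_iff_centreIdeal_le _ P hB).mpr le_sup_left

/-- `𝔫(P)` is the only maximal ideal containing `π` at which `P` is centred. -/
theorem eq_chartCentre_of_centredAt {π : R₁} (hπ : Irreducible π) (P : Place K₁ E)
    (hB : ∀ x : B, algebraMap B E x ∈ P.toValuationSubring)
    (hval : HasIntegralValues (R₁ := R₁) B P) (𝔫 : Ideal B) (h𝔫 : 𝔫 ≠ ⊤)
    (hπ𝔫 : algebraMap R₁ B π ∈ 𝔫) (hc : CentredAt 𝔫 P) : 𝔫 = chartCentre π P hB := by
  have hle : chartCentre π P hB ≤ 𝔫 :=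
    sup_le ((centredAt_iff_centreIdeal_le 𝔫 P hB).mp hc)
      ((Ideal.span_singleton_le_iff_mem 𝔫).mpr hπ𝔫)
  exact ((chartCentre_isMaximal hπ P hB hval).eq_of_le h𝔫 hle).symm

/-- a rational place centred at a prime ideal `𝔫 ∋ π` of the chart has integral values. -/
theorem hasIntegralValues_of_centredAt {π : R₁} (hπ : Irreducible π) (P : Place K₁ E)
    (𝔫 : Ideal B) [𝔫.IsPrime] (hπ𝔫 : algebraMap R₁ B π ∈ 𝔫) (hc : CentredAt 𝔫 P)
    (hrat : IsRationalPlace P) : HasIntegralValues (R₁ := R₁) B P := by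
  intro x
  haveI := locAlgebra_isScalarTower_base (R₁ := R₁) (E := E) 𝔫
  have hO : ∀ z : Localization.AtPrime 𝔫,
      algebraMap (Localization.AtPrime 𝔫) E z ∈ P.toValuationSubring :=
    (through_localization_iff 𝔫 P).mpr hc
  have hπO : algebraMap R₁ (Localization.AtPrime 𝔫) π ∈
      maximalIdeal (Localization.AtPrime 𝔫) := by
    rw [IsScalarTower.algebraMap_apply R₁ B (Localization.AtPrime 𝔫)]
    have := (IsLocalization.AtPrime.mk'_mem_maximal_iff (Localization.AtPrime 𝔫) 𝔫
      (algebraMap R₁ B π) 1).mpr hπ𝔫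
    rwa [IsLocalization.mk'_one] at this
  obtain ⟨r, hr⟩ := exists_isZeroAt_sub_algebraMap P hO hπ hπO hrat
    (algebraMap B (Localization.AtPrime 𝔫) x)
  refine ⟨r, ?_⟩
  rw [mem_centreIdeal_iff, map_sub, locAlgebra_algebraMap_apply,
    ← IsScalarTower.algebraMap_apply] at hr
  exact hr

end Centre

end Fermat.Agent.JA
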