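/-
J-A third wave, package RED-A (B3) — helper1.
(Eval) bridge to helper4's value calculus `HasValueAt`, and the evaluation property of the
special place: if `P` (a place of `E / K₁`) is centred at `𝔫 = ρ⁻¹(w)` and `x ∈ B` has the value
`r ∈ R₁` at `P`, then the reduction `ρ x` has the value `r mod π` at the special place `placeOf w`.
-/
import Mathlib
import Fermat.Agent.JA.ES_helper4_Value
import Fermat.Agent.JA.REDA_helper1_Centre

set_option autoImplicit false
set_option linter.style.haveILetI false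
set_option linter.unusedSectionVars false

open AlgebraicCurve IsLocalRing IsDedekindDomain

namespace Fermat.Agent.JA

open Fermat.Agent.FF

section Bridge

variable {K F : Type*} [Field K] [Field F] [Algebra K F]

theorem isZeroAt_sub_iff_hasValueAt (P : Place K F) (f : F) (c : K) :
    Place.IsZeroAt P (f - algebraMap K F c) ↔ HasValueAt P f c :=
  HasValueAt.iff_ord.symm

theorem isRationalPlace_iff_hasValueAt (P : Place K F) :
    IsRationalPlace P ↔ ∀ x ∈ P.toValuationSubring, ∃ c : K, HasValueAt P x c := by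
  constructor
  · intro h x hx
    obtain ⟨c, hc⟩ := h x hx
    exact ⟨c, (isZeroAt_sub_iff_hasValueAt P x c).mp hc⟩
  · intro h x hx
    obtain ⟨c, hc⟩ := h x hx
    exact ⟨c, (isZeroAt_sub_iff_hasValueAt P x c).mpr hc⟩

/-- a place of degree one is rational. -/
theorem isRationalPlace_of_deg_eq_one (P : Place K F) (hdeg : P.deg = 1) : IsRationalPlace P :=
  (isRationalPlace_iff_hasValueAt P).mpr fun _ hx => HasValueAt.exists_of_mem hdeg hx

end Bridge

section Eval

variable {R₁ : Type*} [CommRing R₁] [IsDomain R₁] [IsDiscreteValuationRing R₁]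
  {K₁ : Type*} [Field K₁] [Algebra R₁ K₁] [IsFractionRing R₁ K₁]
  {E : Type*} [Field E] [Algebra K₁ E] [Algebra R₁ E] [IsScalarTower R₁ K₁ E]
  {B : Type*} [CommRing B] [IsDomain B] [Algebra R₁ B] [Algebra B E]
  [IsScalarTower R₁ B E] [IsFractionRing B E]
  {k Et : Type*} [Field k] [Field Et] [Algebra k Et]
  {Bb : Type*} [CommRing Bb] [IsDedekindDomain Bb] [Algebra k Bb] [Algebra Bb Et]
  [IsFractionRing Bb Et] [IsScalarTower k Bb Et]

/-- **evaluation at the special place**: if `P` is centred at `𝔫 = ρ⁻¹(w)` and `x ∈ B` has the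
value `r ∈ R₁` at `P`, then `ρ x` has the value `res r` at `placeOf w`. -/
theorem hasValueAt_placeOf_of_centredAt (ρ : B →+* Bb) (res : R₁ →+* k)
    (hρk : ∀ r : R₁, ρ (algebraMap R₁ B r) = algebraMap k Bb (res r))
    (w : HeightOneSpectrum Bb) (P : Place K₁ E) (hc : CentredAt (w.asIdeal.comap ρ) P)
    (x : B) (r : R₁) (hx : HasValueAt P (algebraMap B E x) (algebraMap R₁ K₁ r)) :
    HasValueAt (placeOf (k := k) (F := Et) w) (algebraMap Bb Et (ρ x)) (res r) := by
  have hmem : x - algebraMap R₁ B r ∈ centreIdeal P hc.1 := by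
    rw [mem_centreIdeal_iff, map_sub, ← IsScalarTower.algebraMap_apply,
      IsScalarTower.algebraMap_apply R₁ K₁ E, isZeroAt_sub_iff_hasValueAt]
    exact hx
  have h𝔫 : x - algebraMap R₁ B r ∈ w.asIdeal.comap ρ :=
    (centredAt_iff_centreIdeal_le _ P hc.1).mp hc hmem
  have hw : ρ x - algebraMap k Bb (res r) ∈ w.asIdeal := by
    have : ρ (x - algebraMap R₁ B r) ∈ w.asIdeal := h𝔫
    rwa [map_sub, hρk] at this
  rw [← isZeroAt_sub_iff_hasValueAt]
  have heq : algebraMap Bb Et (ρ x) - algebraMap k Et (res r) =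
      algebraMap Bb Et (ρ x - algebraMap k Bb (res r)) := by
    rw [map_sub, ← IsScalarTower.algebraMap_apply]
  rw [heq]
  by_cases h0 : ρ x - algebraMap k Bb (res r) = 0
  · rw [h0, map_zero]; exact Or.inl rfl
  · exact Or.inr ((ord_placeOf_algebraMap_pos_iff (k := k) (F := Et) w _ h0).mpr hw)

/-- the special place is determined by the evaluation property: a place `Q` of `Ẽ / k` with
`B̄ ⊂ O_Q` at which the elements of `w` vanish is `placeOf w`. -/
theorem eq_placeOf_of_forall_mem (w : HeightOneSpectrum Bb) (Q : Place k Et)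
    (hQ : ∀ x : Bb, algebraMap Bb Et x ∈ Q.toValuationSubring)
    (hw : ∀ x ∈ w.asIdeal, HasValueAt Q (algebraMap Bb Et x) 0) :
    Q = placeOf (k := k) (F := Et) w := by
  obtain ⟨w', hw'⟩ := exists_placeOf_eq (k := k) (R := Bb) Q hQ
  rw [← hw']
  congr 1
  apply HeightOneSpectrum.ext
  have hle : w.asIdeal ≤ w'.asIdeal := by
    intro x hx
    by_cases hx0 : x = 0
    · rw [hx0]; exact w'.asIdeal.zero_mem
    have h1 := hw x hx
    rw [← hw', HasValueAt.zero_iff] at h1
    rcases h1 with h1 | h1
    · exact absurd ((map_eq_zero_iff _ (IsFractionRing.injective Bb Et)).mp h1) hx0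
    · exact (ord_placeOf_algebraMap_pos_iff (k := k) (F := Et) w' x hx0).mp h1
  exact (w.isMaximal.eq_of_le w'.isPrime.ne_top hle).symm

end Eval

end Fermat.Agent.JA
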