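/-
J-A third wave, package RED-A (B3) — helper1.
(Main) **(ii-base)**: on a chart `B` of an arithmetic surface over the DVR `R₁` (noetherian domain,
`π` prime, reduction `ρ : B → B̄` onto a Dedekind domain with kernel `(π)`), for a maximal ideal
`w` of `B̄` with `𝔫 = ρ⁻¹(w)` and `a, b ∈ B` with nonzero reductions whose zeros centred at `𝔫` are
rational: the places of `E / K₁` centred at `𝔫` at which `y = a / b` has nonzero order form a
finite set and `∑ ord_P y = ord_{Q_w} (ã / b̃)`.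
-/
import Mathlib
import Fermat.Agent.JA.REDA_helper1_Chart

set_option autoImplicit false
set_option linter.style.haveILetI false
set_option linter.unusedSectionVars false

open AlgebraicCurve IsLocalRing IsDedekindDomain

namespace Fermat.Agent.JA

open Fermat.Agent.FF

section ChartMain

attribute [local instance] locAlgebra

variable {R₁ : Type*} [CommRing R₁] [IsDomain R₁] [IsDiscreteValuationRing R₁]
  {K₁ : Type*} [Field K₁] [Algebra R₁ K₁] [IsFractionRing R₁ K₁]
  {E : Type*} [Field E] [Algebra K₁ E] [Algebra R₁ E] [IsScalarTower R₁ K₁ E]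
  {B : Type*} [CommRing B] [IsDomain B] [IsNoetherianRing B] [Algebra R₁ B] [Algebra B E]
  [IsScalarTower R₁ B E] [IsFractionRing B E]
  {k Et : Type*} [Field k] [Field Et] [Algebra k Et]
  {Bb : Type*} [CommRing Bb] [IsDedekindDomain Bb] [Algebra k Bb] [Algebra Bb Et]
  [IsFractionRing Bb Et] [IsScalarTower k Bb Et]

/-- **(ii-base), one element**: the zeros of `a ∈ B` (`ã ≠ 0`) centred at `𝔫 = ρ⁻¹(w)`, if all
rational, form a finite set `S` and `∑_{P ∈ S} ord_P a = ord_{Q_w} ã`. -/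
theorem chart_zeroSum (ρ : B →+* Bb) (hρ : Function.Surjective ρ) {π : R₁} (hπ : Irreducible π)
    (hker : RingHom.ker ρ = Ideal.span {algebraMap R₁ B π})
    (hπB : Prime (algebraMap R₁ B π)) (w : HeightOneSpectrum Bb) (a : B) (ha : ρ a ≠ 0)
    (hrat : ∀ P : Place K₁ E, CentredAt (w.asIdeal.comap ρ) P →
      0 < P.ord (algebraMap B E a) → IsRationalPlace P) :
    ∃ S : Finset (Place K₁ E),
      (∀ P ∈ S, CentredAt (w.asIdeal.comap ρ) P ∧ 0 < P.ord (algebraMap B E a)) ∧
      (∀ P : Place K₁ E, CentredAt (w.asIdeal.comap ρ) P → 0 < P.ord (algebraMap B E a) →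
        P ∈ S) ∧
      ∑ P ∈ S, P.ord (algebraMap B E a) =
        (placeOf (k := k) (F := Et) w).ord (algebraMap Bb Et (ρ a)) := by
  set 𝔫 : Ideal B := w.asIdeal.comap ρ with h𝔫
  haveI h𝔫max : 𝔫.IsMaximal := Ideal.comap_isMaximal_of_surjective ρ hρ (K := w.asIdeal)
    (H := w.isMaximal)
  have hπker : ρ (algebraMap R₁ B π) = 0 := by
    rw [← RingHom.mem_ker, hker]; exact Ideal.subset_span rfl
  have hπ𝔫 : algebraMap R₁ B π ∈ 𝔫 := by
    show ρ _ ∈ w.asIdeal
    rw [hπker]; exact w.asIdeal.zero_mem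
  have hne : 𝔫 ≠ Ideal.span {algebraMap R₁ B π} := by
    intro heq
    obtain ⟨xb, hxb, hxb0⟩ := Submodule.exists_mem_ne_zero_of_ne_bot w.ne_bot
    obtain ⟨x, rfl⟩ := hρ xb
    have hx : x ∈ 𝔫 := hxb
    rw [heq, ← hker, RingHom.mem_ker] at hx
    exact hxb0 hx
  haveI : IsDedekindDomain (B ⧸ Ideal.span {algebraMap R₁ B π}) :=
    isDedekindDomain_of_ringEquiv_reda
      ((Ideal.quotEquivOfEq hker.symm).trans (RingHom.quotientKerEquivOfSurjective hρ))
  have heq : algebraMap R₁ (Localization.AtPrime 𝔫) π =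
      algebraMap B (Localization.AtPrime 𝔫) (algebraMap R₁ B π) :=
    IsScalarTower.algebraMap_apply R₁ B (Localization.AtPrime 𝔫) π
  have H := exists_isDiscreteValuationRing_quotient_localization (algebraMap R₁ B π) hπB 𝔫 hπ𝔫 hne
  rw [← heq] at H
  obtain ⟨hdom, hdvr⟩ := H
  haveI := locAlgebra_isScalarTower_base (R₁ := R₁) (E := E) 𝔫
  haveI := locAlgebra_isFractionRing (E := E) 𝔫
  have hπO : Prime (algebraMap R₁ (Localization.AtPrime 𝔫) π) := by
    rw [heq]; exact prime_algebraMap_localization_atPrime (algebraMap R₁ B π) hπB 𝔫 hπ𝔫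
  have hred : IsReductionAt (algebraMap R₁ (Localization.AtPrime 𝔫) π)
      (placeOf (k := k) (F := Et) w) (locReduction (Et := Et) ρ w) := by
    rw [heq]; exact isReductionAt_locReduction ρ hρ hπker w
  have haO : ¬ algebraMap R₁ (Localization.AtPrime 𝔫) π ∣
      algebraMap B (Localization.AtPrime 𝔫) a := by
    rintro ⟨c, hc⟩
    have h1 := congrArg (locReduction (Et := Et) ρ w) hc
    rw [map_mul, hred.map_pi, zero_mul, locReduction_algebraMap] at h1
    exact ha ((map_eq_zero_iff _ (IsFractionRing.injective Bb Et)).mp h1)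
  have hratO : ∀ P : Place K₁ E, Through (Localization.AtPrime 𝔫) P →
      0 < P.ord (algebraMap (Localization.AtPrime 𝔫) E
        (algebraMap B (Localization.AtPrime 𝔫) a)) → IsRationalPlace P := by
    intro P hP hpos
    rw [locAlgebra_algebraMap_apply] at hpos
    exact hrat P ((through_localization_iff 𝔫 P).mp hP) hpos
  obtain ⟨-, S, hS1, hS2, hS3⟩ := zeroSum_of_rational (K₁ := K₁) (E := E) hπ hπO hred
    (algebraMap B (Localization.AtPrime 𝔫) a) haO hratO
  simp only [locAlgebra_algebraMap_apply] at hS1 hS2 hS3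
  have hred_a : locReduction (Et := Et) ρ w (algebraMap B (Localization.AtPrime 𝔫) a) =
      algebraMap Bb Et (ρ a) := locReduction_algebraMap ρ w a
  rw [hred_a] at hS3
  exact ⟨S, fun P hP => ⟨(through_localization_iff 𝔫 P).mp (hS1 P hP).1, (hS1 P hP).2⟩,
    fun P hP hpos => hS2 P ((through_localization_iff 𝔫 P).mpr hP) hpos, hS3⟩

/-- **(ii-base)**: for `a, b ∈ B` with nonzero reductions, all of whose zeros centred at
`𝔫 = ρ⁻¹(w)` are rational, the places of `E / K₁` centred at `𝔫` at which `y = a / b` has nonzero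
order lie in a finite set `S` of places centred at `𝔫`, and
`∑_{P ∈ S} ord_P y = ord_{Q_w} (ã / b̃)`. -/
theorem chart_sum_ord_div (ρ : B →+* Bb) (hρ : Function.Surjective ρ) {π : R₁}
    (hπ : Irreducible π) (hker : RingHom.ker ρ = Ideal.span {algebraMap R₁ B π})
    (hπB : Prime (algebraMap R₁ B π)) (w : HeightOneSpectrum Bb) (a b : B) (ha : ρ a ≠ 0)
    (hb : ρ b ≠ 0)
    (hrat : ∀ P : Place K₁ E, CentredAt (w.asIdeal.comap ρ) P →
      (0 < P.ord (algebraMap B E a) ∨ 0 < P.ord (algebraMap B E b)) → IsRationalPlace P) :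
    ∃ S : Finset (Place K₁ E),
      (∀ P ∈ S, CentredAt (w.asIdeal.comap ρ) P) ∧
      (∀ P : Place K₁ E, CentredAt (w.asIdeal.comap ρ) P →
        P.ord (algebraMap B E a / algebraMap B E b) ≠ 0 → P ∈ S) ∧
      ∑ P ∈ S, P.ord (algebraMap B E a / algebraMap B E b) =
        (placeOf (k := k) (F := Et) w).ord
          (algebraMap Bb Et (ρ a) / algebraMap Bb Et (ρ b)) := by
  classical
  have hinj : Function.Injective (algebraMap B E) := IsFractionRing.injective B E
  have hinjb : Function.Injective (algebraMap Bb Et) := IsFractionRing.injective Bb Et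
  have ha0 : algebraMap B E a ≠ 0 :=
    (map_ne_zero_iff _ hinj).mpr (by rintro rfl; exact ha (map_zero ρ))
  have hb0 : algebraMap B E b ≠ 0 :=
    (map_ne_zero_iff _ hinj).mpr (by rintro rfl; exact hb (map_zero ρ))
  obtain ⟨Sa, hSa1, hSa2, hSa3⟩ := chart_zeroSum (k := k) (Et := Et) ρ hρ hπ hker hπB w a ha
    (fun P hP hpos => hrat P hP (Or.inl hpos))
  obtain ⟨Sb, hSb1, hSb2, hSb3⟩ := chart_zeroSum (k := k) (Et := Et) ρ hρ hπ hker hπB w b hb
    (fun P hP hpos => hrat P hP (Or.inr hpos))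
  have hcent : ∀ P ∈ Sa ∪ Sb, CentredAt (w.asIdeal.comap ρ) P := by
    intro P hP
    rcases Finset.mem_union.mp hP with h | h
    · exact (hSa1 P h).1
    · exact (hSb1 P h).1
  refine ⟨Sa ∪ Sb, hcent, fun P hP hne => ?_, ?_⟩
  · rw [PlaceAux.ord_div P ha0 hb0] at hne
    have h1 := PlaceAux.ord_nonneg_of_mem P (hP.1 a)
    have h2 := PlaceAux.ord_nonneg_of_mem P (hP.1 b)
    by_cases hpa : 0 < P.ord (algebraMap B E a)
    · exact Finset.mem_union_left _ (hSa2 P hP hpa)
    · have hpb : 0 < P.ord (algebraMap B E b) := by omega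
      exact Finset.mem_union_right _ (hSb2 P hP hpb)
  · have h1 : ∑ P ∈ Sa ∪ Sb, P.ord (algebraMap B E a) = ∑ P ∈ Sa, P.ord (algebraMap B E a) := by
      symm
      apply Finset.sum_subset Finset.subset_union_left
      intro P hP hnot
      have h2 := PlaceAux.ord_nonneg_of_mem P ((hcent P hP).1 a)
      have h3 : ¬ 0 < P.ord (algebraMap B E a) := fun hpos => hnot (hSa2 P (hcent P hP) hpos)
      omega
    have h2 : ∑ P ∈ Sa ∪ Sb, P.ord (algebraMap B E b) = ∑ P ∈ Sb, P.ord (algebraMap B E b) := by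
      symm
      apply Finset.sum_subset Finset.subset_union_right
      intro P hP hnot
      have h2 := PlaceAux.ord_nonneg_of_mem P ((hcent P hP).1 b)
      have h3 : ¬ 0 < P.ord (algebraMap B E b) := fun hpos => hnot (hSb2 P (hcent P hP) hpos)
      omega
    have h3 : ∀ P : Place K₁ E, P.ord (algebraMap B E a / algebraMap B E b) =
        P.ord (algebraMap B E a) - P.ord (algebraMap B E b) := fun P => PlaceAux.ord_div P ha0 hb0
    simp_rw [h3]
    rw [Finset.sum_sub_distrib, h1, h2, hSa3, hSb3,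
      PlaceAux.ord_div _ ((map_ne_zero_iff _ hinjb).mpr ha) ((map_ne_zero_iff _ hinjb).mpr hb)]

/-- **(ii-base), exact-support form**: for any finite set `T` which is exactly the set of places
centred at `𝔫` at which `y = a / b` has nonzero order. -/
theorem chart_sum_ord_div_of_finset (ρ : B →+* Bb) (hρ : Function.Surjective ρ) {π : R₁}
    (hπ : Irreducible π) (hker : RingHom.ker ρ = Ideal.span {algebraMap R₁ B π})
    (hπB : Prime (algebraMap R₁ B π)) (w : HeightOneSpectrum Bb) (a b : B) (ha : ρ a ≠ 0)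
    (hb : ρ b ≠ 0)
    (hrat : ∀ P : Place K₁ E, CentredAt (w.asIdeal.comap ρ) P →
      (0 < P.ord (algebraMap B E a) ∨ 0 < P.ord (algebraMap B E b)) → IsRationalPlace P)
    (T : Finset (Place K₁ E))
    (hT : ∀ P : Place K₁ E, P ∈ T ↔ CentredAt (w.asIdeal.comap ρ) P ∧
      P.ord (algebraMap B E a / algebraMap B E b) ≠ 0) :
    ∑ P ∈ T, P.ord (algebraMap B E a / algebraMap B E b) =
      (placeOf (k := k) (F := Et) w).ord (algebraMap Bb Et (ρ a) / algebraMap Bb Et (ρ b)) := by
  obtain ⟨S, hS1, hS2, hS3⟩ := chart_sum_ord_div (k := k) (Et := Et) ρ hρ hπ hker hπB w a b ha hb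
    hrat
  rw [← hS3]
  apply Finset.sum_subset
  · intro P hP
    exact hS2 P ((hT P).mp hP).1 ((hT P).mp hP).2
  · intro P hP hnot
    by_contra hne
    exact hnot ((hT P).mpr ⟨hS1 P hP, hne⟩)

omit [IsNoetherianRing B] [Algebra R₁ B] [IsDomain B] in
/-- every maximal ideal `𝔫 ⊋ ker ρ` of the chart is `ρ⁻¹(w)` for a unique maximal ideal `w` of
`B̄`. -/
theorem exists_heightOneSpectrum_comap_eq (ρ : B →+* Bb) (hρ : Function.Surjective ρ)
    (𝔫 : Ideal B) [h𝔫 : 𝔫.IsMaximal] (hle : RingHom.ker ρ ≤ 𝔫) (hne : 𝔫 ≠ RingHom.ker ρ) :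
    ∃ w : HeightOneSpectrum Bb, w.asIdeal.comap ρ = 𝔫 := by
  have hmax : (𝔫.map ρ).IsMaximal := Ideal.IsMaximal.map_of_surjective_of_ker_le hρ hle
  have hbot : 𝔫.map ρ ≠ ⊥ := by
    intro h0
    exact hne (le_antisymm ((Ideal.map_eq_bot_iff_le_ker ρ).mp h0) hle)
  refine ⟨⟨𝔫.map ρ, hmax.isPrime, hbot⟩, ?_⟩
  show (𝔫.map ρ).comap ρ = 𝔫
  rw [Ideal.comap_map_of_surjective ρ hρ]
  exact sup_eq_left.mpr hle

end ChartMain

end Fermat.Agent.JA
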