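/-
J-A third wave, package REDO (helper1) — **(R4a)**: RESTRICTION of places along an algebraic
extension of the constant field.  Abstract setting of helper9's `exists_place_ord_eq`:
`K₁ ⊆ Ω` algebraic (characteristic zero), `φ : E₁ → E_Ω` a field embedding compatible with
`K₁ → Ω` such that `E_Ω` is generated by `φ(E₁)` and `Ω`.  EVERY place `P` of `E_Ω/Ω` restricts
to a place `P₁` of `E₁/K₁` and `ord_P (φ x) = ord_{P₁} x` (ramification index one).
-/
import Fermat.Agent.JA.BC_helper9_Place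
import Fermat.Prelude.Def_AlgebraicCurve_DivisorPushPull

set_option autoImplicit false
set_option linter.unusedSectionVars false
set_option linter.style.haveILetI false

open Polynomial IsLocalRing AlgebraicCurve

namespace Fermat.Agent.JA

section RestrictBC

variable {K₁ Ω E₁ EΩ : Type*} [Field K₁] [Field Ω] [Algebra K₁ Ω] [Algebra.IsAlgebraic K₁ Ω]
  [Field E₁] [Algebra K₁ E₁] [Field EΩ] [Algebra Ω EΩ] [CharZero EΩ]

/-- `E_Ω` is algebraic over `φ(E₁)` (as `Ω/K₁` is algebraic and `E_Ω = φ(E₁)(Ω)`). -/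
theorem redo_isIntegral_of_gen (φ : E₁ →+* EΩ)
    (hφ : ∀ a : K₁, φ (algebraMap K₁ E₁ a) = algebraMap Ω EΩ (algebraMap K₁ Ω a))
    (hgen : Subfield.closure (Set.range φ ∪ Set.range (algebraMap Ω EΩ)) = ⊤) :
    letI : Algebra E₁ EΩ := φ.toAlgebra
    Algebra.IsIntegral E₁ EΩ := by
  letI a1 : Algebra K₁ EΩ := ((algebraMap Ω EΩ).comp (algebraMap K₁ Ω)).toAlgebra
  letI a2 : Algebra E₁ EΩ := φ.toAlgebra
  haveI t1 : IsScalarTower K₁ Ω EΩ := IsScalarTower.of_algebraMap_eq (fun _ => rfl)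
  haveI t2 : IsScalarTower K₁ E₁ EΩ := IsScalarTower.of_algebraMap_eq (fun a => (hφ a).symm)
  refine ⟨fun z => ?_⟩
  have hz : z ∈ (algebraicClosure E₁ EΩ).toSubfield := by
    have hle : Subfield.closure (Set.range φ ∪ Set.range (algebraMap Ω EΩ)) ≤
        (algebraicClosure E₁ EΩ).toSubfield := by
      rw [Subfield.closure_le]
      rintro x (⟨y, rfl⟩ | ⟨c, rfl⟩)
      · exact (algebraicClosure E₁ EΩ).algebraMap_mem y
      · show algebraMap Ω EΩ c ∈ algebraicClosure E₁ EΩ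
        rw [mem_algebraicClosure_iff']
        have hc : IsIntegral K₁ c := Algebra.IsIntegral.isIntegral c
        have hc' : IsIntegral K₁ (algebraMap Ω EΩ c) := hc.algebraMap
        exact hc'.tower_top
    rw [hgen] at hle
    exact hle (Subfield.mem_top z)
  exact (mem_algebraicClosure_iff'.1 hz)

/-- **(R4a)** every place of `E_Ω/Ω` restricts to a place of `E₁/K₁`, with ramification index
one. -/
theorem exists_place_comap_ord_eq (φ : E₁ →+* EΩ)
    (hφ : ∀ a : K₁, φ (algebraMap K₁ E₁ a) = algebraMap Ω EΩ (algebraMap K₁ Ω a))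
    (hgen : Subfield.closure (Set.range φ ∪ Set.range (algebraMap Ω EΩ)) = ⊤)
    (P : Place Ω EΩ) :
    ∃ P₁ : Place K₁ E₁, P₁.toValuationSubring = P.toValuationSubring.comap φ ∧
      ∀ x : E₁, P.ord (φ x) = P₁.ord x := by
  classical
  letI a1 : Algebra K₁ EΩ := ((algebraMap Ω EΩ).comp (algebraMap K₁ Ω)).toAlgebra
  letI a2 : Algebra E₁ EΩ := φ.toAlgebra
  haveI t1 : IsScalarTower K₁ Ω EΩ := IsScalarTower.of_algebraMap_eq (fun _ => rfl)
  haveI t2 : IsScalarTower K₁ E₁ EΩ := IsScalarTower.of_algebraMap_eq (fun a => (hφ a).symm)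
  haveI hint0 : Algebra.IsIntegral E₁ EΩ := redo_isIntegral_of_gen φ hφ hgen
  let P' : Place K₁ EΩ :=
    { toValuationSubring := P.toValuationSubring
      algebraMap_mem' := fun a => P.algebraMap_mem' (algebraMap K₁ Ω a)
      ne_top' := P.ne_top'
      isPrincipalIdealRing' := P.isPrincipalIdealRing' }
  let P₁ : Place K₁ E₁ := P'.restrict E₁
  set PV : ValuationSubring EΩ := P.toValuationSubring with hPVdef
  set V₁ : ValuationSubring E₁ := P₁.toValuationSubring with hV₁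
  have hPV : PV.comap φ = V₁ := rfl
  have hmemPV : ∀ x : E₁, φ x ∈ PV ↔ x ∈ V₁ := fun x => by
    rw [← hPV, ValuationSubring.mem_comap]
  obtain ⟨ϖ₁, hϖ₁⟩ := IsDiscreteValuationRing.exists_irreducible ↥V₁
  set ϖ : EΩ := φ (ϖ₁ : E₁) with hϖ
  have hϖ₁0 : (ϖ₁ : E₁) ≠ 0 := fun h => hϖ₁.ne_zero (Subtype.ext h)
  have hϖ0 : ϖ ≠ 0 := (map_ne_zero φ).2 hϖ₁0
  have hϖP : ϖ ∈ PV := (hmemPV _).2 ϖ₁.2
  have hpos := valuation_pos (P := PV) hϖ0
  have hϖ1 : PV.valuation ϖ < 1 := by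
    rcases lt_or_eq_of_le ((PV.valuation_le_one_iff ϖ).2 hϖP) with h | h
    · exact h
    · exfalso
      have h1 : PV.valuation ϖ⁻¹ ≤ 1 := by rw [map_inv₀, h, inv_one]
      have h2 : φ ((ϖ₁ : E₁)⁻¹) ∈ PV := by
        rw [map_inv₀]
        exact (PV.valuation_le_one_iff _).1 h1
      have h3 : (ϖ₁ : E₁)⁻¹ ∈ V₁ := (hmemPV _).1 h2
      apply hϖ₁.not_isUnit
      refine IsUnit.of_mul_eq_one ⟨_, h3⟩ ?_
      apply Subtype.ext
      exact mul_inv_cancel₀ hϖ₁0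
  -- the restriction of `φ` to the valuation rings
  let ψ : ↥V₁ →+* ↥PV := (φ.comp V₁.subtype).codRestrict PV (fun x => (hmemPV _).2 x.2)
  have hψ : ∀ x : ↥V₁, ((ψ x : ↥PV) : EΩ) = φ (x : E₁) := fun x => rfl
  -- the subfields
  set F' : Subfield EΩ := φ.fieldRange with hF'
  set K₀ : Subfield EΩ := ((algebraMap Ω EΩ).comp (algebraMap K₁ Ω)).fieldRange with hK₀
  have hϖF : ϖ ∈ F' := ⟨_, rfl⟩
  have hK₀F : K₀ ≤ F' := by
    rintro x ⟨a, rfl⟩
    exact ⟨algebraMap K₁ E₁ a, hφ a⟩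
  have hK₀P : ∀ x ∈ K₀, x ∈ PV := by
    rintro x ⟨a, rfl⟩
    exact P.algebraMap_mem' (algebraMap K₁ Ω a)
  have hint : ∀ a : Ω, IsIntegral ↥K₀ (algebraMap Ω EΩ a) := by
    intro a
    obtain ⟨p, hp, hpa⟩ := Algebra.IsIntegral.isIntegral (R := K₁) a
    let ψ₀ : K₁ →+* ↥K₀ := ((algebraMap Ω EΩ).comp (algebraMap K₁ Ω)).rangeRestrictField
    refine ⟨p.map ψ₀, hp.map ψ₀, ?_⟩
    rw [Polynomial.eval₂_map]
    have h1 : (algebraMap ↥K₀ EΩ).comp ψ₀ = (algebraMap Ω EΩ).comp (algebraMap K₁ Ω) := rfl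
    rw [h1, ← Polynomial.hom_eval₂, hpa, map_zero]
  have hunitval : ∀ u : (↥V₁)ˣ, PV.valuation (φ ((u : ↥V₁) : E₁)) = 1 := by
    intro u
    exact PV.valuation_unit (Units.map (ψ : ↥V₁ →* ↥PV) u)
  have hgood : ValGood PV ϖ F' := by
    rintro x ⟨y, rfl⟩ hx0
    have hy0 : y ≠ 0 := fun h => hx0 (by rw [h, map_zero])
    obtain ⟨u, hu⟩ := P₁.exists_unit_mul_zpow hy0 hϖ₁
    refine ⟨P₁.ord y, ?_⟩
    conv_lhs => rw [hu]
    rw [map_mul, map_zpow₀, map_mul, map_zpow₀, hunitval, one_mul]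
  have hgen' : Subfield.closure ((F' : Set EΩ) ∪ Set.range (algebraMap Ω EΩ)) = ⊤ := by
    rw [hF', RingHom.coe_fieldRange]
    exact hgen
  have hgoodtop := valGood_top hϖ1 hϖ0 F' hϖF hgood K₀ hK₀F hK₀P hint hgen'
  have hirr := irreducible_of_valGood_top hϖ1 hϖ0 hgoodtop
  refine ⟨P₁, rfl, fun x => ?_⟩
  by_cases hx0 : x = 0
  · rw [hx0, map_zero, Place.ord_zero, Place.ord_zero]
  · obtain ⟨u, hu⟩ := P₁.exists_unit_mul_zpow hx0 hϖ₁
    have h1 : φ x = (((Units.map (ψ : ↥V₁ →* ↥PV) u : (↥PV)ˣ) : ↥PV) : EΩ) *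
        (((⟨ϖ, (PV.valuation_le_one_iff ϖ).1 hϖ1.le⟩ : ↥PV) : EΩ) ^ (P₁.ord x)) := by
      conv_lhs => rw [hu]
      rw [map_mul, map_zpow₀]
      rfl
    rw [h1]
    exact P.ord_unit_smul_zpow (Units.map (ψ : ↥V₁ →* ↥PV) u) hirr (P₁.ord x)

end RestrictBC

end Fermat.Agent.JA
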