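/-
J-A third wave, package REDO (helper1) — **(R4c)**: a RATIONAL place of `E₁/K₁` has at most one
extension to `E_Ω/Ω` (abstract BC setting: `Ω/K₁` algebraic, `E_Ω = φ(E₁)(Ω)`).
Key point: for `c_j ∈ Ω` linearly independent over `K₁` and `x_j ∈ O_{P₁}` one of which is a unit,
`Σ φ(x_j) c_j` is a unit at every place above `P₁` (its value is `Σ x_j(P₁) c_j ≠ 0`).
-/
import Fermat.Agent.JA.REDO_helper1_Restrict
import Fermat.Agent.JA.REDA_helper1_Rational

set_option autoImplicit false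
set_option linter.unusedSectionVars false
set_option linter.style.haveILetI false

open Polynomial IsLocalRing AlgebraicCurve

namespace Fermat.Agent.JA

open Fermat.Agent.FF

section UniqueBC

variable {K₁ Ω E₁ EΩ : Type*} [Field K₁] [Field Ω] [Algebra K₁ Ω] [Algebra.IsAlgebraic K₁ Ω]
  [Field E₁] [Algebra K₁ E₁] [Field EΩ] [Algebra Ω EΩ] [CharZero EΩ]

/-- a place of `E_Ω` above `P₁` has the same `ord` on `φ(E₁)`. -/
theorem redo_ord_eq_of_comap_eq (φ : E₁ →+* EΩ)
    (hφ : ∀ a : K₁, φ (algebraMap K₁ E₁ a) = algebraMap Ω EΩ (algebraMap K₁ Ω a))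
    (hgen : Subfield.closure (Set.range φ ∪ Set.range (algebraMap Ω EΩ)) = ⊤)
    (P₁ : Place K₁ E₁) (P : Place Ω EΩ)
    (hP : P.toValuationSubring.comap φ = P₁.toValuationSubring) (x : E₁) :
    P.ord (φ x) = P₁.ord x := by
  obtain ⟨P₁', hP₁', hord⟩ := exists_place_comap_ord_eq φ hφ hgen P
  have : P₁' = P₁ := Place.ext (hP₁'.trans hP)
  rw [hord, this]

theorem redo_isZeroAt_map (φ : E₁ →+* EΩ)
    (hφ : ∀ a : K₁, φ (algebraMap K₁ E₁ a) = algebraMap Ω EΩ (algebraMap K₁ Ω a))
    (hgen : Subfield.closure (Set.range φ ∪ Set.range (algebraMap Ω EΩ)) = ⊤)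
    (P₁ : Place K₁ E₁) (P : Place Ω EΩ)
    (hP : P.toValuationSubring.comap φ = P₁.toValuationSubring) {x : E₁}
    (hx : Place.IsZeroAt P₁ x) : Place.IsZeroAt P (φ x) := by
  rcases hx with rfl | hx
  · left; exact map_zero φ
  · right; rwa [redo_ord_eq_of_comap_eq φ hφ hgen P₁ P hP]

theorem redo_not_isZeroAt_algebraMap (P : Place Ω EΩ) {γ : Ω} (hγ : γ ≠ 0) :
    ¬ Place.IsZeroAt P (algebraMap Ω EΩ γ) := by
  intro h
  rcases ((Place.isZeroAt_iff P _).mp h).2 with h0 | hinv
  · exact hγ ((map_eq_zero _).mp h0)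
  · apply hinv
    rw [← map_inv₀]
    exact P.algebraMap_mem' _

/-- the key unit lemma. -/
theorem redo_not_isZeroAt_sum (φ : E₁ →+* EΩ)
    (hφ : ∀ a : K₁, φ (algebraMap K₁ E₁ a) = algebraMap Ω EΩ (algebraMap K₁ Ω a))
    (hgen : Subfield.closure (Set.range φ ∪ Set.range (algebraMap Ω EΩ)) = ⊤)
    {ι : Type*} (b : ι → Ω) (hb : LinearIndependent K₁ b)
    (P₁ : Place K₁ E₁) (hrat : IsRationalPlace P₁) (P : Place Ω EΩ)
    (hP : P.toValuationSubring.comap φ = P₁.toValuationSubring)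
    (s : Finset ι) (x : ι → E₁) (hx : ∀ j ∈ s, x j ∈ P₁.toValuationSubring)
    (j₀ : ι) (hj₀ : j₀ ∈ s) (hunit : ¬ Place.IsZeroAt P₁ (x j₀)) :
    ¬ Place.IsZeroAt P (∑ j ∈ s, φ (x j) * algebraMap Ω EΩ (b j)) := by
  classical
  have hex : ∀ j, ∃ c : K₁, j ∈ s → Place.IsZeroAt P₁ (x j - algebraMap K₁ E₁ c) := by
    intro j
    by_cases hj : j ∈ s
    · obtain ⟨c, hc⟩ := hrat (x j) (hx j hj)
      exact ⟨c, fun _ => hc⟩
    · exact ⟨0, fun h => absurd h hj⟩
  choose a ha using hex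
  set γ : Ω := ∑ j ∈ s, a j • b j with hγdef
  have hγ : γ ≠ 0 := by
    intro h0
    have h1 := linearIndependent_iff'.1 hb s a h0 j₀ hj₀
    apply hunit
    have := ha j₀ hj₀
    rwa [h1, map_zero, sub_zero] at this
  have hsplit : (∑ j ∈ s, φ (x j) * algebraMap Ω EΩ (b j)) =
      (∑ j ∈ s, φ (x j - algebraMap K₁ E₁ (a j)) * algebraMap Ω EΩ (b j)) +
        algebraMap Ω EΩ γ := by
    rw [hγdef, map_sum, ← Finset.sum_add_distrib]
    refine Finset.sum_congr rfl fun j _ => ?_
    rw [map_sub, hφ, sub_mul, Algebra.smul_def, map_mul]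
    ring
  have hm : Place.IsZeroAt P
      (∑ j ∈ s, φ (x j - algebraMap K₁ E₁ (a j)) * algebraMap Ω EΩ (b j)) := by
    refine Finset.sum_induction _ (Place.IsZeroAt P) (fun _ _ h h' => h.add h')
      (Place.isZeroAt_zero P) fun j hj => ?_
    rw [mul_comm]
    exact (redo_isZeroAt_map φ hφ hgen P₁ P hP (ha j hj)).mul_mem (P.algebraMap_mem' (b j))
  intro hZ
  apply redo_not_isZeroAt_algebraMap P hγ
  have := hZ.add hm.neg
  rwa [hsplit, add_comm, neg_add_cancel_left] at this

/-- representation of the elements of `E_Ω` as `φ(E₁)`-combinations of a `K₁`-basis of `Ω`. -/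
theorem redo_exists_sum_repr (φ : E₁ →+* EΩ)
    (hφ : ∀ a : K₁, φ (algebraMap K₁ E₁ a) = algebraMap Ω EΩ (algebraMap K₁ Ω a))
    (hgen : Subfield.closure (Set.range φ ∪ Set.range (algebraMap Ω EΩ)) = ⊤)
    {ι : Type*} (b : Module.Basis ι K₁ Ω) (z : EΩ) :
    ∃ (s : Finset ι) (x : ι → E₁), z = ∑ j ∈ s, φ (x j) * algebraMap Ω EΩ (b j) := by
  classical
  letI a1 : Algebra K₁ EΩ := ((algebraMap Ω EΩ).comp (algebraMap K₁ Ω)).toAlgebra
  letI a2 : Algebra E₁ EΩ := φ.toAlgebra
  haveI t1 : IsScalarTower K₁ Ω EΩ := IsScalarTower.of_algebraMap_eq (fun _ => rfl)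
  haveI t2 : IsScalarTower K₁ E₁ EΩ := IsScalarTower.of_algebraMap_eq (fun a => (hφ a).symm)
  haveI hint0 : Algebra.IsIntegral E₁ EΩ := redo_isIntegral_of_gen φ hφ hgen
  have h1 : Algebra.adjoin E₁ (Set.range (algebraMap Ω EΩ)) = ⊤ := by
    have halg : ∀ x ∈ Set.range (algebraMap Ω EΩ), IsAlgebraic E₁ x :=
      fun x _ => (Algebra.IsIntegral.isIntegral x).isAlgebraic
    have h3 : IntermediateField.adjoin E₁ (Set.range (algebraMap Ω EΩ)) = ⊤ := by
      apply IntermediateField.toSubfield_injective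
      exact hgen
    exact (IntermediateField.adjoin_eq_top_iff_of_isAlgebraic halg).1 h3
  have h4 : Submodule.span E₁ (Set.range (algebraMap Ω EΩ)) = ⊤ := by
    have := Algebra.adjoin_eq_span (R := E₁) (Set.range (algebraMap Ω EΩ))
    rw [h1] at this
    have hcl : (Submonoid.closure (Set.range (algebraMap Ω EΩ)) : Set EΩ) =
        Set.range (algebraMap Ω EΩ) := by
      have : Set.range (algebraMap Ω EΩ) =
          ((MonoidHom.mrange (algebraMap Ω EΩ : Ω →* EΩ) : Submonoid EΩ) : Set EΩ) := by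
        rw [MonoidHom.coe_mrange]; rfl
      rw [this, Submonoid.closure_eq]
    rw [hcl] at this
    rw [← this]; rfl
  have h5 : Submodule.span E₁ (Set.range fun j => algebraMap Ω EΩ (b j)) = ⊤ := by
    rw [eq_top_iff, ← h4, Submodule.span_le]
    rintro _ ⟨c, rfl⟩
    have hc : c = ∑ j ∈ (b.repr c).support, (b.repr c j) • b j := by
      conv_lhs => rw [← b.linearCombination_repr c]
      rw [Finsupp.linearCombination_apply, Finsupp.sum]
    rw [hc, map_sum]
    refine Submodule.sum_mem _ fun j _ => ?_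
    have : algebraMap Ω EΩ (b.repr c j • b j) =
        (algebraMap K₁ E₁ (b.repr c j)) • algebraMap Ω EΩ (b j) := by
      rw [Algebra.smul_def, map_mul, Algebra.smul_def]
      congr 1
      exact (hφ _).symm
    rw [this]
    exact Submodule.smul_mem _ _ (Submodule.subset_span ⟨j, rfl⟩)
  have hz : z ∈ Submodule.span E₁ (Set.range fun j => algebraMap Ω EΩ (b j)) := by
    rw [h5]; exact Submodule.mem_top
  obtain ⟨c, hc⟩ := Finsupp.mem_span_range_iff_exists_finsupp.1 hz
  refine ⟨c.support, c, ?_⟩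
  rw [← hc, Finsupp.sum]
  refine Finset.sum_congr rfl fun j _ => ?_
  rw [Algebra.smul_def]
  rfl

/-- one inclusion of the valuation rings of two places above a rational place. -/
theorem redo_le_of_rational (φ : E₁ →+* EΩ)
    (hφ : ∀ a : K₁, φ (algebraMap K₁ E₁ a) = algebraMap Ω EΩ (algebraMap K₁ Ω a))
    (hgen : Subfield.closure (Set.range φ ∪ Set.range (algebraMap Ω EΩ)) = ⊤)
    (P₁ : Place K₁ E₁) (hrat : IsRationalPlace P₁) (P P' : Place Ω EΩ)
    (hP : P.toValuationSubring.comap φ = P₁.toValuationSubring)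
    (hP' : P'.toValuationSubring.comap φ = P₁.toValuationSubring) :
    P.toValuationSubring ≤ P'.toValuationSubring := by
  classical
  intro z hz
  set b := Module.Basis.ofVectorSpace K₁ Ω with hbdef
  obtain ⟨s, x, rfl⟩ := redo_exists_sum_repr φ hφ hgen b z
  have hmemP' : ∀ y : E₁, y ∈ P₁.toValuationSubring → φ y ∈ P'.toValuationSubring := by
    intro y hy
    rw [← hP'] at hy
    exact hy
  have hmemP : ∀ y : E₁, φ y ∈ P.toValuationSubring → y ∈ P₁.toValuationSubring := by
    intro y hy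
    rw [← hP]
    exact hy
  set s' := s.filter (fun j => x j ≠ 0) with hs'
  by_cases hne : s'.Nonempty
  · obtain ⟨j₀, hj₀s', hmin⟩ := Finset.exists_min_image s' (fun j => P₁.ord (x j)) hne
    have hj₀s : j₀ ∈ s := (Finset.mem_filter.1 hj₀s').1
    have hxj₀ : x j₀ ≠ 0 := (Finset.mem_filter.1 hj₀s').2
    set x' : _ → E₁ := fun j => x j / x j₀ with hx'def
    have hx' : ∀ j ∈ s, x' j ∈ P₁.toValuationSubring := by
      intro j hj
      by_cases hxj : x j = 0
      · simp only [hx'def, hxj, zero_div]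
        exact P₁.toValuationSubring.zero_mem
      · have hj' : j ∈ s' := Finset.mem_filter.2 ⟨hj, hxj⟩
        have h1 := hmin j hj'
        have hne0 : x j / x j₀ ≠ 0 := div_ne_zero hxj hxj₀
        rw [PlaceAux.mem_iff_ord_nonneg' P₁ hne0, div_eq_mul_inv,
          P₁.ord_mul hxj (inv_ne_zero hxj₀), P₁.ord_inv]
        omega
    have hone : x' j₀ = 1 := div_self hxj₀
    have hunit : ¬ Place.IsZeroAt P₁ (x' j₀) := by
      rw [hone]
      intro h
      rcases h with h | h
      · exact one_ne_zero h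
      · rw [P₁.ord_one] at h; exact lt_irrefl _ h
    have hZ : (∑ j ∈ s, φ (x j) * algebraMap Ω EΩ (b j)) =
        (∑ j ∈ s, φ (x' j) * algebraMap Ω EΩ (b j)) * φ (x j₀) := by
      rw [Finset.sum_mul]
      refine Finset.sum_congr rfl fun j _ => ?_
      have : x j = x' j * x j₀ := by
        simp only [hx'def]; rw [div_mul_cancel₀ _ hxj₀]
      conv_lhs => rw [this, map_mul]
      ring
    set Z' : EΩ := ∑ j ∈ s, φ (x' j) * algebraMap Ω EΩ (b j) with hZ'def
    have hZ'P : ¬ Place.IsZeroAt P Z' :=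
      redo_not_isZeroAt_sum φ hφ hgen b b.linearIndependent P₁ hrat P hP s x' hx' j₀ hj₀s hunit
    have hZ'memP : Z' ∈ P.toValuationSubring := by
      refine Subring.sum_mem _ fun j hj => ?_
      refine Subring.mul_mem _ ?_ (P.algebraMap_mem' _)
      have := hx' j hj
      rw [← hP] at this
      exact this
    have hZ'memP' : Z' ∈ P'.toValuationSubring := by
      refine Subring.sum_mem _ fun j hj => ?_
      exact Subring.mul_mem _ (hmemP' _ (hx' j hj)) (P'.algebraMap_mem' _)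
    have hZ'0 : Z' ≠ 0 := fun h => hZ'P (Or.inl h)
    have hZ'inv : Z'⁻¹ ∈ P.toValuationSubring := by
      by_contra hcon
      exact hZ'P ((Place.isZeroAt_iff P Z').mpr ⟨hZ'memP, Or.inr hcon⟩)
    have hφmem : φ (x j₀) ∈ P.toValuationSubring := by
      have : φ (x j₀) = (∑ j ∈ s, φ (x j) * algebraMap Ω EΩ (b j)) * Z'⁻¹ := by
        rw [hZ, mul_comm Z', mul_assoc, mul_inv_cancel₀ hZ'0, mul_one]
      rw [this]
      exact Subring.mul_mem _ hz hZ'inv
    rw [hZ]
    exact Subring.mul_mem _ hZ'memP' (hmemP' _ (hmemP _ hφmem))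
  · have hall : ∀ j ∈ s, x j = 0 := by
      intro j hj
      by_contra hxj
      exact hne ⟨j, Finset.mem_filter.2 ⟨hj, hxj⟩⟩
    have : (∑ j ∈ s, φ (x j) * algebraMap Ω EΩ (b j)) = 0 := by
      refine Finset.sum_eq_zero fun j hj => ?_
      rw [hall j hj, map_zero, zero_mul]
    rw [this]
    exact P'.toValuationSubring.zero_mem

/-- **(R4c)** a rational place has at most one extension along a constant-field extension. -/
theorem place_ext_unique_of_rational (φ : E₁ →+* EΩ)
    (hφ : ∀ a : K₁, φ (algebraMap K₁ E₁ a) = algebraMap Ω EΩ (algebraMap K₁ Ω a))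
    (hgen : Subfield.closure (Set.range φ ∪ Set.range (algebraMap Ω EΩ)) = ⊤)
    (P₁ : Place K₁ E₁) (hrat : IsRationalPlace P₁) (P P' : Place Ω EΩ)
    (hP : P.toValuationSubring.comap φ = P₁.toValuationSubring)
    (hP' : P'.toValuationSubring.comap φ = P₁.toValuationSubring) : P = P' :=
  Place.ext (le_antisymm (redo_le_of_rational φ hφ hgen P₁ hrat P P' hP hP')
    (redo_le_of_rational φ hφ hgen P₁ hrat P' P hP' hP))

end UniqueBC

end Fermat.Agent.JA
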