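/-
J-A third wave, package REDO (helper1) — **(ii-Ω)**: the order formula of (ii-base)
(`chart_sum_ord_div`) transported to the places of `E_Ω/Ω` along a constant-field extension
`φ : E → E_Ω` (`Ω/K₁` algebraic, `E_Ω = φ(E)(Ω)`): the places `P` of `E_Ω/Ω` centred at the point
`𝔫 = ρ⁻¹(w)` of the chart `B` (i.e. `φ(B) ⊂ O_P`, `φ(B ∖ 𝔫) ⊂ O_Pˣ`) at which `φ(a/b)` has nonzero
order correspond bijectively to the `K₁`-places with the same property (all rational), with the same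
orders; hence `∑_P ord_P φ(a/b) = ord_{Q_w}(ã/b̃)`.
-/
import Fermat.Agent.JA.REDO_helper1_Unique
import Fermat.Agent.JA.REDA_helper1_Main

set_option autoImplicit false
set_option linter.unusedSectionVars false
set_option linter.style.haveILetI false

open AlgebraicCurve IsLocalRing IsDedekindDomain

namespace Fermat.Agent.JA

open Fermat.Agent.FF

section RestrictDef

variable {K₁ Ω E₁ EΩ : Type*} [Field K₁] [Field Ω] [Algebra K₁ Ω] [Algebra.IsAlgebraic K₁ Ω]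
  [Field E₁] [Algebra K₁ E₁] [Field EΩ] [Algebra Ω EΩ] [CharZero EΩ]

/-- the restriction of a place of `E_Ω/Ω` to `E₁/K₁`. -/
noncomputable def restrictBC (φ : E₁ →+* EΩ)
    (hφ : ∀ a : K₁, φ (algebraMap K₁ E₁ a) = algebraMap Ω EΩ (algebraMap K₁ Ω a))
    (hgen : Subfield.closure (Set.range φ ∪ Set.range (algebraMap Ω EΩ)) = ⊤)
    (P : Place Ω EΩ) : Place K₁ E₁ :=
  (exists_place_comap_ord_eq φ hφ hgen P).choose

theorem restrictBC_toValuationSubring (φ : E₁ →+* EΩ)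
    (hφ : ∀ a : K₁, φ (algebraMap K₁ E₁ a) = algebraMap Ω EΩ (algebraMap K₁ Ω a))
    (hgen : Subfield.closure (Set.range φ ∪ Set.range (algebraMap Ω EΩ)) = ⊤)
    (P : Place Ω EΩ) :
    (restrictBC φ hφ hgen P).toValuationSubring = P.toValuationSubring.comap φ :=
  (exists_place_comap_ord_eq φ hφ hgen P).choose_spec.1

theorem mem_restrictBC_iff (φ : E₁ →+* EΩ)
    (hφ : ∀ a : K₁, φ (algebraMap K₁ E₁ a) = algebraMap Ω EΩ (algebraMap K₁ Ω a))
    (hgen : Subfield.closure (Set.range φ ∪ Set.range (algebraMap Ω EΩ)) = ⊤)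
    (P : Place Ω EΩ) (x : E₁) :
    x ∈ (restrictBC φ hφ hgen P).toValuationSubring ↔ φ x ∈ P.toValuationSubring := by
  rw [restrictBC_toValuationSubring]
  exact ValuationSubring.mem_comap

theorem ord_restrictBC (φ : E₁ →+* EΩ)
    (hφ : ∀ a : K₁, φ (algebraMap K₁ E₁ a) = algebraMap Ω EΩ (algebraMap K₁ Ω a))
    (hgen : Subfield.closure (Set.range φ ∪ Set.range (algebraMap Ω EΩ)) = ⊤)
    (P : Place Ω EΩ) (x : E₁) :
    (restrictBC φ hφ hgen P).ord x = P.ord (φ x) :=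
  ((exists_place_comap_ord_eq φ hφ hgen P).choose_spec.2 x).symm

/-- a place `P₁` of `E₁/K₁` is the restriction of `P` as soon as `ord_P ∘ φ = ord_{P₁}`. -/
theorem restrictBC_eq_of_ord_eq (φ : E₁ →+* EΩ)
    (hφ : ∀ a : K₁, φ (algebraMap K₁ E₁ a) = algebraMap Ω EΩ (algebraMap K₁ Ω a))
    (hgen : Subfield.closure (Set.range φ ∪ Set.range (algebraMap Ω EΩ)) = ⊤)
    (P : Place Ω EΩ) (P₁ : Place K₁ E₁) (h : ∀ x : E₁, P.ord (φ x) = P₁.ord x) :
    restrictBC φ hφ hgen P = P₁ := by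
  apply Place.ext
  ext x
  rw [mem_restrictBC_iff]
  by_cases hx : x = 0
  · subst hx
    rw [map_zero]
    exact ⟨fun _ => P₁.toValuationSubring.zero_mem, fun _ => P.toValuationSubring.zero_mem⟩
  · have hφx : φ x ≠ 0 := (map_ne_zero φ).2 hx
    rw [PlaceAux.mem_iff_ord_nonneg' P hφx, PlaceAux.mem_iff_ord_nonneg' P₁ hx, h]

/-- every place of `E₁/K₁` is the restriction of a place of `E_Ω/Ω` (helper9's (BC2)). -/
theorem exists_restrictBC_eq (φ : E₁ →+* EΩ)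
    (hφ : ∀ a : K₁, φ (algebraMap K₁ E₁ a) = algebraMap Ω EΩ (algebraMap K₁ Ω a))
    (hgen : Subfield.closure (Set.range φ ∪ Set.range (algebraMap Ω EΩ)) = ⊤)
    (P₁ : Place K₁ E₁) : ∃ P : Place Ω EΩ, restrictBC φ hφ hgen P = P₁ := by
  obtain ⟨P, hP⟩ := exists_place_ord_eq φ hφ hgen P₁
  exact ⟨P, restrictBC_eq_of_ord_eq φ hφ hgen P P₁ hP⟩

/-- **(R4c)**, `restrictBC` form: `restrictBC` is injective over the rational places. -/
theorem restrictBC_injOn_rational (φ : E₁ →+* EΩ)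
    (hφ : ∀ a : K₁, φ (algebraMap K₁ E₁ a) = algebraMap Ω EΩ (algebraMap K₁ Ω a))
    (hgen : Subfield.closure (Set.range φ ∪ Set.range (algebraMap Ω EΩ)) = ⊤)
    (P P' : Place Ω EΩ) (hrat : IsRationalPlace (restrictBC φ hφ hgen P))
    (h : restrictBC φ hφ hgen P = restrictBC φ hφ hgen P') : P = P' :=
  place_ext_unique_of_rational φ hφ hgen (restrictBC φ hφ hgen P) hrat P P'
    (restrictBC_toValuationSubring φ hφ hgen P).symm
    (by rw [h]; exact (restrictBC_toValuationSubring φ hφ hgen P').symm)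

end RestrictDef

section SumBC

variable {R₁ : Type*} [CommRing R₁] [IsDomain R₁] [IsDiscreteValuationRing R₁]
  {K₁ : Type*} [Field K₁] [Algebra R₁ K₁] [IsFractionRing R₁ K₁]
  {E : Type*} [Field E] [Algebra K₁ E] [Algebra R₁ E] [IsScalarTower R₁ K₁ E]
  {B : Type*} [CommRing B] [IsDomain B] [IsNoetherianRing B] [Algebra R₁ B] [Algebra B E]
  [IsScalarTower R₁ B E] [IsFractionRing B E]
  {k Et : Type*} [Field k] [Field Et] [Algebra k Et]
  {Bb : Type*} [CommRing Bb] [IsDedekindDomain Bb] [Algebra k Bb] [Algebra Bb Et]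
  [IsFractionRing Bb Et] [IsScalarTower k Bb Et]
  {Ω EΩ : Type*} [Field Ω] [Algebra K₁ Ω] [Algebra.IsAlgebraic K₁ Ω]
  [Field EΩ] [Algebra Ω EΩ] [CharZero EΩ]

/-- the place `P` of `E_Ω/Ω` is centred at the prime `𝔫` of the chart `B ⊂ E` (via `φ`). -/
def CentredAtBC (φ : E →+* EΩ) (𝔫 : Ideal B) (P : Place Ω EΩ) : Prop :=
  (∀ x : B, φ (algebraMap B E x) ∈ P.toValuationSubring) ∧
    ∀ x : B, x ∉ 𝔫 → (φ (algebraMap B E x))⁻¹ ∈ P.toValuationSubring

omit [IsDomain R₁] [IsDiscreteValuationRing R₁] [IsFractionRing R₁ K₁] [Algebra R₁ E]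
  [IsScalarTower R₁ K₁ E] [IsDomain B] [IsNoetherianRing B] [Algebra R₁ B] [IsScalarTower R₁ B E]
  [IsFractionRing B E] [Algebra R₁ K₁] in
theorem centredAt_restrictBC_iff (φ : E →+* EΩ)
    (hφ : ∀ a : K₁, φ (algebraMap K₁ E a) = algebraMap Ω EΩ (algebraMap K₁ Ω a))
    (hgen : Subfield.closure (Set.range φ ∪ Set.range (algebraMap Ω EΩ)) = ⊤)
    (𝔫 : Ideal B) (P : Place Ω EΩ) :
    CentredAt 𝔫 (restrictBC φ hφ hgen P) ↔ CentredAtBC φ 𝔫 P := by
  unfold CentredAt CentredAtBC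
  simp only [mem_restrictBC_iff, map_inv₀]

/-- **(ii-Ω)**: for `a, b ∈ B` with nonzero reductions, all of whose zeros (over `K₁`) centred at
`𝔫 = ρ⁻¹(w)` are rational, and any finite set `T` which is exactly the set of places of `E_Ω/Ω`
centred at `𝔫` at which `φ(a/b)` has nonzero order: `∑_{P ∈ T} ord_P φ(a/b) = ord_{Q_w}(ã/b̃)`. -/
theorem chart_sum_ord_div_bc (ρ : B →+* Bb) (hρ : Function.Surjective ρ) {π : R₁}
    (hπ : Irreducible π) (hker : RingHom.ker ρ = Ideal.span {algebraMap R₁ B π})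
    (hπB : Prime (algebraMap R₁ B π)) (w : HeightOneSpectrum Bb) (a b : B) (ha : ρ a ≠ 0)
    (hb : ρ b ≠ 0)
    (hrat : ∀ P : Place K₁ E, CentredAt (w.asIdeal.comap ρ) P →
      (0 < P.ord (algebraMap B E a) ∨ 0 < P.ord (algebraMap B E b)) → IsRationalPlace P)
    (φ : E →+* EΩ)
    (hφ : ∀ c : K₁, φ (algebraMap K₁ E c) = algebraMap Ω EΩ (algebraMap K₁ Ω c))
    (hgen : Subfield.closure (Set.range φ ∪ Set.range (algebraMap Ω EΩ)) = ⊤)
    (T : Finset (Place Ω EΩ))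
    (hT : ∀ P : Place Ω EΩ, P ∈ T ↔ CentredAtBC φ (w.asIdeal.comap ρ) P ∧
      P.ord (φ (algebraMap B E a / algebraMap B E b)) ≠ 0) :
    ∑ P ∈ T, P.ord (φ (algebraMap B E a / algebraMap B E b)) =
      (placeOf (k := k) (F := Et) w).ord (algebraMap Bb Et (ρ a) / algebraMap Bb Et (ρ b)) := by
  classical
  have hinj : Function.Injective (algebraMap B E) := IsFractionRing.injective B E
  have ha0 : algebraMap B E a ≠ 0 :=
    (map_ne_zero_iff _ hinj).mpr (by rintro rfl; exact ha (map_zero ρ))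
  have hb0 : algebraMap B E b ≠ 0 :=
    (map_ne_zero_iff _ hinj).mpr (by rintro rfl; exact hb (map_zero ρ))
  obtain ⟨S, hS1, hS2, hS3⟩ := chart_sum_ord_div (k := k) (Et := Et) ρ hρ hπ hker hπB w a b ha hb
    hrat
  set T₁ : Finset (Place K₁ E) :=
    S.filter (fun P => P.ord (algebraMap B E a / algebraMap B E b) ≠ 0) with hT₁
  have hT₁mem : ∀ P : Place K₁ E, P ∈ T₁ ↔ CentredAt (w.asIdeal.comap ρ) P ∧
      P.ord (algebraMap B E a / algebraMap B E b) ≠ 0 := by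
    intro P
    rw [hT₁, Finset.mem_filter]
    exact ⟨fun h => ⟨hS1 P h.1, h.2⟩, fun h => ⟨hS2 P h.1 h.2, h.2⟩⟩
  have hsum₁ := chart_sum_ord_div_of_finset (k := k) (Et := Et) ρ hρ hπ hker hπB w a b ha hb hrat
    T₁ hT₁mem
  rw [← hsum₁]
  have hratT₁ : ∀ P ∈ T₁, IsRationalPlace P := by
    intro P hP
    obtain ⟨hc, hne⟩ := (hT₁mem P).mp hP
    apply hrat P hc
    rw [PlaceAux.ord_div P ha0 hb0] at hne
    have h1 := PlaceAux.ord_nonneg_of_mem P (hc.1 a)
    have h2 := PlaceAux.ord_nonneg_of_mem P (hc.1 b)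
    omega
  refine Finset.sum_bij (fun P _ => restrictBC φ hφ hgen P) ?_ ?_ ?_ ?_
  · intro P hP
    obtain ⟨hc, hne⟩ := (hT P).mp hP
    rw [hT₁mem, centredAt_restrictBC_iff, ord_restrictBC]
    exact ⟨hc, hne⟩
  · intro P hP P' hP' heq
    have hP₁ : restrictBC φ hφ hgen P ∈ T₁ := by
      obtain ⟨hc, hne⟩ := (hT P).mp hP
      rw [hT₁mem, centredAt_restrictBC_iff, ord_restrictBC]
      exact ⟨hc, hne⟩
    exact restrictBC_injOn_rational φ hφ hgen P P' (hratT₁ _ hP₁) heq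
  · intro P₁ hP₁
    obtain ⟨P, rfl⟩ := exists_restrictBC_eq φ hφ hgen P₁
    refine ⟨P, ?_, rfl⟩
    rw [hT₁mem, centredAt_restrictBC_iff, ord_restrictBC] at hP₁
    exact (hT P).mpr hP₁
  · intro P _
    rw [ord_restrictBC]

end SumBC

end Fermat.Agent.JA
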