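/-
J-A third wave, package R4 (base-change dictionary for places) — helper9. Part 2: rationality.

Setting of part 1 (`K₁ ⊂ Ω` algebraic, `φ : F₁ → FΩ`, `FΩ = Ω·φ(F₁)`, characteristic zero).

* `hasValueAt_restrictBC_iff`, `isZeroAt_restrictBC_iff` : values at the restriction of a place;
* `exists_hasValueAt_of_mem_closure` : **rationality step** — if the values at `P` of the functions
  of `F₁` regular at `P` lie in a subfield `K' ⊇ K₁` of `Ω`, so do the values of all functions of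
  `K'·φ(F₁)` regular at `P` (divided differences of minimal polynomials; no completions);
* `eq_of_restrictBC_eq_of_isRationalPlace` : **(UNIQ)** a rational place has a unique extension;
* `exists_finset_forall_hasValueAt` : **(FIN)** the values of `F₁` at a place of degree one lie in
  a finitely generated extension of `K₁` (finiteness of residue fields, `Coord.finiteResidue`);
* `isRationalPlace_restrictBC_of_forall_hasValueAt` : three-level form `K₁ ⊂ K₁' ⊂ Ω` of the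
  rationality step: `restrictBC φ' P` is a rational place of `F₁' / K₁'`.
-/
import Mathlib
import Fermat.Agent.JA.BCD_helper9_Restrict
import Fermat.Agent.JA.REDO_helper1_SumBC
import Fermat.Agent.JA.REDA_helper1_Eval
import Fermat.Agent.FF.Residue

set_option autoImplicit false
set_option linter.unusedSectionVars false
set_option linter.style.haveILetI false

open Polynomial IsLocalRing AlgebraicCurve

namespace Fermat.Agent.JA

open Fermat.Agent.FF

theorem HasValueAt.eval₂_algebraMap {K F : Type*} [Field K] [Field F] [Algebra K F]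
    {P : Place K F} {f : F} {c : K} (hf : HasValueAt P f c) (q : K[X]) :
    HasValueAt P (eval₂ (algebraMap K F) f q) (q.eval c) := by
  rw [eval₂_eq_sum_range, eval_eq_sum_range]
  apply HasValueAt.sum
  intro i _
  exact (HasValueAt.algebraMap' P _).mul (hf.pow i)

section Values

variable {K₁ Ω F₁ FΩ : Type*} [Field K₁] [Field Ω] [Algebra K₁ Ω] [Algebra.IsAlgebraic K₁ Ω]
  [Field F₁] [Algebra K₁ F₁] [Field FΩ] [Algebra Ω FΩ] [CharZero FΩ]
  (φ : F₁ →+* FΩ)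
  (hφ : ∀ a : K₁, φ (algebraMap K₁ F₁ a) = algebraMap Ω FΩ (algebraMap K₁ Ω a))
  (hgen : Subfield.closure (Set.range φ ∪ Set.range (algebraMap Ω FΩ)) = ⊤)

/-- values at the restriction of a place. -/
theorem hasValueAt_restrictBC_iff (P : Place Ω FΩ) (x : F₁) (c : K₁) :
    HasValueAt (restrictBC φ hφ hgen P) x c ↔ HasValueAt P (φ x) (algebraMap K₁ Ω c) := by
  rw [HasValueAt.iff_ord, HasValueAt.iff_ord, ord_restrictBC, map_sub, hφ, sub_eq_zero,
    sub_eq_zero, ← hφ]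
  constructor
  · rintro (h | h)
    · exact Or.inl (by rw [h])
    · exact Or.inr h
  · rintro (h | h)
    · exact Or.inl (φ.injective h)
    · exact Or.inr h

/-- vanishing at the restriction of a place. -/
theorem isZeroAt_restrictBC_iff (P : Place Ω FΩ) (x : F₁) :
    Place.IsZeroAt (restrictBC φ hφ hgen P) x ↔ Place.IsZeroAt P (φ x) := by
  unfold Place.IsZeroAt
  rw [ord_restrictBC, map_eq_zero]

end Values

section Local

variable {K₁ Ω F₁ FΩ : Type*} [Field K₁] [Field Ω] [Algebra K₁ Ω] [Algebra.IsAlgebraic K₁ Ω]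
  [Field F₁] [Algebra K₁ F₁] [Field FΩ] [Algebra Ω FΩ] [CharZero FΩ]
  (φ : F₁ →+* FΩ)
  (hφ : ∀ a : K₁, φ (algebraMap K₁ F₁ a) = algebraMap Ω FΩ (algebraMap K₁ Ω a))
  (P : Place Ω FΩ) (K' : Subfield Ω)

/-- the subring of `FΩ` generated by the image of the valuation ring of the restriction of `P`
and the constants in `K'`. -/
def bcRing : Subring FΩ :=
  Subring.closure (φ '' {x | φ x ∈ P.toValuationSubring} ∪ algebraMap Ω FΩ '' (K' : Set Ω))

variable {φ P K'}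

theorem map_mem_bcRing {x : F₁} (hx : φ x ∈ P.toValuationSubring) : φ x ∈ bcRing φ P K' :=
  Subring.subset_closure (Or.inl ⟨x, hx, rfl⟩)

theorem algebraMap_mem_bcRing {c : Ω} (hc : c ∈ K') : algebraMap Ω FΩ c ∈ bcRing φ P K' :=
  Subring.subset_closure (Or.inr ⟨c, hc, rfl⟩)

/-- every element of `bcRing` has a value in `K'`. -/
theorem exists_hasValueAt_of_mem_bcRing
    (hval : ∀ x : F₁, φ x ∈ P.toValuationSubring → ∃ c ∈ K', HasValueAt P (φ x) c)
    {a : FΩ} (ha : a ∈ bcRing φ P K') : ∃ c ∈ K', HasValueAt P a c := by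
  induction ha using Subring.closure_induction with
  | mem x hx =>
    rcases hx with ⟨y, hy, rfl⟩ | ⟨c, hc, rfl⟩
    · exact hval y hy
    · exact ⟨c, hc, HasValueAt.algebraMap' P c⟩
  | zero => exact ⟨0, K'.zero_mem, HasValueAt.zero' P⟩
  | one => exact ⟨1, K'.one_mem, HasValueAt.one' P⟩
  | add x y _ _ hx hy =>
    obtain ⟨c, hc, h1⟩ := hx
    obtain ⟨d, hd, h2⟩ := hy
    exact ⟨c + d, K'.add_mem hc hd, h1.add h2⟩
  | neg x _ hx =>
    obtain ⟨c, hc, h1⟩ := hx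
    exact ⟨-c, K'.neg_mem hc, h1.neg⟩
  | mul x y _ _ hx hy =>
    obtain ⟨c, hc, h1⟩ := hx
    obtain ⟨d, hd, h2⟩ := hy
    exact ⟨c * d, K'.mul_mem hc hd, h1.mul h2⟩

theorem bcRing_le_valuationSubring
    (hval : ∀ x : F₁, φ x ∈ P.toValuationSubring → ∃ c ∈ K', HasValueAt P (φ x) c)
    {a : FΩ} (ha : a ∈ bcRing φ P K') : a ∈ P.toValuationSubring := by
  obtain ⟨c, -, hc⟩ := exists_hasValueAt_of_mem_bcRing hval ha
  exact hc.mem

/-- polynomial expressions with coefficients in `K'`. -/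
theorem eval₂_mem_bcRing {x : F₁} (hx : φ x ∈ P.toValuationSubring) (q : (↥K')[X]) :
    eval₂ ((algebraMap Ω FΩ).comp K'.subtype) (φ x) q ∈ bcRing φ P K' := by
  rw [eval₂_eq_sum_range]
  refine Subring.sum_mem _ fun i _ => ?_
  exact Subring.mul_mem _ (algebraMap_mem_bcRing (q.coeff i).2)
    (Subring.pow_mem _ (map_mem_bcRing hx) i)

include hφ in
/-- **the divided-difference step**: if `φ x` has the value `c ∈ K'` at `P`, then `φ x - c`
becomes divisible by the uniformizer after multiplication by a unit of `bcRing`. -/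
theorem exists_mul_sub_eq_of_hasValueAt (hK' : ∀ a : K₁, algebraMap K₁ Ω a ∈ K')
    {ϖ₁ : F₁} (hunif : ∀ y : F₁, P.adicValuation (φ y) < 1 →
      ∃ y' : F₁, φ y' ∈ P.toValuationSubring ∧ y = ϖ₁ * y')
    {x : F₁} (hx : φ x ∈ P.toValuationSubring) {c : Ω} (hc : c ∈ K')
    (hxc : HasValueAt P (φ x) c) :
    ∃ b ∈ bcRing φ P K', ∃ a' ∈ bcRing φ P K', P.adicValuation b = 1 ∧
      b * (φ x - algebraMap Ω FΩ c) = φ ϖ₁ * a' := by
  classical
  haveI : CharZero K₁ := RingHom.charZero ((algebraMap Ω FΩ).comp (algebraMap K₁ Ω))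
  have hcint : IsIntegral K₁ c := Algebra.IsIntegral.isIntegral c
  set g := minpoly K₁ c with hg
  let ι₁ : K₁ →+* ↥K' := (algebraMap K₁ Ω).codRestrict K' hK'
  let c' : ↥K' := ⟨c, hc⟩
  set g' : (↥K')[X] := g.map ι₁ with hg'
  have hroot : g'.IsRoot c' := by
    rw [IsRoot.def, eval_map]
    apply K'.subtype.injective
    rw [Polynomial.hom_eval₂, map_zero]
    exact minpoly.aeval K₁ c
  obtain ⟨q, hq⟩ := dvd_iff_isRoot.mpr hroot
  have hsep : g'.Separable := ((minpoly.irreducible hcint).separable).map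
  have hqc : q.eval c' ≠ 0 := by
    have h1 := hsep.eval₂_derivative_ne_zero (RingHom.id _) (x := c')
      (by rw [eval₂_id]; exact hroot)
    rw [eval₂_id, hq, derivative_mul] at h1
    simpa using h1
  let ι : ↥K' →+* FΩ := (algebraMap Ω FΩ).comp K'.subtype
  set b := eval₂ ι (φ x) q with hb
  have hbmem : b ∈ bcRing φ P K' := eval₂_mem_bcRing hx q
  -- the value of `b`
  have hbval : HasValueAt P b ((q.eval c' : ↥K') : Ω) := by
    have h1 := HasValueAt.eval₂_algebraMap hxc (q.map K'.subtype)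
    rw [eval₂_map, eval_map] at h1
    have h2 : eval₂ K'.subtype c q = ((q.eval c' : ↥K') : Ω) := by
      have := Polynomial.hom_eval₂ q (RingHom.id ↥K') K'.subtype c'
      rw [RingHom.comp_id] at this
      rw [eval₂_id] at this
      exact this.symm
    rw [h2] at h1
    exact h1
  have hbv1 : P.adicValuation b = 1 := by
    have hne : ((q.eval c' : ↥K') : Ω) ≠ 0 := fun h => hqc (Subtype.ext h)
    obtain ⟨hb0, hord⟩ := hbval.ord_eq_zero hne
    rw [P.adicValuation_eq_exp_neg_ord hb0, hord, neg_zero, WithZero.exp_zero]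
  -- `ev g' = φ (aeval x g)`
  have hev : eval₂ ι (φ x) g' = φ (aeval x g) := by
    rw [hg', eval₂_map, aeval_def, Polynomial.hom_eval₂]
    congr 1
    ext a
    exact (hφ a).symm
  have hprod : b * (φ x - algebraMap Ω FΩ c) = φ (aeval x g) := by
    rw [← hev, hq, eval₂_mul, eval₂_sub, eval₂_X, eval₂_C, mul_comm]
    rfl
  -- `aeval x g` lies in the maximal ideal
  have hlt : P.adicValuation (φ (aeval x g)) < 1 := by
    rw [← hprod, map_mul, hbv1, one_mul]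
    exact hxc
  obtain ⟨y', hy', hy⟩ := hunif _ hlt
  refine ⟨b, hbmem, φ y', map_mem_bcRing hy', hbv1, ?_⟩
  rw [hprod, hy, map_mul]

include hφ in
/-- **(Q)**: every element `a` of `bcRing` has a value `c ∈ K'`, and `a - c` becomes divisible by
the uniformizer after multiplication by a unit of `bcRing`. -/
theorem exists_mul_sub_eq_of_mem_bcRing (hK' : ∀ a : K₁, algebraMap K₁ Ω a ∈ K')
    (hval : ∀ x : F₁, φ x ∈ P.toValuationSubring → ∃ c ∈ K', HasValueAt P (φ x) c)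
    {ϖ₁ : F₁} (hunif : ∀ y : F₁, P.adicValuation (φ y) < 1 →
      ∃ y' : F₁, φ y' ∈ P.toValuationSubring ∧ y = ϖ₁ * y')
    {a : FΩ} (ha : a ∈ bcRing φ P K') :
    ∃ c ∈ K', ∃ b ∈ bcRing φ P K', ∃ a' ∈ bcRing φ P K', P.adicValuation b = 1 ∧
      HasValueAt P a c ∧ b * (a - algebraMap Ω FΩ c) = φ ϖ₁ * a' := by
  induction ha using Subring.closure_induction with
  | mem x hx =>
    rcases hx with ⟨y, hy, rfl⟩ | ⟨c, hc, rfl⟩
    · obtain ⟨c, hc, hyc⟩ := hval y hy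
      obtain ⟨b, hb, a', ha', hb1, h⟩ := exists_mul_sub_eq_of_hasValueAt hφ hK' hunif hy hc hyc
      exact ⟨c, hc, b, hb, a', ha', hb1, hyc, h⟩
    · exact ⟨c, hc, 1, Subring.one_mem _, 0, Subring.zero_mem _, map_one _,
        HasValueAt.algebraMap' P c, by rw [sub_self, mul_zero, mul_zero]⟩
  | zero =>
    exact ⟨0, K'.zero_mem, 1, Subring.one_mem _, 0, Subring.zero_mem _, map_one _,
      HasValueAt.zero' P, by rw [map_zero, sub_self, mul_zero, mul_zero]⟩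
  | one =>
    exact ⟨1, K'.one_mem, 1, Subring.one_mem _, 0, Subring.zero_mem _, map_one _,
      HasValueAt.one' P, by rw [map_one, sub_self, mul_zero, mul_zero]⟩
  | add x y _ _ hx hy =>
    obtain ⟨c₁, hc₁, b₁, hb₁, a₁, ha₁, hv₁, hval₁, h₁⟩ := hx
    obtain ⟨c₂, hc₂, b₂, hb₂, a₂, ha₂, hv₂, hval₂, h₂⟩ := hy
    refine ⟨c₁ + c₂, K'.add_mem hc₁ hc₂, b₁ * b₂, Subring.mul_mem _ hb₁ hb₂,
      b₂ * a₁ + b₁ * a₂, Subring.add_mem _ (Subring.mul_mem _ hb₂ ha₁) (Subring.mul_mem _ hb₁ ha₂),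
      by rw [map_mul, hv₁, hv₂, mul_one], hval₁.add hval₂, ?_⟩
    have e : b₁ * b₂ * (x + y - algebraMap Ω FΩ (c₁ + c₂)) =
        b₂ * (b₁ * (x - algebraMap Ω FΩ c₁)) + b₁ * (b₂ * (y - algebraMap Ω FΩ c₂)) := by
      rw [map_add]; ring
    rw [e, h₁, h₂]
    ring
  | neg x _ hx =>
    obtain ⟨c₁, hc₁, b₁, hb₁, a₁, ha₁, hv₁, hval₁, h₁⟩ := hx
    refine ⟨-c₁, K'.neg_mem hc₁, b₁, hb₁, -a₁, Subring.neg_mem _ ha₁, hv₁, hval₁.neg, ?_⟩
    have e : b₁ * (-x - algebraMap Ω FΩ (-c₁)) = -(b₁ * (x - algebraMap Ω FΩ c₁)) := by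
      rw [map_neg]; ring
    rw [e, h₁]
    ring
  | mul x y hxmem _ hx hy =>
    obtain ⟨c₁, hc₁, b₁, hb₁, a₁, ha₁, hv₁, hval₁, h₁⟩ := hx
    obtain ⟨c₂, hc₂, b₂, hb₂, a₂, ha₂, hv₂, hval₂, h₂⟩ := hy
    have hymem : y ∈ bcRing φ P K' := by assumption
    refine ⟨c₁ * c₂, K'.mul_mem hc₁ hc₂, b₁ * b₂, Subring.mul_mem _ hb₁ hb₂,
      a₁ * b₂ * y + algebraMap Ω FΩ c₁ * b₁ * a₂,
      Subring.add_mem _ (Subring.mul_mem _ (Subring.mul_mem _ ha₁ hb₂) hymem)
        (Subring.mul_mem _ (Subring.mul_mem _ (algebraMap_mem_bcRing hc₁) hb₁) ha₂),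
      by rw [map_mul, hv₁, hv₂, mul_one], hval₁.mul hval₂, ?_⟩
    have e : b₁ * b₂ * (x * y - algebraMap Ω FΩ (c₁ * c₂)) =
        (b₁ * (x - algebraMap Ω FΩ c₁)) * b₂ * y +
          algebraMap Ω FΩ c₁ * b₁ * (b₂ * (y - algebraMap Ω FΩ c₂)) := by
      rw [map_mul]; ring
    rw [e, h₁, h₂]
    ring

include hφ in
/-- **(REP)**: every element of the subfield generated by `φ(F₁)` and `K'` is an element of
`bcRing` divided by a power of the uniformizer. -/
theorem exists_mul_pow_mem_bcRing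
    (hgen : Subfield.closure (Set.range φ ∪ Set.range (algebraMap Ω FΩ)) = ⊤)
    {ϖ₁ : F₁} (hϖ : φ ϖ₁ ∈ P.toValuationSubring)
    (hcov : ∀ x : F₁, ∃ n : ℕ, φ (x * ϖ₁ ^ n) ∈ P.toValuationSubring)
    {z : FΩ} (hz : z ∈ Subfield.closure (Set.range φ ∪ algebraMap Ω FΩ '' (K' : Set Ω))) :
    ∃ n : ℕ, z * φ ϖ₁ ^ n ∈ bcRing φ P K' := by
  have hϖT : φ ϖ₁ ∈ bcRing φ P K' := map_mem_bcRing hϖ
  let M : Subalgebra ↥φ.fieldRange FΩ :=
    { carrier := {z | ∃ n : ℕ, z * φ ϖ₁ ^ n ∈ bcRing φ P K'}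
      mul_mem' := by
        rintro z₁ z₂ ⟨n₁, h₁⟩ ⟨n₂, h₂⟩
        refine ⟨n₁ + n₂, ?_⟩
        have e : z₁ * z₂ * φ ϖ₁ ^ (n₁ + n₂) = (z₁ * φ ϖ₁ ^ n₁) * (z₂ * φ ϖ₁ ^ n₂) := by
          rw [pow_add]; ring
        rw [e]
        exact Subring.mul_mem _ h₁ h₂
      one_mem' := ⟨0, by rw [pow_zero, mul_one]; exact Subring.one_mem _⟩
      add_mem' := by
        rintro z₁ z₂ ⟨n₁, h₁⟩ ⟨n₂, h₂⟩
        refine ⟨n₁ + n₂, ?_⟩
        have e : (z₁ + z₂) * φ ϖ₁ ^ (n₁ + n₂) =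
            (z₁ * φ ϖ₁ ^ n₁) * φ ϖ₁ ^ n₂ + (z₂ * φ ϖ₁ ^ n₂) * φ ϖ₁ ^ n₁ := by
          rw [pow_add]; ring
        rw [e]
        exact Subring.add_mem _ (Subring.mul_mem _ h₁ (Subring.pow_mem _ hϖT _))
          (Subring.mul_mem _ h₂ (Subring.pow_mem _ hϖT _))
      zero_mem' := ⟨0, by rw [zero_mul]; exact Subring.zero_mem _⟩
      algebraMap_mem' := by
        rintro ⟨_, x, rfl⟩
        obtain ⟨n, hn⟩ := hcov x
        refine ⟨n, ?_⟩
        have e : algebraMap ↥φ.fieldRange FΩ ⟨φ x, ⟨x, rfl⟩⟩ * φ ϖ₁ ^ n = φ (x * ϖ₁ ^ n) := by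
          rw [map_mul, map_pow]; rfl
        rw [e]
        exact map_mem_bcRing hn }
  have hmemM : ∀ z : FΩ, z ∈ M ↔ ∃ n : ℕ, z * φ ϖ₁ ^ n ∈ bcRing φ P K' := fun z => Iff.rfl
  rw [← hmemM]
  induction hz using Subfield.closure_induction with
  | mem x hx =>
    rcases hx with ⟨y, rfl⟩ | ⟨c, hc, rfl⟩
    · exact M.algebraMap_mem ⟨φ y, ⟨y, rfl⟩⟩
    · exact ⟨0, by rw [pow_zero, mul_one]; exact algebraMap_mem_bcRing hc⟩
  | one => exact M.one_mem
  | add x y _ _ hx hy => exact M.add_mem hx hy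
  | neg x _ hx => exact M.neg_mem hx
  | inv x _ hx => exact (isIntegral_fieldRange φ hφ hgen x).inv_mem hx
  | mul x y _ _ hx hy => exact M.mul_mem hx hy

include hφ in
/-- **(LOC)**: an element of `O_P` of the form `a / (b₀ ϖⁿ)` with `a, b₀ ∈ bcRing`, `b₀` a unit at
`P`, is a quotient `a₁ / b₁` with `a₁, b₁ ∈ bcRing`, `b₁` a unit at `P`. -/
theorem exists_mul_eq_of_mul_pow_eq (hK' : ∀ a : K₁, algebraMap K₁ Ω a ∈ K')
    (hval : ∀ x : F₁, φ x ∈ P.toValuationSubring → ∃ c ∈ K', HasValueAt P (φ x) c)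
    {ϖ₁ : F₁} (hunif : ∀ y : F₁, P.adicValuation (φ y) < 1 →
      ∃ y' : F₁, φ y' ∈ P.toValuationSubring ∧ y = ϖ₁ * y')
    (hϖlt : P.adicValuation (φ ϖ₁) < 1) (hϖ0 : φ ϖ₁ ≠ 0) {z : FΩ}
    (hz : z ∈ P.toValuationSubring) (n : ℕ) :
    ∀ a ∈ bcRing φ P K', ∀ b₀ ∈ bcRing φ P K', P.adicValuation b₀ = 1 →
      z * (b₀ * φ ϖ₁ ^ n) = a →
      ∃ a₁ ∈ bcRing φ P K', ∃ b₁ ∈ bcRing φ P K', P.adicValuation b₁ = 1 ∧ z * b₁ = a₁ := by
  have hzv : P.adicValuation z ≤ 1 := (PlaceAux.mem_iff_adicValuation_le_one P).mp hz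
  induction n with
  | zero =>
    intro a ha b₀ hb₀ hv h
    rw [pow_zero, mul_one] at h
    exact ⟨a, ha, b₀, hb₀, hv, h⟩
  | succ n ih =>
    intro a ha b₀ hb₀ hv h
    have hva : P.adicValuation a < 1 := by
      rw [← h, map_mul, map_mul, hv, one_mul, map_pow, pow_succ]
      calc P.adicValuation z * (P.adicValuation (φ ϖ₁) ^ n * P.adicValuation (φ ϖ₁))
          ≤ 1 * (1 * P.adicValuation (φ ϖ₁)) := by
            gcongr
            exact pow_le_one₀ zero_le hϖlt.le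
        _ < 1 := by rw [one_mul, one_mul]; exact hϖlt
    obtain ⟨c, -, b, hb, a', ha', hb1, hac, hmul⟩ :=
      exists_mul_sub_eq_of_mem_bcRing hφ hK' hval hunif ha
    have hc0 : c = 0 := hac.unique (HasValueAt.zero_iff_lt.mpr hva)
    rw [hc0, map_zero, sub_zero] at hmul
    refine ih a' ha' (b * b₀) (Subring.mul_mem _ hb hb₀) (by rw [map_mul, hb1, hv, mul_one]) ?_
    apply mul_left_cancel₀ hϖ0
    rw [← hmul, ← h, pow_succ]
    ring

section Main

variable (hgen : Subfield.closure (Set.range φ ∪ Set.range (algebraMap Ω FΩ)) = ⊤)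

include hφ hgen in
/-- the uniformizer data of the restriction of `P`, in the form used above. -/
theorem exists_uniformizer_data :
    ∃ ϖ₁ : F₁, φ ϖ₁ ∈ P.toValuationSubring ∧ φ ϖ₁ ≠ 0 ∧ P.adicValuation (φ ϖ₁) < 1 ∧
      (∀ x : F₁, ∃ n : ℕ, φ (x * ϖ₁ ^ n) ∈ P.toValuationSubring) ∧
      (∀ y : F₁, P.adicValuation (φ y) < 1 →
        ∃ y' : F₁, φ y' ∈ P.toValuationSubring ∧ y = ϖ₁ * y') := by
  set P₁ := restrictBC φ hφ hgen P with hP₁
  obtain ⟨ϖ, hϖ⟩ := IsDiscreteValuationRing.exists_irreducible ↥P₁.toValuationSubring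
  have hord1 : P.ord (φ (ϖ : F₁)) = 1 := by
    rw [← ord_restrictBC φ hφ hgen]
    exact P₁.ord_coe_irreducible hϖ
  have hϖ0 : φ (ϖ : F₁) ≠ 0 := by
    intro h0
    rw [h0, P.ord_zero] at hord1
    exact zero_ne_one hord1
  have hϖ₁0 : (ϖ : F₁) ≠ 0 := fun h => hϖ0 (by rw [h, map_zero])
  refine ⟨(ϖ : F₁), (mem_restrictBC_iff φ hφ hgen P _).mp ϖ.2, hϖ0, ?_, ?_, ?_⟩
  · rw [← HasValueAt.zero_iff_lt, HasValueAt.zero_iff]
    exact Or.inr (by rw [hord1]; exact one_pos)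
  · intro x
    by_cases hx0 : x = 0
    · exact ⟨0, by rw [hx0, zero_mul, map_zero]; exact P.toValuationSubring.zero_mem⟩
    · refine ⟨(-P.ord (φ x)).toNat, ?_⟩
      have hne : φ (x * (ϖ : F₁) ^ (-P.ord (φ x)).toNat) ≠ 0 :=
        (map_ne_zero φ).2 (mul_ne_zero hx0 (pow_ne_zero _ hϖ₁0))
      rw [PlaceAux.mem_iff_ord_nonneg' P hne, map_mul, map_pow,
        P.ord_mul ((map_ne_zero φ).2 hx0) (pow_ne_zero _ hϖ0), PlaceAux.ord_pow, hord1]
      omega
  · intro y hy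
    rw [← HasValueAt.zero_iff_lt, HasValueAt.zero_iff] at hy
    by_cases hy0 : y = 0
    · exact ⟨0, by rw [map_zero]; exact P.toValuationSubring.zero_mem, by rw [hy0, mul_zero]⟩
    · have hpos : 0 < P.ord (φ y) := by
        rcases hy with h | h
        · exact absurd ((map_eq_zero φ).1 h) hy0
        · exact h
      obtain ⟨u, hu⟩ := P₁.exists_unit_mul_zpow hy0 hϖ
      rw [ord_restrictBC] at hu
      obtain ⟨k, hk⟩ : ∃ k : ℕ, P.ord (φ y) = (k : ℤ) + 1 :=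
        ⟨(P.ord (φ y) - 1).toNat, by omega⟩
      rw [hk, zpow_add₀ hϖ₁0, zpow_natCast, zpow_one] at hu
      refine ⟨((u : ↥P₁.toValuationSubring) : F₁) * (ϖ : F₁) ^ k, ?_, ?_⟩
      · have : ((u : ↥P₁.toValuationSubring) : F₁) * (ϖ : F₁) ^ k ∈ P₁.toValuationSubring :=
          P₁.toValuationSubring.mul_mem _ _ (u : ↥P₁.toValuationSubring).2
            (P₁.toValuationSubring.pow_mem ϖ.2 k)
        exact (mem_restrictBC_iff φ hφ hgen P _).mp this
      · rw [hu]; ring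

include hφ hgen in
/-- **rationality step**: if the values at `P` of the functions of `F₁` regular at `P` lie in a
subfield `K' ⊇ K₁` of `Ω`, then so do the values of all functions regular at `P` of the subfield
`K'·φ(F₁)` of `FΩ`. -/
theorem exists_hasValueAt_of_mem_closure (hK' : ∀ a : K₁, algebraMap K₁ Ω a ∈ K')
    (hval : ∀ x : F₁, φ x ∈ P.toValuationSubring → ∃ c ∈ K', HasValueAt P (φ x) c)
    {z : FΩ} (hzF : z ∈ Subfield.closure (Set.range φ ∪ algebraMap Ω FΩ '' (K' : Set Ω)))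
    (hz : z ∈ P.toValuationSubring) : ∃ c ∈ K', HasValueAt P z c := by
  obtain ⟨ϖ₁, hϖ, hϖ0, hϖlt, hcov, hunif⟩ := exists_uniformizer_data hφ (P := P) hgen
  obtain ⟨n, hn⟩ := exists_mul_pow_mem_bcRing hφ hgen hϖ hcov hzF
  obtain ⟨a₁, ha₁, b₁, hb₁, hbv, hzb⟩ := exists_mul_eq_of_mul_pow_eq hφ hK' hval hunif hϖlt hϖ0
    hz n _ hn 1 (Subring.one_mem _) (map_one _) (by rw [one_mul])
  obtain ⟨c₁, hc₁, hac⟩ := exists_hasValueAt_of_mem_bcRing hval ha₁
  obtain ⟨d₁, hd₁, hbd⟩ := exists_hasValueAt_of_mem_bcRing hval hb₁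
  have hd0 : d₁ ≠ 0 := by
    rintro rfl
    have := HasValueAt.zero_iff_lt.mp hbd
    rw [hbv] at this
    exact lt_irrefl _ this
  have hb0 : b₁ ≠ 0 := (hbd.ord_eq_zero hd0).1
  refine ⟨c₁ * d₁⁻¹, K'.mul_mem hc₁ (K'.inv_mem hd₁), ?_⟩
  have e : z = a₁ * b₁⁻¹ := by rw [← hzb, mul_assoc, mul_inv_cancel₀ hb0, mul_one]
  rw [e]
  exact hac.mul (hbd.inv hd0)

end Main

section Uniq

variable (hgen : Subfield.closure (Set.range φ ∪ Set.range (algebraMap Ω FΩ)) = ⊤)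

/-- common values on `bcRing` at two places. -/
theorem exists_hasValueAt_both_of_mem_bcRing {P' : Place Ω FΩ}
    (hboth : ∀ x : F₁, φ x ∈ P.toValuationSubring →
      ∃ c ∈ K', HasValueAt P (φ x) c ∧ HasValueAt P' (φ x) c)
    {a : FΩ} (ha : a ∈ bcRing φ P K') : ∃ c ∈ K', HasValueAt P a c ∧ HasValueAt P' a c := by
  induction ha using Subring.closure_induction with
  | mem x hx =>
    rcases hx with ⟨y, hy, rfl⟩ | ⟨c, hc, rfl⟩
    · exact hboth y hy
    · exact ⟨c, hc, HasValueAt.algebraMap' P c, HasValueAt.algebraMap' P' c⟩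
  | zero => exact ⟨0, K'.zero_mem, HasValueAt.zero' P, HasValueAt.zero' P'⟩
  | one => exact ⟨1, K'.one_mem, HasValueAt.one' P, HasValueAt.one' P'⟩
  | add x y _ _ hx hy =>
    obtain ⟨c, hc, h1, h1'⟩ := hx
    obtain ⟨d, hd, h2, h2'⟩ := hy
    exact ⟨c + d, K'.add_mem hc hd, h1.add h2, h1'.add h2'⟩
  | neg x _ hx =>
    obtain ⟨c, hc, h1, h1'⟩ := hx
    exact ⟨-c, K'.neg_mem hc, h1.neg, h1'.neg⟩
  | mul x y _ _ hx hy =>
    obtain ⟨c, hc, h1, h1'⟩ := hx
    obtain ⟨d, hd, h2, h2'⟩ := hy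
    exact ⟨c * d, K'.mul_mem hc hd, h1.mul h2, h1'.mul h2'⟩

include hφ hgen in
theorem valuationSubring_le_of_restrictBC_eq {P' : Place Ω FΩ}
    (h : restrictBC φ hφ hgen P = restrictBC φ hφ hgen P')
    (hrat : IsRationalPlace (restrictBC φ hφ hgen P)) :
    P.toValuationSubring ≤ P'.toValuationSubring := by
  intro z hz
  have hboth : ∀ x : F₁, φ x ∈ P.toValuationSubring →
      ∃ c ∈ (⊤ : Subfield Ω), HasValueAt P (φ x) c ∧ HasValueAt P' (φ x) c := by
    intro x hx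
    obtain ⟨c, hc⟩ := (isRationalPlace_iff_hasValueAt _).mp hrat x
      ((mem_restrictBC_iff φ hφ hgen P x).mpr hx)
    refine ⟨algebraMap K₁ Ω c, Subfield.mem_top _, (hasValueAt_restrictBC_iff φ hφ hgen P x c).mp hc,
      ?_⟩
    rw [h] at hc
    exact (hasValueAt_restrictBC_iff φ hφ hgen P' x c).mp hc
  have hval : ∀ x : F₁, φ x ∈ P.toValuationSubring →
      ∃ c ∈ (⊤ : Subfield Ω), HasValueAt P (φ x) c := fun x hx => by
    obtain ⟨c, hc, h1, -⟩ := hboth x hx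
    exact ⟨c, hc, h1⟩
  have hzF : z ∈ Subfield.closure (Set.range φ ∪
      algebraMap Ω FΩ '' ((⊤ : Subfield Ω) : Set Ω)) := by
    rw [Subfield.coe_top, Set.image_univ, hgen]
    exact Subfield.mem_top z
  obtain ⟨ϖ₁, hϖ, hϖ0, hϖlt, hcov, hunif⟩ := exists_uniformizer_data hφ (P := P) hgen
  obtain ⟨n, hn⟩ := exists_mul_pow_mem_bcRing hφ hgen hϖ hcov hzF
  obtain ⟨a₁, ha₁, b₁, hb₁, hbv, hzb⟩ := exists_mul_eq_of_mul_pow_eq hφ
    (fun _ => Subfield.mem_top _) hval hunif hϖlt hϖ0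
    hz n _ hn 1 (Subring.one_mem _) (map_one _) (by rw [one_mul])
  obtain ⟨c₁, -, -, hac'⟩ := exists_hasValueAt_both_of_mem_bcRing hboth ha₁
  obtain ⟨d₁, -, hbd, hbd'⟩ := exists_hasValueAt_both_of_mem_bcRing hboth hb₁
  have hd0 : d₁ ≠ 0 := by
    rintro rfl
    have := HasValueAt.zero_iff_lt.mp hbd
    rw [hbv] at this
    exact lt_irrefl _ this
  have hb0 : b₁ ≠ 0 := (hbd.ord_eq_zero hd0).1
  have e : z = a₁ * b₁⁻¹ := by rw [← hzb, mul_assoc, mul_inv_cancel₀ hb0, mul_one]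
  rw [e]
  exact (hac'.mul (hbd'.inv hd0)).mem

include hφ hgen in
/-- **(UNIQ)**: a rational place of `F₁ / K₁` has a unique extension to `FΩ / Ω`. -/
theorem eq_of_restrictBC_eq_of_isRationalPlace {P' : Place Ω FΩ}
    (h : restrictBC φ hφ hgen P = restrictBC φ hφ hgen P')
    (hrat : IsRationalPlace (restrictBC φ hφ hgen P)) : P = P' := by
  apply Place.ext
  apply le_antisymm
  · exact valuationSubring_le_of_restrictBC_eq hφ hgen h hrat
  · exact valuationSubring_le_of_restrictBC_eq hφ hgen h.symm (h ▸ hrat)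

end Uniq

section Fin

variable (hgen : Subfield.closure (Set.range φ ∪ Set.range (algebraMap Ω FΩ)) = ⊤)

include hφ hgen in
/-- **(FIN)**: the values at a place `P` of degree one of the functions of `F₁` regular at `P` lie
in every subfield of `Ω` containing `K₁` and a suitable finite set. -/
theorem exists_finset_forall_hasValueAt (c₁ : Coord K₁ F₁) (hdeg : P.deg = 1) :
    ∃ s : Finset Ω, ∀ K' : Subfield Ω, (∀ a : K₁, algebraMap K₁ Ω a ∈ K') → (∀ c ∈ s, c ∈ K') →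
      ∀ x : F₁, φ x ∈ P.toValuationSubring → ∃ c ∈ K', HasValueAt P (φ x) c := by
  classical
  haveI : CharZero K₁ := RingHom.charZero ((algebraMap Ω FΩ).comp (algebraMap K₁ Ω))
  set P₁ := restrictBC φ hφ hgen P with hP₁
  haveI : Module.Finite K₁ P₁.ResidueField := c₁.finiteResidue P₁
  let b := Module.finBasis K₁ P₁.ResidueField
  choose y hy using fun i => IsLocalRing.residue_surjective (b i)
  have hymem : ∀ i, φ ((y i : ↥P₁.toValuationSubring) : F₁) ∈ P.toValuationSubring :=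
    fun i => (mem_restrictBC_iff φ hφ hgen P _).mp (y i).2
  choose v hv using fun i => HasValueAt.exists_of_mem hdeg (hymem i)
  refine ⟨Finset.univ.image v, fun K' hK' hs x hx => ?_⟩
  let xV : ↥P₁.toValuationSubring := ⟨x, (mem_restrictBC_iff φ hφ hgen P x).mpr hx⟩
  set a := b.repr (IsLocalRing.residue _ xV) with ha
  set δ : ↥P₁.toValuationSubring :=
    xV - ∑ i, algebraMap K₁ ↥P₁.toValuationSubring (a i) * y i with hδ
  have hres : IsLocalRing.residue _ δ = 0 := by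
    rw [hδ, map_sub, map_sum]
    have h1 : ∀ i, IsLocalRing.residue _ (algebraMap K₁ ↥P₁.toValuationSubring (a i) * y i) =
        a i • b i := by
      intro i
      rw [map_mul, hy i, Algebra.smul_def]
      rfl
    simp only [h1]
    rw [ha, b.sum_repr, sub_self]
  have hδm : δ ∈ IsLocalRing.maximalIdeal ↥P₁.toValuationSubring :=
    (IsLocalRing.residue_eq_zero_iff δ).mp hres
  have hδz : Place.IsZeroAt P₁ (δ : F₁) := by
    rw [Place.isZeroAt_iff]
    refine ⟨δ.2, ?_⟩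
    by_cases h0 : (δ : F₁) = 0
    · exact Or.inl h0
    · refine Or.inr fun hinv => ?_
      apply (IsLocalRing.mem_maximalIdeal δ).mp hδm
      exact IsUnit.of_mul_eq_one ⟨(δ : F₁)⁻¹, hinv⟩ (Subtype.ext (mul_inv_cancel₀ h0))
  have hδv : HasValueAt P (φ (δ : F₁)) 0 := by
    rw [HasValueAt.zero_iff]
    exact (isZeroAt_restrictBC_iff φ hφ hgen P _).mp hδz
  have hx_eq : φ x = φ (δ : F₁) +
      ∑ i, algebraMap Ω FΩ (algebraMap K₁ Ω (a i)) * φ ((y i : ↥P₁.toValuationSubring) : F₁) := by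
    have h2 : (δ : F₁) = x - ∑ i, algebraMap K₁ F₁ (a i) * ((y i : ↥P₁.toValuationSubring) : F₁) := by
      rw [hδ]
      push_cast
      rfl
    rw [h2, map_sub, map_sum]
    simp only [map_mul, hφ]
    ring
  refine ⟨0 + ∑ i, algebraMap K₁ Ω (a i) * v i, ?_, ?_⟩
  · rw [zero_add]
    refine K'.sum_mem fun i _ => K'.mul_mem (hK' _) (hs _ ?_)
    exact Finset.mem_image_of_mem v (Finset.mem_univ i)
  · rw [hx_eq]
    refine hδv.add (HasValueAt.sum _ _ _ fun i _ => ?_)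
    exact (HasValueAt.algebraMap' P _).mul (hv i)

end Fin

end Local

section ThreeLevel

variable {K₁ K₁' Ω F₁ F₁' FΩ : Type*} [Field K₁] [Field K₁'] [Field Ω] [Algebra K₁ K₁']
  [Algebra K₁' Ω] [Algebra K₁ Ω] [IsScalarTower K₁ K₁' Ω] [Algebra.IsAlgebraic K₁ Ω]
  [Algebra.IsAlgebraic K₁' Ω]
  [Field F₁] [Algebra K₁ F₁] [Field F₁'] [Algebra K₁' F₁'] [Field FΩ] [Algebra Ω FΩ] [CharZero FΩ]
  (φ₁ : F₁ →+* F₁') (φ' : F₁' →+* FΩ)
  (hφ₁ : ∀ a : K₁, φ₁ (algebraMap K₁ F₁ a) = algebraMap K₁' F₁' (algebraMap K₁ K₁' a))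
  (hφ' : ∀ a : K₁', φ' (algebraMap K₁' F₁' a) = algebraMap Ω FΩ (algebraMap K₁' Ω a))
  (hgen₁ : Subfield.closure (Set.range φ₁ ∪ Set.range (algebraMap K₁' F₁')) = ⊤)
  (hgen' : Subfield.closure (Set.range φ' ∪ Set.range (algebraMap Ω FΩ)) = ⊤)

include hφ₁ hφ' in
theorem comp_algebraMap_eq (a : K₁) :
    (φ'.comp φ₁) (algebraMap K₁ F₁ a) = algebraMap Ω FΩ (algebraMap K₁ Ω a) := by
  rw [RingHom.comp_apply, hφ₁, hφ', ← IsScalarTower.algebraMap_apply K₁ K₁' Ω]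

include hφ' hgen₁ in
/-- the image of `F₁'` lies in the subfield generated by the image of `F₁` and the constants of
`K₁'`. -/
theorem map_mem_closure_comp (x' : F₁') :
    φ' x' ∈ Subfield.closure (Set.range (φ'.comp φ₁) ∪
      algebraMap Ω FΩ '' (((algebraMap K₁' Ω).fieldRange : Subfield Ω) : Set Ω)) := by
  have hx' : x' ∈ Subfield.closure (Set.range φ₁ ∪ Set.range (algebraMap K₁' F₁')) := by
    rw [hgen₁]; exact Subfield.mem_top x'
  induction hx' using Subfield.closure_induction with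
  | mem x hx =>
    rcases hx with ⟨y, rfl⟩ | ⟨a, rfl⟩
    · exact Subfield.subset_closure (Or.inl ⟨y, rfl⟩)
    · rw [hφ']
      exact Subfield.subset_closure (Or.inr ⟨algebraMap K₁' Ω a, ⟨a, rfl⟩, rfl⟩)
  | one => rw [map_one]; exact Subfield.one_mem _
  | add x y _ _ hx hy => rw [map_add]; exact Subfield.add_mem _ hx hy
  | neg x _ hx => rw [map_neg]; exact Subfield.neg_mem _ hx
  | inv x _ hx => rw [map_inv₀]; exact Subfield.inv_mem _ hx
  | mul x y _ _ hx hy => rw [map_mul]; exact Subfield.mul_mem _ hx hy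

include hφ' hgen₁ hgen' in
theorem closure_range_comp_eq_top :
    Subfield.closure (Set.range (φ'.comp φ₁) ∪ Set.range (algebraMap Ω FΩ)) = ⊤ := by
  rw [eq_top_iff, ← hgen', Subfield.closure_le]
  rintro _ (⟨x', rfl⟩ | ⟨c, rfl⟩)
  · refine Subfield.closure_mono ?_ (map_mem_closure_comp φ₁ φ' hφ' hgen₁ x')
    apply Set.union_subset_union_right
    rintro _ ⟨c, -, rfl⟩
    exact ⟨c, rfl⟩
  · exact Subfield.subset_closure (Or.inr ⟨c, rfl⟩)

include hφ₁ hφ' hgen₁ hgen' in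
/-- **(RAT), step**: if the values at `P` of the functions of `F₁` regular at `P` lie in `K₁'`,
then the restriction of `P` to `F₁' = K₁'·F₁` is a rational place. -/
theorem isRationalPlace_restrictBC_of_forall_hasValueAt (P : Place Ω FΩ)
    (hval : ∀ x : F₁, φ' (φ₁ x) ∈ P.toValuationSubring →
      ∃ c : K₁', HasValueAt P (φ' (φ₁ x)) (algebraMap K₁' Ω c)) :
    IsRationalPlace (restrictBC φ' hφ' hgen' P) := by
  rw [isRationalPlace_iff_hasValueAt]
  intro x' hx'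
  have hφ := comp_algebraMap_eq φ₁ φ' hφ₁ hφ'
  have hgen := closure_range_comp_eq_top φ₁ φ' hφ' hgen₁ hgen'
  have hK' : ∀ a : K₁, algebraMap K₁ Ω a ∈ (algebraMap K₁' Ω).fieldRange := fun a =>
    ⟨algebraMap K₁ K₁' a, (IsScalarTower.algebraMap_apply K₁ K₁' Ω a).symm⟩
  have hval' : ∀ x : F₁, (φ'.comp φ₁) x ∈ P.toValuationSubring →
      ∃ c ∈ (algebraMap K₁' Ω).fieldRange, HasValueAt P ((φ'.comp φ₁) x) c := by
    intro x hx
    obtain ⟨c, hc⟩ := hval x hx
    exact ⟨algebraMap K₁' Ω c, ⟨c, rfl⟩, hc⟩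
  obtain ⟨c, ⟨c', rfl⟩, hc⟩ := exists_hasValueAt_of_mem_closure (φ := φ'.comp φ₁) hφ hgen hK'
    hval' (map_mem_closure_comp φ₁ φ' hφ' hgen₁ x') ((mem_restrictBC_iff φ' hφ' hgen' P x').mp hx')
  exact ⟨c', (hasValueAt_restrictBC_iff φ' hφ' hgen' P x' c').mpr hc⟩

end ThreeLevel

end Fermat.Agent.JA
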