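/-
J-A third wave, package R4 (base-change dictionary for places) — helper9. Part 4: the concrete
instance of the dictionary for the host tower fields.

`Ω = AlgebraicClosure ℚ`, `K₁ ⊆ Ω` an intermediate field of `Ω / ℚ`.

* `exists_finset_forall_isRationalPlace_tower` : **(RAT-fin), generic form** for a family
  `E(K) ⊆ K⸨x⸩` functorial in the coefficient field;
* `legBC N K₁ : E(K₁) →+* E(Ω)`, `hesBC N K₁`, `keyFqBC N K₁` (coefficientwise), with the literal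
  hypotheses `hφ` (`legBC_algebraMap`), `hgen` (`closure_range_legBC`) of `restrictBC`;
* `exists_finset_forall_isRationalPlace_legE` (`_hesE`, `_keyFq`) : for a finite set `s` of places
  of `E(Ω)` there is a finite `t ⊂ Ω` such that for every `K₁ ⊇ K₀` containing `t` all
  `restrictBC (legBC N K₁) … P`, `P ∈ s`, are rational places of `E(K₁) / K₁`;
* `IsBase.exists_ge_isRationalPlace_legE` (`_hesE`, `_keyFq`) : the same with a base `K₁ ⊇ K₀`;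
* `bcd_hasPrincipalDivisors_legE`, `bcd_hasPrincipalDivisors_hesE`.
-/
import Mathlib
import Fermat.Agent.JA.BCD_helper9_Host
import Fermat.Agent.JA.BCD_helper9_Rational
import Fermat.Agent.X0N.S24_helper7_Wiring

set_option autoImplicit false
set_option linter.unusedSectionVars false
set_option linter.style.haveILetI false
set_option synthInstance.maxHeartbeats 200000

open HahnSeries IntermediateField AlgebraicCurve ModularCurve Polynomial

namespace Fermat.Agent.JA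

open Fermat.Agent.FF

section Tower

/-- `Ω = AlgebraicClosure ℚ`. -/
local notation "Ω" => AlgebraicClosure ℚ

variable (E : ∀ (K : Type) [Field K] [Algebra ℚ K], IntermediateField K (LaurentSeries K))
  (hE : ∀ (K L : Type) [Field K] [Field L] [Algebra ℚ K] [Algebra ℚ L] (φ : K →+* L),
    ∀ x ∈ E K, coeffMap φ x ∈ E L)
  (hgenE : ∀ (K L : Type) [Field K] [Field L] [Algebra ℚ K] [Algebra ℚ L] (φ : K →+* L),
    E L ≤ IntermediateField.adjoin L (⇑(coeffMap φ) '' (E K : Set (LaurentSeries K))))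

set_option maxHeartbeats 1600000 in
include hgenE in
/-- **(RAT-fin), generic form**: for a tower field `E(K) ⊆ K⸨x⸩` functorial in the coefficient
field and generated by its image under coefficient extension, and a finite set `s` of places of
`E(Ω)` (all of degree one), there is a finite set `t ⊂ Ω` such that for every intermediate field
`K₁ ⊇ K₀` containing `t` the restrictions of the places of `s` to `E(K₁)` are rational. -/
theorem exists_finset_forall_isRationalPlace_tower (K₀ : IntermediateField ℚ Ω)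
    (c₀ : Coord ↥K₀ ↥(E ↥K₀)) (hdeg : ∀ P : Place Ω ↥(E Ω), P.deg = 1)
    (s : Finset (Place Ω ↥(E Ω))) :
    ∃ t : Finset Ω, ∀ K₁ : IntermediateField ℚ Ω, K₀ ≤ K₁ → (∀ c ∈ t, c ∈ K₁) → ∀ P ∈ s,
      IsRationalPlace (restrictBC
        (coeffHom (algebraMap ↥K₁ Ω) (E ↥K₁) (E Ω) (hE ↥K₁ Ω (algebraMap ↥K₁ Ω)))
        (coeffHom_algebraMap (algebraMap ↥K₁ Ω) (E ↥K₁) (E Ω) (hE ↥K₁ Ω (algebraMap ↥K₁ Ω)))
        (closure_range_coeffHom (algebraMap ↥K₁ Ω) (E ↥K₁) (E Ω) (hE ↥K₁ Ω (algebraMap ↥K₁ Ω))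
          (hgenE ↥K₁ Ω (algebraMap ↥K₁ Ω))) P) := by
  classical
  haveI : CharZero ↥(E Ω) := charZero_of_injective_algebraMap (algebraMap Ω ↥(E Ω)).injective
  set φ₀ := coeffHom (algebraMap ↥K₀ Ω) (E ↥K₀) (E Ω) (hE ↥K₀ Ω (algebraMap ↥K₀ Ω)) with hφ₀def
  have hφ₀ := coeffHom_algebraMap (algebraMap ↥K₀ Ω) (E ↥K₀) (E Ω) (hE ↥K₀ Ω (algebraMap ↥K₀ Ω))
  have hgen₀ := closure_range_coeffHom (algebraMap ↥K₀ Ω) (E ↥K₀) (E Ω)
    (hE ↥K₀ Ω (algebraMap ↥K₀ Ω)) (hgenE ↥K₀ Ω (algebraMap ↥K₀ Ω))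
  have hfin : ∀ P : Place Ω ↥(E Ω), ∃ t : Finset Ω, ∀ K' : Subfield Ω,
      (∀ a : ↥K₀, algebraMap ↥K₀ Ω a ∈ K') → (∀ c ∈ t, c ∈ K') →
      ∀ x : ↥(E ↥K₀), φ₀ x ∈ P.toValuationSubring → ∃ c ∈ K', HasValueAt P (φ₀ x) c :=
    fun P => exists_finset_forall_hasValueAt (φ := φ₀) hφ₀ (P := P) hgen₀ c₀ (hdeg P)
  choose t ht using hfin
  refine ⟨s.biUnion t, fun K₁ h01 hK₁ P hP => ?_⟩
  letI : Algebra ↥K₀ ↥K₁ := (IntermediateField.inclusion h01).toRingHom.toAlgebra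
  haveI : IsScalarTower ↥K₀ ↥K₁ Ω := IsScalarTower.of_algebraMap_eq (fun _ => rfl)
  set φ₁ := coeffHom (algebraMap ↥K₀ ↥K₁) (E ↥K₀) (E ↥K₁) (hE ↥K₀ ↥K₁ (algebraMap ↥K₀ ↥K₁))
    with hφ₁def
  have hφ₁ := coeffHom_algebraMap (algebraMap ↥K₀ ↥K₁) (E ↥K₀) (E ↥K₁)
    (hE ↥K₀ ↥K₁ (algebraMap ↥K₀ ↥K₁))
  have hgen₁ := closure_range_coeffHom (algebraMap ↥K₀ ↥K₁) (E ↥K₀) (E ↥K₁)
    (hE ↥K₀ ↥K₁ (algebraMap ↥K₀ ↥K₁)) (hgenE ↥K₀ ↥K₁ (algebraMap ↥K₀ ↥K₁))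
  refine isRationalPlace_restrictBC_of_forall_hasValueAt φ₁ _ hφ₁ _ hgen₁ _ P ?_
  intro x hx
  have hcomp : coeffHom (algebraMap ↥K₁ Ω) (E ↥K₁) (E Ω) (hE ↥K₁ Ω (algebraMap ↥K₁ Ω)) (φ₁ x) =
      φ₀ x := by
    apply Subtype.ext
    rw [coe_coeffHom, coe_coeffHom, coe_coeffHom, coeffMap_coeffMap]
    rfl
  rw [hcomp] at hx ⊢
  obtain ⟨c, hc, hv⟩ := ht P (algebraMap ↥K₁ Ω).fieldRange
    (fun a => ⟨algebraMap ↥K₀ ↥K₁ a, rfl⟩)
    (fun c hc => ⟨⟨c, hK₁ c (Finset.mem_biUnion.mpr ⟨P, hP, hc⟩)⟩, rfl⟩) x hx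
  obtain ⟨c', rfl⟩ := hc
  exact ⟨c', hv⟩

end Tower

section Instances

/-- `Ω = AlgebraicClosure ℚ`. -/
local notation "Ω" => AlgebraicClosure ℚ

variable (N : ℕ) [NeZero N] (K₁ : IntermediateField ℚ Ω)

/-- coefficientwise base change `E(K₁) → E(Ω)` of the Legendre tower field. -/
noncomputable def legBC : ↥(legE ↥K₁ N) →+* ↥(legE Ω N) :=
  coeffHom (algebraMap ↥K₁ Ω) (legE ↥K₁ N) (legE Ω N)
    (fun _ hx => coeffMap_mem_legE (algebraMap ↥K₁ Ω) N hx)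

/-- coefficientwise base change `E(K₁) → E(Ω)` of the Hesse tower field. -/
noncomputable def hesBC : ↥(hesE ↥K₁ N) →+* ↥(hesE Ω N) :=
  coeffHom (algebraMap ↥K₁ Ω) (hesE ↥K₁ N) (hesE Ω N)
    (fun _ hx => coeffMap_mem_hesE (algebraMap ↥K₁ Ω) N hx)

/-- coefficientwise base change `F(K₁) → F(Ω)` of the function field of `X₀(N)`. -/
noncomputable def keyFqBC : ↥(keyFq ↥K₁ N) →+* ↥(keyFq Ω N) :=
  coeffHom (algebraMap ↥K₁ Ω) (keyFq ↥K₁ N) (keyFq Ω N)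
    (fun _ hx => coeffMap_hom_mem_laurentBaseChange (algebraMap ↥K₁ Ω) _ hx)

theorem coe_legBC (x : ↥(legE ↥K₁ N)) : ((legBC N K₁ x : ↥(legE Ω N)) : LaurentSeries Ω) =
    coeffMap (algebraMap ↥K₁ Ω) (x : LaurentSeries ↥K₁) := rfl

theorem coe_hesBC (x : ↥(hesE ↥K₁ N)) : ((hesBC N K₁ x : ↥(hesE Ω N)) : LaurentSeries Ω) =
    coeffMap (algebraMap ↥K₁ Ω) (x : LaurentSeries ↥K₁) := rfl

theorem coe_keyFqBC (x : ↥(keyFq ↥K₁ N)) : ((keyFqBC N K₁ x : ↥(keyFq Ω N)) : LaurentSeries Ω) =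
    coeffMap (algebraMap ↥K₁ Ω) (x : LaurentSeries ↥K₁) := rfl

/-- `hφ` of `restrictBC` for `legBC`. -/
theorem legBC_algebraMap (a : ↥K₁) : legBC N K₁ (algebraMap ↥K₁ ↥(legE ↥K₁ N) a) =
    algebraMap Ω ↥(legE Ω N) (algebraMap ↥K₁ Ω a) :=
  coeffHom_algebraMap _ _ _ _ a

/-- `hφ` of `restrictBC` for `hesBC`. -/
theorem hesBC_algebraMap (a : ↥K₁) : hesBC N K₁ (algebraMap ↥K₁ ↥(hesE ↥K₁ N) a) =
    algebraMap Ω ↥(hesE Ω N) (algebraMap ↥K₁ Ω a) :=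
  coeffHom_algebraMap _ _ _ _ a

/-- `hφ` of `restrictBC` for `keyFqBC`. -/
theorem keyFqBC_algebraMap (a : ↥K₁) : keyFqBC N K₁ (algebraMap ↥K₁ ↥(keyFq ↥K₁ N) a) =
    algebraMap Ω ↥(keyFq Ω N) (algebraMap ↥K₁ Ω a) :=
  coeffHom_algebraMap _ _ _ _ a

/-- `hgen` of `restrictBC` for `legBC`. -/
theorem closure_range_legBC :
    Subfield.closure (Set.range (legBC N K₁) ∪ Set.range (algebraMap Ω ↥(legE Ω N))) = ⊤ :=
  closure_range_coeffHom _ _ _ _ (legE_le_adjoin_image (algebraMap ↥K₁ Ω) N)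

/-- `hgen` of `restrictBC` for `hesBC`. -/
theorem closure_range_hesBC :
    Subfield.closure (Set.range (hesBC N K₁) ∪ Set.range (algebraMap Ω ↥(hesE Ω N))) = ⊤ :=
  closure_range_coeffHom _ _ _ _ (hesE_le_adjoin_image (algebraMap ↥K₁ Ω) N)

/-- `hgen` of `restrictBC` for `keyFqBC`. -/
theorem closure_range_keyFqBC :
    Subfield.closure (Set.range (keyFqBC N K₁) ∪ Set.range (algebraMap Ω ↥(keyFq Ω N))) = ⊤ :=
  closure_range_coeffHom _ _ _ _ (keyFq_le_adjoin_image (algebraMap ↥K₁ Ω) N)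

/-- the base change of the Legendre coordinate is the Legendre coordinate. -/
theorem legBC_coord : legBC N K₁ (legCoordBase N K₁).x = (legCoordBar N).x :=
  Subtype.ext (coeffMap_legT (algebraMap ↥K₁ Ω))

/-- the base change of the Hesse coordinate is the Hesse coordinate. -/
theorem hesBC_coord : hesBC N K₁ (hesCoordBase N K₁).x = (hesCoordBar N).x :=
  Subtype.ext (coeffMap_hesT (algebraMap ↥K₁ Ω))

/-- `F(K₁) ⊆ E(K₁)` is compatible with base change (Legendre). -/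
theorem legBC_of_mem_keyFw (x : ↥(legE ↥K₁ N)) (hx : (x : LaurentSeries ↥K₁) ∈ keyFw ↥K₁ N 2) :
    ((legBC N K₁ x : ↥(legE Ω N)) : LaurentSeries Ω) ∈ keyFw Ω N 2 :=
  coeffMap_mem_keyFw (algebraMap ↥K₁ Ω) N 2 hx

/-- `F(K₁) ⊆ E(K₁)` is compatible with base change (Hesse). -/
theorem hesBC_of_mem_keyFw (x : ↥(hesE ↥K₁ N)) (hx : (x : LaurentSeries ↥K₁) ∈ keyFw ↥K₁ N 3) :
    ((hesBC N K₁ x : ↥(hesE Ω N)) : LaurentSeries Ω) ∈ keyFw Ω N 3 :=
  coeffMap_mem_keyFw (algebraMap ↥K₁ Ω) N 3 hx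

instance charZero_legE : CharZero ↥(legE Ω N) :=
  charZero_of_injective_algebraMap (algebraMap Ω ↥(legE Ω N)).injective

instance charZero_hesE : CharZero ↥(hesE Ω N) :=
  charZero_of_injective_algebraMap (algebraMap Ω ↥(hesE Ω N)).injective

theorem bcd_hasPrincipalDivisors_legE : HasPrincipalDivisors Ω ↥(legE Ω N) :=
  (legCoordBar N).hasPrincipalDivisors

theorem bcd_hasPrincipalDivisors_hesE : HasPrincipalDivisors Ω ↥(hesE Ω N) :=
  (hesCoordBar N).hasPrincipalDivisors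

end Instances

section RatFin

/-- `Ω = AlgebraicClosure ℚ`. -/
local notation "Ω" => AlgebraicClosure ℚ

variable (N : ℕ) [NeZero N] (K₀ : IntermediateField ℚ Ω)

/-- **(RAT-fin), Legendre tower**: finitely many places of `E(Ω)` restrict to rational places of
`E(K₁)` for every `K₁ ⊇ K₀` containing a suitable finite set. -/
theorem exists_finset_forall_isRationalPlace_legE (s : Finset (Place Ω ↥(legE Ω N))) :
    ∃ t : Finset Ω, ∀ K₁ : IntermediateField ℚ Ω, K₀ ≤ K₁ → (∀ c ∈ t, c ∈ K₁) → ∀ P ∈ s,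
      IsRationalPlace (restrictBC (legBC N K₁) (legBC_algebraMap N K₁)
        (closure_range_legBC N K₁) P) :=
  exists_finset_forall_isRationalPlace_tower (fun K _ _ => legE K N)
    (fun _ _ _ _ _ _ φ _ hx => coeffMap_mem_legE φ N hx)
    (fun _ _ _ _ _ _ φ => legE_le_adjoin_image φ N) K₀ (legCoordBase N K₀)
    (bcd_deg_eq_one_legE N) s

/-- **(RAT-fin), Hesse tower**. -/
theorem exists_finset_forall_isRationalPlace_hesE (s : Finset (Place Ω ↥(hesE Ω N))) :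
    ∃ t : Finset Ω, ∀ K₁ : IntermediateField ℚ Ω, K₀ ≤ K₁ → (∀ c ∈ t, c ∈ K₁) → ∀ P ∈ s,
      IsRationalPlace (restrictBC (hesBC N K₁) (hesBC_algebraMap N K₁)
        (closure_range_hesBC N K₁) P) :=
  exists_finset_forall_isRationalPlace_tower (fun K _ _ => hesE K N)
    (fun _ _ _ _ _ _ φ _ hx => coeffMap_mem_hesE φ N hx)
    (fun _ _ _ _ _ _ φ => hesE_le_adjoin_image φ N) K₀ (hesCoordBase N K₀)
    (bcd_deg_eq_one_hesE N) s

/-- **(RAT-fin), function field of `X₀(N)`**. -/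
theorem exists_finset_forall_isRationalPlace_keyFq (s : Finset (Place Ω ↥(keyFq Ω N))) :
    ∃ t : Finset Ω, ∀ K₁ : IntermediateField ℚ Ω, K₀ ≤ K₁ → (∀ c ∈ t, c ∈ K₁) → ∀ P ∈ s,
      IsRationalPlace (restrictBC (keyFqBC N K₁) (keyFqBC_algebraMap N K₁)
        (closure_range_keyFqBC N K₁) P) :=
  exists_finset_forall_isRationalPlace_tower (fun K _ _ => keyFq K N)
    (fun _ _ _ _ _ _ φ _ hx => coeffMap_hom_mem_laurentBaseChange φ _ hx)
    (fun _ _ _ _ _ _ φ => keyFq_le_adjoin_image φ N) K₀ (keyFqCoordBase N K₀)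
    (fun P => (Fermat.Agent.X0N.jCoordBar N).deg_eq_one P) s

variable {N K₀} {ℓ : ℕ}

/-- **(RAT-fin) at a base, Legendre tower.** -/
theorem IsBase.exists_ge_isRationalPlace_legE (hK₀ : IsBase ℓ K₀)
    (s : Finset (Place Ω ↥(legE Ω N))) :
    ∃ K₁ : IntermediateField ℚ Ω, IsBase ℓ K₁ ∧ K₀ ≤ K₁ ∧ ∀ P ∈ s,
      IsRationalPlace (restrictBC (legBC N K₁) (legBC_algebraMap N K₁)
        (closure_range_legBC N K₁) P) := by
  obtain ⟨t, ht⟩ := exists_finset_forall_isRationalPlace_legE N K₀ s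
  obtain ⟨K₁, h1, h2, h3⟩ := hK₀.exists_ge_forall_mem t
  exact ⟨K₁, h1, h2, ht K₁ h2 h3⟩

/-- **(RAT-fin) at a base, Hesse tower.** -/
theorem IsBase.exists_ge_isRationalPlace_hesE (hK₀ : IsBase ℓ K₀)
    (s : Finset (Place Ω ↥(hesE Ω N))) :
    ∃ K₁ : IntermediateField ℚ Ω, IsBase ℓ K₁ ∧ K₀ ≤ K₁ ∧ ∀ P ∈ s,
      IsRationalPlace (restrictBC (hesBC N K₁) (hesBC_algebraMap N K₁)
        (closure_range_hesBC N K₁) P) := by
  obtain ⟨t, ht⟩ := exists_finset_forall_isRationalPlace_hesE N K₀ s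
  obtain ⟨K₁, h1, h2, h3⟩ := hK₀.exists_ge_forall_mem t
  exact ⟨K₁, h1, h2, ht K₁ h2 h3⟩

/-- **(RAT-fin) at a base, function field of `X₀(N)`.** -/
theorem IsBase.exists_ge_isRationalPlace_keyFq (hK₀ : IsBase ℓ K₀)
    (s : Finset (Place Ω ↥(keyFq Ω N))) :
    ∃ K₁ : IntermediateField ℚ Ω, IsBase ℓ K₁ ∧ K₀ ≤ K₁ ∧ ∀ P ∈ s,
      IsRationalPlace (restrictBC (keyFqBC N K₁) (keyFqBC_algebraMap N K₁)
        (closure_range_keyFqBC N K₁) P) := by
  obtain ⟨t, ht⟩ := exists_finset_forall_isRationalPlace_keyFq N K₀ s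
  obtain ⟨K₁, h1, h2, h3⟩ := hK₀.exists_ge_forall_mem t
  exact ⟨K₁, h1, h2, ht K₁ h2 h3⟩

end RatFin

end Fermat.Agent.JA
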