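/-
J-A package ES / C3 (helper4), part 2: the multiset / separation argument.

Two effective divisors `Σ e₁ i [q₁ i]`, `Σ e₂ j [q₂ j]` on a set `𝒬` of "places" are equal as soon
as, for a family of `k`-valued functions `v` on `𝒬` separating the points involved, the value
polynomials `∏ (X - v (q₁ i)) ^ e₁ i` and `∏ (X - v (q₂ j)) ^ e₂ j` agree.
-/
import Mathlib

set_option autoImplicit false
set_option linter.unusedSectionVars false

open Polynomial

namespace Fermat.Agent.JA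

section RootMult

variable {k : Type*} [Field k]

/-- the multiplicity of `0` as a root of `∏ (X - a i) ^ e i`. -/
theorem rootMultiplicity_zero_prod_X_sub_C_pow [DecidableEq k] {ι : Type*} (s : Finset ι)
    (a : ι → k) (e : ι → ℕ) :
    rootMultiplicity 0 (∏ i ∈ s, (X - C (a i)) ^ e i) = ∑ i ∈ s, if a i = 0 then e i else 0 := by
  classical
  induction s using Finset.induction_on with
  | empty =>
    rw [Finset.prod_empty, Finset.sum_empty]
    exact rootMultiplicity_eq_zero (by simp)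
  | insert b s hb ih =>
    rw [Finset.prod_insert hb, Finset.sum_insert hb]
    have hne : (X - C (a b)) ^ e b * ∏ i ∈ s, (X - C (a i)) ^ e i ≠ 0 := by
      apply mul_ne_zero
      · exact pow_ne_zero _ (X_sub_C_ne_zero _)
      · exact Finset.prod_ne_zero_iff.mpr fun i _ => pow_ne_zero _ (X_sub_C_ne_zero _)
    rw [rootMultiplicity_mul hne, ih]
    congr 1
    by_cases hab : a b = 0
    · rw [if_pos hab, hab]
      exact rootMultiplicity_X_sub_C_pow 0 (e b)
    · rw [if_neg hab]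
      apply rootMultiplicity_eq_zero
      rw [IsRoot.def, eval_pow, eval_sub, eval_X, eval_C, zero_sub]
      exact pow_ne_zero _ (neg_ne_zero.mpr hab)

end RootMult

section Separation

variable {𝒬 k : Type*} [Field k]

/-- **the multiset lemma**: two effective divisors whose value polynomials agree for a separating
family of functions are equal. -/
theorem sum_single_eq_of_prod_eq {ι₁ ι₂ : Type*} (s₁ : Finset ι₁) (s₂ : Finset ι₂)
    (q₁ : ι₁ → 𝒬) (e₁ : ι₁ → ℕ) (q₂ : ι₂ → 𝒬) (e₂ : ι₂ → ℕ)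
    (hsep : ∀ Q₀ : 𝒬, (Q₀ ∈ q₁ '' (s₁ : Set ι₁) ∨ Q₀ ∈ q₂ '' (s₂ : Set ι₂)) →
      ∃ v : 𝒬 → k, v Q₀ = 0 ∧ (∀ i ∈ s₁, q₁ i ≠ Q₀ → v (q₁ i) ≠ 0) ∧
        (∀ j ∈ s₂, q₂ j ≠ Q₀ → v (q₂ j) ≠ 0) ∧
        ∏ i ∈ s₁, (X - C (v (q₁ i))) ^ e₁ i = ∏ j ∈ s₂, (X - C (v (q₂ j))) ^ e₂ j) :
    (∑ i ∈ s₁, Finsupp.single (q₁ i) (e₁ i : ℤ)) = ∑ j ∈ s₂, Finsupp.single (q₂ j) (e₂ j : ℤ) := by
  classical
  ext Q₀
  rw [Finsupp.finsetSum_apply, Finsupp.finsetSum_apply]
  simp only [Finsupp.single_apply]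
  by_cases hQ : Q₀ ∈ q₁ '' (s₁ : Set ι₁) ∨ Q₀ ∈ q₂ '' (s₂ : Set ι₂)
  · obtain ⟨v, hv0, hv1, hv2, hprod⟩ := hsep Q₀ hQ
    have h := congrArg (rootMultiplicity 0) hprod
    rw [rootMultiplicity_zero_prod_X_sub_C_pow, rootMultiplicity_zero_prod_X_sub_C_pow] at h
    have e1 : ∀ i ∈ s₁, (if v (q₁ i) = 0 then e₁ i else 0) = if q₁ i = Q₀ then e₁ i else 0 := by
      intro i hi
      by_cases hq : q₁ i = Q₀
      · rw [if_pos hq, hq, if_pos hv0]
      · rw [if_neg hq, if_neg (hv1 i hi hq)]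
    have e2 : ∀ j ∈ s₂, (if v (q₂ j) = 0 then e₂ j else 0) = if q₂ j = Q₀ then e₂ j else 0 := by
      intro j hj
      by_cases hq : q₂ j = Q₀
      · rw [if_pos hq, hq, if_pos hv0]
      · rw [if_neg hq, if_neg (hv2 j hj hq)]
    rw [Finset.sum_congr rfl e1, Finset.sum_congr rfl e2] at h
    have h' := congrArg (Nat.cast : ℕ → ℤ) h
    rw [Nat.cast_sum, Nat.cast_sum] at h'
    convert h' using 2 with i hi j hj
    · split_ifs <;> simp
    · split_ifs <;> simp
  · rw [not_or] at hQ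
    rw [Finset.sum_eq_zero, Finset.sum_eq_zero]
    · intro j hj
      rw [if_neg]
      intro hq
      exact hQ.2 ⟨j, hj, hq⟩
    · intro i hi
      rw [if_neg]
      intro hq
      exact hQ.1 ⟨i, hi, hq⟩

end Separation

end Fermat.Agent.JA
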