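/-
J-A package ES / C3 (helper4), part 3: **Eichler–Shimura at place level, abstract assembly**.

Setting: function fields `F`, `F'` over `K` (all places of `F'` of degree one), two embeddings
`φ ψ : F →ₐ[K] F'` (`φ = β`, `ψ = α`), a function field `Ft` over `k`, a valuation subring `A ⊆ K`
with residue map `res : A →+* k`, a place map `r : Place K F → Place k Ft`, a semilinear
automorphism `Φ` of `Ft` acting on `k` by `a ↦ a ^ ℓ`, and a "chart ring" `𝔅` with
`ι : 𝔅 → F`, `ρ : 𝔅 → Ft` (the function and its reduction).  From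

* (EVAL)   `ρ y (r P) = res (ι y (P))` at good places,
* (KRON-N) the norm of `c - ψ (ι y)` along `φ` is `ι n`, `ρ n = (c̃^ℓ - Φ•ỹ)(c̃ - (Φ⁻¹•ỹ)^ℓ)`,
* (SPEC-N) values of norms, and
* (SEP)    separation of good places of `Ft` by reductions of elements of `𝔅`

we get `r_* (T P) = [Φ (r P)] + ℓ [Φ⁻¹ (r P)]` for the correspondence `T = ψ_* φ^*`.
-/
import Mathlib
import Fermat.Agent.JA.ES_helper4_Value
import Fermat.Agent.JA.ES_helper4_Multiset

set_option autoImplicit false
set_option linter.unusedSectionVars false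
set_option linter.style.haveILetI false

open AlgebraicCurve Polynomial

namespace Fermat.Agent.JA

section Unfold

variable {K F F' : Type*} [Field K] [Field F] [Field F'] [Algebra K F] [Algebra K F']
  [HasPrincipalDivisors K F']

/-- the inertia degree along `ψ` of a place of degree one is one. -/
theorem inertiaDegAlong_eq_one (ψ : F →ₐ[K] F') (hψ : ψ.toRingHom.IsIntegral) (W : Place K F')
    (hW : W.deg = 1) : W.inertiaDegAlong ψ hψ = 1 := by
  letI := algebraAlong ψ
  haveI := isScalarTower_along ψ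
  haveI := isIntegral_along ψ hψ
  have h := W.deg_restrict_mul_inertiaDeg (F := F)
  rw [hW] at h
  exact Nat.eq_one_of_mul_eq_one_left h

/-- the correspondence `ψ_* φ^*` on a single place, when all places upstairs have degree one. -/
theorem correspondence_single (φ ψ : F →ₐ[K] F') (hφ : φ.toRingHom.IsIntegral)
    (hψ : ψ.toRingHom.IsIntegral) (hdeg' : ∀ W : Place K F', W.deg = 1) (P : Place K F) :
    Divisor.correspondence φ ψ hφ hψ (Finsupp.single P 1)
      = ∑ W ∈ Place.fiberAlong φ hφ P,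
          Finsupp.single (W.restrictAlong ψ hψ) ((W.ramificationIndexAlong φ : ℕ) : ℤ) := by
  rw [Divisor.correspondence_apply, Divisor.pullbackAlong_single, map_sum]
  refine Finset.sum_congr rfl fun W _ => ?_
  rw [Divisor.pushforwardAlong_single, inertiaDegAlong_eq_one ψ hψ W (hdeg' W), one_mul,
    Nat.cast_one, mul_one]

end Unfold

section Assembly

variable {K F F' : Type*} [Field K] [Field F] [Field F'] [Algebra K F] [Algebra K F']
  [HasPrincipalDivisors K F']
  {k Ft : Type*} [Field k] [Field Ft] [Algebra k Ft]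

/-- the norm of `z : F'` down to `F` along the embedding `φ`. -/
noncomputable def normAlong (φ : F →ₐ[K] F') (z : F') : F :=
  letI := algebraAlong φ
  Algebra.norm F z

/-- **Eichler–Shimura at place level (abstract form).** -/
theorem es_place_abstract [Infinite k]
    (φ ψ : F →ₐ[K] F') (hφ : φ.toRingHom.IsIntegral) (hψ : ψ.toRingHom.IsIntegral)
    (hdeg' : ∀ W : Place K F', W.deg = 1)
    (A : ValuationSubring K) (res : A →+* k) (hres : Function.Surjective res)
    (r : Place K F → Place k Ft)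
    (Φ : SemilinearAut k Ft) (ℓ : ℕ) (hΦ : ∀ a : k, SemilinearAut.baseAut Φ a = a ^ ℓ)
    {𝔅 : Type*} (ι : 𝔅 → F) (ρ : 𝔅 → Ft)
    (good : Place K F → Prop) (goodk : Place k Ft → Prop)
    (hdegk : ∀ Q, goodk Q → Q.deg = 1)
    (heval : ∀ P, good P → ∀ y : 𝔅, ∃ a : A,
      HasValueAt P (ι y) (a : K) ∧ HasValueAt (r P) (ρ y) (res a))
    (hgood_r : ∀ P, good P → goodk (r P))
    (hgoodΦ : ∀ Q, goodk Q → goodk (Φ • Q) ∧ goodk (Φ⁻¹ • Q))
    (hreg : ∀ (y : 𝔅) (Q : Place k Ft), goodk Q → ρ y ∈ Q.toValuationSubring)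
    (hG2 : ∀ P, good P → ∀ W ∈ Place.fiberAlong φ hφ P, good (W.restrictAlong ψ hψ))
    (hsep : ∀ T : Finset (Place k Ft), (∀ Q ∈ T, goodk Q) → ∀ Q₀ ∈ T,
      ∃ y : 𝔅, HasValueAt Q₀ (ρ y) 0 ∧ ∀ Q ∈ T, Q ≠ Q₀ → ¬ HasValueAt Q (ρ y) 0)
    (hkron : ∀ (y : 𝔅) (c : A), ∃ n : 𝔅,
      ι n = normAlong φ (algebraMap K F' (c : K) - ψ (ι y)) ∧
      ρ n = (algebraMap k Ft (res c ^ ℓ) - Φ • ρ y) * (algebraMap k Ft (res c) - (Φ⁻¹ • ρ y) ^ ℓ))
    (hspec : ∀ (P : Place K F) (z : F') (a : Place K F' → K),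
      (∀ W ∈ Place.fiberAlong φ hφ P, HasValueAt W z (a W)) →
      HasValueAt P (normAlong φ z)
        (∏ W ∈ Place.fiberAlong φ hφ P, a W ^ W.ramificationIndexAlong φ))
    (P : Place K F) (hP : good P) :
    Finsupp.mapDomain r (Divisor.correspondence φ ψ hφ hψ (Finsupp.single P 1))
      = Finsupp.single (Φ • r P) 1 + Finsupp.single (Φ⁻¹ • r P) (ℓ : ℤ) := by
  classical
  set fib := Place.fiberAlong φ hφ P with hfib
  -- unfold the correspondence
  rw [correspondence_single φ ψ hφ hψ hdeg' P, Finsupp.mapDomain_finsetSum]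
  simp only [Finsupp.mapDomain_single]
  -- the right hand side as a sum over `Bool`
  let q₂ : Bool → Place k Ft := fun b => if b then Φ • r P else Φ⁻¹ • r P
  let e₂ : Bool → ℕ := fun b => if b then 1 else ℓ
  have hrhs : Finsupp.single (Φ • r P) (1 : ℤ) + Finsupp.single (Φ⁻¹ • r P) (ℓ : ℤ)
      = ∑ b ∈ (Finset.univ : Finset Bool), Finsupp.single (q₂ b) ((e₂ b : ℕ) : ℤ) := by
    rw [Fintype.sum_bool]
    simp [q₂, e₂]
  rw [hrhs]
  -- goodness of all the places involved
  have hgP := hgood_r P hP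
  have hgW : ∀ W ∈ fib, goodk (r (W.restrictAlong ψ hψ)) := fun W hW =>
    hgood_r _ (hG2 P hP W hW)
  have hg₂ : ∀ b, goodk (q₂ b) := by
    intro b
    cases b
    · exact (hgoodΦ _ hgP).2
    · exact (hgoodΦ _ hgP).1
  -- every reduction has a value at good places
  have hval : ∀ (y : 𝔅) (Q : Place k Ft), goodk Q → HasValueAt Q (ρ y) (valueAt Q (ρ y)) :=
    fun y Q hQ => hasValueAt_valueAt_of_mem (hdegk Q hQ) (hreg y Q hQ)
  -- the key polynomial identity
  have hpoly : ∀ y : 𝔅,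
      ∏ W ∈ fib, (X - C (valueAt (r (W.restrictAlong ψ hψ)) (ρ y))) ^ W.ramificationIndexAlong φ
        = ∏ b ∈ (Finset.univ : Finset Bool), (X - C (valueAt (q₂ b) (ρ y))) ^ e₂ b := by
    intro y
    apply Polynomial.funext
    intro x
    obtain ⟨c, rfl⟩ := hres x
    rw [eval_prod, eval_prod, Fintype.prod_bool]
    simp only [eval_pow, eval_sub, eval_X, eval_C, q₂, e₂, if_true, pow_one, Bool.false_eq_true,
      if_false]
    -- values of `y` upstairs
    have hW : ∀ W ∈ fib, ∃ a : A, HasValueAt W (ψ (ι y)) (a : K) ∧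
        valueAt (r (W.restrictAlong ψ hψ)) (ρ y) = res a := by
      intro W hW
      obtain ⟨a, ha1, ha2⟩ := heval _ (hG2 P hP W hW) y
      exact ⟨a, (hasValueAt_restrictAlong_iff ψ hψ W (ι y) a).mp ha1, ha2.valueAt_eq⟩
    choose! aW haW1 haW2 using hW
    obtain ⟨n, hn1, hn2⟩ := hkron y c
    -- value of the norm at `P`
    have h1 : HasValueAt P (ι n)
        (∏ W ∈ fib, ((c : K) - (aW W : K)) ^ W.ramificationIndexAlong φ) := by
      rw [hn1]
      exact hspec P _ (fun W => (c : K) - (aW W : K)) fun W hW =>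
        (HasValueAt.algebraMap' W (c : K)).sub (haW1 W hW)
    obtain ⟨b, hb1, hb2⟩ := heval P hP n
    have hb : (b : K) = ∏ W ∈ fib, ((c : K) - (aW W : K)) ^ W.ramificationIndexAlong φ :=
      hb1.unique h1
    have hb' : b = ∏ W ∈ fib, (c - aW W) ^ W.ramificationIndexAlong φ := by
      apply Subtype.ext
      rw [hb]
      push_cast
      rfl
    -- value of the reduction of the norm at `r P`
    have h2 : HasValueAt (r P) (ρ n)
        ((res c ^ ℓ - valueAt (Φ⁻¹ • r P) (ρ y) ^ ℓ) * (res c - valueAt (Φ • r P) (ρ y))) := by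
      rw [hn2]
      refine HasValueAt.mul ((HasValueAt.algebraMap' _ _).sub ?_)
        ((HasValueAt.algebraMap' _ _).sub ?_)
      · rw [← hΦ]
        exact (hasValueAt_smul_left_iff Φ).mpr (hval y _ (hgoodΦ _ hgP).2)
      · have h3 : HasValueAt (r P) (Φ⁻¹ • ρ y)
            (SemilinearAut.baseAut Φ⁻¹ (valueAt (Φ • r P) (ρ y))) := by
          apply (hasValueAt_smul_left_iff Φ⁻¹).mpr
          rw [inv_inv]
          exact hval y _ (hgoodΦ _ hgP).1
        have h4 := h3.pow ℓ
        rwa [← hΦ, SemilinearAut.baseAut_inv, RingEquiv.apply_symm_apply] at h4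
    have h5 := hb2.unique h2
    -- conclude
    have hfrob : ∀ u v : k, u ^ ℓ - v ^ ℓ = (u - v) ^ ℓ := by
      intro u v
      rw [← hΦ, ← hΦ, ← hΦ, map_sub]
    rw [Finset.prod_congr rfl fun W hW => by rw [haW2 W hW]]
    rw [hfrob, hb', map_prod] at h5
    simp only [map_pow, map_sub] at h5
    rw [h5]
    ring
  -- apply the multiset lemma
  refine sum_single_eq_of_prod_eq (k := k) fib Finset.univ
    (fun W => r (W.restrictAlong ψ hψ)) (fun W => W.ramificationIndexAlong φ) q₂ e₂ ?_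
  intro Q₀ hQ₀
  set T : Finset (Place k Ft) :=
    fib.image (fun W => r (W.restrictAlong ψ hψ)) ∪ Finset.univ.image q₂ with hT
  have hTgood : ∀ Q ∈ T, goodk Q := by
    intro Q hQ
    rw [hT, Finset.mem_union, Finset.mem_image, Finset.mem_image] at hQ
    rcases hQ with ⟨W, hW, rfl⟩ | ⟨b, _, rfl⟩
    · exact hgW W hW
    · exact hg₂ b
  have hQ₀T : Q₀ ∈ T := by
    rw [hT, Finset.mem_union, Finset.mem_image, Finset.mem_image]
    rcases hQ₀ with ⟨W, hW, rfl⟩ | ⟨b, hb, rfl⟩
    · exact Or.inl ⟨W, hW, rfl⟩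
    · exact Or.inr ⟨b, hb, rfl⟩
  obtain ⟨y, hy0, hyne⟩ := hsep T hTgood Q₀ hQ₀T
  refine ⟨fun Q => valueAt Q (ρ y), hy0.valueAt_eq, ?_, ?_, hpoly y⟩
  · intro W hW hne h0
    have hmem : r (W.restrictAlong ψ hψ) ∈ T := by
      rw [hT, Finset.mem_union, Finset.mem_image]
      exact Or.inl ⟨W, hW, rfl⟩
    apply hyne _ hmem hne
    have h0' : valueAt (r (W.restrictAlong ψ hψ)) (ρ y) = 0 := h0
    have := hval y _ (hgW W hW)
    rwa [h0'] at this
  · intro b hb hne h0
    have hmem : q₂ b ∈ T := by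
      rw [hT, Finset.mem_union, Finset.mem_image, Finset.mem_image]
      exact Or.inr ⟨b, hb, rfl⟩
    apply hyne _ hmem hne
    have h0' : valueAt (q₂ b) (ρ y) = 0 := h0
    have := hval y _ (hg₂ b)
    rwa [h0'] at this

end Assembly

end Fermat.Agent.JA
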