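/-
J-A package BC — helper9. **Descent to a base**, consumer shapes: elements of `F_Ω = Ω·F₀` and
Laurent series over the valuation ring `A ⊂ Ω` whose image lies in `F_Ω` are defined over a base
`K₁` (which may be chosen to contain a given base and finitely many given constants), with
coefficients in `R₁ = A ∩ K₁`.
-/
import Mathlib
import Fermat.Agent.JA.BC_helper9_Desc
import Fermat.Agent.JA.BASE_helper1_Main

set_option autoImplicit false
set_option linter.unusedSectionVars false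
set_option linter.style.haveILetI false

open HahnSeries IntermediateField ModularCurve

namespace Fermat.Agent.JA

open Fermat.Agent.X0N

/-- `Ω = AlgebraicClosure ℚ`. -/
local notation "Ω" => AlgebraicClosure ℚ

section DescBase

variable {ℓ : ℕ} (A : ValuationSubring Ω) (F₀ : IntermediateField ℚ (LaurentSeries ℚ))

/-- **integral descent, finite-set form**: a Laurent series over `A` whose image lies in `Ω·F₀`
comes from a Laurent series over `A ∩ K₁` whose image lies in `K₁·F₀`, for every intermediate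
field `K₁` containing a suitable finite set of constants. -/
theorem exists_finset_forall_descent_int {y : LaurentSeries ↥A}
    (hy : coeffMap A.subtype y ∈ laurentBaseChange Ω F₀) :
    ∃ s : Finset Ω, ∀ K₁ : IntermediateField ℚ Ω, (∀ c ∈ s, c ∈ K₁) →
      ∃ y₁ : LaurentSeries ↥(baseRing A K₁), coeffMap (baseIncl A K₁) y₁ = y ∧
        coeffMap (baseRing A K₁).subtype y₁ ∈ laurentBaseChange ↥K₁ F₀ ∧
        iota ↥K₁ Ω (coeffMap (baseRing A K₁).subtype y₁) = coeffMap A.subtype y := by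
  obtain ⟨s, hs⟩ := exists_finset_forall_descent F₀ hy
  refine ⟨s, fun K₁ hK₁ => ?_⟩
  obtain ⟨x₁, hx₁, hx₁y⟩ := hs K₁ hK₁
  have hcoefA : ∀ n, algebraMap ↥K₁ Ω (x₁.coeff n) = ((y.coeff n : ↥A) : Ω) := fun n =>
    congrArg (fun z => z.coeff n) hx₁y
  have hcoefR : ∀ n, x₁.coeff n ∈ baseRing A K₁ := by
    intro n
    rw [baseRing, ValuationSubring.mem_comap, hcoefA]
    exact (y.coeff n).2
  obtain ⟨y₁, hy₁⟩ := exists_coeffMap_eq_of_forall_mem_range
    (baseRing A K₁).subtype x₁ (fun n => ⟨⟨_, hcoefR n⟩, rfl⟩)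
  refine ⟨y₁, ?_, ?_, ?_⟩
  · ext n
    rw [coeffMap_coeff, baseIncl_apply, ← hcoefA n, ← hy₁, coeffMap_coeff]
    rfl
  · rw [hy₁]
    exact hx₁
  · rw [hy₁]
    exact hx₁y

/-- the same for a finite family. -/
theorem exists_finset_forall_descent_int_family {ι : Type*} [Fintype ι]
    {y : ι → LaurentSeries ↥A} (hy : ∀ i, coeffMap A.subtype (y i) ∈ laurentBaseChange Ω F₀) :
    ∃ s : Finset Ω, ∀ K₁ : IntermediateField ℚ Ω, (∀ c ∈ s, c ∈ K₁) →
      ∀ i, ∃ y₁ : LaurentSeries ↥(baseRing A K₁), coeffMap (baseIncl A K₁) y₁ = y i ∧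
        coeffMap (baseRing A K₁).subtype y₁ ∈ laurentBaseChange ↥K₁ F₀ ∧
        iota ↥K₁ Ω (coeffMap (baseRing A K₁).subtype y₁) = coeffMap A.subtype (y i) := by
  classical
  choose s hs using fun i => exists_finset_forall_descent_int A F₀ (hy i)
  refine ⟨Finset.univ.biUnion s, fun K₁ hK₁ i => hs i K₁ fun c hc => hK₁ c ?_⟩
  exact Finset.mem_biUnion.mpr ⟨i, Finset.mem_univ i, hc⟩

variable {A F₀}

/-- **(D1)**: an element of `Ω·F₀` is defined over a base. -/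
theorem exists_isBase_descent (ℓ : ℕ) {f : LaurentSeries Ω} (hf : f ∈ laurentBaseChange Ω F₀) :
    ∃ K₁ : IntermediateField ℚ Ω, IsBase ℓ K₁ ∧ ∃ f₁ ∈ laurentBaseChange ↥K₁ F₀,
      coeffMap (algebraMap ↥K₁ Ω) f₁ = f := by
  obtain ⟨s, hs⟩ := exists_finset_forall_descent F₀ hf
  obtain ⟨K₁, hK₁, hmem⟩ := exists_isBase_forall_mem ℓ s
  exact ⟨K₁, hK₁, hs K₁ hmem⟩

/-- **(D1)**, over a given base and containing finitely many given constants. -/
theorem IsBase.exists_ge_descent {K₀ : IntermediateField ℚ Ω} (hK₀ : IsBase ℓ K₀) (t : Finset Ω)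
    {f : LaurentSeries Ω} (hf : f ∈ laurentBaseChange Ω F₀) :
    ∃ K₁ : IntermediateField ℚ Ω, IsBase ℓ K₁ ∧ K₀ ≤ K₁ ∧ (∀ c ∈ t, c ∈ K₁) ∧
      ∃ f₁ ∈ laurentBaseChange ↥K₁ F₀, coeffMap (algebraMap ↥K₁ Ω) f₁ = f := by
  classical
  obtain ⟨s, hs⟩ := exists_finset_forall_descent F₀ hf
  obtain ⟨K₁, hK₁, hle, hmem⟩ := hK₀.exists_ge_forall_mem (s ∪ t)
  exact ⟨K₁, hK₁, hle, fun c hc => hmem c (Finset.mem_union_right _ hc),
    hs K₁ fun c hc => hmem c (Finset.mem_union_left _ hc)⟩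

/-- **(D1)** for a finite family, over a given base and containing given constants. -/
theorem IsBase.exists_ge_descent_family {K₀ : IntermediateField ℚ Ω} (hK₀ : IsBase ℓ K₀)
    (t : Finset Ω) {ι : Type*} [Fintype ι] {f : ι → LaurentSeries Ω}
    (hf : ∀ i, f i ∈ laurentBaseChange Ω F₀) :
    ∃ K₁ : IntermediateField ℚ Ω, IsBase ℓ K₁ ∧ K₀ ≤ K₁ ∧ (∀ c ∈ t, c ∈ K₁) ∧
      ∀ i, ∃ f₁ ∈ laurentBaseChange ↥K₁ F₀, coeffMap (algebraMap ↥K₁ Ω) f₁ = f i := by
  classical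
  obtain ⟨s, hs⟩ := exists_finset_forall_descent_family F₀ hf
  obtain ⟨K₁, hK₁, hle, hmem⟩ := hK₀.exists_ge_forall_mem (s ∪ t)
  exact ⟨K₁, hK₁, hle, fun c hc => hmem c (Finset.mem_union_right _ hc),
    hs K₁ fun c hc => hmem c (Finset.mem_union_left _ hc)⟩

/-- **(D2)**: a Laurent series over `A` with image in `F_Ω` comes from a base. -/
theorem exists_isBase_descent_int (ℓ : ℕ) {y : LaurentSeries ↥A}
    (hy : coeffMap A.subtype y ∈ laurentBaseChange Ω F₀) :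
    ∃ K₁ : IntermediateField ℚ Ω, IsBase ℓ K₁ ∧ ∃ y₁ : LaurentSeries ↥(baseRing A K₁),
      coeffMap (baseIncl A K₁) y₁ = y ∧
      coeffMap (baseRing A K₁).subtype y₁ ∈ laurentBaseChange ↥K₁ F₀ := by
  obtain ⟨s, hs⟩ := exists_finset_forall_descent_int A F₀ hy
  obtain ⟨K₁, hK₁, hmem⟩ := exists_isBase_forall_mem ℓ s
  obtain ⟨y₁, h1, h2, -⟩ := hs K₁ hmem
  exact ⟨K₁, hK₁, y₁, h1, h2⟩

/-- **(D2)**, over a given base and containing finitely many given constants. -/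
theorem IsBase.exists_ge_descent_int {K₀ : IntermediateField ℚ Ω} (hK₀ : IsBase ℓ K₀)
    (t : Finset Ω) {y : LaurentSeries ↥A}
    (hy : coeffMap A.subtype y ∈ laurentBaseChange Ω F₀) :
    ∃ K₁ : IntermediateField ℚ Ω, IsBase ℓ K₁ ∧ K₀ ≤ K₁ ∧ (∀ c ∈ t, c ∈ K₁) ∧
      ∃ y₁ : LaurentSeries ↥(baseRing A K₁), coeffMap (baseIncl A K₁) y₁ = y ∧
        coeffMap (baseRing A K₁).subtype y₁ ∈ laurentBaseChange ↥K₁ F₀ := by
  classical
  obtain ⟨s, hs⟩ := exists_finset_forall_descent_int A F₀ hy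
  obtain ⟨K₁, hK₁, hle, hmem⟩ := hK₀.exists_ge_forall_mem (s ∪ t)
  obtain ⟨y₁, h1, h2, -⟩ := hs K₁ fun c hc => hmem c (Finset.mem_union_left _ hc)
  exact ⟨K₁, hK₁, hle, fun c hc => hmem c (Finset.mem_union_right _ hc), y₁, h1, h2⟩

/-- **(D2)** for a finite family, over a given base and containing given constants. -/
theorem IsBase.exists_ge_descent_int_family {K₀ : IntermediateField ℚ Ω} (hK₀ : IsBase ℓ K₀)
    (t : Finset Ω) {ι : Type*} [Fintype ι] {y : ι → LaurentSeries ↥A}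
    (hy : ∀ i, coeffMap A.subtype (y i) ∈ laurentBaseChange Ω F₀) :
    ∃ K₁ : IntermediateField ℚ Ω, IsBase ℓ K₁ ∧ K₀ ≤ K₁ ∧ (∀ c ∈ t, c ∈ K₁) ∧
      ∃ y₁ : ι → LaurentSeries ↥(baseRing A K₁), ∀ i, coeffMap (baseIncl A K₁) (y₁ i) = y i ∧
        coeffMap (baseRing A K₁).subtype (y₁ i) ∈ laurentBaseChange ↥K₁ F₀ := by
  classical
  obtain ⟨s, hs⟩ := exists_finset_forall_descent_int_family A F₀ hy
  obtain ⟨K₁, hK₁, hle, hmem⟩ := hK₀.exists_ge_forall_mem (s ∪ t)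
  choose y₁ h1 h2 _ using hs K₁ fun c hc => hmem c (Finset.mem_union_left _ hc)
  exact ⟨K₁, hK₁, hle, fun c hc => hmem c (Finset.mem_union_right _ hc), y₁,
    fun i => ⟨h1 i, h2 i⟩⟩

end DescBase

end Fermat.Agent.JA
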