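/-
J-A package ES / C3 (helper4), part 7: integrality of norms along an embedding.

`φ ψ : F →ₐ[K] F'`, `R → F` a ring with `ψ(R)` integral over `φ(R)`; if `y : F` is integral over
`R` then `N_φ (c - ψ y)` is integral over `R` (`c` in the image of `R`).  This is what makes the
chart ring `B_∞ = intcl(A[j], F)` stable under `y ↦ N_{F'/βF}(c - α y)` (with the modular
equation: `α j` is integral over `β(ℤ[j])`).
-/
import Mathlib
import Fermat.Agent.JA.ES_helper4_Main

set_option autoImplicit false
set_option linter.unusedSectionVars false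
set_option linter.style.haveILetI false

open AlgebraicCurve Polynomial

namespace Fermat.Agent.JA

section Integral

variable {K F F' : Type*} [Field K] [Field F] [Field F'] [Algebra K F] [Algebra K F']
  {R : Type*} [CommRing R] [Algebra R F]

/-- the norm along `φ` of an element integral over `φ(R)` is integral over `R`. -/
theorem isIntegral_normAlong (φ : F →ₐ[K] F') (z : F')
    (hz : (φ.toRingHom.comp (algebraMap R F)).IsIntegralElem z) :
    IsIntegral R (normAlong φ z) := by
  letI := algebraAlong φ
  letI : Algebra R F' := (φ.toRingHom.comp (algebraMap R F)).toAlgebra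
  haveI : IsScalarTower R F F' := IsScalarTower.of_algebraMap_eq fun x => rfl
  have hz' : IsIntegral R z := hz
  exact Algebra.isIntegral_norm F hz'

/-- transitivity: if `ψ(R)` is integral over `φ(R)` and `y` is integral over `R`, then `ψ y` is
integral over `φ(R)`. -/
theorem isIntegralElem_comp_of_isIntegral (φ ψ : F →+* F')
    (hψφ : ∀ x : R, (φ.comp (algebraMap R F)).IsIntegralElem (ψ (algebraMap R F x)))
    (y : F) (hy : IsIntegral R y) : (φ.comp (algebraMap R F)).IsIntegralElem (ψ y) := by
  letI : Algebra R F' := (φ.comp (algebraMap R F)).toAlgebra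
  -- `S` = the integral closure of `φ(R)` in `F'`
  let S := integralClosure R F'
  have hmem : ∀ x : R, ψ (algebraMap R F x) ∈ S := fun x => hψφ x
  let g : R →+* S := (ψ.comp (algebraMap R F)).codRestrict S.toSubring hmem
  obtain ⟨p, hp, hpy⟩ := hy
  have h1 : IsIntegral S (ψ y) := by
    refine ⟨p.map g, hp.map g, ?_⟩
    rw [eval₂_map]
    have e : (algebraMap S F').comp g = ψ.comp (algebraMap R F) := RingHom.ext fun x => rfl
    rw [e, ← hom_eval₂, hpy, map_zero]
  have h2 : IsIntegral R (ψ y) := isIntegral_trans (ψ y) h1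
  exact h2

/-- **stability of integrality under `y ↦ N_φ (c - ψ y)`.** -/
theorem isIntegral_normAlong_sub (φ ψ : F →ₐ[K] F')
    (hψφ : ∀ x : R, (φ.toRingHom.comp (algebraMap R F)).IsIntegralElem (ψ (algebraMap R F x)))
    (c : R) (y : F) (hy : IsIntegral R y) :
    IsIntegral R (normAlong φ (φ (algebraMap R F c) - ψ y)) := by
  apply isIntegral_normAlong
  letI : Algebra R F' := (φ.toRingHom.comp (algebraMap R F)).toAlgebra
  have h1 : IsIntegral R (ψ y) :=
    isIntegralElem_comp_of_isIntegral φ.toRingHom ψ.toRingHom hψφ y hy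
  have h2 : IsIntegral R (φ (algebraMap R F c)) := isIntegral_algebraMap (x := c)
  exact h2.sub h1

/-- it suffices to check the integrality of `ψ` over `φ` on algebra generators. -/
theorem isIntegralElem_of_adjoin {A₀ : Type*} [CommRing A₀] [Algebra A₀ F] (s : Set F)
    (φ ψ : F →+* F')
    (hconst : ∀ a : A₀, ψ (algebraMap A₀ F a) = φ (algebraMap A₀ F a))
    (hs : ∀ x ∈ s, (φ.comp (algebraMap (Algebra.adjoin A₀ s) F)).IsIntegralElem (ψ x))
    (x : Algebra.adjoin A₀ s) :
    (φ.comp (algebraMap (Algebra.adjoin A₀ s) F)).IsIntegralElem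
      (ψ (algebraMap (Algebra.adjoin A₀ s) F x)) := by
  letI : Algebra (Algebra.adjoin A₀ s) F' :=
    (φ.comp (algebraMap (Algebra.adjoin A₀ s) F)).toAlgebra
  obtain ⟨x, hx⟩ := x
  show IsIntegral (Algebra.adjoin A₀ s) (ψ x)
  induction hx using Algebra.adjoin_induction with
  | mem x hx => exact hs x hx
  | algebraMap a =>
    rw [hconst]
    exact isIntegral_algebraMap (x := (algebraMap A₀ (Algebra.adjoin A₀ s) a))
  | add x y _ _ hx hy => rw [map_add]; exact hx.add hy
  | mul x y _ _ hx hy => rw [map_mul]; exact hx.mul hy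

end Integral

end Fermat.Agent.JA
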