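/-
J-A package ES / C3 (helper4), part 11: integrality of norms along an embedding, localised version
(for the cusp chart).

`φ ψ : F →ₐ[K] F'`, `R ⊆ F` a subring, `s ∈ R` nonzero.  If `ψ x` is integral over the subring of
`F'` generated by `φ(R)` and `φ(s)⁻¹` for all `x ∈ R`, then for `y` integral over `R` and `z₀ ∈ R`
some `s ^ m * N_φ(φ z₀ - ψ y)` is integral over `R`.
-/
import Mathlib
import Fermat.Agent.JA.ES_helper4_Integral

set_option autoImplicit false
set_option linter.unusedSectionVars false
set_option linter.style.haveILetI false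

open AlgebraicCurve Polynomial

namespace Fermat.Agent.JA

section LocInt

/-- integrality over a subring contained in the range of a ring homomorphism. -/
theorem isIntegralElem_of_isIntegral_of_le_range {R' S : Type*} [CommRing R'] [CommRing S]
    [Nontrivial S] (f : R' →+* S) (T : Subring S) (hT : T ≤ f.range) {z : S}
    (hz : IsIntegral T z) : f.IsIntegralElem z := by
  obtain ⟨p, hp, hpz⟩ := hz
  have hlift : p.map T.subtype ∈ Polynomial.lifts f := by
    rw [Polynomial.lifts_iff_coeff_lifts]
    intro n
    rw [Polynomial.coeff_map]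
    exact hT (p.coeff n).2
  obtain ⟨q, hq, -, hqm⟩ := Polynomial.lifts_and_degree_eq_and_monic hlift (hp.map _)
  refine ⟨q, hqm, ?_⟩
  rw [← Polynomial.eval_map, hq, Polynomial.eval_map]
  exact hpz

variable {K F F' : Type*} [Field K] [Field F] [Field F'] [Algebra K F] [Algebra K F']

/-- two-ring transitivity: `y` integral over `R`, `ψ(R)` integral along `f : R' →+* F'` ⇒
`ψ y` integral along `f`. -/
theorem isIntegralElem_of_isIntegral_of_forall {R R' : Type*} [CommRing R] [Algebra R F]
    [CommRing R'] (f : R' →+* F') (ψ : F →+* F')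
    (hψ : ∀ x : R, f.IsIntegralElem (ψ (algebraMap R F x)))
    (y : F) (hy : IsIntegral R y) : f.IsIntegralElem (ψ y) := by
  letI : Algebra R' F' := f.toAlgebra
  let S := integralClosure R' F'
  have hmem : ∀ x : R, ψ (algebraMap R F x) ∈ S := fun x => hψ x
  let g : R →+* S := (ψ.comp (algebraMap R F)).codRestrict S.toSubring hmem
  obtain ⟨p, hp, hpy⟩ := hy
  have h1 : IsIntegral S (ψ y) := by
    refine ⟨p.map g, hp.map g, ?_⟩
    rw [eval₂_map]
    have e : (algebraMap S F').comp g = ψ.comp (algebraMap R F) := RingHom.ext fun x => rfl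
    rw [e, ← hom_eval₂, hpy, map_zero]
  have h2 : IsIntegral R' (ψ y) := isIntegral_trans (ψ y) h1
  exact h2

/-- **localised stability of integrality under `y ↦ N_φ (φ z₀ - ψ y)`.** -/
theorem exists_isIntegral_pow_mul_normAlong (φ ψ : F →ₐ[K] F') (R : Subring F) (s : R)
    (hs0 : (s : F) ≠ 0)
    (hψ : ∀ x : R, IsIntegral
      (Subring.closure (φ '' (R : Set F) ∪ {(φ (s : F))⁻¹})) (ψ (x : F)))
    (z₀ : R) (y : F) (hy : IsIntegral R y) :
    ∃ m : ℕ, IsIntegral R ((s : F) ^ m * normAlong φ (φ (z₀ : F) - ψ y)) := by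
  classical
  let M : Submonoid R := Submonoid.powers s
  have hunit : ∀ y : M, IsUnit (algebraMap R F y) := by
    rintro ⟨_, n, rfl⟩
    refine isUnit_iff_ne_zero.mpr ?_
    show algebraMap R F (s ^ n) ≠ 0
    rw [map_pow]
    exact pow_ne_zero n hs0
  let g : Localization M →+* F := IsLocalization.lift hunit
  letI : Algebra (Localization M) F := g.toAlgebra
  haveI : IsScalarTower R (Localization M) F :=
    IsScalarTower.of_algebraMap_eq fun x => (IsLocalization.lift_eq hunit x).symm
  set f : Localization M →+* F' := φ.toRingHom.comp (algebraMap (Localization M) F) with hf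
  -- the subring generated by `φ(R)` and `φ(s)⁻¹` lies in the range of `f`
  have hle : Subring.closure (φ '' (R : Set F) ∪ {(φ (s : F))⁻¹}) ≤ f.range := by
    rw [Subring.closure_le]
    rintro x (⟨r, hr, rfl⟩ | hx)
    · refine ⟨algebraMap R (Localization M) ⟨r, hr⟩, ?_⟩
      show φ (algebraMap (Localization M) F (algebraMap R (Localization M) ⟨r, hr⟩)) = φ r
      rw [← IsScalarTower.algebraMap_apply]
      rfl
    · rw [Set.mem_singleton_iff] at hx
      subst hx
      refine ⟨IsLocalization.mk' (Localization M) (1 : R) (⟨s, Submonoid.mem_powers s⟩ : M), ?_⟩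
      have hg : g (IsLocalization.mk' (Localization M) (1 : R)
          (⟨s, Submonoid.mem_powers s⟩ : M)) = (s : F)⁻¹ := by
        show IsLocalization.lift hunit (IsLocalization.mk' (Localization M) (1 : R)
          (⟨s, Submonoid.mem_powers s⟩ : M)) = (s : F)⁻¹
        rw [IsLocalization.lift_mk'_spec]
        show algebraMap R F 1 = algebraMap R F s * (s : F)⁻¹
        rw [map_one]
        exact (mul_inv_cancel₀ hs0).symm
      show φ (g (IsLocalization.mk' (Localization M) (1 : R)
        (⟨s, Submonoid.mem_powers s⟩ : M))) = (φ (s : F))⁻¹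
      rw [hg, map_inv₀]
  have hψ' : ∀ x : R, f.IsIntegralElem (ψ.toRingHom (algebraMap R F x)) := fun x =>
    isIntegralElem_of_isIntegral_of_le_range f _ hle (hψ x)
  have h1 : f.IsIntegralElem (ψ y) :=
    isIntegralElem_of_isIntegral_of_forall f ψ.toRingHom hψ' y hy
  have h2 : f.IsIntegralElem (φ (z₀ : F)) := by
    have e : φ (z₀ : F) = f (algebraMap R (Localization M) z₀) := by
      show _ = φ (algebraMap (Localization M) F (algebraMap R (Localization M) z₀))
      rw [← IsScalarTower.algebraMap_apply]
      rfl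
    rw [e]
    exact f.isIntegralElem_map
  have h3 : f.IsIntegralElem (φ (z₀ : F) - ψ y) := RingHom.IsIntegralElem.sub f h2 h1
  have h4 : IsIntegral (Localization M) (normAlong φ (φ (z₀ : F) - ψ y)) :=
    isIntegral_normAlong φ _ h3
  obtain ⟨⟨_, n, rfl⟩, hm⟩ :=
    IsIntegral.exists_multiple_integral_of_isLocalization M _ h4
  refine ⟨n, ?_⟩
  have e : (⟨s ^ n, n, rfl⟩ : M) • normAlong φ (φ (z₀ : F) - ψ y)
      = (s : F) ^ n * normAlong φ (φ (z₀ : F) - ψ y) := by
    rw [Submonoid.smul_def, Algebra.smul_def]
    rfl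
  rw [← e]
  exact hm

end LocInt

end Fermat.Agent.JA
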