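/-
J-A — helper6 — package SEP (R2), layer C, part 1: **normality of `R((q))`**.
For a principal ideal domain `R` the ring of Laurent series `R((q))` is integrally closed (it is a
localisation of the unique factorisation domain `R⟦q⟧`).  Consequence, in helper5's Gauss setting
(`R` a discrete valuation ring with fraction field `L`): an element of `Frac R((q)) ⊆ L((q))` which
is integral over (the image of) `R((q))` is the image of a series with coefficients in `R`.
-/
import Mathlib
import Fermat.Agent.Igusa.V_helper5_Gauss

set_option autoImplicit false
set_option linter.unusedSectionVars false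
set_option linter.style.haveILetI false

open Polynomial Fermat.Agent.Igusa ModularCurve

namespace Fermat.Agent.JA

section Normal

variable (R : Type*) [CommRing R] [IsDomain R] [IsPrincipalIdealRing R]

/-- **`R((q))` is integrally closed** for a principal ideal domain `R`. -/
theorem isIntegrallyClosed_laurentSeries : IsIntegrallyClosed (LaurentSeries R) :=
  isIntegrallyClosed_of_isLocalization (R := PowerSeries R) (LaurentSeries R)
    (Submonoid.powers (PowerSeries.X : PowerSeries R))
    (powers_le_nonZeroDivisors_of_noZeroDivisors PowerSeries.X_ne_zero)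

end Normal

section Gauss

variable {R : Type*} [CommRing R] [IsDomain R] [IsDiscreteValuationRing R]
  {L : Type*} [Field L] [Algebra R L] [IsFractionRing R L]

/-- an element of `Frac R((q)) ⊆ L((q))` which satisfies a monic equation with coefficients in
(the image of) `R((q))` is the image of a series over `R`. -/
theorem exists_emb_eq_of_isIntegralElem {x : LaurentSeries L} (hx : x ∈ gaussField R L)
    (hint : (emb R L).IsIntegralElem x) : ∃ y : LaurentSeries R, emb R L y = x := by
  haveI : IsIntegrallyClosed (LaurentSeries R) := isIntegrallyClosed_laurentSeries R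
  obtain ⟨f, g, hg, hfg⟩ := hx
  obtain ⟨p, hpm, hpx⟩ := hint
  -- the fraction field of `R((q))` and its embedding into `L((q))`
  set Fr := FractionRing (LaurentSeries R) with hFr
  have hinj : Function.Injective (emb R L) := emb_injective R L
  let ψ : Fr →+* LaurentSeries L := IsFractionRing.lift (K := Fr) hinj
  have hψ : ∀ a : LaurentSeries R, ψ (algebraMap (LaurentSeries R) Fr a) = emb R L a :=
    fun a => IsFractionRing.lift_algebraMap hinj a
  have hg' : emb R L g ≠ 0 := fun h0 => hg (emb_eq_zero_iff.1 h0)
  set ξ : Fr := algebraMap (LaurentSeries R) Fr f / algebraMap (LaurentSeries R) Fr g with hξ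
  have hψξ : ψ ξ = x := by
    rw [hξ, map_div₀, hψ, hψ, ← hfg, mul_div_cancel_right₀ _ hg']
  have hξint : IsIntegral (LaurentSeries R) ξ := by
    refine ⟨p, hpm, ?_⟩
    apply ψ.injective
    rw [map_zero, Polynomial.hom_eval₂, hψξ]
    have : ψ.comp (algebraMap (LaurentSeries R) Fr) = emb R L := RingHom.ext hψ
    rw [this]
    exact hpx
  obtain ⟨y, hy⟩ := IsIntegrallyClosed.isIntegral_iff.mp hξint
  exact ⟨y, by rw [← hψ, hy, hψξ]⟩

end Gauss

end Fermat.Agent.JA
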