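/-
J-A package H0 (helper7), part 2: the norm formula `ord_v (N_{F'/F} f) = ∑_{w | v} ord_w f` for a
finite separable extension `F'/F` of function fields all of whose places have degree one, in the
Prelude's form `Divisor.PushforwardNormFormula K F F'`.
-/
import Mathlib
import Fermat.Agent.JA.H0_helper7_Dict

set_option autoImplicit false
set_option linter.unusedSectionVars false
set_option linter.style.haveILetI false

open AlgebraicCurve IsDedekindDomain UniqueFactorizationMonoid

namespace Fermat.Agent.JA

open Fermat.Agent.FF Fermat.Agent.FF.Gal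

variable {K F F' : Type*} [Field K] [Field F] [Field F'] [Algebra K F] [Algebra K F']
  [Algebra F F'] [IsScalarTower K F F'] [FiniteDimensional F F'] [Algebra.IsSeparable F F']

section Count

variable (v : Place K F)

/-- the order of an integral element at a place over `v` is the multiplicity of its center. -/
theorem ord_eq_count {w : Place K F'} (h : LiesOver w v) (b : intCl F' v) (hb : b ≠ 0) :
    w.ord (b : F') = ((normalizedFactors (Ideal.span {b})).count (center h) : ℤ) := by
  classical
  have hb0 : (b : F') ≠ 0 := fun h0 => hb (Subtype.ext h0)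
  have hsr : Ideal.span {b} ≠ 0 := Submodule.span_singleton_eq_bot.mp.mt hb
  rw [ord_eq_neg_log_valuation h hb0]
  have h1 : (b : F') = algebraMap (intCl F' v) F' b := rfl
  rw [h1, HeightOneSpectrum.valuation_of_algebraMap, HeightOneSpectrum.intValuation_if_neg _ hb,
    WithZero.log_exp, neg_neg,
    Ideal.count_associates_factors_eq hsr (centerSpec h).isPrime (centerSpec h).ne_bot,
    centerSpec_asIdeal]

/-- every nonzero prime of the integral closure lies over the maximal ideal of `v`. -/
theorem mem_primesOver_of_prime (Q : Ideal (intCl F' v)) (hQ : Q.IsPrime) (hQ0 : Q ≠ ⊥) :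
    Q ∈ (IsLocalRing.maximalIdeal v.toValuationSubring).primesOver (intCl F' v) := by
  have h1 := center_placeOf v ⟨Q, hQ, hQ0⟩
  refine ⟨hQ, ?_⟩
  have h2 : (center (liesOver_placeOf v ⟨Q, hQ, hQ0⟩)).LiesOver
      (IsLocalRing.maximalIdeal v.toValuationSubring) := inferInstance
  rw [h1] at h2
  exact h2

variable [Algebra.IsIntegral F F'] [HasPrincipalDivisors K F']

/-- the sum of the orders of an integral element over the places above `v` is the number of prime
factors of the ideal it generates. -/
theorem sum_ord_eq_card (b : intCl F' v) (hb : b ≠ 0) :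
    ∑ w ∈ v.fiber F', w.ord (b : F')
      = (Multiset.card (normalizedFactors (Ideal.span {b})) : ℤ) := by
  classical
  have hsr : Ideal.span {b} ≠ 0 := Submodule.span_singleton_eq_bot.mp.mt hb
  obtain ⟨nf, hnf⟩ : ∃ nf, nf = normalizedFactors (Ideal.span {b}) := ⟨_, rfl⟩
  have h1 := sum_fiber_eq_sum_primesOver (F' := F') v (fun Q => ((nf.count Q : ℕ) : ℤ))
  have h2 : ∑ w ∈ v.fiber F', w.ord (b : F')
      = ∑ w ∈ v.fiber F', (if h : LiesOver w v then ((nf.count (center h) : ℕ) : ℤ) else 0) := by
    refine Finset.sum_congr rfl fun w hw => ?_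
    have hl : LiesOver w v := liesOver_iff_restrict_eq.mpr (Place.mem_fiber.mp hw)
    rw [dif_pos hl, hnf, ord_eq_count v hl b hb]
  rw [h2, h1, ← hnf, ← Multiset.toFinset_sum_count_eq nf, Nat.cast_sum]
  rw [Finset.sum_set_coe (f := fun Q => ((nf.count Q : ℕ) : ℤ))]
  symm
  apply Finset.sum_subset
  · intro Q hQ
    rw [Multiset.mem_toFinset, hnf] at hQ
    rw [Set.mem_toFinset]
    have hQp : Prime Q := prime_of_normalized_factor Q hQ
    exact mem_primesOver_of_prime v Q (Ideal.isPrime_of_prime hQp) hQp.ne_zero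
  · intro Q _ hQ
    rw [Multiset.mem_toFinset] at hQ
    rw [Multiset.count_eq_zero_of_notMem hQ, Nat.cast_zero]

end Count

section RelNorm

variable (v : Place K F)

/-- in the valuation ring of `v`, an element generating the `n`-th power of the maximal ideal
has order `n`. -/
theorem ord_eq_of_span_eq_pow {a : v.toValuationSubring} {n : ℕ}
    (h : Ideal.span {a} = IsLocalRing.maximalIdeal v.toValuationSubring ^ n) :
    v.ord (a : F) = n := by
  obtain ⟨ϖ, hϖ⟩ := IsDiscreteValuationRing.exists_irreducible v.toValuationSubring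
  rw [hϖ.maximalIdeal_eq, Ideal.span_singleton_pow, Ideal.span_singleton_eq_span_singleton] at h
  obtain ⟨u, hu⟩ := h
  have h1 : (a : F) = ((u⁻¹ : v.toValuationSubringˣ) : v.toValuationSubring) * (ϖ : F) ^ (n : ℤ) := by
    have h2 : a = ϖ ^ n * ((u⁻¹ : v.toValuationSubringˣ) : v.toValuationSubring) := by
      rw [← hu, mul_assoc, Units.mul_inv, mul_one]
    rw [h2, zpow_natCast]
    push_cast
    ring
  rw [h1, v.ord_unit_smul_zpow u⁻¹ hϖ (n : ℤ)]

variable [CharZero K]

instance charZero_valuationSubring_H0 : CharZero v.toValuationSubring :=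
  charZero_of_injective_ringHom (algebraMap K v.toValuationSubring).injective

/-- the relative norm of a prime of the integral closure whose place has degree one. -/
theorem relNorm_prime_eq (hdeg' : ∀ w : Place K F', w.deg = 1) (Q : Ideal (intCl F' v))
    (hQ : Q.IsPrime) (hQ0 : Q ≠ ⊥) :
    Ideal.relNorm v.toValuationSubring Q = IsLocalRing.maximalIdeal v.toValuationSubring := by
  have hl := liesOver_placeOf v ⟨Q, hQ, hQ0⟩
  have hc := center_placeOf v ⟨Q, hQ, hQ0⟩
  have hf := inertiaDeg_center_eq_one hl (hdeg' _)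
  rw [hc] at hf
  haveI : Q.IsMaximal := (⟨Q, hQ, hQ0⟩ : HeightOneSpectrum (intCl F' v)).isMaximal
  haveI : Q.LiesOver (IsLocalRing.maximalIdeal v.toValuationSubring) :=
    (mem_primesOver_of_prime v Q hQ hQ0).2
  haveI : PerfectField (FractionRing v.toValuationSubring) := PerfectField.ofCharZero
  rw [Ideal.relNorm_eq_pow_of_isMaximal Q (IsLocalRing.maximalIdeal v.toValuationSubring), hf,
    pow_one]

/-- the order of the norm of an integral element is the number of prime factors of the ideal it
generates. -/
theorem ord_norm_eq_card (hdeg' : ∀ w : Place K F', w.deg = 1) (b : intCl F' v) (hb : b ≠ 0) :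
    v.ord (Algebra.norm F (b : F'))
      = (Multiset.card (normalizedFactors (Ideal.span {b})) : ℤ) := by
  classical
  have hsr : Ideal.span {b} ≠ 0 := Submodule.span_singleton_eq_bot.mp.mt hb
  have h1 : algebraMap v.toValuationSubring F (Algebra.intNorm v.toValuationSubring (intCl F' v) b)
      = Algebra.norm F (algebraMap (intCl F' v) F' b) := Algebra.algebraMap_intNorm b
  have h2 : Ideal.relNorm v.toValuationSubring (Ideal.span {b})
      = Ideal.span {Algebra.intNorm v.toValuationSubring (intCl F' v) b} :=
    Ideal.relNorm_singleton v.toValuationSubring b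
  have h3 : Ideal.relNorm v.toValuationSubring (Ideal.span {b})
      = IsLocalRing.maximalIdeal v.toValuationSubring
        ^ Multiset.card (normalizedFactors (Ideal.span {b})) := by
    conv_lhs => rw [← Ideal.prod_normalizedFactors_eq_self hsr]
    rw [map_multiset_prod]
    have h4 : (normalizedFactors (Ideal.span {b})).map (Ideal.relNorm v.toValuationSubring)
        = Multiset.replicate (Multiset.card (normalizedFactors (Ideal.span {b})))
          (IsLocalRing.maximalIdeal v.toValuationSubring) := by
      rw [Multiset.eq_replicate]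
      refine ⟨Multiset.card_map _ _, ?_⟩
      intro I hI
      obtain ⟨Q, hQ, rfl⟩ := Multiset.mem_map.mp hI
      have hQp : Prime Q := prime_of_normalized_factor Q hQ
      exact relNorm_prime_eq v hdeg' Q (Ideal.isPrime_of_prime hQp) hQp.ne_zero
    rw [h4, Multiset.prod_replicate]
  have h5 := ord_eq_of_span_eq_pow v (h2.symm.trans h3)
  have h6 : (b : F') = algebraMap (intCl F' v) F' b := rfl
  rw [h6, ← h1]
  exact h5

variable [Algebra.IsIntegral F F'] [HasPrincipalDivisors K F']

/-- **The norm formula**, pointwise form. -/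
theorem sum_ord_eq_ord_norm (hdeg' : ∀ w : Place K F', w.deg = 1) {f : F'} (hf : f ≠ 0) :
    ∑ w ∈ v.fiber F', w.ord f = v.ord (Algebra.norm F f) := by
  obtain ⟨b₁, b₂, hb₂, hdiv⟩ := IsFractionRing.div_surjective (A := intCl F' v) f
  have hb₂0 : b₂ ≠ 0 := nonZeroDivisors.ne_zero hb₂
  have hb₁0 : b₁ ≠ 0 := by
    intro h0
    rw [h0, map_zero, zero_div] at hdiv
    exact hf hdiv.symm
  have hc₁ : (b₁ : F') ≠ 0 := fun h0 => hb₁0 (Subtype.ext h0)
  have hc₂ : (b₂ : F') ≠ 0 := fun h0 => hb₂0 (Subtype.ext h0)
  have hf' : f = (b₁ : F') * (b₂ : F')⁻¹ := by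
    rw [← hdiv, div_eq_mul_inv]
    rfl
  have h1 : ∀ w : Place K F', w.ord f = w.ord (b₁ : F') - w.ord (b₂ : F') := by
    intro w
    rw [hf', w.ord_mul hc₁ (inv_ne_zero hc₂), w.ord_inv, sub_eq_add_neg]
  have hn₁ : Algebra.norm F (b₁ : F') ≠ 0 := Algebra.norm_ne_zero_iff.mpr hc₁
  have hn₂ : Algebra.norm F (b₂ : F') ≠ 0 := Algebra.norm_ne_zero_iff.mpr hc₂
  have hninv : Algebra.norm F ((b₂ : F')⁻¹) = (Algebra.norm F (b₂ : F'))⁻¹ := by
    apply eq_inv_of_mul_eq_one_left
    rw [← map_mul, inv_mul_cancel₀ hc₂, map_one]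
  rw [Finset.sum_congr rfl (fun w _ => h1 w), Finset.sum_sub_distrib, sum_ord_eq_card v b₁ hb₁0,
    sum_ord_eq_card v b₂ hb₂0, ← ord_norm_eq_card v hdeg' b₁ hb₁0,
    ← ord_norm_eq_card v hdeg' b₂ hb₂0, hf', map_mul, hninv,
    v.ord_mul hn₁ (inv_ne_zero hn₂), v.ord_inv, sub_eq_add_neg]

end RelNorm

section Formula

variable [CharZero K] [Algebra.IsIntegral F F'] [HasPrincipalDivisors K F']

/-- **The norm formula** for a finite separable extension of function fields all of whose places
have degree one, in the Prelude's form. -/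
theorem pushforwardNormFormula_of_deg_eq_one (hdeg : ∀ v : Place K F, v.deg = 1)
    (hdeg' : ∀ w : Place K F', w.deg = 1) : Divisor.PushforwardNormFormula K F F' := by
  classical
  intro f hf D hD v
  rw [Divisor.pushforward_apply, ← sum_ord_eq_ord_norm v hdeg' hf]
  have h1 : ∀ w ∈ D.support, (if w.restrict F = v then D w * (w.inertiaDeg F : ℤ) else 0)
      = if w.restrict F = v then D w else 0 := by
    intro w _
    by_cases hw : w.restrict F = v
    · rw [if_pos hw, if_pos hw, inertiaDeg_eq_one (hdeg' w) (hdeg _), Nat.cast_one, mul_one]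
    · rw [if_neg hw, if_neg hw]
  rw [Finset.sum_congr rfl h1, ← Finset.sum_filter]
  have h2 : ∑ w ∈ v.fiber F', w.ord f = ∑ w ∈ (v.fiber F').filter (· ∈ D.support), D w := by
    rw [Finset.sum_filter_of_ne]
    · exact Finset.sum_congr rfl fun w _ => (hD w).symm
    · intro w _ hne
      exact Finsupp.mem_support_iff.mpr hne
  rw [h2]
  apply Finset.sum_congr _ fun _ _ => rfl
  ext w
  simp only [Finset.mem_filter, Place.mem_fiber]
  exact and_comm

end Formula

end Fermat.Agent.JA
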