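/-
J-A package H0 (helper7), part 3: `HeckeInputsAlong (AlgebraicClosure ℚ) N ℓ`.

Abstract part: for function fields `F`, `F'` over an algebraically closed field `K` of
characteristic zero (each with a coordinate) and a `K`-embedding `φ : F →ₐ[K] F'`:
`FiniteAlong`, integrality, `FundamentalIdentityAlong`, `NormFormulaAlong`.
Concrete part: the two degeneracy maps `α, β : F_N → F_{Nℓ}` over `ℚ̄`.
-/
import Mathlib
import Fermat.Agent.JA.H0_helper7_Norm
import Fermat.Agent.FF.Residue
import Fermat.Agent.X0N.S24_helper7_Wiring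
import Fermat.Prelude.Def_ModularCurve_HeckeOperatorTotal

set_option autoImplicit false
set_option linter.unusedSectionVars false
set_option linter.style.haveILetI false

open AlgebraicCurve IsDedekindDomain IntermediateField

namespace Fermat.Agent.JA

open Fermat.Agent.FF Fermat.Agent.FF.Gal

section Abstract

variable {K F F' : Type*} [Field K] [Field F] [Field F'] [Algebra K F] [Algebra K F']

/-- a `K`-embedding of function fields is finite. -/
theorem finiteAlong_of_coord (c : Coord K F) (c' : Coord K F') (φ : F →ₐ[K] F') :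
    FiniteAlong K φ := by
  letI := algebraAlong φ
  haveI := isScalarTower_along φ
  show Module.Finite F F'
  have hinj : Function.Injective φ := φ.toRingHom.injective
  have htr : Transcendental K (φ c.x) := by
    intro halg
    exact c.trans ((isAlgebraic_algHom_iff φ hinj).mp halg)
  have hfin : FiniteDimensional K⟮φ c.x⟯ F' := (c'.ofTranscendental (φ c.x) htr).fin
  -- `K⟮φ x⟯ ≤ φ.range`
  have hle : K⟮φ c.x⟯.toSubalgebra ≤ φ.range := by
    have h1 : K⟮φ c.x⟯ ≤ φ.fieldRange := by
      rw [IntermediateField.adjoin_le_iff]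
      rintro _ rfl
      exact ⟨c.x, rfl⟩
    intro y hy
    exact h1 hy
  letI : Algebra K⟮φ c.x⟯ φ.range := (Subalgebra.inclusion hle).toRingHom.toAlgebra
  haveI : IsScalarTower K⟮φ c.x⟯ φ.range F' := IsScalarTower.of_algebraMap_eq fun _ => rfl
  haveI : Module.Finite φ.range F' :=
    Module.Finite.of_restrictScalars_finite K⟮φ c.x⟯ φ.range F'
  refine Module.Finite.of_equiv_equiv (A₁ := φ.range) (B₁ := F')
    (AlgEquiv.ofInjectiveField φ).symm.toRingEquiv (RingEquiv.refl F') ?_
  ext y
  obtain ⟨x, hx⟩ := y.2
  have h1 : (AlgEquiv.ofInjectiveField φ).symm y = x := by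
    apply (AlgEquiv.ofInjectiveField φ).injective
    rw [AlgEquiv.apply_symm_apply]
    exact Subtype.ext hx.symm
  show φ ((AlgEquiv.ofInjectiveField φ).symm y) = (y : F')
  rw [h1]
  exact hx

theorem isIntegral_of_finiteAlong (φ : F →ₐ[K] F') (h : FiniteAlong K φ) :
    φ.toRingHom.IsIntegral := by
  letI := algebraAlong φ
  haveI : Module.Finite F F' := h
  exact (Algebra.IsIntegral.of_finite F F').isIntegral

variable [CharZero K] [IsAlgClosed K]

/-- **the fundamental identity** along an embedding of function fields over an algebraically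
closed field of characteristic zero. -/
theorem fundamentalIdentityAlong_of_coord (c : Coord K F) (c' : Coord K F') (φ : F →ₐ[K] F')
    (hφ : φ.toRingHom.IsIntegral) [HasPrincipalDivisors K F'] :
    FundamentalIdentityAlong K φ hφ := by
  letI := algebraAlong φ
  haveI := isScalarTower_along φ
  haveI := isIntegral_along φ hφ
  haveI : Module.Finite F F' := finiteAlong_of_coord c c' φ
  haveI : CharZero F := charZero_of_injective_algebraMap (algebraMap K F).injective
  haveI : Algebra.IsSeparable F F' := Algebra.IsAlgebraic.isSeparable_of_perfectField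
  haveI : SumRamificationInertia K F F' :=
    sumRamificationInertia_of_deg_eq_one (fun v => c.deg_eq_one v) (fun w => c'.deg_eq_one w)
  show FundamentalIdentity K F F'
  infer_instance

/-- **the norm formula** along an embedding of function fields over an algebraically closed
field of characteristic zero. -/
theorem normFormulaAlong_of_coord (c : Coord K F) (c' : Coord K F') (φ : F →ₐ[K] F')
    (hfin : FiniteAlong K φ) : NormFormulaAlong K φ hfin := by
  letI := algebraAlong φ
  haveI := isScalarTower_along φ
  haveI : Module.Finite F F' := hfin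
  haveI : Algebra.IsIntegral F F' := Algebra.IsIntegral.of_finite F F'
  haveI : CharZero F := charZero_of_injective_algebraMap (algebraMap K F).injective
  haveI : Algebra.IsSeparable F F' := Algebra.IsAlgebraic.isSeparable_of_perfectField
  haveI : HasPrincipalDivisors K F' := c'.hasPrincipalDivisors
  show Divisor.PushforwardNormFormula K F F'
  exact pushforwardNormFormula_of_deg_eq_one (fun v => c.deg_eq_one v) (fun w => c'.deg_eq_one w)

end Abstract

section Concrete

open ModularCurve Fermat.Agent.X0N

/-- the principal-divisor structure on the function field of `X₀(M)` over `ℚ̄`. -/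
theorem hasPrincipalDivisors_bar (M : ℕ) [NeZero M] :
    HasPrincipalDivisors (AlgebraicClosure ℚ)
      (laurentBaseChange (AlgebraicClosure ℚ) (modularFunctionFieldFull M)) :=
  (jCoordBar M).hasPrincipalDivisors

variable (N ℓ : ℕ) [NeZero N] [NeZero ℓ]

theorem finiteAlong_heckeAlphaBar :
    FiniteAlong (AlgebraicClosure ℚ) (heckeAlphaBar (AlgebraicClosure ℚ) N ℓ) :=
  finiteAlong_of_coord (jCoordBar N) (jCoordBar (N * ℓ)) _

theorem finiteAlong_heckeBetaBar :
    FiniteAlong (AlgebraicClosure ℚ) (heckeBetaBar (AlgebraicClosure ℚ) N ℓ) :=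
  finiteAlong_of_coord (jCoordBar N) (jCoordBar (N * ℓ)) _

theorem heckeAlphaBarIntegral_bar : HeckeAlphaBarIntegral (AlgebraicClosure ℚ) N ℓ :=
  isIntegral_of_finiteAlong _ (finiteAlong_heckeAlphaBar N ℓ)

theorem heckeBetaBarIntegral_bar : HeckeBetaBarIntegral (AlgebraicClosure ℚ) N ℓ :=
  isIntegral_of_finiteAlong _ (finiteAlong_heckeBetaBar N ℓ)

/-- **(H0)** all inputs of the Hecke correspondence `T_ℓ` on `Pic⁰(X₀(N))` over `ℚ̄`. -/
theorem heckeInputsAlong_bar : HeckeInputsAlong (AlgebraicClosure ℚ) N ℓ := by
  haveI : HasPrincipalDivisors (AlgebraicClosure ℚ)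
      (laurentBaseChange (AlgebraicClosure ℚ) (modularFunctionFieldFull (N * ℓ))) :=
    hasPrincipalDivisors_bar (N * ℓ)
  exact heckeInputsAlong_intro (heckeAlphaBarIntegral_bar N ℓ) (heckeBetaBarIntegral_bar N ℓ)
    (fundamentalIdentityAlong_of_coord (jCoordBar N) (jCoordBar (N * ℓ)) _ _)
    (finiteAlong_heckeAlphaBar N ℓ)
    (normFormulaAlong_of_coord (jCoordBar N) (jCoordBar (N * ℓ)) _ _)

/-- the inputs of the transposed correspondence. -/
theorem heckeInputsTranspose_bar :
    ∃ (_ : HasPrincipalDivisors (AlgebraicClosure ℚ)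
        (laurentBaseChange (AlgebraicClosure ℚ) (modularFunctionFieldFull (N * ℓ)))),
      FundamentalIdentityAlong (AlgebraicClosure ℚ) (heckeAlphaBar (AlgebraicClosure ℚ) N ℓ)
          (heckeAlphaBarIntegral_bar N ℓ) ∧
        NormFormulaAlong (AlgebraicClosure ℚ) (heckeBetaBar (AlgebraicClosure ℚ) N ℓ)
          (finiteAlong_heckeBetaBar N ℓ) := by
  haveI : HasPrincipalDivisors (AlgebraicClosure ℚ)
      (laurentBaseChange (AlgebraicClosure ℚ) (modularFunctionFieldFull (N * ℓ))) :=
    hasPrincipalDivisors_bar (N * ℓ)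
  exact ⟨inferInstance,
    fundamentalIdentityAlong_of_coord (jCoordBar N) (jCoordBar (N * ℓ)) _ _,
    normFormulaAlong_of_coord (jCoordBar N) (jCoordBar (N * ℓ)) _ _⟩

end Concrete

end Fermat.Agent.JA
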