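/-
(BCDEG) (helper7, for helper1's O1), abstract part: the degree of a finite extension `E₁ / F₁`
of `k`-fields is unchanged by a base change `k → Ω'` which is "linearly disjoint" (an explicit
coefficientwise hypothesis `hLD`), provided the base-changed fields are generated by the images
and the constants.
-/
import Mathlib

set_option autoImplicit false
set_option linter.unusedSectionVars false
set_option linter.unusedVariables false

namespace Fermat.Agent.JA.BCDeg

open Module

section Phi

variable {Ω' X Y J : Type*} [Field Ω'] [Ring X] [Ring Y] [Algebra Ω' Y]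

/-- `(f_j) ↦ ∑ ω_j · c(f_j)`. -/
noncomputable def phi (ω : J → Ω') (c : X →+* Y) : (J →₀ X) →+ Y :=
  Finsupp.liftAddHom fun j =>
    (AddMonoidHom.mulLeft (algebraMap Ω' Y (ω j))).comp c.toAddMonoidHom

theorem phi_apply (ω : J → Ω') (c : X →+* Y) (f : J →₀ X) :
    phi ω c f = f.sum fun j x => algebraMap Ω' Y (ω j) * c x := rfl

@[simp]
theorem phi_single (ω : J → Ω') (c : X →+* Y) (j : J) (x : X) :
    phi ω c (Finsupp.single j x) = algebraMap Ω' Y (ω j) * c x := by
  rw [phi_apply, Finsupp.sum_single_index]
  rw [map_zero, mul_zero]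

end Phi

variable {k Ω' F₁ E₁ F₂ E₂ : Type*} [Field k] [Field Ω'] [Field F₁] [Field E₁] [Field F₂]
  [Field E₂] [Algebra k Ω'] [Algebra k F₁] [Algebra F₁ E₁] [Algebra F₂ E₂] [Algebra Ω' F₂]
  [Algebra Ω' E₂] [IsScalarTower Ω' F₂ E₂]
  (cF : F₁ →+* F₂) (cE : E₁ →+* E₂)

section Rep

variable {J : Type*} (B : Basis J k Ω')
  (hk : ∀ a : k, cF (algebraMap k F₁ a) = algebraMap Ω' F₂ (algebraMap k Ω' a))

include hk in
theorem omega_mul_mem (ω : Ω') : ∀ f : F₁,
    algebraMap Ω' F₂ ω * cF f ∈ (phi B cF).range := by
  have hω : ω ∈ Submodule.span k (Set.range B) := by rw [B.span_eq]; trivial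
  induction hω using Submodule.span_induction with
  | mem x hx =>
    obtain ⟨j, rfl⟩ := hx
    intro f
    exact ⟨Finsupp.single j f, phi_single _ _ _ _⟩
  | zero =>
    intro f
    rw [map_zero, zero_mul]
    exact zero_mem _
  | add x y _ _ hx hy =>
    intro f
    rw [map_add, add_mul]
    exact add_mem (hx f) (hy f)
  | smul r x _ hx =>
    intro f
    have h := hx (r • f)
    rw [Algebra.smul_def, map_mul, hk] at h
    rw [Algebra.smul_def, map_mul]
    convert h using 1
    ring

include hk in
theorem mul_mem_range_phi {x y : F₂} (hx : x ∈ (phi B cF).range) (hy : y ∈ (phi B cF).range) :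
    x * y ∈ (phi B cF).range := by
  obtain ⟨f, rfl⟩ := hx
  obtain ⟨f', rfl⟩ := hy
  induction f using Finsupp.induction_linear with
  | zero => rw [map_zero, zero_mul]; exact zero_mem _
  | add f₁ f₂ h₁ h₂ => rw [map_add, add_mul]; exact add_mem h₁ h₂
  | single j x =>
    induction f' using Finsupp.induction_linear with
    | zero => rw [map_zero, mul_zero]; exact zero_mem _
    | add f₁ f₂ h₁ h₂ => rw [map_add, mul_add]; exact add_mem h₁ h₂
    | single l x' =>
      rw [phi_single, phi_single]
      have h := omega_mul_mem cF B hk (B j * B l) (x * x')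
      rw [map_mul, map_mul] at h
      convert h using 1
      ring

include hk in
/-- every element of the subring generated by `c(F₁)` and `Ω'` is `∑ B_j · c(f_j)`. -/
theorem mem_range_phi_of_mem_closure {y : F₂}
    (hy : y ∈ Subring.closure (Set.range cF ∪ Set.range (algebraMap Ω' F₂))) :
    y ∈ (phi B cF).range := by
  induction hy using Subring.closure_induction with
  | mem x hx =>
    rcases hx with ⟨f, rfl⟩ | ⟨ω, rfl⟩
    · have h := omega_mul_mem cF B hk 1 f
      rwa [map_one, one_mul] at h
    · have h := omega_mul_mem cF B hk ω 1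
      rwa [map_one, mul_one] at h
  | zero => exact zero_mem _
  | one =>
    have h := omega_mul_mem cF B hk 1 1
    rwa [map_one, map_one, one_mul] at h
  | add x y _ _ hx hy => exact add_mem hx hy
  | neg x _ hx => exact neg_mem hx
  | mul x y _ _ hx hy => exact mul_mem_range_phi cF B hk hx hy

end Rep

section Denom

variable (hgenF : Subfield.closure (Set.range cF ∪ Set.range (algebraMap Ω' F₂)) = ⊤)

include hgenF in
theorem exists_common_denom {ι : Type*} (a : ι → F₂) (s : Finset ι) :
    ∃ q ∈ Subring.closure (Set.range cF ∪ Set.range (algebraMap Ω' F₂)), q ≠ 0 ∧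
      ∀ i ∈ s, q * a i ∈ Subring.closure (Set.range cF ∪ Set.range (algebraMap Ω' F₂)) := by
  classical
  induction s using Finset.induction_on with
  | empty => exact ⟨1, one_mem _, one_ne_zero, by simp⟩
  | insert i₀ s hi₀ ih =>
    obtain ⟨q, hq, hq0, hqs⟩ := ih
    have hmem : a i₀ ∈ Subfield.closure (Set.range cF ∪ Set.range (algebraMap Ω' F₂)) := by
      rw [hgenF]; trivial
    obtain ⟨y, hy, z, hz, hyz⟩ := Subfield.mem_closure_iff.mp hmem
    by_cases hz0 : z = 0
    · refine ⟨q, hq, hq0, fun i hi => ?_⟩
      rcases Finset.mem_insert.mp hi with rfl | hi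
      · rw [← hyz, hz0, div_zero, mul_zero]; exact zero_mem _
      · exact hqs i hi
    · refine ⟨q * z, mul_mem hq hz, mul_ne_zero hq0 hz0, fun i hi => ?_⟩
      rcases Finset.mem_insert.mp hi with rfl | hi
      · have : q * z * a i = q * y := by rw [← hyz]; field_simp
        rw [this]; exact mul_mem hq hy
      · have : q * z * a i = z * (q * a i) := by ring
        rw [this]; exact mul_mem hz (hqs i hi)

end Denom

section Main

variable (hc : ∀ f, cE (algebraMap F₁ E₁ f) = algebraMap F₂ E₂ (cF f))
  (hk : ∀ a : k, cF (algebraMap k F₁ a) = algebraMap Ω' F₂ (algebraMap k Ω' a))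
  (hgenF : Subfield.closure (Set.range cF ∪ Set.range (algebraMap Ω' F₂)) = ⊤)
  (hgenE : Subfield.closure (Set.range cE ∪ Set.range (algebraMap Ω' E₂)) = ⊤)
  (hLD : ∀ g : (Basis.ofVectorSpaceIndex k Ω') →₀ E₁,
    phi (Basis.ofVectorSpace k Ω') cE g = 0 → g = 0)

include hc hk hgenF hLD in
/-- an `F₁`-basis of `E₁` stays linearly independent over `F₂`. -/
theorem linearIndependent_of_basis {ι : Type*} [Fintype ι] (b : Basis ι F₁ E₁) :
    LinearIndependent F₂ fun i => cE (b i) := by
  classical
  rw [Fintype.linearIndependent_iff]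
  intro a ha
  obtain ⟨q, hq, hq0, hqs⟩ := exists_common_denom cF hgenF a Finset.univ
  have hrep : ∀ i, ∃ f : (Basis.ofVectorSpaceIndex k Ω') →₀ F₁,
      phi (Basis.ofVectorSpace k Ω') cF f = q * a i := fun i =>
    mem_range_phi_of_mem_closure cF (Basis.ofVectorSpace k Ω') hk (hqs i (Finset.mem_univ i))
  choose f hf using hrep
  -- the element of `Ω' ⊗ E₁`
  let g : (Basis.ofVectorSpaceIndex k Ω') →₀ E₁ :=
    ∑ i, (f i).mapRange (fun x => x • b i) (zero_smul _ _)
  have hphi : ∀ i, phi (Basis.ofVectorSpace k Ω') cE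
      ((f i).mapRange (fun x => x • b i) (zero_smul _ _)) = (q * a i) • cE (b i) := by
    intro i
    rw [← hf i, phi_apply, phi_apply, Finsupp.sum_mapRange_index (by simp),
      Finsupp.sum, Finsupp.sum, Finset.sum_smul]
    refine Finset.sum_congr rfl fun j _ => ?_
    rw [Algebra.smul_def (f i j) (b i), map_mul, hc, Algebra.smul_def, map_mul,
      ← IsScalarTower.algebraMap_apply Ω' F₂ E₂]
    ring
  have hg : phi (Basis.ofVectorSpace k Ω') cE g = 0 := by
    show phi (Basis.ofVectorSpace k Ω') cE
      (∑ i, (f i).mapRange (fun x => x • b i) (zero_smul _ _)) = 0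
    rw [map_sum]
    simp only [hphi]
    simp only [mul_smul]
    rw [← Finset.smul_sum, ha, smul_zero]
  have hg0 := hLD g hg
  have hfij : ∀ i j, f i j = 0 := by
    intro i j
    have h1 : (g j : E₁) = 0 := by rw [hg0]; rfl
    have h2 : (g j : E₁) = ∑ i, f i j • b i := by
      show (∑ i, (f i).mapRange (fun x => x • b i) (zero_smul _ _)) j = _
      rw [Finsupp.finsetSum_apply]
      rfl
    rw [h2] at h1
    exact Fintype.linearIndependent_iff.mp b.linearIndependent (fun i => f i j) h1 i
  intro i
  have hfi : f i = 0 := Finsupp.ext fun j => hfij i j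
  have h3 := hf i
  rw [hfi, map_zero] at h3
  rcases mul_eq_zero.mp h3.symm with h | h
  · exact absurd h hq0
  · exact h

include hc hgenE in
/-- the `F₂`-span of the image of an `F₁`-basis of `E₁` is everything. -/
theorem span_eq_top_of_basis [Algebra.IsAlgebraic F₂ E₂] {ι : Type*} [Fintype ι]
    (b : Basis ι F₁ E₁) :
    Submodule.span F₂ (Set.range fun i => cE (b i)) = ⊤ := by
  classical
  set M : Submodule F₂ E₂ := Submodule.span F₂ (Set.range fun i => cE (b i)) with hM
  have hmemE : ∀ e : E₁, cE e ∈ M := by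
    intro e
    rw [← b.sum_repr e, map_sum]
    refine sum_mem fun i _ => ?_
    rw [Algebra.smul_def, map_mul, hc, ← Algebra.smul_def]
    exact Submodule.smul_mem _ _ (Submodule.subset_span ⟨i, rfl⟩)
  have hone : (1 : E₂) ∈ M := by
    have := hmemE 1
    rwa [map_one] at this
  have hmul : ∀ x y, x ∈ M → y ∈ M → x * y ∈ M := by
    intro x y hx hy
    induction hx using Submodule.span_induction with
    | mem x hx =>
      obtain ⟨i, rfl⟩ := hx
      induction hy using Submodule.span_induction with
      | mem y hy =>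
        obtain ⟨j, rfl⟩ := hy
        show cE (b i) * cE (b j) ∈ M
        rw [← map_mul]
        exact hmemE _
      | zero => rw [mul_zero]; exact zero_mem _
      | add y z _ _ hy hz => rw [mul_add]; exact add_mem hy hz
      | smul r y _ hy => rw [mul_smul_comm]; exact Submodule.smul_mem _ _ hy
    | zero => rw [zero_mul]; exact zero_mem _
    | add x z _ _ hx hz => rw [add_mul]; exact add_mem hx hz
    | smul r x _ hx => rw [smul_mul_assoc]; exact Submodule.smul_mem _ _ hx
  let A : Subalgebra F₂ E₂ := M.toSubalgebra hone hmul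
  let A' : IntermediateField F₂ E₂ := A.toIntermediateField' (Subalgebra.isField_of_algebraic A)
  have hle : Subfield.closure (Set.range cE ∪ Set.range (algebraMap Ω' E₂)) ≤ A'.toSubfield := by
    rw [Subfield.closure_le]
    rintro x (⟨e, rfl⟩ | ⟨ω, rfl⟩)
    · exact hmemE e
    · show algebraMap Ω' E₂ ω ∈ A'
      rw [IsScalarTower.algebraMap_apply Ω' F₂ E₂]
      exact A'.algebraMap_mem _
  rw [hgenE] at hle
  rw [eq_top_iff]
  intro x _
  exact hle (Subfield.mem_top x)

include hc hk hgenF hgenE hLD in
/-- **(BCDEG), abstract form**. -/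
theorem finrank_eq_of_linearDisjoint [FiniteDimensional F₁ E₁] [Algebra.IsAlgebraic F₂ E₂] :
    Module.finrank F₂ E₂ = Module.finrank F₁ E₁ := by
  classical
  let b := Module.finBasis F₁ E₁
  have hli := linearIndependent_of_basis cF cE hc hk hgenF hLD b
  have hsp := span_eq_top_of_basis cF cE hc hgenE b
  let b' : Basis (Fin (Module.finrank F₁ E₁)) F₂ E₂ := Basis.mk hli hsp.ge
  rw [Module.finrank_eq_card_basis b', Fintype.card_fin]

end Main

end Fermat.Agent.JA.BCDeg
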