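/-
J-A third wave, package (UP) (helper7), part 2: the upstairs function field `E_Ω ⊇ F_Ω` over
`Ω = ℚ̄`: a coordinate on `E_Ω`, `HasPrincipalDivisors`, all places of degree one, the fundamental
identity `∑_{w | v} e(w | v) = [E_Ω : F_Ω]`.
-/
import Mathlib
import Fermat.Agent.JA.UP_helper7_Emb
import Fermat.Agent.JA.H0_helper7_Main
import Fermat.Agent.X0N.S24_helper7_Generic

set_option autoImplicit false
set_option linter.unusedSectionVars false
set_option linter.style.haveILetI false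
set_option synthInstance.maxHeartbeats 200000

open HahnSeries IntermediateField AlgebraicCurve ModularCurve Polynomial

namespace Fermat.Agent.JA

open Fermat.Agent.FF Fermat.Agent.FF.Gal

noncomputable section

section Abstract

variable {K F F' : Type*} [Field K] [Field F] [Field F'] [Algebra K F] [Algebra K F']

/-- a coordinate of `F` stays a coordinate on a finite extension `F'`. -/
theorem finiteDimensional_adjoin_map_of_finiteAlong (c : Coord K F) (φ : F →ₐ[K] F')
    (hfin : FiniteAlong K φ) : FiniteDimensional K⟮φ c.x⟯ F' := by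
  letI := algebraAlong φ
  haveI : Module.Finite F F' := hfin
  haveI : FiniteDimensional K⟮c.x⟯ F := c.fin
  haveI : Module.Finite ↥K⟮c.x⟯ F' := Module.Finite.trans (R := ↥K⟮c.x⟯) F F'
  have hmap : ∀ a : ↥K⟮c.x⟯, φ (a : F) ∈ K⟮φ c.x⟯ := by
    intro a
    have h1 : φ (a : F) ∈ (K⟮c.x⟯).map φ := ⟨a, a.2, rfl⟩
    rw [IntermediateField.adjoin_map, Set.image_singleton] at h1
    exact h1
  let f₁ : ↥K⟮c.x⟯ →+* ↥K⟮φ c.x⟯ :=
    { toFun := fun a => ⟨φ (a : F), hmap a⟩
      map_one' := Subtype.ext (by simp)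
      map_mul' := fun a b => Subtype.ext (by simp)
      map_zero' := Subtype.ext (by simp)
      map_add' := fun a b => Subtype.ext (by simp) }
  have hf₁surj : Function.Surjective f₁ := by
    rintro ⟨y, hy⟩
    have h1 : y ∈ (K⟮c.x⟯).map φ := by
      rw [IntermediateField.adjoin_map, Set.image_singleton]
      exact hy
    obtain ⟨a, ha, rfl⟩ := h1
    exact ⟨⟨a, ha⟩, rfl⟩
  let e₁ : ↥K⟮c.x⟯ ≃+* ↥K⟮φ c.x⟯ := RingEquiv.ofBijective f₁ ⟨f₁.injective, hf₁surj⟩
  refine Module.Finite.of_equiv_equiv e₁ (RingEquiv.refl F') ?_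
  refine RingHom.ext fun a => ?_
  rfl

/-- the coordinate `φ x` on a finite extension. -/
def _root_.Fermat.Agent.FF.Coord.extendAlong (c : Coord K F) (φ : F →ₐ[K] F') (hfin : FiniteAlong K φ) : Coord K F' where
  x := φ c.x
  trans := by
    intro halg
    exact c.trans ((isAlgebraic_algHom_iff φ φ.toRingHom.injective).mp halg)
  fin := finiteDimensional_adjoin_map_of_finiteAlong c φ hfin

@[simp] theorem _root_.Fermat.Agent.FF.Coord.extendAlong_x (c : Coord K F) (φ : F →ₐ[K] F') (hfin : FiniteAlong K φ) :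
    (c.extendAlong φ hfin).x = φ c.x := rfl

variable [CharZero K] [IsAlgClosed K]

/-- **the upstairs package** for a finite extension `F'` of a function field `F` with a
coordinate, over an algebraically closed field of characteristic zero. -/
theorem upstairs_of_coord (c : Coord K F) (φ : F →ₐ[K] F') (hfin : FiniteAlong K φ) :
    letI := algebraAlong φ
    haveI := isScalarTower_along φ
    haveI := isIntegral_along φ (isIntegral_of_finiteAlong φ hfin)
    haveI : HasPrincipalDivisors K F' := (c.extendAlong φ hfin).hasPrincipalDivisors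
    (∀ w : Place K F', w.deg = 1) ∧ FundamentalIdentity K F F' ∧
      ∀ v : Place K F, ∑ w ∈ v.fiber F', (w.ramificationIndex F : ℤ) =
        (Module.finrank F F' : ℤ) := by
  letI := algebraAlong φ
  haveI := isScalarTower_along φ
  haveI := isIntegral_along φ (isIntegral_of_finiteAlong φ hfin)
  haveI : HasPrincipalDivisors K F' := (c.extendAlong φ hfin).hasPrincipalDivisors
  have hFI : FundamentalIdentityAlong K φ (isIntegral_of_finiteAlong φ hfin) :=
    fundamentalIdentityAlong_of_coord c (c.extendAlong φ hfin) φ _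
  have hFI' : FundamentalIdentity K F F' := hFI
  have hdeg : ∀ v : Place K F, v.deg = 1 := fun v => c.deg_eq_one v
  have hdeg' : ∀ w : Place K F', w.deg = 1 := fun w => (c.extendAlong φ hfin).deg_eq_one w
  refine ⟨hdeg', hFI', fun v => ?_⟩
  have key := hFI'.sum_ramificationIndex_mul_deg v
  rw [hdeg v, Nat.cast_one, mul_one] at key
  rw [← key]
  refine Finset.sum_congr rfl fun w _ => ?_
  rw [hdeg' w, Nat.cast_one, mul_one]

end Abstract

section Omega

local notation "Ω" => AlgebraicClosure ℚ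

variable (N w : ℕ) [NeZero N] [NeZero w] (t : LaurentSeries Ω)

/-- `E_Ω / F_Ω` is finite. -/
theorem finiteAlong_fullToEtu (ht : IsIntegral ↥Ω⟮jqNModC Ω w⟯ t) :
    FiniteAlong Ω (fullToEtu Ω N w t) :=
  finite_fullToEtu Ω N w t ht

/-- a coordinate on `E_Ω` (the image of `j`). -/
def etuCoordBar (ht : IsIntegral ↥Ω⟮jqNModC Ω w⟯ t) :
    Coord Ω ↥(Host.Etu (keyFw Ω N w) t 1) :=
  (Fermat.Agent.X0N.jCoordBar N).extendAlong (fullToEtu Ω N w t) (finiteAlong_fullToEtu N w t ht)

theorem hasPrincipalDivisors_Etu (ht : IsIntegral ↥Ω⟮jqNModC Ω w⟯ t) :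
    HasPrincipalDivisors Ω ↥(Host.Etu (keyFw Ω N w) t 1) :=
  (etuCoordBar N w t ht).hasPrincipalDivisors

theorem deg_eq_one_Etu (ht : IsIntegral ↥Ω⟮jqNModC Ω w⟯ t)
    (P : Place Ω ↥(Host.Etu (keyFw Ω N w) t 1)) : P.deg = 1 :=
  (etuCoordBar N w t ht).deg_eq_one P

end Omega

section LegHes

local notation "Ω" => AlgebraicClosure ℚ

variable (N : ℕ) [NeZero N]

theorem finiteAlong_fullToLegE : FiniteAlong Ω (fullToLegE Ω N) :=
  finiteAlong_fullToEtu N 2 (legT Ω) (isIntegral_legT Ω)

theorem finiteAlong_fullToHesE : FiniteAlong Ω (fullToHesE Ω N) :=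
  finiteAlong_fullToEtu N 3 (hesT Ω) (isIntegral_hesT Ω)

/-- a coordinate on `legE Ω N`. -/
def legECoordBar : Coord Ω ↥(legE Ω N) := etuCoordBar N 2 (legT Ω) (isIntegral_legT Ω)

/-- a coordinate on `hesE Ω N`. -/
def hesECoordBar : Coord Ω ↥(hesE Ω N) := etuCoordBar N 3 (hesT Ω) (isIntegral_hesT Ω)

theorem up_hasPrincipalDivisors_legE : HasPrincipalDivisors Ω ↥(legE Ω N) :=
  (legECoordBar N).hasPrincipalDivisors

theorem up_hasPrincipalDivisors_hesE : HasPrincipalDivisors Ω ↥(hesE Ω N) :=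
  (hesECoordBar N).hasPrincipalDivisors

theorem up_deg_eq_one_legE (P : Place Ω ↥(legE Ω N)) : P.deg = 1 := (legECoordBar N).deg_eq_one P

theorem up_deg_eq_one_hesE (P : Place Ω ↥(hesE Ω N)) : P.deg = 1 := (hesECoordBar N).deg_eq_one P

/-- **(UP) for `legE Ω N ⊇ F_Ω`**: tower, finiteness, integrality, degree one, the fundamental
identity and `∑_{w | v} e(w | v) = [E_Ω : F_Ω]`. -/
theorem upstairs_legE :
    letI : Algebra ↥(modularFunctionFieldBar N) ↥(legE Ω N) :=
      (fullToLegE Ω N).toRingHom.toAlgebra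
    haveI : HasPrincipalDivisors Ω ↥(legE Ω N) := up_hasPrincipalDivisors_legE N
    ∃ (_ : IsScalarTower Ω ↥(modularFunctionFieldBar N) ↥(legE Ω N))
      (_ : Algebra.IsIntegral ↥(modularFunctionFieldBar N) ↥(legE Ω N)),
      FiniteDimensional ↥(modularFunctionFieldBar N) ↥(legE Ω N) ∧
      (∀ w : Place Ω ↥(legE Ω N), w.deg = 1) ∧
      FundamentalIdentity Ω ↥(modularFunctionFieldBar N) ↥(legE Ω N) ∧
      ∀ v : Place Ω ↥(modularFunctionFieldBar N),
        ∑ w ∈ v.fiber ↥(legE Ω N), (w.ramificationIndex ↥(modularFunctionFieldBar N) : ℤ) =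
          (Module.finrank ↥(modularFunctionFieldBar N) ↥(legE Ω N) : ℤ) := by
  letI : Algebra ↥(modularFunctionFieldBar N) ↥(legE Ω N) :=
    (fullToLegE Ω N).toRingHom.toAlgebra
  have h := upstairs_of_coord (Fermat.Agent.X0N.jCoordBar N) (fullToLegE Ω N)
    (finiteAlong_fullToLegE N)
  exact ⟨isScalarTower_along (fullToLegE Ω N),
    isIntegral_along (fullToLegE Ω N) (isIntegral_of_finiteAlong _ (finiteAlong_fullToLegE N)),
    finiteAlong_fullToLegE N, h.1, h.2.1, h.2.2⟩

/-- **(UP) for `hesE Ω N ⊇ F_Ω`**. -/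
theorem upstairs_hesE :
    letI : Algebra ↥(modularFunctionFieldBar N) ↥(hesE Ω N) :=
      (fullToHesE Ω N).toRingHom.toAlgebra
    haveI : HasPrincipalDivisors Ω ↥(hesE Ω N) := up_hasPrincipalDivisors_hesE N
    ∃ (_ : IsScalarTower Ω ↥(modularFunctionFieldBar N) ↥(hesE Ω N))
      (_ : Algebra.IsIntegral ↥(modularFunctionFieldBar N) ↥(hesE Ω N)),
      FiniteDimensional ↥(modularFunctionFieldBar N) ↥(hesE Ω N) ∧
      (∀ w : Place Ω ↥(hesE Ω N), w.deg = 1) ∧
      FundamentalIdentity Ω ↥(modularFunctionFieldBar N) ↥(hesE Ω N) ∧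
      ∀ v : Place Ω ↥(modularFunctionFieldBar N),
        ∑ w ∈ v.fiber ↥(hesE Ω N), (w.ramificationIndex ↥(modularFunctionFieldBar N) : ℤ) =
          (Module.finrank ↥(modularFunctionFieldBar N) ↥(hesE Ω N) : ℤ) := by
  letI : Algebra ↥(modularFunctionFieldBar N) ↥(hesE Ω N) :=
    (fullToHesE Ω N).toRingHom.toAlgebra
  have h := upstairs_of_coord (Fermat.Agent.X0N.jCoordBar N) (fullToHesE Ω N)
    (finiteAlong_fullToHesE N)
  exact ⟨isScalarTower_along (fullToHesE Ω N),
    isIntegral_along (fullToHesE Ω N) (isIntegral_of_finiteAlong _ (finiteAlong_fullToHesE N)),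
    finiteAlong_fullToHesE N, h.1, h.2.1, h.2.2⟩

end LegHes

section GeneralK

variable (K : Type*) [Field K] [Algebra ℚ K] [Algebra K ℂ] [IsScalarTower ℚ K ℂ]
  (N : ℕ) [NeZero N]

/-- a coordinate on `legE K N` for every field `ℚ ⊆ K ⊆ ℂ` (e.g. a base). -/
def legECoordK : Coord K ↥(legE K N) :=
  (Fermat.Agent.X0N.jCoordK K N).extendAlong (fullToLegE K N) (finite_fullToLegE K N)

/-- a coordinate on `hesE K N` for every field `ℚ ⊆ K ⊆ ℂ`. -/
def hesECoordK : Coord K ↥(hesE K N) :=
  (Fermat.Agent.X0N.jCoordK K N).extendAlong (fullToHesE K N) (finite_fullToHesE K N)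

theorem legECoordK_x : (legECoordK K N).x = fullToLegE K N (Fermat.Agent.X0N.jGen K N) := rfl

theorem hesECoordK_x : (hesECoordK K N).x = fullToHesE K N (Fermat.Agent.X0N.jGen K N) := rfl

end GeneralK

end

end Fermat.Agent.JA
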