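/-
(BCDEG) (helper7, for helper1's O1), concrete part: the degrees `[legE : F]`, `[hesE : F]` of the
tower fields over the modular function field are the same over a base `K₁ ⊆ Ω` and over `Ω`.
-/
import Mathlib
import Fermat.Agent.JA.BCDEG_helper7_Abs
import Fermat.Agent.JA.BCD_helper9_HostRat
import Fermat.Agent.JA.UP_helper7_Coord

set_option autoImplicit false
set_option linter.unusedSectionVars false
set_option linter.unusedVariables false
set_option linter.style.haveILetI false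
set_option synthInstance.maxHeartbeats 200000

open HahnSeries IntermediateField AlgebraicCurve ModularCurve Module

namespace Fermat.Agent.JA

open Fermat.Agent.FF

section LD

variable {K L : Type*} [Field K] [Field L] [Algebra K L]
  (E_K : IntermediateField K (LaurentSeries K)) (E_L : IntermediateField L (LaurentSeries L))
  (h : ∀ x ∈ E_K, coeffMap (algebraMap K L) x ∈ E_L)

/-- **coefficientwise linear disjointness** of `K((x))` and `L` over `K` inside `L((x))`. -/
theorem phi_coeffHom_eq_zero {J : Type*} (ω : J → L) (hω : LinearIndependent K ω)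
    (g : J →₀ ↥E_K) (hg : BCDeg.phi ω (coeffHom (algebraMap K L) E_K E_L h) g = 0) : g = 0 := by
  classical
  ext j : 1
  apply Subtype.ext
  apply HahnSeries.ext
  funext n
  have hcoe : ∑ j ∈ g.support, algebraMap L (LaurentSeries L) (ω j) *
      coeffMap (algebraMap K L) ((g j : ↥E_K) : LaurentSeries K) = 0 := by
    have h1 := congrArg (fun y : ↥E_L => (y : LaurentSeries L)) hg
    simp only [BCDeg.phi_apply, Finsupp.sum] at h1
    rw [AddSubmonoidClass.coe_finsetSum] at h1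
    exact h1
  have hn := congrArg (fun y : LaurentSeries L => y.coeff n) hcoe
  simp only [HahnSeries.coeff_sum, HahnSeries.coeff_zero] at hn
  let l : J →₀ K := g.mapRange (fun x => ((x : ↥E_K) : LaurentSeries K).coeff n) (by simp)
  have hl : Finsupp.linearCombination K ω l = 0 := by
    rw [Finsupp.linearCombination_apply, Finsupp.sum_mapRange_index (by simp)]
    rw [Finsupp.sum]
    rw [← hn]
    refine Finset.sum_congr rfl fun j _ => ?_
    rw [ModularCurve.algebraMap_laurentSeries_eq_single, HahnSeries.coeff_single_zero_mul,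
      coeffMap_coeff, Algebra.smul_def, mul_comm]
  have hl0 := linearIndependent_iff.mp hω l hl
  have := DFunLike.congr_fun hl0 j
  simpa [l] using this

end LD

section Inst

/-- `Ω = AlgebraicClosure ℚ`. -/
local notation "Ω" => AlgebraicClosure ℚ

variable (N : ℕ) [NeZero N] (K₁ : IntermediateField ℚ Ω)

theorem bcdeg_legBC_fullToLegE (f : ↥(keyFq ↥K₁ N)) :
    legBC N K₁ (fullToLegE ↥K₁ N f) = fullToLegE Ω N (keyFqBC N K₁ f) :=
  Subtype.ext (coeffMap_fullToLegE N (algebraMap ↥K₁ Ω) f)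

theorem bcdeg_hesBC_fullToHesE (f : ↥(keyFq ↥K₁ N)) :
    hesBC N K₁ (fullToHesE ↥K₁ N f) = fullToHesE Ω N (keyFqBC N K₁ f) :=
  Subtype.ext (coeffMap_fullToHesE N (algebraMap ↥K₁ Ω) f)

/-- **(BCDEG) for `legE`**. -/
theorem finrank_legE_base :
    letI : Algebra ↥(keyFq ↥K₁ N) ↥(legE ↥K₁ N) := (fullToLegE ↥K₁ N).toRingHom.toAlgebra
    letI : Algebra ↥(modularFunctionFieldBar N) ↥(legE Ω N) :=
      (fullToLegE Ω N).toRingHom.toAlgebra
    Module.finrank ↥(modularFunctionFieldBar N) ↥(legE Ω N) =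
      Module.finrank ↥(keyFq ↥K₁ N) ↥(legE ↥K₁ N) := by
  letI : Algebra ↥(keyFq ↥K₁ N) ↥(legE ↥K₁ N) := (fullToLegE ↥K₁ N).toRingHom.toAlgebra
  letI : Algebra ↥(modularFunctionFieldBar N) ↥(legE Ω N) :=
    (fullToLegE Ω N).toRingHom.toAlgebra
  haveI : IsScalarTower Ω ↥(modularFunctionFieldBar N) ↥(legE Ω N) :=
    isScalarTower_along (fullToLegE Ω N)
  haveI : FiniteDimensional ↥(keyFq ↥K₁ N) ↥(legE ↥K₁ N) := finite_fullToLegE ↥K₁ N
  haveI : FiniteDimensional ↥(modularFunctionFieldBar N) ↥(legE Ω N) := finite_fullToLegE Ω N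
  haveI : Algebra.IsAlgebraic ↥(modularFunctionFieldBar N) ↥(legE Ω N) :=
    Algebra.IsAlgebraic.of_finite _ _
  exact BCDeg.finrank_eq_of_linearDisjoint (k := ↥K₁) (Ω' := Ω) (keyFqBC N K₁) (legBC N K₁)
    (bcdeg_legBC_fullToLegE N K₁) (keyFqBC_algebraMap N K₁) (closure_range_keyFqBC N K₁)
    (closure_range_legBC N K₁)
    (fun g hg => phi_coeffHom_eq_zero _ _ _ _ (Basis.ofVectorSpace ↥K₁ Ω).linearIndependent g hg)

/-- **(BCDEG) for `hesE`**. -/
theorem finrank_hesE_base :
    letI : Algebra ↥(keyFq ↥K₁ N) ↥(hesE ↥K₁ N) := (fullToHesE ↥K₁ N).toRingHom.toAlgebra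
    letI : Algebra ↥(modularFunctionFieldBar N) ↥(hesE Ω N) :=
      (fullToHesE Ω N).toRingHom.toAlgebra
    Module.finrank ↥(modularFunctionFieldBar N) ↥(hesE Ω N) =
      Module.finrank ↥(keyFq ↥K₁ N) ↥(hesE ↥K₁ N) := by
  letI : Algebra ↥(keyFq ↥K₁ N) ↥(hesE ↥K₁ N) := (fullToHesE ↥K₁ N).toRingHom.toAlgebra
  letI : Algebra ↥(modularFunctionFieldBar N) ↥(hesE Ω N) :=
    (fullToHesE Ω N).toRingHom.toAlgebra
  haveI : IsScalarTower Ω ↥(modularFunctionFieldBar N) ↥(hesE Ω N) :=
    isScalarTower_along (fullToHesE Ω N)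
  haveI : FiniteDimensional ↥(keyFq ↥K₁ N) ↥(hesE ↥K₁ N) := finite_fullToHesE ↥K₁ N
  haveI : FiniteDimensional ↥(modularFunctionFieldBar N) ↥(hesE Ω N) := finite_fullToHesE Ω N
  haveI : Algebra.IsAlgebraic ↥(modularFunctionFieldBar N) ↥(hesE Ω N) :=
    Algebra.IsAlgebraic.of_finite _ _
  exact BCDeg.finrank_eq_of_linearDisjoint (k := ↥K₁) (Ω' := Ω) (keyFqBC N K₁) (hesBC N K₁)
    (bcdeg_hesBC_fullToHesE N K₁) (keyFqBC_algebraMap N K₁) (closure_range_keyFqBC N K₁)
    (closure_range_hesBC N K₁)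
    (fun g hg => phi_coeffHom_eq_zero _ _ _ _ (Basis.ofVectorSpace ↥K₁ Ω).linearIndependent g hg)

end Inst

end Fermat.Agent.JA
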