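/-
J-A project, package (ES1) (helper2), part 4: the Atkin–Lehner involution of the function field
of `X₀(N ℓ)` over `ℚ̄`, the homomorphism `σ_∞ = (q ↦ q^ℓ) ∘ W`, and the degrees
`[F' : α F] = [F' : β F] = ℓ + 1`.
-/
import Mathlib
import Fermat.Agent.JA.ES1_helper2_W
import Fermat.Agent.X0N.Mer_helper6_Degree

set_option autoImplicit false
set_option linter.style.haveILetI false

namespace Fermat.Agent.JA

open ModularCurve AlgebraicCurve IntermediateField Fermat.Agent.X0N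

local notation "Ω" => AlgebraicClosure ℚ

variable (N ℓ : ℕ) [NeZero N] [NeZero ℓ]

/-- Bézout data for coprime `ℓ`, `N`. -/
theorem exists_bezout_of_coprime (hc : Nat.Coprime ℓ N) :
    ∃ x y : ℤ, (ℓ : ℤ) * x + N * y = 1 := by
  have h := Nat.Coprime.isCoprime hc
  obtain ⟨a, b, hab⟩ := h
  exact ⟨a, b, by linear_combination hab⟩

/-- **the Atkin–Lehner involution** `W_ℓ` of the function field `F'` of `X₀(N ℓ)` over `ℚ̄`
(`ℓ` prime, `ℓ ∤ N`). -/
noncomputable def atkinLehnerBar (hℓ : ℓ.Prime) (hℓN : ¬ ℓ ∣ N) :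
    ↥(laurentBaseChange Ω (modularFunctionFieldFull (N * ℓ))) →+*
      ↥(laurentBaseChange Ω (modularFunctionFieldFull (N * ℓ))) :=
  atkinLehnerN complexEmbedding.toRingHom
    (Classical.choose_spec (Classical.choose_spec
      (exists_bezout_of_coprime N ℓ ((Nat.Prime.coprime_iff_not_dvd hℓ).mpr hℓN)))) hℓ

variable {N ℓ} (hℓ : ℓ.Prime) (hℓN : ¬ ℓ ∣ N)

theorem atkinLehnerBar_alpha (y : ↥(laurentBaseChange Ω (modularFunctionFieldFull N))) :
    atkinLehnerBar N ℓ hℓ hℓN (heckeAlphaBar Ω N ℓ y) = heckeBetaBar Ω N ℓ y :=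
  atkinLehnerN_alpha _ _ hℓ y

theorem atkinLehnerBar_beta (y : ↥(laurentBaseChange Ω (modularFunctionFieldFull N))) :
    atkinLehnerBar N ℓ hℓ hℓN (heckeBetaBar Ω N ℓ y) = heckeAlphaBar Ω N ℓ y :=
  atkinLehnerN_beta _ _ hℓ y

theorem atkinLehnerBar_algebraMap (c : Ω) :
    atkinLehnerBar N ℓ hℓ hℓN (algebraMap Ω _ c) = algebraMap Ω _ c :=
  atkinLehnerN_algebraMap _ _ hℓ c

theorem atkinLehnerBar_atkinLehnerBar
    (z : ↥(laurentBaseChange Ω (modularFunctionFieldFull (N * ℓ)))) :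
    atkinLehnerBar N ℓ hℓ hℓN (atkinLehnerBar N ℓ hℓ hℓN z) = z :=
  atkinLehnerN_atkinLehnerN _ _ hℓ z

theorem atkinLehnerBar_bijective : Function.Bijective (atkinLehnerBar N ℓ hℓ hℓN) :=
  atkinLehnerN_bijective _ _ hℓ

/-- `W_ℓ` as a ring automorphism. -/
noncomputable def atkinLehnerBarEquiv :
    ↥(laurentBaseChange Ω (modularFunctionFieldFull (N * ℓ))) ≃+*
      ↥(laurentBaseChange Ω (modularFunctionFieldFull (N * ℓ))) :=
  RingEquiv.ofBijective (atkinLehnerBar N ℓ hℓ hℓN) (atkinLehnerBar_bijective hℓ hℓN)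

/-- **`σ_∞ = (q ↦ q^ℓ) ∘ W_ℓ`** : `F' → ℚ̄((q))`, the "extra" conjugate over `β F`. -/
noncomputable def sigmaInf :
    ↥(laurentBaseChange Ω (modularFunctionFieldFull (N * ℓ))) →+* LaurentSeries Ω :=
  (qExpand Ω ℓ).comp
    ((laurentBaseChange Ω (modularFunctionFieldFull (N * ℓ))).val.toRingHom.comp
      (atkinLehnerBar N ℓ hℓ hℓN))

theorem sigmaInf_apply (z : ↥(laurentBaseChange Ω (modularFunctionFieldFull (N * ℓ)))) :
    sigmaInf hℓ hℓN z = qExpand Ω ℓ ((atkinLehnerBar N ℓ hℓ hℓN z : _) : LaurentSeries Ω) := rfl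

/-- `σ_∞ (y(q)) = y(q^{ℓ²})` for `y ∈ F`. -/
theorem sigmaInf_alpha (y : ↥(laurentBaseChange Ω (modularFunctionFieldFull N))) :
    sigmaInf hℓ hℓN (heckeAlphaBar Ω N ℓ y) = qExpand Ω (ℓ * ℓ) (y : LaurentSeries Ω) := by
  rw [sigmaInf_apply, atkinLehnerBar_alpha, coe_heckeBetaBar, qExpand_qExpand]

/-- `σ_∞ (f(q^ℓ)) = f(q^ℓ)` for `f ∈ F`. -/
theorem sigmaInf_beta (y : ↥(laurentBaseChange Ω (modularFunctionFieldFull N))) :
    sigmaInf hℓ hℓN (heckeBetaBar Ω N ℓ y) = qExpand Ω ℓ (y : LaurentSeries Ω) := by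
  rw [sigmaInf_apply, atkinLehnerBar_beta, coe_heckeAlphaBar]

theorem sigmaInf_algebraMap (c : Ω) :
    sigmaInf hℓ hℓN (algebraMap Ω _ c) = HahnSeries.C c := by
  rw [sigmaInf_apply, atkinLehnerBar_algebraMap]
  show qExpand Ω ℓ (algebraMap Ω (LaurentSeries Ω) c) = HahnSeries.C c
  rw [algebraMap_laurentSeries_eq_single]
  exact qExpand_C ℓ c

/-! ### degrees -/

section Degree

/-- `α` maps `j` to `j`. -/
theorem heckeAlphaBar_jBar : heckeAlphaBar Ω N ℓ (jBar N) = jBar (N * ℓ) := Subtype.ext rfl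

include hℓ hℓN in
/-- **`[F' : α F] = ℓ + 1`.** -/
theorem finrank_heckeAlphaBar :
    letI := algebraAlong (heckeAlphaBar Ω N ℓ)
    Module.finrank ↥(laurentBaseChange Ω (modularFunctionFieldFull N))
      ↥(laurentBaseChange Ω (modularFunctionFieldFull (N * ℓ))) = ℓ + 1 := by
  letI := algebraAlong (heckeAlphaBar Ω N ℓ)
  obtain ⟨hfinN, hdegN⟩ := finrank_modularFunctionFieldBar_eq N
  obtain ⟨hfinNℓ, hdegNℓ⟩ := finrank_modularFunctionFieldBar_eq (N * ℓ)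
  -- the `ℚ̄(j)`-structure on `F'` through `F`
  letI algK : Algebra ↥(Ω⟮jBar N⟯) ↥(laurentBaseChange Ω (modularFunctionFieldFull (N * ℓ))) :=
    ((heckeAlphaBar Ω N ℓ).toRingHom.comp (algebraMap ↥(Ω⟮jBar N⟯)
      ↥(laurentBaseChange Ω (modularFunctionFieldFull N)))).toAlgebra
  haveI : IsScalarTower ↥(Ω⟮jBar N⟯) ↥(laurentBaseChange Ω (modularFunctionFieldFull N))
      ↥(laurentBaseChange Ω (modularFunctionFieldFull (N * ℓ))) :=
    IsScalarTower.of_algebraMap_eq (fun _ => rfl)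
  have htower := Module.finrank_mul_finrank ↥(Ω⟮jBar N⟯)
    ↥(laurentBaseChange Ω (modularFunctionFieldFull N))
    ↥(laurentBaseChange Ω (modularFunctionFieldFull (N * ℓ)))
  -- compare with the structure over `ℚ̄(j) ⊆ F'`
  have hmap : (Ω⟮jBar N⟯).map (heckeAlphaBar Ω N ℓ) = Ω⟮jBar (N * ℓ)⟯ := by
    rw [IntermediateField.adjoin_map, Set.image_singleton, heckeAlphaBar_jBar]
  let e₁ : ↥(Ω⟮jBar N⟯) ≃+* ↥(Ω⟮jBar (N * ℓ)⟯) :=
    (((Ω⟮jBar N⟯).equivMap (heckeAlphaBar Ω N ℓ)).trans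
      (IntermediateField.equivOfEq hmap)).toRingEquiv
  have hcomp : Module.finrank ↥(Ω⟮jBar N⟯)
      ↥(laurentBaseChange Ω (modularFunctionFieldFull (N * ℓ))) =
      Module.finrank ↥(Ω⟮jBar (N * ℓ)⟯)
        ↥(laurentBaseChange Ω (modularFunctionFieldFull (N * ℓ))) := by
    refine Algebra.finrank_eq_of_equiv_equiv e₁ (RingEquiv.refl _) ?_
    ext a
    rfl
  have hψ : dedekindPsi (N * ℓ) = dedekindPsi N * (ℓ + 1) := by
    have hcop : Nat.Coprime N ℓ :=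
      (Nat.Coprime.symm ((Nat.Prime.coprime_iff_not_dvd hℓ).mpr hℓN))
    rw [dedekindPsi_mul hcop]
    have h1 := dedekindPsi_prime_pow hℓ (n := 1) one_pos
    rw [pow_one, Nat.sub_self, pow_zero] at h1
    rw [h1]
  rw [hdegN, hcomp, hdegNℓ, hψ] at htower
  have hpos : 0 < dedekindPsi N := by
    rw [← hdegN]
    exact Module.finrank_pos
  exact Nat.eq_of_mul_eq_mul_left hpos htower

include hℓ hℓN in
/-- **`[F' : β F] = ℓ + 1`** (transported from `α` by the Atkin–Lehner involution). -/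
theorem finrank_heckeBetaBar :
    letI := algebraAlong (heckeBetaBar Ω N ℓ)
    Module.finrank ↥(laurentBaseChange Ω (modularFunctionFieldFull N))
      ↥(laurentBaseChange Ω (modularFunctionFieldFull (N * ℓ))) = ℓ + 1 := by
  rw [← finrank_heckeAlphaBar hℓ hℓN]
  refine @Algebra.finrank_eq_of_equiv_equiv _ _ _ _ (algebraAlong (heckeBetaBar Ω N ℓ)) _ _ _ _
    (algebraAlong (heckeAlphaBar Ω N ℓ)) (RingEquiv.refl _) (atkinLehnerBarEquiv hℓ hℓN) ?_
  refine RingHom.ext fun y => ?_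
  exact (atkinLehnerBar_beta hℓ hℓN y).symm

end Degree

end Fermat.Agent.JA
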