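/-
J-A package G1-Ω (helper5), part 2: (O2) `PrincipalGeneratedByIntegral A (residue A) N` and
(RES-Ω): the coefficientwise reduction of an integral element of `F_Ω` lies in `F̃`.
-/
import Fermat.Agent.JA.G1OMEGA_helper5_Desc
import Fermat.Agent.X0N.S24_helper7_Wiring
import Fermat.Agent.FF.PlaceBasic
import Fermat.Prelude.Def_ModularCurve_ReductionModL

set_option autoImplicit false
set_option linter.unusedSectionVars false
set_option linter.style.haveILetI false

open scoped MatrixGroups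
open Polynomial IntermediateField Fermat.Agent.Igusa Fermat.Agent.X0N ModularCurve
  CongruenceSubgroup AlgebraicCurve

namespace Fermat.Agent.JA

noncomputable section

section BaseForms

variable (R : Type*) [CommRing R] [IsDomain R] [IsDiscreteValuationRing R]
  (L : Type*) [Field L] [Algebra R L] [IsFractionRing R L]
  [Algebra ℚ L] [Algebra L ℂ] [IsScalarTower ℚ L ℂ] (N : ℕ) [NeZero N]

/-- (PGI) at a base, for any model `F` of the function field. -/
theorem exists_pgi_of_eq_fullC (F : IntermediateField L (LaurentSeries L))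
    (hFeq : F = modularFunctionFieldFullC L N)
    (hdeg : LinearIndependent
      (IntermediateField.adjoin (IsLocalRing.ResidueField R) {jqModC (IsLocalRing.ResidueField R)})
      (fun i : Fin (Gamma0 N).index => (jqNModC (IsLocalRing.ResidueField R) N) ^ (i : ℕ)))
    {ϖ : R} (hϖ : Irreducible ϖ) {f : LaurentSeries L} (hf : f ∈ F) (hf0 : f ≠ 0) :
    ∃ (m : ℤ) (y₁ y₂ : LaurentSeries R), emb R L y₁ ∈ F ∧ emb R L y₂ ∈ F ∧
      red R y₁ ≠ 0 ∧ red R y₂ ≠ 0 ∧
      red R y₁ ∈ IntermediateField.adjoin (IsLocalRing.ResidueField R)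
        {jqModC (IsLocalRing.ResidueField R), jqNModC (IsLocalRing.ResidueField R) N} ∧
      red R y₂ ∈ IntermediateField.adjoin (IsLocalRing.ResidueField R)
        {jqModC (IsLocalRing.ResidueField R), jqNModC (IsLocalRing.ResidueField R) N} ∧
      f = HahnSeries.C (algebraMap R L ϖ) ^ m * emb R L y₁ / emb R L y₂ := by
  subst hFeq
  have h := exists_pgi (modularFunctionFieldFullC L N) (jqModC R) (jqNModC R N)
    (emb_jqModC_mem_fullC R L N) (emb_jqNModC_mem_fullC R L N) (transcendental_red_jqModC R)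
    (Gamma0 N).index (hub_fullC R L N) (hlb_fullC R N hdeg)
    (modularFunctionFieldFullC_le_gaussField R L N) hϖ hf hf0
  rwa [red_jqModC, red_jqNModC] at h

/-- (RES) at a base, for any model `F` of the function field. -/
theorem red_mem_adjoin_pair_of_eq_fullC (F : IntermediateField L (LaurentSeries L))
    (hFeq : F = modularFunctionFieldFullC L N)
    (hdeg : LinearIndependent
      (IntermediateField.adjoin (IsLocalRing.ResidueField R) {jqModC (IsLocalRing.ResidueField R)})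
      (fun i : Fin (Gamma0 N).index => (jqNModC (IsLocalRing.ResidueField R) N) ^ (i : ℕ)))
    (y : LaurentSeries R) (hy : emb R L y ∈ F) :
    red R y ∈ IntermediateField.adjoin (IsLocalRing.ResidueField R)
      {jqModC (IsLocalRing.ResidueField R), jqNModC (IsLocalRing.ResidueField R) N} := by
  subst hFeq
  have h := gaussRed_mem_adjoin_pair_fullC R L N hdeg hy (emb_mem_gaussInt R L y)
  rwa [gaussRed_emb] at h

end BaseForms

section Inj

theorem coeffMap_subtype_injective_h5 {K : Type*} [Field K] (V : ValuationSubring K) :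
    Function.Injective (coeffMap V.subtype : LaurentSeries ↥V → LaurentSeries K) := by
  intro x y h
  ext n
  have := congrArg (fun z : LaurentSeries K => z.coeff n) h
  simp only [coeffMap_coeff] at this
  exact this

end Inj

section Omega

local notation "Ω" => AlgebraicClosure ℚ

variable {ℓ : ℕ} [Fact ℓ.Prime] {A : ValuationSubring (AlgebraicClosure ℚ)}
  (hA : A.LiesOverPrime ℓ) (N : ℕ) [NeZero N]

theorem coeffMap_residue_coeffMap_baseIncl {K₁ : IntermediateField ℚ (AlgebraicClosure ℚ)}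
    [IsDiscreteValuationRing ↥(baseRing A K₁)] (y₁ : LaurentSeries ↥(baseRing A K₁)) :
    coeffMap (IsLocalRing.residue ↥A) (coeffMap (baseIncl A K₁) y₁) =
      coeffMap (baseResidueMap A K₁) (red ↥(baseRing A K₁) y₁) := by
  have h : red ↥(baseRing A K₁) y₁ = coeffMap (IsLocalRing.residue ↥(baseRing A K₁)) y₁ := rfl
  rw [h, coeffMap_coeffMap, coeffMap_coeffMap]
  congr 1

/-- the image in `k((q))` of `κ₁(j̃, j̃_N)` lies in `F̃`. -/
theorem coeffMap_baseResidueMap_mem_fullC {K₁ : IntermediateField ℚ (AlgebraicClosure ℚ)}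
    {z : LaurentSeries (IsLocalRing.ResidueField ↥(baseRing A K₁))}
    (hz : z ∈ IntermediateField.adjoin (IsLocalRing.ResidueField ↥(baseRing A K₁))
      {jqModC (IsLocalRing.ResidueField ↥(baseRing A K₁)),
        jqNModC (IsLocalRing.ResidueField ↥(baseRing A K₁)) N}) :
    coeffMap (baseResidueMap A K₁) z ∈ modularFunctionFieldFullC (IsLocalRing.ResidueField ↥A) N := by
  have h := coeffMap_mem_adjoin_pair (baseResidueMap A K₁) hz
  rw [coeffMap_jqModC, coeffMap_jqNModC] at h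
  have hle : IntermediateField.adjoin (IsLocalRing.ResidueField ↥A)
      {jqModC (IsLocalRing.ResidueField ↥A), jqNModC (IsLocalRing.ResidueField ↥A) N} ≤
      modularFunctionFieldFullC (IsLocalRing.ResidueField ↥A) N := by
    rw [IntermediateField.adjoin_le_iff]
    intro x hx
    rcases hx with rfl | hx
    · exact jqModC_mem_fullC _ N
    · rw [Set.mem_singleton_iff] at hx
      rw [hx]
      exact jqNModC_mem_fullC _ N
  exact hle h

include hA in
/-- **(RES-Ω)** the coefficientwise reduction of an integral element of `F_Ω` lies in `F̃`. -/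
theorem coeffMap_residue_mem_fullC (hℓN : ¬ ℓ ∣ N) (y : LaurentSeries ↥A)
    (hy : coeffMap A.subtype y ∈ laurentBaseChange Ω (modularFunctionFieldFull N)) :
    coeffMap (IsLocalRing.residue ↥A) y ∈
      modularFunctionFieldFullC (IsLocalRing.ResidueField ↥A) N := by
  obtain ⟨K₁, hK₁, y₁, hy₁, rfl⟩ :=
    exists_isBase_of_integral (ℓ := ℓ) (modularFunctionFieldFull N) A hy
  haveI := hK₁.isDiscreteValuationRing hA
  letI : Algebra ↥K₁ ℂ :=
    (((IsAlgClosed.lift : Ω →ₐ[ℚ] ℂ) : Ω →+* ℂ).comp (algebraMap ↥K₁ Ω)).toAlgebra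
  haveI : IsScalarTower ℚ ↥K₁ ℂ := IsScalarTower.of_algebraMap_eq' (Subsingleton.elim _ _)
  have h1 := red_mem_adjoin_pair_of_eq_fullC ↥(baseRing A K₁) ↥K₁ N _
    (laurentBaseChange_full_eq_fullC ↥K₁ N) (hdeg_baseRing hA N hℓN hK₁.flatBase_le) y₁ hy₁
  rw [coeffMap_residue_coeffMap_baseIncl]
  exact coeffMap_baseResidueMap_mem_fullC N h1


include hA in
/-- **(O2)** principal divisors of `F_Ω` are generated by the divisors of integral elements with
nonzero reduction in `F̃`. -/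
theorem principalGeneratedByIntegral_residue (hℓN : ¬ ℓ ∣ N) :
    PrincipalGeneratedByIntegral A (IsLocalRing.residue ↥A) N := by
  classical
  haveI : HasPrincipalDivisors (AlgebraicClosure ℚ) (modularFunctionFieldBar N) :=
    (Fermat.Agent.X0N.jCoordBar N).hasPrincipalDivisors
  intro D hD
  obtain ⟨f, hf0, hDf⟩ := hD
  have hfne : (f : LaurentSeries Ω) ≠ 0 := fun h => hf0 (Subtype.ext h)
  obtain ⟨K₁, hK₁, f₁, hf₁, hff⟩ :=
    exists_isBase_of_mem_laurentBaseChange ℓ (modularFunctionFieldFull N) f.2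
  haveI := hK₁.isDiscreteValuationRing hA
  letI : Algebra ↥K₁ ℂ :=
    (((IsAlgClosed.lift : Ω →ₐ[ℚ] ℂ) : Ω →+* ℂ).comp (algebraMap ↥K₁ Ω)).toAlgebra
  haveI : IsScalarTower ℚ ↥K₁ ℂ := IsScalarTower.of_algebraMap_eq' (Subsingleton.elim _ _)
  have hf₁0 : f₁ ≠ 0 := by
    rintro rfl
    rw [map_zero] at hff
    exact hfne hff.symm
  obtain ⟨ϖ, hϖ⟩ := IsDiscreteValuationRing.exists_irreducible ↥(baseRing A K₁)
  obtain ⟨m, y₁, y₂, hy₁, hy₂, hr₁, hr₂, hm₁, hm₂, hfeq⟩ :=
    exists_pgi_of_eq_fullC ↥(baseRing A K₁) ↥K₁ N _ (laurentBaseChange_full_eq_fullC ↥K₁ N)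
      (hdeg_baseRing hA N hℓN hK₁.flatBase_le) hϖ hf₁ hf₁0
  -- push to `Ω`
  set ι : LaurentSeries ↥K₁ →+* LaurentSeries Ω := coeffMap (algebraMap ↥K₁ Ω) with hι
  set Y₁ : LaurentSeries ↥A := coeffMap (baseIncl A K₁) y₁ with hY₁
  set Y₂ : LaurentSeries ↥A := coeffMap (baseIncl A K₁) y₂ with hY₂
  have hιY₁ : coeffMap A.subtype Y₁ = ι (emb ↥(baseRing A K₁) ↥K₁ y₁) :=
    coeffMap_subtype_coeffMap_baseIncl y₁
  have hιY₂ : coeffMap A.subtype Y₂ = ι (emb ↥(baseRing A K₁) ↥K₁ y₂) :=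
    coeffMap_subtype_coeffMap_baseIncl y₂
  have hY₁F : coeffMap A.subtype Y₁ ∈ laurentBaseChange Ω (modularFunctionFieldFull N) := by
    rw [hιY₁]; exact coeffMap_hom_mem_laurentBaseChange _ _ hy₁
  have hY₂F : coeffMap A.subtype Y₂ ∈ laurentBaseChange Ω (modularFunctionFieldFull N) := by
    rw [hιY₂]; exact coeffMap_hom_mem_laurentBaseChange _ _ hy₂
  have hY₁k : coeffMap (IsLocalRing.residue ↥A) Y₁ ∈
      modularFunctionFieldFullC (IsLocalRing.ResidueField ↥A) N := by
    rw [hY₁, coeffMap_residue_coeffMap_baseIncl]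
    exact coeffMap_baseResidueMap_mem_fullC N hm₁
  have hY₂k : coeffMap (IsLocalRing.residue ↥A) Y₂ ∈
      modularFunctionFieldFullC (IsLocalRing.ResidueField ↥A) N := by
    rw [hY₂, coeffMap_residue_coeffMap_baseIncl]
    exact coeffMap_baseResidueMap_mem_fullC N hm₂
  have hinj : Function.Injective (coeffMap (baseResidueMap A K₁)) :=
    (coeffMap (baseResidueMap A K₁)).injective
  have hY₁ne : coeffMap (IsLocalRing.residue ↥A) Y₁ ≠ 0 := by
    rw [hY₁, coeffMap_residue_coeffMap_baseIncl]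
    exact fun h => hr₁ (hinj (by rw [h, map_zero]))
  have hY₂ne : coeffMap (IsLocalRing.residue ↥A) Y₂ ≠ 0 := by
    rw [hY₂, coeffMap_residue_coeffMap_baseIncl]
    exact fun h => hr₂ (hinj (by rw [h, map_zero]))
  have hY₁0 : coeffMap A.subtype Y₁ ≠ 0 := by
    intro h
    apply hY₁ne
    have h1 : Y₁ = 0 := (coeffMap_subtype_injective_h5 A) (by rw [h, map_zero])
    rw [h1, map_zero]
  have hY₂0 : coeffMap A.subtype Y₂ ≠ 0 := by
    intro h
    apply hY₂ne
    have h1 : Y₂ = 0 := (coeffMap_subtype_injective_h5 A) (by rw [h, map_zero])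
    rw [h1, map_zero]
  set g₁ : ↥(laurentBaseChange Ω (modularFunctionFieldFull N)) := ⟨coeffMap A.subtype Y₁, hY₁F⟩
    with hg₁
  set g₂ : ↥(laurentBaseChange Ω (modularFunctionFieldFull N)) := ⟨coeffMap A.subtype Y₂, hY₂F⟩
    with hg₂
  have hg₁0 : g₁ ≠ 0 := fun h => hY₁0 (congrArg Subtype.val h)
  have hg₂0 : g₂ ≠ 0 := fun h => hY₂0 (congrArg Subtype.val h)
  -- the constant
  set c : Ω := algebraMap ↥K₁ Ω (algebraMap ↥(baseRing A K₁) ↥K₁ ϖ) with hc
  have hc0 : c ≠ 0 := by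
    rw [hc]
    intro h
    have h1 := (map_eq_zero (algebraMap ↥K₁ Ω)).mp h
    exact hϖ.ne_zero ((map_eq_zero_iff _ (IsFractionRing.injective ↥(baseRing A K₁) ↥K₁)).mp h1)
  have hfF : f = algebraMap Ω ↥(laurentBaseChange Ω (modularFunctionFieldFull N)) (c ^ m) *
      g₁ * g₂⁻¹ := by
    apply Subtype.ext
    show (f : LaurentSeries Ω) = algebraMap Ω (LaurentSeries Ω) (c ^ m) *
      coeffMap A.subtype Y₁ * (coeffMap A.subtype Y₂)⁻¹
    have hC : ι (HahnSeries.C ((algebraMap ↥(baseRing A K₁) ↥K₁) ϖ)) =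
        algebraMap Ω (LaurentSeries Ω) c := by
      have h1 : (HahnSeries.C ((algebraMap ↥(baseRing A K₁) ↥K₁) ϖ) : LaurentSeries ↥K₁) =
          algebraMap ↥K₁ (LaurentSeries ↥K₁) ((algebraMap ↥(baseRing A K₁) ↥K₁) ϖ) := by
        rw [algebraMap_laurentSeries_eq_single]; rfl
      rw [h1, hι, coeffMap_algebraMap']
    rw [← hff, hfeq, hιY₁, hιY₂, div_eq_mul_inv, map_mul, map_mul, map_inv₀, map_zpow₀, hC,
      map_zpow₀]
  obtain ⟨D₁, hD₁, -⟩ := HasPrincipalDivisors.exists_divisor (K := Ω) g₁ hg₁0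
  obtain ⟨D₂, hD₂, -⟩ := HasPrincipalDivisors.exists_divisor (K := Ω) g₂ hg₂0
  have hDeq : D = D₁ - D₂ := by
    ext P
    rw [hDf P, Finsupp.sub_apply, hD₁ P, hD₂ P, hfF,
      P.ord_mul (mul_ne_zero ((_root_.map_ne_zero _).mpr (zpow_ne_zero _ hc0)) hg₁0) (inv_ne_zero hg₂0),
      P.ord_mul ((_root_.map_ne_zero _).mpr (zpow_ne_zero _ hc0)) hg₁0, P.ord_inv,
      Fermat.Agent.FF.PlaceAux.ord_algebraMap]
    ring
  rw [hDeq]
  refine sub_mem (AddSubgroup.subset_closure ?_) (AddSubgroup.subset_closure ?_)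
  · exact ⟨Y₁, hY₁F, hY₁k, hY₁ne, hD₁⟩
  · exact ⟨Y₂, hY₂F, hY₂k, hY₂ne, hD₂⟩

end Omega

end

end Fermat.Agent.JA
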