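/-
J-A programme, package RED (helper7), part 0: **the literal objects of the place reduction**.

For a valuation subring `A` of `L` (later `L = ℚ̄`, `A` over `ℓ`), `F_L := L·ℚ(j_d : d ∣ N)` inside
`L((q))` and a residue map `π : A →+* k`:

* `gaussRing A N` : the Laurent series with coefficients in `A` whose image in `L((q))` lies in
  `F_L` (the Gauss-integral elements of `F_L`, in the currency of the Prelude's
  `IsPlaceReductionAlong`);
* `gaussι`, `gaussρ` : the function in `F_L` and its coefficientwise reduction in `k((q))`;
* `coeffSubring A N z` : the subring `A[z]` of `F_L`;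
* `chartRing A N z` : the Gauss-integral elements which are integral over `A[z]` (the chart
  `B_∞` for `z = j`, `B_b` for `z = (j - b)⁻¹`);
* `GoodAt A N z P` : `z` is regular at `P` with value in `A`.
-/
import Mathlib
import Fermat.Prelude.Def_ModularCurve_ReductionModL
import Fermat.Agent.JA.ES_helper4_Value

set_option autoImplicit false
set_option linter.unusedSectionVars false

open AlgebraicCurve ModularCurve

namespace Fermat.Agent.JA

noncomputable section

section Defs

variable {L : Type*} [Field L] [Algebra ℚ L] (A : ValuationSubring L) (N : ℕ)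

/-- the Gauss-integral elements of the function field `F_L`, as Laurent series over `A`. -/
def gaussRing : Subring (LaurentSeries ↥A) :=
  (laurentBaseChange L (modularFunctionFieldFull N)).toSubring.comap (coeffMap A.subtype)

variable {A N} in
theorem mem_gaussRing_iff {y : LaurentSeries ↥A} :
    y ∈ gaussRing A N ↔ coeffMap A.subtype y ∈ laurentBaseChange L (modularFunctionFieldFull N) :=
  Iff.rfl

/-- the function attached to a Gauss-integral series. -/
def gaussι : ↥(gaussRing A N) →+* ↥(laurentBaseChange L (modularFunctionFieldFull N)) where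
  toFun y := ⟨coeffMap A.subtype (y : LaurentSeries ↥A), y.2⟩
  map_one' := Subtype.ext (map_one _)
  map_mul' _ _ := Subtype.ext (map_mul _ _ _)
  map_zero' := Subtype.ext (map_zero _)
  map_add' _ _ := Subtype.ext (map_add _ _ _)

@[simp] theorem coe_gaussι (y : ↥(gaussRing A N)) :
    ((gaussι A N y : ↥(laurentBaseChange L (modularFunctionFieldFull N))) : LaurentSeries L) =
      coeffMap A.subtype (y : LaurentSeries ↥A) := rfl

theorem gaussι_injective : Function.Injective (gaussι A N) := by
  intro x y h
  apply Subtype.ext
  have h1 : coeffMap A.subtype (x : LaurentSeries ↥A) = coeffMap A.subtype (y : LaurentSeries ↥A) :=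
    congrArg Subtype.val h
  ext n
  have := congrArg (fun s : LaurentSeries L => s.coeff n) h1
  simpa using this

variable {k : Type*} [Field k] (π : ↥A →+* k)

/-- the coefficientwise reduction of a Gauss-integral series. -/
def gaussρ : ↥(gaussRing A N) →+* LaurentSeries k :=
  (coeffMap π).comp (gaussRing A N).subtype

@[simp] theorem gaussρ_apply (y : ↥(gaussRing A N)) :
    gaussρ A N π y = coeffMap π (y : LaurentSeries ↥A) := rfl

/-- the constants of `A` as Gauss-integral series. -/
def gaussC : ↥A →+* ↥(gaussRing A N) where
  toFun a := ⟨HahnSeries.C a, by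
    rw [mem_gaussRing_iff]
    have h : coeffMap A.subtype (HahnSeries.C a : LaurentSeries ↥A) =
        algebraMap L (LaurentSeries L) (a : L) := by
      rw [HahnSeries.C_apply, coeffMap_single, algebraMap_laurentSeries_eq_single]
      rfl
    rw [h]
    exact (laurentBaseChange L (modularFunctionFieldFull N)).algebraMap_mem _⟩
  map_one' := Subtype.ext (map_one _)
  map_mul' _ _ := Subtype.ext (map_mul _ _ _)
  map_zero' := Subtype.ext (map_zero _)
  map_add' _ _ := Subtype.ext (map_add _ _ _)

theorem gaussι_gaussC (a : ↥A) :
    gaussι A N (gaussC A N a) =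
      algebraMap L ↥(laurentBaseChange L (modularFunctionFieldFull N)) (a : L) := by
  apply Subtype.ext
  change coeffMap A.subtype (HahnSeries.C a : LaurentSeries ↥A) =
    algebraMap L (LaurentSeries L) (a : L)
  rw [HahnSeries.C_apply, coeffMap_single, algebraMap_laurentSeries_eq_single]
  rfl

theorem gaussρ_gaussC (a : ↥A) :
    gaussρ A N π (gaussC A N a) = algebraMap k (LaurentSeries k) (π a) := by
  change coeffMap π (HahnSeries.C a : LaurentSeries ↥A) = _
  rw [HahnSeries.C_apply, coeffMap_single, algebraMap_laurentSeries_eq_single]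

/-- the subring `A[z]` of the function field `F_L`. -/
def coeffSubring (z : ↥(laurentBaseChange L (modularFunctionFieldFull N))) :
    Subring ↥(laurentBaseChange L (modularFunctionFieldFull N)) :=
  Subring.closure (Set.range (fun a : ↥A =>
    algebraMap L ↥(laurentBaseChange L (modularFunctionFieldFull N)) (a : L)) ∪ {z})

variable {A N} in
theorem algebraMap_mem_coeffSubring (z : ↥(laurentBaseChange L (modularFunctionFieldFull N)))
    (a : ↥A) :
    algebraMap L ↥(laurentBaseChange L (modularFunctionFieldFull N)) (a : L) ∈
      coeffSubring A N z :=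
  Subring.subset_closure (Or.inl ⟨a, rfl⟩)

variable {A N} in
theorem self_mem_coeffSubring (z : ↥(laurentBaseChange L (modularFunctionFieldFull N))) :
    z ∈ coeffSubring A N z :=
  Subring.subset_closure (Or.inr rfl)

/-- **the chart ring**: Gauss-integral series whose function is integral over `A[z]`. -/
def chartRing (z : ↥(laurentBaseChange L (modularFunctionFieldFull N))) :
    Subring (LaurentSeries ↥A) where
  carrier := {y | ∃ hy : y ∈ gaussRing A N, IsIntegral ↥(coeffSubring A N z) (gaussι A N ⟨y, hy⟩)}
  mul_mem' := by
    rintro x y ⟨hx, hx'⟩ ⟨hy, hy'⟩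
    refine ⟨(gaussRing A N).mul_mem hx hy, ?_⟩
    have h : gaussι A N ⟨x * y, (gaussRing A N).mul_mem hx hy⟩ =
        gaussι A N ⟨x, hx⟩ * gaussι A N ⟨y, hy⟩ := by
      rw [← map_mul]; rfl
    rw [h]
    exact hx'.mul hy'
  one_mem' := by
    refine ⟨(gaussRing A N).one_mem, ?_⟩
    have h : gaussι A N ⟨1, (gaussRing A N).one_mem⟩ = 1 := map_one (gaussι A N)
    rw [h]
    exact isIntegral_one
  add_mem' := by
    rintro x y ⟨hx, hx'⟩ ⟨hy, hy'⟩
    refine ⟨(gaussRing A N).add_mem hx hy, ?_⟩
    have h : gaussι A N ⟨x + y, (gaussRing A N).add_mem hx hy⟩ =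
        gaussι A N ⟨x, hx⟩ + gaussι A N ⟨y, hy⟩ := by
      rw [← map_add]; rfl
    rw [h]
    exact hx'.add hy'
  zero_mem' := by
    refine ⟨(gaussRing A N).zero_mem, ?_⟩
    have h : gaussι A N ⟨0, (gaussRing A N).zero_mem⟩ = 0 := map_zero (gaussι A N)
    rw [h]
    exact isIntegral_zero
  neg_mem' := by
    rintro x ⟨hx, hx'⟩
    refine ⟨(gaussRing A N).neg_mem hx, ?_⟩
    have h : gaussι A N ⟨-x, (gaussRing A N).neg_mem hx⟩ = -gaussι A N ⟨x, hx⟩ := by
      rw [← map_neg]; rfl
    rw [h]
    exact hx'.neg

variable {A N} in
theorem chartRing_le_gaussRing (z : ↥(laurentBaseChange L (modularFunctionFieldFull N))) :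
    chartRing A N z ≤ gaussRing A N := fun _ hy => hy.1

/-- the function attached to an element of the chart ring. -/
def chartι (z : ↥(laurentBaseChange L (modularFunctionFieldFull N))) :
    ↥(chartRing A N z) →+* ↥(laurentBaseChange L (modularFunctionFieldFull N)) :=
  (gaussι A N).comp (Subring.inclusion (chartRing_le_gaussRing z))

/-- the reduction of an element of the chart ring, as a Laurent series over `k`. -/
def chartρ (z : ↥(laurentBaseChange L (modularFunctionFieldFull N))) :
    ↥(chartRing A N z) →+* LaurentSeries k :=
  (gaussρ A N π).comp (Subring.inclusion (chartRing_le_gaussRing z))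

variable {A N} in
theorem isIntegral_chartι (z : ↥(laurentBaseChange L (modularFunctionFieldFull N)))
    (y : ↥(chartRing A N z)) : IsIntegral ↥(coeffSubring A N z) (chartι A N z y) :=
  y.2.2

@[simp] theorem coe_chartι (z : ↥(laurentBaseChange L (modularFunctionFieldFull N)))
    (y : ↥(chartRing A N z)) :
    ((chartι A N z y : ↥(laurentBaseChange L (modularFunctionFieldFull N))) : LaurentSeries L) =
      coeffMap A.subtype (y : LaurentSeries ↥A) := rfl

@[simp] theorem chartρ_apply (z : ↥(laurentBaseChange L (modularFunctionFieldFull N)))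
    (y : ↥(chartRing A N z)) : chartρ A N π z y = coeffMap π (y : LaurentSeries ↥A) := rfl

/-- `z` is regular at `P` with value in `A` ("`P` lies in the domain of the chart of `z`"). -/
def GoodAt (z : ↥(laurentBaseChange L (modularFunctionFieldFull N)))
    (P : Place L ↥(laurentBaseChange L (modularFunctionFieldFull N))) : Prop :=
  ∃ a : ↥A, HasValueAt P z (a : L)

/-- **(RES)**: the reduction of a Gauss-integral function lies in `F̃ = k(j̃_d : d ∣ N)`. -/
def GaussRes : Prop :=
  ∀ y : LaurentSeries ↥A, y ∈ gaussRing A N → coeffMap π y ∈ modularFunctionFieldFullC k N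

variable {A N π} in
/-- the reduction map into `F̃`, given (RES). -/
def gaussρF (h : GaussRes A N π) : ↥(gaussRing A N) →+* ↥(modularFunctionFieldFullC k N) :=
  (gaussρ A N π).codRestrict (modularFunctionFieldFullC k N) (fun y => h y y.2)

variable {A N π} in
@[simp] theorem coe_gaussρF (h : GaussRes A N π) (y : ↥(gaussRing A N)) :
    ((gaussρF h y : ↥(modularFunctionFieldFullC k N)) : LaurentSeries k) =
      coeffMap π (y : LaurentSeries ↥A) := rfl

variable {A N π} in
/-- the reduction of an element of the chart ring, in `F̃`, given (RES). -/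
def chartρF (h : GaussRes A N π) (z : ↥(laurentBaseChange L (modularFunctionFieldFull N))) :
    ↥(chartRing A N z) →+* ↥(modularFunctionFieldFullC k N) :=
  (gaussρF h).comp (Subring.inclusion (chartRing_le_gaussRing z))

variable {A N π} in
@[simp] theorem coe_chartρF (h : GaussRes A N π)
    (z : ↥(laurentBaseChange L (modularFunctionFieldFull N))) (y : ↥(chartRing A N z)) :
    ((chartρF h z y : ↥(modularFunctionFieldFullC k N)) : LaurentSeries k) =
      coeffMap π (y : LaurentSeries ↥A) := rfl

variable {A N π} in
/-- **(EVAL)** for the chart of `z` and a place map `r`: at every place in the domain of the chart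
the reduction of a chart function takes the reduced value. (Literally helper4's `heval`.) -/
def ChartEval (h : GaussRes A N π) (z : ↥(laurentBaseChange L (modularFunctionFieldFull N)))
    (r : Place L ↥(laurentBaseChange L (modularFunctionFieldFull N)) →
      Place k ↥(modularFunctionFieldFullC k N)) : Prop :=
  ∀ P, GoodAt A N z P → ∀ y : ↥(chartRing A N z), ∃ a : ↥A,
    HasValueAt P (chartι A N z y) (a : L) ∧ HasValueAt (r P) (chartρF h z y) (π a)

variable {A N π} in
/-- **(SEP)** for the chart of `z`: reductions of chart functions separate the places of `F̃`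
satisfying `goodk`. (Literally helper4's `hsep`.) -/
def ChartSep (h : GaussRes A N π) (z : ↥(laurentBaseChange L (modularFunctionFieldFull N)))
    (goodk : Place k ↥(modularFunctionFieldFullC k N) → Prop) : Prop :=
  ∀ T : Finset (Place k ↥(modularFunctionFieldFullC k N)), (∀ Q ∈ T, goodk Q) → ∀ Q₀ ∈ T,
    ∃ y : ↥(chartRing A N z), HasValueAt Q₀ (chartρF h z y) 0 ∧
      ∀ Q ∈ T, Q ≠ Q₀ → ¬ HasValueAt Q (chartρF h z y) 0

variable {A N π} in
/-- **(SAT)** for the chart of `z`: a chart function with zero reduction is divisible, in the chart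
ring, by a constant of `A` with zero reduction. -/
def ChartSat (z : ↥(laurentBaseChange L (modularFunctionFieldFull N))) : Prop :=
  ∀ y : ↥(chartRing A N z), chartρ A N π z y = 0 →
    ∃ (ϖ : ↥A) (y' : ↥(chartRing A N z)), π ϖ = 0 ∧
      (y : LaurentSeries ↥A) = HahnSeries.C ϖ * (y' : LaurentSeries ↥A)

end Defs

end

end Fermat.Agent.JA
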