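/-
J-A — helper6 — package SEP (R2), layer C, part 2: **the line data of the Legendre and Hesse
coordinates over a ring** (`j = P(t)/Q(t)`): explicit Bezout identities `U P + V Q = 1` over any
commutative ring in which `2` (resp. `3`) is invertible, unit leading coefficient of `P`,
`deg Q < deg P`, `Q` monic.
-/
import Mathlib

set_option autoImplicit false
set_option linter.unusedSectionVars false
set_option linter.style.haveILetI false

open Polynomial

namespace Fermat.Agent.JA

section Legendre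

variable (R : Type*) [CommRing R]

/-- the Legendre numerator `256 (X² − X + 1)³` over a commutative ring. -/
noncomputable def sepLegP : R[X] := C (256 : R) * (X ^ 2 - X + 1) ^ 3

/-- the Legendre denominator `X² (X − 1)²` over a commutative ring. -/
noncomputable def sepLegQ : R[X] := X ^ 2 * (X - 1) ^ 2

variable {R}

theorem map_sepLegP {S : Type*} [CommRing S] (φ : R →+* S) :
    (sepLegP R).map φ = sepLegP S := by
  simp [sepLegP, Polynomial.map_mul, Polynomial.map_pow, Polynomial.map_sub, Polynomial.map_add,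
    map_ofNat]

theorem map_sepLegQ {S : Type*} [CommRing S] (φ : R →+* S) :
    (sepLegQ R).map φ = sepLegQ S := by
  simp [sepLegQ, Polynomial.map_mul, Polynomial.map_pow, Polynomial.map_sub]

/-- **Bezout for the Legendre line** over a ring in which `256` is invertible. -/
theorem sepLeg_bezout (c : R) (hc : 256 * c = 1) :
    (C c * (1 - 3 * (X ^ 2 - X))) * sepLegP R +
      (9 - (1 - 3 * (X ^ 2 - X)) * (3 + (X ^ 2 - X))) * sepLegQ R = 1 := by
  have hC : (C (256 : R) * C c : R[X]) = 1 := by rw [← C_mul, hc, C_1]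
  rw [sepLegP, sepLegQ]
  linear_combination ((1 - 3 * (X ^ 2 - X)) * (X ^ 2 - X + 1) ^ 3) * hC

theorem monic_sepLeg_aux [Nontrivial R] : ((X ^ 2 - X + 1 : R[X]) ^ 3).Monic ∧
    ((X ^ 2 - X + 1 : R[X]) ^ 3).natDegree = 6 := by
  have h1 : (X ^ 2 - X + 1 : R[X]).Monic := by
    have : (X ^ 2 - X + 1 : R[X]) = X ^ 2 + (-X + 1) := by ring
    rw [this]
    refine monic_X_pow_add ?_
    refine lt_of_le_of_lt (degree_add_le _ _) ?_
    rw [degree_neg, degree_X, degree_one]
    norm_num
  have h2 : (X ^ 2 - X + 1 : R[X]).natDegree = 2 := by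
    have : (X ^ 2 - X + 1 : R[X]) = X ^ 2 + (-X + 1) := by ring
    rw [this]
    have hlt : (-X + 1 : R[X]).degree < (X ^ 2 : R[X]).degree := by
      rw [degree_X_pow]
      refine lt_of_le_of_lt (degree_add_le _ _) ?_
      rw [degree_neg, degree_X, degree_one]
      norm_num
    rw [natDegree_add_eq_left_of_degree_lt hlt, natDegree_X_pow]
  exact ⟨h1.pow 3, by rw [h1.natDegree_pow, h2]⟩

theorem leadingCoeff_sepLegP [Nontrivial R] : (sepLegP R).leadingCoeff = 256 := by
  rw [sepLegP, leadingCoeff_mul_monic monic_sepLeg_aux.1, leadingCoeff_C]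

theorem natDegree_sepLegP [Nontrivial R] (h : IsUnit (256 : R)) : (sepLegP R).natDegree = 6 := by
  rw [sepLegP, natDegree_C_mul_of_isUnit h, monic_sepLeg_aux.2]

theorem monic_sepLegQ [Nontrivial R] : (sepLegQ R).Monic := by
  rw [sepLegQ]
  exact (monic_X_pow 2).mul ((monic_X_sub_C (1 : R)).pow 2 |> fun h => by simpa using h)

theorem natDegree_sepLegQ [Nontrivial R] : (sepLegQ R).natDegree = 4 := by
  have h1 : ((X - 1 : R[X]) ^ 2).Monic := by
    have := (monic_X_sub_C (1 : R)).pow 2
    simpa using this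
  have h2 : ((X - 1 : R[X]) ^ 2).natDegree = 2 := by
    have h := (monic_X_sub_C (1 : R)).natDegree_pow 2
    rw [natDegree_X_sub_C] at h
    simpa using h
  rw [sepLegQ, (monic_X_pow 2).natDegree_mul h1, natDegree_X_pow, h2]

end Legendre

section Hesse

variable (R : Type*) [CommRing R]

/-- the Hesse numerator `27 X³ (X³ + 8)³` over a commutative ring. -/
noncomputable def sepHesP : R[X] := C (27 : R) * (X ^ 3 * (X ^ 3 + 8) ^ 3)

/-- the Hesse denominator `(X³ − 1)³` over a commutative ring. -/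
noncomputable def sepHesQ : R[X] := (X ^ 3 - 1) ^ 3

variable {R}

theorem map_sepHesP {S : Type*} [CommRing S] (φ : R →+* S) :
    (sepHesP R).map φ = sepHesP S := by
  simp [sepHesP, Polynomial.map_mul, Polynomial.map_pow, Polynomial.map_add, map_ofNat]

theorem map_sepHesQ {S : Type*} [CommRing S] (φ : R →+* S) :
    (sepHesQ R).map φ = sepHesQ S := by
  simp [sepHesQ, Polynomial.map_pow, Polynomial.map_sub]

/-- **Bezout for the Hesse line** over a ring in which `3` is invertible (`d = 3⁻⁹`,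
`e = 3⁻³`). -/
theorem sepHes_bezout (d e : R) (hd : 19683 * d = 1) (he : 27 * e = 1) :
    (C d * C e * (27 - 36 * (X ^ 3 - 1) + 38 * (X ^ 3 - 1) ^ 2)) * sepHesP R +
      (-(C d * ((27216 + 10260 * (X ^ 3 - 1)) +
        ((X ^ 3 - 1) + 28) * (27 - 36 * (X ^ 3 - 1) + 38 * (X ^ 3 - 1) ^ 2)))) * sepHesQ R = 1 := by
  have hD : (C (19683 : R) * C d : R[X]) = 1 := by rw [← C_mul, hd, C_1]
  have hE : (C (27 : R) * C e : R[X]) = 1 := by rw [← C_mul, he, C_1]
  have h27 : (C (27 : R) : R[X]) = 27 := map_ofNat C 27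
  have h19683 : (C (19683 : R) : R[X]) = 19683 := map_ofNat C 19683
  rw [h27] at hE
  rw [h19683] at hD
  rw [sepHesP, sepHesQ, h27]
  linear_combination (C d * (27 - 36 * (X ^ 3 - 1) + 38 * (X ^ 3 - 1) ^ 2) *
    (X ^ 3 * (X ^ 3 + 8) ^ 3)) * hE + hD

theorem monic_sepHes_aux [Nontrivial R] : (X ^ 3 * (X ^ 3 + 8) ^ 3 : R[X]).Monic ∧
    (X ^ 3 * (X ^ 3 + 8) ^ 3 : R[X]).natDegree = 12 := by
  have h1 : (X ^ 3 + 8 : R[X]).Monic := by
    have : (8 : R[X]) = C (8 : R) := (map_ofNat C 8).symm
    rw [this]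
    exact monic_X_pow_add_C (8 : R) (by norm_num)
  have h2 : (X ^ 3 + 8 : R[X]).natDegree = 3 := by
    have : (8 : R[X]) = C (8 : R) := (map_ofNat C 8).symm
    rw [this]
    exact natDegree_X_pow_add_C
  refine ⟨(monic_X_pow 3).mul (h1.pow 3), ?_⟩
  rw [(monic_X_pow 3).natDegree_mul (h1.pow 3), natDegree_X_pow, h1.natDegree_pow, h2]

theorem leadingCoeff_sepHesP [Nontrivial R] : (sepHesP R).leadingCoeff = 27 := by
  rw [sepHesP, leadingCoeff_mul_monic monic_sepHes_aux.1, leadingCoeff_C]

theorem natDegree_sepHesP [Nontrivial R] (h : IsUnit (27 : R)) : (sepHesP R).natDegree = 12 := by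
  rw [sepHesP, natDegree_C_mul_of_isUnit h, monic_sepHes_aux.2]

theorem monic_sepHesQ [Nontrivial R] : (sepHesQ R).Monic := by
  rw [sepHesQ]
  have : (1 : R[X]) = C (1 : R) := by simp
  rw [this]
  exact (monic_X_pow_sub_C (1 : R) (by norm_num)).pow 3

theorem natDegree_sepHesQ [Nontrivial R] : (sepHesQ R).natDegree = 9 := by
  have h1 : (X ^ 3 - 1 : R[X]).Monic := by
    have : (1 : R[X]) = C (1 : R) := by simp
    rw [this]
    exact monic_X_pow_sub_C (1 : R) (by norm_num)
  have h2 : (X ^ 3 - 1 : R[X]).natDegree = 3 := by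
    have : (1 : R[X]) = C (1 : R) := by simp
    rw [this]
    exact natDegree_X_pow_sub_C
  rw [sepHesQ, h1.natDegree_pow, h2]

end Hesse

section Common

variable {R : Type*} [CommRing R] [IsDomain R]

/-- a monic polynomial is not divisible by a non-unit constant. -/
theorem not_C_dvd_of_monic {π : R} (hπ : ¬ IsUnit π) {Q : R[X]} (hQ : Q.Monic) : ¬ C π ∣ Q := by
  intro h
  rw [C_dvd_iff_dvd_coeff] at h
  have := h Q.natDegree
  rw [coeff_natDegree, hQ.leadingCoeff] at this
  exact hπ (isUnit_of_dvd_one this)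

end Common

end Fermat.Agent.JA
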