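/-
J-A — helper6 — package SEP (R2), part (a)+(b): **norm commutes with reduction** for an extension
of valuation rings `V = W ∩ F ⊂ W` (`F ⊂ E` finite) whose residue degree is the full degree, and
the degree lemmas around it. Mathlib only.
-/
import Mathlib

set_option autoImplicit false
set_option linter.unusedSectionVars false
set_option linter.style.haveILetI false

open Module

namespace Fermat.Agent.JA

section Kernel

variable {F : Type*} [Field F] {V : ValuationSubring F} {κV : Type*} [Field κV]

/-- a surjective ring hom from a valuation ring onto a field kills exactly the non-units -/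
theorem resVal_eq_zero_iff (resV : V →+* κV) (hresV : Function.Surjective resV) (v : V) :
    resV v = 0 ↔ ¬ IsUnit v := by
  have hmax : (RingHom.ker resV).IsMaximal := RingHom.ker_isMaximal_of_surjective resV hresV
  have hker : RingHom.ker resV = IsLocalRing.maximalIdeal V := IsLocalRing.eq_maximalIdeal hmax
  rw [← RingHom.mem_ker, hker, IsLocalRing.mem_maximalIdeal, mem_nonunits_iff]

/-- in terms of the valuation -/
theorem resVal_eq_zero_iff_valuation_lt_one (resV : V →+* κV) (hresV : Function.Surjective resV)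
    (v : V) : resV v = 0 ↔ V.valuation (v : F) < 1 := by
  rw [resVal_eq_zero_iff resV hresV, ← ValuationSubring.valuation_lt_one_iff,
    IsLocalRing.mem_maximalIdeal, mem_nonunits_iff]

/-- **Scaling.** For a finite family of elements of `F`, not all zero, there is an index `i₀` with
`a i₀ ≠ 0` such that all `a i / a i₀` lie in `V`. -/
theorem exists_forall_div_mem_valuationSubring {ι : Type*} (s : Finset ι) (a : ι → F)
    (h : ∃ i ∈ s, a i ≠ 0) : ∃ i₀ ∈ s, a i₀ ≠ 0 ∧ ∀ i ∈ s, a i / a i₀ ∈ V := by
  obtain ⟨j, hjs, hj⟩ := h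
  obtain ⟨i₀, hi₀s, hi₀⟩ := Finset.exists_max_image s (fun i => V.valuation (a i)) ⟨j, hjs⟩
  have hne : a i₀ ≠ 0 := by
    intro h0
    have h1 := hi₀ j hjs
    rw [h0, map_zero] at h1
    exact hj ((map_eq_zero _).mp (le_antisymm h1 zero_le))
  refine ⟨i₀, hi₀s, hne, fun i his => ?_⟩
  rw [← ValuationSubring.valuation_le_one_iff, map_div₀]
  exact div_le_one_of_le₀ (hi₀ i his) zero_le

end Kernel

section NCR

variable {F E : Type*} [Field F] [Field E] [Algebra F E]
  {V : ValuationSubring F} {W : ValuationSubring E}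
  {κV κW : Type*} [Field κV] [Field κW] [Algebra κV κW]
  (resV : V →+* κV) (resW : W →+* κW)
  (hVW : ∀ x : F, x ∈ V ↔ algebraMap F E x ∈ W)
  (hresV : Function.Surjective resV) (hresW : Function.Surjective resW)
  (hcomp : ∀ (v : V) (w : W), (w : E) = algebraMap F E (v : F) →
    resW w = algebraMap κV κW (resV v))

include hVW hcomp in
/-- **Reduction of a `V`-linear relation** in `W`. -/
theorem res_relation {ι : Type*} (s : Finset ι) (c : ι → V) (x : ι → W) (c₀ : V) (w : W)
    (h : (c₀ : F) • (w : E) = ∑ i ∈ s, (c i : F) • (x i : E)) :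
    resV c₀ • resW w = ∑ i ∈ s, resV (c i) • resW (x i) := by
  have hmem : ∀ v : V, algebraMap F E (v : F) ∈ W := fun v => (hVW _).mp v.2
  have h1 : (⟨_, hmem c₀⟩ : W) * w = ∑ i ∈ s, (⟨_, hmem (c i)⟩ : W) * x i := by
    apply Subtype.ext
    rw [AddSubmonoidClass.coe_finsetSum]
    simp only [MulMemClass.coe_mul]
    simpa only [Algebra.smul_def] using h
  have h2 := congrArg resW h1
  rw [map_mul, map_sum] at h2
  simp only [map_mul] at h2
  rw [hcomp c₀ ⟨_, hmem c₀⟩ rfl] at h2
  rw [Algebra.smul_def, h2]
  refine Finset.sum_congr rfl fun i _ => ?_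
  rw [hcomp (c i) ⟨_, hmem (c i)⟩ rfl, Algebra.smul_def]

include hVW hcomp in
/-- **Lifts of independent families are independent.** -/
theorem linearIndependent_of_linearIndependent_res {ι : Type*} (x : ι → W)
    (hx : LinearIndependent κV (fun i => resW (x i))) :
    LinearIndependent F (fun i => (x i : E)) := by
  classical
  rw [linearIndependent_iff']
  intro s g hg i his
  by_contra hne
  obtain ⟨i₀, hi₀s, hi₀, hdiv⟩ :=
    exists_forall_div_mem_valuationSubring (V := V) s g ⟨i, his, hne⟩
  let c : ι → V := fun i => if h : i ∈ s then ⟨g i / g i₀, hdiv i h⟩ else 0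
  have hrel : ((0 : V) : F) • ((0 : W) : E) = ∑ i ∈ s, (c i : F) • (x i : E) := by
    have h1 : ∑ i ∈ s, (c i : F) • (x i : E) = (g i₀)⁻¹ • ∑ i ∈ s, g i • (x i : E) := by
      rw [Finset.smul_sum]
      refine Finset.sum_congr rfl fun i hi => ?_
      simp only [c, dif_pos hi]
      rw [smul_smul, div_eq_inv_mul]
    rw [h1, hg]; simp
  have h2 := res_relation resV resW hVW hcomp s c x 0 0 hrel
  rw [map_zero, zero_smul] at h2
  have h3 := linearIndependent_iff'.mp hx s (fun i => resV (c i)) h2.symm i₀ hi₀s
  have h4 : c i₀ = 1 := by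
    simp only [c, dif_pos hi₀s]
    apply Subtype.ext
    simp [div_self hi₀]
  simp only [h4, map_one] at h3
  exact one_ne_zero h3

include hVW hcomp hresW in
/-- **(DEG)** the residue degree is at most the degree (rank form). -/
theorem rank_res_le_finrank [FiniteDimensional F E] :
    Module.rank κV κW ≤ (finrank F E : Cardinal) := by
  classical
  refine rank_le fun s hs => ?_
  choose x hx using fun i : s => hresW (i : κW)
  have hli : LinearIndependent κV (fun i => resW (x i)) := by
    have : (fun i => resW (x i)) = fun i : s => (i : κW) := funext hx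
    rw [this]; exact hs
  have := (linearIndependent_of_linearIndependent_res resV resW hVW hcomp x
    hli).fintype_card_le_finrank
  simpa using this

include hVW hcomp hresW in
/-- **(DEG)** the residue field extension is finite. -/
theorem finite_resField [FiniteDimensional F E] : Module.Finite κV κW := by
  rw [← Module.rank_lt_aleph0_iff]
  exact (rank_res_le_finrank resV resW hVW hresW hcomp).trans_lt (Cardinal.natCast_lt_aleph0)

include hVW hcomp hresW in
/-- **(DEG)** the residue degree is at most the degree. -/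
theorem finrank_res_le_finrank [FiniteDimensional F E] : finrank κV κW ≤ finrank F E :=
  Module.finrank_le_of_rank_le (rank_res_le_finrank resV resW hVW hresW hcomp)

include hVW hcomp hresV hresW in
/-- **Integral basis.** If the residue degree is (at least) the degree, then lifts of a
`κV`-basis of `κW` form an `F`-basis of `E` which is a `V`-basis of `W`, compatibly with
reduction. -/
theorem exists_basis_res [FiniteDimensional F E] (hdeg : finrank F E ≤ finrank κV κW) :
    ∃ (b : Basis (Fin (finrank F E)) F E) (bbar : Basis (Fin (finrank F E)) κV κW)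
      (hb : ∀ i, b i ∈ W) (hrepr : ∀ (w : W) i, b.repr (w : E) i ∈ V),
      (∀ i, resW ⟨b i, hb i⟩ = bbar i) ∧
      ∀ (w : W) i, bbar.repr (resW w) i = resV ⟨b.repr (w : E) i, hrepr w i⟩ := by
  classical
  obtain ⟨xbar, hxbar⟩ := exists_linearIndependent_of_le_finrank hdeg
  choose x hx using fun i => hresW (xbar i)
  have hxfun : (fun i => resW (x i)) = xbar := funext hx
  have hli : LinearIndependent F (fun i => (x i : E)) :=
    linearIndependent_of_linearIndependent_res resV resW hVW hcomp x (hxfun ▸ hxbar)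
  haveI : Nonempty (Fin (finrank F E)) := ⟨⟨0, Module.finrank_pos⟩⟩
  let b : Basis (Fin (finrank F E)) F E :=
    basisOfLinearIndependentOfCardEqFinrank hli (by simp)
  have hbx : ∀ i, b i = (x i : E) := fun i => by
    simp only [b, coe_basisOfLinearIndependentOfCardEqFinrank]
  have hb : ∀ i, b i ∈ W := fun i => by rw [hbx]; exact (x i).2
  -- coordinates of elements of `W` lie in `V`
  have hsum : ∀ w : W, (w : E) = ∑ i, b.repr (w : E) i • (x i : E) := fun w => by
    conv_lhs => rw [← b.sum_repr (w : E)]
    exact Finset.sum_congr rfl fun i _ => by rw [hbx]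
  have hrepr : ∀ (w : W) i, b.repr (w : E) i ∈ V := by
    intro w
    by_contra hcon
    rw [not_forall] at hcon
    obtain ⟨j, hj⟩ := hcon
    have hjne : b.repr (w : E) j ≠ 0 := fun h0 => hj (h0 ▸ V.zero_mem)
    obtain ⟨i₀, -, hi₀, hdiv⟩ := exists_forall_div_mem_valuationSubring (V := V) Finset.univ
      (fun i => b.repr (w : E) i) ⟨j, Finset.mem_univ _, hjne⟩
    have hi₀V : b.repr (w : E) i₀ ∉ V := by
      intro hmem
      apply hj
      have : b.repr (w : E) j = b.repr (w : E) j / b.repr (w : E) i₀ * b.repr (w : E) i₀ := by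
        field_simp
      rw [this]
      exact V.mul_mem _ _ (hdiv j (Finset.mem_univ _)) hmem
    have hinv : (b.repr (w : E) i₀)⁻¹ ∈ V := (V.mem_or_inv_mem _).resolve_left hi₀V
    have hlt : V.valuation (b.repr (w : E) i₀)⁻¹ < 1 := by
      rw [map_inv₀]
      have h1 : ¬ V.valuation (b.repr (w : E) i₀) ≤ 1 := by
        rwa [ValuationSubring.valuation_le_one_iff]
      have h1' : 1 < V.valuation (b.repr (w : E) i₀) := lt_of_not_ge h1
      exact inv_lt_one_of_one_lt₀ h1'
    let c : Fin (finrank F E) → V := fun i =>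
      ⟨b.repr (w : E) i / b.repr (w : E) i₀, hdiv i (Finset.mem_univ _)⟩
    have hrel : (((⟨_, hinv⟩ : V)) : F) • (w : E) = ∑ i, (c i : F) • (x i : E) := by
      calc (((⟨_, hinv⟩ : V)) : F) • (w : E)
          = (b.repr (w : E) i₀)⁻¹ • ∑ i, b.repr (w : E) i • (x i : E) :=
            congrArg (fun z => (b.repr (w : E) i₀)⁻¹ • z) (hsum w)
        _ = ∑ i, (c i : F) • (x i : E) := by
            rw [Finset.smul_sum]
            refine Finset.sum_congr rfl fun i _ => ?_
            simp only [c]
            rw [smul_smul, div_eq_inv_mul]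
    have h2 := res_relation resV resW hVW hcomp Finset.univ c x ⟨_, hinv⟩ w hrel
    rw [(resVal_eq_zero_iff_valuation_lt_one resV hresV ⟨_, hinv⟩).mpr hlt, zero_smul] at h2
    have h3 := linearIndependent_iff'.mp (hxfun ▸ hxbar) Finset.univ (fun i => resV (c i))
      h2.symm i₀ (Finset.mem_univ _)
    have h4 : c i₀ = 1 := by
      apply Subtype.ext
      simp [c, div_self hi₀]
    simp only [h4, map_one] at h3
    exact one_ne_zero h3
  -- reduction of the coordinates
  have hred : ∀ w : W, resW w = ∑ i, resV ⟨b.repr (w : E) i, hrepr w i⟩ • xbar i := by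
    intro w
    have hrel : (((1 : V)) : F) • (w : E)
        = ∑ i, ((⟨b.repr (w : E) i, hrepr w i⟩ : V) : F) • (x i : E) := by
      rw [OneMemClass.coe_one, one_smul]
      exact hsum w
    have h2 := res_relation resV resW hVW hcomp Finset.univ
      (fun i => ⟨b.repr (w : E) i, hrepr w i⟩) x 1 w hrel
    rw [map_one, one_smul] at h2
    rw [h2]
    exact Finset.sum_congr rfl fun i _ => by rw [hx]
  have hspan : ⊤ ≤ Submodule.span κV (Set.range xbar) := by
    intro z _
    obtain ⟨w, rfl⟩ := hresW z
    rw [hred w]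
    exact Submodule.sum_mem _ fun i _ =>
      Submodule.smul_mem _ _ (Submodule.subset_span ⟨i, rfl⟩)
  let bbar : Basis (Fin (finrank F E)) κV κW := Basis.mk hxbar hspan
  have hbbar : ∀ i, bbar i = xbar i := fun i => by simp only [bbar, Basis.mk_apply]
  refine ⟨b, bbar, hb, hrepr, fun i => ?_, fun w i => ?_⟩
  · rw [hbbar, ← hx i]
    congr 1
    exact Subtype.ext (hbx i)
  · have h1 : resW w = ∑ i, resV ⟨b.repr (w : E) i, hrepr w i⟩ • bbar i := by
      rw [hred w]
      exact Finset.sum_congr rfl fun i _ => by rw [hbbar]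
    rw [h1, Basis.repr_sum_self]

include hVW hcomp hresV hresW in
/-- if the residue degree is at least the degree, they are equal -/
theorem finrank_res_eq_finrank [FiniteDimensional F E] (hdeg : finrank F E ≤ finrank κV κW) :
    finrank κV κW = finrank F E :=
  le_antisymm (finrank_res_le_finrank resV resW hVW hresW hcomp) hdeg

include hVW hcomp hresV hresW in
/-- **(NCR) Norm commutes with reduction.** `F ⊂ E` finite, `V = W ∩ F ⊂ W` valuation rings with
residue fields `κV ⊂ κW` of degree `≥ [E:F]`: for `x ∈ W`, `N_{E/F}(x) ∈ V` and its reduction is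
`N_{κW/κV}(x̄)`. -/
theorem norm_commutes_with_reduction [FiniteDimensional F E]
    (hdeg : finrank F E ≤ finrank κV κW) (x : W) :
    ∃ v : V, (v : F) = Algebra.norm F (x : E) ∧ resV v = Algebra.norm κV (resW x) := by
  classical
  obtain ⟨b, bbar, hb, hrepr, hbb, hred⟩ := exists_basis_res resV resW hVW hresV hresW hcomp hdeg
  let M : Matrix (Fin (finrank F E)) (Fin (finrank F E)) V := fun i j =>
    ⟨b.repr (((x * ⟨b j, hb j⟩ : W)) : E) i, hrepr _ i⟩
  refine ⟨M.det, ?_, ?_⟩
  · rw [Algebra.norm_eq_matrix_det b]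
    have h1 : ((M.det : V) : F) = V.subtype M.det := rfl
    rw [h1, RingHom.map_det]
    congr 1
    ext i j
    rw [Algebra.leftMulMatrix_eq_repr_mul]
    rfl
  · rw [Algebra.norm_eq_matrix_det bbar, RingHom.map_det]
    congr 1
    ext i j
    rw [Algebra.leftMulMatrix_eq_repr_mul, ← hbb j, ← map_mul, hred]
    rfl

include hVW hcomp hresV hresW in
/-- **Trace commutes with reduction** (same setting). -/
theorem trace_commutes_with_reduction [FiniteDimensional F E]
    (hdeg : finrank F E ≤ finrank κV κW) (x : W) :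
    ∃ v : V, (v : F) = Algebra.trace F E (x : E) ∧ resV v = Algebra.trace κV κW (resW x) := by
  classical
  obtain ⟨b, bbar, hb, hrepr, hbb, hred⟩ := exists_basis_res resV resW hVW hresV hresW hcomp hdeg
  let M : Matrix (Fin (finrank F E)) (Fin (finrank F E)) V := fun i j =>
    ⟨b.repr (((x * ⟨b j, hb j⟩ : W)) : E) i, hrepr _ i⟩
  refine ⟨M.trace, ?_, ?_⟩
  · rw [Algebra.trace_eq_matrix_trace b]
    have h1 : ((M.trace : V) : F) = V.subtype M.trace := rfl
    rw [h1, Matrix.trace, map_sum, Matrix.trace]
    refine Finset.sum_congr rfl fun i _ => ?_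
    rw [Matrix.diag_apply, Matrix.diag_apply, Algebra.leftMulMatrix_eq_repr_mul]
    rfl
  · rw [Algebra.trace_eq_matrix_trace bbar, Matrix.trace, map_sum, Matrix.trace]
    refine Finset.sum_congr rfl fun i _ => ?_
    rw [Matrix.diag_apply, Matrix.diag_apply, Algebra.leftMulMatrix_eq_repr_mul, ← hbb i,
      ← map_mul, hred]

end NCR

section Tower

variable {K₀ F E : Type*} [Field K₀] [Field F] [Field E] [Algebra K₀ F] [Algebra F E]
  [Algebra K₀ E] [IsScalarTower K₀ F E]
  {V₀ : ValuationSubring K₀} {V : ValuationSubring F} {W : ValuationSubring E}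
  {κ₀ κV κW : Type*} [Field κ₀] [Field κV] [Field κW] [Algebra κ₀ κV] [Algebra κV κW]
  [Algebra κ₀ κW] [IsScalarTower κ₀ κV κW]
  (res₀ : V₀ →+* κ₀) (resV : V →+* κV)
  (hV₀V : ∀ x : K₀, x ∈ V₀ ↔ algebraMap K₀ F x ∈ V)
  (hresV : Function.Surjective resV)
  (hcomp₀ : ∀ (v : V₀) (w : V), (w : F) = algebraMap K₀ F (v : K₀) →
    resV w = algebraMap κ₀ κV (res₀ v))

include hV₀V hresV hcomp₀ in
/-- **(DEG-tower)** `K₀ ⊂ F ⊂ E`, valuation rings `V₀ ⊂ V ⊂ W`: if the residue degree of `W` over
`V₀` is the full degree `[E:K₀]`, then the residue degree of `W` over `V` is (at least) `[E:F]`.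
-/
theorem finrank_le_finrank_res_of_tower [FiniteDimensional K₀ F]
    (hdeg : finrank K₀ E ≤ finrank κ₀ κW) : finrank F E ≤ finrank κV κW := by
  have h1 : finrank κ₀ κV ≤ finrank K₀ F := finrank_res_le_finrank res₀ resV hV₀V hresV hcomp₀
  have h2 : finrank K₀ F * finrank F E = finrank K₀ E := Module.finrank_mul_finrank K₀ F E
  have h3 : finrank κ₀ κV * finrank κV κW = finrank κ₀ κW := Module.finrank_mul_finrank κ₀ κV κW
  have h4 : 0 < finrank K₀ F := Module.finrank_pos
  have h5 : finrank K₀ F * finrank F E ≤ finrank K₀ F * finrank κV κW :=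
    calc finrank K₀ F * finrank F E = finrank K₀ E := h2
      _ ≤ finrank κ₀ κW := hdeg
      _ = finrank κ₀ κV * finrank κV κW := h3.symm
      _ ≤ finrank K₀ F * finrank κV κW := Nat.mul_le_mul_right _ h1
  exact Nat.le_of_mul_le_mul_left h5 h4

end Tower

end Fermat.Agent.JA
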