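/-
J-A — helper6 — package SEP (R2): the induced map of residue fields `κV → κW` for valuation
subrings `V = W ∩ F ⊂ W` with arbitrary (surjective) residue maps. Mathlib only.
-/
import Mathlib
import Fermat.Agent.JA.SEP_helper6_Norm

set_option autoImplicit false
set_option linter.unusedSectionVars false
set_option linter.style.haveILetI false

namespace Fermat.Agent.JA

section Alg

variable {F E : Type*} [Field F] [Field E] [Algebra F E]
  {V : ValuationSubring F} {W : ValuationSubring E}
  {κV κW : Type*} [Field κV] [Field κW]
  (resV : V →+* κV) (resW : W →+* κW)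
  (hVW : ∀ x : F, x ∈ V ↔ algebraMap F E x ∈ W)
  (hresV : Function.Surjective resV) (hresW : Function.Surjective resW)

/-- the inclusion `V → W` -/
def valInclusion : V →+* W where
  toFun v := ⟨algebraMap F E (v : F), (hVW _).mp v.2⟩
  map_one' := Subtype.ext (by simp)
  map_mul' a b := Subtype.ext (by simp)
  map_zero' := Subtype.ext (by simp)
  map_add' a b := Subtype.ext (by simp)

@[simp] theorem coe_valInclusion (v : V) :
    ((valInclusion hVW v : W) : E) = algebraMap F E (v : F) := rfl

include hresV hresW in
theorem resW_valInclusion_eq_zero (v : V) (hv : resV v = 0) :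
    resW (valInclusion hVW v) = 0 := by
  rw [resVal_eq_zero_iff resV hresV] at hv
  rw [resVal_eq_zero_iff resW hresW]
  intro hu
  apply hv
  -- the inverse of `v` in `W` lies in `F`
  obtain ⟨u, hu⟩ := hu.exists_right_inv
  have hv0 : (v : F) ≠ 0 := by
    intro h0
    have h1 : ((valInclusion hVW v * u : W) : E) = 1 := by rw [hu]; rfl
    rw [MulMemClass.coe_mul, coe_valInclusion, h0, map_zero, zero_mul] at h1
    exact zero_ne_one h1
  have huE : (u : E) = algebraMap F E (v : F)⁻¹ := by
    have h1 : ((valInclusion hVW v * u : W) : E) = 1 := by rw [hu]; rfl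
    rw [MulMemClass.coe_mul, coe_valInclusion] at h1
    rw [map_inv₀]
    exact eq_inv_of_mul_eq_one_right h1
  have hinv : (v : F)⁻¹ ∈ V := by
    rw [hVW, ← huE]; exact u.2
  exact IsUnit.of_mul_eq_one ⟨(v : F)⁻¹, hinv⟩ (Subtype.ext (by simp [mul_inv_cancel₀ hv0]))

/-- **(ALG)** the induced map of residue fields. -/
noncomputable def resFieldMap : κV →+* κW :=
  RingHom.liftOfSurjective resV hresV ⟨resW.comp (valInclusion hVW), fun v hv => by
    rw [RingHom.mem_ker] at hv ⊢
    exact resW_valInclusion_eq_zero resV resW hVW hresV hresW v hv⟩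

theorem resFieldMap_resV (v : V) :
    resFieldMap resV resW hVW hresV hresW (resV v) = resW (valInclusion hVW v) := by
  unfold resFieldMap
  rw [RingHom.liftOfRightInverse_comp_apply]
  rfl

/-- the compatibility `hcomp` of the NCR package for the algebra structure `resFieldMap`. -/
theorem resFieldMap_comp (v : V) (w : W) (h : (w : E) = algebraMap F E (v : F)) :
    resW w = resFieldMap resV resW hVW hresV hresW (resV v) := by
  rw [resFieldMap_resV]
  congr 1
  exact Subtype.ext h

end Alg

end Fermat.Agent.JA
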