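/-
J-A — helper6 — package SEP (R2), part (b'): **the residue degree is the full degree** for an
unramified integral extension of a discrete valuation ring (`f = n` when `e = 1` and there is a
unique extension). Mathlib only.
-/
import Mathlib
import Fermat.Agent.JA.SEP_helper6_Norm

set_option autoImplicit false
set_option linter.unusedSectionVars false
set_option linter.style.haveILetI false
set_option linter.deprecated false

open Module

namespace Fermat.Agent.JA

section DegGe

variable {F E : Type*} [Field F] [Field E] [Algebra F E]
  {V : ValuationSubring F} {W : ValuationSubring E}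
  {κV κW : Type*} [Field κV] [Field κW] [Algebra κV κW]
  (resV : V →+* κV) (resW : W →+* κW)
  (hVW : ∀ x : F, x ∈ V ↔ algebraMap F E x ∈ W)
  (hresV : Function.Surjective resV) (hresW : Function.Surjective resW)
  (hcomp : ∀ (v : V) (w : W), (w : E) = algebraMap F E (v : F) →
    resW w = algebraMap κV κW (resV v))

include hVW in
/-- `W` is the integral closure of `V` in `E`, if `W` is integral over `V`. -/
theorem mem_integralClosure_iff_mem_of_isIntegral (hint : ∀ w : W, IsIntegral V (w : E)) (x : E) :
    x ∈ integralClosure V E ↔ x ∈ W := by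
  constructor
  · intro hx
    -- `x` is integral over `W`, which is integrally closed in `E`
    let φ : V →+* W :=
      { toFun := fun v => ⟨algebraMap F E (v : F), (hVW _).mp v.2⟩
        map_one' := Subtype.ext (by simp)
        map_mul' := fun a b => Subtype.ext (by simp)
        map_zero' := Subtype.ext (by simp)
        map_add' := fun a b => Subtype.ext (by simp) }
    letI : Algebra V W := φ.toAlgebra
    haveI : IsScalarTower V W E := IsScalarTower.of_algebraMap_eq (fun v => rfl)
    have h1 : IsIntegral W x := IsIntegral.tower_top (R := V) hx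
    obtain ⟨y, hy⟩ := IsIntegrallyClosed.algebraMap_eq_of_integral h1
    rw [← hy]
    exact y.2
  · intro hx
    exact hint ⟨x, hx⟩

include hVW hresV hresW hcomp in
/-- **(DEG-ge)** `V` a discrete valuation ring, `E / F` finite separable, `W` integral over `V`
(so `W` is the unique extension of `V`), and the maximal ideal of `W` generated by that of `V`
(`e = 1`): then `[κW : κV] = [E : F]`. -/
theorem finrank_res_eq_finrank_of_isIntegral [FiniteDimensional F E] [Algebra.IsSeparable F E]
    [IsDiscreteValuationRing V] (hint : ∀ w : W, IsIntegral V (w : E))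
    (he : ∀ w : W, resW w = 0 → ∃ (v : V) (w' : W), resV v = 0 ∧
      (w : E) = algebraMap F E (v : F) * (w' : E)) :
    finrank κV κW = finrank F E := by
  have hSW := mem_integralClosure_iff_mem_of_isIntegral hVW hint
  haveI : IsFractionRing ↥(integralClosure V E) E :=
    integralClosure.isFractionRing_of_finite_extension F E
  haveI : Module.Finite V ↥(integralClosure V E) :=
    IsIntegralClosure.finite V F E ↥(integralClosure V E)
  have h1 := Ideal.finrank_quotient_map (S := ↥(integralClosure V E))
    (IsLocalRing.maximalIdeal V) F E
  rw [← h1]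
  -- the reduction on `S = integralClosure V E`
  let incl : ↥(integralClosure V E) →+* W :=
    { toFun := fun x => ⟨(x : E), (hSW _).mp x.2⟩
      map_one' := rfl
      map_mul' := fun _ _ => rfl
      map_zero' := rfl
      map_add' := fun _ _ => rfl }
  let resS : ↥(integralClosure V E) →+* κW := resW.comp incl
  have hresS : Function.Surjective resS := by
    intro z
    obtain ⟨w, rfl⟩ := hresW z
    exact ⟨⟨(w : E), (hSW _).mpr w.2⟩, rfl⟩
  have hkerV : RingHom.ker resV = IsLocalRing.maximalIdeal V :=
    IsLocalRing.eq_maximalIdeal (RingHom.ker_isMaximal_of_surjective resV hresV)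
  have hcompS : ∀ v : V, resS (algebraMap V ↥(integralClosure V E) v)
      = algebraMap κV κW (resV v) := fun v => hcomp v _ rfl
  have hkerS : RingHom.ker resS
      = Ideal.map (algebraMap V ↥(integralClosure V E)) (IsLocalRing.maximalIdeal V) := by
    apply le_antisymm
    · intro x hx
      rw [RingHom.mem_ker] at hx
      obtain ⟨v, w', hv, hxw⟩ := he (incl x) hx
      have hv' : v ∈ IsLocalRing.maximalIdeal V := by rw [← hkerV]; exact hv
      have hx' : x = algebraMap V ↥(integralClosure V E) v * ⟨(w' : E), (hSW _).mpr w'.2⟩ :=
        Subtype.ext hxw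
      rw [hx']
      exact Ideal.mul_mem_right _ _ (Ideal.mem_map_of_mem _ hv')
    · rw [Ideal.map_le_iff_le_comap]
      intro v hv
      rw [Ideal.mem_comap, RingHom.mem_ker, hcompS]
      rw [← hkerV, RingHom.mem_ker] at hv
      rw [hv, map_zero]
  let i : (V ⧸ IsLocalRing.maximalIdeal V) ≃+* κV :=
    (Ideal.quotEquivOfEq hkerV.symm).trans (RingHom.quotientKerEquivOfSurjective hresV)
  let j : (↥(integralClosure V E) ⧸
      Ideal.map (algebraMap V ↥(integralClosure V E)) (IsLocalRing.maximalIdeal V)) ≃+* κW :=
    (Ideal.quotEquivOfEq hkerS.symm).trans (RingHom.quotientKerEquivOfSurjective hresS)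
  refine (Algebra.finrank_eq_of_equiv_equiv i j ?_).symm
  apply Ideal.Quotient.ringHom_ext
  ext v
  simp only [RingHom.coe_comp, Function.comp_apply, RingEquiv.toRingHom_eq_coe, RingHom.coe_coe]
  rw [Ideal.Quotient.algebraMap_quotient_map_quotient]
  show algebraMap κV κW (resV v) = resS (algebraMap V ↥(integralClosure V E) v)
  rw [hcompS]

include hVW hresV hresW hcomp in
theorem finrank_le_finrank_res_of_isIntegral [FiniteDimensional F E] [Algebra.IsSeparable F E]
    [IsDiscreteValuationRing V] (hint : ∀ w : W, IsIntegral V (w : E))
    (he : ∀ w : W, resW w = 0 → ∃ (v : V) (w' : W), resV v = 0 ∧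
      (w : E) = algebraMap F E (v : F) * (w' : E)) :
    finrank F E ≤ finrank κV κW :=
  (finrank_res_eq_finrank_of_isIntegral resV resW hVW hresV hresW hcomp hint he).ge

end DegGe

end Fermat.Agent.JA
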