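/-
J-A — helper6 — package SEP (R2), part (d'): **lifting integral elements of the residue field**
through an integrally closed chart localised at a unit (`C̃_∞ = B̃_t[1/c̃]`). Mathlib only.
-/
import Mathlib

set_option autoImplicit false
set_option linter.unusedSectionVars false
set_option linter.style.haveILetI false

open Polynomial

namespace Fermat.Agent.JA

section Away

variable {κ : Type*} [Field κ] (S : Subring κ) (c : κ)

/-- the subring `S[1/c] = {g | ∃ m, c ^ m * g ∈ S}` of a field, for `c ∈ S` -/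
def awaySubring (hc : c ∈ S) : Subring κ where
  carrier := {g | ∃ m : ℕ, c ^ m * g ∈ S}
  zero_mem' := ⟨0, by simp [S.zero_mem]⟩
  one_mem' := ⟨0, by simp [S.one_mem]⟩
  add_mem' := by
    rintro a b ⟨m, hm⟩ ⟨n, hn⟩
    refine ⟨m + n, ?_⟩
    have : c ^ (m + n) * (a + b) = c ^ n * (c ^ m * a) + c ^ m * (c ^ n * b) := by ring
    rw [this]
    exact S.add_mem (S.mul_mem (S.pow_mem hc _) hm) (S.mul_mem (S.pow_mem hc _) hn)
  mul_mem' := by
    rintro a b ⟨m, hm⟩ ⟨n, hn⟩
    refine ⟨m + n, ?_⟩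
    have : c ^ (m + n) * (a * b) = (c ^ m * a) * (c ^ n * b) := by ring
    rw [this]
    exact S.mul_mem hm hn
  neg_mem' := by
    rintro a ⟨m, hm⟩
    refine ⟨m, ?_⟩
    rw [mul_neg]
    exact S.neg_mem hm

theorem mem_awaySubring_iff (hc : c ∈ S) (g : κ) :
    g ∈ awaySubring S c hc ↔ ∃ m : ℕ, c ^ m * g ∈ S := Iff.rfl

theorem le_awaySubring (hc : c ∈ S) : S ≤ awaySubring S c hc :=
  fun g hg => ⟨0, by simpa using hg⟩

theorem pow_mul_mem_of_le {m n : ℕ} (hc : c ∈ S) (hmn : m ≤ n) {g : κ} (h : c ^ m * g ∈ S) :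
    c ^ n * g ∈ S := by
  obtain ⟨d, rfl⟩ := Nat.exists_eq_add_of_le hmn
  rw [pow_add, mul_comm (c ^ m), mul_assoc]
  exact S.mul_mem (S.pow_mem hc _) h

/-- **(RATINT)** an element integral over `S[1/c]` becomes integral over `S` after
multiplication by a power of `c`. -/
theorem exists_pow_mul_isIntegral_of_isIntegral_awaySubring (hc : c ∈ S) (z : κ)
    (hz : IsIntegral (awaySubring S c hc) z) : ∃ m : ℕ, IsIntegral S (c ^ m * z) := by
  classical
  obtain ⟨p', hp'm, hp'z⟩ := hz
  -- work in `κ[X]`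
  set p : κ[X] := p'.map (awaySubring S c hc).subtype with hp
  have hpm : p.Monic := hp'm.map _
  have hpz : eval z p = 0 := by
    rw [hp, eval_map]; exact hp'z
  have hcoef : ∀ i, ∃ m : ℕ, c ^ m * p.coeff i ∈ S := by
    intro i
    rw [hp, coeff_map]
    exact (p'.coeff i).2
  choose f hf using hcoef
  set M : ℕ := (Finset.range (p.natDegree + 1)).sup f with hM
  have hfM : ∀ i ≤ p.natDegree, f i ≤ M := fun i hi =>
    Finset.le_sup (f := f) (Finset.mem_range.mpr (Nat.lt_succ_of_le hi))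
  set q : κ[X] := scaleRoots p (c ^ M) with hq
  have hqm : q.Monic := (monic_scaleRoots_iff _).mpr hpm
  have hqz : eval (c ^ M * z) q = 0 := by
    rw [hq, scaleRoots_eval_mul, hpz, mul_zero]
  have hqcoef : ∀ i, q.coeff i ∈ S := by
    intro i
    rw [hq, coeff_scaleRoots]
    rcases lt_trichotomy i p.natDegree with hlt | heq | hgt
    · have h1 : M ≤ M * (p.natDegree - i) := Nat.le_mul_of_pos_right _ (Nat.sub_pos_of_lt hlt)
      have h2 : c ^ (M * (p.natDegree - i)) * p.coeff i ∈ S :=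
        pow_mul_mem_of_le S c hc ((hfM i hlt.le).trans h1) (hf i)
      rwa [← pow_mul, mul_comm]
    · rw [heq, Nat.sub_self, pow_zero, mul_one, coeff_natDegree, hpm.leadingCoeff]
      exact S.one_mem
    · rw [coeff_eq_zero_of_natDegree_lt hgt, zero_mul]
      exact S.zero_mem
  have hsub : (↑q.coeffs : Set κ) ⊆ S := by
    intro x hx
    have hx' : ∃ i, ¬ q.coeff i = 0 ∧ q.coeff i = x := by simpa [coeffs] using hx
    obtain ⟨i, -, rfl⟩ := hx'
    exact hqcoef i
  refine ⟨M, q.toSubring S hsub, (monic_toSubring q S hsub).mpr hqm, ?_⟩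
  have h1 : eval₂ (algebraMap S κ) (c ^ M * z) (q.toSubring S hsub)
      = eval (c ^ M * z) ((q.toSubring S hsub).map S.subtype) := by
    rw [eval_map]; rfl
  rw [h1, map_toSubring, hqz]

end Away

section Lift

variable {E : Type*} [Field E] {W : ValuationSubring E} {κW : Type*} [Field κW]
  (resW : W →+* κW)
  {A₀ : Type*} [CommRing A₀] [Algebra A₀ E]
  (B : Subring W) (hBint : ∀ b ∈ B, IsIntegral A₀ ((b : W) : E))
  (c : W) (hcB : c ∈ B) (hc0 : (c : E) ≠ 0) (hcinv : (c : E)⁻¹ ∈ W)
  (hcint : IsIntegral A₀ ((c : E)⁻¹))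
  (hclosed : ∀ z : κW, IsIntegral (B.map resW) z → z ∈ B.map resW)

include hBint hcB hc0 hcinv hcint hclosed in
/-- **(LIFT-1)** `B ⊂ W` a chart whose reduction is integrally closed in `κW`, `c ∈ B` a unit of
`W`; elements of `B` and `c⁻¹` integral over `A₀`. If `c̃ ^ m * z` is integral over `B̃`, then `z`
is the reduction of an element of `W` integral over `A₀`. -/
theorem exists_isIntegral_res_eq_of_pow_mul (z : κW) (m : ℕ)
    (hz : IsIntegral (B.map resW) (resW c ^ m * z)) :
    ∃ x : W, IsIntegral A₀ (x : E) ∧ resW x = z := by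
  obtain ⟨b, hb, hbz⟩ := hclosed _ hz
  let ci : W := ⟨(c : E)⁻¹, hcinv⟩
  have hcci : c * ci = 1 := Subtype.ext (by simp [ci, mul_inv_cancel₀ hc0])
  have hres : resW c * resW ci = 1 := by rw [← map_mul, hcci, map_one]
  refine ⟨b * ci ^ m, ?_, ?_⟩
  · have h1 : (((b * ci ^ m : W)) : E) = (b : E) * ((c : E)⁻¹) ^ m := by
      simp [ci]
    rw [h1]
    exact (hBint b hb).mul (hcint.pow m)
  · rw [map_mul, map_pow, hbz]
    calc resW c ^ m * z * resW ci ^ m = z * (resW c * resW ci) ^ m := by ring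
      _ = z := by rw [hres, one_pow, mul_one]

variable {k κV : Type*} [Field k] [Field κV] [Algebra k κV] [Algebra κV κW] [Algebra k κW]
  [IsScalarTower k κV κW]

include hBint hcB hc0 hcinv hcint hclosed in
/-- **(LIFT)** In the situation of (LIFT-1), suppose moreover `k ⊂ B̃` and `c̃ ^ m * j ∈ B̃` for
some `m` (e.g. `j = Ã(t̃)/B̃(t̃)`, `c̃ = B̃(t̃)`, `k[t̃] ⊂ B̃`). Then every element of `κV` integral
over `k[j]` is the reduction of an element of `W` integral over `A₀`. -/
theorem exists_isIntegral_res_eq_of_isIntegral_adjoin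
    (hk : ∀ a : k, algebraMap k κW a ∈ B.map resW)
    (j : κV) (hj : ∃ m : ℕ, resW c ^ m * algebraMap κV κW j ∈ B.map resW)
    (a : κV) (ha : IsIntegral (Algebra.adjoin k {j}) a) :
    ∃ x : W, IsIntegral A₀ (x : E) ∧ resW x = algebraMap κV κW a := by
  have hcS : resW c ∈ B.map resW := ⟨c, hcB, rfl⟩
  -- the image of `k[j]` lies in `B̃[1/c̃]`
  have hmem : ∀ g : Algebra.adjoin k {j},
      (algebraMap κV κW).comp (algebraMap (Algebra.adjoin k {j}) κV) g
        ∈ awaySubring (B.map resW) (resW c) hcS := by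
    rintro ⟨g, hg⟩
    show algebraMap κV κW g ∈ awaySubring (B.map resW) (resW c) hcS
    induction hg using Algebra.adjoin_induction with
    | mem x hx =>
      rw [Set.mem_singleton_iff] at hx
      subst hx
      exact hj
    | algebraMap r =>
      rw [← IsScalarTower.algebraMap_apply]
      exact le_awaySubring _ _ hcS (hk r)
    | add x y _ _ hx hy => rw [map_add]; exact Subring.add_mem _ hx hy
    | mul x y _ _ hx hy => rw [map_mul]; exact Subring.mul_mem _ hx hy
  let φ : Algebra.adjoin k {j} →+* awaySubring (B.map resW) (resW c) hcS :=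
    RingHom.codRestrict _ _ hmem
  have hint : IsIntegral (awaySubring (B.map resW) (resW c) hcS) (algebraMap κV κW a) := by
    obtain ⟨p, hpm, hpa⟩ := ha
    refine ⟨p.map φ, hpm.map φ, ?_⟩
    rw [eval₂_map]
    have h1 : (algebraMap (awaySubring (B.map resW) (resW c) hcS) κW).comp φ
        = (algebraMap κV κW).comp (algebraMap (Algebra.adjoin k {j}) κV) := by
      ext g; rfl
    rw [h1, ← hom_eval₂, hpa, map_zero]
  obtain ⟨m, hm⟩ :=
    exists_pow_mul_isIntegral_of_isIntegral_awaySubring (B.map resW) (resW c) hcS _ hint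
  exact exists_isIntegral_res_eq_of_pow_mul resW B hBint c hcB hc0 hcinv hcint hclosed _ m hm

end Lift

end Fermat.Agent.JA
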