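/-
J-A — helper6 — package SEP (R2), part (c): **separation of places by elements of a Dedekind
chart ring** (any characteristic), in helper4's `HasValueAt` currency.
-/
import Mathlib
import Fermat.Agent.FF.Dedekind
import Fermat.Agent.JA.ES_helper4_Value

set_option autoImplicit false
set_option linter.unusedSectionVars false
set_option linter.style.haveILetI false

open AlgebraicCurve IsDedekindDomain

namespace Fermat.Agent.JA

open Fermat.Agent.FF

section Value

variable {K F : Type*} [Field K] [Field F] [Algebra K F]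

/-- vanishing of a power at a place -/
theorem hasValueAt_pow_zero_iff (P : Place K F) (f : F) {n : ℕ} (hn : n ≠ 0) :
    HasValueAt P (f ^ n) 0 ↔ HasValueAt P f 0 := by
  rw [HasValueAt.zero_iff_lt, HasValueAt.zero_iff_lt, map_pow]
  exact pow_lt_one_iff hn

end Value

section Dedekind

variable {k F : Type*} [Field k] [Field F] [Algebra k F]
variable {R : Type*} [CommRing R] [IsDedekindDomain R] [Algebra R F] [IsFractionRing R F]
  [Algebra k R] [IsScalarTower k R F]

/-- vanishing at the place of a prime `w` of an element of the Dedekind ring `R` -/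
theorem hasValueAt_placeOf_algebraMap_zero_iff (w : HeightOneSpectrum R) (r : R) :
    HasValueAt (placeOf (k := k) (F := F) w) (algebraMap R F r) 0 ↔ r ∈ w.asIdeal := by
  rw [HasValueAt.zero_iff]
  rcases eq_or_ne r 0 with rfl | hr
  · simp
  · rw [ord_placeOf_algebraMap_pos_iff w r hr]
    have : algebraMap R F r ≠ 0 := by
      simpa using (IsFractionRing.injective R F).ne hr
    simp [this]

/-- **(SEP-k)** Separation of finitely many places at which the Dedekind ring `R` is regular by an
element of `R`. -/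
theorem exists_algebraMap_hasValueAt_zero (T : Finset (Place k F))
    (hT : ∀ Q ∈ T, ∀ r : R, algebraMap R F r ∈ Q.toValuationSubring)
    (Q₀ : Place k F) (hQ₀ : Q₀ ∈ T) :
    ∃ a : R, HasValueAt Q₀ (algebraMap R F a) 0 ∧
      ∀ Q ∈ T, Q ≠ Q₀ → ¬ HasValueAt Q (algebraMap R F a) 0 := by
  classical
  have hex : ∀ Q : T, ∃ w : HeightOneSpectrum R, placeOf (k := k) (F := F) w = (Q : Place k F) :=
    fun Q => exists_placeOf_eq (Q : Place k F) (hT Q Q.2)
  choose w hw using hex
  obtain ⟨y, hy⟩ := IsDedekindDomain.exists_forall_sub_mem_ideal (s := Finset.univ)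
    (fun Q : T => (w Q).asIdeal) (fun _ => 1) (fun Q _ => (w Q).prime)
    (fun Q _ Q' _ hne heq => hne (by
      have h1 : w Q = w Q' := HeightOneSpectrum.ext heq
      have h2 := hw Q
      rw [h1, hw Q'] at h2
      exact Subtype.ext h2.symm))
    (fun Q => if (Q : T) = ⟨Q₀, hQ₀⟩ then (0 : R) else 1)
  refine ⟨y, ?_, fun Q hQ hne => ?_⟩
  · have h1 := hy ⟨Q₀, hQ₀⟩ (Finset.mem_univ _)
    simp only [if_true, sub_zero, pow_one] at h1
    have h2 := (hasValueAt_placeOf_algebraMap_zero_iff (k := k) (F := F) _ _).mpr h1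
    rwa [hw ⟨Q₀, hQ₀⟩] at h2
  · have h1 := hy ⟨Q, hQ⟩ (Finset.mem_univ _)
    have hne' : (⟨Q, hQ⟩ : T) ≠ ⟨Q₀, hQ₀⟩ := fun h => hne (congrArg Subtype.val h)
    simp only [if_neg hne', pow_one] at h1
    intro h2'
    have h2 : y ∈ (w ⟨Q, hQ⟩).asIdeal := by
      rw [← hasValueAt_placeOf_algebraMap_zero_iff (k := k) (F := F), hw ⟨Q, hQ⟩]
      exact h2'
    have h3 : (1 : R) ∈ (w ⟨Q, hQ⟩).asIdeal := by
      have := (w ⟨Q, hQ⟩).asIdeal.sub_mem h2 h1
      simpa using this
    exact (w ⟨Q, hQ⟩).isPrime.ne_top ((Ideal.eq_top_iff_one _).mpr h3)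

end Dedekind

end Fermat.Agent.JA
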