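/-
J-A — helper6 — package SEP (R2), part (c'): separation of places by elements integral over
`k[t]`, for a function field with a separating coordinate `t` (any characteristic).
-/
import Mathlib
import Fermat.Agent.JA.SEP_helper6_Place
import Fermat.Agent.JA.CONST_helper6

set_option autoImplicit false
set_option linter.unusedSectionVars false
set_option linter.style.haveILetI false

open Polynomial AlgebraicCurve IsDedekindDomain IntermediateField

namespace Fermat.Agent.JA

open Fermat.Agent.FF Fermat.Agent.FF.RR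

section TC

variable (K F : Type*) [Field K] [Field F] [Algebra K F] [Algebra K[X] F] [Algebra (RatFunc K) F]
  [IsScalarTower K[X] (RatFunc K) F] [IsScalarTower K K[X] F] [IsScalarTower K (RatFunc K) F]
  [FiniteDimensional (RatFunc K) F] [Algebra.IsSeparable (RatFunc K) F]

/-- integrality over `K[X]` (typeclass setting) is integrality over the subalgebra `K[x]` -/
theorem isIntegral_adjoin_xF_of_isIntegral_poly {a : F} (ha : IsIntegral K[X] a) :
    IsIntegral (Algebra.adjoin K {xF K F}) a := by
  let φ : K[X] →ₐ[K] Algebra.adjoin K {xF K F} :=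
    aeval (⟨xF K F, Algebra.subset_adjoin (Set.mem_singleton _)⟩ : Algebra.adjoin K {xF K F})
  letI : Algebra K[X] (Algebra.adjoin K {xF K F}) := φ.toRingHom.toAlgebra
  haveI : IsScalarTower K[X] (Algebra.adjoin K {xF K F}) F := by
    refine IsScalarTower.of_algebraMap_eq fun p => ?_
    rw [algebraMap_poly_eq_aeval_xF]
    show _ = ((φ p : Algebra.adjoin K {xF K F}) : F)
    have h : ∀ q : K[X], ((φ q : Algebra.adjoin K {xF K F}) : F) = aeval (xF K F) q := by
      intro q
      simp [φ]
    rw [h]
  exact ha.tower_top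

/-- **(SEP-k), typeclass setting.** -/
theorem exists_isIntegral_hasValueAt_zero_TC (T : Finset (Place K F))
    (hT : ∀ Q ∈ T, xF K F ∈ Q.toValuationSubring) (Q₀ : Place K F) (hQ₀ : Q₀ ∈ T) :
    ∃ a : F, IsIntegral (Algebra.adjoin K {xF K F}) a ∧ HasValueAt Q₀ a 0 ∧
      ∀ Q ∈ T, Q ≠ Q₀ → ¬ HasValueAt Q a 0 := by
  obtain ⟨a, h1, h2⟩ := exists_algebraMap_hasValueAt_zero
    (R := FunctionField.ringOfIntegers K F) T
    (fun Q hQ => ringOfIntegers_mem Q (by rw [← xF_eq_coord]; exact hT Q hQ)) Q₀ hQ₀
  exact ⟨_, isIntegral_adjoin_xF_of_isIntegral_poly K F a.2, h1, h2⟩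

end TC

section Coord

variable {k F : Type*} [Field k] [Field F] [Algebra k F]

/-- **(SEP-k), coordinate form.** `F / k` a function field with separating coordinate `t`,
`T` a finite set of places at which `t` is regular, `Q₀ ∈ T`: there is `a ∈ F` integral over
`k[t]` vanishing at `Q₀` and at no other place of `T`. -/
theorem exists_isIntegral_hasValueAt_zero (t : F) (ht : Transcendental k t)
    [hfin : FiniteDimensional k⟮t⟯ F] [hsep : Algebra.IsSeparable k⟮t⟯ F]
    (T : Finset (Place k F)) (hT : ∀ Q ∈ T, t ∈ Q.toValuationSubring)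
    (Q₀ : Place k F) (hQ₀ : Q₀ ∈ T) :
    ∃ a : F, IsIntegral (Algebra.adjoin k {t}) a ∧ HasValueAt Q₀ a 0 ∧
      ∀ Q ∈ T, Q ≠ Q₀ → ¬ HasValueAt Q a 0 := by
  obtain ⟨i1, i2, i3, i4, i5, i6, i7, hx⟩ :=
    exists_typeclass_setting_of_isSeparable (⟨t, ht, hfin⟩ : Coord k F) hsep
  have hx' : xF k F = t := hx
  have := exists_isIntegral_hasValueAt_zero_TC k F T (fun Q hQ => by rw [hx']; exact hT Q hQ)
    Q₀ hQ₀
  rwa [hx'] at this

end Coord

end Fermat.Agent.JA
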