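/-
J-A — helper6 — package SEP (R2), part (d): abstract **(POW)** and the abstract separation lemma
**(SEP-F)** in helper4's `hsep` shape.
-/
import Mathlib
import Fermat.Agent.JA.SEP_helper6_Norm
import Fermat.Agent.JA.SEP_helper6_Coord

set_option autoImplicit false
set_option linter.unusedSectionVars false
set_option linter.style.haveILetI false

open Module Polynomial AlgebraicCurve IntermediateField

namespace Fermat.Agent.JA

section POW

variable {F E : Type*} [Field F] [Field E] [Algebra F E]
  {V : ValuationSubring F} {W : ValuationSubring E}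
  {κV κW : Type*} [Field κV] [Field κW] [Algebra κV κW]
  (resV : V →+* κV) (resW : W →+* κW)
  (hVW : ∀ x : F, x ∈ V ↔ algebraMap F E x ∈ W)
  (hresV : Function.Surjective resV) (hresW : Function.Surjective resW)
  (hcomp : ∀ (v : V) (w : W), (w : E) = algebraMap F E (v : F) →
    resW w = algebraMap κV κW (resV v))
  {A₀ : Type*} [CommRing A₀] [Algebra A₀ F] [Algebra A₀ E] [IsScalarTower A₀ F E]

include hVW hcomp hresV hresW in
/-- **(POW)** If `a ∈ κV` is the reduction of an element `x ∈ W` integral over `A₀`, then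
`a ^ [E:F]` is the reduction of an element of `V` integral over `A₀` (namely `N_{E/F} x`). -/
theorem exists_isIntegral_res_eq_pow [FiniteDimensional F E]
    (hdeg : finrank F E ≤ finrank κV κW) (a : κV) (x : W) (hx : IsIntegral A₀ (x : E))
    (hxa : resW x = algebraMap κV κW a) :
    ∃ v : V, IsIntegral A₀ (v : F) ∧ resV v = a ^ finrank F E := by
  obtain ⟨v, hv1, hv2⟩ :=
    norm_commutes_with_reduction resV resW hVW hresV hresW hcomp hdeg x
  refine ⟨v, ?_, ?_⟩
  · rw [hv1]; exact Algebra.isIntegral_norm F hx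
  · rw [hv2, hxa, Algebra.norm_algebraMap,
      finrank_res_eq_finrank resV resW hVW hresV hresW hcomp hdeg]

variable {k : Type*} [Field k] [Algebra k κV]

include hVW hcomp hresV hresW in
/-- **(SEP-F), abstract form.** `F ⊂ E` finite, `V = W ∩ F ⊂ W` valuation rings with residue
fields `κV ⊂ κW` of full degree; `κV / k` a function field with separating coordinate `t`;
every element of `κV` integral over `k[t]` is the reduction of an element of `W` integral over
`A₀`. Then finitely many places of `κV` at which `t` is regular are separated by reductions of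
elements of `V` integral over `A₀`. -/
theorem exists_isIntegral_hasValueAt_res_zero [FiniteDimensional F E]
    (hdeg : finrank F E ≤ finrank κV κW) (t : κV) (ht : Transcendental k t)
    [FiniteDimensional k⟮t⟯ κV] [Algebra.IsSeparable k⟮t⟯ κV]
    (hlift : ∀ a : κV, IsIntegral (Algebra.adjoin k {t}) a →
      ∃ x : W, IsIntegral A₀ (x : E) ∧ resW x = algebraMap κV κW a)
    (T : Finset (Place k κV)) (hT : ∀ Q ∈ T, t ∈ Q.toValuationSubring)
    (Q₀ : Place k κV) (hQ₀ : Q₀ ∈ T) :
    ∃ v : V, IsIntegral A₀ (v : F) ∧ HasValueAt Q₀ (resV v) 0 ∧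
      ∀ Q ∈ T, Q ≠ Q₀ → ¬ HasValueAt Q (resV v) 0 := by
  obtain ⟨a, ha, h0, hne⟩ := exists_isIntegral_hasValueAt_zero t ht T hT Q₀ hQ₀
  obtain ⟨x, hx, hxa⟩ := hlift a ha
  obtain ⟨v, hv, hva⟩ :=
    exists_isIntegral_res_eq_pow resV resW hVW hresV hresW hcomp hdeg a x hx hxa
  have hpos : finrank F E ≠ 0 := Module.finrank_pos.ne'
  refine ⟨v, hv, ?_, fun Q hQ hQne => ?_⟩
  · rw [hva, hasValueAt_pow_zero_iff _ _ hpos]; exact h0
  · rw [hva, hasValueAt_pow_zero_iff _ _ hpos]; exact hne Q hQ hQne

end POW

end Fermat.Agent.JA
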