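/-
J-A — helper6 — package SEP (R2), layer B: the separation lemma for a subfield `F ⊂ E` in the
abstract chart setting of GEO-DED (`A` a UFD chart ring with prime `p`, `K = Frac A`, `E / K`
finite, `W = integralClosure 𝒱_p E` local, `E / K` unramified over `𝒱_p`, `B / p B` integrally
closed).
-/
import Mathlib
import Fermat.Agent.JA.GEO_lead_Ded
import Fermat.Agent.JA.SEP_helper6_Main
import Fermat.Agent.JA.SEP_helper6_Lift
import Fermat.Agent.JA.SEP_helper6_Deg
import Fermat.Agent.JA.SEP_helper6_Alg

set_option autoImplicit false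
set_option linter.unusedSectionVars false
set_option linter.style.haveILetI false

open Module Polynomial AlgebraicCurve IntermediateField

namespace Fermat.Agent.JA

section Helpers

/-- integrality is transitive along "every element of `S₁` is integral over `S₂`" (no tower
needed). -/
theorem isIntegral_of_isIntegral_of_forall_isIntegral {S₁ S₂ E : Type*} [CommRing S₁]
    [CommRing S₂] [CommRing E] [Algebra S₁ E] [Algebra S₂ E]
    (h : ∀ s : S₁, IsIntegral S₂ (algebraMap S₁ E s)) {x : E} (hx : IsIntegral S₁ x) :
    IsIntegral S₂ x := by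
  let φ : S₁ →+* ↥(integralClosure S₂ E) :=
    { toFun := fun s => ⟨algebraMap S₁ E s, h s⟩
      map_one' := Subtype.ext (map_one _)
      map_mul' := fun a b => Subtype.ext (map_mul _ a b)
      map_zero' := Subtype.ext (map_zero _)
      map_add' := fun a b => Subtype.ext (map_add _ a b) }
  obtain ⟨p, hpm, hpx⟩ := hx
  have h1 : IsIntegral ↥(integralClosure S₂ E) x := by
    refine ⟨p.map φ, hpm.map φ, ?_⟩
    rw [eval₂_map]
    have : (algebraMap ↥(integralClosure S₂ E) E).comp φ = algebraMap S₁ E := by
      ext s; rfl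
    rw [this]; exact hpx
  exact isIntegral_trans (R := S₂) (A := ↥(integralClosure S₂ E)) x h1

/-- integrality over a ring whose image is contained in the image of another ring -/
theorem isIntegral_of_isIntegral_of_forall_exists {S₁ S₂ E : Type*} [CommRing S₁]
    [CommRing S₂] [CommRing E] [Algebra S₁ E] [Algebra S₂ E]
    (h : ∀ s : S₁, ∃ s' : S₂, algebraMap S₂ E s' = algebraMap S₁ E s) {x : E}
    (hx : IsIntegral S₁ x) : IsIntegral S₂ x :=
  isIntegral_of_isIntegral_of_forall_isIntegral (fun s => by
    obtain ⟨s', hs'⟩ := h s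
    rw [← hs']; exact isIntegral_algebraMap) hx

end Helpers

section ValSub

variable {K : Type*} [Field K] {E : Type*} [Field E] [Algebra K E] [FiniteDimensional K E]
  [CharZero K] (𝒱 : ValuationSubring K) [IsDiscreteValuationRing 𝒱]
  [IsLocalRing ↥(integralClosure ↥𝒱 E)]

/-- **(B1)** a local integral closure of a discrete valuation ring in a finite extension (of
characteristic zero) is a valuation ring. -/
theorem isIntegral_or_isIntegral_inv (x : E) : IsIntegral ↥𝒱 x ∨ IsIntegral ↥𝒱 x⁻¹ := by
  haveI : IsFractionRing ↥(integralClosure ↥𝒱 E) E :=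
    integralClosure.isFractionRing_of_finite_extension K E
  have hDed : IsDedekindDomain ↥(integralClosure ↥𝒱 E) :=
    IsIntegralClosure.isDedekindDomain ↥𝒱 K E ↥(integralClosure ↥𝒱 E)
  have hf : ¬ IsField ↥(integralClosure ↥𝒱 E) := by
    intro hf
    have hinj : Function.Injective (algebraMap ↥𝒱 ↥(integralClosure ↥𝒱 E)) := by
      intro a b hab
      have h1 : algebraMap ↥𝒱 E a = algebraMap ↥𝒱 E b := congrArg Subtype.val hab
      exact (FaithfulSMul.algebraMap_injective ↥𝒱 E) h1
    exact IsDiscreteValuationRing.not_isField ↥𝒱 (isField_of_isIntegral_of_isField hinj hf)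
  haveI : ValuationRing ↥(integralClosure ↥𝒱 E) :=
    ((IsDiscreteValuationRing.TFAE ↥(integralClosure ↥𝒱 E) hf).out 2 1).mp hDed
  rcases ValuationRing.isInteger_or_isInteger ↥(integralClosure ↥𝒱 E) x with ⟨y, hy⟩ | ⟨y, hy⟩
  · left; rw [← hy]; exact y.2
  · right; rw [← hy]; exact y.2

/-- the local integral closure of `𝒱` in `E` as a valuation subring of `E`. -/
def closureValSub : ValuationSubring E where
  carrier := {x | IsIntegral ↥𝒱 x}
  mul_mem' := fun ha hb => ha.mul hb
  one_mem' := isIntegral_one
  add_mem' := fun ha hb => ha.add hb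
  zero_mem' := isIntegral_zero
  neg_mem' := fun ha => ha.neg
  mem_or_inv_mem' := fun x => isIntegral_or_isIntegral_inv 𝒱 x

theorem mem_closureValSub_iff (x : E) : x ∈ closureValSub (E := E) 𝒱 ↔ IsIntegral ↥𝒱 x :=
  Iff.rfl

/-- the identification `↥(closureValSub 𝒱) ≃+* ↥(integralClosure 𝒱 E)` -/
def closureValSubEquiv : ↥(closureValSub (E := E) 𝒱) ≃+* ↥(integralClosure ↥𝒱 E) where
  toFun x := ⟨(x : E), x.2⟩
  invFun x := ⟨(x : E), x.2⟩
  left_inv _ := rfl
  right_inv _ := rfl
  map_mul' _ _ := rfl
  map_add' _ _ := rfl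

@[simp] theorem coe_closureValSubEquiv (x : ↥(closureValSub (E := E) 𝒱)) :
    ((closureValSubEquiv 𝒱 x : ↥(integralClosure ↥𝒱 E)) : E) = (x : E) := rfl

/-- the residue map of `closureValSub 𝒱` into the residue field of `integralClosure 𝒱 E` -/
noncomputable def closureValSubRes :
    ↥(closureValSub (E := E) 𝒱) →+* IsLocalRing.ResidueField ↥(integralClosure ↥𝒱 E) :=
  (IsLocalRing.residue _).comp (closureValSubEquiv 𝒱).toRingHom

theorem closureValSubRes_surjective : Function.Surjective (closureValSubRes (E := E) 𝒱) := by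
  intro z
  obtain ⟨w, rfl⟩ := IsLocalRing.residue_surjective z
  exact ⟨(closureValSubEquiv 𝒱).symm w, by simp [closureValSubRes]⟩

end ValSub

section ChartSep

variable {A : Type*} [CommRing A] [IsDomain A] [UniqueFactorizationMonoid A]
  {K : Type*} [Field K] [Algebra A K] [IsFractionRing A K]
  {E : Type*} [Field E] [Algebra K E] [Algebra A E] [IsScalarTower A K E]
  {p : A} (hp : Prime p)
  [FiniteDimensional K E] [CharZero K]
  [IsLocalRing ↥(integralClosure ↥(primeValSubring K hp) E)]
  [IsIntegrallyClosed ↥(integralClosure A E)] [FaithfulSMul A E]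
  (hU : Unr (primeValSubring K hp) E)
  (hic : IsIntegrallyClosed (Bbar A ↥(integralClosure A E) p))
  {F : Type*} [Field F] [Algebra F E] [FiniteDimensional F E]
  (V : ValuationSubring F) [IsDiscreteValuationRing V]
  (hV : ∀ x : F, x ∈ V ↔ IsIntegral ↥(primeValSubring K hp) (algebraMap F E x))
  (hint : ∀ x : E, IsIntegral ↥(primeValSubring K hp) x → IsIntegral ↥V x)
  (pF : F) (hpF : algebraMap F E pF = algebraMap A E p)
  (A₀ : Subring F) (hA : ∀ a : A, IsIntegral ↥A₀ (algebraMap A E a))
  (c₀ : A) (hc₀ : ¬ p ∣ c₀) (hcint : IsIntegral ↥A₀ (algebraMap A E c₀)⁻¹)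
  {k κV : Type*} [Field k] [Field κV] [Algebra k κV]
  (resV : V →+* κV) (hresV : Function.Surjective resV)
  (hk : ∀ a : k, ∃ (r : A) (v : V),
    algebraMap F E (v : F) = algebraMap A E r ∧ resV v = algebraMap k κV a)
  (jV : V) (hj : ∃ num : A, algebraMap A E num = algebraMap A E c₀ * algebraMap F E (jV : F))

include hU hic hV hint hpF hA hc₀ hcint hresV hk hj in
/-- **(SEP-F) in the chart setting of GEO-DED.** `F ⊂ E` a subfield, `V = W ∩ F` its (discrete)
valuation ring with residue map `resV : V → κV` onto a function field `κV / k` with separating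
coordinate `j̃ = resV j`; `A₀ ⊂ F` a subring over which the chart `A` and `c₀⁻¹` are integral,
`c₀ · j ∈ A`. Then finitely many places of `κV` at which `j̃` is regular are separated by
reductions of elements of `V` integral over `A₀`. -/
theorem chart_exists_isIntegral_hasValueAt_zero
    (ht : Transcendental k (resV jV)) [FiniteDimensional k⟮resV jV⟯ κV]
    [Algebra.IsSeparable k⟮resV jV⟯ κV]
    (T : Finset (Place k κV)) (hT : ∀ Q ∈ T, resV jV ∈ Q.toValuationSubring)
    (Q₀ : Place k κV) (hQ₀ : Q₀ ∈ T) :
    ∃ v : V, IsIntegral ↥A₀ ((v : V) : F) ∧ HasValueAt Q₀ (resV v) 0 ∧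
      ∀ Q ∈ T, Q ≠ Q₀ → ¬ HasValueAt Q (resV v) 0 := by
  classical
  haveI dvr : IsDiscreteValuationRing ↥(primeValSubring K hp) :=
    isDiscreteValuationRing_primeValSubring hp
  have hresW := closureValSubRes_surjective (E := E) (primeValSubring K hp)
  have hVW : ∀ x : F, x ∈ V ↔ algebraMap F E x ∈ closureValSub (E := E) (primeValSubring K hp) :=
    hV
  letI algκ : Algebra κV (IsLocalRing.ResidueField ↥(integralClosure ↥(primeValSubring K hp) E)) :=
    (resFieldMap resV (closureValSubRes (E := E) (primeValSubring K hp)) hVW hresV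
      hresW).toAlgebra
  have hcomp : ∀ (v : V) (w : closureValSub (E := E) (primeValSubring K hp)),
      (w : E) = algebraMap F E (v : F) →
      closureValSubRes (E := E) (primeValSubring K hp) w =
        algebraMap κV (IsLocalRing.ResidueField ↥(integralClosure ↥(primeValSubring K hp) E))
          (resV v) :=
    fun v w h => resFieldMap_comp resV _ hVW hresV hresW v w h
  haveI : CharZero E := charZero_of_injective_algebraMap (algebraMap K E).injective
  haveI : CharZero F := (algebraMap F E).charZero
  -- the prime `p` is in the maximal ideal of `W`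
  have hpint : IsIntegral ↥(primeValSubring K hp) (algebraMap A E p) :=
    isIntegral_primeValSubring_of_isIntegral hp isIntegral_algebraMap
  have hpFV : pF ∈ V := by rw [hV, hpF]; exact hpint
  have hpmem : (⟨algebraMap A E p, hpint⟩ : ↥(integralClosure ↥(primeValSubring K hp) E)) ∈
      IsLocalRing.maximalIdeal ↥(integralClosure ↥(primeValSubring K hp) E) := by
    rw [mem_maximalIdeal_gaussClosure_iff hp hU]
    exact ⟨1, isIntegral_one, by simp⟩
  have hrespF : resV ⟨pF, hpFV⟩ = 0 := by
    rw [resVal_eq_zero_iff resV hresV]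
    intro hu
    obtain ⟨u, hu⟩ := hu.exists_right_inv
    have h1 : pF * (u : F) = 1 := congrArg Subtype.val hu
    have huint : IsIntegral ↥(primeValSubring K hp) (algebraMap F E (u : F)) := (hV _).mp u.2
    have hunit : IsUnit (⟨algebraMap A E p, hpint⟩ :
        ↥(integralClosure ↥(primeValSubring K hp) E)) := by
      refine IsUnit.of_mul_eq_one ⟨algebraMap F E (u : F), huint⟩ (Subtype.ext ?_)
      change algebraMap A E p * algebraMap F E (u : F) = 1
      rw [← hpF, ← map_mul, h1, map_one]
    exact (IsLocalRing.mem_maximalIdeal _).mp hpmem hunit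
  -- `e = 1`
  have he : ∀ w : closureValSub (E := E) (primeValSubring K hp),
      closureValSubRes (E := E) (primeValSubring K hp) w = 0 →
      ∃ (v : V) (w' : closureValSub (E := E) (primeValSubring K hp)), resV v = 0 ∧
        (w : E) = algebraMap F E (v : F) * (w' : E) := by
    intro w hw
    have h1 : closureValSubEquiv (primeValSubring K hp) w ∈
        IsLocalRing.maximalIdeal ↥(integralClosure ↥(primeValSubring K hp) E) :=
      (IsLocalRing.residue_eq_zero_iff _).mp hw
    rw [mem_maximalIdeal_gaussClosure_iff hp hU] at h1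
    obtain ⟨v', hv', hwv'⟩ := h1
    refine ⟨⟨pF, hpFV⟩, ⟨v', hv'⟩, hrespF, ?_⟩
    rw [hpF]; exact hwv'
  have hdeg : finrank F E ≤
      finrank κV (IsLocalRing.ResidueField ↥(integralClosure ↥(primeValSubring K hp) E)) :=
    finrank_le_finrank_res_of_isIntegral resV _ hVW hresV hresW hcomp
      (fun w => hint _ w.2) he
  -- the chart inside `W`
  let ψ : ↥(integralClosure A E) →+* closureValSub (E := E) (primeValSubring K hp) :=
    { toFun := fun x => ⟨(x : E), isIntegral_primeValSubring_of_isIntegral hp x.2⟩
      map_one' := rfl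
      map_mul' := fun _ _ => rfl
      map_zero' := rfl
      map_add' := fun _ _ => rfl }
  have hψres : ∀ x : ↥(integralClosure A E),
      closureValSubRes (E := E) (primeValSubring K hp) (ψ x) =
        chartResidueBar hp hU (mkB (A := A) p x) := fun x => rfl
  have hc₀0 : algebraMap A E c₀ ≠ 0 := by
    rw [Ne, map_eq_zero_iff _ (FaithfulSMul.algebraMap_injective A E)]
    rintro rfl
    exact hc₀ (dvd_zero p)
  letI algk : Algebra k (IsLocalRing.ResidueField ↥(integralClosure ↥(primeValSubring K hp) E)) :=
    ((algebraMap κV _).comp (algebraMap k κV)).toAlgebra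
  haveI : IsScalarTower k κV
      (IsLocalRing.ResidueField ↥(integralClosure ↥(primeValSubring K hp) E)) :=
    IsScalarTower.of_algebraMap_eq (fun _ => rfl)
  have hκres : ∀ v : V, algebraMap κV
      (IsLocalRing.ResidueField ↥(integralClosure ↥(primeValSubring K hp) E)) (resV v) =
      closureValSubRes (E := E) (primeValSubring K hp) (valInclusion hVW v) :=
    fun v => resFieldMap_resV resV _ hVW hresV hresW v
  have hlift : ∀ a : κV, IsIntegral (Algebra.adjoin k {resV jV}) a →
      ∃ x : closureValSub (E := E) (primeValSubring K hp), IsIntegral ↥A₀ (x : E) ∧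
        closureValSubRes (E := E) (primeValSubring K hp) x = algebraMap κV _ a := by
    intro a ha
    refine exists_isIntegral_res_eq_of_isIntegral_adjoin
      (closureValSubRes (E := E) (primeValSubring K hp)) ψ.range ?_
      (ψ (algebraMap A ↥(integralClosure A E) c₀)) ⟨_, rfl⟩ hc₀0
      (isIntegral_inv_algebraMap hp hc₀) hcint ?_ ?_ (resV jV) ?_ a ha
    · -- elements of the chart are integral over `A₀`
      rintro _ ⟨x, rfl⟩
      exact isIntegral_of_isIntegral_of_forall_isIntegral hA x.2
    · -- the reduction of the chart is integrally closed in `κW`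
      intro z hz
      letI := (chartResidueBar (K := K) (E := E) hp hU).toAlgebra
      haveI := isFractionRing_Bbar (K := K) (E := E) hp hU
      haveI := isDomain_Bbar (K := K) (E := E) hp hU
      haveI := hic
      have hz' : IsIntegral (Bbar A ↥(integralClosure A E) p) z := by
        refine isIntegral_of_isIntegral_of_forall_exists ?_ hz
        rintro ⟨_, b, ⟨x, rfl⟩, rfl⟩
        exact ⟨mkB (A := A) p x, rfl⟩
      obtain ⟨y, hy⟩ := IsIntegrallyClosed.algebraMap_eq_of_integral hz'
      obtain ⟨x, rfl⟩ := Ideal.Quotient.mk_surjective y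
      exact ⟨ψ x, ⟨x, rfl⟩, hy⟩
    · -- constants
      intro a
      obtain ⟨r, v, hv1, hv2⟩ := hk a
      refine ⟨ψ (algebraMap A ↥(integralClosure A E) r), ⟨_, rfl⟩, ?_⟩
      have h1 : algebraMap k
          (IsLocalRing.ResidueField ↥(integralClosure ↥(primeValSubring K hp) E)) a =
          algebraMap κV _ (resV v) := by rw [hv2]; rfl
      rw [h1, hκres]
      congr 1
      exact Subtype.ext hv1.symm
    · -- the coordinate
      obtain ⟨num, hnum⟩ := hj
      refine ⟨1, ψ (algebraMap A ↥(integralClosure A E) num), ⟨_, rfl⟩, ?_⟩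
      rw [pow_one, hκres, ← map_mul]
      congr 1
      exact Subtype.ext hnum
  exact exists_isIntegral_hasValueAt_res_zero resV _ hVW hresV hresW hcomp hdeg (resV jV) ht
    hlift T hT Q₀ hQ₀

end ChartSep

end Fermat.Agent.JA
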