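/-
J-A — helper6 — package SEP (R2), layer B (concrete): the separation lemma in the binder setting
of `geo_isLocalRing` / `geo_chart_isDedekindDomain` (coordinate `t`, `K = K₁(t)`, `E / K` a good
cover), for a subfield `F ⊂ E` containing `j = P(t)/Q(t)`.
-/
import Mathlib
import Fermat.Agent.JA.GEO_lead_DedMain
import Fermat.Agent.JA.SEP_helper6_Chart

set_option autoImplicit false
set_option linter.unusedSectionVars false
set_option linter.style.haveILetI false

open Module Polynomial AlgebraicCurve IntermediateField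

namespace Fermat.Agent.JA

section Line

variable {R : Type*} [CommRing R] {K : Type*} [Field K] [Algebra R K]
  {E : Type*} [Field E] [Algebra K E] {F : Type*} [Field F] [Algebra F E]
  (φ : R →+* F) (hφ : ∀ r, algebraMap F E (φ r) = algebraMap K E (algebraMap R K r))
  (t : K) (P Q : R[X]) (jF : F)

include hφ in
/-- a polynomial in `t` with coefficients in `R` is integral over `A₀ ⊇ φ(R)` if `t` is. -/
theorem isIntegral_algebraMap_aeval_of_isIntegral (A₀ : Subring F) (hA₀ : ∀ r, φ r ∈ A₀)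
    (htE : IsIntegral ↥A₀ (algebraMap K E t)) (f : R[X]) :
    IsIntegral ↥A₀ (algebraMap K E (aeval t f)) := by
  rw [aeval_eq_sum_range, map_sum]
  refine IsIntegral.sum _ fun i _ => ?_
  rw [Algebra.smul_def, map_mul, map_pow, ← hφ]
  refine IsIntegral.mul ?_ (htE.pow i)
  exact (isIntegral_algebraMap (R := ↥A₀) (x := (⟨φ (f.coeff i), hA₀ _⟩ : ↥A₀)))

include hφ in
/-- **`t` is integral over `R[j]`** for `j = P(t)/Q(t)` with `deg Q < deg P` and unit leading
coefficient of `P`. -/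
theorem isIntegral_coordinate_of_line (A₀ : Subring F) (hA₀ : ∀ r, φ r ∈ A₀) (hjA₀ : jF ∈ A₀)
    (hlc : IsUnit P.leadingCoeff) (hdeg : Q.natDegree < P.natDegree)
    (hj : algebraMap F E jF * algebraMap K E (aeval t Q) = algebraMap K E (aeval t P)) :
    IsIntegral ↥A₀ (algebraMap K E t) := by
  let φ' : R →+* ↥A₀ := φ.codRestrict A₀ hA₀
  let j₀ : ↥A₀ := ⟨jF, hjA₀⟩
  set g : (↥A₀)[X] := P.map φ' - C j₀ * Q.map φ' with hg
  have hlc' : IsUnit (φ' P.leadingCoeff) := hlc.map φ'
  have hφ'0 : φ' P.leadingCoeff ≠ 0 := by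
    haveI : Nontrivial ↥A₀ := inferInstance
    exact hlc'.ne_zero
  have hdP : (P.map φ').natDegree = P.natDegree := natDegree_map_of_leadingCoeff_ne_zero φ' hφ'0
  have hdQ : (C j₀ * Q.map φ').natDegree < (P.map φ').natDegree := by
    rw [hdP]
    exact lt_of_le_of_lt ((natDegree_C_mul_le _ _).trans natDegree_map_le) hdeg
  have hdg : g.natDegree = P.natDegree := by
    rw [hg, natDegree_sub_eq_left_of_natDegree_lt hdQ, hdP]
  have hlg : g.leadingCoeff = φ' P.leadingCoeff := by
    rw [hg, leadingCoeff_sub_of_degree_lt (degree_lt_degree hdQ),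
      leadingCoeff_map_of_leadingCoeff_ne_zero φ' hφ'0]
  -- evaluation of polynomials of `R[X]` mapped to `A₀[X]` at `t` in `E`
  have hev : ∀ f : R[X], aeval (algebraMap K E t) (f.map φ') = algebraMap K E (aeval t f) := by
    intro f
    rw [aeval_def, eval₂_map, aeval_def, hom_eval₂]
    congr 1
    ext r
    exact hφ r
  have hroot : aeval (algebraMap K E t) g = 0 := by
    rw [hg, map_sub, map_mul, aeval_C, hev, hev, ← hj]
    show algebraMap F E jF * _ - algebraMap F E jF * _ = 0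
    rw [sub_self]
  have h1 := isIntegral_leadingCoeff_smul g (algebraMap K E t) hroot
  rw [hlg] at h1
  obtain ⟨u, hu⟩ := hlc'
  have h2 : algebraMap K E t = (↑u⁻¹ : ↥A₀) • ((φ' P.leadingCoeff) • algebraMap K E t) := by
    rw [← hu, smul_smul, Units.inv_mul, one_smul]
  rw [h2]
  exact h1.smul _

end Line

section Final

variable {R : Type*} [CommRing R] [IsDomain R] [IsDiscreteValuationRing R] [CharZero R]
  {K₁ : Type*} [Field K₁] [Algebra R K₁] [IsFractionRing R K₁]
  {K : Type*} [Field K] [Algebra K₁ K] [Algebra R K] [IsScalarTower R K₁ K]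
  {E : Type*} [Field E] [Algebra K E] [FiniteDimensional K E]
  [Algebra K₁ E] [IsScalarTower K₁ K E]

/-- **(SEP-F) in the binder setting of `geo_isLocalRing`.** `E / K₁(t)` a good cover (hypotheses
of GEO), `j = P(t)/Q(t)` with `U P + V' Q = 1` in `R[X]`, unit leading coefficient of `P`,
`deg Q < deg P`, `π ∤ Q`; `F ⊂ E` a subfield containing (the images of) `R` and `j`, with Gauss
valuation ring `V = W ∩ F` (a DVR over which `W` is integral) and residue map
`resV : V → κV` onto a function field `κV / k` with separating coordinate `j̃ = resV j`.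
Then finitely many places of `κV` at which `j̃` is regular are separated by reductions of
elements of `V` integral over `R[j] ⊂ F`. -/
theorem geo_exists_isIntegral_hasValueAt_zero (π : R) (hπ : Irreducible π)
    (t : K) (ht : Transcendental K₁ t) (hK : IntermediateField.adjoin K₁ {t} = ⊤)
    (n : ℕ) (hn : IsUnit (n : R)) (hζ : ∃ ζ : R, IsPrimitiveRoot ζ n)
    (S : Finset R) (hS : ∀ a ∈ S, ∀ b ∈ S, a ≠ b → IsUnit (a - b))
    (hS0 : ∀ a ∈ S, a = 0 ∨ IsUnit a)
    (hM1 : ∀ 𝒱 : ValuationSubring K, 𝒱 ≠ ⊤ → (∀ a : K₁, algebraMap K₁ K a ∈ 𝒱) → t ∈ 𝒱 →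
      (∀ a ∈ S, (t - algebraMap R K a)⁻¹ ∈ 𝒱) → Unr 𝒱 E)
    (hM2 : ∀ 𝒱 : ValuationSubring K, 𝒱 ≠ ⊤ → (∀ a : K₁, algebraMap K₁ K a ∈ 𝒱) → TameAt 𝒱 E n)
    (hM3 : ∀ 𝒱 : ValuationSubring K, IsGaussAt R π t 𝒱 → Unr 𝒱 E)
    (hM4 : ∀ x : E, IsAlgebraic K₁ x → x ∈ Set.range (algebraMap K₁ E))
    (𝒱 : ValuationSubring K) (h𝒱 : IsGaussAt R π t 𝒱)
    -- the line `j = P(t)/Q(t)`
    (P Q U V' : R[X]) (hbez : U * P + V' * Q = 1) (hlc : IsUnit P.leadingCoeff)
    (hdegPQ : Q.natDegree < P.natDegree) (hQπ : ¬ C π ∣ Q)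
    -- the subfield `F`
    {F : Type*} [Field F] [Algebra F E] [FiniteDimensional F E]
    (φ : R →+* F) (hφ : ∀ r, algebraMap F E (φ r) = algebraMap K E (algebraMap R K r))
    (V : ValuationSubring F) [IsDiscreteValuationRing V]
    (hV : ∀ x : F, x ∈ V ↔ IsIntegral ↥𝒱 (algebraMap F E x))
    (hint : ∀ x : E, IsIntegral ↥𝒱 x → IsIntegral ↥V x)
    (jV : V) (hjV : algebraMap F E (jV : F) = algebraMap K E (aeval t P / aeval t Q))
    -- residue data
    {k κV : Type*} [Field k] [Field κV] [Algebra k κV]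
    (resR : R →+* k) (hresR : Function.Surjective resR)
    (resV : V →+* κV) (hresV : Function.Surjective resV)
    (hresRV : ∀ (r : R) (v : V), (v : F) = φ r → resV v = algebraMap k κV (resR r))
    (htr : Transcendental k (resV jV)) [FiniteDimensional k⟮resV jV⟯ κV]
    [Algebra.IsSeparable k⟮resV jV⟯ κV]
    (T : Finset (Place k κV)) (hT : ∀ Q ∈ T, resV jV ∈ Q.toValuationSubring)
    (Q₀ : Place k κV) (hQ₀ : Q₀ ∈ T) :
    ∃ v : V, IsIntegral ↥(Subring.closure (Set.range φ ∪ {(jV : F)})) ((v : V) : F) ∧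
      HasValueAt Q₀ (resV v) 0 ∧ ∀ Q ∈ T, Q ≠ Q₀ → ¬ HasValueAt Q (resV v) 0 := by
  classical
  have hT' := aeval_adjoin_bijective (R := R) (K₁ := K₁) t ht
  obtain ⟨-, ufd, noeth, cz, hπA, pir⟩ := poly_instances _ hT' π hπ
  have frac : IsFractionRing ↥(Algebra.adjoin R {t}) K :=
    isFractionRing_adjoin (R := R) (K₁ := K₁) t hK
  have hinjRK : Function.Injective (algebraMap R K) := by
    rw [IsScalarTower.algebraMap_eq R K₁ K]
    exact (algebraMap K₁ K).injective.comp (IsFractionRing.injective R K₁)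
  have hK0 : CharZero K := charZero_of_injective_algebraMap hinjRK
  obtain ⟨ic, fin, -⟩ := integralClosure_instances ↥(Algebra.adjoin R {t}) K E
  have hfaith : FaithfulSMul ↥(Algebra.adjoin R {t}) E := by
    rw [faithfulSMul_iff_algebraMap_injective]
    rw [IsScalarTower.algebraMap_eq ↥(Algebra.adjoin R {t}) K E]
    exact (algebraMap K E).injective.comp (IsFractionRing.injective _ K)
  have h𝒱eq : 𝒱 = primeValSubring K hπA :=
    eq_primeValSubring_of_isGaussAt (K₁ := K₁) π t ht hπA 𝒱 h𝒱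
  subst h𝒱eq
  have hloc : IsLocalRing ↥(integralClosure ↥(primeValSubring K hπA) E) :=
    geo_isLocalRing (K₁ := K₁) π hπ t ht hK n hn hζ S hS hS0 hM1 hM2 hM3 hM4 _ h𝒱
  have hU : Unr (primeValSubring K hπA) E := hM3 _ h𝒱
  have N := geo_normalOver (K₁ := K₁) (E := E) π hπ t ht hK n hn hζ S hS hM1 hM2 hM3
  have hic := isIntegrallyClosed_Bbar hπA hU N
  -- coordinates
  set A₀ : Subring F := Subring.closure (Set.range φ ∪ {(jV : F)}) with hA₀def
  have hφA₀ : ∀ r, φ r ∈ A₀ := fun r => Subring.subset_closure (Or.inl ⟨r, rfl⟩)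
  have hjA₀ : (jV : F) ∈ A₀ := Subring.subset_closure (Or.inr rfl)
  have hcoe : ∀ f : R[X], algebraMap ↥(Algebra.adjoin R {t}) E
      (aeval (⟨t, Algebra.self_mem_adjoin_singleton R t⟩ : ↥(Algebra.adjoin R {t})) f) =
      algebraMap K E (aeval t f) := by
    intro f
    exact congrArg (algebraMap K E) (coe_aeval_adjoin_gen (R := R) t f)
  have hQ0 : Q ≠ 0 := by
    rintro rfl
    exact hQπ (dvd_zero _)
  have htR : Transcendental R t := ht.restrictScalars (IsFractionRing.injective R K₁)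
  have hQt : aeval t Q ≠ 0 := fun h0 => hQ0 ((transcendental_iff.mp htR) Q h0)
  have hjE : algebraMap F E (jV : F) * algebraMap K E (aeval t Q) = algebraMap K E (aeval t P) := by
    rw [hjV, ← map_mul, div_mul_cancel₀ _ hQt]
  have htE : IsIntegral ↥A₀ (algebraMap K E t) :=
    isIntegral_coordinate_of_line φ hφ t P Q (jV : F) A₀ hφA₀ hjA₀ hlc hdegPQ hjE
  have hpoly : ∀ f : R[X], IsIntegral ↥A₀ (algebraMap K E (aeval t f)) :=
    isIntegral_algebraMap_aeval_of_isIntegral φ hφ t A₀ hφA₀ htE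
  have hjint : IsIntegral ↥A₀ (algebraMap F E (jV : F)) :=
    isIntegral_algebraMap (R := ↥A₀) (x := (⟨(jV : F), hjA₀⟩ : ↥A₀))
  refine chart_exists_isIntegral_hasValueAt_zero hπA hU hic V hV hint (φ π) ?_ A₀ ?_
    (aeval (⟨t, Algebra.self_mem_adjoin_singleton R t⟩ : ↥(Algebra.adjoin R {t})) Q) ?_ ?_
    resV hresV ?_ jV ?_ htr T hT Q₀ hQ₀
  · -- the uniformizer
    rw [hφ]; rfl
  · -- the chart `R[t]` is integral over `A₀`
    intro a
    obtain ⟨f, rfl⟩ := hT'.2 a
    rw [hcoe]; exact hpoly f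
  · -- `π ∤ Q(t)`
    rwa [← C_dvd_iff_algebraMap_dvd_aeval _ hT']
  · -- `Q(t)⁻¹ = U(t) j + V'(t)`
    rw [hcoe]
    have h1 : aeval t U * aeval t P + aeval t V' * aeval t Q = 1 := by
      rw [← map_mul, ← map_mul, ← map_add, hbez, map_one]
    have h2 : (algebraMap K E (aeval t Q))⁻¹ =
        algebraMap K E (aeval t U) * algebraMap F E (jV : F) + algebraMap K E (aeval t V') := by
      rw [hjV, ← map_mul, ← map_add, ← map_inv₀]
      congr 1
      field_simp
      linear_combination -h1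
    rw [h2]
    exact ((hpoly U).mul hjint).add (hpoly V')
  · -- constants
    intro a
    obtain ⟨r, rfl⟩ := hresR a
    have hmem : φ r ∈ V := by
      rw [hV, hφ]
      have : algebraMap K E (algebraMap R K r) =
          algebraMap ↥(Algebra.adjoin R {t}) E (algebraMap R ↥(Algebra.adjoin R {t}) r) := rfl
      rw [this]
      exact isIntegral_primeValSubring_of_isIntegral hπA isIntegral_algebraMap
    exact ⟨algebraMap R ↥(Algebra.adjoin R {t}) r, ⟨φ r, hmem⟩, hφ r, hresRV r _ rfl⟩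
  · -- the coordinate
    refine ⟨aeval (⟨t, Algebra.self_mem_adjoin_singleton R t⟩ : ↥(Algebra.adjoin R {t})) P, ?_⟩
    rw [hcoe, hcoe, mul_comm]
    exact hjE.symm

end Final

end Fermat.Agent.JA
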