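/-
J-A third wave, (O1)-(P6) (helper2): compatibility of the embeddings `F_K → E_K` (`legE`, `hesE`)
with the coefficientwise base change `K₁ → Ω`, and the degree clause of `IsPlaceReductionAlong`
(all places on both sides have degree one).
-/
import Mathlib
import Fermat.Agent.JA.BCD_helper9_HostRat
import Fermat.Agent.JA.UP_helper7_Emb
import Fermat.Agent.JA.SEP_helper6_Omega
import Fermat.Agent.JA.DEGK_helper8
import Fermat.Agent.X0N.S24_helper7_Wiring

set_option autoImplicit false
set_option linter.unusedSectionVars false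
set_option linter.style.haveILetI false
set_option synthInstance.maxHeartbeats 200000

open HahnSeries IntermediateField AlgebraicCurve ModularCurve Polynomial

namespace Fermat.Agent.JA

/-- `Ω = AlgebraicClosure ℚ`. -/
local notation "Ω" => AlgebraicClosure ℚ

section Compat

variable (N : ℕ) [NeZero N] (K₁ : IntermediateField ℚ Ω)

/-- **(P6)** `F_{K₁} → E_{K₁} → E_Ω` equals `F_{K₁} → F_Ω → E_Ω` (Legendre tower). -/
theorem legBC_fullToLegE (x : ↥(keyFq ↥K₁ N)) :
    legBC N K₁ (fullToLegE ↥K₁ N x) = fullToLegE Ω N (baseToBar N K₁ x) := by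
  apply Subtype.ext
  rw [coe_legBC]
  exact coeffMap_fullToLegE N (algebraMap ↥K₁ Ω) x

/-- **(P6)** `F_{K₁} → E_{K₁} → E_Ω` equals `F_{K₁} → F_Ω → E_Ω` (Hesse tower). -/
theorem hesBC_fullToHesE (x : ↥(keyFq ↥K₁ N)) :
    hesBC N K₁ (fullToHesE ↥K₁ N x) = fullToHesE Ω N (baseToBar N K₁ x) := by
  apply Subtype.ext
  rw [coe_hesBC]
  exact coeffMap_fullToHesE N (algebraMap ↥K₁ Ω) x

/-- `baseToBar` is helper9's `keyFqBC`. -/
theorem baseToBar_eq_keyFqBC (x : ↥(keyFq ↥K₁ N)) : baseToBar N K₁ x = keyFqBC N K₁ x := rfl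

end Compat

section Degree

variable {ℓ : ℕ} [Fact ℓ.Prime] {A : ValuationSubring Ω}

/-- every place of `F_Ω` has degree one. -/
theorem deg_eq_one_bar (N : ℕ) [NeZero N] (P : Place Ω ↥(modularFunctionFieldBar N)) :
    P.deg = 1 :=
  (Fermat.Agent.X0N.jCoordBar N).deg_eq_one P

/-- **(P6)** the degree clause of `IsPlaceReductionAlong`: every map of places `r` from `F_Ω` to
`F̃` preserves degrees (both are `1`). -/
theorem deg_eq_of_residue (hA : A.LiesOverPrime ℓ) (N : ℕ) [NeZero N] (hℓN : ¬ ℓ ∣ N)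
    (r : Place Ω ↥(modularFunctionFieldBar N) →
      Place (IsLocalRing.ResidueField ↥A)
        ↥(modularFunctionFieldFullC (IsLocalRing.ResidueField ↥A) N))
    (P : Place Ω ↥(modularFunctionFieldBar N)) : (r P).deg = P.deg := by
  rw [deg_eq_one_fullC_residue hA N hℓN (r P), deg_eq_one_bar N P]

end Degree

end Fermat.Agent.JA
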