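/-
J-A project, package LINE (helper2), HOST-shape transport, part 4: the unramifiedness statement
(LINE.3) `Unr 𝒢j K₁(t)` in helper3's tower of subfields of a host `H / K₁`
(`K₀ := ↥K₁⟮j⟯`, `K := ↥K₁⟮t⟯`, inclusion algebra from `[Fact (K₁⟮j⟯ ≤ K₁⟮t⟯)]`), for
`𝒢j := 𝒢t ∩ K₁(j)` the restriction of the Gauss subring `𝒢t` of `K₁(t)`; also in the consumed
form "`𝒢t` is formally unramified over `𝒢j`".
-/
import Mathlib
import Fermat.Agent.JA.LINEHYP_helper2_Host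

set_option autoImplicit false
set_option linter.style.haveILetI false
set_option linter.unusedSectionVars false

open Polynomial IntermediateField IsLocalRing

namespace Fermat.Agent.JA

/-- transport of formal unramifiedness along a compatible pair of ring isomorphisms. -/
theorem formallyUnramified_of_ringEquiv_pair {R₀ R₀' S₀ S₀' : Type*} [CommRing R₀] [CommRing R₀']
    [CommRing S₀] [CommRing S₀'] [Algebra R₀ S₀] [Algebra R₀' S₀'] (σ : R₀ ≃+* R₀')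
    (τ : S₀ ≃+* S₀') (h : ∀ r, τ (algebraMap R₀ S₀ r) = algebraMap R₀' S₀' (σ r))
    [Algebra.FormallyUnramified R₀ S₀] : Algebra.FormallyUnramified R₀' S₀' := by
  letI : Algebra R₀' R₀ := σ.symm.toRingHom.toAlgebra
  letI : Algebra R₀' S₀ := ((algebraMap R₀ S₀).comp σ.symm.toRingHom).toAlgebra
  haveI : IsScalarTower R₀' R₀ S₀ := IsScalarTower.of_algebraMap_eq (fun _ => rfl)
  haveI : Algebra.FormallyUnramified R₀' R₀ :=
    Algebra.FormallyUnramified.of_surjective (Algebra.ofId R₀' R₀) σ.symm.surjective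
  haveI : Algebra.FormallyUnramified R₀' S₀ := Algebra.FormallyUnramified.comp R₀' R₀ S₀
  let τ' : S₀ ≃ₐ[R₀'] S₀' :=
    { τ with
      commutes' := fun r => by
        show τ (algebraMap R₀ S₀ (σ.symm r)) = _
        rw [h, σ.apply_symm_apply] }
  exact Algebra.FormallyUnramified.of_equiv τ'

section Transport

variable {K₁ : Type*} [Field K₁] {K₀ K₀' K : Type*} [Field K₀] [Field K₀'] [Field K]
  [Algebra K₁ K₀] [Algebra K₁ K₀'] [Algebra K₁ K] [Algebra K₀ K] [IsScalarTower K₁ K₀ K]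
  [Algebra K₀' K] [IsScalarTower K₁ K₀' K]
  (e : K₀ ≃ₐ[K₁] K₀') (he : ∀ x, algebraMap K₀' K (e x) = algebraMap K₀ K x)

include he in
/-- transport of `Unr` along an isomorphism of the base fields compatible with the maps to `K`. -/
theorem unr_comap_of_compat (𝒱 : ValuationSubring K)
    (h : Unr (𝒱.comap (algebraMap K₀ K)) K) : Unr (𝒱.comap (algebraMap K₀' K)) K := by
  unfold Unr at h ⊢
  have he' : ∀ y, algebraMap K₀ K (e.symm y) = algebraMap K₀' K y := fun y => by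
    rw [← he, AlgEquiv.apply_symm_apply]
  let τ : ↥(integralClosure ↥(𝒱.comap (algebraMap K₀ K)) K) ≃+*
      ↥(integralClosure ↥(𝒱.comap (algebraMap K₀' K)) K) :=
    { toFun := fun x => ⟨x.1, isIntegral_comap_of_compat e he 𝒱 x.2⟩
      invFun := fun y => ⟨y.1, isIntegral_comap_of_compat e.symm he' 𝒱 y.2⟩
      left_inv := fun _ => rfl
      right_inv := fun _ => rfl
      map_mul' := fun _ _ => rfl
      map_add' := fun _ _ => rfl }
  refine formallyUnramified_of_ringEquiv_pair (comapRingEquivOfCompat e he 𝒱) τ (fun r => ?_)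
  apply Subtype.ext
  exact (he (r : K₀)).symm

end Transport

section Consumed

variable {K₀ K : Type*} [Field K₀] [Field K] [Algebra K₀ K]

/-- the inclusion of the restriction `𝒱 ∩ K₀` of a valuation subring `𝒱` of `K` into `𝒱`. -/
noncomputable def comapIncl (𝒱 : ValuationSubring K) :
    ↥(𝒱.comap (algebraMap K₀ K)) →+* ↥𝒱 where
  toFun s := ⟨algebraMap K₀ K (s : K₀), s.2⟩
  map_one' := Subtype.ext (map_one _)
  map_mul' _ _ := Subtype.ext (map_mul _ _ _)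
  map_zero' := Subtype.ext (map_zero _)
  map_add' _ _ := Subtype.ext (map_add _ _ _)

@[simp] theorem coe_comapIncl (𝒱 : ValuationSubring K) (s : ↥(𝒱.comap (algebraMap K₀ K))) :
    ((comapIncl 𝒱 s : ↥𝒱) : K) = algebraMap K₀ K (s : K₀) := rfl

/-- if every element of `𝒱` is integral over `𝒱 ∩ K₀`, then `𝒱` is the integral closure of
`𝒱 ∩ K₀` in `K`. -/
theorem mem_integralClosure_comap_iff (𝒱 : ValuationSubring K)
    (hint : ∀ x ∈ 𝒱, IsIntegral ↥(𝒱.comap (algebraMap K₀ K)) x) (x : K) :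
    x ∈ integralClosure ↥(𝒱.comap (algebraMap K₀ K)) K ↔ x ∈ 𝒱 :=
  ⟨fun hx => mem_of_isIntegral_of_le (𝒱.comap (algebraMap K₀ K)) 𝒱 (fun _ hy => hy) hx,
    fun hx => hint x hx⟩

/-- **consumed form of `Unr`**: if `K / K₀` is unramified over `𝒱 ∩ K₀` and every element of `𝒱`
is integral over `𝒱 ∩ K₀`, then `𝒱` is formally unramified over `𝒱 ∩ K₀`, for the algebra
structure given by any ring homomorphism `incl` inducing the inclusion. -/
theorem formallyUnramified_of_unr_of_isIntegral (𝒱 : ValuationSubring K)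
    (h : Unr (𝒱.comap (algebraMap K₀ K)) K)
    (hint : ∀ x ∈ 𝒱, IsIntegral ↥(𝒱.comap (algebraMap K₀ K)) x)
    (incl : ↥(𝒱.comap (algebraMap K₀ K)) →+* ↥𝒱)
    (hincl : ∀ s, ((incl s : ↥𝒱) : K) = algebraMap K₀ K (s : K₀)) :
    @Algebra.FormallyUnramified ↥(𝒱.comap (algebraMap K₀ K)) ↥𝒱 _ _ incl.toAlgebra := by
  unfold Unr at h
  letI : Algebra ↥(𝒱.comap (algebraMap K₀ K)) ↥𝒱 := incl.toAlgebra
  let τ : ↥(integralClosure ↥(𝒱.comap (algebraMap K₀ K)) K) ≃+* ↥𝒱 :=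
    { toFun := fun x => ⟨x.1, (mem_integralClosure_comap_iff 𝒱 hint x.1).mp x.2⟩
      invFun := fun y => ⟨y.1, (mem_integralClosure_comap_iff 𝒱 hint y.1).mpr y.2⟩
      left_inv := fun _ => rfl
      right_inv := fun _ => rfl
      map_mul' := fun _ _ => rfl
      map_add' := fun _ _ => rfl }
  refine formallyUnramified_of_ringEquiv_pair (RingEquiv.refl _) τ (fun r => ?_)
  apply Subtype.ext
  exact (hincl r).symm

/-- the same for the canonical inclusion `comapIncl`. -/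
theorem formallyUnramified_comapIncl (𝒱 : ValuationSubring K)
    (h : Unr (𝒱.comap (algebraMap K₀ K)) K)
    (hint : ∀ x ∈ 𝒱, IsIntegral ↥(𝒱.comap (algebraMap K₀ K)) x) :
    @Algebra.FormallyUnramified ↥(𝒱.comap (algebraMap K₀ K)) ↥𝒱 _ _
      (comapIncl (K₀ := K₀) 𝒱).toAlgebra :=
  formallyUnramified_of_unr_of_isIntegral 𝒱 h hint _ (fun _ => rfl)

end Consumed

namespace LineData

variable {R : Type*} [CommRing R] [IsDomain R] [IsDiscreteValuationRing R] {π : R}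
  {K₁ : Type*} [Field K₁] [Algebra R K₁] [IsFractionRing R K₁]
  {K₀ K : Type*} [Field K₀] [Field K]
  [Algebra K₁ K₀] [Algebra R K₀] [IsScalarTower R K₁ K₀]
  [Algebra K₁ K] [Algebra R K] [IsScalarTower R K₁ K]
  [Algebra K₀ K] [IsScalarTower K₁ K₀ K]
  (D : LineData K₁) {A B : R[X]}
  (hA : A.map (algebraMap R K₁) = D.A) (hB : B.map (algebraMap R K₁) = D.B)
  (H : GaussLineHyp π A B) (hπ : Irreducible π)
  {j : K₀} (hK₀ : K₁⟮j⟯ = ⊤) {t : K} (htr : Transcendental K₁ t) (hgen : K₁⟮t⟯ = ⊤)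
  (hj : algebraMap K₀ K j = D.j t) {𝒢t : ValuationSubring K}

include hA hB H hπ hK₀ htr hgen hj in
/-- **(LINE.3, abstract `K₀`)** `K₁(t) / K₀` is unramified over the restriction of the Gauss
subring of `K₁(t)` to `K₀ = K₁(j)`. -/
theorem unr_comap_of_gen (h𝒢t : IsGaussAt R π t 𝒢t) : Unr (𝒢t.comap (algebraMap K₀ K)) K := by
  refine unr_comap_of_compat (K₁ := K₁) (adjoinEquivOfGen hK₀ hj)
    (algebraMap_adjoinEquivOfGen hK₀ hj) 𝒢t ?_
  exact D.unr_of_isGaussAt hA hB H hπ htr hgen (D.isGaussAt_comap hA hB H hπ htr hgen h𝒢t)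

end LineData

section Concrete

variable {R : Type*} [CommRing R] [IsDomain R] [IsDiscreteValuationRing R] {π : R}
  {K₁ : Type*} [Field K₁] [CharZero K₁] [Algebra R K₁] [IsFractionRing R K₁]
  {K₀ K : Type*} [Field K₀] [Field K]
  [Algebra K₁ K₀] [Algebra R K₀] [IsScalarTower R K₁ K₀]
  [Algebra K₁ K] [Algebra R K] [IsScalarTower R K₁ K]
  [Algebra K₀ K] [IsScalarTower K₁ K₀ K]
  (hπ : Irreducible π)
  {j : K₀} (hK₀ : K₁⟮j⟯ = ⊤) {t : K} (htr : Transcendental K₁ t) (hgen : K₁⟮t⟯ = ⊤)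
  {𝒢t : ValuationSubring K}

include hπ hK₀ htr hgen in
theorem legendre_unr_comap_of_gen (h2 : (2 : ResidueField R) ≠ 0)
    (hj : algebraMap K₀ K j = (legendreData K₁).j t) (h𝒢t : IsGaussAt R π t 𝒢t) :
    Unr (𝒢t.comap (algebraMap K₀ K)) K :=
  (legendreData K₁).unr_comap_of_gen legendreA_map_eq legendreB_map_eq
    (gaussLineHyp_legendre hπ h2) hπ hK₀ htr hgen hj h𝒢t

include hπ hK₀ htr hgen in
theorem hesse_unr_comap_of_gen (h3 : (3 : ResidueField R) ≠ 0)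
    (hj : algebraMap K₀ K j = (hesseData K₁).j t) (h𝒢t : IsGaussAt R π t 𝒢t) :
    Unr (𝒢t.comap (algebraMap K₀ K)) K :=
  (hesseData K₁).unr_comap_of_gen hesseA_map_eq hesseB_map_eq
    (gaussLineHyp_hesse hπ h3) hπ hK₀ htr hgen hj h𝒢t

end Concrete

end Fermat.Agent.JA

namespace Fermat.Agent.JA.Host

open scoped Fermat.Agent.JA.Host

variable {R : Type*} [CommRing R] [IsDomain R] [IsDiscreteValuationRing R]
  {K₁ : Type*} [Field K₁] [CharZero K₁] [Algebra R K₁] [IsFractionRing R K₁]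
  {H : Type*} [Field H] [Algebra K₁ H] [Algebra R H] [IsScalarTower R K₁ H]
  (j t : H) [Fact (K₁⟮j⟯ ≤ K₁⟮t⟯)]

/-- **(LINE.3 in the host tower, Legendre)** `K₁(t) / K₁(j)` is unramified over
`𝒢j := 𝒢t ∩ K₁(j)`, `𝒢t` the Gauss subring of `↥K₁⟮t⟯`. -/
theorem legendre_unr_gauss_host (htr : Transcendental K₁ t)
    (hj : j * aeval t (X ^ 2 * (X - 1) ^ 2 : K₁[X]) = aeval t (256 * (X ^ 2 - X + 1) ^ 3 : K₁[X]))
    {π : R} (hπ : Irreducible π) (h2 : (2 : ResidueField R) ≠ 0)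
    {𝒢t : ValuationSubring ↥K₁⟮t⟯} (h𝒢t : IsGaussAt R π (AdjoinSimple.gen K₁ t) 𝒢t) :
    Unr (𝒢t.comap (algebraMap ↥K₁⟮j⟯ ↥K₁⟮t⟯)) ↥K₁⟮t⟯ :=
  legendre_unr_comap_of_gen hπ (adjoin_gen_eq_top j) (transcendental_gen htr)
    (adjoin_gen_eq_top t) h2
    ((legendreData K₁).eq_j_of_mul_eq (transcendental_gen htr)
      (gen_mul_aeval_gen_eq j t _ _ hj)) h𝒢t

/-- **(LINE.3 in the host tower, Hesse)**. -/
theorem hesse_unr_gauss_host (htr : Transcendental K₁ t)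
    (hj : j * aeval t ((X ^ 3 - 1) ^ 3 : K₁[X]) = aeval t (27 * X ^ 3 * (X ^ 3 + 8) ^ 3 : K₁[X]))
    {π : R} (hπ : Irreducible π) (h3 : (3 : ResidueField R) ≠ 0)
    {𝒢t : ValuationSubring ↥K₁⟮t⟯} (h𝒢t : IsGaussAt R π (AdjoinSimple.gen K₁ t) 𝒢t) :
    Unr (𝒢t.comap (algebraMap ↥K₁⟮j⟯ ↥K₁⟮t⟯)) ↥K₁⟮t⟯ :=
  hesse_unr_comap_of_gen hπ (adjoin_gen_eq_top j) (transcendental_gen htr)
    (adjoin_gen_eq_top t) h3
    ((hesseData K₁).eq_j_of_mul_eq (transcendental_gen htr)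
      (gen_mul_aeval_gen_eq j t _ _ hj)) h𝒢t

/-- **consumed form, Legendre**: the Gauss subring `𝒢t` of `↥K₁⟮t⟯` is formally unramified over
`𝒢j := 𝒢t ∩ K₁(j)` (algebra structure from any ring homomorphism inducing the inclusion). -/
theorem legendre_formallyUnramified_gauss_host (htr : Transcendental K₁ t)
    (hj : j * aeval t (X ^ 2 * (X - 1) ^ 2 : K₁[X]) = aeval t (256 * (X ^ 2 - X + 1) ^ 3 : K₁[X]))
    {π : R} (hπ : Irreducible π) (h2 : (2 : ResidueField R) ≠ 0)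
    {𝒢t : ValuationSubring ↥K₁⟮t⟯} (h𝒢t : IsGaussAt R π (AdjoinSimple.gen K₁ t) 𝒢t)
    (incl : ↥(𝒢t.comap (algebraMap ↥K₁⟮j⟯ ↥K₁⟮t⟯)) →+* ↥𝒢t)
    (hincl : ∀ s, ((incl s : ↥𝒢t) : ↥K₁⟮t⟯) = algebraMap ↥K₁⟮j⟯ ↥K₁⟮t⟯ (s : ↥K₁⟮j⟯)) :
    @Algebra.FormallyUnramified ↥(𝒢t.comap (algebraMap ↥K₁⟮j⟯ ↥K₁⟮t⟯)) ↥𝒢t _ _ incl.toAlgebra :=
  formallyUnramified_of_unr_of_isIntegral 𝒢t (legendre_unr_gauss_host j t htr hj hπ h2 h𝒢t)
    (legendre_keyEnd_host j t htr hj hπ h2 h𝒢t).2.1 incl hincl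

/-- **consumed form, Hesse**. -/
theorem hesse_formallyUnramified_gauss_host (htr : Transcendental K₁ t)
    (hj : j * aeval t ((X ^ 3 - 1) ^ 3 : K₁[X]) = aeval t (27 * X ^ 3 * (X ^ 3 + 8) ^ 3 : K₁[X]))
    {π : R} (hπ : Irreducible π) (h3 : (3 : ResidueField R) ≠ 0)
    {𝒢t : ValuationSubring ↥K₁⟮t⟯} (h𝒢t : IsGaussAt R π (AdjoinSimple.gen K₁ t) 𝒢t)
    (incl : ↥(𝒢t.comap (algebraMap ↥K₁⟮j⟯ ↥K₁⟮t⟯)) →+* ↥𝒢t)
    (hincl : ∀ s, ((incl s : ↥𝒢t) : ↥K₁⟮t⟯) = algebraMap ↥K₁⟮j⟯ ↥K₁⟮t⟯ (s : ↥K₁⟮j⟯)) :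
    @Algebra.FormallyUnramified ↥(𝒢t.comap (algebraMap ↥K₁⟮j⟯ ↥K₁⟮t⟯)) ↥𝒢t _ _ incl.toAlgebra :=
  formallyUnramified_of_unr_of_isIntegral 𝒢t (hesse_unr_gauss_host j t htr hj hπ h3 h𝒢t)
    (hesse_keyEnd_host j t htr hj hπ h3 h𝒢t).2.1 incl hincl

end Fermat.Agent.JA.Host
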