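/-
J-A third wave — helper6 — (P1) BASE-PKG for helper1's (O1), part 2: the `K₀ = K₁(j_w)`-level facts
needed by `down_isSeparable` (`Algebra K₀ F_q` through `ρ`, tower, `𝒢j = V ∩ K₀`,
`𝒢t = integral closure of 𝒢j`, finiteness) and the concrete instances of helper1's abstract DOWN
layer (`down_isScalarTower`, `down_finrank`, `down_isSeparable`) for the base package.
-/
import Mathlib
import Fermat.Agent.JA.O1_helper6_BasePkg
import Fermat.Agent.JA.REDO_helper1_DownGeo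

set_option autoImplicit false
set_option linter.unusedSectionVars false
set_option linter.style.haveILetI false
set_option synthInstance.maxHeartbeats 200000

open HahnSeries IntermediateField AlgebraicCurve ModularCurve Fermat.Agent.Igusa Polynomial

namespace Fermat.Agent.JA

namespace Host

/-- the tower `R₀ → ↥A → ↥B` for intermediate fields `A ≤ B` of `H / K₁` and a coefficient ring
`R₀` of `K₁` (e.g. a valuation subring). -/
scoped instance instTowerAlgebra'_h6 {K₁ H : Type*} [Field K₁] [Field H] [Algebra K₁ H]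
    {R₀ : Type*} [CommSemiring R₀] [Algebra R₀ K₁] [Algebra R₀ H] [IsScalarTower R₀ K₁ H]
    (A B : IntermediateField K₁ H) [Fact (A ≤ B)] : IsScalarTower R₀ ↥A ↥B :=
  IsScalarTower.of_algebraMap_eq (fun _ => rfl)

end Host

open scoped Fermat.Agent.JA.Host

section BaseDown

variable {K₁ : Type*} [Field K₁] [Algebra ℚ K₁] (R : ValuationSubring K₁)
  [IsDiscreteValuationRing ↥R] (N w : ℕ) [NeZero N] [NeZero w]
  (hFq : keyFq K₁ N ≤ gaussField ↥R K₁)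
  (t : LaurentSeries K₁)
  [Fact (K₁⟮jqNModC K₁ w⟯ ≤ keyFw K₁ N w)] [Fact (K₁⟮jqNModC K₁ w⟯ ≤ K₁⟮t⟯)]

/-- the algebra `K₁(j_w) → F_q` through `ρ` (use with `letI`). -/
@[reducible] noncomputable def baseAlgK₀F : Algebra ↥K₁⟮jqNModC K₁ w⟯ ↥(keyFq K₁ N) :=
  (baseρ N w).toAlgebra

theorem baseAlgK₀F_isScalarTower :
    letI := baseAlgK₀F (K₁ := K₁) N w
    letI := baseAlgFE N w t
    IsScalarTower ↥K₁⟮jqNModC K₁ w⟯ ↥(keyFq K₁ N) ↥(Host.Etu (keyFw K₁ N w) t 1) := by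
  letI := baseAlgK₀F (K₁ := K₁) N w
  letI := baseAlgFE N w t
  exact IsScalarTower.of_algebraMap_eq fun s => (baseAlgFE_baseρ N w t s).symm

variable {ϖ : ↥R} (hϖ : Irreducible ϖ)
  (𝒢t : ValuationSubring ↥K₁⟮t⟯)
  (h𝒢j : IsGaussAt ↥R ϖ (AdjoinSimple.gen K₁ (jqNModC K₁ w))
    (𝒢t.comap (algebraMap ↥K₁⟮jqNModC K₁ w⟯ ↥K₁⟮t⟯)))

include hϖ h𝒢j in
/-- `(h𝒢₀V)`: `𝒢j = V ∩ K₁(j_w)`. -/
theorem mem_comap_iff_mem_baseV (s : ↥K₁⟮jqNModC K₁ w⟯) :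
    letI := baseAlgK₀F (K₁ := K₁) N w
    s ∈ 𝒢t.comap (algebraMap ↥K₁⟮jqNModC K₁ w⟯ ↥K₁⟮t⟯) ↔
      algebraMap ↥K₁⟮jqNModC K₁ w⟯ ↥(keyFq K₁ N) s ∈ baseV R N hFq := by
  letI := baseAlgK₀F (K₁ := K₁) N w
  rw [comap_eq_baseV_comap R N w hFq t hϖ 𝒢t h𝒢j]
  rfl

variable (hintj : ∀ x ∈ 𝒢t, IsIntegral ↥(𝒢t.comap (algebraMap ↥K₁⟮jqNModC K₁ w⟯ ↥K₁⟮t⟯)) x)

include hintj in
/-- `(h𝒢₀𝒱)`: `𝒢t` is the integral closure of `𝒢j` in `K₁(t)`. -/
theorem mem_iff_isIntegral_comap (x : ↥K₁⟮t⟯) :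
    x ∈ 𝒢t ↔ IsIntegral ↥(𝒢t.comap (algebraMap ↥K₁⟮jqNModC K₁ w⟯ ↥K₁⟮t⟯)) x := by
  refine ⟨hintj x, fun hx => ?_⟩
  have h1 : IsIntegral ↥𝒢t x := by
    refine IsIntegral.map_of_comp_eq (baseIncl𝒢 w t 𝒢t) (RingHom.id ↥K₁⟮t⟯) ?_ hx
    refine RingHom.ext fun s => ?_
    rfl
  obtain ⟨y, hy⟩ := IsIntegrallyClosed.isIntegral_iff.mp h1
  rw [← hy]
  exact y.2


section Concrete

variable
  (hmemW : ∀ W : ValuationSubring ↥(keyFq K₁ N),
    (∀ c : ↥(keyFq K₁ N), (c : LaurentSeries K₁) ∈ K₁⟮emb ↥R K₁ (jqModC ↥R)⟯ →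
      (c ∈ W ↔ (c : LaurentSeries K₁) ∈ gaussInt ↥R K₁)) →
    ∀ z : ↥(keyFq K₁ N), (z : LaurentSeries K₁) ∈ gaussInt ↥R K₁ → z ∈ W)
  {k : Type*} [Field k] (σ : IsLocalRing.ResidueField ↥R →+* k) (hσ : Function.Surjective σ)
  (hRES : ∀ (z : LaurentSeries K₁) (_ : z ∈ keyFq K₁ N) (hzi : z ∈ gaussInt ↥R K₁),
    coeffMap σ (gaussRed ↥R K₁ ⟨z, hzi⟩) ∈ modularFunctionFieldFullC k N)
  (hLIFT : ∀ a ∈ modularFunctionFieldFullC k N, ∃ (z : LaurentSeries K₁)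
    (hzi : z ∈ gaussInt ↥R K₁), z ∈ keyFq K₁ N ∧ coeffMap σ (gaussRed ↥R K₁ ⟨z, hzi⟩) = a)
  [Module.Finite ↥K₁⟮jqNModC K₁ w⟯ ↥(keyFw K₁ N w)]
  {S : Finset ↥R} {τ : ↥K₁⟮t⟯}
  (hgeo : GeoHyps K₁ (K := ↥K₁⟮t⟯) ϖ τ ↥(Host.Etu (keyFw K₁ N w) t 1) N S)
  (h𝒢t : IsGaussAt ↥R ϖ τ 𝒢t)

include hσ in
theorem baseRes_surjective : Function.Surjective (σ.comp (IsLocalRing.residue ↥R)) :=
  hσ.comp IsLocalRing.residue_surjective

include hϖ in
theorem baseRes_pi : (σ.comp (IsLocalRing.residue ↥R)) ϖ = 0 := by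
  have h1 : IsLocalRing.residue ↥R ϖ = 0 := by
    rw [IsLocalRing.residue_eq_zero_iff, IsLocalRing.mem_maximalIdeal, mem_nonunits_iff]
    exact hϖ.not_isUnit
  rw [RingHom.comp_apply, h1, map_zero]

set_option maxHeartbeats 1600000 in
include hσ in
/-- the `k`-tower `k → F̃ → κ(W)` of the base package. -/
theorem base_down_isScalarTower :
    haveI : CharZero ↥R := charZero_valuationSubring_of_algebraRat R
    letI := baseAlgFE N w t
    haveI := hgeo.isLocalRing 𝒢t h𝒢t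
    letI := geoAlgKEt hgeo.irreducible 𝒢t (fun r => h𝒢t.algebraMap_mem r)
      (residue_gaussConst_pi hgeo 𝒢t h𝒢t) (σ.comp (IsLocalRing.residue ↥R))
      (baseRes_surjective R σ hσ)
    letI := downAlg 𝒢t (baseV R N hFq)
      (mem_baseV_iff_isIntegral R N w hFq t hϖ 𝒢t h𝒢j hmemW hgeo h𝒢t)
      (baseResV R N hFq σ hRES) (baseResV_surjective R N hFq σ hRES hLIFT)
    IsScalarTower k ↥(modularFunctionFieldFullC k N)
      (IsLocalRing.ResidueField ↥(integralClosure ↥𝒢t ↥(Host.Etu (keyFw K₁ N w) t 1))) := by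
  haveI : CharZero ↥R := charZero_valuationSubring_of_algebraRat R
  letI := baseAlgFE N w t
  haveI := hgeo.isLocalRing 𝒢t h𝒢t
  exact down_isScalarTower hgeo 𝒢t h𝒢t (σ.comp (IsLocalRing.residue ↥R))
    (baseRes_surjective R σ hσ) (baseV R N hFq)
    (mem_baseV_iff_isIntegral R N w hFq t hϖ 𝒢t h𝒢j hmemW hgeo h𝒢t)
    (baseResV R N hFq σ hRES) (baseResV_surjective R N hFq σ hRES hLIFT) (baseφ R N)
    (baseAlgFE_baseφ R N w t) (baseResV_const R N hFq σ hRES)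


variable (hintj : ∀ x ∈ 𝒢t, IsIntegral ↥(𝒢t.comap (algebraMap ↥K₁⟮jqNModC K₁ w⟯ ↥K₁⟮t⟯)) x)
  (htint : IsIntegral ↥K₁⟮jqNModC K₁ w⟯ t)

set_option maxHeartbeats 1600000 in
include hσ hintj htint in
/-- **(D4a) for the base package**: `[κ(W) : F̃] = [E : F_q]`. -/
theorem base_down_finrank :
    haveI : CharZero ↥R := charZero_valuationSubring_of_algebraRat R
    letI := baseAlgFE N w t
    haveI := hgeo.isLocalRing 𝒢t h𝒢t
    letI := downAlg 𝒢t (baseV R N hFq)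
      (mem_baseV_iff_isIntegral R N w hFq t hϖ 𝒢t h𝒢j hmemW hgeo h𝒢t)
      (baseResV R N hFq σ hRES) (baseResV_surjective R N hFq σ hRES hLIFT)
    Module.finrank ↥(modularFunctionFieldFullC k N)
        (IsLocalRing.ResidueField ↥(integralClosure ↥𝒢t ↥(Host.Etu (keyFw K₁ N w) t 1))) =
      Module.finrank ↥(keyFq K₁ N) ↥(Host.Etu (keyFw K₁ N w) t 1) := by
  haveI : CharZero ↥R := charZero_valuationSubring_of_algebraRat R
  letI := baseAlgFE N w t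
  haveI := hgeo.isLocalRing 𝒢t h𝒢t
  haveI : Module.Finite ↥(keyFq K₁ N) ↥(Host.Etu (keyFw K₁ N w) t 1) :=
    finite_fullToEtu K₁ N w t htint
  haveI : CharZero ↥(keyFq K₁ N) := algebraRat.charZero _
  exact down_finrank hgeo 𝒢t h𝒢t (σ.comp (IsLocalRing.residue ↥R)) (baseV R N hFq)
    (mem_baseV_iff_isIntegral R N w hFq t hϖ 𝒢t h𝒢j hmemW hgeo h𝒢t)
    (baseResV R N hFq σ hRES) (baseResV_surjective R N hFq σ hRES hLIFT) (baseφ R N)
    (baseAlgFE_baseφ R N w t) (baseResV_const R N hFq σ hRES) (baseRes_pi R hϖ σ)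
    (isIntegral_baseV_of_isIntegral R N w hFq t hϖ 𝒢t h𝒢j hintj)

set_option maxHeartbeats 1600000 in
include hintj htint in
/-- **(D4b) for the base package**: `κ(W) / F̃` is finite separable, given that `K₁(t) / K₁(j_w)`
is unramified at the Gauss place (helper2's `legendre/hesse_unr_gauss_host`). -/
theorem base_down_isSeparable
    (hU₀ : Unr (𝒢t.comap (algebraMap ↥K₁⟮jqNModC K₁ w⟯ ↥K₁⟮t⟯)) ↥K₁⟮t⟯) :
    haveI : CharZero ↥R := charZero_valuationSubring_of_algebraRat R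
    letI := baseAlgFE N w t
    haveI := hgeo.isLocalRing 𝒢t h𝒢t
    letI := downAlg 𝒢t (baseV R N hFq)
      (mem_baseV_iff_isIntegral R N w hFq t hϖ 𝒢t h𝒢j hmemW hgeo h𝒢t)
      (baseResV R N hFq σ hRES) (baseResV_surjective R N hFq σ hRES hLIFT)
    Algebra.IsSeparable ↥(modularFunctionFieldFullC k N)
        (IsLocalRing.ResidueField ↥(integralClosure ↥𝒢t ↥(Host.Etu (keyFw K₁ N w) t 1))) ∧
      Module.Finite ↥(modularFunctionFieldFullC k N)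
        (IsLocalRing.ResidueField ↥(integralClosure ↥𝒢t ↥(Host.Etu (keyFw K₁ N w) t 1))) := by
  haveI : CharZero ↥R := charZero_valuationSubring_of_algebraRat R
  letI := baseAlgFE N w t
  letI := baseAlgK₀F (K₁ := K₁) N w
  haveI := baseAlgK₀F_isScalarTower (K₁ := K₁) N w t
  haveI := hgeo.isLocalRing 𝒢t h𝒢t
  haveI : FiniteDimensional ↥K₁⟮jqNModC K₁ w⟯ ↥K₁⟮t⟯ := Host.finite_Kj_Kt _ t htint
  haveI : FiniteDimensional ↥K₁⟮t⟯ ↥(Host.Etu (keyFw K₁ N w) t 1) := hgeo.finite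
  haveI : CharZero ↥K₁⟮jqNModC K₁ w⟯ := algebraRat.charZero _
  have htrj : Transcendental K₁ (AdjoinSimple.gen K₁ (jqNModC K₁ w)) :=
    Host.transcendental_gen (transcendental_jqNModC w)
  have hKj : IntermediateField.adjoin K₁ {AdjoinSimple.gen K₁ (jqNModC K₁ w)} = ⊤ :=
    Host.adjoin_gen_eq_top _
  haveI : IsDiscreteValuationRing ↥(𝒢t.comap (algebraMap ↥K₁⟮jqNModC K₁ w⟯ ↥K₁⟮t⟯)) :=
    isDiscreteValuationRing_of_isGaussAt ϖ hϖ _ htrj hKj h𝒢j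
  haveI : IsDiscreteValuationRing ↥𝒢t :=
    isDiscreteValuationRing_of_isGaussAt ϖ hϖ _ hgeo.transcendental hgeo.adjoin_eq_top h𝒢t
  exact down_isSeparable (𝒢t.comap (algebraMap ↥K₁⟮jqNModC K₁ w⟯ ↥K₁⟮t⟯)) 𝒢t
    (mem_iff_isIntegral_comap w t 𝒢t hintj) hU₀ (hgeo.gauss 𝒢t h𝒢t) (baseV R N hFq)
    (mem_baseV_iff_isIntegral R N w hFq t hϖ 𝒢t h𝒢j hmemW hgeo h𝒢t)
    (mem_comap_iff_mem_baseV R N w hFq t hϖ 𝒢t h𝒢j)
    (baseResV R N hFq σ hRES) (baseResV_surjective R N hFq σ hRES hLIFT)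

end Concrete

end BaseDown

end Fermat.Agent.JA
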