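/-
J-A third wave — helper6 — (P1) BASE-PKG for helper1's (O1), part 3: the instance at a base
`R = baseRing A K₁` (`IsBase ℓ K₁`, `ℓ ∤ N`): the generic hypotheses `hFq`, `hmemW`, `hσ`, `hRES`,
`hLIFT`, finiteness of `F_w / K₁(j_w)` of the base package, and the Gauss data
(`𝒢t`, Gauss for `t` and `t⁻¹`, `𝒢j`, integrality, unramifiedness `hU₀`) for the Legendre
(`ℓ ≠ 2`) and Hesse (`ℓ ≠ 3`) coordinates.
-/
import Mathlib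
import Fermat.Agent.JA.O1_helper6_BaseDown
import Fermat.Agent.JA.SEP_helper6_Inst
import Fermat.Agent.JA.LINEHYP_helper2_HostUnr
import Fermat.Agent.JA.CHARTADJ_helper6_Adjoin

set_option autoImplicit false
set_option linter.unusedSectionVars false
set_option linter.style.haveILetI false
set_option synthInstance.maxHeartbeats 400000

open HahnSeries IntermediateField AlgebraicCurve ModularCurve Fermat.Agent.Igusa Polynomial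
open scoped MatrixGroups
open CongruenceSubgroup

namespace Fermat.Agent.JA

open scoped Fermat.Agent.JA.Host

/-- `Ω = AlgebraicClosure ℚ`. -/
local notation "Ω" => AlgebraicClosure ℚ

section BaseInst

variable {ℓ : ℕ} [Fact ℓ.Prime] {A : ValuationSubring Ω} (hA : A.LiesOverPrime ℓ)
  (N : ℕ) [NeZero N] {K₁ : IntermediateField ℚ Ω}

/-- `(hFq)` at a base. -/
theorem hFq_baseRing [IsDiscreteValuationRing ↥(baseRing A K₁)] : keyFq ↥K₁ N ≤ gaussField ↥(baseRing A K₁) ↥K₁ :=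
  laurentBaseChange_full_le_gaussField ↥(baseRing A K₁) ↥K₁ N

include hA in
/-- `(hmemW)` at a base. -/
theorem hmemW_baseRing (hℓN : ¬ ℓ ∣ N) (hK₁ : IsBase ℓ K₁)
    [IsDiscreteValuationRing ↥(baseRing A K₁)] :
    ∀ W : ValuationSubring ↥(keyFq ↥K₁ N),
      (∀ c : ↥(keyFq ↥K₁ N), (c : LaurentSeries ↥K₁) ∈
          (↥K₁)⟮emb ↥(baseRing A K₁) ↥K₁ (jqModC ↥(baseRing A K₁))⟯ →
        (c ∈ W ↔ (c : LaurentSeries ↥K₁) ∈ gaussInt ↥(baseRing A K₁) ↥K₁)) →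
      ∀ z : ↥(keyFq ↥K₁ N), (z : LaurentSeries ↥K₁) ∈ gaussInt ↥(baseRing A K₁) ↥K₁ → z ∈ W :=
  fun W hW z hz => mem_of_mem_gaussInt_baseRing hA N hℓN hK₁.flatBase_le W hW z hz

include hA in
/-- `(hRES)` at a base. -/
theorem hRES_baseRing (hℓN : ¬ ℓ ∣ N) (hK₁ : IsBase ℓ K₁)
    [IsDiscreteValuationRing ↥(baseRing A K₁)] :
    ∀ (z : LaurentSeries ↥K₁) (_ : z ∈ keyFq ↥K₁ N)
      (hzi : z ∈ gaussInt ↥(baseRing A K₁) ↥K₁),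
      coeffMap (baseResidueMap A K₁) (gaussRed ↥(baseRing A K₁) ↥K₁ ⟨z, hzi⟩) ∈
        modularFunctionFieldFullC (IsLocalRing.ResidueField ↥A) N := by
  letI : Algebra ↥K₁ ℂ :=
    (((IsAlgClosed.lift : Ω →ₐ[ℚ] ℂ) : Ω →+* ℂ).comp (algebraMap ↥K₁ Ω)).toAlgebra
  haveI : IsScalarTower ℚ ↥K₁ ℂ := IsScalarTower.of_algebraMap_eq' (Subsingleton.elim _ _)
  have hdeg := hdeg_baseRing hA N hℓN hK₁.flatBase_le
  intro z hz hzi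
  have hz' : z ∈ modularFunctionFieldFullC ↥K₁ N := by
    rw [← laurentBaseChange_full_eq_fullC ↥K₁ N]; exact hz
  exact coeffMap_baseResidueMap_mem_fullC N
    (gaussRed_mem_adjoin_pair_fullC ↥(baseRing A K₁) ↥K₁ N hdeg hz' hzi)

set_option maxHeartbeats 1600000 in
include hA in
/-- `(hLIFT)` at a base. -/
theorem hLIFT_baseRing (hℓN : ¬ ℓ ∣ N) (hK₁ : IsBase ℓ K₁)
    [IsDiscreteValuationRing ↥(baseRing A K₁)] :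
    ∀ a ∈ modularFunctionFieldFullC (IsLocalRing.ResidueField ↥A) N,
      ∃ (z : LaurentSeries ↥K₁) (hzi : z ∈ gaussInt ↥(baseRing A K₁) ↥K₁), z ∈ keyFq ↥K₁ N ∧
        coeffMap (baseResidueMap A K₁) (gaussRed ↥(baseRing A K₁) ↥K₁ ⟨z, hzi⟩) = a := by
  letI : Algebra ↥K₁ ℂ :=
    (((IsAlgClosed.lift : Ω →ₐ[ℚ] ℂ) : Ω →+* ℂ).comp (algebraMap ↥K₁ Ω)).toAlgebra
  haveI : IsScalarTower ℚ ↥K₁ ℂ := IsScalarTower.of_algebraMap_eq' (Subsingleton.elim _ _)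
  have hdeg := hdeg_baseRing hA N hℓN hK₁.flatBase_le
  have hσ := hK₁.baseResidueMap_bijective hA
  intro a ha
  have ha' := (modLData_residueField hA N hℓN).1 ha
  set σe := RingEquiv.ofBijective (baseResidueMap A K₁) hσ with hσe
  set σ' : IsLocalRing.ResidueField ↥A →+* IsLocalRing.ResidueField ↥(baseRing A K₁) :=
    σe.symm.toRingHom with hσ'
  have h1 := coeffMap_mem_adjoin_pair σ' ha'
  rw [coeffMap_jqModC, coeffMap_jqNModC] at h1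
  have h2 : coeffMap σ' a ∈
      IntermediateField.adjoin (IsLocalRing.ResidueField ↥(baseRing A K₁))
        {red ↥(baseRing A K₁) (jqModC ↥(baseRing A K₁)),
          red ↥(baseRing A K₁) (jqNModC ↥(baseRing A K₁) N)} := by
    rw [red_jqModC, red_jqNModC]; exact h1
  obtain ⟨z, hzi, hzF, hz⟩ := exists_lift_red (modularFunctionFieldFullC ↥K₁ N)
    (jqModC ↥(baseRing A K₁)) (jqNModC ↥(baseRing A K₁) N)
    (emb_jqModC_mem_fullC ↥(baseRing A K₁) ↥K₁ N) (emb_jqNModC_mem_fullC ↥(baseRing A K₁) ↥K₁ N)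
    (transcendental_red_jqModC ↥(baseRing A K₁)) (Gamma0 N).index
    (hub_fullC ↥(baseRing A K₁) ↥K₁ N) (hlb_fullC ↥(baseRing A K₁) N hdeg) h2
  refine ⟨z, hzi, ?_, ?_⟩
  · rw [keyFq, laurentBaseChange_full_eq_fullC ↥K₁ N]; exact hzF
  · rw [hz, coeffMap_coeffMap]
    have h3 : (baseResidueMap A K₁).comp σ' = RingHom.id _ :=
      RingHom.ext fun x => σe.apply_symm_apply x
    rw [coeffMap_congr h3, coeffMap_id]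


set_option maxHeartbeats 1600000 in
include hA in
/-- **the Gauss data of the Legendre coordinate at a base** (`ℓ ≠ 2`). -/
theorem exists_gauss_legE_baseRing (hℓ2 : ℓ ≠ 2)
    [IsDiscreteValuationRing ↥(baseRing A K₁)] {ϖ : ↥(baseRing A K₁)} (hϖ : Irreducible ϖ) :
    ∃ 𝒢t : ValuationSubring ↥(↥K₁)⟮legT ↥K₁⟯,
      IsGaussAt ↥(baseRing A K₁) ϖ (AdjoinSimple.gen ↥K₁ (legT ↥K₁)) 𝒢t ∧
      IsGaussAt ↥(baseRing A K₁) ϖ (AdjoinSimple.gen ↥K₁ (legT ↥K₁))⁻¹ 𝒢t ∧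
      IsGaussAt ↥(baseRing A K₁) ϖ (AdjoinSimple.gen ↥K₁ (jqNModC ↥K₁ 2))
        (𝒢t.comap (algebraMap ↥(↥K₁)⟮jqNModC ↥K₁ 2⟯ ↥(↥K₁)⟮legT ↥K₁⟯)) ∧
      (∀ x ∈ 𝒢t,
        IsIntegral ↥(𝒢t.comap (algebraMap ↥(↥K₁)⟮jqNModC ↥K₁ 2⟯ ↥(↥K₁)⟮legT ↥K₁⟯)) x) ∧
      Unr (𝒢t.comap (algebraMap ↥(↥K₁)⟮jqNModC ↥K₁ 2⟯ ↥(↥K₁)⟮legT ↥K₁⟯))
        ↥(↥K₁)⟮legT ↥K₁⟯ := by
  classical
  haveI : CharZero ↥(baseRing A K₁) := charZero_valuationSubring_of_algebraRat _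
  haveI : CharZero ↥K₁ := algebraRat.charZero _
  have hℓ2' : ¬ ℓ ∣ 2 := fun h =>
    hℓ2 ((Nat.prime_dvd_prime_iff_eq (Fact.out : ℓ.Prime) Nat.prime_two).mp h)
  have h2res : (2 : IsLocalRing.ResidueField ↥(baseRing A K₁)) ≠ 0 := by
    have := natCast_residueField_baseRing_ne_zero hA (K₁ := K₁) hℓ2'
    exact_mod_cast this
  have hj' : jqNModC ↥K₁ 2 * aeval (legT ↥K₁) (X ^ 2 * (X - 1) ^ 2 : (↥K₁)[X]) =
      aeval (legT ↥K₁) (256 * (X ^ 2 - X + 1) ^ 3 : (↥K₁)[X]) := jqNModC_mul_aeval_legT ↥K₁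
  obtain ⟨𝒢t, h𝒢t⟩ := exists_isGaussAt ϖ hϖ (AdjoinSimple.gen ↥K₁ (legT ↥K₁))
    (Host.transcendental_gen (transcendental_legT ↥K₁)) (Host.adjoin_gen_eq_top _)
  obtain ⟨h1, h2, -⟩ := Host.legendre_keyEnd_host (jqNModC ↥K₁ 2) (legT ↥K₁)
    (transcendental_legT ↥K₁) hj' hϖ h2res h𝒢t
  exact ⟨𝒢t, h𝒢t, isGaussAt_inv ϖ hϖ.prime _ 𝒢t h𝒢t, h1, h2,
    Host.legendre_unr_gauss_host (jqNModC ↥K₁ 2) (legT ↥K₁) (transcendental_legT ↥K₁) hj' hϖ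
      h2res h𝒢t⟩

set_option maxHeartbeats 1600000 in
include hA in
/-- **the Gauss data of the Hesse coordinate at a base** (`ℓ ≠ 3`). -/
theorem exists_gauss_hesE_baseRing (hℓ3 : ℓ ≠ 3)
    [IsDiscreteValuationRing ↥(baseRing A K₁)] {ϖ : ↥(baseRing A K₁)} (hϖ : Irreducible ϖ) :
    ∃ 𝒢t : ValuationSubring ↥(↥K₁)⟮hesT ↥K₁⟯,
      IsGaussAt ↥(baseRing A K₁) ϖ (AdjoinSimple.gen ↥K₁ (hesT ↥K₁)) 𝒢t ∧
      IsGaussAt ↥(baseRing A K₁) ϖ (AdjoinSimple.gen ↥K₁ (hesT ↥K₁))⁻¹ 𝒢t ∧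
      IsGaussAt ↥(baseRing A K₁) ϖ (AdjoinSimple.gen ↥K₁ (jqNModC ↥K₁ 3))
        (𝒢t.comap (algebraMap ↥(↥K₁)⟮jqNModC ↥K₁ 3⟯ ↥(↥K₁)⟮hesT ↥K₁⟯)) ∧
      (∀ x ∈ 𝒢t,
        IsIntegral ↥(𝒢t.comap (algebraMap ↥(↥K₁)⟮jqNModC ↥K₁ 3⟯ ↥(↥K₁)⟮hesT ↥K₁⟯)) x) ∧
      Unr (𝒢t.comap (algebraMap ↥(↥K₁)⟮jqNModC ↥K₁ 3⟯ ↥(↥K₁)⟮hesT ↥K₁⟯))
        ↥(↥K₁)⟮hesT ↥K₁⟯ := by
  classical
  haveI : CharZero ↥(baseRing A K₁) := charZero_valuationSubring_of_algebraRat _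
  haveI : CharZero ↥K₁ := algebraRat.charZero _
  have hℓ3' : ¬ ℓ ∣ 3 := fun h =>
    hℓ3 ((Nat.prime_dvd_prime_iff_eq (Fact.out : ℓ.Prime) Nat.prime_three).mp h)
  have h3res : (3 : IsLocalRing.ResidueField ↥(baseRing A K₁)) ≠ 0 := by
    have := natCast_residueField_baseRing_ne_zero hA (K₁ := K₁) hℓ3'
    exact_mod_cast this
  have hj' : jqNModC ↥K₁ 3 * aeval (hesT ↥K₁) ((X ^ 3 - 1) ^ 3 : (↥K₁)[X]) =
      aeval (hesT ↥K₁) (27 * X ^ 3 * (X ^ 3 + 8) ^ 3 : (↥K₁)[X]) := jqNModC_mul_aeval_hesT ↥K₁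
  obtain ⟨𝒢t, h𝒢t⟩ := exists_isGaussAt ϖ hϖ (AdjoinSimple.gen ↥K₁ (hesT ↥K₁))
    (Host.transcendental_gen (transcendental_hesT ↥K₁)) (Host.adjoin_gen_eq_top _)
  obtain ⟨h1, h2, -⟩ := Host.hesse_keyEnd_host (jqNModC ↥K₁ 3) (hesT ↥K₁)
    (transcendental_hesT ↥K₁) hj' hϖ h3res h𝒢t
  exact ⟨𝒢t, h𝒢t, isGaussAt_inv ϖ hϖ.prime _ 𝒢t h𝒢t, h1, h2,
    Host.hesse_unr_gauss_host (jqNModC ↥K₁ 3) (hesT ↥K₁) (transcendental_hesT ↥K₁) hj' hϖ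
      h3res h𝒢t⟩


set_option maxHeartbeats 3200000 in
include hA in
/-- **the DOWN layer at a base** (generic host coordinate `t`, GEO coordinate `τ`): `κ(W) / F̃` is
finite separable of degree `[E : F_{K₁}]` (for the algebra structures `baseAlgFE`, `downAlg`). -/
theorem base_down_baseRing (hℓN : ¬ ℓ ∣ N) (hK₁ : IsBase ℓ K₁)
    [IsDiscreteValuationRing ↥(baseRing A K₁)] (w : ℕ) [NeZero w]
    {ϖ : ↥(baseRing A K₁)} (hϖ : Irreducible ϖ) (t : LaurentSeries ↥K₁)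
    [Fact ((↥K₁)⟮jqNModC ↥K₁ w⟯ ≤ keyFw ↥K₁ N w)] [Fact ((↥K₁)⟮jqNModC ↥K₁ w⟯ ≤ (↥K₁)⟮t⟯)]
    {S : Finset ↥(baseRing A K₁)} {τ : ↥(↥K₁)⟮t⟯}
    (hgeo : GeoHyps ↥K₁ (K := ↥(↥K₁)⟮t⟯) ϖ τ ↥(Host.Etu (keyFw ↥K₁ N w) t 1) N S)
    (𝒢t : ValuationSubring ↥(↥K₁)⟮t⟯)
    (h𝒢t : IsGaussAt ↥(baseRing A K₁) ϖ τ 𝒢t)
    (h𝒢j : IsGaussAt ↥(baseRing A K₁) ϖ (AdjoinSimple.gen ↥K₁ (jqNModC ↥K₁ w))
      (𝒢t.comap (algebraMap ↥(↥K₁)⟮jqNModC ↥K₁ w⟯ ↥(↥K₁)⟮t⟯)))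
    (hintj : ∀ x ∈ 𝒢t,
      IsIntegral ↥(𝒢t.comap (algebraMap ↥(↥K₁)⟮jqNModC ↥K₁ w⟯ ↥(↥K₁)⟮t⟯)) x)
    (htint : IsIntegral ↥(↥K₁)⟮jqNModC ↥K₁ w⟯ t)
    (hU₀ : Unr (𝒢t.comap (algebraMap ↥(↥K₁)⟮jqNModC ↥K₁ w⟯ ↥(↥K₁)⟮t⟯)) ↥(↥K₁)⟮t⟯) :
    haveI : CharZero ↥(baseRing A K₁) := charZero_valuationSubring_of_algebraRat _
    haveI : Module.Finite ↥(↥K₁)⟮jqNModC ↥K₁ w⟯ ↥(keyFw ↥K₁ N w) := finite_keyFw_base hA N w
    letI := baseAlgFE (K₁ := ↥K₁) N w t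
    haveI := hgeo.isLocalRing 𝒢t h𝒢t
    letI := downAlg 𝒢t (baseV (baseRing A K₁) N (hFq_baseRing N))
      (mem_baseV_iff_isIntegral (baseRing A K₁) N w (hFq_baseRing N) t hϖ 𝒢t h𝒢j
        (hmemW_baseRing hA N hℓN hK₁) hgeo h𝒢t)
      (baseResV (baseRing A K₁) N (hFq_baseRing N) (baseResidueMap A K₁)
        (hRES_baseRing hA N hℓN hK₁))
      (baseResV_surjective (baseRing A K₁) N (hFq_baseRing N) (baseResidueMap A K₁)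
        (hRES_baseRing hA N hℓN hK₁) (hLIFT_baseRing hA N hℓN hK₁))
    Algebra.IsSeparable ↥(modularFunctionFieldFullC (IsLocalRing.ResidueField ↥A) N)
        (IsLocalRing.ResidueField ↥(integralClosure ↥𝒢t ↥(Host.Etu (keyFw ↥K₁ N w) t 1))) ∧
      Module.Finite ↥(modularFunctionFieldFullC (IsLocalRing.ResidueField ↥A) N)
        (IsLocalRing.ResidueField ↥(integralClosure ↥𝒢t ↥(Host.Etu (keyFw ↥K₁ N w) t 1))) ∧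
      Module.finrank ↥(modularFunctionFieldFullC (IsLocalRing.ResidueField ↥A) N)
        (IsLocalRing.ResidueField ↥(integralClosure ↥𝒢t ↥(Host.Etu (keyFw ↥K₁ N w) t 1))) =
        Module.finrank ↥(keyFq ↥K₁ N) ↥(Host.Etu (keyFw ↥K₁ N w) t 1) := by
  haveI : CharZero ↥(baseRing A K₁) := charZero_valuationSubring_of_algebraRat _
  haveI : Module.Finite ↥(↥K₁)⟮jqNModC ↥K₁ w⟯ ↥(keyFw ↥K₁ N w) := finite_keyFw_base hA N w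
  have hsep := base_down_isSeparable (baseRing A K₁) N w (hFq_baseRing N) t hϖ 𝒢t h𝒢j
    hintj (hmemW_baseRing hA N hℓN hK₁) (baseResidueMap A K₁) (hRES_baseRing hA N hℓN hK₁)
    (hLIFT_baseRing hA N hℓN hK₁) hgeo h𝒢t htint hU₀
  have hfr := base_down_finrank (baseRing A K₁) N w (hFq_baseRing N) t hϖ 𝒢t h𝒢j
    hintj (hmemW_baseRing hA N hℓN hK₁) (baseResidueMap A K₁)
    (hK₁.baseResidueMap_bijective hA).2 (hRES_baseRing hA N hℓN hK₁)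
    (hLIFT_baseRing hA N hℓN hK₁) hgeo h𝒢t htint
  exact ⟨hsep.1, hsep.2, hfr⟩

end BaseInst

end Fermat.Agent.JA
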