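/-
J-A third wave, package REDO (helper1) — the order formulas (ii-base) / (ii-Ω) with the WEAK
rationality hypothesis: only the zeros and poles of `y = a / b` (not all the zeros of `a` and of
`b`) centred at the point have to be rational.  At a good point the local ring is a UFD, so `a / b`
can be written in lowest terms `a' / b'`, and coprime elements have no common zero through the
point.
-/
import Fermat.Agent.JA.REDO_helper1_SumBC

set_option autoImplicit false
set_option linter.unusedSectionVars false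
set_option linter.style.haveILetI false

open AlgebraicCurve IsLocalRing IsDedekindDomain

namespace Fermat.Agent.JA

open Fermat.Agent.FF

section LocalReduced

variable {R₁ : Type*} [CommRing R₁] [IsDomain R₁] [IsDiscreteValuationRing R₁]
  {K₁ : Type*} [Field K₁] [Algebra R₁ K₁] [IsFractionRing R₁ K₁]
  {E : Type*} [Field E] [Algebra K₁ E] [Algebra R₁ E] [IsScalarTower R₁ K₁ E]
  {O : Type*} [CommRing O] [IsDomain O] [IsLocalRing O] [IsNoetherianRing O]
  [Algebra R₁ O] [Algebra O E] [IsScalarTower R₁ O E] [IsFractionRing O E]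
  {k Et : Type*} [Field k] [Field Et] [Algebra k Et]
  {π : R₁} [IsDomain (O ⧸ Ideal.span {algebraMap R₁ O π})]
  [IsDiscreteValuationRing (O ⧸ Ideal.span {algebraMap R₁ O π})]

/-- relatively prime elements of a good local ring have no common zero among the places through
it. -/
theorem redo_not_pos_of_isRelPrime (hπ : Irreducible π) {a b : O} (hrel : IsRelPrime a b)
    (P : Place K₁ E) (hO : Through O P) (ha : 0 < P.ord (algebraMap O E a))
    (hb : 0 < P.ord (algebraMap O E b)) : False := by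
  have hπ𝔭 : algebraMap R₁ O π ∉ centreIdeal P hO :=
    algebraMap_not_mem_centreIdeal P hO hπ.ne_zero
  obtain ⟨f, hf⟩ := exists_eq_span_singleton_of_not_mem (centreIdeal P hO) hπ𝔭
  have ha' : a ∈ centreIdeal P hO := (mem_centreIdeal_iff P hO a).mpr (Or.inr ha)
  have hb' : b ∈ centreIdeal P hO := (mem_centreIdeal_iff P hO b).mpr (Or.inr hb)
  rw [hf, Ideal.mem_span_singleton] at ha' hb'
  have hu : IsUnit f := hrel ha' hb'
  have htop : centreIdeal P hO = ⊤ := by
    rw [hf]; exact Ideal.span_singleton_eq_top.mpr hu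
  exact (centreIdeal_isPrime P hO).ne_top htop

/-- **local form of `r_*(div y) = div ỹ`** at a good point `O` for `y = a / b`: only the zeros and
poles of `y` through `O` have to be rational. -/
theorem zeroSum_div_of_rational (hπ : Irreducible π) (hπO : Prime (algebraMap R₁ O π))
    {Q : Place k Et} {ρO : O →+* Et} (hred : IsReductionAt (algebraMap R₁ O π) Q ρO)
    (a b : O) (ha : ρO a ≠ 0) (hb : ρO b ≠ 0)
    (hrat : ∀ P : Place K₁ E, Through O P →
      P.ord (algebraMap O E a / algebraMap O E b) ≠ 0 → IsRationalPlace P) :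
    ∃ S : Finset (Place K₁ E), (∀ P ∈ S, Through O P) ∧
      (∀ P : Place K₁ E, Through O P →
        P.ord (algebraMap O E a / algebraMap O E b) ≠ 0 → P ∈ S) ∧
      ∑ P ∈ S, P.ord (algebraMap O E a / algebraMap O E b) = Q.ord (ρO a / ρO b) := by
  classical
  have hinj : Function.Injective (algebraMap O E) := IsFractionRing.injective O E
  haveI ufd : UniqueFactorizationMonoid O :=
    uniqueFactorizationMonoid_of_isDiscreteValuationRing_quotient hπO
  have ha0 : a ≠ 0 := by rintro rfl; exact ha (map_zero ρO)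
  have hb0 : b ≠ 0 := by rintro rfl; exact hb (map_zero ρO)
  obtain ⟨a', b', g, hrel, hga, hgb⟩ := UniqueFactorizationMonoid.exists_reduced_factors a ha0 b
  have hg0 : g ≠ 0 := by rintro rfl; exact ha0 (by rw [← hga, zero_mul])
  have ha'0 : a' ≠ 0 := by rintro rfl; exact ha0 (by rw [← hga, mul_zero])
  have hb'0 : b' ≠ 0 := by rintro rfl; exact hb0 (by rw [← hgb, mul_zero])
  have hρg : ρO g ≠ 0 := by
    intro h; exact ha (by rw [← hga, map_mul, h, zero_mul])
  have hρa' : ρO a' ≠ 0 := by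
    intro h; exact ha (by rw [← hga, map_mul, h, mul_zero])
  have hρb' : ρO b' ≠ 0 := by
    intro h; exact hb (by rw [← hgb, map_mul, h, mul_zero])
  have hπa' : ¬ algebraMap R₁ O π ∣ a' := by
    rintro ⟨c, rfl⟩
    exact hρa' (by rw [map_mul, hred.map_pi, zero_mul])
  have hπb' : ¬ algebraMap R₁ O π ∣ b' := by
    rintro ⟨c, rfl⟩
    exact hρb' (by rw [map_mul, hred.map_pi, zero_mul])
  have hA' : algebraMap O E a' ≠ 0 := (map_ne_zero_iff _ hinj).mpr ha'0
  have hB' : algebraMap O E b' ≠ 0 := (map_ne_zero_iff _ hinj).mpr hb'0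
  have hG : algebraMap O E g ≠ 0 := (map_ne_zero_iff _ hinj).mpr hg0
  have hquot : algebraMap O E a / algebraMap O E b = algebraMap O E a' / algebraMap O E b' := by
    rw [← hga, ← hgb, map_mul, map_mul, mul_div_mul_left _ _ hG]
  have hquotρ : ρO a / ρO b = ρO a' / ρO b' := by
    rw [← hga, ← hgb, map_mul, map_mul, mul_div_mul_left _ _ hρg]
  have hord : ∀ P : Place K₁ E, P.ord (algebraMap O E a / algebraMap O E b) =
      P.ord (algebraMap O E a') - P.ord (algebraMap O E b') := fun P => by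
    rw [hquot]; exact PlaceAux.ord_div P hA' hB'
  have hrata : ∀ P : Place K₁ E, Through O P → 0 < P.ord (algebraMap O E a') →
      IsRationalPlace P := by
    intro P hO hpos
    apply hrat P hO
    rw [hord]
    have h2 := PlaceAux.ord_nonneg_of_mem P (hO b')
    have h3 : ¬ 0 < P.ord (algebraMap O E b') :=
      fun hb => redo_not_pos_of_isRelPrime hπ hrel P hO hpos hb
    omega
  have hratb : ∀ P : Place K₁ E, Through O P → 0 < P.ord (algebraMap O E b') →
      IsRationalPlace P := by
    intro P hO hpos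
    apply hrat P hO
    rw [hord]
    have h2 := PlaceAux.ord_nonneg_of_mem P (hO a')
    have h3 : ¬ 0 < P.ord (algebraMap O E a') :=
      fun ha => redo_not_pos_of_isRelPrime hπ hrel P hO ha hpos
    omega
  obtain ⟨-, Sa, hSa1, hSa2, hSa3⟩ := zeroSum_of_rational (K₁ := K₁) (E := E) hπ hπO hred a' hπa'
    hrata
  obtain ⟨-, Sb, hSb1, hSb2, hSb3⟩ := zeroSum_of_rational (K₁ := K₁) (E := E) hπ hπO hred b' hπb'
    hratb
  have hthr : ∀ P ∈ Sa ∪ Sb, Through O P := by
    intro P hP
    rcases Finset.mem_union.mp hP with h | h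
    · exact (hSa1 P h).1
    · exact (hSb1 P h).1
  refine ⟨Sa ∪ Sb, hthr, fun P hP hne => ?_, ?_⟩
  · rw [hord] at hne
    have h1 := PlaceAux.ord_nonneg_of_mem P (hP a')
    have h2 := PlaceAux.ord_nonneg_of_mem P (hP b')
    by_cases hpa : 0 < P.ord (algebraMap O E a')
    · exact Finset.mem_union_left _ (hSa2 P hP hpa)
    · have hpb : 0 < P.ord (algebraMap O E b') := by omega
      exact Finset.mem_union_right _ (hSb2 P hP hpb)
  · have h1 : ∑ P ∈ Sa ∪ Sb, P.ord (algebraMap O E a') = ∑ P ∈ Sa, P.ord (algebraMap O E a') := by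
      symm
      apply Finset.sum_subset Finset.subset_union_left
      intro P hP hnot
      have h2 := PlaceAux.ord_nonneg_of_mem P ((hthr P hP) a')
      have h3 : ¬ 0 < P.ord (algebraMap O E a') := fun hpos => hnot (hSa2 P (hthr P hP) hpos)
      omega
    have h2 : ∑ P ∈ Sa ∪ Sb, P.ord (algebraMap O E b') = ∑ P ∈ Sb, P.ord (algebraMap O E b') := by
      symm
      apply Finset.sum_subset Finset.subset_union_right
      intro P hP hnot
      have h2 := PlaceAux.ord_nonneg_of_mem P ((hthr P hP) b')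
      have h3 : ¬ 0 < P.ord (algebraMap O E b') := fun hpos => hnot (hSb2 P (hthr P hP) hpos)
      omega
    simp_rw [hord]
    rw [Finset.sum_sub_distrib, h1, h2, hSa3, hSb3, hquotρ, PlaceAux.ord_div _ hρa' hρb']

end LocalReduced

end Fermat.Agent.JA

namespace Fermat.Agent.JA

open Fermat.Agent.FF

section ChartReduced

attribute [local instance] locAlgebra

variable {R₁ : Type*} [CommRing R₁] [IsDomain R₁] [IsDiscreteValuationRing R₁]
  {K₁ : Type*} [Field K₁] [Algebra R₁ K₁] [IsFractionRing R₁ K₁]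
  {E : Type*} [Field E] [Algebra K₁ E] [Algebra R₁ E] [IsScalarTower R₁ K₁ E]
  {B : Type*} [CommRing B] [IsDomain B] [IsNoetherianRing B] [Algebra R₁ B] [Algebra B E]
  [IsScalarTower R₁ B E] [IsFractionRing B E]
  {k Et : Type*} [Field k] [Field Et] [Algebra k Et]
  {Bb : Type*} [CommRing Bb] [IsDedekindDomain Bb] [Algebra k Bb] [Algebra Bb Et]
  [IsFractionRing Bb Et] [IsScalarTower k Bb Et]

/-- **(ii-base), weak rationality hypothesis**: for `a, b ∈ B` with nonzero reductions such that
the zeros and poles of `y = a / b` centred at `𝔫 = ρ⁻¹(w)` are rational. -/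
theorem chart_sum_ord_div_reduced (ρ : B →+* Bb) (hρ : Function.Surjective ρ) {π : R₁}
    (hπ : Irreducible π) (hker : RingHom.ker ρ = Ideal.span {algebraMap R₁ B π})
    (hπB : Prime (algebraMap R₁ B π)) (w : HeightOneSpectrum Bb) (a b : B) (ha : ρ a ≠ 0)
    (hb : ρ b ≠ 0)
    (hrat : ∀ P : Place K₁ E, CentredAt (w.asIdeal.comap ρ) P →
      P.ord (algebraMap B E a / algebraMap B E b) ≠ 0 → IsRationalPlace P) :
    ∃ S : Finset (Place K₁ E),
      (∀ P ∈ S, CentredAt (w.asIdeal.comap ρ) P) ∧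
      (∀ P : Place K₁ E, CentredAt (w.asIdeal.comap ρ) P →
        P.ord (algebraMap B E a / algebraMap B E b) ≠ 0 → P ∈ S) ∧
      ∑ P ∈ S, P.ord (algebraMap B E a / algebraMap B E b) =
        (placeOf (k := k) (F := Et) w).ord
          (algebraMap Bb Et (ρ a) / algebraMap Bb Et (ρ b)) := by
  set 𝔫 : Ideal B := w.asIdeal.comap ρ with h𝔫
  haveI h𝔫max : 𝔫.IsMaximal := Ideal.comap_isMaximal_of_surjective ρ hρ (K := w.asIdeal)
    (H := w.isMaximal)
  have hinjb : Function.Injective (algebraMap Bb Et) := IsFractionRing.injective Bb Et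
  have hπker : ρ (algebraMap R₁ B π) = 0 := by
    rw [← RingHom.mem_ker, hker]; exact Ideal.subset_span rfl
  have hπ𝔫 : algebraMap R₁ B π ∈ 𝔫 := by
    show ρ _ ∈ w.asIdeal
    rw [hπker]; exact w.asIdeal.zero_mem
  have hne : 𝔫 ≠ Ideal.span {algebraMap R₁ B π} := by
    intro heq
    obtain ⟨xb, hxb, hxb0⟩ := Submodule.exists_mem_ne_zero_of_ne_bot w.ne_bot
    obtain ⟨x, rfl⟩ := hρ xb
    have hx : x ∈ 𝔫 := hxb
    rw [heq, ← hker, RingHom.mem_ker] at hx
    exact hxb0 hx
  haveI : IsDedekindDomain (B ⧸ Ideal.span {algebraMap R₁ B π}) :=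
    isDedekindDomain_of_ringEquiv_reda
      ((Ideal.quotEquivOfEq hker.symm).trans (RingHom.quotientKerEquivOfSurjective hρ))
  have heq : algebraMap R₁ (Localization.AtPrime 𝔫) π =
      algebraMap B (Localization.AtPrime 𝔫) (algebraMap R₁ B π) :=
    IsScalarTower.algebraMap_apply R₁ B (Localization.AtPrime 𝔫) π
  have H := exists_isDiscreteValuationRing_quotient_localization (algebraMap R₁ B π) hπB 𝔫 hπ𝔫 hne
  rw [← heq] at H
  obtain ⟨hdom, hdvr⟩ := H
  haveI := locAlgebra_isScalarTower_base (R₁ := R₁) (E := E) 𝔫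
  haveI := locAlgebra_isFractionRing (E := E) 𝔫
  have hπO : Prime (algebraMap R₁ (Localization.AtPrime 𝔫) π) := by
    rw [heq]; exact prime_algebraMap_localization_atPrime (algebraMap R₁ B π) hπB 𝔫 hπ𝔫
  have hred : IsReductionAt (algebraMap R₁ (Localization.AtPrime 𝔫) π)
      (placeOf (k := k) (F := Et) w) (locReduction (Et := Et) ρ w) := by
    rw [heq]; exact isReductionAt_locReduction ρ hρ hπker w
  have hred_a : locReduction (Et := Et) ρ w (algebraMap B (Localization.AtPrime 𝔫) a) =
      algebraMap Bb Et (ρ a) := locReduction_algebraMap ρ w a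
  have hred_b : locReduction (Et := Et) ρ w (algebraMap B (Localization.AtPrime 𝔫) b) =
      algebraMap Bb Et (ρ b) := locReduction_algebraMap ρ w b
  have haO : locReduction (Et := Et) ρ w (algebraMap B (Localization.AtPrime 𝔫) a) ≠ 0 := by
    rw [hred_a]; exact (map_ne_zero_iff _ hinjb).mpr ha
  have hbO : locReduction (Et := Et) ρ w (algebraMap B (Localization.AtPrime 𝔫) b) ≠ 0 := by
    rw [hred_b]; exact (map_ne_zero_iff _ hinjb).mpr hb
  have hratO : ∀ P : Place K₁ E, Through (Localization.AtPrime 𝔫) P →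
      P.ord (algebraMap (Localization.AtPrime 𝔫) E (algebraMap B (Localization.AtPrime 𝔫) a) /
        algebraMap (Localization.AtPrime 𝔫) E (algebraMap B (Localization.AtPrime 𝔫) b)) ≠ 0 →
      IsRationalPlace P := by
    intro P hP hne
    rw [locAlgebra_algebraMap_apply, locAlgebra_algebraMap_apply] at hne
    exact hrat P ((through_localization_iff 𝔫 P).mp hP) hne
  obtain ⟨S, hS1, hS2, hS3⟩ := zeroSum_div_of_rational (K₁ := K₁) (E := E) hπ hπO hred
    (algebraMap B (Localization.AtPrime 𝔫) a) (algebraMap B (Localization.AtPrime 𝔫) b) haO hbO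
    hratO
  simp only [locAlgebra_algebraMap_apply] at hS2 hS3
  rw [hred_a, hred_b] at hS3
  exact ⟨S, fun P hP => (through_localization_iff 𝔫 P).mp (hS1 P hP),
    fun P hP hne => hS2 P ((through_localization_iff 𝔫 P).mpr hP) hne, hS3⟩

variable {Ω EΩ : Type*} [Field Ω] [Algebra K₁ Ω] [Algebra.IsAlgebraic K₁ Ω]
  [Field EΩ] [Algebra Ω EΩ] [CharZero EΩ]

/-- **(ii-Ω), weak rationality hypothesis**: only the places of `E_Ω/Ω` centred at `𝔫 = ρ⁻¹(w)` at
which `φ(a/b)` has nonzero order have to restrict to rational places of `E/K₁`. -/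
theorem chart_sum_ord_div_bc_reduced (ρ : B →+* Bb) (hρ : Function.Surjective ρ) {π : R₁}
    (hπ : Irreducible π) (hker : RingHom.ker ρ = Ideal.span {algebraMap R₁ B π})
    (hπB : Prime (algebraMap R₁ B π)) (w : HeightOneSpectrum Bb) (a b : B) (ha : ρ a ≠ 0)
    (hb : ρ b ≠ 0)
    (φ : E →+* EΩ)
    (hφ : ∀ c : K₁, φ (algebraMap K₁ E c) = algebraMap Ω EΩ (algebraMap K₁ Ω c))
    (hgen : Subfield.closure (Set.range φ ∪ Set.range (algebraMap Ω EΩ)) = ⊤)
    (hrat : ∀ P : Place Ω EΩ, CentredAtBC φ (w.asIdeal.comap ρ) P →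
      P.ord (φ (algebraMap B E a / algebraMap B E b)) ≠ 0 →
      IsRationalPlace (restrictBC φ hφ hgen P))
    (T : Finset (Place Ω EΩ))
    (hT : ∀ P : Place Ω EΩ, P ∈ T ↔ CentredAtBC φ (w.asIdeal.comap ρ) P ∧
      P.ord (φ (algebraMap B E a / algebraMap B E b)) ≠ 0) :
    ∑ P ∈ T, P.ord (φ (algebraMap B E a / algebraMap B E b)) =
      (placeOf (k := k) (F := Et) w).ord (algebraMap Bb Et (ρ a) / algebraMap Bb Et (ρ b)) := by
  classical
  have hrat₁ : ∀ P : Place K₁ E, CentredAt (w.asIdeal.comap ρ) P →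
      P.ord (algebraMap B E a / algebraMap B E b) ≠ 0 → IsRationalPlace P := by
    intro P₁ hc hne
    obtain ⟨P, rfl⟩ := exists_restrictBC_eq φ hφ hgen P₁
    rw [centredAt_restrictBC_iff] at hc
    rw [ord_restrictBC] at hne
    exact hrat P hc hne
  obtain ⟨S, hS1, hS2, hS3⟩ := chart_sum_ord_div_reduced (k := k) (Et := Et) ρ hρ hπ hker hπB w
    a b ha hb hrat₁
  rw [← hS3]
  set T₁ : Finset (Place K₁ E) :=
    S.filter (fun P => P.ord (algebraMap B E a / algebraMap B E b) ≠ 0) with hT₁
  have hT₁mem : ∀ P : Place K₁ E, P ∈ T₁ ↔ CentredAt (w.asIdeal.comap ρ) P ∧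
      P.ord (algebraMap B E a / algebraMap B E b) ≠ 0 := by
    intro P
    rw [hT₁, Finset.mem_filter]
    exact ⟨fun h => ⟨hS1 P h.1, h.2⟩, fun h => ⟨hS2 P h.1 h.2, h.2⟩⟩
  have hsumT₁ : ∑ P ∈ T₁, P.ord (algebraMap B E a / algebraMap B E b) =
      ∑ P ∈ S, P.ord (algebraMap B E a / algebraMap B E b) := by
    rw [hT₁, Finset.sum_filter]
    refine Finset.sum_congr rfl fun P _ => ?_
    by_cases h0 : P.ord (algebraMap B E a / algebraMap B E b) = 0
    · rw [if_neg (not_not.mpr h0), h0]
    · rw [if_pos h0]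
  rw [← hsumT₁]
  refine Finset.sum_bij (fun P _ => restrictBC φ hφ hgen P) ?_ ?_ ?_ ?_
  · intro P hP
    obtain ⟨hc, hne⟩ := (hT P).mp hP
    rw [hT₁mem, centredAt_restrictBC_iff, ord_restrictBC]
    exact ⟨hc, hne⟩
  · intro P hP P' hP' heq
    obtain ⟨hc, hne⟩ := (hT P).mp hP
    exact restrictBC_injOn_rational φ hφ hgen P P' (hrat P hc hne) heq
  · intro P₁ hP₁
    obtain ⟨P, rfl⟩ := exists_restrictBC_eq φ hφ hgen P₁
    refine ⟨P, ?_, rfl⟩
    rw [hT₁mem, centredAt_restrictBC_iff, ord_restrictBC] at hP₁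
    exact (hT P).mpr hP₁
  · intro P _
    rw [ord_restrictBC]

end ChartReduced

end Fermat.Agent.JA
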