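/-
J-A third wave, package REDO (helper1) — the CENTRE of a place of `E_Ω/Ω` in a chart `(B, ρ)` of
the arithmetic surface at a base `K₁` (abstract chart of REDA + abstract BC setting): definition,
uniqueness and existence for places whose restriction to `E/K₁` is rational, integral values, and
the evaluation property (EVAL) at the centre.
-/
import Fermat.Agent.JA.REDO_helper1_Reduced
import Fermat.Agent.JA.REDA_helper1_Eval

set_option autoImplicit false
set_option linter.unusedSectionVars false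
set_option linter.style.haveILetI false

open AlgebraicCurve IsLocalRing IsDedekindDomain

namespace Fermat.Agent.JA

open Fermat.Agent.FF

section SingleChart

variable {R₁ : Type*} [CommRing R₁] [IsDomain R₁] [IsDiscreteValuationRing R₁]
  {K₁ : Type*} [Field K₁] [Algebra R₁ K₁] [IsFractionRing R₁ K₁]
  {E : Type*} [Field E] [Algebra K₁ E] [Algebra R₁ E] [IsScalarTower R₁ K₁ E]
  {B : Type*} [CommRing B] [IsDomain B] [IsNoetherianRing B] [Algebra R₁ B] [Algebra B E]
  [IsScalarTower R₁ B E] [IsFractionRing B E]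
  {k Et : Type*} [Field k] [Field Et] [Algebra k Et]
  {Bb : Type*} [CommRing Bb] [IsDedekindDomain Bb] [Algebra k Bb] [Algebra Bb Et]
  [IsFractionRing Bb Et] [IsScalarTower k Bb Et]
  {Ω EΩ : Type*} [Field Ω] [Algebra K₁ Ω] [Algebra.IsAlgebraic K₁ Ω]
  [Field EΩ] [Algebra Ω EΩ] [CharZero EΩ]

/-- `Q` is the centre of the place `P` of `E_Ω/Ω` in the chart `(B, ρ)`. -/
def IsChartCentre (φ : E →+* EΩ) (ρ : B →+* Bb) (P : Place Ω EΩ) (Q : Place k Et) : Prop :=
  ∃ w : HeightOneSpectrum Bb, Q = placeOf (k := k) (F := Et) w ∧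
    CentredAtBC φ (w.asIdeal.comap ρ) P

omit [IsDomain R₁] [IsDiscreteValuationRing R₁] [IsFractionRing R₁ K₁] [IsDomain B]
  [IsNoetherianRing B] [IsFractionRing B E] in
theorem hasIntegralValues_iff_hasValueAt (P₁ : Place K₁ E) :
    HasIntegralValues (R₁ := R₁) B P₁ ↔
      ∀ x : B, ∃ r : R₁, HasValueAt P₁ (algebraMap B E x) (algebraMap R₁ K₁ r) := by
  unfold HasIntegralValues
  refine forall_congr' fun x => exists_congr fun r => ?_
  rw [IsScalarTower.algebraMap_apply R₁ K₁ E, isZeroAt_sub_iff_hasValueAt]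

omit [IsDedekindDomain Bb] [IsFractionRing Bb Et] [IsScalarTower k Bb Et] [Algebra k Bb]
  [IsNoetherianRing B] in
theorem pi_mem_comap_of_ker (ρ : B →+* Bb) {π : R₁}
    (hker : RingHom.ker ρ = Ideal.span {algebraMap R₁ B π}) (I : Ideal Bb) :
    algebraMap R₁ B π ∈ I.comap ρ := by
  have hπker : ρ (algebraMap R₁ B π) = 0 := by
    rw [← RingHom.mem_ker, hker]; exact Ideal.subset_span rfl
  show ρ _ ∈ I
  rw [hπker]; exact I.zero_mem

/-- a place with rational restriction and a centre in the chart has integral values on the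
chart. -/
theorem IsChartCentre.hasIntegralValues {φ : E →+* EΩ}
    (hφ : ∀ c : K₁, φ (algebraMap K₁ E c) = algebraMap Ω EΩ (algebraMap K₁ Ω c))
    (hgen : Subfield.closure (Set.range φ ∪ Set.range (algebraMap Ω EΩ)) = ⊤)
    {ρ : B →+* Bb} {π : R₁} (hπ : Irreducible π)
    (hker : RingHom.ker ρ = Ideal.span {algebraMap R₁ B π})
    {P : Place Ω EΩ} {Q : Place k Et} (hc : IsChartCentre φ ρ P Q)
    (hrat : IsRationalPlace (restrictBC φ hφ hgen P)) :
    (∀ x : B, algebraMap B E x ∈ (restrictBC φ hφ hgen P).toValuationSubring) ∧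
      HasIntegralValues (R₁ := R₁) B (restrictBC φ hφ hgen P) := by
  obtain ⟨w, -, hcw⟩ := hc
  have hc₁ : CentredAt (w.asIdeal.comap ρ) (restrictBC φ hφ hgen P) :=
    (centredAt_restrictBC_iff φ hφ hgen _ P).mpr hcw
  haveI : (w.asIdeal.comap ρ).IsPrime := Ideal.comap_isPrime ρ w.asIdeal
  exact ⟨hc₁.1, hasIntegralValues_of_centredAt hπ _ (w.asIdeal.comap ρ)
    (pi_mem_comap_of_ker ρ hker _) hc₁ hrat⟩

/-- the centre in a chart of a place with rational restriction is unique. -/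
theorem IsChartCentre.unique {φ : E →+* EΩ}
    (hφ : ∀ c : K₁, φ (algebraMap K₁ E c) = algebraMap Ω EΩ (algebraMap K₁ Ω c))
    (hgen : Subfield.closure (Set.range φ ∪ Set.range (algebraMap Ω EΩ)) = ⊤)
    {ρ : B →+* Bb} (hρ : Function.Surjective ρ) {π : R₁} (hπ : Irreducible π)
    (hker : RingHom.ker ρ = Ideal.span {algebraMap R₁ B π})
    {P : Place Ω EΩ} {Q Q' : Place k Et} (hc : IsChartCentre φ ρ P Q)
    (hc' : IsChartCentre φ ρ P Q')
    (hrat : IsRationalPlace (restrictBC φ hφ hgen P)) : Q = Q' := by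
  obtain ⟨hB, hval⟩ := hc.hasIntegralValues hφ hgen hπ hker hrat
  obtain ⟨w, rfl, hcw⟩ := hc
  obtain ⟨w', rfl, hcw'⟩ := hc'
  have hc₁ : CentredAt (w.asIdeal.comap ρ) (restrictBC φ hφ hgen P) :=
    (centredAt_restrictBC_iff φ hφ hgen _ P).mpr hcw
  have hc₁' : CentredAt (w'.asIdeal.comap ρ) (restrictBC φ hφ hgen P) :=
    (centredAt_restrictBC_iff φ hφ hgen _ P).mpr hcw'
  have hmax : (w.asIdeal.comap ρ).IsMaximal :=
    Ideal.comap_isMaximal_of_surjective ρ hρ (K := w.asIdeal) (H := w.isMaximal)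
  have hmax' : (w'.asIdeal.comap ρ).IsMaximal :=
    Ideal.comap_isMaximal_of_surjective ρ hρ (K := w'.asIdeal) (H := w'.isMaximal)
  have h1 := eq_chartCentre_of_centredAt hπ _ hB hval (w.asIdeal.comap ρ) hmax.ne_top
    (pi_mem_comap_of_ker ρ hker _) hc₁
  have h2 := eq_chartCentre_of_centredAt hπ _ hB hval (w'.asIdeal.comap ρ) hmax'.ne_top
    (pi_mem_comap_of_ker ρ hker _) hc₁'
  have h3 : w.asIdeal.comap ρ = w'.asIdeal.comap ρ := h1.trans h2.symm
  have h4 : w.asIdeal = w'.asIdeal := Ideal.comap_injective_of_surjective ρ hρ h3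
  congr 1
  exact HeightOneSpectrum.ext h4

/-- existence of the centre in a chart on which the place has integral values. -/
theorem exists_isChartCentre {φ : E →+* EΩ}
    (hφ : ∀ c : K₁, φ (algebraMap K₁ E c) = algebraMap Ω EΩ (algebraMap K₁ Ω c))
    (hgen : Subfield.closure (Set.range φ ∪ Set.range (algebraMap Ω EΩ)) = ⊤)
    {ρ : B →+* Bb} (hρ : Function.Surjective ρ) {π : R₁} (hπ : Irreducible π)
    (hker : RingHom.ker ρ = Ideal.span {algebraMap R₁ B π}) (hnf : ¬ IsField Bb)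
    (P : Place Ω EΩ)
    (hB : ∀ x : B, algebraMap B E x ∈ (restrictBC φ hφ hgen P).toValuationSubring)
    (hval : HasIntegralValues (R₁ := R₁) B (restrictBC φ hφ hgen P)) :
    ∃ Q : Place k Et, IsChartCentre φ ρ P Q := by
  set P₁ := restrictBC φ hφ hgen P with hP₁
  set 𝔫 : Ideal B := chartCentre π P₁ hB with h𝔫
  haveI hmax : 𝔫.IsMaximal := chartCentre_isMaximal hπ P₁ hB hval
  have hπ𝔫 : algebraMap R₁ B π ∈ 𝔫 := algebraMap_mem_chartCentre π P₁ hB
  have hle : RingHom.ker ρ ≤ 𝔫 := by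
    rw [hker, Ideal.span_singleton_le_iff_mem]; exact hπ𝔫
  have hne : 𝔫 ≠ RingHom.ker ρ := by
    intro heq
    apply hnf
    have hkmax : (RingHom.ker ρ).IsMaximal := heq ▸ hmax
    have hfield : IsField (B ⧸ RingHom.ker ρ) :=
      (Ideal.Quotient.maximal_ideal_iff_isField_quotient _).mp hkmax
    exact (RingHom.quotientKerEquivOfSurjective hρ).symm.toMulEquiv.isField hfield
  obtain ⟨w, hw⟩ := exists_heightOneSpectrum_comap_eq ρ hρ 𝔫 hle hne
  refine ⟨placeOf (k := k) (F := Et) w, w, rfl, ?_⟩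
  rw [← centredAt_restrictBC_iff φ hφ hgen, hw]
  exact centredAt_chartCentre π P₁ hB

omit [IsNoetherianRing B] in
/-- **(EVAL)** at the centre: if `x ∈ B` has the value `r ∈ R₁` at (the restriction of) `P`, its
reduction has the value `res r` at the centre of `P`. -/
theorem IsChartCentre.hasValueAt {φ : E →+* EΩ}
    (hφ : ∀ c : K₁, φ (algebraMap K₁ E c) = algebraMap Ω EΩ (algebraMap K₁ Ω c))
    (hgen : Subfield.closure (Set.range φ ∪ Set.range (algebraMap Ω EΩ)) = ⊤)
    {ρ : B →+* Bb} (res : R₁ →+* k)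
    (hρk : ∀ r : R₁, ρ (algebraMap R₁ B r) = algebraMap k Bb (res r))
    {P : Place Ω EΩ} {Q : Place k Et} (hc : IsChartCentre φ ρ P Q) (x : B) (r : R₁)
    (hx : HasValueAt (restrictBC φ hφ hgen P) (algebraMap B E x) (algebraMap R₁ K₁ r)) :
    HasValueAt Q (algebraMap Bb Et (ρ x)) (res r) := by
  obtain ⟨w, rfl, hcw⟩ := hc
  have hc₁ : CentredAt (w.asIdeal.comap ρ) (restrictBC φ hφ hgen P) :=
    (centredAt_restrictBC_iff φ hφ hgen _ P).mpr hcw
  exact hasValueAt_placeOf_of_centredAt ρ res hρk w _ hc₁ x r hx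

omit [IsDomain R₁] [IsDiscreteValuationRing R₁] [IsFractionRing R₁ K₁] [IsDomain B]
  [IsNoetherianRing B] [IsFractionRing B E] [Algebra.IsAlgebraic K₁ Ω] [CharZero EΩ]
  [Algebra R₁ K₁] [Algebra R₁ E] [IsScalarTower R₁ K₁ E] [Algebra R₁ B] [IsScalarTower R₁ B E] in
theorem IsChartCentre.mem {φ : E →+* EΩ} {ρ : B →+* Bb} {P : Place Ω EΩ} {Q : Place k Et}
    (hc : IsChartCentre φ ρ P Q) (x : Bb) : algebraMap Bb Et x ∈ Q.toValuationSubring := by
  obtain ⟨w, rfl, -⟩ := hc
  exact algebraMap_mem_placeOf (k := k) (F := Et) w x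

end SingleChart

end Fermat.Agent.JA
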