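/-
J-A third wave, package REDO (helper1) — **(AR5)**: the purely combinatorial descent of the
divisor-reduction property (O1) from a finite extension `E_Ω ⊇ F_Ω` to `F_Ω`.
Given place maps `r : Place Ω F_Ω → Place k F̃` and `c : Place Ω E_Ω → Place k Ẽ` which are
COMPATIBLE on the zeros and poles of `y ∈ F_Ω` (`r (P''|F_Ω) = (c P'')|F̃`), if
`c_*(div_{E_Ω} y) = div_Ẽ ỹ` and both extensions satisfy `∑_{w | v} e(w | v) = n` (the same `n > 0`),
then `r_*(div_{F_Ω} y) = div_F̃ ỹ`.
-/
import Mathlib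
import Fermat.Prelude.Def_AlgebraicCurve_DivisorPushPull

set_option autoImplicit false
set_option linter.unusedSectionVars false
set_option linter.style.haveILetI false

open AlgebraicCurve

namespace Fermat.Agent.JA

section MapRestrict

variable {K F F' : Type*} [Field K] [Field F] [Field F']
  [Algebra K F] [Algebra K F'] [Algebra F F'] [IsScalarTower K F F']
  [Algebra.IsIntegral F F'] [HasPrincipalDivisors K F']

/-- evaluation of `mapDomain f x` as a sum over the support. -/
theorem redo_mapDomain_apply {α β : Type*} [DecidableEq β] (f : α → β) (x : α →₀ ℤ) (b : β) :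
    Finsupp.mapDomain f x b = ∑ a ∈ x.support, if f a = b then x a else 0 := by
  classical
  rw [Finsupp.mapDomain, Finsupp.sum_apply, Finsupp.sum]
  refine Finset.sum_congr rfl fun a _ => ?_
  rw [Finsupp.single_apply]

/-- if `D'' w = e(w) · g(w|F)` for all `w` and `∑_{w | v} e(w) = n`, then the push-down of `D''`
along the restriction of places is `n · g`. -/
theorem redo_mapDomain_restrict_apply (n : ℤ)
    (hsum : ∀ v : Place K F, ∑ w ∈ v.fiber F', (w.ramificationIndex F : ℤ) = n)
    (D'' : Divisor K F') (g : Place K F → ℤ)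
    (hD : ∀ w : Place K F', D'' w = (w.ramificationIndex F : ℤ) * g (w.restrict F))
    (v : Place K F) :
    Finsupp.mapDomain (fun w : Place K F' => w.restrict F) D'' v = n * g v := by
  classical
  rw [redo_mapDomain_apply]
  have h1 : (∑ w ∈ D''.support, if w.restrict F = v then D'' w else 0) =
      ∑ w ∈ D''.support.filter (fun w => w.restrict F = v), D'' w := by
    rw [Finset.sum_filter]
  rw [h1]
  have h2 : ∑ w ∈ D''.support.filter (fun w => w.restrict F = v), D'' w =
      ∑ w ∈ v.fiber F', D'' w := by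
    apply Finset.sum_subset
    · intro w hw
      exact Place.mem_fiber.mpr (Finset.mem_filter.mp hw).2
    · intro w hw hnot
      by_contra hne
      exact hnot (Finset.mem_filter.mpr ⟨Finsupp.mem_support_iff.mpr hne, Place.mem_fiber.mp hw⟩)
  rw [h2, ← hsum v, Finset.sum_mul]
  refine Finset.sum_congr rfl fun w hw => ?_
  rw [hD w, Place.mem_fiber.mp hw]

/-- over an algebraically closed constant field (all places of degree one) the fundamental identity
reads `∑_{w | v} e(w | v) = [F' : F]`. -/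
theorem redo_sum_ramificationIndex_of_deg_eq_one [FundamentalIdentity K F F']
    (h : ∀ v : Place K F, v.deg = 1) (h' : ∀ w : Place K F', w.deg = 1) (v : Place K F) :
    ∑ w ∈ v.fiber F', (w.ramificationIndex F : ℤ) = (Module.finrank F F' : ℤ) := by
  have key := FundamentalIdentity.sum_ramificationIndex_mul_deg (K := K) (F := F) (F' := F') v
  rw [h v, Nat.cast_one, mul_one] at key
  rw [← key]
  refine Finset.sum_congr rfl fun w _ => ?_
  rw [h' w, Nat.cast_one, mul_one]

end MapRestrict

section Descent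

variable {Ω FΩ EΩ : Type*} [Field Ω] [Field FΩ] [Field EΩ]
  [Algebra Ω FΩ] [Algebra Ω EΩ] [Algebra FΩ EΩ] [IsScalarTower Ω FΩ EΩ]
  [Algebra.IsIntegral FΩ EΩ] [HasPrincipalDivisors Ω EΩ]
  {k Ft Et : Type*} [Field k] [Field Ft] [Field Et]
  [Algebra k Ft] [Algebra k Et] [Algebra Ft Et] [IsScalarTower k Ft Et]
  [Algebra.IsIntegral Ft Et] [HasPrincipalDivisors k Et]

/-- **(AR5)** descent of the divisor-reduction property from `E_Ω` to `F_Ω`. -/
theorem mapDomain_eq_ord_of_cover (r : Place Ω FΩ → Place k Ft) (c : Place Ω EΩ → Place k Et)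
    (n : ℤ) (hn : n ≠ 0)
    (hup : ∀ P : Place Ω FΩ, ∑ w ∈ P.fiber EΩ, (w.ramificationIndex FΩ : ℤ) = n)
    (hdown : ∀ Q : Place k Ft, ∑ w ∈ Q.fiber Et, (w.ramificationIndex Ft : ℤ) = n)
    (y : FΩ) (yt : Ft)
    (hcompat : ∀ P'' : Place Ω EΩ, P''.ord (algebraMap FΩ EΩ y) ≠ 0 →
      r (P''.restrict FΩ) = (c P'').restrict Ft)
    (hii : ∀ D'' : Divisor Ω EΩ, (∀ P'', D'' P'' = P''.ord (algebraMap FΩ EΩ y)) →
      ∀ Q'' : Place k Et, Finsupp.mapDomain c D'' Q'' = Q''.ord (algebraMap Ft Et yt))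
    (D : Divisor Ω FΩ) (hD : ∀ P, D P = P.ord y) (Q : Place k Ft) :
    Finsupp.mapDomain r D Q = Q.ord yt := by
  classical
  set D'' : Divisor Ω EΩ := Divisor.pullback EΩ D with hD''
  have hD''ord : ∀ P'', D'' P'' = P''.ord (algebraMap FΩ EΩ y) :=
    fun P'' => Divisor.pullback_apply_eq_ord hD P''
  -- upstairs: the push-down of `D''` is `n • D`
  have h1 : Finsupp.mapDomain (fun w : Place Ω EΩ => w.restrict FΩ) D'' = n • D := by
    ext P
    rw [redo_mapDomain_restrict_apply n hup D'' (fun P => D P)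
      (fun w => Divisor.pullback_apply D w) P, Finsupp.smul_apply, smul_eq_mul]
  -- downstairs
  have h2 : Finsupp.mapDomain (fun w : Place k Et => w.restrict Ft) (Finsupp.mapDomain c D'') Q =
      n * Q.ord yt := by
    refine redo_mapDomain_restrict_apply n hdown _ (fun Q => Q.ord yt) (fun w => ?_) Q
    rw [hii D'' hD''ord w, Place.ord_restrict]
  -- compatibility
  have h3 : Finsupp.mapDomain r (Finsupp.mapDomain (fun w : Place Ω EΩ => w.restrict FΩ) D'') =
      Finsupp.mapDomain (fun w : Place k Et => w.restrict Ft) (Finsupp.mapDomain c D'') := by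
    rw [← Finsupp.mapDomain_comp, ← Finsupp.mapDomain_comp]
    refine Finsupp.mapDomain_congr fun P'' hP'' => ?_
    have hne : P''.ord (algebraMap FΩ EΩ y) ≠ 0 := by
      rw [← hD''ord]
      exact Finsupp.mem_support_iff.mp hP''
    exact hcompat P'' hne
  have h4 : n * Finsupp.mapDomain r D Q = n * Q.ord yt := by
    rw [← h2, ← h3, h1, Finsupp.mapDomain_smul, Finsupp.smul_apply, smul_eq_mul]
  exact mul_left_cancel₀ hn h4

/-- **(AR5)**, degree-one form: both constant fields algebraically closed (all places of degree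
one), `FundamentalIdentity` on both levels and `[E_Ω : F_Ω] = [Ẽ : F̃]`. -/
theorem mapDomain_eq_ord_of_cover_of_deg_eq_one [FundamentalIdentity Ω FΩ EΩ]
    [FundamentalIdentity k Ft Et] [FiniteDimensional FΩ EΩ]
    (hdegF : ∀ v : Place Ω FΩ, v.deg = 1) (hdegE : ∀ w : Place Ω EΩ, w.deg = 1)
    (hdegFt : ∀ v : Place k Ft, v.deg = 1) (hdegEt : ∀ w : Place k Et, w.deg = 1)
    (hfin : Module.finrank FΩ EΩ = Module.finrank Ft Et)
    (r : Place Ω FΩ → Place k Ft) (c : Place Ω EΩ → Place k Et)
    (y : FΩ) (yt : Ft)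
    (hcompat : ∀ P'' : Place Ω EΩ, P''.ord (algebraMap FΩ EΩ y) ≠ 0 →
      r (P''.restrict FΩ) = (c P'').restrict Ft)
    (hii : ∀ D'' : Divisor Ω EΩ, (∀ P'', D'' P'' = P''.ord (algebraMap FΩ EΩ y)) →
      ∀ Q'' : Place k Et, Finsupp.mapDomain c D'' Q'' = Q''.ord (algebraMap Ft Et yt))
    (D : Divisor Ω FΩ) (hD : ∀ P, D P = P.ord y) (Q : Place k Ft) :
    Finsupp.mapDomain r D Q = Q.ord yt := by
  have hpos : (Module.finrank FΩ EΩ : ℤ) ≠ 0 := by
    have : 0 < Module.finrank FΩ EΩ := Module.finrank_pos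
    omega
  refine mapDomain_eq_ord_of_cover r c (Module.finrank FΩ EΩ : ℤ) hpos
    (redo_sum_ramificationIndex_of_deg_eq_one hdegF hdegE) (fun Q => ?_) y yt hcompat hii D hD Q
  rw [hfin]
  exact redo_sum_ramificationIndex_of_deg_eq_one hdegFt hdegEt Q

end Descent

end Fermat.Agent.JA
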