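/-
J-A third wave, package REDO (helper1) — TWO CHARTS: the reduction map `c` of the places of
`E_Ω/Ω` (centre in chart 1 if it exists, otherwise centre in chart 2) and the E-level form of (O1):
`c_*(div φ(y)) = div ỹ` for every `y ∈ E` with representations `a₁/b₁`, `a₂/b₂` in the two charts
all of whose zeros and poles (over `Ω`) restrict to rational places of `E/K₁`.
Abstract setting: two abstract charts `(B_i, ρ_i, Bb_i)` of REDA over the same `R₁, K₁, E, k, Ẽ`,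
a coordinate `s = s₁ = s₂⁻¹` with `s₁ ∈ B₁`, `s₂ ∈ B₂`, each chart being "integral over its
coordinate" in the two forms `cov_i` (special fibre) and `val_i` (generic fibre).
-/
import Fermat.Agent.JA.REDO_helper1_ChartCentre
import Fermat.Agent.JA.REDO_helper1_Descent

set_option autoImplicit false
set_option linter.unusedSectionVars false
set_option linter.style.haveILetI false

open AlgebraicCurve IsLocalRing IsDedekindDomain

namespace Fermat.Agent.JA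

open Fermat.Agent.FF

section TwoChart

variable {R₁ : Type*} [CommRing R₁] [IsDomain R₁] [IsDiscreteValuationRing R₁]
  {K₁ : Type*} [Field K₁] [Algebra R₁ K₁] [IsFractionRing R₁ K₁]
  {E : Type*} [Field E] [Algebra K₁ E] [Algebra R₁ E] [IsScalarTower R₁ K₁ E]
  {k Et : Type*} [Field k] [Field Et] [Algebra k Et]
  {B₁ : Type*} [CommRing B₁] [IsDomain B₁] [IsNoetherianRing B₁] [Algebra R₁ B₁] [Algebra B₁ E]
  [IsScalarTower R₁ B₁ E] [IsFractionRing B₁ E]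
  {Bb₁ : Type*} [CommRing Bb₁] [IsDedekindDomain Bb₁] [Algebra k Bb₁] [Algebra Bb₁ Et]
  [IsFractionRing Bb₁ Et] [IsScalarTower k Bb₁ Et]
  {B₂ : Type*} [CommRing B₂] [IsDomain B₂] [IsNoetherianRing B₂] [Algebra R₁ B₂] [Algebra B₂ E]
  [IsScalarTower R₁ B₂ E] [IsFractionRing B₂ E]
  {Bb₂ : Type*} [CommRing Bb₂] [IsDedekindDomain Bb₂] [Algebra k Bb₂] [Algebra Bb₂ Et]
  [IsFractionRing Bb₂ Et] [IsScalarTower k Bb₂ Et]
  {Ω EΩ : Type*} [Field Ω] [Algebra K₁ Ω] [Algebra.IsAlgebraic K₁ Ω]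
  [Field EΩ] [Algebra Ω EΩ] [CharZero EΩ]

variable (K₁ E Et) in
/-- the hypotheses on a pair of charts `(B₁, ρ₁)`, `(B₂, ρ₂)` with coordinates `s₁`, `s₂ = s₁⁻¹`. -/
structure TwoChartHyps (π : R₁) (res : R₁ →+* k) (ρ₁ : B₁ →+* Bb₁) (ρ₂ : B₂ →+* Bb₂)
    (s₁ : B₁) (s₂ : B₂) : Prop where
  irr : Irreducible π
  res_pi : res π = 0
  surj₁ : Function.Surjective ρ₁
  ker₁ : RingHom.ker ρ₁ = Ideal.span {algebraMap R₁ B₁ π}
  prime₁ : Prime (algebraMap R₁ B₁ π)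
  res₁ : ∀ r : R₁, ρ₁ (algebraMap R₁ B₁ r) = algebraMap k Bb₁ (res r)
  nf₁ : ¬ IsField Bb₁
  surj₂ : Function.Surjective ρ₂
  ker₂ : RingHom.ker ρ₂ = Ideal.span {algebraMap R₁ B₂ π}
  prime₂ : Prime (algebraMap R₁ B₂ π)
  res₂ : ∀ r : R₁, ρ₂ (algebraMap R₁ B₂ r) = algebraMap k Bb₂ (res r)
  nf₂ : ¬ IsField Bb₂
  coord : algebraMap B₁ E s₁ * algebraMap B₂ E s₂ = 1
  coordt : algebraMap Bb₁ Et (ρ₁ s₁) * algebraMap Bb₂ Et (ρ₂ s₂) = 1
  cov₁ : ∀ Q : Place k Et, algebraMap Bb₁ Et (ρ₁ s₁) ∈ Q.toValuationSubring →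
    ∀ x : Bb₁, algebraMap Bb₁ Et x ∈ Q.toValuationSubring
  cov₂ : ∀ Q : Place k Et, algebraMap Bb₂ Et (ρ₂ s₂) ∈ Q.toValuationSubring →
    ∀ x : Bb₂, algebraMap Bb₂ Et x ∈ Q.toValuationSubring
  val₁ : ∀ P₁ : Place K₁ E, IsRationalPlace P₁ →
    (∃ r : R₁, HasValueAt P₁ (algebraMap B₁ E s₁) (algebraMap R₁ K₁ r)) →
    (∀ x : B₁, algebraMap B₁ E x ∈ P₁.toValuationSubring) ∧ HasIntegralValues (R₁ := R₁) B₁ P₁
  val₂ : ∀ P₁ : Place K₁ E, IsRationalPlace P₁ →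
    (∃ r : R₁, HasValueAt P₁ (algebraMap B₂ E s₂) (algebraMap R₁ K₁ r)) →
    (∀ x : B₂, algebraMap B₂ E x ∈ P₁.toValuationSubring) ∧ HasIntegralValues (R₁ := R₁) B₂ P₁

/-- `Q` is the centre of `P`: in chart 1 if possible, otherwise in chart 2. -/
def IsTwoChartCentre (φ : E →+* EΩ) (ρ₁ : B₁ →+* Bb₁) (ρ₂ : B₂ →+* Bb₂) (P : Place Ω EΩ)
    (Q : Place k Et) : Prop :=
  IsChartCentre φ ρ₁ P Q ∨ (IsChartCentre φ ρ₂ P Q ∧ ¬ ∃ Q' : Place k Et, IsChartCentre φ ρ₁ P Q')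

open Classical in
/-- the reduction map of the places of `E_Ω/Ω` (junk value `Q₀` for places without centre). -/
noncomputable def twoChartCentre (φ : E →+* EΩ) (ρ₁ : B₁ →+* Bb₁) (ρ₂ : B₂ →+* Bb₂)
    (Q₀ : Place k Et) (P : Place Ω EΩ) : Place k Et :=
  if h : ∃ Q : Place k Et, IsTwoChartCentre φ ρ₁ ρ₂ P Q then h.choose else Q₀

omit [IsDiscreteValuationRing R₁] in
theorem res_ne_zero_of_isUnit (res : R₁ →+* k) {r : R₁} (hr : IsUnit r) : res r ≠ 0 :=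
  (hr.map res).ne_zero

theorem isUnit_of_res_ne_zero {π : R₁} (hπ : Irreducible π) (res : R₁ →+* k) (hres : res π = 0)
    {r : R₁} (hr : res r ≠ 0) : IsUnit r := by
  by_contra hnu
  have hmem : r ∈ maximalIdeal R₁ := (IsLocalRing.mem_maximalIdeal r).mpr hnu
  rw [hπ.maximalIdeal_eq, Ideal.mem_span_singleton] at hmem
  obtain ⟨c, rfl⟩ := hmem
  exact hr (by rw [map_mul, hres, zero_mul])

omit [IsDomain R₁] [IsDiscreteValuationRing R₁] in
/-- the value dichotomy at a rational place for a function and its inverse. -/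
theorem exists_hasValueAt_or_inv [IsDomain R₁] [ValuationRing R₁] (P₁ : Place K₁ E)
    (hrat : IsRationalPlace P₁)
    {s s' : E} (hss' : s * s' = 1) :
    (∃ r : R₁, HasValueAt P₁ s (algebraMap R₁ K₁ r)) ∨
      (∃ r : R₁, HasValueAt P₁ s' (algebraMap R₁ K₁ r)) := by
  have hs0 : s ≠ 0 := left_ne_zero_of_mul_eq_one hss'
  have hs'0 : s' ≠ 0 := right_ne_zero_of_mul_eq_one hss'
  have hs' : s' = s⁻¹ := eq_inv_of_mul_eq_one_right hss'
  have key : ∀ {u u' : E}, u' = u⁻¹ → u ≠ 0 → u ∈ P₁.toValuationSubring →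
      (∃ r : R₁, HasValueAt P₁ u (algebraMap R₁ K₁ r)) ∨
        (∃ r : R₁, HasValueAt P₁ u' (algebraMap R₁ K₁ r)) := by
    intro u u' hu' hu0 hu
    obtain ⟨c, hc⟩ := (isRationalPlace_iff_hasValueAt P₁).mp hrat u hu
    by_cases hc0 : c = 0
    · left
      refine ⟨0, ?_⟩
      rw [map_zero, ← hc0]; exact hc
    rcases ValuationRing.isInteger_or_isInteger R₁ c with ⟨r, hr⟩ | ⟨r, hr⟩
    · left; exact ⟨r, by rw [hr]; exact hc⟩
    · right
      exact ⟨r, by rw [hr, hu']; exact hc.inv hc0⟩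
  rcases P₁.toValuationSubring.mem_or_inv_mem s with h | h
  · exact key hs' hs0 h
  · have h' : s' ∈ P₁.toValuationSubring := hs' ▸ h
    have := key (u := s') (u' := s) (by rw [hs', inv_inv]) hs'0 h'
    exact this.symm


variable {π : R₁} {res : R₁ →+* k} {ρ₁ : B₁ →+* Bb₁} {ρ₂ : B₂ →+* Bb₂} {s₁ : B₁} {s₂ : B₂}
  {φ : E →+* EΩ}
  (hφ : ∀ c : K₁, φ (algebraMap K₁ E c) = algebraMap Ω EΩ (algebraMap K₁ Ω c))
  (hgen : Subfield.closure (Set.range φ ∪ Set.range (algebraMap Ω EΩ)) = ⊤)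

include hφ hgen in
/-- existence of the centre of a place with rational restriction. -/
theorem TwoChartHyps.exists_isTwoChartCentre (H : TwoChartHyps K₁ E Et π res ρ₁ ρ₂ s₁ s₂)
    (P : Place Ω EΩ) (hrat : IsRationalPlace (restrictBC φ hφ hgen P)) :
    ∃ Q : Place k Et, IsTwoChartCentre φ ρ₁ ρ₂ P Q := by
  classical
  by_cases h1 : ∃ Q' : Place k Et, IsChartCentre φ ρ₁ P Q'
  · obtain ⟨Q, hQ⟩ := h1
    exact ⟨Q, Or.inl hQ⟩
  · rcases exists_hasValueAt_or_inv (R₁ := R₁) (restrictBC φ hφ hgen P) hrat H.coord with h | h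
    · exfalso
      obtain ⟨hB, hval⟩ := H.val₁ _ hrat h
      exact h1 (exists_isChartCentre hφ hgen H.surj₁ H.irr H.ker₁ H.nf₁ P hB hval)
    · obtain ⟨hB, hval⟩ := H.val₂ _ hrat h
      obtain ⟨Q, hQ⟩ := exists_isChartCentre (k := k) (Et := Et) hφ hgen H.surj₂ H.irr H.ker₂
        H.nf₂ P hB hval
      exact ⟨Q, Or.inr ⟨hQ, h1⟩⟩

include hφ hgen in
/-- uniqueness of the centre of a place with rational restriction. -/
theorem TwoChartHyps.isTwoChartCentre_unique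
    (H : TwoChartHyps K₁ E Et π res ρ₁ ρ₂ s₁ s₂)
    {P : Place Ω EΩ} (hrat : IsRationalPlace (restrictBC φ hφ hgen P)) {Q Q' : Place k Et}
    (hQ : IsTwoChartCentre φ ρ₁ ρ₂ P Q) (hQ' : IsTwoChartCentre φ ρ₁ ρ₂ P Q') : Q = Q' := by
  rcases hQ with h | ⟨h, hno⟩
  · rcases hQ' with h' | ⟨-, hno'⟩
    · exact h.unique hφ hgen H.surj₁ H.irr H.ker₁ h' hrat
    · exact absurd ⟨Q, h⟩ hno'
  · rcases hQ' with h' | ⟨h', -⟩
    · exact absurd ⟨Q', h'⟩ hno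
    · exact h.unique hφ hgen H.surj₂ H.irr H.ker₂ h' hrat

include hφ hgen in
theorem TwoChartHyps.twoChartCentre_eq_iff
    (H : TwoChartHyps K₁ E Et π res ρ₁ ρ₂ s₁ s₂) (Q₀ : Place k Et)
    {P : Place Ω EΩ} (hrat : IsRationalPlace (restrictBC φ hφ hgen P)) (Q : Place k Et) :
    twoChartCentre φ ρ₁ ρ₂ Q₀ P = Q ↔ IsTwoChartCentre φ ρ₁ ρ₂ P Q := by
  have hex := H.exists_isTwoChartCentre hφ hgen P hrat
  have hspec : IsTwoChartCentre φ ρ₁ ρ₂ P (twoChartCentre φ ρ₁ ρ₂ Q₀ P) := by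
    unfold twoChartCentre
    rw [dif_pos hex]
    exact hex.choose_spec
  constructor
  · rintro rfl; exact hspec
  · intro hQ
    exact H.isTwoChartCentre_unique hφ hgen hrat hspec hQ

include hφ hgen in
/-- chart 1: at a place `Q = placeOf w₁` of `Ẽ`, the places with centre `Q` are the places centred
at `ρ₁⁻¹(w₁)`. -/
theorem TwoChartHyps.isTwoChartCentre_iff₁
    (H : TwoChartHyps K₁ E Et π res ρ₁ ρ₂ s₁ s₂)
    {P : Place Ω EΩ} (hrat : IsRationalPlace (restrictBC φ hφ hgen P))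
    (w₁ : HeightOneSpectrum Bb₁) :
    IsTwoChartCentre φ ρ₁ ρ₂ P (placeOf (k := k) (F := Et) w₁) ↔
      CentredAtBC φ (w₁.asIdeal.comap ρ₁) P := by
  constructor
  · rintro (⟨w₁', hQ, hc⟩ | ⟨hc₂, hno⟩)
    · have : w₁ = w₁' := placeOf_injective (k := k) (F := Et) hQ
      rw [this]; exact hc
    · exfalso
      set P₁ := restrictBC φ hφ hgen P with hP₁
      obtain ⟨hB₂, hval₂⟩ := hc₂.hasIntegralValues hφ hgen H.irr H.ker₂ hrat
      obtain ⟨r₂, hr₂⟩ := (hasIntegralValues_iff_hasValueAt P₁).mp hval₂ s₂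
      have hev := hc₂.hasValueAt hφ hgen res H.res₂ s₂ r₂ hr₂
      set σ₁ : Et := algebraMap Bb₁ Et (ρ₁ s₁) with hσ₁
      set σ₂ : Et := algebraMap Bb₂ Et (ρ₂ s₂) with hσ₂
      have hσ₂0 : σ₂ ≠ 0 := right_ne_zero_of_mul_eq_one H.coordt
      have hσ₁eq : σ₁ = σ₂⁻¹ := eq_inv_of_mul_eq_one_left H.coordt
      have hσ₁mem : σ₁ ∈ (placeOf (k := k) (F := Et) w₁).toValuationSubring :=
        algebraMap_mem_placeOf (k := k) (F := Et) w₁ _
      have hres : res r₂ ≠ 0 := by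
        intro h0
        rw [h0, HasValueAt.zero_iff] at hev
        rcases hev with h | h
        · exact hσ₂0 h
        · have h1 := PlaceAux.ord_nonneg_of_mem _ hσ₁mem
          rw [hσ₁eq, Place.ord_inv] at h1
          omega
      have hu : IsUnit r₂ := isUnit_of_res_ne_zero H.irr res H.res_pi hres
      obtain ⟨r₂', hr₂'⟩ := hu.exists_right_inv
      have hr₂K : algebraMap R₁ K₁ r₂ ≠ 0 :=
        (map_ne_zero_iff _ (IsFractionRing.injective R₁ K₁)).mpr hu.ne_zero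
      have hinv := hr₂.inv hr₂K
      have e1 : (algebraMap B₂ E s₂)⁻¹ = algebraMap B₁ E s₁ :=
        (eq_inv_of_mul_eq_one_left H.coord).symm
      have e2 : (algebraMap R₁ K₁ r₂)⁻¹ = algebraMap R₁ K₁ r₂' := by
        apply inv_eq_of_mul_eq_one_right
        rw [← map_mul, hr₂', map_one]
      rw [e1, e2] at hinv
      obtain ⟨hB₁, hval₁⟩ := H.val₁ P₁ hrat ⟨r₂', hinv⟩
      exact hno (exists_isChartCentre hφ hgen H.surj₁ H.irr H.ker₁ H.nf₁ P hB₁ hval₁)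
  · intro hc
    exact Or.inl ⟨w₁, rfl, hc⟩

include hφ hgen in
/-- chart 2: at a place `Q = placeOf w₂` of `Ẽ` where `s̃` has a pole, the places with centre `Q`
are the places centred at `ρ₂⁻¹(w₂)`. -/
theorem TwoChartHyps.isTwoChartCentre_iff₂
    (H : TwoChartHyps K₁ E Et π res ρ₁ ρ₂ s₁ s₂)
    {P : Place Ω EΩ} (hrat : IsRationalPlace (restrictBC φ hφ hgen P))
    (w₂ : HeightOneSpectrum Bb₂)
    (hs : algebraMap Bb₁ Et (ρ₁ s₁) ∉ (placeOf (k := k) (F := Et) w₂).toValuationSubring) :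
    IsTwoChartCentre φ ρ₁ ρ₂ P (placeOf (k := k) (F := Et) w₂) ↔
      CentredAtBC φ (w₂.asIdeal.comap ρ₂) P := by
  constructor
  · rintro (⟨w₁, hQ, -⟩ | ⟨⟨w₂', hQ, hc⟩, -⟩)
    · exfalso
      apply hs
      rw [hQ]
      exact algebraMap_mem_placeOf (k := k) (F := Et) w₁ _
    · have : w₂ = w₂' := placeOf_injective (k := k) (F := Et) hQ
      rw [this]; exact hc
  · intro hc
    have hc₂ : IsChartCentre φ ρ₂ P (placeOf (k := k) (F := Et) w₂) := ⟨w₂, rfl, hc⟩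
    refine Or.inr ⟨hc₂, ?_⟩
    rintro ⟨Q', hc₁⟩
    apply hs
    set P₁ := restrictBC φ hφ hgen P with hP₁
    obtain ⟨hB₁, hval₁⟩ := hc₁.hasIntegralValues hφ hgen H.irr H.ker₁ hrat
    obtain ⟨hB₂, hval₂⟩ := hc₂.hasIntegralValues hφ hgen H.irr H.ker₂ hrat
    obtain ⟨r₁, hr₁⟩ := (hasIntegralValues_iff_hasValueAt P₁).mp hval₁ s₁
    obtain ⟨r₂, hr₂⟩ := (hasIntegralValues_iff_hasValueAt P₁).mp hval₂ s₂
    have hprod := hr₁.mul hr₂
    rw [H.coord] at hprod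
    have h1 : algebraMap R₁ K₁ r₁ * algebraMap R₁ K₁ r₂ = 1 :=
      hprod.unique (HasValueAt.one' P₁)
    have h2 : r₁ * r₂ = 1 := by
      apply IsFractionRing.injective R₁ K₁
      rw [map_mul, h1, map_one]
    have hu : IsUnit r₂ := IsUnit.of_mul_eq_one r₁ (by rw [mul_comm]; exact h2)
    have hres : res r₂ ≠ 0 := res_ne_zero_of_isUnit res hu
    have hev := hc₂.hasValueAt hφ hgen res H.res₂ s₂ r₂ hr₂
    obtain ⟨hσ₂0, hord⟩ := hev.ord_eq_zero hres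
    have hσ₁eq : algebraMap Bb₁ Et (ρ₁ s₁) = (algebraMap Bb₂ Et (ρ₂ s₂))⁻¹ :=
      eq_inv_of_mul_eq_one_left H.coordt
    rw [hσ₁eq, PlaceAux.mem_iff_ord_nonneg' _ (inv_ne_zero hσ₂0), Place.ord_inv, hord]
    simp

include hφ hgen in
/-- **two-chart (O1) on the level of `E`**: for `y ∈ E` with chart representations `a_i/b_i`
(nonzero reductions) all of whose zeros and poles over `Ω` have rational restriction,
`c_*(div φ(y)) = div ỹ`. -/
theorem TwoChartHyps.mapDomain_twoChartCentre_eq_ord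
    (H : TwoChartHyps K₁ E Et π res ρ₁ ρ₂ s₁ s₂) (Q₀ : Place k Et)
    (y : E) (yt : Et)
    (a₁ b₁ : B₁) (ha₁ : ρ₁ a₁ ≠ 0) (hb₁ : ρ₁ b₁ ≠ 0)
    (hy₁ : y = algebraMap B₁ E a₁ / algebraMap B₁ E b₁)
    (hyt₁ : yt = algebraMap Bb₁ Et (ρ₁ a₁) / algebraMap Bb₁ Et (ρ₁ b₁))
    (a₂ b₂ : B₂) (ha₂ : ρ₂ a₂ ≠ 0) (hb₂ : ρ₂ b₂ ≠ 0)
    (hy₂ : y = algebraMap B₂ E a₂ / algebraMap B₂ E b₂)
    (hyt₂ : yt = algebraMap Bb₂ Et (ρ₂ a₂) / algebraMap Bb₂ Et (ρ₂ b₂))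
    (hrat : ∀ P : Place Ω EΩ, P.ord (φ y) ≠ 0 → IsRationalPlace (restrictBC φ hφ hgen P))
    (D'' : Divisor Ω EΩ) (hD'' : ∀ P, D'' P = P.ord (φ y)) (Q : Place k Et) :
    Finsupp.mapDomain (twoChartCentre φ ρ₁ ρ₂ Q₀) D'' Q = Q.ord yt := by
  classical
  rw [redo_mapDomain_apply]
  set T : Finset (Place Ω EΩ) :=
    D''.support.filter (fun P => twoChartCentre φ ρ₁ ρ₂ Q₀ P = Q) with hT
  have h1 : (∑ P ∈ D''.support, if twoChartCentre φ ρ₁ ρ₂ Q₀ P = Q then D'' P else 0) =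
      ∑ P ∈ T, P.ord (φ y) := by
    rw [hT, Finset.sum_filter]
    refine Finset.sum_congr rfl fun P _ => ?_
    rw [hD'' P]
  rw [h1]
  have hTmem : ∀ P : Place Ω EΩ, P ∈ T ↔
      (twoChartCentre φ ρ₁ ρ₂ Q₀ P = Q ∧ P.ord (φ y) ≠ 0) := by
    intro P
    rw [hT, Finset.mem_filter, Finsupp.mem_support_iff, hD'' P]
    exact and_comm
  by_cases hσ : algebraMap Bb₁ Et (ρ₁ s₁) ∈ Q.toValuationSubring
  · -- chart 1
    obtain ⟨w₁, rfl⟩ := exists_placeOf_eq (k := k) (R := Bb₁) Q (H.cov₁ Q hσ)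
    rw [hyt₁]
    have hrat' : ∀ P : Place Ω EΩ, CentredAtBC φ (w₁.asIdeal.comap ρ₁) P →
        P.ord (φ (algebraMap B₁ E a₁ / algebraMap B₁ E b₁)) ≠ 0 →
        IsRationalPlace (restrictBC φ hφ hgen P) := by
      intro P _ hne
      rw [← hy₁] at hne
      exact hrat P hne
    have := chart_sum_ord_div_bc_reduced (k := k) (Et := Et) ρ₁ H.surj₁ H.irr H.ker₁ H.prime₁ w₁
      a₁ b₁ ha₁ hb₁ φ hφ hgen hrat' T ?_
    · rw [← hy₁] at this
      exact this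
    · intro P
      rw [hTmem, ← hy₁]
      constructor
      · rintro ⟨hc, hne⟩
        have hr := hrat P hne
        exact ⟨(H.isTwoChartCentre_iff₁ hφ hgen hr w₁).mp
          ((H.twoChartCentre_eq_iff hφ hgen Q₀ hr _).mp hc), hne⟩
      · rintro ⟨hc, hne⟩
        have hr := hrat P hne
        exact ⟨(H.twoChartCentre_eq_iff hφ hgen Q₀ hr _).mpr
          ((H.isTwoChartCentre_iff₁ hφ hgen hr w₁).mpr hc), hne⟩
  · -- chart 2
    have hσ₂ : algebraMap Bb₂ Et (ρ₂ s₂) ∈ Q.toValuationSubring := by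
      have hσ₂eq : algebraMap Bb₂ Et (ρ₂ s₂) = (algebraMap Bb₁ Et (ρ₁ s₁))⁻¹ :=
        eq_inv_of_mul_eq_one_right H.coordt
      rw [hσ₂eq]
      exact (Q.toValuationSubring.mem_or_inv_mem _).resolve_left hσ
    obtain ⟨w₂, rfl⟩ := exists_placeOf_eq (k := k) (R := Bb₂) Q (H.cov₂ Q hσ₂)
    rw [hyt₂]
    have hrat' : ∀ P : Place Ω EΩ, CentredAtBC φ (w₂.asIdeal.comap ρ₂) P →
        P.ord (φ (algebraMap B₂ E a₂ / algebraMap B₂ E b₂)) ≠ 0 →
        IsRationalPlace (restrictBC φ hφ hgen P) := by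
      intro P _ hne
      rw [← hy₂] at hne
      exact hrat P hne
    have := chart_sum_ord_div_bc_reduced (k := k) (Et := Et) ρ₂ H.surj₂ H.irr H.ker₂ H.prime₂ w₂
      a₂ b₂ ha₂ hb₂ φ hφ hgen hrat' T ?_
    · rw [← hy₂] at this
      exact this
    · intro P
      rw [hTmem, ← hy₂]
      constructor
      · rintro ⟨hc, hne⟩
        have hr := hrat P hne
        exact ⟨(H.isTwoChartCentre_iff₂ hφ hgen hr w₂ hσ).mp
          ((H.twoChartCentre_eq_iff hφ hgen Q₀ hr _).mp hc), hne⟩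
      · rintro ⟨hc, hne⟩
        have hr := hrat P hne
        exact ⟨(H.twoChartCentre_eq_iff hφ hgen Q₀ hr _).mpr
          ((H.isTwoChartCentre_iff₂ hφ hgen hr w₂ hσ).mpr hc), hne⟩

include hφ hgen in
/-- the chosen centre is a centre (places with rational restriction). -/
theorem TwoChartHyps.isTwoChartCentre_twoChartCentre
    (H : TwoChartHyps K₁ E Et π res ρ₁ ρ₂ s₁ s₂) (Q₀ : Place k Et)
    {P : Place Ω EΩ} (hrat : IsRationalPlace (restrictBC φ hφ hgen P)) :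
    IsTwoChartCentre φ ρ₁ ρ₂ P (twoChartCentre φ ρ₁ ρ₂ Q₀ P) :=
  (H.twoChartCentre_eq_iff hφ hgen Q₀ hrat _).mp rfl

end TwoChart

end Fermat.Agent.JA
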