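/-
J-A third wave, package REDO (helper1) — BRIDGE from lead's GEO setting (`GeoHyps`, the chart
`B = integralClosure R[t] E`, its reduction `B / π B`, the residue field `κ(W)` of the unique
extension `W` of the Gauss valuation) to the abstract chart setting of REDA/REDO.
Part 1: generic tools (`liftRes`, the composite valuation ring of a rational place with a DVR).
-/
import Fermat.Agent.JA.GEOBASE_helper8_Hyps
import Fermat.Agent.JA.REDO_helper1_TwoChart

set_option autoImplicit false
set_option linter.unusedSectionVars false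
set_option linter.style.haveILetI false

open AlgebraicCurve IsLocalRing IsDedekindDomain Polynomial

namespace Fermat.Agent.JA

open Fermat.Agent.FF

section LiftRes

variable {R k C : Type*} [CommRing R] [CommRing k] [CommRing C]

/-- the factorisation of a ring homomorphism through a surjection killing at least as much. -/
noncomputable def liftRes (res : R →+* k) (hres : Function.Surjective res) (g : R →+* C)
    (hg : ∀ r, res r = 0 → g r = 0) : k →+* C :=
  RingHom.liftOfSurjective res hres ⟨g, fun r hr => hg r hr⟩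

@[simp] theorem liftRes_apply (res : R →+* k) (hres : Function.Surjective res) (g : R →+* C)
    (hg : ∀ r, res r = 0 → g r = 0) (r : R) : liftRes res hres g hg (res r) = g r :=
  RingHom.liftOfRightInverse_comp_apply _ _ _ _ _

end LiftRes

section ResDvr

variable {R k : Type*} [CommRing R] [IsDomain R] [IsDiscreteValuationRing R] [Field k]

/-- a surjection of a DVR onto a field killing the uniformizer has kernel `(π)`. -/
theorem dvd_of_res_eq_zero {π : R} (hπ : Irreducible π) (res : R →+* k) {r : R}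
    (hr : res r = 0) : π ∣ r := by
  by_contra hnd
  have hu : IsUnit r := by
    by_contra hnu
    have hmem : r ∈ maximalIdeal R := (IsLocalRing.mem_maximalIdeal r).mpr hnu
    rw [hπ.maximalIdeal_eq, Ideal.mem_span_singleton] at hmem
    exact hnd hmem
  exact (hu.map res).ne_zero hr

end ResDvr

section CompValR

variable {R₁ : Type*} [CommRing R₁] [IsDomain R₁] [ValuationRing R₁]
  {K₁ : Type*} [Field K₁] [Algebra R₁ K₁] [IsFractionRing R₁ K₁]
  {E : Type*} [Field E] [Algebra K₁ E]

/-- the value dichotomy at a rational place (no `R₁`-algebra structure on `E` needed). -/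
theorem exists_hasValueAt_or_inv' (P₁ : Place K₁ E) (hrat : IsRationalPlace P₁)
    {s s' : E} (hss' : s * s' = 1) :
    (∃ r : R₁, HasValueAt P₁ s (algebraMap R₁ K₁ r)) ∨
      (∃ r : R₁, HasValueAt P₁ s' (algebraMap R₁ K₁ r)) := by
  have hs0 : s ≠ 0 := left_ne_zero_of_mul_eq_one hss'
  have hs'0 : s' ≠ 0 := right_ne_zero_of_mul_eq_one hss'
  have hs' : s' = s⁻¹ := eq_inv_of_mul_eq_one_right hss'
  have key : ∀ {u u' : E}, u' = u⁻¹ → u ≠ 0 → u ∈ P₁.toValuationSubring →
      (∃ r : R₁, HasValueAt P₁ u (algebraMap R₁ K₁ r)) ∨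
        (∃ r : R₁, HasValueAt P₁ u' (algebraMap R₁ K₁ r)) := by
    intro u u' hu' hu0 hu
    obtain ⟨c, hc⟩ := (isRationalPlace_iff_hasValueAt P₁).mp hrat u hu
    by_cases hc0 : c = 0
    · left
      refine ⟨0, ?_⟩
      rw [map_zero, ← hc0]; exact hc
    rcases ValuationRing.isInteger_or_isInteger R₁ c with ⟨r, hr⟩ | ⟨r, hr⟩
    · left; exact ⟨r, by rw [hr]; exact hc⟩
    · right
      exact ⟨r, by rw [hr, hu']; exact hc.inv hc0⟩
  rcases P₁.toValuationSubring.mem_or_inv_mem s with h | h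
  · exact key hs' hs0 h
  · have h' : s' ∈ P₁.toValuationSubring := hs' ▸ h
    have := key (u := s') (u' := s) (by rw [hs', inv_inv]) hs'0 h'
    exact this.symm

/-- the composite of a rational place with a valuation ring of the constant field. -/
def compValR (R₁ : Type*) [CommRing R₁] [IsDomain R₁] [ValuationRing R₁] {K₁ : Type*} [Field K₁]
    [Algebra R₁ K₁] [IsFractionRing R₁ K₁] {E : Type*} [Field E] [Algebra K₁ E]
    (P : Place K₁ E) (hrat : IsRationalPlace P) : ValuationSubring E where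
  carrier := {f | ∃ r : R₁, HasValueAt P f (algebraMap R₁ K₁ r)}
  mul_mem' := by
    rintro f g ⟨a, ha⟩ ⟨b, hb⟩
    exact ⟨a * b, by rw [map_mul]; exact ha.mul hb⟩
  one_mem' := ⟨1, by rw [map_one]; exact HasValueAt.one' P⟩
  add_mem' := by
    rintro f g ⟨a, ha⟩ ⟨b, hb⟩
    exact ⟨a + b, by rw [map_add]; exact ha.add hb⟩
  zero_mem' := ⟨0, by rw [map_zero]; exact HasValueAt.zero' P⟩
  neg_mem' := by
    rintro f ⟨a, ha⟩
    exact ⟨-a, by rw [map_neg]; exact ha.neg⟩
  mem_or_inv_mem' := by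
    intro f
    by_cases hf0 : f = 0
    · left; exact ⟨0, by rw [hf0, map_zero]; exact HasValueAt.zero' P⟩
    · exact exists_hasValueAt_or_inv' (R₁ := R₁) P hrat (mul_inv_cancel₀ hf0)

theorem mem_compValR_iff {P : Place K₁ E} {hrat : IsRationalPlace P} {f : E} :
    f ∈ compValR R₁ P hrat ↔ ∃ r : R₁, HasValueAt P f (algebraMap R₁ K₁ r) := Iff.rfl

end CompValR

section Chart

variable {R : Type*} [CommRing R] [IsDomain R] [IsDiscreteValuationRing R] [CharZero R]
  {K₁ : Type*} [Field K₁] [Algebra R K₁] [IsFractionRing R K₁]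
  {K : Type*} [Field K] [Algebra K₁ K] [Algebra R K] [IsScalarTower R K₁ K]
  {E : Type*} [Field E] [Algebra K E] [Algebra K₁ E] [IsScalarTower K₁ K E]
  [Algebra R E] [IsScalarTower R K E] [IsScalarTower R K₁ E]
  {π : R} {t : K} {n : ℕ} {S : Finset R}

/-- the chart `B = integralClosure R[t] E` is a noetherian integrally closed domain, finite over
`R[t]`, with fraction field `E`. -/
theorem GeoHyps.chart_instances (h : GeoHyps K₁ π t E n S) :
    IsNoetherianRing ↥(integralClosure ↥(Algebra.adjoin R {t}) E) ∧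
    IsFractionRing ↥(integralClosure ↥(Algebra.adjoin R {t}) E) E ∧
    IsIntegrallyClosed ↥(integralClosure ↥(Algebra.adjoin R {t}) E) ∧
    Module.Finite ↥(Algebra.adjoin R {t}) ↥(integralClosure ↥(Algebra.adjoin R {t}) E) := by
  haveI := h.finite
  have hT := aeval_adjoin_bijective (R := R) (K₁ := K₁) t h.transcendental
  obtain ⟨-, ufd, noeth, cz, hπA, pir⟩ := poly_instances _ hT π h.irreducible
  have frac : IsFractionRing ↥(Algebra.adjoin R {t}) K :=
    isFractionRing_adjoin (R := R) (K₁ := K₁) t h.adjoin_eq_top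
  obtain ⟨ic, fin, -⟩ := integralClosure_instances ↥(Algebra.adjoin R {t}) K E
  refine ⟨?_, ?_, ic, fin⟩
  · exact IsNoetherianRing.of_finite ↥(Algebra.adjoin R {t}) _
  · exact integralClosure.isFractionRing_of_finite_extension K E

theorem geoChart_algebraMap_algebraMap (r : R) :
    algebraMap ↥(Algebra.adjoin R {t}) ↥(integralClosure ↥(Algebra.adjoin R {t}) E)
      (algebraMap R ↥(Algebra.adjoin R {t}) r) =
    algebraMap R ↥(integralClosure ↥(Algebra.adjoin R {t}) E) r := by
  apply Subtype.ext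
  change algebraMap ↥(Algebra.adjoin R {t}) E (algebraMap R ↥(Algebra.adjoin R {t}) r) =
    algebraMap R E r
  rw [← IsScalarTower.algebraMap_apply R ↥(Algebra.adjoin R {t}) E]

/-- the kernel of the reduction of the chart is generated by `π`. -/
theorem geoChart_ker_mkB :
    RingHom.ker (mkB (A := ↥(Algebra.adjoin R {t}))
      (B := ↥(integralClosure ↥(Algebra.adjoin R {t}) E))
      (algebraMap R ↥(Algebra.adjoin R {t}) π)) =
    Ideal.span {algebraMap R ↥(integralClosure ↥(Algebra.adjoin R {t}) E) π} := by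
  rw [mkB, Ideal.mk_ker, Ideal.map_span, Set.image_singleton, geoChart_algebraMap_algebraMap]

/-- the reduction of `π` in the chart is prime. -/
theorem GeoHyps.chart_prime (h : GeoHyps K₁ π t E n S) :
    Prime (algebraMap R ↥(integralClosure ↥(Algebra.adjoin R {t}) E) π) := by
  haveI := h.finite
  have hT := aeval_adjoin_bijective (R := R) (K₁ := K₁) t h.transcendental
  obtain ⟨-, ufd, noeth, cz, hπA, pir⟩ := poly_instances _ hT π h.irreducible
  have frac : IsFractionRing ↥(Algebra.adjoin R {t}) K :=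
    isFractionRing_adjoin (R := R) (K₁ := K₁) t h.adjoin_eq_top
  have hinjRK : Function.Injective (algebraMap R K) := by
    rw [IsScalarTower.algebraMap_eq R K₁ K]
    exact (algebraMap K₁ K).injective.comp (IsFractionRing.injective R K₁)
  have hK0 : CharZero K := charZero_of_injective_algebraMap hinjRK
  obtain ⟨ic, fin, -⟩ := integralClosure_instances ↥(Algebra.adjoin R {t}) K E
  have hfaith : FaithfulSMul ↥(Algebra.adjoin R {t}) E := by
    rw [faithfulSMul_iff_algebraMap_injective]
    rw [IsScalarTower.algebraMap_eq ↥(Algebra.adjoin R {t}) K E]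
    exact (algebraMap K E).injective.comp (IsFractionRing.injective _ K)
  have hG : IsGaussAt R π t (primeValSubring K hπA) :=
    isGaussAt_primeValSubring (K := K)
      (⟨t, Algebra.self_mem_adjoin_singleton R t⟩ : ↥(Algebra.adjoin R {t})) hT hπA
  haveI hloc : IsLocalRing ↥(integralClosure ↥(primeValSubring K hπA) E) := h.isLocalRing _ hG
  have hU : Unr (primeValSubring K hπA) E := h.gauss _ hG
  have hdom : IsDomain (Bbar ↥(Algebra.adjoin R {t}) ↥(integralClosure ↥(Algebra.adjoin R {t}) E)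
      (algebraMap R ↥(Algebra.adjoin R {t}) π)) := isDomain_Bbar hπA hU
  have hprime : ((Ideal.span {algebraMap R ↥(Algebra.adjoin R {t}) π}).map
      (algebraMap ↥(Algebra.adjoin R {t}) ↥(integralClosure ↥(Algebra.adjoin R {t}) E))).IsPrime :=
    (Ideal.Quotient.isDomain_iff_prime _).mp hdom
  rw [Ideal.map_span, Set.image_singleton, geoChart_algebraMap_algebraMap] at hprime
  have hne : algebraMap R ↥(integralClosure ↥(Algebra.adjoin R {t}) E) π ≠ 0 := by
    intro h0
    have h1 : algebraMap R E π = 0 := by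
      rw [IsScalarTower.algebraMap_apply R ↥(integralClosure ↥(Algebra.adjoin R {t}) E) E, h0,
        map_zero]
    rw [IsScalarTower.algebraMap_apply R K E, map_eq_zero,
      map_eq_zero_iff _ hinjRK] at h1
    exact h.irreducible.ne_zero h1
  exact (Ideal.span_singleton_prime hne).mp hprime

end Chart

section Residue

variable {R : Type*} [CommRing R] [IsDomain R] [IsDiscreteValuationRing R] [CharZero R]
  {K₁ : Type*} [Field K₁] [Algebra R K₁] [IsFractionRing R K₁]
  {K : Type*} [Field K] [Algebra K₁ K] [Algebra R K] [IsScalarTower R K₁ K]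
  {E : Type*} [Field E] [Algebra K E] [Algebra K₁ E] [IsScalarTower K₁ K E]
  [Algebra R E] [IsScalarTower R K E] [IsScalarTower R K₁ E]
  {π : R} {t : K} {n : ℕ} {S : Finset R}

/-- the embedding of the reduction `B / π B` of the chart into the residue field `κ(W)` of the
extension `W` of the Gauss valuation (lead's `geo_chart_residue`). -/
noncomputable def geoIota (h : GeoHyps K₁ π t E n S) (𝒱 : ValuationSubring K)
    (h𝒱 : IsGaussAt R π t 𝒱) [IsLocalRing ↥(integralClosure ↥𝒱 E)] :
    Bbar ↥(Algebra.adjoin R {t}) ↥(integralClosure ↥(Algebra.adjoin R {t}) E)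
      (algebraMap R ↥(Algebra.adjoin R {t}) π) →+*
    IsLocalRing.ResidueField ↥(integralClosure ↥𝒱 E) :=
  haveI := h.finite
  Classical.choose (geo_chart_residue (K₁ := K₁) (E := E) π h.irreducible t h.transcendental
    h.adjoin_eq_top h.gauss 𝒱 h𝒱).2

theorem geoIota_spec (h : GeoHyps K₁ π t E n S) (𝒱 : ValuationSubring K)
    (h𝒱 : IsGaussAt R π t 𝒱) [IsLocalRing ↥(integralClosure ↥𝒱 E)] :
    Function.Injective (geoIota h 𝒱 h𝒱) ∧
    (∀ (x : ↥(integralClosure ↥(Algebra.adjoin R {t}) E)) (hx : IsIntegral ↥𝒱 (x : E)),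
      geoIota h 𝒱 h𝒱 (mkB (A := ↥(Algebra.adjoin R {t})) (algebraMap R ↥(Algebra.adjoin R {t}) π) x) =
        IsLocalRing.residue _ ⟨(x : E), hx⟩) ∧
    (∀ a : Abar ↥(Algebra.adjoin R {t}) (algebraMap R ↥(Algebra.adjoin R {t}) π), a ≠ 0 →
      geoIota h 𝒱 h𝒱 (algebraMap _ _ a) ≠ 0) ∧
    ∀ z : IsLocalRing.ResidueField ↥(integralClosure ↥𝒱 E),
      ∃ (x : Bbar ↥(Algebra.adjoin R {t}) ↥(integralClosure ↥(Algebra.adjoin R {t}) E)
          (algebraMap R ↥(Algebra.adjoin R {t}) π))
        (a : Abar ↥(Algebra.adjoin R {t}) (algebraMap R ↥(Algebra.adjoin R {t}) π)),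
        a ≠ 0 ∧ z * geoIota h 𝒱 h𝒱 (algebraMap _ _ a) = geoIota h 𝒱 h𝒱 x := by
  haveI := h.finite
  exact Classical.choose_spec (geo_chart_residue (K₁ := K₁) (E := E) π h.irreducible t
    h.transcendental h.adjoin_eq_top h.gauss 𝒱 h𝒱).2

end Residue

section KAlg

variable {R : Type*} [CommRing R] [IsDomain R] [IsDiscreteValuationRing R] [CharZero R]
  {K₁ : Type*} [Field K₁] [Algebra R K₁] [IsFractionRing R K₁]
  {K : Type*} [Field K] [Algebra K₁ K] [Algebra R K] [IsScalarTower R K₁ K]
  {E : Type*} [Field E] [Algebra K E] [Algebra K₁ E] [IsScalarTower K₁ K E]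
  [Algebra R E] [IsScalarTower R K E] [IsScalarTower R K₁ E]
  {π : R} {t : K} {n : ℕ} {S : Finset R}
  {k : Type*} [Field k]

/-- constants of `R` vanish in `B / π B` when they vanish in `k`. -/
theorem geoChart_algebraMap_Bbar_eq_zero (hπ : Irreducible π) (res : R →+* k) (t : K) {r : R}
    (hr : res r = 0) :
    algebraMap R (Bbar ↥(Algebra.adjoin R {t}) ↥(integralClosure ↥(Algebra.adjoin R {t}) E)
      (algebraMap R ↥(Algebra.adjoin R {t}) π)) r = 0 := by
  obtain ⟨c, rfl⟩ := dvd_of_res_eq_zero hπ res hr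
  rw [map_mul]
  have h0 : algebraMap R (Bbar ↥(Algebra.adjoin R {t})
      ↥(integralClosure ↥(Algebra.adjoin R {t}) E)
      (algebraMap R ↥(Algebra.adjoin R {t}) π)) π = 0 := by
    change mkB (A := ↥(Algebra.adjoin R {t})) (algebraMap R ↥(Algebra.adjoin R {t}) π)
      (algebraMap R ↥(integralClosure ↥(Algebra.adjoin R {t}) E) π) = 0
    rw [← RingHom.mem_ker, geoChart_ker_mkB]
    exact Ideal.subset_span rfl
  rw [h0, zero_mul]

variable (E) in
/-- the `k`-algebra structure of the reduction `B / π B` of the chart. -/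
@[reducible] noncomputable def geoAlgKBbar (hπ : Irreducible π) (res : R →+* k)
    (hres : Function.Surjective res) (t : K) :
    Algebra k (Bbar ↥(Algebra.adjoin R {t}) ↥(integralClosure ↥(Algebra.adjoin R {t}) E)
      (algebraMap R ↥(Algebra.adjoin R {t}) π)) :=
  (liftRes res hres (algebraMap R (Bbar ↥(Algebra.adjoin R {t})
    ↥(integralClosure ↥(Algebra.adjoin R {t}) E) (algebraMap R ↥(Algebra.adjoin R {t}) π)))
    (fun _ hr => geoChart_algebraMap_Bbar_eq_zero hπ res t hr)).toAlgebra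

theorem geoAlgKBbar_algebraMap_res (hπ : Irreducible π) (res : R →+* k)
    (hres : Function.Surjective res) (t : K) (r : R) :
    letI := geoAlgKBbar E hπ res hres t
    algebraMap k (Bbar ↥(Algebra.adjoin R {t}) ↥(integralClosure ↥(Algebra.adjoin R {t}) E)
      (algebraMap R ↥(Algebra.adjoin R {t}) π)) (res r) =
    mkB (A := ↥(Algebra.adjoin R {t})) (algebraMap R ↥(Algebra.adjoin R {t}) π)
      (algebraMap R ↥(integralClosure ↥(Algebra.adjoin R {t}) E) r) := by
  letI := geoAlgKBbar E hπ res hres t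
  change liftRes res hres _ _ (res r) = _
  rw [liftRes_apply]
  rfl

/-- the constants of `R` in `W = integralClosure 𝒱 E`. -/
noncomputable def gaussConst (𝒱 : ValuationSubring K) (hR : ∀ r : R, algebraMap R K r ∈ 𝒱) :
    R →+* ↥(integralClosure ↥𝒱 E) :=
  (algebraMap R E).codRestrict (integralClosure ↥𝒱 E).toSubring (fun r => by
    have h1 : algebraMap R E r = algebraMap ↥𝒱 E ⟨algebraMap R K r, hR r⟩ := by
      rw [IsScalarTower.algebraMap_apply R K E]
      rfl
    change algebraMap R E r ∈ integralClosure ↥𝒱 E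
    rw [h1]
    exact Subalgebra.algebraMap_mem _ _)

@[simp] theorem coe_gaussConst (𝒱 : ValuationSubring K) (hR : ∀ r : R, algebraMap R K r ∈ 𝒱)
    (r : R) : ((gaussConst (E := E) 𝒱 hR r : ↥(integralClosure ↥𝒱 E)) : E) = algebraMap R E r :=
  rfl

theorem IsGaussAt.algebraMap_mem {𝒱 : ValuationSubring K} (h𝒱 : IsGaussAt R π t 𝒱) (r : R) :
    algebraMap R K r ∈ 𝒱 := by
  have := h𝒱.1 (C r)
  rwa [aeval_C] at this

theorem IsGaussAt.self_mem {𝒱 : ValuationSubring K} (h𝒱 : IsGaussAt R π t 𝒱) : t ∈ 𝒱 := by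
  have := h𝒱.1 X
  rwa [aeval_X] at this

/-- `π` lies in the maximal ideal of `W`. -/
theorem residue_gaussConst_pi (h : GeoHyps K₁ π t E n S) (𝒱 : ValuationSubring K)
    (h𝒱 : IsGaussAt R π t 𝒱) [IsLocalRing ↥(integralClosure ↥𝒱 E)] :
    IsLocalRing.residue ↥(integralClosure ↥𝒱 E)
      (gaussConst (E := E) 𝒱 (fun r => h𝒱.algebraMap_mem r) π) = 0 := by
  haveI := h.finite
  rw [IsLocalRing.residue_eq_zero_iff]
  have hmem := (geo_chart_residue (K₁ := K₁) (E := E) π h.irreducible t h.transcendental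
    h.adjoin_eq_top h.gauss 𝒱 h𝒱).1
  rw [hmem]
  refine ⟨1, isIntegral_one, ?_⟩
  rw [mul_one, coe_gaussConst, IsScalarTower.algebraMap_apply R K E]

/-- the `k`-algebra structure of the residue field `κ(W)` (for a valuation subring `𝒱 ⊇ R` of `K`
such that `π` is not a unit of `W = integralClosure 𝒱 E`). -/
@[reducible] noncomputable def geoAlgKEt (hπ : Irreducible π) (𝒱 : ValuationSubring K)
    (hR : ∀ r : R, algebraMap R K r ∈ 𝒱) [IsLocalRing ↥(integralClosure ↥𝒱 E)]
    (hπW : IsLocalRing.residue ↥(integralClosure ↥𝒱 E) (gaussConst (E := E) 𝒱 hR π) = 0)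
    (res : R →+* k) (hres : Function.Surjective res) :
    Algebra k (IsLocalRing.ResidueField ↥(integralClosure ↥𝒱 E)) :=
  (liftRes res hres ((IsLocalRing.residue ↥(integralClosure ↥𝒱 E)).comp
    (gaussConst (E := E) 𝒱 hR))
    (fun r hr => by
      obtain ⟨c, rfl⟩ := dvd_of_res_eq_zero hπ res hr
      rw [map_mul, RingHom.comp_apply, hπW, zero_mul])).toAlgebra

theorem geoAlgKEt_algebraMap_res (hπ : Irreducible π) (𝒱 : ValuationSubring K)
    (hR : ∀ r : R, algebraMap R K r ∈ 𝒱) [IsLocalRing ↥(integralClosure ↥𝒱 E)]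
    (hπW : IsLocalRing.residue ↥(integralClosure ↥𝒱 E) (gaussConst (E := E) 𝒱 hR π) = 0)
    (res : R →+* k) (hres : Function.Surjective res) (r : R) :
    letI := geoAlgKEt hπ 𝒱 hR hπW res hres
    algebraMap k (IsLocalRing.ResidueField ↥(integralClosure ↥𝒱 E)) (res r) =
      IsLocalRing.residue ↥(integralClosure ↥𝒱 E) (gaussConst (E := E) 𝒱 hR r) := by
  letI := geoAlgKEt hπ 𝒱 hR hπW res hres
  change liftRes res hres _ _ (res r) = _
  rw [liftRes_apply]
  rfl

end KAlg

section ChartHyps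

variable {R : Type*} [CommRing R] [IsDomain R] [IsDiscreteValuationRing R] [CharZero R]
  {K₁ : Type*} [Field K₁] [Algebra R K₁] [IsFractionRing R K₁]
  {K : Type*} [Field K] [Algebra K₁ K] [Algebra R K] [IsScalarTower R K₁ K]
  {E : Type*} [Field E] [Algebra K E] [Algebra K₁ E] [IsScalarTower K₁ K E]
  [Algebra R E] [IsScalarTower R K E] [IsScalarTower R K₁ E]
  {π : R} {t : K} {n : ℕ} {S : Finset R}
  {k : Type*} [Field k]
  (h : GeoHyps K₁ π t E n S) (𝒱 : ValuationSubring K) (h𝒱 : IsGaussAt R π t 𝒱)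
  [IsLocalRing ↥(integralClosure ↥𝒱 E)]
  (res : R →+* k) (hres : Function.Surjective res)

variable (E) in
/-- the coordinate `t` as an element of the chart. -/
noncomputable def geoCoord (t : K) : ↥(integralClosure ↥(Algebra.adjoin R {t}) E) :=
  algebraMap ↥(Algebra.adjoin R {t}) ↥(integralClosure ↥(Algebra.adjoin R {t}) E)
    ⟨t, Algebra.self_mem_adjoin_singleton R t⟩

@[simp] theorem coe_geoCoord (t : K) :
    ((geoCoord (R := R) E t : ↥(integralClosure ↥(Algebra.adjoin R {t}) E)) : E) =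
      algebraMap K E t := rfl

theorem algebraMap_geoCoord (t : K) :
    algebraMap ↥(integralClosure ↥(Algebra.adjoin R {t}) E) E (geoCoord (R := R) E t) =
      algebraMap K E t := rfl

/-- `ι (x mod π) = x mod 𝔪_W`. -/
theorem geoIota_mkB (x : ↥(integralClosure ↥(Algebra.adjoin R {t}) E))
    (hx : IsIntegral ↥𝒱 (x : E)) :
    geoIota h 𝒱 h𝒱 (mkB (A := ↥(Algebra.adjoin R {t}))
      (algebraMap R ↥(Algebra.adjoin R {t}) π) x) =
      IsLocalRing.residue _ ⟨(x : E), hx⟩ :=
  (geoIota_spec h 𝒱 h𝒱).2.1 x hx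

include h h𝒱 in
/-- elements of the chart are integral over `𝒱`. -/
theorem isIntegral_gauss_of_mem_chart (x : ↥(integralClosure ↥(Algebra.adjoin R {t}) E)) :
    IsIntegral ↥𝒱 (x : E) := by
  have hA : ∀ a : ↥(Algebra.adjoin R {t}), (a : K) ∈ 𝒱 := by
    intro a
    have hT := aeval_adjoin_bijective (R := R) (K₁ := K₁) t h.transcendental
    obtain ⟨f, rfl⟩ := hT.2 a
    rw [coe_aeval_adjoin_gen]
    exact h𝒱.1 f
  let φ : ↥(Algebra.adjoin R {t}) →+* ↥𝒱 :=
    (algebraMap ↥(Algebra.adjoin R {t}) K).codRestrict 𝒱.toSubring hA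
  exact IsIntegral.map_of_comp_eq φ (RingHom.id E) rfl x.2

include h h𝒱 in
theorem geoChart_isScalarTower :
    letI := geoAlgKBbar E h.irreducible res hres t
    letI := geoAlgKEt h.irreducible 𝒱 (fun r => h𝒱.algebraMap_mem r)
      (residue_gaussConst_pi h 𝒱 h𝒱) res hres
    letI := (geoIota h 𝒱 h𝒱).toAlgebra
    IsScalarTower k (Bbar ↥(Algebra.adjoin R {t}) ↥(integralClosure ↥(Algebra.adjoin R {t}) E)
      (algebraMap R ↥(Algebra.adjoin R {t}) π))
      (IsLocalRing.ResidueField ↥(integralClosure ↥𝒱 E)) := by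
  letI := geoAlgKBbar E h.irreducible res hres t
  letI := geoAlgKEt h.irreducible 𝒱 (fun r => h𝒱.algebraMap_mem r)
    (residue_gaussConst_pi h 𝒱 h𝒱) res hres
  letI := (geoIota h 𝒱 h𝒱).toAlgebra
  refine IsScalarTower.of_algebraMap_eq fun c => ?_
  obtain ⟨r, rfl⟩ := hres c
  rw [geoAlgKEt_algebraMap_res, geoAlgKBbar_algebraMap_res]
  change _ = geoIota h 𝒱 h𝒱 _
  rw [geoIota_mkB h 𝒱 h𝒱 _ (isIntegral_gauss_of_mem_chart h 𝒱 h𝒱 _)]
  rfl

theorem geoChart_isFractionRing_Bbar :
    letI := (geoIota h 𝒱 h𝒱).toAlgebra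
    IsFractionRing (Bbar ↥(Algebra.adjoin R {t}) ↥(integralClosure ↥(Algebra.adjoin R {t}) E)
      (algebraMap R ↥(Algebra.adjoin R {t}) π))
      (IsLocalRing.ResidueField ↥(integralClosure ↥𝒱 E)) := by
  letI := (geoIota h 𝒱 h𝒱).toAlgebra
  obtain ⟨hinj, -, hne, hfrac⟩ := geoIota_spec h 𝒱 h𝒱
  haveI : FaithfulSMul (Bbar ↥(Algebra.adjoin R {t}) ↥(integralClosure ↥(Algebra.adjoin R {t}) E)
      (algebraMap R ↥(Algebra.adjoin R {t}) π))
      (IsLocalRing.ResidueField ↥(integralClosure ↥𝒱 E)) :=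
    (faithfulSMul_iff_algebraMap_injective _ _).mpr hinj
  apply IsFractionRing.of_field
  intro z
  obtain ⟨x, a, ha, hz⟩ := hfrac z
  refine ⟨x, algebraMap _ _ a, ?_⟩
  change z = geoIota h 𝒱 h𝒱 x / geoIota h 𝒱 h𝒱 (algebraMap _ _ a)
  rw [eq_div_iff (hne a ha)]
  exact hz

end ChartHyps

section ChartHyps2

variable {R : Type*} [CommRing R] [IsDomain R] [IsDiscreteValuationRing R] [CharZero R]
  {K₁ : Type*} [Field K₁] [Algebra R K₁] [IsFractionRing R K₁]
  {K : Type*} [Field K] [Algebra K₁ K] [Algebra R K] [IsScalarTower R K₁ K]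
  {E : Type*} [Field E] [Algebra K E] [Algebra K₁ E] [IsScalarTower K₁ K E]
  [Algebra R E] [IsScalarTower R K E] [IsScalarTower R K₁ E]
  {π : R} {t : K} {n : ℕ} {S : Finset R}
  {k : Type*} [Field k]
  (h : GeoHyps K₁ π t E n S) (𝒱 : ValuationSubring K) (h𝒱 : IsGaussAt R π t 𝒱)
  [IsLocalRing ↥(integralClosure ↥𝒱 E)]
  (res : R →+* k) (hres : Function.Surjective res)

include h in
/-- **(cov)**: a place of `κ(W)/k` at which `t̃` is regular contains the reduction of the chart. -/
theorem geoChart_cov :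
    letI := geoAlgKEt h.irreducible 𝒱 (fun r => h𝒱.algebraMap_mem r)
      (residue_gaussConst_pi h 𝒱 h𝒱) res hres
    ∀ Q : Place k (IsLocalRing.ResidueField ↥(integralClosure ↥𝒱 E)),
      geoIota h 𝒱 h𝒱 (mkB (A := ↥(Algebra.adjoin R {t})) (algebraMap R ↥(Algebra.adjoin R {t}) π)
        (geoCoord E t)) ∈ Q.toValuationSubring →
      ∀ x : Bbar ↥(Algebra.adjoin R {t}) ↥(integralClosure ↥(Algebra.adjoin R {t}) E)
        (algebraMap R ↥(Algebra.adjoin R {t}) π), geoIota h 𝒱 h𝒱 x ∈ Q.toValuationSubring := by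
  letI := geoAlgKEt h.irreducible 𝒱 (fun r => h𝒱.algebraMap_mem r)
    (residue_gaussConst_pi h 𝒱 h𝒱) res hres
  intro Q hs x
  obtain ⟨x, rfl⟩ := Ideal.Quotient.mk_surjective x
  have hT := aeval_adjoin_bijective (R := R) (K₁ := K₁) t h.transcendental
  -- the ring hom `ψ : B → κ(W)`
  set ψ : ↥(integralClosure ↥(Algebra.adjoin R {t}) E) →+*
      IsLocalRing.ResidueField ↥(integralClosure ↥𝒱 E) :=
    (geoIota h 𝒱 h𝒱).comp (mkB (A := ↥(Algebra.adjoin R {t}))
      (algebraMap R ↥(Algebra.adjoin R {t}) π)) with hψ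
  letI : Algebra ↥(Algebra.adjoin R {t}) (IsLocalRing.ResidueField ↥(integralClosure ↥𝒱 E)) :=
    (ψ.comp (algebraMap ↥(Algebra.adjoin R {t}) ↥(integralClosure ↥(Algebra.adjoin R {t}) E))).toAlgebra
  have hconst : ∀ r : R, ψ (algebraMap R ↥(integralClosure ↥(Algebra.adjoin R {t}) E) r) ∈
      Q.toValuationSubring := by
    intro r
    have h1 : ψ (algebraMap R ↥(integralClosure ↥(Algebra.adjoin R {t}) E) r) =
        algebraMap k (IsLocalRing.ResidueField ↥(integralClosure ↥𝒱 E)) (res r) := by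
      rw [geoAlgKEt_algebraMap_res, hψ, RingHom.comp_apply,
        geoIota_mkB h 𝒱 h𝒱 _ (isIntegral_gauss_of_mem_chart h 𝒱 h𝒱 _)]
      rfl
    rw [h1]
    exact Q.algebraMap_mem' _
  have hA : ∀ a : ↥(Algebra.adjoin R {t}),
      algebraMap ↥(Algebra.adjoin R {t}) (IsLocalRing.ResidueField ↥(integralClosure ↥𝒱 E)) a ∈
        Q.toValuationSubring := by
    intro a
    obtain ⟨f, rfl⟩ := hT.2 a
    change ψ (algebraMap ↥(Algebra.adjoin R {t}) ↥(integralClosure ↥(Algebra.adjoin R {t}) E)
      (aeval (⟨t, Algebra.self_mem_adjoin_singleton R t⟩ : ↥(Algebra.adjoin R {t})) f)) ∈ _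
    induction f using Polynomial.induction_on' with
    | add p q hp hq =>
      rw [map_add, map_add, map_add]
      exact Q.toValuationSubring.add_mem _ _ hp hq
    | monomial m a =>
      rw [← C_mul_X_pow_eq_monomial, map_mul, map_pow, aeval_C, aeval_X, map_mul, map_pow,
        map_mul, map_pow, geoChart_algebraMap_algebraMap]
      exact Q.toValuationSubring.mul_mem _ _ (hconst a) (Q.toValuationSubring.pow_mem hs m)
  have hint : IsIntegral ↥(Algebra.adjoin R {t}) (ψ x) := by
    have hx : IsIntegral ↥(Algebra.adjoin R {t}) x := by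
      have := x.2
      exact (isIntegral_algebraMap_iff (A := ↥(integralClosure ↥(Algebra.adjoin R {t}) E))
        (B := E) Subtype.val_injective).mp this
    exact IsIntegral.map_of_comp_eq (RingHom.id _) ψ rfl hx
  exact mem_of_isIntegral_of_forall_mem Q.toValuationSubring hA hint

end ChartHyps2

section ChartHyps3

variable {R : Type*} [CommRing R] [IsDomain R] [IsDiscreteValuationRing R] [CharZero R]
  {K₁ : Type*} [Field K₁] [Algebra R K₁] [IsFractionRing R K₁]
  {K : Type*} [Field K] [Algebra K₁ K] [Algebra R K] [IsScalarTower R K₁ K]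
  {E : Type*} [Field E] [Algebra K E] [Algebra K₁ E] [IsScalarTower K₁ K E]
  [Algebra R E] [IsScalarTower R K E] [IsScalarTower R K₁ E]
  {π : R} {t : K} {n : ℕ} {S : Finset R}

/-- **(val)**: a rational place of `E/K₁` at which `t` has a value in `R` has integral values on
the whole chart. -/
theorem geoChart_val (P₁ : Place K₁ E) (hrat : IsRationalPlace P₁)
    (hs : ∃ r : R, HasValueAt P₁ (algebraMap K E t) (algebraMap R K₁ r)) :
    (∀ x : ↥(integralClosure ↥(Algebra.adjoin R {t}) E),
      algebraMap ↥(integralClosure ↥(Algebra.adjoin R {t}) E) E x ∈ P₁.toValuationSubring) ∧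
    HasIntegralValues (R₁ := R) ↥(integralClosure ↥(Algebra.adjoin R {t}) E) P₁ := by
  have hconst : ∀ r : R, algebraMap R E r ∈ compValR R P₁ hrat := by
    intro r
    refine ⟨r, HasValueAt.of_eq ?_⟩
    rw [← IsScalarTower.algebraMap_apply R K₁ E]
  have hA : ∀ a : ↥(Algebra.adjoin R {t}),
      algebraMap ↥(Algebra.adjoin R {t}) E a ∈ compValR R P₁ hrat := by
    rintro ⟨a, ha⟩
    change algebraMap K E a ∈ _
    induction ha using Algebra.adjoin_induction with
    | mem x hx =>
      rw [Set.mem_singleton_iff] at hx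
      rw [hx]; exact hs
    | algebraMap r =>
      rw [← IsScalarTower.algebraMap_apply R K E]
      exact hconst r
    | add x y _ _ hx hy => rw [map_add]; exact (compValR R P₁ hrat).add_mem _ _ hx hy
    | mul x y _ _ hx hy => rw [map_mul]; exact (compValR R P₁ hrat).mul_mem _ _ hx hy
  have hB : ∀ x : ↥(integralClosure ↥(Algebra.adjoin R {t}) E),
      ∃ r : R, HasValueAt P₁ (algebraMap ↥(integralClosure ↥(Algebra.adjoin R {t}) E) E x)
        (algebraMap R K₁ r) := by
    intro x
    exact mem_of_isIntegral_of_forall_mem (compValR R P₁ hrat) hA x.2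
  refine ⟨fun x => ?_, (hasIntegralValues_iff_hasValueAt P₁).mpr hB⟩
  obtain ⟨r, hr⟩ := hB x
  exact hr.mem

end ChartHyps3

section NotField

variable {R : Type*} [CommRing R] [IsDomain R] [IsDiscreteValuationRing R] [CharZero R]
  {K₁ : Type*} [Field K₁] [Algebra R K₁] [IsFractionRing R K₁]
  {K : Type*} [Field K] [Algebra K₁ K] [Algebra R K] [IsScalarTower R K₁ K]
  {E : Type*} [Field E] [Algebra K E] [Algebra K₁ E] [IsScalarTower K₁ K E]
  [Algebra R E] [IsScalarTower R K E] [IsScalarTower R K₁ E]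
  {π : R} {t : K} {n : ℕ} {S : Finset R}

/-- `R[t] / π` is not a field. -/
theorem geoChart_not_isField_Abar (hπ : Irreducible π) (ht : Transcendental K₁ t) :
    ¬ IsField (Abar ↥(Algebra.adjoin R {t}) (algebraMap R ↥(Algebra.adjoin R {t}) π)) := by
  intro hF
  have hT := aeval_adjoin_bijective (R := R) (K₁ := K₁) t ht
  set g : ↥(Algebra.adjoin R {t}) := ⟨t, Algebra.self_mem_adjoin_singleton R t⟩ with hg
  have hgX : aeval g (X : R[X]) = g := aeval_X g
  have hnu : ¬ IsUnit π := hπ.not_isUnit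
  by_cases h0 : mkA (algebraMap R ↥(Algebra.adjoin R {t}) π) g = 0
  · rw [mkA_eq_zero_iff, ← hgX, ← C_dvd_iff_algebraMap_dvd_aeval g hT, C_dvd_iff_dvd_coeff] at h0
    have := h0 1
    rw [coeff_X_one] at this
    exact hnu (isUnit_of_dvd_one this)
  · obtain ⟨b, hb⟩ := hF.mul_inv_cancel h0
    obtain ⟨b, rfl⟩ := Ideal.Quotient.mk_surjective b
    obtain ⟨f, rfl⟩ := hT.2 b
    have h1 : mkA (algebraMap R ↥(Algebra.adjoin R {t}) π) (g * aeval g f - 1) = 0 := by
      rw [map_sub, map_mul, map_one]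
      exact sub_eq_zero.mpr hb
    have h2 : g * aeval g f - 1 = aeval g (X * f - 1) := by
      rw [map_sub, map_mul, aeval_X, map_one]
    rw [mkA_eq_zero_iff, h2, ← C_dvd_iff_algebraMap_dvd_aeval g hT, C_dvd_iff_dvd_coeff] at h1
    have := h1 0
    rw [coeff_sub, coeff_X_mul_zero, coeff_one_zero, zero_sub] at this
    exact hnu (isUnit_of_dvd_one ((dvd_neg).mp this))

/-- the reduction of the chart is not a field. -/
theorem GeoHyps.chart_not_isField (h : GeoHyps K₁ π t E n S) :
    ¬ IsField (Bbar ↥(Algebra.adjoin R {t}) ↥(integralClosure ↥(Algebra.adjoin R {t}) E)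
      (algebraMap R ↥(Algebra.adjoin R {t}) π)) := by
  intro hF
  haveI := h.finite
  have hT := aeval_adjoin_bijective (R := R) (K₁ := K₁) t h.transcendental
  obtain ⟨-, ufd, noeth, cz, hπA, pir⟩ := poly_instances _ hT π h.irreducible
  have frac : IsFractionRing ↥(Algebra.adjoin R {t}) K :=
    isFractionRing_adjoin (R := R) (K₁ := K₁) t h.adjoin_eq_top
  obtain ⟨ic, fin, tf⟩ := integralClosure_instances ↥(Algebra.adjoin R {t}) K E
  haveI : Algebra.IsIntegral ↥(Algebra.adjoin R {t})
      ↥(integralClosure ↥(Algebra.adjoin R {t}) E) := Algebra.IsIntegral.of_finite _ _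
  haveI : Algebra.IsIntegral (Abar ↥(Algebra.adjoin R {t}) (algebraMap R ↥(Algebra.adjoin R {t}) π))
      (Bbar ↥(Algebra.adjoin R {t}) ↥(integralClosure ↥(Algebra.adjoin R {t}) E)
        (algebraMap R ↥(Algebra.adjoin R {t}) π)) := Algebra.IsIntegral.of_finite _ _
  have hinj : Function.Injective (algebraMap
      (Abar ↥(Algebra.adjoin R {t}) (algebraMap R ↥(Algebra.adjoin R {t}) π))
      (Bbar ↥(Algebra.adjoin R {t}) ↥(integralClosure ↥(Algebra.adjoin R {t}) E)
        (algebraMap R ↥(Algebra.adjoin R {t}) π))) := by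
    rw [injective_iff_map_eq_zero]
    intro a ha
    have h1 : a • (1 : Bbar ↥(Algebra.adjoin R {t}) ↥(integralClosure ↥(Algebra.adjoin R {t}) E)
        (algebraMap R ↥(Algebra.adjoin R {t}) π)) = 0 := by
      rw [Algebra.smul_def, mul_one]; exact ha
    rcases smul_eq_zero_Bbar hπA a 1 h1 with h2 | h2
    · exact h2
    · exfalso
      have hdom : Nontrivial (Bbar ↥(Algebra.adjoin R {t})
          ↥(integralClosure ↥(Algebra.adjoin R {t}) E)
          (algebraMap R ↥(Algebra.adjoin R {t}) π)) := hF.nontrivial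
      exact one_ne_zero h2
  exact geoChart_not_isField_Abar h.irreducible h.transcendental
    (isField_of_isIntegral_of_isField hinj hF)

end NotField

end Fermat.Agent.JA
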