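/-
J-A project (helper2): reflection of a Bezout identity, for the second chart `s = t⁻¹` of the
Legendre / Hesse line.

* `isCoprime_reflect`: if `P, Q ∈ R[X]` are coprime, of degree `≤ d`, and the coefficient of `X ^ d`
  in `P` is a unit, then `P.reflect d` and `Q.reflect d` are coprime;
* `exists_bezout_reflect`: the form with an explicit Bezout identity, `d = P.natDegree`,
  `Q.natDegree < P.natDegree`, `P.leadingCoeff` a unit;
* `aeval_inv_reflect`: `aeval t⁻¹ (P.reflect d) = t⁻¹ ^ d * aeval t P` in a field, `t ≠ 0`,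
  `P.natDegree ≤ d`.
-/
import Mathlib

set_option autoImplicit false
set_option linter.style.haveILetI false

open Polynomial

namespace Fermat.Agent.JA

section Bezout

variable {R : Type*} [CommRing R]

/-- a polynomial with invertible constant coefficient is coprime to `X`. -/
theorem isCoprime_X_of_isUnit_coeff_zero {P : R[X]} (hu : IsUnit (P.coeff 0)) :
    IsCoprime P X := by
  obtain ⟨c, hc⟩ := hu.exists_left_inv
  refine ⟨C c, -(C c * P.divX), ?_⟩
  have h1 : C c * P + -(C c * P.divX) * X = C c * (P - X * P.divX) := by ring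
  have h2 : P - X * P.divX = C (P.coeff 0) := by
    have h3 := Polynomial.X_mul_divX_add P
    rw [sub_eq_iff_eq_add, add_comm]
    exact h3.symm
  rw [h1, h2, ← C_mul, hc, C_1]

/-- **reflection of a Bezout identity**: if `P, Q` are coprime, of degree `≤ d`, and the
coefficient of `X ^ d` in `P` is a unit, then `P.reflect d` and `Q.reflect d` are coprime. -/
theorem isCoprime_reflect {P Q : R[X]} (h : IsCoprime P Q) {d : ℕ} (hP : P.natDegree ≤ d)
    (hQ : Q.natDegree ≤ d) (hu : IsUnit (P.coeff d)) :
    IsCoprime (P.reflect d) (Q.reflect d) := by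
  obtain ⟨U, V, hUV⟩ := h
  set n := max U.natDegree V.natDegree with hn
  -- `X ^ (n + d)` lies in the ideal generated by the reflections
  have hX : (X : R[X]) ^ (n + d) = U.reflect n * P.reflect d + V.reflect n * Q.reflect d := by
    rw [← reflect_mul U P (le_max_left _ _) hP, ← reflect_mul V Q (le_max_right _ _) hQ,
      ← reflect_add, hUV, reflect_one]
  -- `P.reflect d` is coprime to `X ^ (n + d)`
  have hc0 : (P.reflect d).coeff 0 = P.coeff d := by
    rw [coeff_reflect, revAt_zero]
  have hcop : IsCoprime (P.reflect d) (X ^ (n + d)) :=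
    (isCoprime_X_of_isUnit_coeff_zero (by rw [hc0]; exact hu)).pow_right
  obtain ⟨a, b, hab⟩ := hcop
  refine ⟨a + b * U.reflect n, b * V.reflect n, ?_⟩
  rw [← hab, hX]
  ring

/-- **(REFLECT)** the form with an explicit Bezout identity: `U * P + V * Q = 1`,
`deg Q < deg P = d`, `P` with invertible leading coefficient. -/
theorem exists_bezout_reflect {P Q U V : R[X]} (h : U * P + V * Q = 1)
    (hdeg : Q.natDegree < P.natDegree) (hu : IsUnit P.leadingCoeff) :
    ∃ U' V' : R[X], U' * P.reflect P.natDegree + V' * Q.reflect P.natDegree = 1 :=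
  isCoprime_reflect ⟨U, V, h⟩ le_rfl hdeg.le hu

/-- the constant coefficient of the reflection. -/
theorem coeff_zero_reflect (P : R[X]) (d : ℕ) : (P.reflect d).coeff 0 = P.coeff d := by
  rw [coeff_reflect, revAt_zero]

/-- the constant coefficient of `Q.reflect d` vanishes if `deg Q < d`. -/
theorem coeff_zero_reflect_of_lt {Q : R[X]} {d : ℕ} (h : Q.natDegree < d) :
    (Q.reflect d).coeff 0 = 0 := by
  rw [coeff_zero_reflect, coeff_eq_zero_of_natDegree_lt h]

end Bezout

section Eval

variable {R : Type*} [CommRing R] {L : Type*} [Field L] [Algebra R L]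

/-- **evaluation of a reflection at `t⁻¹`.** -/
theorem aeval_inv_reflect {t : L} (ht : t ≠ 0) {P : R[X]} {d : ℕ} (hP : P.natDegree ≤ d) :
    aeval t⁻¹ (P.reflect d) = t⁻¹ ^ d * aeval t P := by
  letI : Invertible t := invertibleOfNonzero ht
  have h := eval₂_reflect_mul_pow (algebraMap R L) t d P hP
  rw [invOf_eq_inv] at h
  rw [aeval_def, aeval_def, ← h, inv_pow]
  field_simp

/-- the same with the power of `t` on the other side. -/
theorem aeval_inv_reflect_mul_pow {t : L} (ht : t ≠ 0) {P : R[X]} {d : ℕ} (hP : P.natDegree ≤ d) :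
    aeval t⁻¹ (P.reflect d) * t ^ d = aeval t P := by
  rw [aeval_inv_reflect ht hP, inv_pow]
  field_simp

/-- a quotient of two polynomials in `t` as a quotient of their reflections in `t⁻¹`. -/
theorem aeval_div_eq_aeval_inv_reflect_div {t : L} (ht : t ≠ 0) {P Q : R[X]} {d : ℕ}
    (hP : P.natDegree ≤ d) (hQ : Q.natDegree ≤ d) :
    aeval t P / aeval t Q = aeval t⁻¹ (P.reflect d) / aeval t⁻¹ (Q.reflect d) := by
  rw [aeval_inv_reflect ht hP, aeval_inv_reflect ht hQ]
  have h : t⁻¹ ^ d ≠ 0 := pow_ne_zero _ (inv_ne_zero ht)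
  rw [mul_div_mul_left _ _ h]

end Eval

end Fermat.Agent.JA
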