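/-
J-A third wave, (O1) package (P2) — helper8 — FCHART-DATA: coprime fraction data in the charts
`B_t = integralClosure R[t] E` and `B_{t⁻¹} = integralClosure R[t⁻¹] E` of lead's GEO setting for
the two F-coordinates `j = P(t)/Q(t)` and `z = (j - b)⁻¹ = Q(t)/(P(t) - b Q(t))`, from a Bezout
relation `U * P + V * Q = 1` in `R[X]`.  Pure algebra.
-/
import Fermat.Agent.JA.REDO_helper1_GeoChart
import Fermat.Agent.JA.REFLECT_helper2

set_option autoImplicit false
set_option linter.unusedSectionVars false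
set_option linter.style.haveILetI false

open Polynomial

namespace Fermat.Agent.JA

section FChartData

variable {R : Type*} [CommRing R] {K : Type*} [Field K] [Algebra R K]
  {E : Type*} [Field E] [Algebra K E] [Algebra R E] [IsScalarTower R K E]

variable (E) in
/-- the value `f(t)` of a polynomial `f ∈ R[X]` as an element of the chart
`integralClosure R[t] E`, as a ring homomorphism. -/
noncomputable def chartPoly (t : K) :
    R[X] →+* ↥(integralClosure ↥(Algebra.adjoin R {t}) E) :=
  (algebraMap ↥(Algebra.adjoin R {t}) ↥(integralClosure ↥(Algebra.adjoin R {t}) E)).comp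
    (aeval (⟨t, Algebra.self_mem_adjoin_singleton R t⟩ : ↥(Algebra.adjoin R {t})) :
      R[X] →ₐ[R] ↥(Algebra.adjoin R {t})).toRingHom

theorem chartPoly_apply (t : K) (f : R[X]) :
    chartPoly E t f =
      algebraMap ↥(Algebra.adjoin R {t}) ↥(integralClosure ↥(Algebra.adjoin R {t}) E)
        (aeval (⟨t, Algebra.self_mem_adjoin_singleton R t⟩ : ↥(Algebra.adjoin R {t})) f) := rfl

/-- the image of `f(t)` in `E`. -/
theorem algebraMap_chartPoly (t : K) (f : R[X]) :
    algebraMap ↥(integralClosure ↥(Algebra.adjoin R {t}) E) E (chartPoly E t f) =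
      algebraMap K E (aeval t f) := by
  change algebraMap K E
    ((aeval (⟨t, Algebra.self_mem_adjoin_singleton R t⟩ : ↥(Algebra.adjoin R {t})) f :
      ↥(Algebra.adjoin R {t})) : K) = _
  rw [coe_aeval_adjoin_gen]

@[simp] theorem coe_chartPoly (t : K) (f : R[X]) :
    ((chartPoly E t f : ↥(integralClosure ↥(Algebra.adjoin R {t}) E)) : E) =
      algebraMap K E (aeval t f) := algebraMap_chartPoly t f

theorem coe_chartPoly_X (t : K) :
    ((chartPoly E t (X : R[X]) : ↥(integralClosure ↥(Algebra.adjoin R {t}) E)) : E) =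
      algebraMap K E t := by
  rw [coe_chartPoly, aeval_X]

/-- `X(t)` is helper1's chart coordinate `geoCoord E t`. -/
theorem chartPoly_X (t : K) : chartPoly E t (X : R[X]) = geoCoord (R := R) E t := by
  apply Subtype.ext
  rw [coe_chartPoly_X]
  rfl

theorem chartPoly_C (t : K) (r : R) :
    chartPoly E t (C r) = algebraMap R ↥(integralClosure ↥(Algebra.adjoin R {t}) E) r := by
  apply Subtype.ext
  rw [coe_chartPoly, aeval_C, ← IsScalarTower.algebraMap_apply R K E]
  rfl

/-- coprime polynomials have coprime values in the chart. -/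
theorem isCoprime_chartPoly (t : K) {P Q : R[X]} (h : IsCoprime P Q) :
    IsCoprime (chartPoly E t P) (chartPoly E t Q) := h.map (chartPoly E t)

/-! ### chart `t`, coordinate `j = P(t)/Q(t)` -/

/-- **(t, j)** coprime fraction data in the chart `B_t` for `zE = P(t)/Q(t)`. -/
theorem fchartData (t : K) {P Q : R[X]} (hcop : IsCoprime P Q) {zE : E}
    (hz : zE * algebraMap K E (aeval t Q) = algebraMap K E (aeval t P)) :
    IsCoprime (chartPoly E t P) (chartPoly E t Q) ∧
      zE * algebraMap ↥(integralClosure ↥(Algebra.adjoin R {t}) E) E (chartPoly E t Q) =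
        algebraMap ↥(integralClosure ↥(Algebra.adjoin R {t}) E) E (chartPoly E t P) := by
  refine ⟨isCoprime_chartPoly t hcop, ?_⟩
  rw [algebraMap_chartPoly, algebraMap_chartPoly]
  exact hz

/-- existential form of `fchartData`. -/
theorem exists_fchartData (t : K) {P Q : R[X]} (hcop : IsCoprime P Q) {zE : E}
    (hz : zE * algebraMap K E (aeval t Q) = algebraMap K E (aeval t P)) :
    ∃ a b : ↥(integralClosure ↥(Algebra.adjoin R {t}) E), IsCoprime a b ∧
      zE * algebraMap ↥(integralClosure ↥(Algebra.adjoin R {t}) E) E b =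
        algebraMap ↥(integralClosure ↥(Algebra.adjoin R {t}) E) E a :=
  ⟨_, _, fchartData t hcop hz⟩

/-! ### chart `t⁻¹`, coordinate `j = P(t)/Q(t)` -/

/-- coprimality of the reflections when one of the two coefficients of `X ^ d` is a unit. -/
theorem isCoprime_reflect_of_or {P Q : R[X]} (h : IsCoprime P Q) {d : ℕ} (hP : P.natDegree ≤ d)
    (hQ : Q.natDegree ≤ d) (hu : IsUnit (P.coeff d) ∨ IsUnit (Q.coeff d)) :
    IsCoprime (P.reflect d) (Q.reflect d) := by
  rcases hu with hu | hu
  · exact isCoprime_reflect h hP hQ hu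
  · exact (isCoprime_reflect h.symm hQ hP hu).symm

/-- the line relation in the coordinate `t⁻¹`. -/
theorem line_reflect {t : K} (ht : t ≠ 0) {P Q : R[X]} {d : ℕ} (hP : P.natDegree ≤ d)
    (hQ : Q.natDegree ≤ d) {zE : E}
    (hz : zE * algebraMap K E (aeval t Q) = algebraMap K E (aeval t P)) :
    zE * algebraMap K E (aeval t⁻¹ (Q.reflect d)) = algebraMap K E (aeval t⁻¹ (P.reflect d)) := by
  rw [aeval_inv_reflect ht hP, aeval_inv_reflect ht hQ, map_mul, map_mul, ← hz]
  ring

/-- **(t⁻¹, j)** coprime fraction data in the chart `B_{t⁻¹}` for `zE = P(t)/Q(t)`. -/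
theorem fchartData_inv {t : K} (ht : t ≠ 0) {P Q : R[X]} (hcop : IsCoprime P Q) {d : ℕ}
    (hP : P.natDegree ≤ d) (hQ : Q.natDegree ≤ d)
    (hu : IsUnit (P.coeff d) ∨ IsUnit (Q.coeff d)) {zE : E}
    (hz : zE * algebraMap K E (aeval t Q) = algebraMap K E (aeval t P)) :
    IsCoprime (chartPoly E t⁻¹ (P.reflect d)) (chartPoly E t⁻¹ (Q.reflect d)) ∧
      zE * algebraMap ↥(integralClosure ↥(Algebra.adjoin R {t⁻¹}) E) E
          (chartPoly E t⁻¹ (Q.reflect d)) =
        algebraMap ↥(integralClosure ↥(Algebra.adjoin R {t⁻¹}) E) E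
          (chartPoly E t⁻¹ (P.reflect d)) :=
  fchartData t⁻¹ (isCoprime_reflect_of_or hcop hP hQ hu) (line_reflect ht hP hQ hz)

/-- existential form of `fchartData_inv`. -/
theorem exists_fchartData_inv {t : K} (ht : t ≠ 0) {P Q : R[X]} (hcop : IsCoprime P Q) {d : ℕ}
    (hP : P.natDegree ≤ d) (hQ : Q.natDegree ≤ d)
    (hu : IsUnit (P.coeff d) ∨ IsUnit (Q.coeff d)) {zE : E}
    (hz : zE * algebraMap K E (aeval t Q) = algebraMap K E (aeval t P)) :
    ∃ a b : ↥(integralClosure ↥(Algebra.adjoin R {t⁻¹}) E), IsCoprime a b ∧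
      zE * algebraMap ↥(integralClosure ↥(Algebra.adjoin R {t⁻¹}) E) E b =
        algebraMap ↥(integralClosure ↥(Algebra.adjoin R {t⁻¹}) E) E a :=
  ⟨_, _, fchartData_inv ht hcop hP hQ hu hz⟩

/-! ### the coordinate `z = (j - b)⁻¹ = Q(t)/(P(t) - b Q(t))` -/

/-- Bezout for the pair `(Q, P - b Q)`. -/
theorem isCoprime_sub_C_mul {P Q : R[X]} (hcop : IsCoprime P Q) (b : R) :
    IsCoprime Q (P - C b * Q) := by
  have h : IsCoprime (P + -C b * Q) Q := hcop.add_mul_right_left (-C b)
  have h' : P + -C b * Q = P - C b * Q := by ring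
  rw [h'] at h
  exact h.symm

/-- the explicit Bezout relation for the pair `(Q, P - b Q)`. -/
theorem bezout_sub_C_mul {P Q U V : R[X]} (h : U * P + V * Q = 1) (b : R) :
    (V + C b * U) * Q + U * (P - C b * Q) = 1 := by
  rw [← h]; ring

theorem natDegree_subCMul_le {P Q : R[X]} {d : ℕ} (hP : P.natDegree ≤ d) (hQ : Q.natDegree ≤ d)
    (b : R) : (P - C b * Q).natDegree ≤ d :=
  (natDegree_sub_le _ _).trans (max_le hP ((natDegree_C_mul_le _ _).trans hQ))

theorem coeff_sub_C_mul (P Q : R[X]) (b : R) (d : ℕ) :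
    (P - C b * Q).coeff d = P.coeff d - b * Q.coeff d := by
  rw [coeff_sub, coeff_C_mul]

/-- if `deg Q < d`, the coefficient of `X ^ d` in `P - b Q` is that of `P`. -/
theorem coeff_sub_C_mul_of_natDegree_lt (P : R[X]) {Q : R[X]} {d : ℕ} (hQ : Q.natDegree < d)
    (b : R) : (P - C b * Q).coeff d = P.coeff d := by
  rw [coeff_sub_C_mul, coeff_eq_zero_of_natDegree_lt hQ, mul_zero, sub_zero]

/-- the line relation for `z = (j - b)⁻¹`. -/
theorem line_inv_sub {t : K} {P Q : R[X]} (b : R) {jE zE : E}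
    (hj : jE * algebraMap K E (aeval t Q) = algebraMap K E (aeval t P))
    (hzj : zE * (jE - algebraMap R E b) = 1) :
    zE * algebraMap K E (aeval t (P - C b * Q)) = algebraMap K E (aeval t Q) := by
  rw [map_sub, map_mul, aeval_C, map_sub, map_mul, ← hj,
    ← IsScalarTower.algebraMap_apply R K E]
  calc zE * (jE * algebraMap K E (aeval t Q) - algebraMap R E b * algebraMap K E (aeval t Q))
      = (zE * (jE - algebraMap R E b)) * algebraMap K E (aeval t Q) := by ring
    _ = algebraMap K E (aeval t Q) := by rw [hzj, one_mul]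

/-- **(t, z)** coprime fraction data in the chart `B_t` for `zE = (j - b)⁻¹`, `j = P(t)/Q(t)`. -/
theorem fchartData_invSub (t : K) {P Q : R[X]} (hcop : IsCoprime P Q) (b : R) {jE zE : E}
    (hj : jE * algebraMap K E (aeval t Q) = algebraMap K E (aeval t P))
    (hzj : zE * (jE - algebraMap R E b) = 1) :
    IsCoprime (chartPoly E t Q) (chartPoly E t (P - C b * Q)) ∧
      zE * algebraMap ↥(integralClosure ↥(Algebra.adjoin R {t}) E) E
          (chartPoly E t (P - C b * Q)) =
        algebraMap ↥(integralClosure ↥(Algebra.adjoin R {t}) E) E (chartPoly E t Q) :=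
  fchartData t (isCoprime_sub_C_mul hcop b) (line_inv_sub b hj hzj)

/-- existential form of `fchartData_invSub`. -/
theorem exists_fchartData_invSub (t : K) {P Q : R[X]} (hcop : IsCoprime P Q) (b : R) {jE zE : E}
    (hj : jE * algebraMap K E (aeval t Q) = algebraMap K E (aeval t P))
    (hzj : zE * (jE - algebraMap R E b) = 1) :
    ∃ a c : ↥(integralClosure ↥(Algebra.adjoin R {t}) E), IsCoprime a c ∧
      zE * algebraMap ↥(integralClosure ↥(Algebra.adjoin R {t}) E) E c =
        algebraMap ↥(integralClosure ↥(Algebra.adjoin R {t}) E) E a :=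
  ⟨_, _, fchartData_invSub t hcop b hj hzj⟩

/-- **(t⁻¹, z)** coprime fraction data in the chart `B_{t⁻¹}` for `zE = (j - b)⁻¹`,
`j = P(t)/Q(t)`. -/
theorem fchartData_inv_invSub {t : K} (ht : t ≠ 0) {P Q : R[X]} (hcop : IsCoprime P Q) (b : R)
    {d : ℕ} (hP : P.natDegree ≤ d) (hQ : Q.natDegree ≤ d)
    (hu : IsUnit (Q.coeff d) ∨ IsUnit (P.coeff d - b * Q.coeff d)) {jE zE : E}
    (hj : jE * algebraMap K E (aeval t Q) = algebraMap K E (aeval t P))
    (hzj : zE * (jE - algebraMap R E b) = 1) :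
    IsCoprime (chartPoly E t⁻¹ (Q.reflect d)) (chartPoly E t⁻¹ ((P - C b * Q).reflect d)) ∧
      zE * algebraMap ↥(integralClosure ↥(Algebra.adjoin R {t⁻¹}) E) E
          (chartPoly E t⁻¹ ((P - C b * Q).reflect d)) =
        algebraMap ↥(integralClosure ↥(Algebra.adjoin R {t⁻¹}) E) E
          (chartPoly E t⁻¹ (Q.reflect d)) :=
  fchartData_inv ht (isCoprime_sub_C_mul hcop b) hQ (natDegree_subCMul_le hP hQ b)
    (by rw [coeff_sub_C_mul]; exact hu) (line_inv_sub b hj hzj)

/-- the form of `fchartData_inv_invSub` for `deg Q < d`, `P.coeff d` a unit (Legendre, Hesse). -/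
theorem fchartData_inv_invSub_of_lt {t : K} (ht : t ≠ 0) {P Q : R[X]} (hcop : IsCoprime P Q)
    (b : R) {d : ℕ} (hP : P.natDegree ≤ d) (hQ : Q.natDegree < d) (hu : IsUnit (P.coeff d))
    {jE zE : E} (hj : jE * algebraMap K E (aeval t Q) = algebraMap K E (aeval t P))
    (hzj : zE * (jE - algebraMap R E b) = 1) :
    IsCoprime (chartPoly E t⁻¹ (Q.reflect d)) (chartPoly E t⁻¹ ((P - C b * Q).reflect d)) ∧
      zE * algebraMap ↥(integralClosure ↥(Algebra.adjoin R {t⁻¹}) E) E
          (chartPoly E t⁻¹ ((P - C b * Q).reflect d)) =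
        algebraMap ↥(integralClosure ↥(Algebra.adjoin R {t⁻¹}) E) E
          (chartPoly E t⁻¹ (Q.reflect d)) :=
  fchartData_inv_invSub ht hcop b hP hQ.le
    (Or.inr (by rw [coeff_eq_zero_of_natDegree_lt hQ, mul_zero, sub_zero]; exact hu)) hj hzj

/-- existential form of `fchartData_inv_invSub`. -/
theorem exists_fchartData_inv_invSub {t : K} (ht : t ≠ 0) {P Q : R[X]} (hcop : IsCoprime P Q)
    (b : R) {d : ℕ} (hP : P.natDegree ≤ d) (hQ : Q.natDegree ≤ d)
    (hu : IsUnit (Q.coeff d) ∨ IsUnit (P.coeff d - b * Q.coeff d)) {jE zE : E}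
    (hj : jE * algebraMap K E (aeval t Q) = algebraMap K E (aeval t P))
    (hzj : zE * (jE - algebraMap R E b) = 1) :
    ∃ a c : ↥(integralClosure ↥(Algebra.adjoin R {t⁻¹}) E), IsCoprime a c ∧
      zE * algebraMap ↥(integralClosure ↥(Algebra.adjoin R {t⁻¹}) E) E c =
        algebraMap ↥(integralClosure ↥(Algebra.adjoin R {t⁻¹}) E) E a :=
  ⟨_, _, fchartData_inv_invSub ht hcop b hP hQ hu hj hzj⟩

end FChartData


end Fermat.Agent.JA
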