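/-
J-A third wave, (O1) package (P2) — helper8 — FCHART-DATA in the literal shapes of helper1's
message 827 (`geoPoly`, `fchart_data`, `fchart_data_inv`, `fchart_data_cusp`,
`fchart_data_cusp_inv`), as wrappers of `O1_helper8_FChartData`.
-/
import Fermat.Agent.JA.O1_helper8_FChartData

set_option autoImplicit false
set_option linter.unusedSectionVars false
set_option linter.unusedVariables false
set_option linter.style.haveILetI false

open Polynomial

namespace Fermat.Agent.JA

section FChartLit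

variable {R : Type*} [CommRing R] {K : Type*} [Field K] [Algebra R K]
  {E : Type*} [Field E] [Algebra K E] [Algebra R E] [IsScalarTower R K E]

/-- the value `f(t)` of `f ∈ R[X]` in the chart, as the `R`-algebra evaluation at the chart
coordinate `geoCoord E t`. -/
noncomputable def geoPoly (t : K) (f : R[X]) : ↥(integralClosure ↥(Algebra.adjoin R {t}) E) :=
  Polynomial.aeval (geoCoord (R := R) E t) f

theorem geoPoly_eq_chartPoly (t : K) (f : R[X]) :
    geoPoly (E := E) t f = chartPoly E t f := by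
  unfold geoPoly
  induction f using Polynomial.induction_on' with
  | add p q hp hq => rw [map_add, map_add, hp, hq]
  | monomial m a =>
    rw [← C_mul_X_pow_eq_monomial, map_mul, map_pow, aeval_C, aeval_X, map_mul, map_pow,
      chartPoly_C, chartPoly_X]

theorem algebraMap_geoPoly (t : K) (f : R[X]) :
    algebraMap ↥(integralClosure ↥(Algebra.adjoin R {t}) E) E (geoPoly (E := E) t f) =
      algebraMap K E (Polynomial.aeval t f) := by
  rw [geoPoly_eq_chartPoly, algebraMap_chartPoly]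

/-- **(t, j)** (helper1's literal): `a := geoPoly t P`, `b := geoPoly t Q`. -/
theorem fchart_data (t : K) (P Q U V : R[X]) (hbez : U * P + V * Q = 1) (zE : E)
    (hz : zE * algebraMap K E (aeval t Q) = algebraMap K E (aeval t P)) :
    ∃ a b : ↥(integralClosure ↥(Algebra.adjoin R {t}) E), IsCoprime a b ∧
      zE * algebraMap ↥(integralClosure ↥(Algebra.adjoin R {t}) E) E b =
        algebraMap ↥(integralClosure ↥(Algebra.adjoin R {t}) E) E a :=
  exists_fchartData t ⟨U, V, hbez⟩ hz

/-- the explicit form of `fchart_data`. -/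
theorem fchart_data_geoPoly (t : K) (P Q U V : R[X]) (hbez : U * P + V * Q = 1) (zE : E)
    (hz : zE * algebraMap K E (aeval t Q) = algebraMap K E (aeval t P)) :
    IsCoprime (geoPoly (E := E) t P) (geoPoly (E := E) t Q) ∧
      zE * algebraMap ↥(integralClosure ↥(Algebra.adjoin R {t}) E) E (geoPoly (E := E) t Q) =
        algebraMap ↥(integralClosure ↥(Algebra.adjoin R {t}) E) E (geoPoly (E := E) t P) := by
  rw [geoPoly_eq_chartPoly, geoPoly_eq_chartPoly]
  exact fchartData t ⟨U, V, hbez⟩ hz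

/-- **(t⁻¹, j)** (helper1's literal): `a := geoPoly t⁻¹ (P.reflect d)`,
`b := geoPoly t⁻¹ (Q.reflect d)`. -/
theorem fchart_data_inv (t : K) (ht : t ≠ 0) (P Q U V : R[X]) (hbez : U * P + V * Q = 1) (d : ℕ)
    (hP : P.natDegree ≤ d) (hQ : Q.natDegree ≤ d)
    (hu : IsUnit (P.coeff d) ∨ IsUnit (Q.coeff d)) (zE : E)
    (hz : zE * algebraMap K E (aeval t Q) = algebraMap K E (aeval t P)) :
    ∃ a b : ↥(integralClosure ↥(Algebra.adjoin R {t⁻¹}) E), IsCoprime a b ∧
      zE * algebraMap ↥(integralClosure ↥(Algebra.adjoin R {t⁻¹}) E) E b =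
        algebraMap ↥(integralClosure ↥(Algebra.adjoin R {t⁻¹}) E) E a :=
  exists_fchartData_inv ht ⟨U, V, hbez⟩ hP hQ hu hz

/-- **(t, (j - b)⁻¹)** (helper1's literal; no non-vanishing hypothesis is needed):
`a := geoPoly t Q`, `c := geoPoly t (P - C b * Q)`. -/
theorem fchart_data_cusp (t : K) (P Q U V : R[X]) (hbez : U * P + V * Q = 1) (zE : E)
    (hz : zE * algebraMap K E (aeval t Q) = algebraMap K E (aeval t P)) (b : R) (zE' : E)
    (hz' : zE' * (zE - algebraMap R E b) = 1) :
    ∃ a c : ↥(integralClosure ↥(Algebra.adjoin R {t}) E), IsCoprime a c ∧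
      zE' * algebraMap ↥(integralClosure ↥(Algebra.adjoin R {t}) E) E c =
        algebraMap ↥(integralClosure ↥(Algebra.adjoin R {t}) E) E a :=
  exists_fchartData_invSub t ⟨U, V, hbez⟩ b hz hz'

/-- **(t⁻¹, (j - b)⁻¹)** (helper1's literal): `a := geoPoly t⁻¹ (Q.reflect d)`,
`c := geoPoly t⁻¹ ((P - C b * Q).reflect d)`. -/
theorem fchart_data_cusp_inv (t : K) (ht : t ≠ 0) (P Q U V : R[X]) (hbez : U * P + V * Q = 1)
    (d : ℕ) (hP : P.natDegree ≤ d) (hQ : Q.natDegree ≤ d) (b : R)
    (hu : IsUnit ((P - C b * Q).coeff d) ∨ IsUnit (Q.coeff d)) (zE : E)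
    (hz : zE * algebraMap K E (aeval t Q) = algebraMap K E (aeval t P)) (zE' : E)
    (hz' : zE' * (zE - algebraMap R E b) = 1) :
    ∃ a c : ↥(integralClosure ↥(Algebra.adjoin R {t⁻¹}) E), IsCoprime a c ∧
      zE' * algebraMap ↥(integralClosure ↥(Algebra.adjoin R {t⁻¹}) E) E c =
        algebraMap ↥(integralClosure ↥(Algebra.adjoin R {t⁻¹}) E) E a :=
  exists_fchartData_inv_invSub ht ⟨U, V, hbez⟩ b hP hQ
    (by rw [← coeff_sub_C_mul]; exact hu.symm) hz hz'

/-- the form of `fchart_data_cusp_inv` for `deg Q < d`, `P.coeff d` a unit (Legendre `d = 6`,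
Hesse `d = 12`). -/
theorem fchart_data_cusp_inv_of_lt (t : K) (ht : t ≠ 0) (P Q U V : R[X])
    (hbez : U * P + V * Q = 1) (d : ℕ) (hP : P.natDegree ≤ d) (hQ : Q.natDegree < d) (b : R)
    (hu : IsUnit (P.coeff d)) (zE : E)
    (hz : zE * algebraMap K E (aeval t Q) = algebraMap K E (aeval t P)) (zE' : E)
    (hz' : zE' * (zE - algebraMap R E b) = 1) :
    ∃ a c : ↥(integralClosure ↥(Algebra.adjoin R {t⁻¹}) E), IsCoprime a c ∧
      zE' * algebraMap ↥(integralClosure ↥(Algebra.adjoin R {t⁻¹}) E) E c =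
        algebraMap ↥(integralClosure ↥(Algebra.adjoin R {t⁻¹}) E) E a :=
  ⟨_, _, fchartData_inv_invSub_of_lt ht ⟨U, V, hbez⟩ b hP hQ hu hz hz'⟩

end FChartLit

end Fermat.Agent.JA
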