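/-
J-A third wave, (O1) package (P2), part 3 — helper8 — the CONCRETE coprime fraction data of
helper1's `geo_mapDomain_eq_ord` in helper6's base package: `F₁ = F_q = keyFq K₁ N`,
`E = Etu (keyFw K₁ N w) t 1` with the algebra `baseAlgFE N w t`, the GEO coordinate
`τ ∈ K₁(t)`, for the two F-coordinates `z₁ = j` (`jGaussR`) and `z₂ = (j - b)⁻¹` (`jInvGaussR`),
in the two E-charts `τ`, `τ⁻¹`; then the Legendre (`w = 2`, `256` invertible) and Hesse (`w = 3`,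
`27` invertible) instances with `τ = t` the canonical coordinate.
-/
import Mathlib
import Fermat.Agent.JA.O1_helper6_BaseDown
import Fermat.Agent.JA.O1_helper3_Coords
import Fermat.Agent.JA.O1_helper8_FChartLit

set_option autoImplicit false
set_option linter.unusedSectionVars false
set_option linter.style.haveILetI false
set_option synthInstance.maxHeartbeats 200000

open HahnSeries IntermediateField AlgebraicCurve ModularCurve Fermat.Agent.Igusa Polynomial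

namespace Fermat.Agent.JA

open scoped Fermat.Agent.JA.Host

section Gen

variable {K₁ : Type*} [Field K₁] [Algebra ℚ K₁] (R : ValuationSubring K₁)
  (N w : ℕ) [NeZero N] [NeZero w] (t : LaurentSeries K₁)
  [Fact (K₁⟮jqNModC K₁ w⟯ ≤ keyFw K₁ N w)] [Fact (K₁⟮jqNModC K₁ w⟯ ≤ K₁⟮t⟯)]

/-- the coercion to the host of a polynomial expression over `R` in `τ ∈ K₁(t)`. -/
theorem coe_aeval_adjoinSimple (τ : ↥K₁⟮t⟯) (f : (↥R)[X]) :
    ((aeval τ f : ↥K₁⟮t⟯) : LaurentSeries K₁) =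
      aeval (τ : LaurentSeries K₁) (f.map (algebraMap ↥R K₁)) := by
  rw [aeval_def, aeval_def, eval₂_map]
  have h1 := Polynomial.hom_eval₂ f (algebraMap ↥R ↥K₁⟮t⟯)
    ((K₁⟮t⟯).val : ↥K₁⟮t⟯ →+* LaurentSeries K₁) τ
  have h2 : ((K₁⟮t⟯).val : ↥K₁⟮t⟯ →+* LaurentSeries K₁).comp (algebraMap ↥R ↥K₁⟮t⟯) =
      (algebraMap K₁ (LaurentSeries K₁)).comp (algebraMap ↥R K₁) := by
    refine RingHom.ext fun r => ?_
    show ((algebraMap ↥R ↥K₁⟮t⟯ r : ↥K₁⟮t⟯) : LaurentSeries K₁) =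
      algebraMap K₁ (LaurentSeries K₁) (algebraMap ↥R K₁ r)
    rw [IsScalarTower.algebraMap_apply ↥R K₁ ↥K₁⟮t⟯]
    rfl
  rw [h2] at h1
  exact h1

/-- helper6's `coe_baseAlgFE_algebraMap`, restated (cheap for the kernel). -/
theorem coe_baseAlgFE_algebraMap' (x : ↥(keyFq K₁ N)) :
    letI := baseAlgFE N w t
    ((algebraMap ↥(keyFq K₁ N) ↥(Host.Etu (keyFw K₁ N w) t 1) x :
      ↥(Host.Etu (keyFw K₁ N w) t 1)) : LaurentSeries K₁) =
      qExpand K₁ w (x : LaurentSeries K₁) :=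
  coe_baseAlgFE_algebraMap N w t x

/-- **the line relation in `E`** from the line relation in the host (the shape of the hypothesis
`hz` of helper6's `chartSep_of_geoHyps_gen`). -/
theorem o1_line_host (τ : ↥K₁⟮t⟯) (P Q : (↥R)[X]) (zG : ↥(gaussRing R N))
    (hz : qExpand K₁ w (coeffMap R.subtype (zG : LaurentSeries ↥R)) *
        aeval (τ : LaurentSeries K₁) (Q.map (algebraMap ↥R K₁)) =
      aeval (τ : LaurentSeries K₁) (P.map (algebraMap ↥R K₁))) :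
    letI := baseAlgFE N w t
    algebraMap ↥(keyFq K₁ N) ↥(Host.Etu (keyFw K₁ N w) t 1) (gaussι R N zG) *
        algebraMap ↥K₁⟮t⟯ ↥(Host.Etu (keyFw K₁ N w) t 1) (aeval τ Q) =
      algebraMap ↥K₁⟮t⟯ ↥(Host.Etu (keyFw K₁ N w) t 1) (aeval τ P) := by
  letI := baseAlgFE N w t
  have h1 : ((algebraMap ↥(keyFq K₁ N) ↥(Host.Etu (keyFw K₁ N w) t 1) (gaussι R N zG) :
      ↥(Host.Etu (keyFw K₁ N w) t 1)) : LaurentSeries K₁) =
      qExpand K₁ w ((gaussι R N zG : ↥(keyFq K₁ N)) : LaurentSeries K₁) :=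
    coe_baseAlgFE_algebraMap' N w t (gaussι R N zG)
  have h2 : ∀ y : ↥K₁⟮t⟯, ((algebraMap ↥K₁⟮t⟯ ↥(Host.Etu (keyFw K₁ N w) t 1) y :
      ↥(Host.Etu (keyFw K₁ N w) t 1)) : LaurentSeries K₁) = (y : LaurentSeries K₁) :=
    fun y => Host.coe_algebraMap _ _ y
  apply Subtype.ext
  rw [MulMemClass.coe_mul, h1, h2, h2, coe_aeval_adjoinSimple, coe_aeval_adjoinSimple,
    coe_gaussι]
  exact hz

/-- the relation `z₂ · (z₁ - b) = 1` in `E` for `z₁ = j`, `z₂ = (j - b)⁻¹`. -/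
theorem o1_jInv_mul_host (b : ℤ) :
    letI := baseAlgFE N w t
    algebraMap ↥(keyFq K₁ N) ↥(Host.Etu (keyFw K₁ N w) t 1) (gaussι R N (jInvGaussR R N b)) *
      (algebraMap ↥(keyFq K₁ N) ↥(Host.Etu (keyFw K₁ N w) t 1) (gaussι R N (jGaussR R N)) -
        algebraMap ↥R ↥(Host.Etu (keyFw K₁ N w) t 1) (b : ↥R)) = 1 := by
  letI := baseAlgFE N w t
  have hb : algebraMap ↥R ↥(Host.Etu (keyFw K₁ N w) t 1) (b : ↥R) =
      algebraMap ↥(keyFq K₁ N) ↥(Host.Etu (keyFw K₁ N w) t 1)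
        (algebraMap K₁ ↥(keyFq K₁ N) (b : K₁)) := by
    rw [map_intCast, map_intCast, map_intCast]
  have hne : (gaussι R N (jGaussR R N) - algebraMap K₁ ↥(keyFq K₁ N) (b : K₁) :
      ↥(keyFq K₁ N)) ≠ 0 := by
    intro h0
    have h1 : gaussι R N (jGaussR R N) = algebraMap K₁ ↥(keyFq K₁ N) (b : K₁) :=
      sub_eq_zero.mp h0
    have h2 := congrArg (fun x : ↥(keyFq K₁ N) => (x : LaurentSeries K₁)) h1
    simp only [gaussι_jGaussR] at h2
    have h3 : ((jBase K₁ N : ↥(keyFq K₁ N)) : LaurentSeries K₁) = jqModC K₁ := rfl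
    rw [h3] at h2
    exact (transcendental_jqModC K₁) (by
      rw [h2]
      exact isAlgebraic_algebraMap (R := K₁) (A := LaurentSeries K₁) (b : K₁))
  have hinv : gaussι R N (jInvGaussR R N b) =
      (gaussι R N (jGaussR R N) - algebraMap K₁ ↥(keyFq K₁ N) (b : K₁))⁻¹ := by
    apply Subtype.ext
    rw [coe_gaussι_jInvGaussR, IntermediateField.coe_inv, AddSubgroupClass.coe_sub,
      gaussι_jGaussR]
    congr 2
    show HahnSeries.C (b : K₁) = algebraMap K₁ (LaurentSeries K₁) (b : K₁)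
    rw [algebraMap_laurentSeries_eq_single]
    rfl
  rw [hb, ← map_sub, ← map_mul, hinv, inv_mul_cancel₀ hne, map_one]

variable (τ : ↥K₁⟮t⟯) (P Q U V' : (↥R)[X]) (hbez : U * P + V' * Q = 1)
  (hz : qExpand K₁ w (jqModC K₁) * aeval (τ : LaurentSeries K₁) (Q.map (algebraMap ↥R K₁)) =
    aeval (τ : LaurentSeries K₁) (P.map (algebraMap ↥R K₁)))

include hz in
/-- the line relation for `z₁ = j` in `E`. -/
theorem o1_line_j :
    letI := baseAlgFE N w t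
    algebraMap ↥(keyFq K₁ N) ↥(Host.Etu (keyFw K₁ N w) t 1) (gaussι R N (jGaussR R N)) *
        algebraMap ↥K₁⟮t⟯ ↥(Host.Etu (keyFw K₁ N w) t 1) (aeval τ Q) =
      algebraMap ↥K₁⟮t⟯ ↥(Host.Etu (keyFw K₁ N w) t 1) (aeval τ P) := by
  refine o1_line_host R N w t τ P Q (jGaussR R N) ?_
  rw [coe_jGaussR, coeffMap_jqModC]
  exact hz

include hbez hz in
/-- **(z₁ = j, chart `τ`)**. -/
theorem o1_fchart_j :
    letI := baseAlgFE N w t
    ∃ a c : ↥(integralClosure ↥(Algebra.adjoin ↥R {τ}) ↥(Host.Etu (keyFw K₁ N w) t 1)),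
      IsCoprime a c ∧
      algebraMap ↥(keyFq K₁ N) ↥(Host.Etu (keyFw K₁ N w) t 1) (gaussι R N (jGaussR R N)) *
          algebraMap ↥(integralClosure ↥(Algebra.adjoin ↥R {τ})
            ↥(Host.Etu (keyFw K₁ N w) t 1)) ↥(Host.Etu (keyFw K₁ N w) t 1) c =
        algebraMap ↥(integralClosure ↥(Algebra.adjoin ↥R {τ})
            ↥(Host.Etu (keyFw K₁ N w) t 1)) ↥(Host.Etu (keyFw K₁ N w) t 1) a := by
  letI := baseAlgFE N w t
  exact fchart_data τ P Q U V' hbez _ (o1_line_j R N w t τ P Q hz)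

include hbez hz in
/-- **(z₁ = j, chart `τ⁻¹`)**. -/
theorem o1_fchart_j_inv (hτ : τ ≠ 0) (d : ℕ) (hP : P.natDegree ≤ d) (hQ : Q.natDegree ≤ d)
    (hu : IsUnit (P.coeff d) ∨ IsUnit (Q.coeff d)) :
    letI := baseAlgFE N w t
    ∃ a c : ↥(integralClosure ↥(Algebra.adjoin ↥R {τ⁻¹}) ↥(Host.Etu (keyFw K₁ N w) t 1)),
      IsCoprime a c ∧
      algebraMap ↥(keyFq K₁ N) ↥(Host.Etu (keyFw K₁ N w) t 1) (gaussι R N (jGaussR R N)) *
          algebraMap ↥(integralClosure ↥(Algebra.adjoin ↥R {τ⁻¹})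
            ↥(Host.Etu (keyFw K₁ N w) t 1)) ↥(Host.Etu (keyFw K₁ N w) t 1) c =
        algebraMap ↥(integralClosure ↥(Algebra.adjoin ↥R {τ⁻¹})
            ↥(Host.Etu (keyFw K₁ N w) t 1)) ↥(Host.Etu (keyFw K₁ N w) t 1) a := by
  letI := baseAlgFE N w t
  exact fchart_data_inv τ hτ P Q U V' hbez d hP hQ hu _ (o1_line_j R N w t τ P Q hz)

include hbez hz in
/-- **(z₂ = (j - b)⁻¹, chart `τ`)**. -/
theorem o1_fchart_jInv (b : ℤ) :
    letI := baseAlgFE N w t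
    ∃ a c : ↥(integralClosure ↥(Algebra.adjoin ↥R {τ}) ↥(Host.Etu (keyFw K₁ N w) t 1)),
      IsCoprime a c ∧
      algebraMap ↥(keyFq K₁ N) ↥(Host.Etu (keyFw K₁ N w) t 1)
          (gaussι R N (jInvGaussR R N b)) *
          algebraMap ↥(integralClosure ↥(Algebra.adjoin ↥R {τ})
            ↥(Host.Etu (keyFw K₁ N w) t 1)) ↥(Host.Etu (keyFw K₁ N w) t 1) c =
        algebraMap ↥(integralClosure ↥(Algebra.adjoin ↥R {τ})
            ↥(Host.Etu (keyFw K₁ N w) t 1)) ↥(Host.Etu (keyFw K₁ N w) t 1) a := by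
  letI := baseAlgFE N w t
  exact fchart_data_cusp τ P Q U V' hbez _ (o1_line_j R N w t τ P Q hz) (b : ↥R) _
    (o1_jInv_mul_host R N w t b)

include hbez hz in
/-- **(z₂ = (j - b)⁻¹, chart `τ⁻¹`)**, for `deg Q < d` and `P.coeff d` a unit. -/
theorem o1_fchart_jInv_inv (hτ : τ ≠ 0) (d : ℕ) (hP : P.natDegree ≤ d) (hQ : Q.natDegree < d)
    (hu : IsUnit (P.coeff d)) (b : ℤ) :
    letI := baseAlgFE N w t
    ∃ a c : ↥(integralClosure ↥(Algebra.adjoin ↥R {τ⁻¹}) ↥(Host.Etu (keyFw K₁ N w) t 1)),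
      IsCoprime a c ∧
      algebraMap ↥(keyFq K₁ N) ↥(Host.Etu (keyFw K₁ N w) t 1)
          (gaussι R N (jInvGaussR R N b)) *
          algebraMap ↥(integralClosure ↥(Algebra.adjoin ↥R {τ⁻¹})
            ↥(Host.Etu (keyFw K₁ N w) t 1)) ↥(Host.Etu (keyFw K₁ N w) t 1) c =
        algebraMap ↥(integralClosure ↥(Algebra.adjoin ↥R {τ⁻¹})
            ↥(Host.Etu (keyFw K₁ N w) t 1)) ↥(Host.Etu (keyFw K₁ N w) t 1) a := by
  letI := baseAlgFE N w t
  exact fchart_data_cusp_inv_of_lt τ hτ P Q U V' hbez d hP hQ (b : ↥R) hu _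
    (o1_line_j R N w t τ P Q hz) _ (o1_jInv_mul_host R N w t b)

end Gen

section Legendre

variable {K₁ : Type*} [Field K₁] [Algebra ℚ K₁] (R : ValuationSubring K₁) (N : ℕ) [NeZero N]

/-- the Legendre line relation in the host, over `R`. -/
theorem qExpand_jqModC_mul_aeval_legT :
    qExpand K₁ 2 (jqModC K₁) *
        aeval ((AdjoinSimple.gen K₁ (legT K₁) : ↥K₁⟮legT K₁⟯) : LaurentSeries K₁)
          ((sepLegQ ↥R).map (algebraMap ↥R K₁)) =
      aeval ((AdjoinSimple.gen K₁ (legT K₁) : ↥K₁⟮legT K₁⟯) : LaurentSeries K₁)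
        ((sepLegP ↥R).map (algebraMap ↥R K₁)) := by
  rw [AdjoinSimple.coe_gen, map_sepLegP, map_sepLegQ]
  have hP : sepLegP K₁ = (256 * (X ^ 2 - X + 1) ^ 3 : K₁[X]) := by
    rw [sepLegP, map_ofNat Polynomial.C 256]
  rw [hP, sepLegQ]
  exact jqNModC_mul_aeval_legT K₁

theorem gen_legT_ne_zero : (AdjoinSimple.gen K₁ (legT K₁) : ↥K₁⟮legT K₁⟯) ≠ 0 := by
  intro h0
  have h1 := congrArg (fun x : ↥K₁⟮legT K₁⟯ => (x : LaurentSeries K₁)) h0
  simp only [AdjoinSimple.coe_gen, ZeroMemClass.coe_zero] at h1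
  exact (transcendental_legT K₁) (h1 ▸ isAlgebraic_zero)

set_option maxHeartbeats 800000 in
/-- **the four coprime fraction data of `geo_mapDomain_eq_ord` for the Legendre tower**
(`256` invertible in `R`): `(z₁, τ)`, `(z₂, τ)`, `(z₁, τ⁻¹)`, `(z₂, τ⁻¹)` with `z₁ = j`,
`z₂ = (j - b)⁻¹`, `τ = t` the canonical Legendre coordinate. -/
theorem o1_fchart_legE (c : ↥R) (hc : 256 * c = 1) (b : ℤ) :
    letI := baseAlgFE (K₁ := K₁) N 2 (legT K₁)
    (∃ a c' : ↥(integralClosure ↥(Algebra.adjoin ↥R {AdjoinSimple.gen K₁ (legT K₁)})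
        ↥(legE K₁ N)), IsCoprime a c' ∧
      algebraMap ↥(keyFq K₁ N) ↥(legE K₁ N) (gaussι R N (jGaussR R N)) *
          algebraMap _ ↥(legE K₁ N) c' = algebraMap _ ↥(legE K₁ N) a) ∧
    (∃ a c' : ↥(integralClosure ↥(Algebra.adjoin ↥R {AdjoinSimple.gen K₁ (legT K₁)})
        ↥(legE K₁ N)), IsCoprime a c' ∧
      algebraMap ↥(keyFq K₁ N) ↥(legE K₁ N) (gaussι R N (jInvGaussR R N b)) *
          algebraMap _ ↥(legE K₁ N) c' = algebraMap _ ↥(legE K₁ N) a) ∧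
    (∃ a c' : ↥(integralClosure ↥(Algebra.adjoin ↥R {(AdjoinSimple.gen K₁ (legT K₁))⁻¹})
        ↥(legE K₁ N)), IsCoprime a c' ∧
      algebraMap ↥(keyFq K₁ N) ↥(legE K₁ N) (gaussι R N (jGaussR R N)) *
          algebraMap _ ↥(legE K₁ N) c' = algebraMap _ ↥(legE K₁ N) a) ∧
    (∃ a c' : ↥(integralClosure ↥(Algebra.adjoin ↥R {(AdjoinSimple.gen K₁ (legT K₁))⁻¹})
        ↥(legE K₁ N)), IsCoprime a c' ∧
      algebraMap ↥(keyFq K₁ N) ↥(legE K₁ N) (gaussι R N (jInvGaussR R N b)) *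
          algebraMap _ ↥(legE K₁ N) c' = algebraMap _ ↥(legE K₁ N) a) := by
  letI := baseAlgFE (K₁ := K₁) N 2 (legT K₁)
  have h256 : IsUnit (256 : ↥R) := IsUnit.of_mul_eq_one _ hc
  have hdP : (sepLegP ↥R).natDegree = 6 := natDegree_sepLegP h256
  have hdQ : (sepLegQ ↥R).natDegree = 4 := natDegree_sepLegQ
  have hcoeff : (sepLegP ↥R).coeff 6 = 256 := by
    rw [← hdP, coeff_natDegree, leadingCoeff_sepLegP]
  have hu : IsUnit ((sepLegP ↥R).coeff 6) := by rw [hcoeff]; exact h256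
  have hbez := sepLeg_bezout c hc
  have hz := qExpand_jqModC_mul_aeval_legT (K₁ := K₁) R
  refine ⟨?_, ?_, ?_, ?_⟩
  · exact o1_fchart_j R N 2 (legT K₁) _ _ _ _ _ hbez hz
  · exact o1_fchart_jInv R N 2 (legT K₁) _ _ _ _ _ hbez hz b
  · exact o1_fchart_j_inv R N 2 (legT K₁) _ _ _ _ _ hbez hz gen_legT_ne_zero 6 hdP.le
      (by rw [hdQ]; norm_num) (Or.inl hu)
  · exact o1_fchart_jInv_inv R N 2 (legT K₁) _ _ _ _ _ hbez hz gen_legT_ne_zero 6 hdP.le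
      (by rw [hdQ]; norm_num) hu b

end Legendre

section Hesse

variable {K₁ : Type*} [Field K₁] [Algebra ℚ K₁] (R : ValuationSubring K₁) (N : ℕ) [NeZero N]

/-- the Hesse line relation in the host, over `R`. -/
theorem qExpand_jqModC_mul_aeval_hesT :
    qExpand K₁ 3 (jqModC K₁) *
        aeval ((AdjoinSimple.gen K₁ (hesT K₁) : ↥K₁⟮hesT K₁⟯) : LaurentSeries K₁)
          ((sepHesQ ↥R).map (algebraMap ↥R K₁)) =
      aeval ((AdjoinSimple.gen K₁ (hesT K₁) : ↥K₁⟮hesT K₁⟯) : LaurentSeries K₁)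
        ((sepHesP ↥R).map (algebraMap ↥R K₁)) := by
  rw [AdjoinSimple.coe_gen, map_sepHesP, map_sepHesQ]
  have hP : sepHesP K₁ = (27 * X ^ 3 * (X ^ 3 + 8) ^ 3 : K₁[X]) := by
    rw [sepHesP, map_ofNat Polynomial.C 27, mul_assoc]
  rw [hP, sepHesQ]
  exact jqNModC_mul_aeval_hesT K₁

theorem gen_hesT_ne_zero : (AdjoinSimple.gen K₁ (hesT K₁) : ↥K₁⟮hesT K₁⟯) ≠ 0 := by
  intro h0
  have h1 := congrArg (fun x : ↥K₁⟮hesT K₁⟯ => (x : LaurentSeries K₁)) h0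
  simp only [AdjoinSimple.coe_gen, ZeroMemClass.coe_zero] at h1
  exact (transcendental_hesT K₁) (h1 ▸ isAlgebraic_zero)

set_option maxHeartbeats 800000 in
/-- **the four coprime fraction data of `geo_mapDomain_eq_ord` for the Hesse tower**
(`27` invertible in `R`). -/
theorem o1_fchart_hesE (d e : ↥R) (hd : 19683 * d = 1) (he : 27 * e = 1) (b : ℤ) :
    letI := baseAlgFE (K₁ := K₁) N 3 (hesT K₁)
    (∃ a c' : ↥(integralClosure ↥(Algebra.adjoin ↥R {AdjoinSimple.gen K₁ (hesT K₁)})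
        ↥(hesE K₁ N)), IsCoprime a c' ∧
      algebraMap ↥(keyFq K₁ N) ↥(hesE K₁ N) (gaussι R N (jGaussR R N)) *
          algebraMap _ ↥(hesE K₁ N) c' = algebraMap _ ↥(hesE K₁ N) a) ∧
    (∃ a c' : ↥(integralClosure ↥(Algebra.adjoin ↥R {AdjoinSimple.gen K₁ (hesT K₁)})
        ↥(hesE K₁ N)), IsCoprime a c' ∧
      algebraMap ↥(keyFq K₁ N) ↥(hesE K₁ N) (gaussι R N (jInvGaussR R N b)) *
          algebraMap _ ↥(hesE K₁ N) c' = algebraMap _ ↥(hesE K₁ N) a) ∧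
    (∃ a c' : ↥(integralClosure ↥(Algebra.adjoin ↥R {(AdjoinSimple.gen K₁ (hesT K₁))⁻¹})
        ↥(hesE K₁ N)), IsCoprime a c' ∧
      algebraMap ↥(keyFq K₁ N) ↥(hesE K₁ N) (gaussι R N (jGaussR R N)) *
          algebraMap _ ↥(hesE K₁ N) c' = algebraMap _ ↥(hesE K₁ N) a) ∧
    (∃ a c' : ↥(integralClosure ↥(Algebra.adjoin ↥R {(AdjoinSimple.gen K₁ (hesT K₁))⁻¹})
        ↥(hesE K₁ N)), IsCoprime a c' ∧
      algebraMap ↥(keyFq K₁ N) ↥(hesE K₁ N) (gaussι R N (jInvGaussR R N b)) *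
          algebraMap _ ↥(hesE K₁ N) c' = algebraMap _ ↥(hesE K₁ N) a) := by
  letI := baseAlgFE (K₁ := K₁) N 3 (hesT K₁)
  have h27 : IsUnit (27 : ↥R) := IsUnit.of_mul_eq_one _ he
  have hdP : (sepHesP ↥R).natDegree = 12 := natDegree_sepHesP h27
  have hdQ : (sepHesQ ↥R).natDegree = 9 := natDegree_sepHesQ
  have hcoeff : (sepHesP ↥R).coeff 12 = 27 := by
    rw [← hdP, coeff_natDegree, leadingCoeff_sepHesP]
  have hu : IsUnit ((sepHesP ↥R).coeff 12) := by rw [hcoeff]; exact h27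
  have hbez := sepHes_bezout d e hd he
  have hz := qExpand_jqModC_mul_aeval_hesT (K₁ := K₁) R
  refine ⟨?_, ?_, ?_, ?_⟩
  · exact o1_fchart_j R N 3 (hesT K₁) _ _ _ _ _ hbez hz
  · exact o1_fchart_jInv R N 3 (hesT K₁) _ _ _ _ _ hbez hz b
  · exact o1_fchart_j_inv R N 3 (hesT K₁) _ _ _ _ _ hbez hz gen_hesT_ne_zero 12 hdP.le
      (by rw [hdQ]; norm_num) (Or.inl hu)
  · exact o1_fchart_jInv_inv R N 3 (hesT K₁) _ _ _ _ _ hbez hz gen_hesT_ne_zero 12 hdP.le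
      (by rw [hdQ]; norm_num) hu b

end Hesse

end Fermat.Agent.JA
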