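/-
(DOWN-FI) (helper7, for helper1's O1): the fundamental identity `∑ e = [F' : F]` over the fibre of
a place, in the abstract `{K F F'}` setting of `H0_helper7_Dict`, with the fibre produced from the
bijection with the primes of the integral closure (so NO `HasPrincipalDivisors`, NO `CharZero`).
-/
import Mathlib
import Fermat.Agent.JA.H0_helper7_Dict

set_option autoImplicit false
set_option linter.unusedSectionVars false
set_option linter.unusedVariables false

open AlgebraicCurve IsDedekindDomain

namespace Fermat.Agent.JA

open Fermat.Agent.FF Fermat.Agent.FF.Gal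

variable {K F F' : Type*} [Field K] [Field F] [Field F'] [Algebra K F] [Algebra K F']
  [Algebra F F'] [IsScalarTower K F F']

section DownFI

variable [Algebra.IsIntegral F F'] [FiniteDimensional F F'] [Algebra.IsSeparable F F']

/-- the place of `F'` attached to a prime of the integral closure of `v` over the maximal ideal. -/
noncomputable def placeOfPrimesOver (v : Place K F)
    (q : (IsLocalRing.maximalIdeal v.toValuationSubring).primesOver (intCl F' v)) : Place K F' :=
  placeOf v ⟨q.1, q.2.1,
    Ideal.ne_bot_of_mem_primesOver (IsDiscreteValuationRing.not_a_field _) q.2⟩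

theorem liesOver_placeOfPrimesOver (v : Place K F)
    (q : (IsLocalRing.maximalIdeal v.toValuationSubring).primesOver (intCl F' v)) :
    LiesOver (placeOfPrimesOver v q) v :=
  liesOver_placeOf v _

theorem center_placeOfPrimesOver (v : Place K F)
    (q : (IsLocalRing.maximalIdeal v.toValuationSubring).primesOver (intCl F' v)) :
    center (liesOver_placeOfPrimesOver v q) = q.1 :=
  center_placeOf v _

theorem placeOfPrimesOver_injective (v : Place K F) :
    Function.Injective (placeOfPrimesOver (F' := F') v) := by
  intro q q' h
  apply Subtype.ext
  rw [← center_placeOfPrimesOver v q, ← center_placeOfPrimesOver v q']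
  congr 1

/-- every place over `v` is `placeOfPrimesOver` of its center. -/
theorem exists_placeOfPrimesOver_eq {v : Place K F} {w : Place K F'} (h : LiesOver w v) :
    ∃ q : (IsLocalRing.maximalIdeal v.toValuationSubring).primesOver (intCl F' v),
      placeOfPrimesOver v q = w := by
  refine ⟨⟨center h, center_isPrime _, inferInstance⟩, ?_⟩
  apply eq_of_center_eq (liesOver_placeOfPrimesOver v _) h
  exact center_placeOfPrimesOver v _

/-- **(DOWN-FI)**: the fibre of a place of `F` in a finite separable extension `F'`, as a finset,
with the fundamental identity `∑ e = [F' : F]` when all places have degree one. -/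
theorem exists_fiber_sum_ramificationIndex
    (hdeg : ∀ v : Place K F, v.deg = 1) (hdeg' : ∀ w : Place K F', w.deg = 1)
    (v : Place K F) :
    ∃ S : Finset (Place K F'), (∀ w, w ∈ S ↔ w.restrict F = v) ∧
      ∑ w ∈ S, (w.ramificationIndex F : ℤ) = (Module.finrank F F' : ℤ) := by
  classical
  refine ⟨Finset.univ.image (placeOfPrimesOver (F' := F') v), ?_, ?_⟩
  · intro w
    rw [Finset.mem_image]
    constructor
    · rintro ⟨q, -, rfl⟩
      exact liesOver_iff_restrict_eq.mp (liesOver_placeOfPrimesOver v q)
    · intro hw
      obtain ⟨q, hq⟩ := exists_placeOfPrimesOver_eq (liesOver_iff_restrict_eq.mpr hw)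
      exact ⟨q, Finset.mem_univ _, hq⟩
  · rw [Finset.sum_image fun q _ q' _ h => placeOfPrimesOver_injective v h]
    have h2 := Ideal.sum_ramification_inertia_eq_finrank
      (IsLocalRing.maximalIdeal v.toValuationSubring) (intCl F' v)
    have h3 : Module.finrank v.toValuationSubring (intCl F' v) = Module.finrank F F' :=
      (IsFractionRing.finrank_eq v.toValuationSubring F (intCl F' v) F').symm
    rw [← h3, ← h2, Nat.cast_sum]
    refine Finset.sum_congr rfl fun q _ => ?_
    have hl := liesOver_placeOfPrimesOver v q
    have h4 := ramificationIdx_center_eq hl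
    have h5 := inertiaDeg_center_eq_one hl (hdeg' _)
    rw [center_placeOfPrimesOver] at h4 h5
    rw [h4, h5, mul_one]

end DownFI

end Fermat.Agent.JA
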