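/-
J-A third wave, package REDO (helper1) — the DOWNSTAIRS layer of (O1): for the unique extension
`W = integralClosure 𝒱 E` of a Gauss valuation ring `𝒱 ⊆ K = K₁(t)` to `E`, a subfield `F₁ ⊆ E`
with valuation ring `V = W ∩ F₁` and residue map `resV : V → F̃` (onto a field `F̃`):
* (D1) the `F̃`-algebra structure of `Ẽ = κ(W)` and its formula on residues;
* the `k`-tower, the degree `[Ẽ : F̃] = [E : F₁]` (helper6's NCR degree theorem);
* separability of `Ẽ / F̃` from unramifiedness over a common subring `𝒢₀ ⊆ K₀ ⊆ K ∩ F₁`.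
-/
import Fermat.Agent.JA.REDO_helper1_GeoChart
import Fermat.Agent.JA.SEP_helper6_Chart
import Fermat.Agent.JA.GAUSSUNIQ_helper6

set_option autoImplicit false
set_option linter.unusedSectionVars false
set_option linter.style.haveILetI false

open AlgebraicCurve IsLocalRing IsDedekindDomain Polynomial

namespace Fermat.Agent.JA

open Fermat.Agent.FF

section DownAlg

variable {K : Type*} [Field K] {E : Type*} [Field E] [Algebra K E]
  (𝒱 : ValuationSubring K) [IsLocalRing ↥(integralClosure ↥𝒱 E)]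
  {F₁ : Type*} [Field F₁] [Algebra F₁ E] (V : ValuationSubring F₁)
  (hV : ∀ x : F₁, x ∈ V ↔ IsIntegral ↥𝒱 (algebraMap F₁ E x))
  {Ft : Type*} [Field Ft] (resV : ↥V →+* Ft) (hresV : Function.Surjective resV)

/-- the inclusion `V → W`. -/
def downIncl : ↥V →+* ↥(integralClosure ↥𝒱 E) where
  toFun v := ⟨algebraMap F₁ E (v : F₁), (hV _).mp v.2⟩
  map_one' := Subtype.ext (by simp)
  map_mul' a b := Subtype.ext (by simp)
  map_zero' := Subtype.ext (by simp)
  map_add' a b := Subtype.ext (by simp)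

@[simp] theorem coe_downIncl (v : ↥V) :
    ((downIncl 𝒱 V hV v : ↥(integralClosure ↥𝒱 E)) : E) = algebraMap F₁ E (v : F₁) := rfl

include hresV in
/-- the kernel of `resV` is the maximal ideal of `V`. -/
theorem down_resV_eq_zero_iff (v : ↥V) : resV v = 0 ↔ ¬ IsUnit v := by
  have hker : RingHom.ker resV = maximalIdeal ↥V :=
    IsLocalRing.eq_maximalIdeal (RingHom.ker_isMaximal_of_surjective resV hresV)
  rw [← RingHom.mem_ker, hker, IsLocalRing.mem_maximalIdeal, mem_nonunits_iff]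

include hresV in
theorem residue_downIncl_eq_zero (v : ↥V) (hv : resV v = 0) :
    IsLocalRing.residue ↥(integralClosure ↥𝒱 E) (downIncl 𝒱 V hV v) = 0 := by
  rw [down_resV_eq_zero_iff V resV hresV] at hv
  rw [IsLocalRing.residue_eq_zero_iff, IsLocalRing.mem_maximalIdeal, mem_nonunits_iff]
  intro hu
  apply hv
  obtain ⟨u, hu⟩ := hu.exists_right_inv
  have h1 : algebraMap F₁ E (v : F₁) * (u : E) = 1 := by
    have := congrArg (fun x : ↥(integralClosure ↥𝒱 E) => (x : E)) hu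
    simpa using this
  have hv0 : (v : F₁) ≠ 0 := by
    intro h0
    rw [h0, map_zero, zero_mul] at h1
    exact zero_ne_one h1
  have huE : (u : E) = algebraMap F₁ E (v : F₁)⁻¹ := by
    rw [map_inv₀]
    exact eq_inv_of_mul_eq_one_right h1
  have hinv : (v : F₁)⁻¹ ∈ V := by
    rw [hV, ← huE]; exact u.2
  exact IsUnit.of_mul_eq_one ⟨(v : F₁)⁻¹, hinv⟩ (Subtype.ext (by simp [mul_inv_cancel₀ hv0]))

/-- **(D1)** the induced map of residue fields `F̃ → κ(W)`. -/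
noncomputable def downHom : Ft →+* IsLocalRing.ResidueField ↥(integralClosure ↥𝒱 E) :=
  liftRes resV hresV ((IsLocalRing.residue ↥(integralClosure ↥𝒱 E)).comp (downIncl 𝒱 V hV))
    (fun v hv => residue_downIncl_eq_zero 𝒱 V hV resV hresV v hv)

theorem downHom_resV (v : ↥V) :
    downHom 𝒱 V hV resV hresV (resV v) =
      IsLocalRing.residue ↥(integralClosure ↥𝒱 E) (downIncl 𝒱 V hV v) := by
  unfold downHom
  rw [liftRes_apply]
  rfl

/-- **(D1)** the `F̃`-algebra structure of `κ(W)`. -/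
@[reducible] noncomputable def downAlg :
    Algebra Ft (IsLocalRing.ResidueField ↥(integralClosure ↥𝒱 E)) :=
  (downHom 𝒱 V hV resV hresV).toAlgebra

theorem downAlg_algebraMap_resV (v : ↥V) :
    letI := downAlg 𝒱 V hV resV hresV
    algebraMap Ft (IsLocalRing.ResidueField ↥(integralClosure ↥𝒱 E)) (resV v) =
      IsLocalRing.residue ↥(integralClosure ↥𝒱 E) (downIncl 𝒱 V hV v) :=
  downHom_resV 𝒱 V hV resV hresV v

/-- the formula of (D1) for an arbitrary integral representative. -/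
theorem downAlg_algebraMap_resV' (v : ↥V) (w : ↥(integralClosure ↥𝒱 E))
    (hw : (w : E) = algebraMap F₁ E (v : F₁)) :
    letI := downAlg 𝒱 V hV resV hresV
    algebraMap Ft (IsLocalRing.ResidueField ↥(integralClosure ↥𝒱 E)) (resV v) =
      IsLocalRing.residue ↥(integralClosure ↥𝒱 E) w := by
  letI := downAlg 𝒱 V hV resV hresV
  rw [downAlg_algebraMap_resV]
  congr 1
  exact Subtype.ext hw.symm

end DownAlg

section DownGeo

variable {R : Type*} [CommRing R] [IsDomain R] [IsDiscreteValuationRing R] [CharZero R]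
  {K₁ : Type*} [Field K₁] [Algebra R K₁] [IsFractionRing R K₁]
  {K : Type*} [Field K] [Algebra K₁ K] [Algebra R K] [IsScalarTower R K₁ K]
  {E : Type*} [Field E] [Algebra K E] [Algebra K₁ E] [IsScalarTower K₁ K E]
  [Algebra R E] [IsScalarTower R K E] [IsScalarTower R K₁ E]
  {π : R} {t : K} {n : ℕ} {S : Finset R}
  {k : Type*} [Field k]
  (h : GeoHyps K₁ π t E n S) (𝒱 : ValuationSubring K) (h𝒱 : IsGaussAt R π t 𝒱)
  [IsLocalRing ↥(integralClosure ↥𝒱 E)]
  (res : R →+* k) (hres : Function.Surjective res)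
  {F₁ : Type*} [Field F₁] [Algebra F₁ E] (V : ValuationSubring F₁)
  (hV : ∀ x : F₁, x ∈ V ↔ IsIntegral ↥𝒱 (algebraMap F₁ E x))
  {Ft : Type*} [Field Ft] [Algebra k Ft] (resV : ↥V →+* Ft) (hresV : Function.Surjective resV)
  (φ : R →+* F₁)
  (hφ : ∀ r : R, algebraMap F₁ E (φ r) = algebraMap K E (algebraMap R K r))
  (hresRV : ∀ (r : R) (v : ↥V), (v : F₁) = φ r → resV v = algebraMap k Ft (res r))

include h𝒱 hV hφ in
/-- the constants of `R` lie in `V`. -/
theorem down_const_mem (r : R) : φ r ∈ V := by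
  rw [hV, hφ]
  have h1 : algebraMap K E (algebraMap R K r) =
      algebraMap ↥𝒱 E ⟨algebraMap R K r, h𝒱.algebraMap_mem r⟩ := rfl
  rw [h1]
  exact isIntegral_algebraMap

include h h𝒱 hφ hresRV in
/-- the `k`-tower `k → F̃ → κ(W)`. -/
theorem down_isScalarTower :
    letI := geoAlgKEt h.irreducible 𝒱 (fun r => h𝒱.algebraMap_mem r)
      (residue_gaussConst_pi h 𝒱 h𝒱) res hres
    letI := downAlg 𝒱 V hV resV hresV
    IsScalarTower k Ft (IsLocalRing.ResidueField ↥(integralClosure ↥𝒱 E)) := by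
  letI := geoAlgKEt h.irreducible 𝒱 (fun r => h𝒱.algebraMap_mem r)
    (residue_gaussConst_pi h 𝒱 h𝒱) res hres
  letI := downAlg 𝒱 V hV resV hresV
  refine IsScalarTower.of_algebraMap_eq fun c => ?_
  obtain ⟨r, rfl⟩ := hres c
  rw [geoAlgKEt_algebraMap_res]
  have hmem := down_const_mem 𝒱 h𝒱 V hV φ hφ r
  rw [← hresRV r ⟨φ r, hmem⟩ rfl, downAlg_algebraMap_resV]
  congr 1
  apply Subtype.ext
  rw [coe_gaussConst, coe_downIncl, hφ, ← IsScalarTower.algebraMap_apply R K E]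

include h h𝒱 hφ hresRV in
/-- **(D4a)** the degree downstairs is the degree upstairs: `[κ(W) : F̃] = [E : F₁]`. -/
theorem down_finrank [FiniteDimensional F₁ E] [Algebra.IsSeparable F₁ E]
    [IsDiscreteValuationRing ↥V] (hπres : res π = 0)
    (hint : ∀ x : E, IsIntegral ↥𝒱 x → IsIntegral ↥V x) :
    letI := downAlg 𝒱 V hV resV hresV
    Module.finrank Ft (IsLocalRing.ResidueField ↥(integralClosure ↥𝒱 E)) = Module.finrank F₁ E := by
  letI := downAlg 𝒱 V hV resV hresV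
  haveI := h.finite
  have hinjRK : Function.Injective (algebraMap R K) := by
    rw [IsScalarTower.algebraMap_eq R K₁ K]
    exact (algebraMap K₁ K).injective.comp (IsFractionRing.injective R K₁)
  haveI hK0 : CharZero K := charZero_of_injective_algebraMap hinjRK
  haveI : IsDiscreteValuationRing ↥𝒱 :=
    isDiscreteValuationRing_of_isGaussAt π h.irreducible t h.transcendental h.adjoin_eq_top h𝒱
  have hmemW := (geo_chart_residue (K₁ := K₁) (E := E) π h.irreducible t h.transcendental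
    h.adjoin_eq_top h.gauss 𝒱 h𝒱).1
  have hπV := down_const_mem 𝒱 h𝒱 V hV φ hφ π
  refine finrank_res_eq_finrank_of_isIntegral (V := V) (W := closureValSub (E := E) 𝒱) resV
    (closureValSubRes (E := E) 𝒱) (fun x => hV x) hresV (closureValSubRes_surjective 𝒱)
    (fun v w hw => ?_) (fun w => hint _ w.2) (fun w hw => ?_)
  · rw [downAlg_algebraMap_resV' 𝒱 V hV resV hresV v (closureValSubEquiv 𝒱 w) hw]
    rfl
  · have hw' : closureValSubEquiv 𝒱 w ∈ maximalIdeal ↥(integralClosure ↥𝒱 E) :=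
      (IsLocalRing.residue_eq_zero_iff _).mp hw
    obtain ⟨v, hv, hwv⟩ := (hmemW _).mp hw'
    refine ⟨⟨φ π, hπV⟩, ⟨v, hv⟩, ?_, ?_⟩
    · rw [hresRV π ⟨φ π, hπV⟩ rfl, hπres, map_zero]
    · rw [hφ]
      exact hwv

end DownGeo

section DownSep

variable {K₀ K E F₁ : Type*} [Field K₀] [Field K] [Field E] [Field F₁]
  [Algebra K₀ K] [Algebra K E] [Algebra K₀ E] [IsScalarTower K₀ K E]
  [Algebra K₀ F₁] [Algebra F₁ E] [IsScalarTower K₀ F₁ E]
  [FiniteDimensional K₀ K] [FiniteDimensional K E] [CharZero K₀]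
  (𝒢₀ : ValuationSubring K₀) [IsDiscreteValuationRing ↥𝒢₀]
  (𝒱 : ValuationSubring K) [IsDiscreteValuationRing ↥𝒱] [IsLocalRing ↥(integralClosure ↥𝒱 E)]
  (h𝒢₀𝒱 : ∀ x : K, x ∈ 𝒱 ↔ IsIntegral ↥𝒢₀ x)

/-- the inclusion `𝒢₀ → 𝒱`. -/
def sepIncl : ↥𝒢₀ →+* ↥𝒱 where
  toFun s := ⟨algebraMap K₀ K (s : K₀), (h𝒢₀𝒱 _).mpr (by
    have h1 : algebraMap K₀ K (s : K₀) = algebraMap ↥𝒢₀ K s := rfl
    rw [h1]; exact isIntegral_algebraMap)⟩
  map_one' := Subtype.ext (by simp)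
  map_mul' a b := Subtype.ext (by simp)
  map_zero' := Subtype.ext (by simp)
  map_add' a b := Subtype.ext (by simp)

include h𝒢₀𝒱 in
theorem formallyUnramified_sepIncl (hU₀ : Unr 𝒢₀ K) :
    letI := (sepIncl 𝒢₀ 𝒱 h𝒢₀𝒱).toAlgebra
    Algebra.FormallyUnramified ↥𝒢₀ ↥𝒱 := by
  letI := (sepIncl 𝒢₀ 𝒱 h𝒢₀𝒱).toAlgebra
  haveI : Algebra.FormallyUnramified ↥𝒢₀ ↥(integralClosure ↥𝒢₀ K) := hU₀
  let e : ↥(integralClosure ↥𝒢₀ K) ≃ₐ[↥𝒢₀] ↥𝒱 :=
    { toFun := fun x => ⟨(x : K), (h𝒢₀𝒱 _).mpr x.2⟩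
      invFun := fun x => ⟨(x : K), (h𝒢₀𝒱 _).mp x.2⟩
      left_inv := fun _ => rfl
      right_inv := fun _ => rfl
      map_mul' := fun _ _ => rfl
      map_add' := fun _ _ => rfl
      commutes' := fun _ => rfl }
  exact Algebra.FormallyUnramified.of_equiv e

variable (hU₀ : Unr 𝒢₀ K) (hU : Unr 𝒱 E)
  (V : ValuationSubring F₁) (hV : ∀ x : F₁, x ∈ V ↔ IsIntegral ↥𝒱 (algebraMap F₁ E x))
  (h𝒢₀V : ∀ s : K₀, s ∈ 𝒢₀ ↔ algebraMap K₀ F₁ s ∈ V)
  {Ft : Type*} [Field Ft] (resV : ↥V →+* Ft) (hresV : Function.Surjective resV)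

/-- the inclusion `𝒢₀ → V`. -/
def sepInclV : ↥𝒢₀ →+* ↥V where
  toFun s := ⟨algebraMap K₀ F₁ (s : K₀), (h𝒢₀V _).mp s.2⟩
  map_one' := Subtype.ext (by simp)
  map_mul' a b := Subtype.ext (by simp)
  map_zero' := Subtype.ext (by simp)
  map_add' a b := Subtype.ext (by simp)

include hresV in
theorem resV_sepInclV_eq_zero (s : ↥𝒢₀) (hs : IsLocalRing.residue ↥𝒢₀ s = 0) :
    resV (sepInclV 𝒢₀ V h𝒢₀V s) = 0 := by
  rw [down_resV_eq_zero_iff V resV hresV]
  rw [IsLocalRing.residue_eq_zero_iff, IsLocalRing.mem_maximalIdeal, mem_nonunits_iff] at hs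
  intro hu
  apply hs
  obtain ⟨u, hu⟩ := hu.exists_right_inv
  have h1 : algebraMap K₀ F₁ (s : K₀) * (u : F₁) = 1 := by
    have := congrArg (fun x : ↥V => (x : F₁)) hu
    simpa [sepInclV] using this
  have hs0 : (s : K₀) ≠ 0 := by
    intro h0
    rw [h0, map_zero, zero_mul] at h1
    exact zero_ne_one h1
  have hu' : (u : F₁) = algebraMap K₀ F₁ (s : K₀)⁻¹ := by
    rw [map_inv₀]
    exact eq_inv_of_mul_eq_one_right h1
  have hinv : (s : K₀)⁻¹ ∈ 𝒢₀ := by
    rw [h𝒢₀V, ← hu']; exact u.2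
  exact IsUnit.of_mul_eq_one ⟨(s : K₀)⁻¹, hinv⟩ (Subtype.ext (by simp [mul_inv_cancel₀ hs0]))

include h𝒢₀𝒱 hU₀ hU h𝒢₀V in
set_option maxHeartbeats 1600000 in
/-- **(D4b)** `κ(W) / F̃` is separable. -/
theorem down_isSeparable :
    letI := downAlg 𝒱 V hV resV hresV
    Algebra.IsSeparable Ft (IsLocalRing.ResidueField ↥(integralClosure ↥𝒱 E)) ∧
      Module.Finite Ft (IsLocalRing.ResidueField ↥(integralClosure ↥𝒱 E)) := by
  letI := downAlg 𝒱 V hV resV hresV
  haveI hK0 : CharZero K := charZero_of_injective_algebraMap (algebraMap K₀ K).injective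
  -- the algebra structures `𝒢₀ → 𝒱 → W`
  letI alg1 : Algebra ↥𝒢₀ ↥𝒱 := (sepIncl 𝒢₀ 𝒱 h𝒢₀𝒱).toAlgebra
  letI alg2 : Algebra ↥𝒢₀ ↥(integralClosure ↥𝒱 E) :=
    ((algebraMap ↥𝒱 ↥(integralClosure ↥𝒱 E)).comp (sepIncl 𝒢₀ 𝒱 h𝒢₀𝒱)).toAlgebra
  haveI tow : IsScalarTower ↥𝒢₀ ↥𝒱 ↥(integralClosure ↥𝒱 E) :=
    IsScalarTower.of_algebraMap_eq fun _ => rfl
  haveI unr1 : Algebra.FormallyUnramified ↥𝒢₀ ↥𝒱 := formallyUnramified_sepIncl 𝒢₀ 𝒱 h𝒢₀𝒱 hU₀
  haveI unr2 : Algebra.FormallyUnramified ↥𝒱 ↥(integralClosure ↥𝒱 E) := hU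
  haveI unr : Algebra.FormallyUnramified ↥𝒢₀ ↥(integralClosure ↥𝒱 E) :=
    Algebra.FormallyUnramified.comp ↥𝒢₀ ↥𝒱 ↥(integralClosure ↥𝒱 E)
  -- finiteness
  haveI fin2 : Module.Finite ↥𝒱 ↥(integralClosure ↥𝒱 E) :=
    IsIntegralClosure.finite ↥𝒱 K E ↥(integralClosure ↥𝒱 E)
  haveI fin1 : Module.Finite ↥𝒢₀ ↥𝒱 := by
    haveI : Module.Finite ↥𝒢₀ ↥(integralClosure ↥𝒢₀ K) :=
      IsIntegralClosure.finite ↥𝒢₀ K₀ K ↥(integralClosure ↥𝒢₀ K)
    let e : ↥(integralClosure ↥𝒢₀ K) ≃ₗ[↥𝒢₀] ↥𝒱 :=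
      { toFun := fun x => ⟨(x : K), (h𝒢₀𝒱 _).mpr x.2⟩
        invFun := fun x => ⟨(x : K), (h𝒢₀𝒱 _).mp x.2⟩
        left_inv := fun _ => rfl
        right_inv := fun _ => rfl
        map_add' := fun _ _ => rfl
        map_smul' := fun a x => by
          apply Subtype.ext
          simp only [RingHom.id_apply]
          rw [Algebra.smul_def, Algebra.smul_def]
          rfl }
    exact Module.Finite.equiv e
  haveI fin : Module.Finite ↥𝒢₀ ↥(integralClosure ↥𝒱 E) :=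
    Module.Finite.trans ↥𝒱 ↥(integralClosure ↥𝒱 E)
  -- the structure map is local
  haveI loc : IsLocalHom (algebraMap ↥𝒢₀ ↥(integralClosure ↥𝒱 E)) := by
    constructor
    intro a ha
    obtain ⟨u, hu⟩ := ha.exists_right_inv
    have h1 : algebraMap K E (algebraMap K₀ K (a : K₀)) * (u : E) = 1 := by
      have := congrArg (fun x : ↥(integralClosure ↥𝒱 E) => (x : E)) hu
      exact this
    have ha0 : (a : K₀) ≠ 0 := by
      intro h0
      rw [h0, map_zero, map_zero, zero_mul] at h1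
      exact zero_ne_one h1
    have hu' : (u : E) = algebraMap K E (algebraMap K₀ K (a : K₀)⁻¹) := by
      rw [map_inv₀, map_inv₀]
      exact eq_inv_of_mul_eq_one_right h1
    have h2 : IsIntegral ↥𝒱 (algebraMap K E (algebraMap K₀ K (a : K₀)⁻¹)) := hu' ▸ u.2
    have h3 : IsIntegral ↥𝒱 (algebraMap K₀ K (a : K₀)⁻¹) :=
      (isIntegral_algebraMap_iff (algebraMap K E).injective).mp h2
    obtain ⟨y, hy⟩ := IsIntegrallyClosed.isIntegral_iff.mp h3
    have h4 : algebraMap K₀ K (a : K₀)⁻¹ ∈ 𝒱 := by rw [← hy]; exact y.2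
    have h5 : IsIntegral ↥𝒢₀ (algebraMap K₀ K (a : K₀)⁻¹) := (h𝒢₀𝒱 _).mp h4
    have h6 : IsIntegral ↥𝒢₀ ((a : K₀)⁻¹) :=
      (isIntegral_algebraMap_iff (algebraMap K₀ K).injective).mp h5
    obtain ⟨z, hz⟩ := IsIntegrallyClosed.isIntegral_iff.mp h6
    have h7 : (a : K₀)⁻¹ ∈ 𝒢₀ := by rw [← hz]; exact z.2
    exact IsUnit.of_mul_eq_one ⟨(a : K₀)⁻¹, h7⟩ (Subtype.ext (by simp [mul_inv_cancel₀ ha0]))
  haveI sep0 : Algebra.IsSeparable (IsLocalRing.ResidueField ↥𝒢₀)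
      (IsLocalRing.ResidueField ↥(integralClosure ↥𝒱 E)) := inferInstance
  -- the intermediate structure `κ(𝒢₀) → F̃`
  letI alg3 : Algebra (IsLocalRing.ResidueField ↥𝒢₀) Ft :=
    (liftRes (IsLocalRing.residue ↥𝒢₀) IsLocalRing.residue_surjective
      (resV.comp (sepInclV 𝒢₀ V h𝒢₀V))
      (fun s hs => resV_sepInclV_eq_zero 𝒢₀ V h𝒢₀V resV hresV s hs)).toAlgebra
  haveI tow3 : IsScalarTower (IsLocalRing.ResidueField ↥𝒢₀) Ft
      (IsLocalRing.ResidueField ↥(integralClosure ↥𝒱 E)) := by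
    refine IsScalarTower.of_algebraMap_eq fun c => ?_
    obtain ⟨s, rfl⟩ := IsLocalRing.residue_surjective c
    have h1 : algebraMap (IsLocalRing.ResidueField ↥𝒢₀) Ft (IsLocalRing.residue ↥𝒢₀ s) =
        resV (sepInclV 𝒢₀ V h𝒢₀V s) := by
      change liftRes _ _ _ _ (IsLocalRing.residue ↥𝒢₀ s) = _
      rw [liftRes_apply]
      rfl
    rw [h1, downAlg_algebraMap_resV, IsLocalRing.ResidueField.algebraMap_residue]
    congr 1
    apply Subtype.ext
    change algebraMap K E (algebraMap K₀ K (s : K₀)) = algebraMap F₁ E (algebraMap K₀ F₁ (s : K₀))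
    rw [← IsScalarTower.algebraMap_apply K₀ K E, ← IsScalarTower.algebraMap_apply K₀ F₁ E]
  exact ⟨Algebra.isSeparable_tower_top_of_isSeparable (IsLocalRing.ResidueField ↥𝒢₀) Ft
    (IsLocalRing.ResidueField ↥(integralClosure ↥𝒱 E)),
    Module.Finite.of_restrictScalars_finite (IsLocalRing.ResidueField ↥𝒢₀) Ft
      (IsLocalRing.ResidueField ↥(integralClosure ↥𝒱 E))⟩

end DownSep

section DownDeg

open IntermediateField

variable {k F F' : Type*} [Field k] [Field F] [Field F'] [Algebra k F] [Algebra k F']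
  [Algebra F F'] [IsScalarTower k F F']

/-- algebraicity over `k(x₀)` goes up along an algebraic extension. -/
theorem isAlgebraic_adjoin_algebraMap [Algebra.IsAlgebraic F F'] (x₀ : F)
    (halg : Algebra.IsAlgebraic k⟮x₀⟯ F) : Algebra.IsAlgebraic k⟮algebraMap F F' x₀⟯ F' := by
  set f : F →ₐ[k] F' := IsScalarTower.toAlgHom k F F' with hf
  have hmap : (k⟮x₀⟯).map f = k⟮algebraMap F F' x₀⟯ := by
    rw [IntermediateField.adjoin_map, Set.image_singleton]
    rfl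
  -- the restriction `k(x₀) → k(f x₀)`
  let ψ : ↥k⟮x₀⟯ →+* ↥k⟮algebraMap F F' x₀⟯ :=
    (f.toRingHom.comp (algebraMap ↥k⟮x₀⟯ F)).codRestrict (k⟮algebraMap F F' x₀⟯).toSubfield
      (fun a => by
        have : f (a : F) ∈ (k⟮x₀⟯).map f := ⟨a, a.2, rfl⟩
        rw [hmap] at this
        exact this)
  -- elements of the image of `F` are algebraic
  have h1 : ∀ y : F, IsAlgebraic ↥k⟮algebraMap F F' x₀⟯ (algebraMap F F' y) := by
    intro y
    obtain ⟨p, hp0, hp⟩ := halg.isAlgebraic y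
    refine ⟨p.map ψ, (Polynomial.map_ne_zero_iff ψ.injective).mpr hp0, ?_⟩
    rw [aeval_def, eval₂_map]
    have h2 : (algebraMap ↥k⟮algebraMap F F' x₀⟯ F').comp ψ =
        (algebraMap F F').comp (algebraMap ↥k⟮x₀⟯ F) := RingHom.ext fun a => rfl
    rw [h2, ← Polynomial.hom_eval₂, ← aeval_def, hp, map_zero]
  -- transitivity through the algebraic closure of `k(f x₀)` in `F'`
  set M : IntermediateField ↥k⟮algebraMap F F' x₀⟯ F' :=
    algebraicClosure ↥k⟮algebraMap F F' x₀⟯ F' with hM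
  haveI : Algebra.IsAlgebraic ↥k⟮algebraMap F F' x₀⟯ ↥M :=
    algebraicClosure.isAlgebraic _ _
  constructor
  intro z
  have hz : IsIntegral F z := Algebra.IsIntegral.isIntegral z
  let φ : F →+* ↥M := (algebraMap F F').codRestrict M.toSubfield
    (fun y => (mem_algebraicClosure_iff').mpr (h1 y).isIntegral)
  have hzM : IsIntegral ↥M z := by
    obtain ⟨q, hq, hqz⟩ := hz
    refine ⟨q.map φ, hq.map φ, ?_⟩
    rw [eval₂_map]
    have h3 : (algebraMap ↥M F').comp φ = algebraMap F F' := RingHom.ext fun y => rfl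
    rw [h3]
    exact hqz
  exact (hzM.isAlgebraic).restrictScalars ↥k⟮algebraMap F F' x₀⟯

end DownDeg

end Fermat.Agent.JA
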