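/-
J-A third wave, (O1)-(P5) — helper9: **the downstairs fundamental identity `hdown`** and the
integrality `hintd` of `κ(W) / F̃`, in the union of the settings `DownGeo` and `DownSep` of
`REDO_helper1_Down`: for every place `Q` of `F̃ / k` the fibre in `κ(W)` is a finset `T` with
`∑_{w ∈ T} e(w | Q) = [E : F₁]`.
-/
import Mathlib
import Fermat.Agent.JA.REDO_helper1_Down
import Fermat.Agent.JA.DOWNFI_helper7
import Fermat.Agent.JA.DEGK_helper8

set_option autoImplicit false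
set_option linter.unusedSectionVars false
set_option linter.style.haveILetI false

open AlgebraicCurve IsLocalRing IsDedekindDomain Polynomial IntermediateField

namespace Fermat.Agent.JA

open Fermat.Agent.FF

section HDown

variable {R : Type*} [CommRing R] [IsDomain R] [IsDiscreteValuationRing R] [CharZero R]
  {K₁ : Type*} [Field K₁] [Algebra R K₁] [IsFractionRing R K₁]
  {K : Type*} [Field K] [Algebra K₁ K] [Algebra R K] [IsScalarTower R K₁ K]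
  {E : Type*} [Field E] [Algebra K E] [Algebra K₁ E] [IsScalarTower K₁ K E]
  [Algebra R E] [IsScalarTower R K E] [IsScalarTower R K₁ E]
  {π : R} {t : K} {n : ℕ} {S : Finset R}
  {k : Type*} [Field k]
  (h : GeoHyps K₁ π t E n S) (𝒱 : ValuationSubring K) (h𝒱 : IsGaussAt R π t 𝒱)
  [IsLocalRing ↥(integralClosure ↥𝒱 E)]
  (res : R →+* k) (hres : Function.Surjective res)
  {F₁ : Type*} [Field F₁] [Algebra F₁ E] (V : ValuationSubring F₁)
  (hV : ∀ x : F₁, x ∈ V ↔ IsIntegral ↥𝒱 (algebraMap F₁ E x))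
  {Ft : Type*} [Field Ft] [Algebra k Ft] (resV : ↥V →+* Ft) (hresV : Function.Surjective resV)
  (cR : R →+* F₁)
  (hcR : ∀ r : R, algebraMap F₁ E (cR r) = algebraMap K E (algebraMap R K r))
  (hresRV : ∀ (r : R) (v : ↥V), (v : F₁) = cR r → resV v = algebraMap k Ft (res r))
  -- the common subfield `K₀ ⊆ K ∩ F₁` of `DownSep`
  {K₀ : Type*} [Field K₀] [Algebra K₀ K] [Algebra K₀ E] [IsScalarTower K₀ K E]
  [Algebra K₀ F₁] [IsScalarTower K₀ F₁ E] [FiniteDimensional K₀ K] [CharZero K₀]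
  (𝒢₀ : ValuationSubring K₀) [IsDiscreteValuationRing ↥𝒢₀]
  (h𝒢₀𝒱 : ∀ x : K, x ∈ 𝒱 ↔ IsIntegral ↥𝒢₀ x) (hU₀ : Unr 𝒢₀ K) (hU : Unr 𝒱 E)
  (h𝒢₀V : ∀ s : K₀, s ∈ 𝒢₀ ↔ algebraMap K₀ F₁ s ∈ V)

include h h𝒱 h𝒢₀𝒱 hU₀ hU h𝒢₀V in
/-- `κ(W) / F̃` is finite and separable (the `DownSep` conclusion in the `GeoHyps` setting). -/
theorem down_isSeparable_geo :
    letI := downAlg 𝒱 V hV resV hresV
    Algebra.IsSeparable Ft (IsLocalRing.ResidueField ↥(integralClosure ↥𝒱 E)) ∧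
      Module.Finite Ft (IsLocalRing.ResidueField ↥(integralClosure ↥𝒱 E)) := by
  haveI := h.finite
  haveI : IsDiscreteValuationRing ↥𝒱 :=
    isDiscreteValuationRing_of_isGaussAt π h.irreducible t h.transcendental h.adjoin_eq_top h𝒱
  exact down_isSeparable 𝒢₀ 𝒱 h𝒢₀𝒱 hU₀ hU V hV h𝒢₀V resV hresV

include h h𝒱 h𝒢₀𝒱 hU₀ hU h𝒢₀V in
/-- **`hintd`**: `κ(W) / F̃` is integral. -/
theorem down_hintd :
    letI := downAlg 𝒱 V hV resV hresV
    Algebra.IsIntegral Ft (IsLocalRing.ResidueField ↥(integralClosure ↥𝒱 E)) := by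
  letI := downAlg 𝒱 V hV resV hresV
  haveI := (down_isSeparable_geo h 𝒱 h𝒱 V hV resV hresV 𝒢₀ h𝒢₀𝒱 hU₀ hU h𝒢₀V).2
  exact Algebra.IsIntegral.of_finite Ft _

include h h𝒱 hcR hresRV h𝒢₀𝒱 hU₀ hU h𝒢₀V in
/-- **(O1)-(P5) `hdown`**: the fibre of every place of `F̃ / k` in `κ(W)` with the fundamental
identity `∑ e = [E : F₁]`. -/
theorem down_hdown [IsAlgClosed k] (x₀ : Ft) (halg : Algebra.IsAlgebraic k⟮x₀⟯ Ft)
    [FiniteDimensional F₁ E] [Algebra.IsSeparable F₁ E] [IsDiscreteValuationRing ↥V]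
    (hπres : res π = 0) (hint : ∀ x : E, IsIntegral ↥𝒱 x → IsIntegral ↥V x) :
    letI := geoAlgKEt h.irreducible 𝒱 (fun r => h𝒱.algebraMap_mem r)
      (residue_gaussConst_pi h 𝒱 h𝒱) res hres
    letI := downAlg 𝒱 V hV resV hresV
    haveI : IsScalarTower k Ft (IsLocalRing.ResidueField ↥(integralClosure ↥𝒱 E)) :=
      down_isScalarTower h 𝒱 h𝒱 res hres V hV resV hresV cR hcR hresRV
    haveI : Algebra.IsIntegral Ft (IsLocalRing.ResidueField ↥(integralClosure ↥𝒱 E)) :=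
      down_hintd h 𝒱 h𝒱 V hV resV hresV 𝒢₀ h𝒢₀𝒱 hU₀ hU h𝒢₀V
    ∀ Q : Place k Ft, ∃ T : Finset (Place k (IsLocalRing.ResidueField ↥(integralClosure ↥𝒱 E))),
      (∀ w, w ∈ T ↔ w.restrict Ft = Q) ∧
        ∑ w ∈ T, (w.ramificationIndex Ft : ℤ) = (Module.finrank F₁ E : ℤ) := by
  letI := geoAlgKEt h.irreducible 𝒱 (fun r => h𝒱.algebraMap_mem r)
    (residue_gaussConst_pi h 𝒱 h𝒱) res hres
  letI := downAlg 𝒱 V hV resV hresV
  haveI : IsScalarTower k Ft (IsLocalRing.ResidueField ↥(integralClosure ↥𝒱 E)) :=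
    down_isScalarTower h 𝒱 h𝒱 res hres V hV resV hresV cR hcR hresRV
  haveI : Algebra.IsIntegral Ft (IsLocalRing.ResidueField ↥(integralClosure ↥𝒱 E)) :=
    down_hintd h 𝒱 h𝒱 V hV resV hresV 𝒢₀ h𝒢₀𝒱 hU₀ hU h𝒢₀V
  obtain ⟨hsep, hfin⟩ := down_isSeparable_geo h 𝒱 h𝒱 V hV resV hresV 𝒢₀ h𝒢₀𝒱 hU₀ hU h𝒢₀V
  haveI := hsep
  haveI := hfin
  haveI : Algebra.IsAlgebraic Ft (IsLocalRing.ResidueField ↥(integralClosure ↥𝒱 E)) :=
    Algebra.IsAlgebraic.of_finite Ft _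
  have hrank := down_finrank h 𝒱 h𝒱 res V hV resV hresV cR hcR hresRV hπres hint
  intro Q
  have key := exists_fiber_sum_ramificationIndex (K := k) (F := Ft)
    (F' := IsLocalRing.ResidueField ↥(integralClosure ↥𝒱 E))
    (fun v => degk_deg_eq_one x₀ halg v)
    (fun w => degk_deg_eq_one
      (algebraMap Ft (IsLocalRing.ResidueField ↥(integralClosure ↥𝒱 E)) x₀)
      (isAlgebraic_adjoin_algebraMap x₀ halg) w) Q
  rw [hrank] at key
  exact key

end HDown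

end Fermat.Agent.JA
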