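/-
J-A third wave, package REDO (helper1) — the links between the DOWNSTAIRS layer (`V ⊆ F₁`,
`resV : V → F̃`, `Ẽ = κ(W)` as an `F̃`-algebra) and the chart `B = integralClosure R[t] E` of lead's
GEO setting with its reduction `ι ∘ ρ : B → B/πB → κ(W)`:
* `down_link` : `x · v' = u` in `E` (`x ∈ V`, `u, v' ∈ B`) gives `x̃ · ι ρ v' = ι ρ u`;
* `down_exists_fraction` : a Gauss unit `x ∈ V` (`x̃ ≠ 0`) is a fraction `a / b` of chart elements
  with `ρ a ≠ 0`, `ρ b ≠ 0` and `x̃ = ι ρ a / ι ρ b`.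
-/
import Fermat.Agent.JA.REDO_helper1_Down
import Fermat.Agent.JA.GEO_lead_Local

set_option autoImplicit false
set_option linter.unusedSectionVars false
set_option linter.style.haveILetI false

open AlgebraicCurve IsLocalRing IsDedekindDomain Polynomial

namespace Fermat.Agent.JA

open Fermat.Agent.FF

section DownGeoLink

variable {R : Type*} [CommRing R] [IsDomain R] [IsDiscreteValuationRing R] [CharZero R]
  {K₁ : Type*} [Field K₁] [Algebra R K₁] [IsFractionRing R K₁]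
  {K : Type*} [Field K] [Algebra K₁ K] [Algebra R K] [IsScalarTower R K₁ K]
  {E : Type*} [Field E] [Algebra K E] [Algebra K₁ E] [IsScalarTower K₁ K E]
  [Algebra R E] [IsScalarTower R K E] [IsScalarTower R K₁ E]
  {π : R} {t : K} {n : ℕ} {S : Finset R}
  (h : GeoHyps K₁ π t E n S) (𝒱 : ValuationSubring K) (h𝒱 : IsGaussAt R π t 𝒱)
  [IsLocalRing ↥(integralClosure ↥𝒱 E)]
  {F₁ : Type*} [Field F₁] [Algebra F₁ E] (V : ValuationSubring F₁)
  (hV : ∀ x : F₁, x ∈ V ↔ IsIntegral ↥𝒱 (algebraMap F₁ E x))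
  {Ft : Type*} [Field Ft] (resV : ↥V →+* Ft) (hresV : Function.Surjective resV)

/-- **(link)** a relation `x · v' = u` in `E` reduces to `x̃ · ι ρ v' = ι ρ u` in `κ(W)`. -/
theorem down_link (v : ↥V) (u v' : ↥(integralClosure ↥(Algebra.adjoin R {t}) E))
    (huv : algebraMap F₁ E (v : F₁) *
      algebraMap ↥(integralClosure ↥(Algebra.adjoin R {t}) E) E v' =
      algebraMap ↥(integralClosure ↥(Algebra.adjoin R {t}) E) E u) :
    letI := downAlg 𝒱 V hV resV hresV
    algebraMap Ft (IsLocalRing.ResidueField ↥(integralClosure ↥𝒱 E)) (resV v) *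
      geoIota h 𝒱 h𝒱 (mkB (A := ↥(Algebra.adjoin R {t}))
        (algebraMap R ↥(Algebra.adjoin R {t}) π) v') =
      geoIota h 𝒱 h𝒱 (mkB (A := ↥(Algebra.adjoin R {t}))
        (algebraMap R ↥(Algebra.adjoin R {t}) π) u) := by
  letI := downAlg 𝒱 V hV resV hresV
  rw [downAlg_algebraMap_resV,
    geoIota_mkB h 𝒱 h𝒱 _ (isIntegral_gauss_of_mem_chart h 𝒱 h𝒱 _),
    geoIota_mkB h 𝒱 h𝒱 _ (isIntegral_gauss_of_mem_chart h 𝒱 h𝒱 _), ← map_mul]
  congr 1
  exact Subtype.ext huv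

include hresV in
/-- **(fraction data)** a Gauss unit of `V` as a fraction of chart elements with nonzero
reductions. -/
theorem down_exists_fraction (v : ↥V) (hv : resV v ≠ 0) :
    letI := downAlg 𝒱 V hV resV hresV
    ∃ a b : ↥(integralClosure ↥(Algebra.adjoin R {t}) E),
      mkB (A := ↥(Algebra.adjoin R {t})) (algebraMap R ↥(Algebra.adjoin R {t}) π) a ≠ 0 ∧
      mkB (A := ↥(Algebra.adjoin R {t})) (algebraMap R ↥(Algebra.adjoin R {t}) π) b ≠ 0 ∧
      algebraMap F₁ E (v : F₁) =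
        algebraMap ↥(integralClosure ↥(Algebra.adjoin R {t}) E) E a /
          algebraMap ↥(integralClosure ↥(Algebra.adjoin R {t}) E) E b ∧
      algebraMap Ft (IsLocalRing.ResidueField ↥(integralClosure ↥𝒱 E)) (resV v) =
        geoIota h 𝒱 h𝒱 (mkB (A := ↥(Algebra.adjoin R {t}))
          (algebraMap R ↥(Algebra.adjoin R {t}) π) a) /
        geoIota h 𝒱 h𝒱 (mkB (A := ↥(Algebra.adjoin R {t}))
          (algebraMap R ↥(Algebra.adjoin R {t}) π) b) := by
  letI := downAlg 𝒱 V hV resV hresV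
  haveI := h.finite
  have hT := aeval_adjoin_bijective (R := R) (K₁ := K₁) t h.transcendental
  obtain ⟨-, ufd, noeth, cz, hπA, pir⟩ := poly_instances _ hT π h.irreducible
  have frac : IsFractionRing ↥(Algebra.adjoin R {t}) K :=
    isFractionRing_adjoin (R := R) (K₁ := K₁) t h.adjoin_eq_top
  have h𝒱eq : 𝒱 = primeValSubring K hπA :=
    eq_primeValSubring_of_isGaussAt (K₁ := K₁) π t h.transcendental hπA 𝒱 h𝒱
  have hx : IsIntegral ↥(primeValSubring K hπA) (algebraMap F₁ E (v : F₁)) := by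
    have := (hV _).mp v.2
    rw [h𝒱eq] at this
    exact this
  obtain ⟨σ, hσ, hint⟩ := exists_mul_isIntegral (K := K) (E := E) hπA _ hx
  have hσ0 : σ ≠ 0 := fun h0 => hσ (h0 ▸ dvd_zero _)
  have hσE : algebraMap ↥(Algebra.adjoin R {t}) E σ ≠ 0 := by
    rw [IsScalarTower.algebraMap_apply ↥(Algebra.adjoin R {t}) K E]
    exact (map_ne_zero_iff _ (algebraMap K E).injective).mpr
      ((map_ne_zero_iff _ (IsFractionRing.injective ↥(Algebra.adjoin R {t}) K)).mpr hσ0)
  set a : ↥(integralClosure ↥(Algebra.adjoin R {t}) E) :=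
    ⟨algebraMap ↥(Algebra.adjoin R {t}) E σ * algebraMap F₁ E (v : F₁), hint⟩ with ha
  set b : ↥(integralClosure ↥(Algebra.adjoin R {t}) E) :=
    algebraMap ↥(Algebra.adjoin R {t}) ↥(integralClosure ↥(Algebra.adjoin R {t}) E) σ with hb
  have hbE : algebraMap ↥(integralClosure ↥(Algebra.adjoin R {t}) E) E b =
      algebraMap ↥(Algebra.adjoin R {t}) E σ := rfl
  have haE : algebraMap ↥(integralClosure ↥(Algebra.adjoin R {t}) E) E a =
      algebraMap ↥(Algebra.adjoin R {t}) E σ * algebraMap F₁ E (v : F₁) := rfl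
  have hfrac : algebraMap F₁ E (v : F₁) =
      algebraMap ↥(integralClosure ↥(Algebra.adjoin R {t}) E) E a /
        algebraMap ↥(integralClosure ↥(Algebra.adjoin R {t}) E) E b := by
    rw [haE, hbE, mul_div_cancel_left₀ _ hσE]
  obtain ⟨hinj, -, hne, -⟩ := geoIota_spec h 𝒱 h𝒱
  -- `ρ b ≠ 0`
  have hιb : geoIota h 𝒱 h𝒱 (mkB (A := ↥(Algebra.adjoin R {t}))
      (algebraMap R ↥(Algebra.adjoin R {t}) π) b) ≠ 0 := by
    rw [hb, mkB_algebraMap]
    apply hne
    rw [Ne, mkA_eq_zero_iff]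
    exact hσ
  have hρb : mkB (A := ↥(Algebra.adjoin R {t})) (algebraMap R ↥(Algebra.adjoin R {t}) π) b ≠ 0 :=
    fun h0 => hιb (by rw [h0, map_zero])
  -- the link
  have hl := down_link h 𝒱 h𝒱 V hV resV hresV v a b (by rw [haE, hbE, mul_comm])
  have hres0 : algebraMap Ft (IsLocalRing.ResidueField ↥(integralClosure ↥𝒱 E)) (resV v) ≠ 0 :=
    (map_ne_zero_iff _ (algebraMap Ft
      (IsLocalRing.ResidueField ↥(integralClosure ↥𝒱 E))).injective).mpr hv
  have hιa : geoIota h 𝒱 h𝒱 (mkB (A := ↥(Algebra.adjoin R {t}))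
      (algebraMap R ↥(Algebra.adjoin R {t}) π) a) ≠ 0 := by
    rw [← hl]
    exact mul_ne_zero hres0 hιb
  have hρa : mkB (A := ↥(Algebra.adjoin R {t})) (algebraMap R ↥(Algebra.adjoin R {t}) π) a ≠ 0 :=
    fun h0 => hιa (by rw [h0, map_zero])
  exact ⟨a, b, hρa, hρb, hfrac, by rw [← hl, mul_div_cancel_right₀ _ hιb]⟩

end DownGeoLink

end Fermat.Agent.JA
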