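/-
J-A third wave, package REDO (helper1) — COMPAT tools: the local ring of a chart at a centre is
integrally closed in `E`; evaluation of fractions at the centre; the coordinate of a line lies in
the local ring; values under restriction of places; and the abstract compatibility lemma
`r(P''|F_Ω) = c(P'')|F̃` from separation.
-/
import Fermat.Agent.JA.REDO_helper1_TwoChart
import Fermat.Agent.JA.SEP_helper6_Chart

set_option autoImplicit false
set_option linter.unusedSectionVars false
set_option linter.style.haveILetI false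

open AlgebraicCurve IsLocalRing IsDedekindDomain

namespace Fermat.Agent.JA

open Fermat.Agent.FF

section Restrict

variable {K F F' : Type*} [Field K] [Field F] [Field F'] [Algebra K F] [Algebra K F']
  [Algebra F F'] [IsScalarTower K F F'] [Algebra.IsIntegral F F']

/-- values under restriction of places. -/
theorem hasValueAt_restrict_iff (w : Place K F') (f : F) (c : K) :
    HasValueAt (w.restrict F) f c ↔ HasValueAt w (algebraMap F F' f) c := by
  rw [HasValueAt.iff_ord, HasValueAt.iff_ord]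
  have e : algebraMap F F' f - algebraMap K F' c = algebraMap F F' (f - algebraMap K F c) := by
    rw [map_sub, ← IsScalarTower.algebraMap_apply]
  rw [e, Place.ord_restrict]
  have hpos : 0 < Place.ramificationIndex (F := F) w := Place.ramificationIndex_pos (F := F) w
  have hinj : algebraMap F F' (f - algebraMap K F c) = 0 ↔ f - algebraMap K F c = 0 :=
    map_eq_zero_iff _ (algebraMap F F').injective
  rw [hinj]
  constructor
  · rintro (h | h)
    · exact Or.inl h
    · right
      exact Int.mul_pos (by exact_mod_cast hpos) h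
  · rintro (h | h)
    · exact Or.inl h
    · right
      have h2 : (0 : ℤ) < (Place.ramificationIndex (F := F) w : ℤ) := by exact_mod_cast hpos
      exact (mul_pos_iff_of_pos_left h2).mp h

end Restrict

section LocalRing

attribute [local instance] locAlgebra

variable {B : Type*} [CommRing B] [IsDomain B] [IsIntegrallyClosed B] {E : Type*} [Field E]
  [Algebra B E] [IsFractionRing B E]

/-- the local ring `B_𝔫` of an integrally closed domain is integrally closed in `E = Frac B`:
an element integral over a ring of fractions with denominators outside `𝔫` is such a fraction. -/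
theorem exists_div_of_isIntegral_of_forall_div (𝔫 : Ideal B) [𝔫.IsPrime] (S₀ : Subring E)
    (hS₀ : ∀ s ∈ S₀, ∃ u v : B, v ∉ 𝔫 ∧ s * algebraMap B E v = algebraMap B E u)
    {x : E} (hx : IsIntegral ↥S₀ x) :
    ∃ u v : B, v ∉ 𝔫 ∧ x * algebraMap B E v = algebraMap B E u := by
  haveI := locAlgebra_isScalarTower (E := E) 𝔫
  haveI := locAlgebra_isFractionRing (E := E) 𝔫
  haveI : IsIntegrallyClosed (Localization.AtPrime 𝔫) :=
    isIntegrallyClosed_of_isLocalization (Localization.AtPrime 𝔫) 𝔫.primeCompl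
      𝔫.primeCompl_le_nonZeroDivisors
  have hinj : Function.Injective (algebraMap B E) := IsFractionRing.injective B E
  have h1 : IsIntegral (Localization.AtPrime 𝔫) x := by
    refine isIntegral_of_isIntegral_of_forall_exists (S₁ := ↥S₀) (fun s => ?_) hx
    obtain ⟨u, v, hv, huv⟩ := hS₀ (s : E) s.2
    refine ⟨IsLocalization.mk' (Localization.AtPrime 𝔫) u (⟨v, hv⟩ : 𝔫.primeCompl), ?_⟩
    rw [locAlgebra_mk']
    have hv0 : algebraMap B E v ≠ 0 := (map_ne_zero_iff _ hinj).mpr
      (fun h0 => hv (by rw [h0]; exact 𝔫.zero_mem))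
    change _ = (s : E)
    rw [← huv, mul_assoc, mul_inv_cancel₀ hv0, mul_one]
  obtain ⟨o, ho⟩ := IsIntegrallyClosed.algebraMap_eq_of_integral h1
  obtain ⟨u, v, rfl⟩ := IsLocalization.exists_mk'_eq 𝔫.primeCompl o
  refine ⟨u, v, v.2, ?_⟩
  rw [← ho, locAlgebra_mk']
  have hv0 : algebraMap B E v ≠ 0 := (map_ne_zero_iff _ hinj).mpr
    (fun h0 => v.2 (by rw [h0]; exact 𝔫.zero_mem))
  rw [mul_assoc, inv_mul_cancel₀ hv0, mul_one]

end LocalRing

section EvalFrac

variable {R₁ : Type*} [CommRing R₁] [IsDomain R₁] [IsDiscreteValuationRing R₁]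
  {K₁ : Type*} [Field K₁] [Algebra R₁ K₁] [IsFractionRing R₁ K₁]
  {E : Type*} [Field E] [Algebra K₁ E] [Algebra R₁ E] [IsScalarTower R₁ K₁ E]
  {B : Type*} [CommRing B] [IsDomain B] [Algebra R₁ B] [Algebra B E]
  [IsScalarTower R₁ B E] [IsFractionRing B E]
  {k Et : Type*} [Field k] [Field Et] [Algebra k Et]
  {Bb : Type*} [CommRing Bb] [IsDedekindDomain Bb] [Algebra k Bb] [Algebra Bb Et]
  [IsFractionRing Bb Et] [IsScalarTower k Bb Et]

variable (Et) in
include Et in
/-- the value of an element of the chart outside the centre has nonzero reduction. -/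
theorem res_ne_zero_of_not_mem_centre (ρ : B →+* Bb) (res : R₁ →+* k)
    (hρk : ∀ r : R₁, ρ (algebraMap R₁ B r) = algebraMap k Bb (res r))
    (w : HeightOneSpectrum Bb) (P : Place K₁ E) (hc : CentredAt (w.asIdeal.comap ρ) P)
    {v : B} (hv : v ∉ w.asIdeal.comap ρ) {r : R₁}
    (hr : HasValueAt P (algebraMap B E v) (algebraMap R₁ K₁ r)) : res r ≠ 0 := by
  intro h0
  have h1 := hasValueAt_placeOf_of_centredAt (Et := Et) ρ res hρk w P hc v r hr
  rw [h0, hasValueAt_placeOf_algebraMap_zero_iff] at h1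
  exact hv h1

variable (Et) in
include Et in
/-- the value of an element of the centre has zero reduction. -/
theorem res_eq_zero_of_mem_centre (ρ : B →+* Bb) (res : R₁ →+* k)
    (hρk : ∀ r : R₁, ρ (algebraMap R₁ B r) = algebraMap k Bb (res r))
    (w : HeightOneSpectrum Bb) (P : Place K₁ E) (hc : CentredAt (w.asIdeal.comap ρ) P)
    {v : B} (hv : v ∈ w.asIdeal.comap ρ) {r : R₁}
    (hr : HasValueAt P (algebraMap B E v) (algebraMap R₁ K₁ r)) : res r = 0 := by
  have h1 := hasValueAt_placeOf_of_centredAt (Et := Et) ρ res hρk w P hc v r hr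
  have h2 : HasValueAt (placeOf (k := k) (F := Et) w) (algebraMap Bb Et (ρ v)) 0 :=
    (hasValueAt_placeOf_algebraMap_zero_iff (k := k) (F := Et) w (ρ v)).mpr hv
  exact h1.unique h2

/-- **(EVAL) for fractions**: an element `x = u / v` of the local ring of the chart at the centre
`𝔫 = ρ⁻¹(w)` of `P` has a value `r ∈ R₁` at `P`, and `ρ u / ρ v` has the value `res r` at
`placeOf w`. -/
theorem hasValueAt_div_of_centredAt (ρ : B →+* Bb) (res : R₁ →+* k)
    (hρk : ∀ r : R₁, ρ (algebraMap R₁ B r) = algebraMap k Bb (res r))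
    {π : R₁} (hπ : Irreducible π) (hresπ : res π = 0)
    (w : HeightOneSpectrum Bb) (P : Place K₁ E) (hc : CentredAt (w.asIdeal.comap ρ) P)
    (hval : ∀ x : B, ∃ r : R₁, HasValueAt P (algebraMap B E x) (algebraMap R₁ K₁ r))
    (x : E) (u v : B) (hv : v ∉ w.asIdeal.comap ρ)
    (hx : x * algebraMap B E v = algebraMap B E u) :
    ∃ r : R₁, HasValueAt P x (algebraMap R₁ K₁ r) ∧
      HasValueAt (placeOf (k := k) (F := Et) w)
        (algebraMap Bb Et (ρ u) / algebraMap Bb Et (ρ v)) (res r) := by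
  obtain ⟨ru, hru⟩ := hval u
  obtain ⟨rv, hrv⟩ := hval v
  have hresv : res rv ≠ 0 := res_ne_zero_of_not_mem_centre Et ρ res hρk w P hc hv hrv
  have hu : IsUnit rv := isUnit_of_res_ne_zero hπ res hresπ hresv
  obtain ⟨rv', hrv'⟩ := hu.exists_right_inv
  have hrvK : algebraMap R₁ K₁ rv ≠ 0 :=
    (map_ne_zero_iff _ (IsFractionRing.injective R₁ K₁)).mpr hu.ne_zero
  have e2 : (algebraMap R₁ K₁ rv)⁻¹ = algebraMap R₁ K₁ rv' := by
    apply inv_eq_of_mul_eq_one_right
    rw [← map_mul, hrv', map_one]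
  have e3 : (res rv)⁻¹ = res rv' := by
    apply inv_eq_of_mul_eq_one_right
    rw [← map_mul, hrv', map_one]
  have hinj : Function.Injective (algebraMap B E) := IsFractionRing.injective B E
  have hv0 : algebraMap B E v ≠ 0 := (map_ne_zero_iff _ hinj).mpr
    (fun h0 => hv (by rw [h0]; exact (w.asIdeal.comap ρ).zero_mem))
  have hxeq : x = algebraMap B E u * (algebraMap B E v)⁻¹ := by
    rw [← hx, mul_assoc, mul_inv_cancel₀ hv0, mul_one]
  refine ⟨ru * rv', ?_, ?_⟩
  · rw [hxeq, map_mul, ← e2]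
    exact hru.mul (hrv.inv hrvK)
  · have h1 := hasValueAt_placeOf_of_centredAt (Et := Et) ρ res hρk w P hc u ru hru
    have h2 := hasValueAt_placeOf_of_centredAt (Et := Et) ρ res hρk w P hc v rv hrv
    rw [div_eq_mul_inv, map_mul, ← e3]
    exact h1.mul (h2.inv hresv)

variable (Et) in
include Et in
/-- **the coordinate of a line lies in the local ring of the centre**: if `z = a / b` with `a, b`
coprime in the chart and `z` has a value in `R₁` at `P`, then `b` is not in the centre of `P`. -/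
theorem not_mem_centre_of_isCoprime (ρ : B →+* Bb) (res : R₁ →+* k)
    (hρk : ∀ r : R₁, ρ (algebraMap R₁ B r) = algebraMap k Bb (res r))
    (w : HeightOneSpectrum Bb) (P : Place K₁ E) (hc : CentredAt (w.asIdeal.comap ρ) P)
    (hval : ∀ x : B, ∃ r : R₁, HasValueAt P (algebraMap B E x) (algebraMap R₁ K₁ r))
    (z : E) (a b : B) (hz : z * algebraMap B E b = algebraMap B E a) (hcop : IsCoprime a b)
    (hzval : ∃ r : R₁, HasValueAt P z (algebraMap R₁ K₁ r)) :
    b ∉ w.asIdeal.comap ρ := by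
  intro hb
  obtain ⟨u', v', huv⟩ := hcop
  have hprime : (w.asIdeal.comap ρ).IsPrime := Ideal.comap_isPrime ρ w.asIdeal
  have ha : a ∉ w.asIdeal.comap ρ := by
    intro ha
    apply hprime.ne_top
    rw [Ideal.eq_top_iff_one, ← huv]
    exact Ideal.add_mem _ (Ideal.mul_mem_left _ _ ha) (Ideal.mul_mem_left _ _ hb)
  obtain ⟨ra, hra⟩ := hval a
  obtain ⟨rb, hrb⟩ := hval b
  obtain ⟨rz, hrz⟩ := hzval
  have h1 : HasValueAt P (algebraMap B E a) (algebraMap R₁ K₁ rz * algebraMap R₁ K₁ rb) := by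
    rw [← hz]; exact hrz.mul hrb
  have h2 : algebraMap R₁ K₁ rz * algebraMap R₁ K₁ rb = algebraMap R₁ K₁ ra := h1.unique hra
  have h3 : rz * rb = ra := by
    apply IsFractionRing.injective R₁ K₁
    rw [map_mul, h2]
  have h4 : res rb = 0 := res_eq_zero_of_mem_centre Et ρ res hρk w P hc hb hrb
  have h5 : res ra ≠ 0 := res_ne_zero_of_not_mem_centre Et ρ res hρk w P hc ha hra
  apply h5
  rw [← h3, map_mul, h4, mul_zero]

end EvalFrac

section CompatBC

variable {R₁ : Type*} [CommRing R₁] [IsDomain R₁] [IsDiscreteValuationRing R₁]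
  {K₁ : Type*} [Field K₁] [Algebra R₁ K₁] [IsFractionRing R₁ K₁]
  {E : Type*} [Field E] [Algebra K₁ E] [Algebra R₁ E] [IsScalarTower R₁ K₁ E]
  {B : Type*} [CommRing B] [IsDomain B] [IsNoetherianRing B] [IsIntegrallyClosed B]
  [Algebra R₁ B] [Algebra B E] [IsScalarTower R₁ B E] [IsFractionRing B E]
  {k Et : Type*} [Field k] [Field Et] [Algebra k Et]
  {Bb : Type*} [CommRing Bb] [IsDedekindDomain Bb] [Algebra k Bb] [Algebra Bb Et]
  [IsFractionRing Bb Et] [IsScalarTower k Bb Et]
  {Ω EΩ : Type*} [Field Ω] [Algebra K₁ Ω] [Algebra.IsAlgebraic K₁ Ω]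
  [Field EΩ] [Algebra Ω EΩ] [CharZero EΩ]
  {Ft : Type*} [Field Ft] [Algebra k Ft] [Algebra Ft Et] [IsScalarTower k Ft Et]
  [Algebra.IsIntegral Ft Et]

/-- **abstract COMPAT**: let `Q''` be the centre of `P` in the chart `(B, ρ)` (`P` with integral
values on the chart). A place `Q'` of `F̃` equals the restriction of `Q''` as soon as, in case
`Q' ≠ Q''|F̃`, there is a function `x₁ ∈ E`, integral over a ring generated by coprime fractions of
the chart with values in `R₁` at `P`, whose reduction `xt ∈ F̃` vanishes at `Q''|F̃`, not at `Q'`,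
and takes at `Q'` the reduction of the value of `x₁` at `P`. -/
theorem IsChartCentre.restrict_eq_of_sep {φ : E →+* EΩ}
    (hφ : ∀ c : K₁, φ (algebraMap K₁ E c) = algebraMap Ω EΩ (algebraMap K₁ Ω c))
    (hgen : Subfield.closure (Set.range φ ∪ Set.range (algebraMap Ω EΩ)) = ⊤)
    {ρ : B →+* Bb} (res : R₁ →+* k)
    (hρk : ∀ r : R₁, ρ (algebraMap R₁ B r) = algebraMap k Bb (res r))
    {π : R₁} (hπ : Irreducible π) (hresπ : res π = 0)
    {P : Place Ω EΩ} {Q'' : Place k Et} (hc : IsChartCentre φ ρ P Q'')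
    (hval : ∀ x : B, ∃ r : R₁, HasValueAt (restrictBC φ hφ hgen P) (algebraMap B E x)
      (algebraMap R₁ K₁ r))
    (Q' : Place k Ft)
    (hsep : Q' ≠ Q''.restrict Ft → ∃ (xt : Ft) (x₁ : E) (G : Set E),
      IsIntegral ↥(Subring.closure G) x₁ ∧
      (∀ g ∈ G, ∃ a b : B, IsCoprime a b ∧ g * algebraMap B E b = algebraMap B E a ∧
        ∃ r : R₁, HasValueAt (restrictBC φ hφ hgen P) g (algebraMap R₁ K₁ r)) ∧
      (∀ u v : B, x₁ * algebraMap B E v = algebraMap B E u → ρ v ≠ 0 →
        algebraMap Ft Et xt * algebraMap Bb Et (ρ v) = algebraMap Bb Et (ρ u)) ∧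
      HasValueAt (Q''.restrict Ft) xt 0 ∧ ¬ HasValueAt Q' xt 0 ∧
      (∀ r : R₁, HasValueAt (restrictBC φ hφ hgen P) x₁ (algebraMap R₁ K₁ r) →
        HasValueAt Q' xt (res r))) :
    Q' = Q''.restrict Ft := by
  by_contra hne
  obtain ⟨xt, x₁, G, hint, hG, hlink, hQ0, hQ', hev⟩ := hsep hne
  obtain ⟨w, rfl, hcw⟩ := hc
  set P₁ := restrictBC φ hφ hgen P with hP₁
  have hc₁ : CentredAt (w.asIdeal.comap ρ) P₁ := (centredAt_restrictBC_iff φ hφ hgen _ P).mpr hcw
  haveI hprime : (w.asIdeal.comap ρ).IsPrime := Ideal.comap_isPrime ρ w.asIdeal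
  -- the subring of fractions with denominators outside the centre
  let L : Subring E :=
    { carrier := {s | ∃ u v : B, v ∉ w.asIdeal.comap ρ ∧ s * algebraMap B E v = algebraMap B E u}
      mul_mem' := by
        rintro s s' ⟨u, v, hv, h⟩ ⟨u', v', hv', h'⟩
        refine ⟨u * u', v * v', fun hm => (hprime.mem_or_mem hm).elim hv hv', ?_⟩
        rw [map_mul, map_mul, ← h, ← h']; ring
      one_mem' := ⟨1, 1, fun h1 => hprime.ne_top ((Ideal.eq_top_iff_one _).mpr h1), by simp⟩
      add_mem' := by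
        rintro s s' ⟨u, v, hv, h⟩ ⟨u', v', hv', h'⟩
        refine ⟨u * v' + u' * v, v * v', fun hm => (hprime.mem_or_mem hm).elim hv hv', ?_⟩
        rw [map_add, map_mul, map_mul, map_mul, ← h, ← h']; ring
      zero_mem' := ⟨0, 1, fun h1 => hprime.ne_top ((Ideal.eq_top_iff_one _).mpr h1), by simp⟩
      neg_mem' := by
        rintro s ⟨u, v, hv, h⟩
        exact ⟨-u, v, hv, by rw [map_neg, ← h]; ring⟩ }
  have hGL : Subring.closure G ≤ L := by
    rw [Subring.closure_le]
    intro g hg
    obtain ⟨a, b, hcop, hgab, hgval⟩ := hG g hg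
    exact ⟨a, b, not_mem_centre_of_isCoprime Et ρ res hρk w P₁ hc₁ hval g a b hgab hcop hgval,
      hgab⟩
  obtain ⟨u, v, hv, hx⟩ := exists_div_of_isIntegral_of_forall_div (w.asIdeal.comap ρ)
    (Subring.closure G) (fun s hs => hGL hs) hint
  obtain ⟨r, hr1, hr2⟩ := hasValueAt_div_of_centredAt (Et := Et) ρ res hρk hπ hresπ w P₁ hc₁ hval
    x₁ u v hv hx
  have hρv : ρ v ≠ 0 := fun h0 => hv (by
    show ρ v ∈ w.asIdeal
    rw [h0]; exact w.asIdeal.zero_mem)
  have hρvE : algebraMap Bb Et (ρ v) ≠ 0 :=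
    (map_ne_zero_iff _ (IsFractionRing.injective Bb Et)).mpr hρv
  have hxt : algebraMap Ft Et xt = algebraMap Bb Et (ρ u) / algebraMap Bb Et (ρ v) := by
    rw [eq_div_iff hρvE]
    exact hlink u v hx hρv
  rw [← hxt, ← hasValueAt_restrict_iff] at hr2
  have h0 : res r = 0 := hr2.unique hQ0
  apply hQ'
  rw [← h0]
  exact hev r hr1

end CompatBC

end Fermat.Agent.JA
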