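/-
J-A third wave, package REDO (helper1) — the ABSTRACT MASTER THEOREM of (O1): two charts of the
arithmetic surface `E` at a base (REDA/REDO), the cover `E_Ω ⊇ F_Ω` upstairs and `Ẽ ⊇ F̃`
downstairs, a place map `r : Place Ω F_Ω → Place k F̃` which is compatible with the centre map of
the charts through separating functions: then `r_*(div y) = div ỹ`.
-/
import Fermat.Agent.JA.REDO_helper1_Compat
import Fermat.Agent.JA.REDO_helper1_Descent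

set_option autoImplicit false
set_option linter.unusedSectionVars false
set_option linter.style.haveILetI false

open AlgebraicCurve IsLocalRing IsDedekindDomain

namespace Fermat.Agent.JA

open Fermat.Agent.FF

section Master

variable {R₁ : Type*} [CommRing R₁] [IsDomain R₁] [IsDiscreteValuationRing R₁]
  {K₁ : Type*} [Field K₁] [Algebra R₁ K₁] [IsFractionRing R₁ K₁]
  {E : Type*} [Field E] [Algebra K₁ E] [Algebra R₁ E] [IsScalarTower R₁ K₁ E]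
  {k Et : Type*} [Field k] [Field Et] [Algebra k Et]
  {B₁ : Type*} [CommRing B₁] [IsDomain B₁] [IsNoetherianRing B₁] [IsIntegrallyClosed B₁]
  [Algebra R₁ B₁] [Algebra B₁ E] [IsScalarTower R₁ B₁ E] [IsFractionRing B₁ E]
  {Bb₁ : Type*} [CommRing Bb₁] [IsDedekindDomain Bb₁] [Algebra k Bb₁] [Algebra Bb₁ Et]
  [IsFractionRing Bb₁ Et] [IsScalarTower k Bb₁ Et]
  {B₂ : Type*} [CommRing B₂] [IsDomain B₂] [IsNoetherianRing B₂] [IsIntegrallyClosed B₂]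
  [Algebra R₁ B₂] [Algebra B₂ E] [IsScalarTower R₁ B₂ E] [IsFractionRing B₂ E]
  {Bb₂ : Type*} [CommRing Bb₂] [IsDedekindDomain Bb₂] [Algebra k Bb₂] [Algebra Bb₂ Et]
  [IsFractionRing Bb₂ Et] [IsScalarTower k Bb₂ Et]
  {Ω EΩ : Type*} [Field Ω] [Algebra K₁ Ω] [Algebra.IsAlgebraic K₁ Ω]
  [Field EΩ] [Algebra Ω EΩ] [CharZero EΩ]
  {FΩ : Type*} [Field FΩ] [Algebra Ω FΩ] [Algebra FΩ EΩ] [IsScalarTower Ω FΩ EΩ]
  [Algebra.IsIntegral FΩ EΩ] [HasPrincipalDivisors Ω EΩ]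
  {Ft : Type*} [Field Ft] [Algebra k Ft] [Algebra Ft Et] [IsScalarTower k Ft Et]
  [Algebra.IsIntegral Ft Et] [HasPrincipalDivisors k Et]
  {π : R₁} {res : R₁ →+* k} {ρ₁ : B₁ →+* Bb₁} {ρ₂ : B₂ →+* Bb₂} {s₁ : B₁} {s₂ : B₂}
  {φ : E →+* EΩ}
  (hφ : ∀ c : K₁, φ (algebraMap K₁ E c) = algebraMap Ω EΩ (algebraMap K₁ Ω c))
  (hgen : Subfield.closure (Set.range φ ∪ Set.range (algebraMap Ω EΩ)) = ⊤)

/-- the separation hypothesis of COMPAT for one chart `(B, ρ)` and a place map `r`. -/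
def ChartSepEval {B Bb : Type*} [CommRing B] [CommRing Bb] [Algebra B E] [Algebra Bb Et]
    [IsDedekindDomain Bb] [IsFractionRing Bb Et] [Algebra k Bb] [IsScalarTower k Bb Et]
    (φ : E →+* EΩ)
    (hφ : ∀ c : K₁, φ (algebraMap K₁ E c) = algebraMap Ω EΩ (algebraMap K₁ Ω c))
    (hgen : Subfield.closure (Set.range φ ∪ Set.range (algebraMap Ω EΩ)) = ⊤)
    (res : R₁ →+* k) (ρ : B →+* Bb) (r : Place Ω FΩ → Place k Ft) : Prop :=
  ∀ (P : Place Ω EΩ) (Q'' : Place k Et), IsRationalPlace (restrictBC φ hφ hgen P) →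
    IsChartCentre φ ρ P Q'' → r (P.restrict FΩ) ≠ Q''.restrict Ft →
    ∃ (xt : Ft) (x₁ : E) (G : Set E),
      IsIntegral ↥(Subring.closure G) x₁ ∧
      (∀ g ∈ G, ∃ a b : B, IsCoprime a b ∧ g * algebraMap B E b = algebraMap B E a ∧
        ∃ c : R₁, HasValueAt (restrictBC φ hφ hgen P) g (algebraMap R₁ K₁ c)) ∧
      (∀ u v : B, x₁ * algebraMap B E v = algebraMap B E u → ρ v ≠ 0 →
        algebraMap Ft Et xt * algebraMap Bb Et (ρ v) = algebraMap Bb Et (ρ u)) ∧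
      HasValueAt (Q''.restrict Ft) xt 0 ∧ ¬ HasValueAt (r (P.restrict FΩ)) xt 0 ∧
      (∀ c : R₁, HasValueAt (restrictBC φ hφ hgen P) x₁ (algebraMap R₁ K₁ c) →
        HasValueAt (r (P.restrict FΩ)) xt (res c))

include hφ hgen in
/-- **the abstract master theorem of (O1)**. -/
theorem TwoChartHyps.mapDomain_eq_ord_of_chartSepEval
    (H : TwoChartHyps K₁ E Et π res ρ₁ ρ₂ s₁ s₂) (Q₀ : Place k Et)
    (r : Place Ω FΩ → Place k Ft) (n : ℤ) (hn : n ≠ 0)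
    (hup : ∀ P : Place Ω FΩ, ∑ w ∈ P.fiber EΩ, (w.ramificationIndex FΩ : ℤ) = n)
    (hdown : ∀ Q : Place k Ft, ∑ w ∈ Q.fiber Et, (w.ramificationIndex Ft : ℤ) = n)
    (hsep₁ : ChartSepEval (Et := Et) (FΩ := FΩ) (Ft := Ft) φ hφ hgen res ρ₁ r)
    (hsep₂ : ChartSepEval (Et := Et) (FΩ := FΩ) (Ft := Ft) φ hφ hgen res ρ₂ r)
    (y : FΩ) (yt : Ft) (y₁ : E) (hy₁ : φ y₁ = algebraMap FΩ EΩ y)
    (a₁ b₁ : B₁) (ha₁ : ρ₁ a₁ ≠ 0) (hb₁ : ρ₁ b₁ ≠ 0)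
    (hyr₁ : y₁ = algebraMap B₁ E a₁ / algebraMap B₁ E b₁)
    (hyt₁ : algebraMap Ft Et yt = algebraMap Bb₁ Et (ρ₁ a₁) / algebraMap Bb₁ Et (ρ₁ b₁))
    (a₂ b₂ : B₂) (ha₂ : ρ₂ a₂ ≠ 0) (hb₂ : ρ₂ b₂ ≠ 0)
    (hyr₂ : y₁ = algebraMap B₂ E a₂ / algebraMap B₂ E b₂)
    (hyt₂ : algebraMap Ft Et yt = algebraMap Bb₂ Et (ρ₂ a₂) / algebraMap Bb₂ Et (ρ₂ b₂))
    (hrat : ∀ P : Place Ω EΩ, P.ord (φ y₁) ≠ 0 → IsRationalPlace (restrictBC φ hφ hgen P))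
    (D : Divisor Ω FΩ) (hD : ∀ P, D P = P.ord y) (Q : Place k Ft) :
    Finsupp.mapDomain r D Q = Q.ord yt := by
  refine mapDomain_eq_ord_of_cover r (twoChartCentre φ ρ₁ ρ₂ Q₀) n hn hup hdown y yt ?_ ?_ D hD Q
  · -- COMPAT
    intro P hP
    rw [← hy₁] at hP
    have hr := hrat P hP
    have hcen := H.isTwoChartCentre_twoChartCentre hφ hgen Q₀ hr
    rcases hcen with h1 | ⟨h2, -⟩
    · obtain ⟨-, hval⟩ := h1.hasIntegralValues hφ hgen H.irr H.ker₁ hr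
      exact h1.restrict_eq_of_sep hφ hgen res H.res₁ H.irr H.res_pi
        ((hasIntegralValues_iff_hasValueAt _).mp hval) _ (fun hne => hsep₁ P _ hr h1 hne)
    · obtain ⟨-, hval⟩ := h2.hasIntegralValues hφ hgen H.irr H.ker₂ hr
      exact h2.restrict_eq_of_sep hφ hgen res H.res₂ H.irr H.res_pi
        ((hasIntegralValues_iff_hasValueAt _).mp hval) _ (fun hne => hsep₂ P _ hr h2 hne)
  · -- (ii-Ω) on the level of `E`
    intro D'' hD'' Q''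
    refine H.mapDomain_twoChartCentre_eq_ord hφ hgen Q₀ y₁ (algebraMap Ft Et yt) a₁ b₁ ha₁ hb₁
      hyr₁ hyt₁ a₂ b₂ ha₂ hb₂ hyr₂ hyt₂ hrat D'' (fun P => ?_) Q''
    rw [hD'' P, hy₁]

end Master

end Fermat.Agent.JA
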