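/-
J-A third wave, package REDO (helper1) — `ChartSepEval` for a chart `(B, ρ)` of the surface `E`
from CHARTS OF THE BASE CURVE `F` ("F-charts"): a coordinate `z ∈ V ⊆ F₁` with a coprime fraction
representation in `B`, base-level separation (SEP) of the places of `F̃` at which `z̃` is regular by
functions integral over `R₁[z]`, and the evaluation property (EVAL) of the place map `r` for such
functions.
-/
import Fermat.Agent.JA.REDO_helper1_Master
import Fermat.Agent.JA.BCD_helper9_Rational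

set_option autoImplicit false
set_option linter.unusedSectionVars false
set_option linter.style.haveILetI false

open AlgebraicCurve IsLocalRing IsDedekindDomain

namespace Fermat.Agent.JA

open Fermat.Agent.FF

section FChart

variable {R₁ : Type*} [CommRing R₁] [IsDomain R₁] [IsDiscreteValuationRing R₁]
  {K₁ : Type*} [Field K₁] [Algebra R₁ K₁] [IsFractionRing R₁ K₁]
  {E : Type*} [Field E] [Algebra K₁ E] [Algebra R₁ E] [IsScalarTower R₁ K₁ E]
  {B : Type*} [CommRing B] [IsDomain B] [IsNoetherianRing B] [IsIntegrallyClosed B]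
  [Algebra R₁ B] [Algebra B E] [IsScalarTower R₁ B E] [IsFractionRing B E]
  {k Et : Type*} [Field k] [Field Et] [Algebra k Et]
  {Bb : Type*} [CommRing Bb] [IsDedekindDomain Bb] [Algebra k Bb] [Algebra Bb Et]
  [IsFractionRing Bb Et] [IsScalarTower k Bb Et]
  {Ω EΩ : Type*} [Field Ω] [Algebra K₁ Ω] [Algebra.IsAlgebraic K₁ Ω]
  [Field EΩ] [Algebra Ω EΩ] [CharZero EΩ]
  {FΩ : Type*} [Field FΩ] [Algebra Ω FΩ] [Algebra FΩ EΩ] [IsScalarTower Ω FΩ EΩ]
  [Algebra.IsIntegral FΩ EΩ]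
  {Ft : Type*} [Field Ft] [Algebra k Ft] [Algebra Ft Et] [IsScalarTower k Ft Et]
  [Algebra.IsIntegral Ft Et]
  {F₁ : Type*} [Field F₁] [Algebra F₁ E]

/-- `ChartSepEval` restricted to the centres `Q''` whose restriction to `F̃` satisfies `good`. -/
def ChartSepEvalOn (φ : E →+* EΩ)
    (hφ : ∀ c : K₁, φ (algebraMap K₁ E c) = algebraMap Ω EΩ (algebraMap K₁ Ω c))
    (hgen : Subfield.closure (Set.range φ ∪ Set.range (algebraMap Ω EΩ)) = ⊤)
    (res : R₁ →+* k) (ρ : B →+* Bb) (r : Place Ω FΩ → Place k Ft)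
    (good : Place k Ft → Prop) : Prop :=
  ∀ (P : Place Ω EΩ) (Q'' : Place k Et), IsRationalPlace (restrictBC φ hφ hgen P) →
    IsChartCentre φ ρ P Q'' → good (Q''.restrict Ft) → r (P.restrict FΩ) ≠ Q''.restrict Ft →
    ∃ (xt : Ft) (x₁ : E) (G : Set E),
      IsIntegral ↥(Subring.closure G) x₁ ∧
      (∀ g ∈ G, ∃ a b : B, IsCoprime a b ∧ g * algebraMap B E b = algebraMap B E a ∧
        ∃ c : R₁, HasValueAt (restrictBC φ hφ hgen P) g (algebraMap R₁ K₁ c)) ∧
      (∀ u v : B, x₁ * algebraMap B E v = algebraMap B E u → ρ v ≠ 0 →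
        algebraMap Ft Et xt * algebraMap Bb Et (ρ v) = algebraMap Bb Et (ρ u)) ∧
      HasValueAt (Q''.restrict Ft) xt 0 ∧ ¬ HasValueAt (r (P.restrict FΩ)) xt 0 ∧
      (∀ c : R₁, HasValueAt (restrictBC φ hφ hgen P) x₁ (algebraMap R₁ K₁ c) →
        HasValueAt (r (P.restrict FΩ)) xt (res c))

/-- two partial separation properties covering all places of `F̃` give `ChartSepEval`. -/
theorem chartSepEval_of_on {φ : E →+* EΩ}
    (hφ : ∀ c : K₁, φ (algebraMap K₁ E c) = algebraMap Ω EΩ (algebraMap K₁ Ω c))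
    (hgen : Subfield.closure (Set.range φ ∪ Set.range (algebraMap Ω EΩ)) = ⊤)
    (res : R₁ →+* k) (ρ : B →+* Bb) (r : Place Ω FΩ → Place k Ft)
    (good₁ good₂ : Place k Ft → Prop) (hcov : ∀ Q, good₁ Q ∨ good₂ Q)
    (h₁ : ChartSepEvalOn (Et := Et) (FΩ := FΩ) (Ft := Ft) φ hφ hgen res ρ r good₁)
    (h₂ : ChartSepEvalOn (Et := Et) (FΩ := FΩ) (Ft := Ft) φ hφ hgen res ρ r good₂) :
    ChartSepEval (Et := Et) (FΩ := FΩ) (Ft := Ft) φ hφ hgen res ρ r := by
  intro P Q'' hrat hcen hne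
  rcases hcov (Q''.restrict Ft) with hg | hg
  · exact h₁ P Q'' hrat hcen hg hne
  · exact h₂ P Q'' hrat hcen hg hne

set_option maxHeartbeats 1600000 in
/-- **`ChartSepEvalOn` from an F-chart.** -/
theorem chartSepEvalOn_of_fchart {φ : E →+* EΩ}
    (hφ : ∀ c : K₁, φ (algebraMap K₁ E c) = algebraMap Ω EΩ (algebraMap K₁ Ω c))
    (hgen : Subfield.closure (Set.range φ ∪ Set.range (algebraMap Ω EΩ)) = ⊤)
    (res : R₁ →+* k) (ρ : B →+* Bb) (r : Place Ω FΩ → Place k Ft)
    {π : R₁} (hπ : Irreducible π) (hresπ : res π = 0)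
    (hker : RingHom.ker ρ = Ideal.span {algebraMap R₁ B π})
    (hρk : ∀ r : R₁, ρ (algebraMap R₁ B r) = algebraMap k Bb (res r))
    (bcF : F₁ →+* FΩ) (hbcF : ∀ x : F₁, φ (algebraMap F₁ E x) = algebraMap FΩ EΩ (bcF x))
    (V : ValuationSubring F₁) (resV : ↥V →+* Ft)
    (hlink : ∀ (v : ↥V) (u v' : B),
      algebraMap F₁ E (v : F₁) * algebraMap B E v' = algebraMap B E u →
      algebraMap Ft Et (resV v) * algebraMap Bb Et (ρ v') = algebraMap Bb Et (ρ u))
    (cR : R₁ →+* F₁) (hcR : ∀ r : R₁, algebraMap F₁ E (cR r) = algebraMap R₁ E r)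
    (zV : ↥V) (a_z b_z : B) (hcop : IsCoprime a_z b_z)
    (hzab : algebraMap F₁ E (zV : F₁) * algebraMap B E b_z = algebraMap B E a_z)
    (hSEP : ∀ Q Q' : Place k Ft, resV zV ∈ Q.toValuationSubring →
      resV zV ∈ Q'.toValuationSubring → Q' ≠ Q →
      ∃ v : ↥V, IsIntegral ↥(Subring.closure (Set.range cR ∪ {(zV : F₁)})) (v : F₁) ∧
        HasValueAt Q (resV v) 0 ∧ ¬ HasValueAt Q' (resV v) 0)
    (hEVAL : ∀ (P_F : Place Ω FΩ) (c : R₁),
      HasValueAt P_F (bcF (zV : F₁)) (algebraMap K₁ Ω (algebraMap R₁ K₁ c)) →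
      resV zV ∈ (r P_F).toValuationSubring ∧
      ∀ v : ↥V, IsIntegral ↥(Subring.closure (Set.range cR ∪ {(zV : F₁)})) (v : F₁) →
        ∀ c' : R₁, HasValueAt P_F (bcF (v : F₁)) (algebraMap K₁ Ω (algebraMap R₁ K₁ c')) →
          HasValueAt (r P_F) (resV v) (res c')) :
    ChartSepEvalOn (Et := Et) (FΩ := FΩ) (Ft := Ft) φ hφ hgen res ρ r
      (fun Q => resV zV ∈ Q.toValuationSubring) := by
  intro P Q'' hrat hcen hgood hne
  obtain ⟨hB, hval'⟩ := hcen.hasIntegralValues hφ hgen hπ hker hrat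
  have hval := (hasIntegralValues_iff_hasValueAt _).mp hval'
  obtain ⟨w, rfl, hcw⟩ := hcen
  set P₁ := restrictBC φ hφ hgen P with hP₁
  have hc₁ : CentredAt (w.asIdeal.comap ρ) P₁ := (centredAt_restrictBC_iff φ hφ hgen _ P).mpr hcw
  -- the denominator of `z` does not vanish at the centre
  have hbw : b_z ∉ w.asIdeal.comap ρ := by
    intro hb
    have hb' : ρ b_z ∈ w.asIdeal := hb
    have ha : ρ a_z ∉ w.asIdeal := by
      intro ha
      obtain ⟨u, v, huv⟩ := hcop
      have h1 : ρ u * ρ a_z + ρ v * ρ b_z = 1 := by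
        rw [← map_mul, ← map_mul, ← map_add, huv, map_one]
      have h2 : (1 : Bb) ∈ w.asIdeal := by
        rw [← h1]
        exact w.asIdeal.add_mem (w.asIdeal.mul_mem_left _ ha) (w.asIdeal.mul_mem_left _ hb')
      exact w.isPrime.ne_top ((Ideal.eq_top_iff_one _).mpr h2)
    have hz : algebraMap Ft Et (resV zV) ∈ (placeOf (k := k) (F := Et) w).toValuationSubring :=
      hgood
    rw [mem_placeOf_iff] at hz
    have hl := hlink zV a_z b_z hzab
    have h1 : w.valuation Et (algebraMap Bb Et (ρ b_z)) < 1 :=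
      (w.valuation_lt_one_iff_mem _).mpr hb'
    have h2 : ¬ w.valuation Et (algebraMap Bb Et (ρ a_z)) < 1 := fun h =>
      ha ((w.valuation_lt_one_iff_mem _).mp h)
    apply h2
    rw [← hl, map_mul]
    calc w.valuation Et (algebraMap Ft Et (resV zV)) * w.valuation Et (algebraMap Bb Et (ρ b_z))
        ≤ 1 * w.valuation Et (algebraMap Bb Et (ρ b_z)) := mul_le_mul_left hz _
      _ < 1 := by rw [one_mul]; exact h1
  -- the value of `z` at `P₁`
  obtain ⟨c_z, hc_z, -⟩ := hasValueAt_div_of_centredAt (Et := Et) ρ res hρk hπ hresπ w P₁ hc₁ hval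
    (algebraMap F₁ E (zV : F₁)) a_z b_z hbw hzab
  -- transfer to `F_Ω`
  have htrans : ∀ (x : F₁) (c : R₁), HasValueAt P₁ (algebraMap F₁ E x) (algebraMap R₁ K₁ c) →
      HasValueAt (P.restrict FΩ) (bcF x) (algebraMap K₁ Ω (algebraMap R₁ K₁ c)) := by
    intro x c hx
    rw [hasValueAt_restrict_iff, ← hbcF]
    exact (hasValueAt_restrictBC_iff φ hφ hgen P _ _).mp hx
  obtain ⟨hzr, hev⟩ := hEVAL (P.restrict FΩ) c_z (htrans _ _ hc_z)
  obtain ⟨v, hvint, hv0, hvne⟩ := hSEP _ _ hgood hzr hne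
  refine ⟨resV v, algebraMap F₁ E (v : F₁),
    Set.range (algebraMap R₁ E) ∪ {algebraMap F₁ E (zV : F₁)}, ?_, ?_, ?_, hv0, hvne, ?_⟩
  · -- integrality
    have hle : (Subring.closure (Set.range cR ∪ {(zV : F₁)})).map (algebraMap F₁ E) ≤
        Subring.closure (Set.range (algebraMap R₁ E) ∪ {algebraMap F₁ E (zV : F₁)}) := by
      rw [Subring.map_le_iff_le_comap, Subring.closure_le]
      rintro x (⟨r', rfl⟩ | hx)
      · exact Subring.subset_closure (Or.inl ⟨r', (hcR r').symm⟩)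
      · rw [Set.mem_singleton_iff] at hx
        rw [hx]
        exact Subring.subset_closure (Or.inr rfl)
    let ψ : ↥(Subring.closure (Set.range cR ∪ {(zV : F₁)})) →+*
        ↥(Subring.closure (Set.range (algebraMap R₁ E) ∪ {algebraMap F₁ E (zV : F₁)})) :=
      ((algebraMap F₁ E).comp (Subring.subtype _)).codRestrict _
        (fun x => hle ⟨(x : F₁), x.2, rfl⟩)
    exact IsIntegral.map_of_comp_eq ψ (algebraMap F₁ E) (RingHom.ext fun x => rfl) hvint
  · rintro g (⟨r', rfl⟩ | hg)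
    · refine ⟨algebraMap R₁ B r', 1, isCoprime_one_right, ?_, r', HasValueAt.of_eq ?_⟩
      · rw [map_one, mul_one, ← IsScalarTower.algebraMap_apply R₁ B E]
      · rw [← IsScalarTower.algebraMap_apply R₁ K₁ E]
    · rw [Set.mem_singleton_iff] at hg
      rw [hg]
      exact ⟨a_z, b_z, hcop, hzab, c_z, hc_z⟩
  · intro u v' huv _
    exact hlink v u v' huv
  · intro c hc
    exact hev v hvint c (htrans _ _ hc)

end FChart

end Fermat.Agent.JA
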