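/-
J-A third wave, package REDO (helper1) — the descent (AR5) and the abstract master theorem of (O1)
WITHOUT `HasPrincipalDivisors k Ẽ` downstairs (positive characteristic): the fibres of the
restriction `Place k Ẽ → Place k F̃` are given as explicit finite sets.
-/
import Fermat.Agent.JA.REDO_helper1_Master

set_option autoImplicit false
set_option linter.unusedSectionVars false
set_option linter.style.haveILetI false

open AlgebraicCurve IsLocalRing IsDedekindDomain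

namespace Fermat.Agent.JA

open Fermat.Agent.FF

section MapRestrictFin

variable {K F F' : Type*} [Field K] [Field F] [Field F']
  [Algebra K F] [Algebra K F'] [Algebra F F'] [IsScalarTower K F F']
  [Algebra.IsIntegral F F']

/-- `redo_mapDomain_restrict_apply` with explicit finite fibres. -/
theorem redo_mapDomain_restrict_apply_of_finset (n : ℤ)
    (hsum : ∀ v : Place K F, ∃ S : Finset (Place K F'), (∀ w, w ∈ S ↔ w.restrict F = v) ∧
      ∑ w ∈ S, (w.ramificationIndex F : ℤ) = n)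
    (D'' : Divisor K F') (g : Place K F → ℤ)
    (hD : ∀ w : Place K F', D'' w = (w.ramificationIndex F : ℤ) * g (w.restrict F))
    (v : Place K F) :
    Finsupp.mapDomain (fun w : Place K F' => w.restrict F) D'' v = n * g v := by
  classical
  obtain ⟨S, hS, hSsum⟩ := hsum v
  rw [redo_mapDomain_apply]
  have h1 : (∑ w ∈ D''.support, if w.restrict F = v then D'' w else 0) =
      ∑ w ∈ D''.support.filter (fun w => w.restrict F = v), D'' w := by
    rw [Finset.sum_filter]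
  rw [h1]
  have h2 : ∑ w ∈ D''.support.filter (fun w => w.restrict F = v), D'' w =
      ∑ w ∈ S, D'' w := by
    apply Finset.sum_subset
    · intro w hw
      exact (hS w).mpr (Finset.mem_filter.mp hw).2
    · intro w hw hnot
      by_contra hne
      exact hnot (Finset.mem_filter.mpr ⟨Finsupp.mem_support_iff.mpr hne, (hS w).mp hw⟩)
  rw [h2, ← hSsum, Finset.sum_mul]
  refine Finset.sum_congr rfl fun w hw => ?_
  rw [hD w, (hS w).mp hw]

end MapRestrictFin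

section DescentFin

variable {Ω FΩ EΩ : Type*} [Field Ω] [Field FΩ] [Field EΩ]
  [Algebra Ω FΩ] [Algebra Ω EΩ] [Algebra FΩ EΩ] [IsScalarTower Ω FΩ EΩ]
  [Algebra.IsIntegral FΩ EΩ] [HasPrincipalDivisors Ω EΩ]
  {k Ft Et : Type*} [Field k] [Field Ft] [Field Et]
  [Algebra k Ft] [Algebra k Et] [Algebra Ft Et] [IsScalarTower k Ft Et]
  [Algebra.IsIntegral Ft Et]

/-- **(AR5)** with explicit finite fibres downstairs. -/
theorem mapDomain_eq_ord_of_cover_of_finset (r : Place Ω FΩ → Place k Ft)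
    (c : Place Ω EΩ → Place k Et) (n : ℤ) (hn : n ≠ 0)
    (hup : ∀ P : Place Ω FΩ, ∑ w ∈ P.fiber EΩ, (w.ramificationIndex FΩ : ℤ) = n)
    (hdown : ∀ Q : Place k Ft, ∃ S : Finset (Place k Et), (∀ w, w ∈ S ↔ w.restrict Ft = Q) ∧
      ∑ w ∈ S, (w.ramificationIndex Ft : ℤ) = n)
    (y : FΩ) (yt : Ft)
    (hcompat : ∀ P'' : Place Ω EΩ, P''.ord (algebraMap FΩ EΩ y) ≠ 0 →
      r (P''.restrict FΩ) = (c P'').restrict Ft)
    (hii : ∀ D'' : Divisor Ω EΩ, (∀ P'', D'' P'' = P''.ord (algebraMap FΩ EΩ y)) →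
      ∀ Q'' : Place k Et, Finsupp.mapDomain c D'' Q'' = Q''.ord (algebraMap Ft Et yt))
    (D : Divisor Ω FΩ) (hD : ∀ P, D P = P.ord y) (Q : Place k Ft) :
    Finsupp.mapDomain r D Q = Q.ord yt := by
  classical
  set D'' : Divisor Ω EΩ := Divisor.pullback EΩ D with hD''
  have hD''ord : ∀ P'', D'' P'' = P''.ord (algebraMap FΩ EΩ y) :=
    fun P'' => Divisor.pullback_apply_eq_ord hD P''
  have h1 : Finsupp.mapDomain (fun w : Place Ω EΩ => w.restrict FΩ) D'' = n • D := by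
    ext P
    rw [redo_mapDomain_restrict_apply n hup D'' (fun P => D P)
      (fun w => Divisor.pullback_apply D w) P, Finsupp.smul_apply, smul_eq_mul]
  have h2 : Finsupp.mapDomain (fun w : Place k Et => w.restrict Ft) (Finsupp.mapDomain c D'') Q =
      n * Q.ord yt := by
    refine redo_mapDomain_restrict_apply_of_finset n hdown _ (fun Q => Q.ord yt) (fun w => ?_) Q
    rw [hii D'' hD''ord w, Place.ord_restrict]
  have h3 : Finsupp.mapDomain r (Finsupp.mapDomain (fun w : Place Ω EΩ => w.restrict FΩ) D'') =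
      Finsupp.mapDomain (fun w : Place k Et => w.restrict Ft) (Finsupp.mapDomain c D'') := by
    rw [← Finsupp.mapDomain_comp, ← Finsupp.mapDomain_comp]
    refine Finsupp.mapDomain_congr fun P'' hP'' => ?_
    have hne : P''.ord (algebraMap FΩ EΩ y) ≠ 0 := by
      rw [← hD''ord]
      exact Finsupp.mem_support_iff.mp hP''
    exact hcompat P'' hne
  have h4 : n * Finsupp.mapDomain r D Q = n * Q.ord yt := by
    rw [← h2, ← h3, h1, Finsupp.mapDomain_smul, Finsupp.smul_apply, smul_eq_mul]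
  exact mul_left_cancel₀ hn h4

end DescentFin

section MasterFin

variable {R₁ : Type*} [CommRing R₁] [IsDomain R₁] [IsDiscreteValuationRing R₁]
  {K₁ : Type*} [Field K₁] [Algebra R₁ K₁] [IsFractionRing R₁ K₁]
  {E : Type*} [Field E] [Algebra K₁ E] [Algebra R₁ E] [IsScalarTower R₁ K₁ E]
  {k Et : Type*} [Field k] [Field Et] [Algebra k Et]
  {B₁ : Type*} [CommRing B₁] [IsDomain B₁] [IsNoetherianRing B₁] [IsIntegrallyClosed B₁]
  [Algebra R₁ B₁] [Algebra B₁ E] [IsScalarTower R₁ B₁ E] [IsFractionRing B₁ E]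
  {Bb₁ : Type*} [CommRing Bb₁] [IsDedekindDomain Bb₁] [Algebra k Bb₁] [Algebra Bb₁ Et]
  [IsFractionRing Bb₁ Et] [IsScalarTower k Bb₁ Et]
  {B₂ : Type*} [CommRing B₂] [IsDomain B₂] [IsNoetherianRing B₂] [IsIntegrallyClosed B₂]
  [Algebra R₁ B₂] [Algebra B₂ E] [IsScalarTower R₁ B₂ E] [IsFractionRing B₂ E]
  {Bb₂ : Type*} [CommRing Bb₂] [IsDedekindDomain Bb₂] [Algebra k Bb₂] [Algebra Bb₂ Et]
  [IsFractionRing Bb₂ Et] [IsScalarTower k Bb₂ Et]
  {Ω EΩ : Type*} [Field Ω] [Algebra K₁ Ω] [Algebra.IsAlgebraic K₁ Ω]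
  [Field EΩ] [Algebra Ω EΩ] [CharZero EΩ]
  {FΩ : Type*} [Field FΩ] [Algebra Ω FΩ] [Algebra FΩ EΩ] [IsScalarTower Ω FΩ EΩ]
  [Algebra.IsIntegral FΩ EΩ] [HasPrincipalDivisors Ω EΩ]
  {Ft : Type*} [Field Ft] [Algebra k Ft] [Algebra Ft Et] [IsScalarTower k Ft Et]
  [Algebra.IsIntegral Ft Et]
  {π : R₁} {res : R₁ →+* k} {ρ₁ : B₁ →+* Bb₁} {ρ₂ : B₂ →+* Bb₂} {s₁ : B₁} {s₂ : B₂}
  {φ : E →+* EΩ}
  (hφ : ∀ c : K₁, φ (algebraMap K₁ E c) = algebraMap Ω EΩ (algebraMap K₁ Ω c))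
  (hgen : Subfield.closure (Set.range φ ∪ Set.range (algebraMap Ω EΩ)) = ⊤)

include hφ hgen in
/-- **the abstract master theorem of (O1)**, explicit finite fibres downstairs (no
`HasPrincipalDivisors k Ẽ`). -/
theorem TwoChartHyps.mapDomain_eq_ord_of_chartSepEval_of_finset
    (H : TwoChartHyps K₁ E Et π res ρ₁ ρ₂ s₁ s₂) (Q₀ : Place k Et)
    (r : Place Ω FΩ → Place k Ft) (n : ℤ) (hn : n ≠ 0)
    (hup : ∀ P : Place Ω FΩ, ∑ w ∈ P.fiber EΩ, (w.ramificationIndex FΩ : ℤ) = n)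
    (hdown : ∀ Q : Place k Ft, ∃ S : Finset (Place k Et), (∀ w, w ∈ S ↔ w.restrict Ft = Q) ∧
      ∑ w ∈ S, (w.ramificationIndex Ft : ℤ) = n)
    (hsep₁ : ChartSepEval (Et := Et) (FΩ := FΩ) (Ft := Ft) φ hφ hgen res ρ₁ r)
    (hsep₂ : ChartSepEval (Et := Et) (FΩ := FΩ) (Ft := Ft) φ hφ hgen res ρ₂ r)
    (y : FΩ) (yt : Ft) (y₁ : E) (hy₁ : φ y₁ = algebraMap FΩ EΩ y)
    (a₁ b₁ : B₁) (ha₁ : ρ₁ a₁ ≠ 0) (hb₁ : ρ₁ b₁ ≠ 0)
    (hyr₁ : y₁ = algebraMap B₁ E a₁ / algebraMap B₁ E b₁)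
    (hyt₁ : algebraMap Ft Et yt = algebraMap Bb₁ Et (ρ₁ a₁) / algebraMap Bb₁ Et (ρ₁ b₁))
    (a₂ b₂ : B₂) (ha₂ : ρ₂ a₂ ≠ 0) (hb₂ : ρ₂ b₂ ≠ 0)
    (hyr₂ : y₁ = algebraMap B₂ E a₂ / algebraMap B₂ E b₂)
    (hyt₂ : algebraMap Ft Et yt = algebraMap Bb₂ Et (ρ₂ a₂) / algebraMap Bb₂ Et (ρ₂ b₂))
    (hrat : ∀ P : Place Ω EΩ, P.ord (φ y₁) ≠ 0 → IsRationalPlace (restrictBC φ hφ hgen P))
    (D : Divisor Ω FΩ) (hD : ∀ P, D P = P.ord y) (Q : Place k Ft) :
    Finsupp.mapDomain r D Q = Q.ord yt := by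
  refine mapDomain_eq_ord_of_cover_of_finset r (twoChartCentre φ ρ₁ ρ₂ Q₀) n hn hup hdown y yt
    ?_ ?_ D hD Q
  · intro P hP
    rw [← hy₁] at hP
    have hr := hrat P hP
    have hcen := H.isTwoChartCentre_twoChartCentre hφ hgen Q₀ hr
    rcases hcen with h1 | ⟨h2, -⟩
    · obtain ⟨-, hval⟩ := h1.hasIntegralValues hφ hgen H.irr H.ker₁ hr
      exact h1.restrict_eq_of_sep hφ hgen res H.res₁ H.irr H.res_pi
        ((hasIntegralValues_iff_hasValueAt _).mp hval) _ (fun hne => hsep₁ P _ hr h1 hne)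
    · obtain ⟨-, hval⟩ := h2.hasIntegralValues hφ hgen H.irr H.ker₂ hr
      exact h2.restrict_eq_of_sep hφ hgen res H.res₂ H.irr H.res_pi
        ((hasIntegralValues_iff_hasValueAt _).mp hval) _ (fun hne => hsep₂ P _ hr h2 hne)
  · intro D'' hD'' Q''
    refine H.mapDomain_twoChartCentre_eq_ord hφ hgen Q₀ y₁ (algebraMap Ft Et yt) a₁ b₁ ha₁ hb₁
      hyr₁ hyt₁ a₂ b₂ ha₂ hb₂ hyr₂ hyt₂ hrat D'' (fun P => ?_) Q''
    rw [hD'' P, hy₁]

end MasterFin

end Fermat.Agent.JA
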