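/-
J-A third wave, package REDO (helper1) — the ABSTRACT ASSEMBLY of (O1): lead's GEO setting
(`GeoHyps` for `t` and `t⁻¹`), the DOWNSTAIRS layer (`V ⊆ F₁`, `resV : V → F̃`, `Ẽ = κ(W)`), two
F-coordinates `z₁, z₂ ∈ V` with coprime fraction data in both charts, base-level (SEP) and (EVAL)
for both, and the function `y` as an element of `V` with nonzero reduction: then
`r_*(div y) = div ỹ`.
-/
import Fermat.Agent.JA.REDO_helper1_MasterFin
import Fermat.Agent.JA.REDO_helper1_GeoTwo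
import Fermat.Agent.JA.REDO_helper1_FChart
import Fermat.Agent.JA.REDO_helper1_DownGeo

set_option autoImplicit false
set_option linter.unusedSectionVars false
set_option linter.style.haveILetI false

open AlgebraicCurve IsLocalRing IsDedekindDomain Polynomial

namespace Fermat.Agent.JA

open Fermat.Agent.FF

section Assembly

variable {R : Type*} [CommRing R] [IsDomain R] [IsDiscreteValuationRing R] [CharZero R]
  {K₁ : Type*} [Field K₁] [Algebra R K₁] [IsFractionRing R K₁]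
  {K : Type*} [Field K] [Algebra K₁ K] [Algebra R K] [IsScalarTower R K₁ K]
  {E : Type*} [Field E] [Algebra K E] [Algebra K₁ E] [IsScalarTower K₁ K E]
  [Algebra R E] [IsScalarTower R K E] [IsScalarTower R K₁ E]
  {π : R} {t : K} {n : ℕ} {S S' : Finset R}
  {k : Type*} [Field k]
  (h : GeoHyps K₁ π t E n S) (h' : GeoHyps K₁ π t⁻¹ E n S')
  (𝒱 : ValuationSubring K) (h𝒱 : IsGaussAt R π t 𝒱) (h𝒱' : IsGaussAt R π t⁻¹ 𝒱)
  [IsLocalRing ↥(integralClosure ↥𝒱 E)]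
  (res : R →+* k) (hres : Function.Surjective res) (hπres : res π = 0)
  {F₁ : Type*} [Field F₁] [Algebra F₁ E] (V : ValuationSubring F₁)
  (hV : ∀ x : F₁, x ∈ V ↔ IsIntegral ↥𝒱 (algebraMap F₁ E x))
  {Ft : Type*} [Field Ft] [Algebra k Ft] (resV : ↥V →+* Ft) (hresV : Function.Surjective resV)
  (cR : R →+* F₁)
  (hcR : ∀ r : R, algebraMap F₁ E (cR r) = algebraMap K E (algebraMap R K r))
  (hresRV : ∀ (r : R) (v : ↥V), (v : F₁) = cR r → resV v = algebraMap k Ft (res r))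
  {Ω EΩ : Type*} [Field Ω] [Algebra K₁ Ω] [Algebra.IsAlgebraic K₁ Ω]
  [Field EΩ] [Algebra Ω EΩ] [CharZero EΩ]
  {FΩ : Type*} [Field FΩ] [Algebra Ω FΩ] [Algebra FΩ EΩ] [IsScalarTower Ω FΩ EΩ]
  [Algebra.IsIntegral FΩ EΩ] [HasPrincipalDivisors Ω EΩ]
  {φ : E →+* EΩ}
  (hφ : ∀ c : K₁, φ (algebraMap K₁ E c) = algebraMap Ω EΩ (algebraMap K₁ Ω c))
  (hgen : Subfield.closure (Set.range φ ∪ Set.range (algebraMap Ω EΩ)) = ⊤)
  (bcF : F₁ →+* FΩ) (hbcF : ∀ x : F₁, φ (algebraMap F₁ E x) = algebraMap FΩ EΩ (bcF x))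

set_option maxHeartbeats 3200000 in
include h h' h𝒱 h𝒱' hres hπres hcR hresRV hφ hgen hbcF in
/-- **the abstract assembly of (O1).** -/
theorem geo_mapDomain_eq_ord
    (hintd :
      letI := downAlg 𝒱 V hV resV hresV
      Algebra.IsIntegral Ft (IsLocalRing.ResidueField ↥(integralClosure ↥𝒱 E)))
    (r : Place Ω FΩ → Place k Ft) (m : ℤ) (hm : m ≠ 0)
    (hup : ∀ P : Place Ω FΩ, ∑ w ∈ P.fiber EΩ, (w.ramificationIndex FΩ : ℤ) = m)
    (hdown :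
      letI := geoAlgKEt h.irreducible 𝒱 (fun r => h𝒱.algebraMap_mem r)
        (residue_gaussConst_pi h 𝒱 h𝒱) res hres
      letI := downAlg 𝒱 V hV resV hresV
      haveI : IsScalarTower k Ft (IsLocalRing.ResidueField ↥(integralClosure ↥𝒱 E)) :=
        down_isScalarTower h 𝒱 h𝒱 res hres V hV resV hresV cR hcR hresRV
      haveI : Algebra.IsIntegral Ft (IsLocalRing.ResidueField ↥(integralClosure ↥𝒱 E)) := hintd
      ∀ Q : Place k Ft, ∃ T : Finset (Place k (IsLocalRing.ResidueField ↥(integralClosure ↥𝒱 E))),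
        (∀ w, w ∈ T ↔ w.restrict Ft = Q) ∧ ∑ w ∈ T, (w.ramificationIndex Ft : ℤ) = m)
    (z₁ z₂ : ↥V)
    (hcover : ∀ Q : Place k Ft,
      resV z₁ ∈ Q.toValuationSubring ∨ resV z₂ ∈ Q.toValuationSubring)
    (a₁₁ b₁₁ : ↥(integralClosure ↥(Algebra.adjoin R {t}) E)) (hcop₁₁ : IsCoprime a₁₁ b₁₁)
    (hz₁₁ : algebraMap F₁ E (z₁ : F₁) *
      algebraMap ↥(integralClosure ↥(Algebra.adjoin R {t}) E) E b₁₁ =
      algebraMap ↥(integralClosure ↥(Algebra.adjoin R {t}) E) E a₁₁)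
    (a₂₁ b₂₁ : ↥(integralClosure ↥(Algebra.adjoin R {t}) E)) (hcop₂₁ : IsCoprime a₂₁ b₂₁)
    (hz₂₁ : algebraMap F₁ E (z₂ : F₁) *
      algebraMap ↥(integralClosure ↥(Algebra.adjoin R {t}) E) E b₂₁ =
      algebraMap ↥(integralClosure ↥(Algebra.adjoin R {t}) E) E a₂₁)
    (a₁₂ b₁₂ : ↥(integralClosure ↥(Algebra.adjoin R {t⁻¹}) E)) (hcop₁₂ : IsCoprime a₁₂ b₁₂)
    (hz₁₂ : algebraMap F₁ E (z₁ : F₁) *
      algebraMap ↥(integralClosure ↥(Algebra.adjoin R {t⁻¹}) E) E b₁₂ =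
      algebraMap ↥(integralClosure ↥(Algebra.adjoin R {t⁻¹}) E) E a₁₂)
    (a₂₂ b₂₂ : ↥(integralClosure ↥(Algebra.adjoin R {t⁻¹}) E)) (hcop₂₂ : IsCoprime a₂₂ b₂₂)
    (hz₂₂ : algebraMap F₁ E (z₂ : F₁) *
      algebraMap ↥(integralClosure ↥(Algebra.adjoin R {t⁻¹}) E) E b₂₂ =
      algebraMap ↥(integralClosure ↥(Algebra.adjoin R {t⁻¹}) E) E a₂₂)
    (hSEP₁ : ∀ Q Q' : Place k Ft, resV z₁ ∈ Q.toValuationSubring →
      resV z₁ ∈ Q'.toValuationSubring → Q' ≠ Q →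
      ∃ v : ↥V, IsIntegral ↥(Subring.closure (Set.range cR ∪ {(z₁ : F₁)})) (v : F₁) ∧
        HasValueAt Q (resV v) 0 ∧ ¬ HasValueAt Q' (resV v) 0)
    (hSEP₂ : ∀ Q Q' : Place k Ft, resV z₂ ∈ Q.toValuationSubring →
      resV z₂ ∈ Q'.toValuationSubring → Q' ≠ Q →
      ∃ v : ↥V, IsIntegral ↥(Subring.closure (Set.range cR ∪ {(z₂ : F₁)})) (v : F₁) ∧
        HasValueAt Q (resV v) 0 ∧ ¬ HasValueAt Q' (resV v) 0)
    (hEVAL₁ : ∀ (P_F : Place Ω FΩ) (c : R),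
      HasValueAt P_F (bcF (z₁ : F₁)) (algebraMap K₁ Ω (algebraMap R K₁ c)) →
      resV z₁ ∈ (r P_F).toValuationSubring ∧
      ∀ v : ↥V, IsIntegral ↥(Subring.closure (Set.range cR ∪ {(z₁ : F₁)})) (v : F₁) →
        ∀ c' : R, HasValueAt P_F (bcF (v : F₁)) (algebraMap K₁ Ω (algebraMap R K₁ c')) →
          HasValueAt (r P_F) (resV v) (res c'))
    (hEVAL₂ : ∀ (P_F : Place Ω FΩ) (c : R),
      HasValueAt P_F (bcF (z₂ : F₁)) (algebraMap K₁ Ω (algebraMap R K₁ c)) →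
      resV z₂ ∈ (r P_F).toValuationSubring ∧
      ∀ v : ↥V, IsIntegral ↥(Subring.closure (Set.range cR ∪ {(z₂ : F₁)})) (v : F₁) →
        ∀ c' : R, HasValueAt P_F (bcF (v : F₁)) (algebraMap K₁ Ω (algebraMap R K₁ c')) →
          HasValueAt (r P_F) (resV v) (res c'))
    (vy : ↥V) (hvy : resV vy ≠ 0)
    (hrat : ∀ P : Place Ω EΩ, P.ord (φ (algebraMap F₁ E (vy : F₁))) ≠ 0 →
      IsRationalPlace (restrictBC φ hφ hgen P))
    (D : Divisor Ω FΩ) (hD : ∀ P, D P = P.ord (bcF (vy : F₁))) (Q : Place k Ft) :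
    Finsupp.mapDomain r D Q = Q.ord (resV vy) := by
  letI := geoAlgKEt h.irreducible 𝒱 (fun r => h𝒱.algebraMap_mem r)
    (residue_gaussConst_pi h 𝒱 h𝒱) res hres
  letI := geoAlgKBbar E h.irreducible res hres t
  letI := geoAlgKBbar E h.irreducible res hres t⁻¹
  letI := (geoIota h 𝒱 h𝒱).toAlgebra
  letI := (geoIota h' 𝒱 h𝒱').toAlgebra
  haveI := h.chart_instances.1
  haveI := h'.chart_instances.1
  haveI := h.chart_instances.2.1
  haveI := h'.chart_instances.2.1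
  haveI := h.chart_instances.2.2.1
  haveI := h'.chart_instances.2.2.1
  haveI := h.isDedekindDomain
  haveI := h'.isDedekindDomain
  haveI := geoChart_isFractionRing_Bbar h 𝒱 h𝒱
  haveI := geoChart_isFractionRing_Bbar h' 𝒱 h𝒱'
  haveI := geoChart_isScalarTower h 𝒱 h𝒱 res hres
  haveI := geoChart_isScalarTower h' 𝒱 h𝒱' res hres
  letI := downAlg 𝒱 V hV resV hresV
  haveI : IsScalarTower k Ft (IsLocalRing.ResidueField ↥(integralClosure ↥𝒱 E)) :=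
    down_isScalarTower h 𝒱 h𝒱 res hres V hV resV hresV cR hcR hresRV
  haveI : Algebra.IsIntegral Ft (IsLocalRing.ResidueField ↥(integralClosure ↥𝒱 E)) := hintd
  have H := geoTwoChartHyps h h' 𝒱 h𝒱 h𝒱' res hres hπres
  have hcR' : ∀ r : R, algebraMap F₁ E (cR r) = algebraMap R E r := by
    intro r
    rw [hcR, ← IsScalarTower.algebraMap_apply R K E]
  -- the two charts
  have hs₁ := chartSepEval_of_on (Et := IsLocalRing.ResidueField ↥(integralClosure ↥𝒱 E))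
    (FΩ := FΩ) (Ft := Ft) hφ hgen res _ r _ _ hcover
    (chartSepEvalOn_of_fchart (Et := IsLocalRing.ResidueField ↥(integralClosure ↥𝒱 E))
      hφ hgen res _ r H.irr H.res_pi H.ker₁ H.res₁ bcF hbcF V resV
      (fun v u v' huv => down_link h 𝒱 h𝒱 V hV resV hresV v u v' huv) cR hcR' z₁ a₁₁ b₁₁ hcop₁₁
      hz₁₁ hSEP₁ hEVAL₁)
    (chartSepEvalOn_of_fchart (Et := IsLocalRing.ResidueField ↥(integralClosure ↥𝒱 E))
      hφ hgen res _ r H.irr H.res_pi H.ker₁ H.res₁ bcF hbcF V resV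
      (fun v u v' huv => down_link h 𝒱 h𝒱 V hV resV hresV v u v' huv) cR hcR' z₂ a₂₁ b₂₁ hcop₂₁
      hz₂₁ hSEP₂ hEVAL₂)
  have hs₂ := chartSepEval_of_on (Et := IsLocalRing.ResidueField ↥(integralClosure ↥𝒱 E))
    (FΩ := FΩ) (Ft := Ft) hφ hgen res _ r _ _ hcover
    (chartSepEvalOn_of_fchart (Et := IsLocalRing.ResidueField ↥(integralClosure ↥𝒱 E))
      hφ hgen res _ r H.irr H.res_pi H.ker₂ H.res₂ bcF hbcF V resV
      (fun v u v' huv => down_link h' 𝒱 h𝒱' V hV resV hresV v u v' huv) cR hcR' z₁ a₁₂ b₁₂ hcop₁₂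
      hz₁₂ hSEP₁ hEVAL₁)
    (chartSepEvalOn_of_fchart (Et := IsLocalRing.ResidueField ↥(integralClosure ↥𝒱 E))
      hφ hgen res _ r H.irr H.res_pi H.ker₂ H.res₂ bcF hbcF V resV
      (fun v u v' huv => down_link h' 𝒱 h𝒱' V hV resV hresV v u v' huv) cR hcR' z₂ a₂₂ b₂₂ hcop₂₂
      hz₂₂ hSEP₂ hEVAL₂)
  -- the fraction data of `y`
  obtain ⟨a₁, b₁, ha₁, hb₁, hyr₁, hyt₁⟩ := down_exists_fraction h 𝒱 h𝒱 V hV resV hresV vy hvy
  obtain ⟨a₂, b₂, ha₂, hb₂, hyr₂, hyt₂⟩ := down_exists_fraction h' 𝒱 h𝒱' V hV resV hresV vy hvy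
  -- some place of `κ(W)`
  obtain ⟨T, hT, hTsum⟩ := hdown Q
  have hTne : T.Nonempty := by
    rw [Finset.nonempty_iff_ne_empty]
    intro h0
    rw [h0, Finset.sum_empty] at hTsum
    exact hm hTsum.symm
  obtain ⟨Q₀, -⟩ := hTne
  exact H.mapDomain_eq_ord_of_chartSepEval_of_finset hφ hgen Q₀ r m hm hup hdown hs₁ hs₂
    (bcF (vy : F₁)) (resV vy) (algebraMap F₁ E (vy : F₁)) (hbcF _) a₁ b₁ ha₁ hb₁ hyr₁ hyt₁
    a₂ b₂ ha₂ hb₂ hyr₂ hyt₂ hrat D hD Q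

end Assembly

end Fermat.Agent.JA
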