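/-
J-A third wave, (O1)-(P5) plug — helper9: helper1's abstract assembly `geo_mapDomain_eq_ord` with the
downstairs inputs `hintd`, `hdown`, `m := [E : F₁] ≠ 0` discharged by `down_hintd` / `down_hdown`.
-/
import Mathlib
import Fermat.Agent.JA.REDO_helper1_Assembly
import Fermat.Agent.JA.O1_helper9_HDown

set_option autoImplicit false
set_option linter.unusedSectionVars false
set_option linter.style.haveILetI false

open AlgebraicCurve IsLocalRing IsDedekindDomain Polynomial IntermediateField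

namespace Fermat.Agent.JA

open Fermat.Agent.FF

section AssemblyDown

variable {R : Type*} [CommRing R] [IsDomain R] [IsDiscreteValuationRing R] [CharZero R]
  {K₁ : Type*} [Field K₁] [Algebra R K₁] [IsFractionRing R K₁]
  {K : Type*} [Field K] [Algebra K₁ K] [Algebra R K] [IsScalarTower R K₁ K]
  {E : Type*} [Field E] [Algebra K E] [Algebra K₁ E] [IsScalarTower K₁ K E]
  [Algebra R E] [IsScalarTower R K E] [IsScalarTower R K₁ E]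
  {π : R} {t : K} {n : ℕ} {S S' : Finset R}
  {k : Type*} [Field k]
  (h : GeoHyps K₁ π t E n S) (h' : GeoHyps K₁ π t⁻¹ E n S')
  (𝒱 : ValuationSubring K) (h𝒱 : IsGaussAt R π t 𝒱) (h𝒱' : IsGaussAt R π t⁻¹ 𝒱)
  [IsLocalRing ↥(integralClosure ↥𝒱 E)]
  (res : R →+* k) (hres : Function.Surjective res) (hπres : res π = 0)
  {F₁ : Type*} [Field F₁] [Algebra F₁ E] (V : ValuationSubring F₁)
  (hV : ∀ x : F₁, x ∈ V ↔ IsIntegral ↥𝒱 (algebraMap F₁ E x))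
  {Ft : Type*} [Field Ft] [Algebra k Ft] (resV : ↥V →+* Ft) (hresV : Function.Surjective resV)
  (cR : R →+* F₁)
  (hcR : ∀ r : R, algebraMap F₁ E (cR r) = algebraMap K E (algebraMap R K r))
  (hresRV : ∀ (r : R) (v : ↥V), (v : F₁) = cR r → resV v = algebraMap k Ft (res r))
  {Ω EΩ : Type*} [Field Ω] [Algebra K₁ Ω] [Algebra.IsAlgebraic K₁ Ω]
  [Field EΩ] [Algebra Ω EΩ] [CharZero EΩ]
  {FΩ : Type*} [Field FΩ] [Algebra Ω FΩ] [Algebra FΩ EΩ] [IsScalarTower Ω FΩ EΩ]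
  [Algebra.IsIntegral FΩ EΩ] [HasPrincipalDivisors Ω EΩ]
  {φ : E →+* EΩ}
  (hφ : ∀ c : K₁, φ (algebraMap K₁ E c) = algebraMap Ω EΩ (algebraMap K₁ Ω c))
  (hgen : Subfield.closure (Set.range φ ∪ Set.range (algebraMap Ω EΩ)) = ⊤)
  (bcF : F₁ →+* FΩ) (hbcF : ∀ x : F₁, φ (algebraMap F₁ E x) = algebraMap FΩ EΩ (bcF x))
  {K₀ : Type*} [Field K₀] [Algebra K₀ K] [Algebra K₀ E] [IsScalarTower K₀ K E]
  [Algebra K₀ F₁] [IsScalarTower K₀ F₁ E] [FiniteDimensional K₀ K] [CharZero K₀]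
  (𝒢₀ : ValuationSubring K₀) [IsDiscreteValuationRing ↥𝒢₀]
  (h𝒢₀𝒱 : ∀ x : K, x ∈ 𝒱 ↔ IsIntegral ↥𝒢₀ x) (hU₀ : Unr 𝒢₀ K) (hU : Unr 𝒱 E)
  (h𝒢₀V : ∀ s : K₀, s ∈ 𝒢₀ ↔ algebraMap K₀ F₁ s ∈ V)

set_option maxHeartbeats 3200000 in
include h h' h𝒱 h𝒱' hres hπres hV hresV hcR hresRV hφ hgen hbcF h𝒢₀𝒱 hU₀ hU h𝒢₀V in
/-- **the abstract assembly of (O1) with the DOWN inputs discharged** (`m = [E : F₁]`). -/
theorem geo_mapDomain_eq_ord_of_down [IsAlgClosed k] (x₀ : Ft) (halg : Algebra.IsAlgebraic k⟮x₀⟯ Ft)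
    [FiniteDimensional F₁ E] [Algebra.IsSeparable F₁ E] [IsDiscreteValuationRing ↥V]
    (hint : ∀ x : E, IsIntegral ↥𝒱 x → IsIntegral ↥V x)
    (r : Place Ω FΩ → Place k Ft) 
    (hup : ∀ P : Place Ω FΩ, ∑ w ∈ P.fiber EΩ, (w.ramificationIndex FΩ : ℤ) = (Module.finrank F₁ E : ℤ))
    (z₁ z₂ : ↥V)
    (hcover : ∀ Q : Place k Ft,
      resV z₁ ∈ Q.toValuationSubring ∨ resV z₂ ∈ Q.toValuationSubring)
    (a₁₁ b₁₁ : ↥(integralClosure ↥(Algebra.adjoin R {t}) E)) (hcop₁₁ : IsCoprime a₁₁ b₁₁)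
    (hz₁₁ : algebraMap F₁ E (z₁ : F₁) *
      algebraMap ↥(integralClosure ↥(Algebra.adjoin R {t}) E) E b₁₁ =
      algebraMap ↥(integralClosure ↥(Algebra.adjoin R {t}) E) E a₁₁)
    (a₂₁ b₂₁ : ↥(integralClosure ↥(Algebra.adjoin R {t}) E)) (hcop₂₁ : IsCoprime a₂₁ b₂₁)
    (hz₂₁ : algebraMap F₁ E (z₂ : F₁) *
      algebraMap ↥(integralClosure ↥(Algebra.adjoin R {t}) E) E b₂₁ =
      algebraMap ↥(integralClosure ↥(Algebra.adjoin R {t}) E) E a₂₁)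
    (a₁₂ b₁₂ : ↥(integralClosure ↥(Algebra.adjoin R {t⁻¹}) E)) (hcop₁₂ : IsCoprime a₁₂ b₁₂)
    (hz₁₂ : algebraMap F₁ E (z₁ : F₁) *
      algebraMap ↥(integralClosure ↥(Algebra.adjoin R {t⁻¹}) E) E b₁₂ =
      algebraMap ↥(integralClosure ↥(Algebra.adjoin R {t⁻¹}) E) E a₁₂)
    (a₂₂ b₂₂ : ↥(integralClosure ↥(Algebra.adjoin R {t⁻¹}) E)) (hcop₂₂ : IsCoprime a₂₂ b₂₂)
    (hz₂₂ : algebraMap F₁ E (z₂ : F₁) *
      algebraMap ↥(integralClosure ↥(Algebra.adjoin R {t⁻¹}) E) E b₂₂ =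
      algebraMap ↥(integralClosure ↥(Algebra.adjoin R {t⁻¹}) E) E a₂₂)
    (hSEP₁ : ∀ Q Q' : Place k Ft, resV z₁ ∈ Q.toValuationSubring →
      resV z₁ ∈ Q'.toValuationSubring → Q' ≠ Q →
      ∃ v : ↥V, IsIntegral ↥(Subring.closure (Set.range cR ∪ {(z₁ : F₁)})) (v : F₁) ∧
        HasValueAt Q (resV v) 0 ∧ ¬ HasValueAt Q' (resV v) 0)
    (hSEP₂ : ∀ Q Q' : Place k Ft, resV z₂ ∈ Q.toValuationSubring →
      resV z₂ ∈ Q'.toValuationSubring → Q' ≠ Q →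
      ∃ v : ↥V, IsIntegral ↥(Subring.closure (Set.range cR ∪ {(z₂ : F₁)})) (v : F₁) ∧
        HasValueAt Q (resV v) 0 ∧ ¬ HasValueAt Q' (resV v) 0)
    (hEVAL₁ : ∀ (P_F : Place Ω FΩ) (c : R),
      HasValueAt P_F (bcF (z₁ : F₁)) (algebraMap K₁ Ω (algebraMap R K₁ c)) →
      resV z₁ ∈ (r P_F).toValuationSubring ∧
      ∀ v : ↥V, IsIntegral ↥(Subring.closure (Set.range cR ∪ {(z₁ : F₁)})) (v : F₁) →
        ∀ c' : R, HasValueAt P_F (bcF (v : F₁)) (algebraMap K₁ Ω (algebraMap R K₁ c')) →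
          HasValueAt (r P_F) (resV v) (res c'))
    (hEVAL₂ : ∀ (P_F : Place Ω FΩ) (c : R),
      HasValueAt P_F (bcF (z₂ : F₁)) (algebraMap K₁ Ω (algebraMap R K₁ c)) →
      resV z₂ ∈ (r P_F).toValuationSubring ∧
      ∀ v : ↥V, IsIntegral ↥(Subring.closure (Set.range cR ∪ {(z₂ : F₁)})) (v : F₁) →
        ∀ c' : R, HasValueAt P_F (bcF (v : F₁)) (algebraMap K₁ Ω (algebraMap R K₁ c')) →
          HasValueAt (r P_F) (resV v) (res c'))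
    (vy : ↥V) (hvy : resV vy ≠ 0)
    (hrat : ∀ P : Place Ω EΩ, P.ord (φ (algebraMap F₁ E (vy : F₁))) ≠ 0 →
      IsRationalPlace (restrictBC φ hφ hgen P))
    (D : Divisor Ω FΩ) (hD : ∀ P, D P = P.ord (bcF (vy : F₁))) (Q : Place k Ft) :
    Finsupp.mapDomain r D Q = Q.ord (resV vy) := by
  have hm : (Module.finrank F₁ E : ℤ) ≠ 0 := by
    have : 0 < Module.finrank F₁ E := Module.finrank_pos
    exact_mod_cast this.ne'
  exact geo_mapDomain_eq_ord h h' 𝒱 h𝒱 h𝒱' res hres hπres V hV resV hresV cR hcR hresRV hφ hgen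
    bcF hbcF (down_hintd h 𝒱 h𝒱 V hV resV hresV 𝒢₀ h𝒢₀𝒱 hU₀ hU h𝒢₀V) r _ hm hup
    (down_hdown h 𝒱 h𝒱 res hres V hV resV hresV cR hcR hresRV 𝒢₀ h𝒢₀𝒱 hU₀ hU h𝒢₀V x₀ halg
      hπres hint)
    z₁ z₂ hcover a₁₁ b₁₁ hcop₁₁ hz₁₁ a₂₁ b₂₁ hcop₂₁ hz₂₁ a₁₂ b₁₂ hcop₁₂ hz₁₂ a₂₂ b₂₂ hcop₂₂ hz₂₂
    hSEP₁ hSEP₂ hEVAL₁ hEVAL₂ vy hvy hrat D hD Q

end AssemblyDown

end Fermat.Agent.JA
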