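/-
J-A — helper8 — (GEOBASE) part 5: translation of the coordinate.  `GeoHyps` for `t` gives `GeoHyps`
for `t - r` (`r ∈ R`), hence (with `GeoHyps.inv`) for the cusp-chart coordinate `t' = (t - r)⁻¹`.
-/
import Mathlib
import Fermat.Agent.JA.GEOBASE_helper8_Hyps

set_option autoImplicit false
set_option linter.unusedSectionVars false
set_option linter.style.haveILetI false
set_option synthInstance.maxHeartbeats 200000

open IntermediateField Polynomial

namespace Fermat.Agent.JA

section Gauss

variable {R : Type*} [CommRing R] {K : Type*} [Field K] [Algebra R K]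

theorem aeval_sub_algebraMap_comp (t : K) (r : R) (f : R[X]) :
    aeval (t - algebraMap R K r) (f.comp (X + C r)) = aeval t f := by
  rw [aeval_comp]
  congr 1
  simp

theorem C_dvd_comp_of_C_dvd {π : R} {f : R[X]} (g : R[X]) (h : C π ∣ f) : C π ∣ f.comp g := by
  obtain ⟨q, rfl⟩ := h
  exact ⟨q.comp g, by rw [mul_comp, C_comp]⟩

theorem C_dvd_comp_X_add_C_iff {π : R} (r : R) (f : R[X]) :
    C π ∣ f.comp (X + C r) ↔ C π ∣ f := by
  refine ⟨fun h => ?_, C_dvd_comp_of_C_dvd _⟩
  have h2 := C_dvd_comp_of_C_dvd (X - C r) h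
  rwa [comp_assoc, add_comp, X_comp, C_comp, sub_add_cancel, comp_X] at h2

/-- the Gauss valuation subring does not change under `t ↦ t - r`. -/
theorem isGaussAt_of_sub {π : R} {t : K} (r : R) {𝒱 : ValuationSubring K}
    (h : IsGaussAt R π (t - algebraMap R K r) 𝒱) : IsGaussAt R π t 𝒱 := by
  obtain ⟨h1, h2, h3⟩ := h
  refine ⟨fun f => ?_, h2, fun f hf => ?_⟩
  · rw [← aeval_sub_algebraMap_comp t r f]
    exact h1 _
  · rw [← aeval_sub_algebraMap_comp t r f]
    exact h3 _ (fun hd => hf ((C_dvd_comp_X_add_C_iff r f).mp hd))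

theorem isGaussAt_sub_iff {π : R} {t : K} (r : R) {𝒱 : ValuationSubring K} :
    IsGaussAt R π (t - algebraMap R K r) 𝒱 ↔ IsGaussAt R π t 𝒱 := by
  refine ⟨isGaussAt_of_sub r, fun h => ?_⟩
  apply isGaussAt_of_sub (t := t - algebraMap R K r) (-r)
  rwa [map_neg, sub_neg_eq_add, sub_add_cancel]

end Gauss

section Abstract

variable {R : Type*} [CommRing R] [IsDomain R] [IsDiscreteValuationRing R] [CharZero R]
  {K₁ : Type*} [Field K₁] [Algebra R K₁] [IsFractionRing R K₁]
  {K : Type*} [Field K] [Algebra K₁ K] [Algebra R K] [IsScalarTower R K₁ K]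
  {E : Type*} [Field E] [Algebra K E] [Algebra K₁ E] [IsScalarTower K₁ K E]
  {π : R} {t : K} {n : ℕ} {S : Finset R}

/-- **translation of the coordinate**: the hypotheses for `t` give those for `t - r`, `r ∈ R`,
with the translated branch set, provided the translated branch points are `0` or units. -/
theorem GeoHyps.translate [DecidableEq R] (h : GeoHyps K₁ π t E n S) (r : R)
    (hr : ∀ a ∈ S, a - r = 0 ∨ IsUnit (a - r)) :
    GeoHyps K₁ π (t - algebraMap R K r) E n (S.image (fun a => a - r)) := by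
  have hc : algebraMap R K r = algebraMap K₁ K (algebraMap R K₁ r) :=
    IsScalarTower.algebraMap_apply R K₁ K r
  refine ⟨h.finite, h.irreducible, ?_, ?_, h.isUnit_n, h.exists_root, ?_, ?_, ?_, h.tame, ?_,
    h.const⟩
  · intro hh
    apply h.transcendental
    have h2 : IsAlgebraic K₁ (algebraMap R K r) := by
      rw [hc]; exact isAlgebraic_algebraMap _
    have := hh.add h2
    rwa [sub_add_cancel] at this
  · rw [eq_top_iff, ← h.adjoin_eq_top, IntermediateField.adjoin_simple_le_iff]
    have h1 : t - algebraMap R K r ∈ IntermediateField.adjoin K₁ {t - algebraMap R K r} :=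
      IntermediateField.mem_adjoin_simple_self K₁ _
    have h2 : algebraMap R K r ∈ IntermediateField.adjoin K₁ {t - algebraMap R K r} := by
      rw [hc]; exact IntermediateField.algebraMap_mem _ _
    have := add_mem h1 h2
    rwa [sub_add_cancel] at this
  · intro a' ha' b' hb' hab
    obtain ⟨a, ha, rfl⟩ := Finset.mem_image.mp ha'
    obtain ⟨b, hb, rfl⟩ := Finset.mem_image.mp hb'
    have : a ≠ b := by rintro rfl; exact hab rfl
    have h3 := h.unit_sub a ha b hb this
    rwa [sub_sub_sub_cancel_right]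
  · intro a' ha'
    obtain ⟨a, ha, rfl⟩ := Finset.mem_image.mp ha'
    exact hr a ha
  · intro 𝒱 hne hK₁ ht hS'
    have hc𝒱 : algebraMap R K r ∈ 𝒱 := by rw [hc]; exact hK₁ _
    refine h.unr 𝒱 hne hK₁ ?_ ?_
    · have := 𝒱.add_mem _ _ ht hc𝒱
      rwa [sub_add_cancel] at this
    · intro a ha
      have := hS' (a - r) (Finset.mem_image.mpr ⟨a, ha, rfl⟩)
      rwa [map_sub, sub_sub_sub_cancel_right] at this
  · intro 𝒱 h𝒱
    exact h.gauss 𝒱 (isGaussAt_of_sub r h𝒱)

/-- **the cusp-chart coordinate** `t' = (t - r)⁻¹`. -/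
theorem GeoHyps.inv_translate (h : GeoHyps K₁ π t E n S) (r : R)
    (hr : ∀ a ∈ S, a - r = 0 ∨ IsUnit (a - r)) :
    ∃ S' : Finset R, GeoHyps K₁ π (t - algebraMap R K r)⁻¹ E n S' := by
  classical
  exact (h.translate r hr).inv

end Abstract

end Fermat.Agent.JA
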