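/-
J-A — helper8 — (GEOBASE) part 6: the cusp-chart coordinate `t' = (t - r)⁻¹` at a base, `r` a root of
`A(X) - b B(X)` (`j = A(t)/B(t)` the Legendre resp. Hesse `j`-function, `b ∈ ℤ`): existence of `r`
in a larger base with all translated branch points units, and `GeoHyps` for `t'`.
-/
import Mathlib
import Fermat.Agent.JA.GEOBASE_helper8_Base
import Fermat.Agent.JA.GEOBASE_helper8_Cusp

set_option autoImplicit false
set_option linter.unusedSectionVars false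
set_option linter.style.haveILetI false
set_option synthInstance.maxHeartbeats 200000

open HahnSeries IntermediateField AlgebraicCurve ModularCurve Fermat.Agent.Igusa Polynomial

namespace Fermat.Agent.JA

section Val

variable {F : Type*} [Field F] {Γ₀ : Type*} [LinearOrderedCommGroupWithZero Γ₀]
  (v : Valuation F Γ₀)

/-- a root `r` of `256 (X² - X + 1)³ - b X² (X - 1)²` (`b` integral, `256` a unit): `r`, `r - 1`
are units. -/
theorem cusp_val_legendre (h256 : v 256 = 1) {b r : F} (hb : v b ≤ 1)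
    (h : 256 * (r ^ 2 - r + 1) ^ 3 = b * (r ^ 2 * (r - 1) ^ 2)) :
    v r = 1 ∧ v (r - 1) = 1 := by
  have h1 : v (1 : F) = 1 := v.map_one
  -- integrality
  have hr : v r ≤ 1 := by
    by_contra hlt
    rw [not_le] at hlt
    have hr0 : r ≠ 0 := by
      rintro rfl
      rw [v.map_zero] at hlt
      exact not_lt_of_ge zero_le_one hlt
    have hs : v r⁻¹ < 1 := by
      rw [map_inv₀]
      exact inv_lt_one_of_one_lt₀ hlt
    have hs1 : v (r⁻¹ - 1) ≤ 1 := by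
      refine le_trans (v.map_sub _ _) ?_
      rw [h1]; exact max_le hs.le le_rfl
    have e : 256 * (1 + r⁻¹ * (r⁻¹ - 1)) ^ 3 = b * (r⁻¹ ^ 2 * (r⁻¹ - 1) ^ 2) := by
      field_simp
      linear_combination h
    have hL : v (256 * (1 + r⁻¹ * (r⁻¹ - 1)) ^ 3) = 1 := by
      rw [map_mul, map_pow, h256, v.map_one_add_of_lt, one_pow, one_mul]
      rw [map_mul]
      calc v r⁻¹ * v (r⁻¹ - 1) ≤ v r⁻¹ * 1 := by gcongr
        _ < 1 := by rw [mul_one]; exact hs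
    have hR : v (b * (r⁻¹ ^ 2 * (r⁻¹ - 1) ^ 2)) < 1 := by
      rw [map_mul, map_mul, map_pow, map_pow]
      calc v b * (v r⁻¹ ^ 2 * v (r⁻¹ - 1) ^ 2) ≤ 1 * (v r⁻¹ ^ 2 * 1 ^ 2) := by gcongr
        _ = v r⁻¹ ^ 2 := by rw [one_mul, one_pow, mul_one]
        _ < 1 := pow_lt_one₀ zero_le hs (by norm_num)
    rw [e] at hL
    exact absurd hL hR.ne
  have hr1 : v (r - 1) ≤ 1 := by
    refine le_trans (v.map_sub _ _) ?_
    rw [h1]; exact max_le hr le_rfl
  have hprod : v (r * (r - 1)) = 1 := by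
    by_contra hne
    have hlt : v (r * (r - 1)) < 1 := lt_of_le_of_ne (by
      rw [map_mul]
      calc v r * v (r - 1) ≤ 1 * 1 := by gcongr
        _ = 1 := one_mul 1) hne
    have e : 256 * (1 + r * (r - 1)) ^ 3 = b * (r * (r - 1)) ^ 2 := by
      linear_combination h
    have hL : v (256 * (1 + r * (r - 1)) ^ 3) = 1 := by
      rw [map_mul, map_pow, h256, v.map_one_add_of_lt hlt, one_pow, one_mul]
    have hR : v (b * (r * (r - 1)) ^ 2) < 1 := by
      rw [map_mul, map_pow]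
      calc v b * v (r * (r - 1)) ^ 2 ≤ 1 * v (r * (r - 1)) ^ 2 := by gcongr
        _ = v (r * (r - 1)) ^ 2 := one_mul _
        _ < 1 := pow_lt_one₀ zero_le hlt (by norm_num)
    rw [e] at hL
    exact absurd hL hR.ne
  rw [map_mul] at hprod
  constructor
  · by_contra hne
    have hlt : v r < 1 := lt_of_le_of_ne hr hne
    have : v r * v (r - 1) < 1 := by
      calc v r * v (r - 1) ≤ v r * 1 := by gcongr
        _ < 1 := by rw [mul_one]; exact hlt
    exact absurd hprod this.ne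
  · by_contra hne
    have hlt : v (r - 1) < 1 := lt_of_le_of_ne hr1 hne
    have : v r * v (r - 1) < 1 := by
      calc v r * v (r - 1) ≤ 1 * v (r - 1) := by gcongr
        _ < 1 := by rw [one_mul]; exact hlt
    exact absurd hprod this.ne

/-- a root `r` of `27 X³ (X³ + 8)³ - b (X³ - 1)³` (`b` integral, `3` a unit): `r` is integral and
`c - r` is a unit for every cube root of unity `c`. -/
theorem cusp_val_hesse (h3 : v 3 = 1) (h2 : v 2 ≤ 1) {b r : F} (hb : v b ≤ 1)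
    (h : 27 * r ^ 3 * (r ^ 3 + 8) ^ 3 = b * (r ^ 3 - 1) ^ 3) :
    v r ≤ 1 ∧ ∀ c : F, c ^ 3 = 1 → v (c - r) = 1 := by
  have h1 : v (1 : F) = 1 := v.map_one
  have h27 : v 27 = 1 := by
    have : (27 : F) = 3 ^ 3 := by norm_num
    rw [this, map_pow, h3, one_pow]
  have h9 : v 9 = 1 := by
    have : (9 : F) = 3 ^ 2 := by norm_num
    rw [this, map_pow, h3, one_pow]
  have h8 : v 8 ≤ 1 := by
    have : (8 : F) = 2 ^ 3 := by norm_num
    rw [this, map_pow]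
    exact pow_le_one₀ zero_le h2
  -- integrality
  have hr : v r ≤ 1 := by
    by_contra hlt
    rw [not_le] at hlt
    have hr0 : r ≠ 0 := by
      rintro rfl
      rw [v.map_zero] at hlt
      exact not_lt_of_ge zero_le_one hlt
    have hs : v r⁻¹ < 1 := by
      rw [map_inv₀]
      exact inv_lt_one_of_one_lt₀ hlt
    have hs3 : v (r⁻¹ ^ 3) < 1 := by
      rw [map_pow]; exact pow_lt_one₀ zero_le hs (by norm_num)
    have hs1 : v (1 - r⁻¹ ^ 3) ≤ 1 := by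
      refine le_trans (v.map_sub _ _) ?_
      rw [h1]; exact max_le le_rfl hs3.le
    have e : 27 * (1 + 8 * r⁻¹ ^ 3) ^ 3 = b * (r⁻¹ ^ 3 * (1 - r⁻¹ ^ 3) ^ 3) := by
      field_simp
      linear_combination h
    have hL : v (27 * (1 + 8 * r⁻¹ ^ 3) ^ 3) = 1 := by
      rw [map_mul, map_pow (v) (1 + 8 * r⁻¹ ^ 3), h27, v.map_one_add_of_lt, one_pow, one_mul]
      rw [map_mul]
      calc v 8 * v (r⁻¹ ^ 3) ≤ 1 * v (r⁻¹ ^ 3) := by gcongr
        _ < 1 := by rw [one_mul]; exact hs3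
    have hR : v (b * (r⁻¹ ^ 3 * (1 - r⁻¹ ^ 3) ^ 3)) < 1 := by
      rw [map_mul, map_mul, map_pow (v) (1 - r⁻¹ ^ 3)]
      calc v b * (v (r⁻¹ ^ 3) * v (1 - r⁻¹ ^ 3) ^ 3) ≤ 1 * (v (r⁻¹ ^ 3) * 1 ^ 3) := by gcongr
        _ = v (r⁻¹ ^ 3) := by rw [one_mul, one_pow, mul_one]
        _ < 1 := hs3
    rw [e] at hL
    exact absurd hL hR.ne
  refine ⟨hr, fun c hc => ?_⟩
  have hvc : v c = 1 := by
    have : v c ^ 3 = 1 := by rw [← map_pow, hc, h1]
    rcases lt_trichotomy (v c) 1 with hlt | heq | hgt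
    · exact absurd this (pow_lt_one₀ zero_le hlt (by norm_num)).ne
    · exact heq
    · exact absurd this (one_lt_pow₀ hgt (by norm_num)).ne'
  have hle : v (c - r) ≤ 1 := by
    refine le_trans (v.map_sub _ _) ?_
    exact max_le hvc.le hr
  by_contra hne
  have hlt : v (c - r) < 1 := lt_of_le_of_ne hle hne
  -- `r³ - 1 = -(c - r) (r² + r c + c²)`
  have hq : v (r ^ 2 + r * c + c ^ 2) ≤ 1 := by
    refine le_trans (v.map_add _ _) (max_le (le_trans (v.map_add _ _) (max_le ?_ ?_)) ?_)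
    · rw [map_pow]; exact pow_le_one₀ zero_le hr
    · rw [map_mul, hvc, mul_one]; exact hr
    · rw [map_pow, hvc, one_pow]
  have hfac : r ^ 3 - 1 = -((c - r) * (r ^ 2 + r * c + c ^ 2)) := by
    linear_combination hc
  have hd : v (r ^ 3 - 1) < 1 := by
    rw [hfac, Valuation.map_neg, map_mul]
    calc v (c - r) * v (r ^ 2 + r * c + c ^ 2) ≤ v (c - r) * 1 := by gcongr
      _ < 1 := by rw [mul_one]; exact hlt
  have hvr : v r = 1 := by
    have : r = c - (c - r) := by ring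
    rw [this, Valuation.map_sub_eq_of_lt_left]
    · exact hvc
    · rw [hvc]; exact hlt
  have h8' : v (r ^ 3 + 8) = 1 := by
    have : r ^ 3 + 8 = 9 + (r ^ 3 - 1) := by ring
    rw [this, Valuation.map_add_eq_of_lt_left]
    · exact h9
    · rw [h9]; exact hd
  have hL : v (27 * r ^ 3 * (r ^ 3 + 8) ^ 3) = 1 := by
    rw [map_mul, map_mul, map_pow, map_pow, h27, hvr, h8']; simp
  have hR : v (b * (r ^ 3 - 1) ^ 3) < 1 := by
    rw [map_mul, map_pow]
    calc v b * v (r ^ 3 - 1) ^ 3 ≤ 1 * v (r ^ 3 - 1) ^ 3 := by gcongr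
      _ = v (r ^ 3 - 1) ^ 3 := one_mul _
      _ < 1 := pow_lt_one₀ zero_le hd (by norm_num)
  rw [h] at hL
  exact absurd hL hR.ne

end Val

open scoped Fermat.Agent.JA.Host

/-- `Ω = AlgebraicClosure ℚ`. -/
local notation "Ω" => AlgebraicClosure ℚ

section Base

variable {ℓ : ℕ} [Fact ℓ.Prime] {A : ValuationSubring Ω} (hA : A.LiesOverPrime ℓ)
  (N : ℕ) [NeZero N] {K₁ : IntermediateField ℚ Ω}

include hA in
/-- **a root of `A_leg - b B_leg` in a larger base**, with `r`, `r - 1` units (`ℓ ≠ 2`). -/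
theorem exists_isBase_root_legendre (hK₁ : IsBase ℓ K₁) (hℓ2 : ℓ ≠ 2) (b : ℤ) :
    ∃ K₂ : IntermediateField ℚ Ω, IsBase ℓ K₂ ∧ K₁ ≤ K₂ ∧ ∃ r : ↥(baseRing A K₂),
      256 * (r ^ 2 - r + 1) ^ 3 = (b : ↥(baseRing A K₂)) * (r ^ 2 * (r - 1) ^ 2) ∧
      IsUnit r ∧ IsUnit (r - 1) := by
  classical
  let p : Polynomial Ω := 256 * (X ^ 2 - X + 1) ^ 3 - Polynomial.C (b : Ω) * (X ^ 2 * (X - 1) ^ 2)
  have hdeg : p.natDegree = 6 := by
    show (256 * (X ^ 2 - X + 1) ^ 3 - Polynomial.C (b : Ω) * (X ^ 2 * (X - 1) ^ 2) : Polynomial Ω).natDegree = 6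
    compute_degree!
  have hdeg' : p.degree ≠ 0 := by
    intro h0
    have := natDegree_eq_of_degree_eq_some h0
    rw [hdeg] at this
    norm_num at this
  obtain ⟨r₀, hr₀⟩ := IsAlgClosed.exists_root p hdeg'
  have h : (256 : Ω) * (r₀ ^ 2 - r₀ + 1) ^ 3 = (b : Ω) * (r₀ ^ 2 * (r₀ - 1) ^ 2) := by
    have := hr₀
    simp only [p, IsRoot.def, eval_sub, eval_mul, eval_pow, eval_add, eval_X, eval_one, eval_C,
      eval_ofNat] at this
    exact sub_eq_zero.mp this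
  have hℓ256 : ¬ ℓ ∣ 256 := by
    intro hd
    have h2 : ℓ ∣ 2 := (Fact.out : ℓ.Prime).dvd_of_dvd_pow (show ℓ ∣ 2 ^ 8 by norm_num; exact hd)
    exact hℓ2 ((Nat.prime_dvd_prime_iff_eq (Fact.out : ℓ.Prime) Nat.prime_two).mp h2)
  have h256 : A.valuation (256 : Ω) = 1 := by
    have := Fermat.Agent.TW.Kill.valuation_natCast_eq_one (Fact.out : ℓ.Prime) hℓ256 hA
    exact_mod_cast this
  obtain ⟨hv0, hv1⟩ := cusp_val_legendre A.valuation h256 (Fermat.Agent.TW.Kill.valuation_intCast_le_one A b) h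
  obtain ⟨K₂, hK₂, hle, hmem⟩ := hK₁.exists_ge_forall_mem {r₀}
  have hr₀K : r₀ ∈ K₂ := hmem r₀ (Finset.mem_singleton_self r₀)
  have hr₀R : (⟨r₀, hr₀K⟩ : ↥K₂) ∈ baseRing A K₂ := mem_baseRing_iff.mpr hv0.le
  refine ⟨K₂, hK₂, hle, ⟨⟨r₀, hr₀K⟩, hr₀R⟩, ?_, ?_, ?_⟩
  · apply Subtype.ext
    apply Subtype.ext
    push_cast
    exact h
  · rw [isUnit_baseRing_iff]
    exact hv0
  · rw [isUnit_baseRing_iff]
    push_cast
    exact hv1

include hA in
/-- **a root of `A_hes - b B_hes` in a larger base**, with `c - r` a unit for all cube roots of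
unity `c` (`ℓ ≠ 3`). -/
theorem exists_isBase_root_hesse (hK₁ : IsBase ℓ K₁) (hℓ3 : ℓ ≠ 3) (b : ℤ) :
    ∃ K₂ : IntermediateField ℚ Ω, IsBase ℓ K₂ ∧ K₁ ≤ K₂ ∧ ∃ r : ↥(baseRing A K₂),
      27 * r ^ 3 * (r ^ 3 + 8) ^ 3 = (b : ↥(baseRing A K₂)) * (r ^ 3 - 1) ^ 3 ∧
      ∀ c : ↥(baseRing A K₂), c ^ 3 = 1 → IsUnit (c - r) := by
  classical
  let p : Polynomial Ω := 27 * X ^ 3 * (X ^ 3 + 8) ^ 3 - Polynomial.C (b : Ω) * (X ^ 3 - 1) ^ 3
  have hdeg : p.natDegree = 12 := by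
    show (27 * X ^ 3 * (X ^ 3 + 8) ^ 3 - Polynomial.C (b : Ω) * (X ^ 3 - 1) ^ 3 : Polynomial Ω).natDegree = 12
    compute_degree!
  have hdeg' : p.degree ≠ 0 := by
    intro h0
    have := natDegree_eq_of_degree_eq_some h0
    rw [hdeg] at this
    norm_num at this
  obtain ⟨r₀, hr₀⟩ := IsAlgClosed.exists_root p hdeg'
  have h : (27 : Ω) * r₀ ^ 3 * (r₀ ^ 3 + 8) ^ 3 = (b : Ω) * (r₀ ^ 3 - 1) ^ 3 := by
    have := hr₀
    simp only [p, IsRoot.def, eval_sub, eval_mul, eval_pow, eval_add, eval_X, eval_one, eval_C,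
      eval_ofNat] at this
    exact sub_eq_zero.mp this
  have hℓ3' : ¬ ℓ ∣ 3 := fun hd =>
    hℓ3 ((Nat.prime_dvd_prime_iff_eq (Fact.out : ℓ.Prime) Nat.prime_three).mp hd)
  have h3 : A.valuation (3 : Ω) = 1 := by
    have := Fermat.Agent.TW.Kill.valuation_natCast_eq_one (Fact.out : ℓ.Prime) hℓ3' hA
    exact_mod_cast this
  have h2 : A.valuation (2 : Ω) ≤ 1 := by
    have := Fermat.Agent.TW.Kill.valuation_intCast_le_one A 2
    exact_mod_cast this
  obtain ⟨hv0, hv1⟩ := cusp_val_hesse A.valuation h3 h2 (Fermat.Agent.TW.Kill.valuation_intCast_le_one A b) h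
  obtain ⟨K₂, hK₂, hle, hmem⟩ := hK₁.exists_ge_forall_mem {r₀}
  have hr₀K : r₀ ∈ K₂ := hmem r₀ (Finset.mem_singleton_self r₀)
  have hr₀R : (⟨r₀, hr₀K⟩ : ↥K₂) ∈ baseRing A K₂ := mem_baseRing_iff.mpr hv0
  refine ⟨K₂, hK₂, hle, ⟨⟨r₀, hr₀K⟩, hr₀R⟩, ?_, ?_⟩
  · apply Subtype.ext
    apply Subtype.ext
    push_cast
    exact h
  · intro c hc
    rw [isUnit_baseRing_iff]
    push_cast
    apply hv1
    have := congrArg (fun z : ↥(baseRing A K₂) => (((z : ↥K₂)) : Ω)) hc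
    simpa using this

set_option maxHeartbeats 1600000 in
include hA in
/-- **GEO at a base for the cusp-chart coordinate** `t' = (t - r)⁻¹`, Legendre case. -/
theorem geoHyps_legE_cusp_baseRing [DecidableEq ↥(baseRing A K₁)] (hℓN : ¬ ℓ ∣ N)
    (hK₁ : IsBase ℓ K₁) (hℓ2 : ℓ ≠ 2) [IsDiscreteValuationRing ↥(baseRing A K₁)]
    {ϖ : ↥(baseRing A K₁)} (hϖ : Irreducible ϖ) (r : ↥(baseRing A K₁)) (hr0 : IsUnit r)
    (hr1 : IsUnit (r - 1)) :
    ∃ S' : Finset ↥(baseRing A K₁),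
      GeoHyps ↥K₁ (K := ↥(↥K₁)⟮legT ↥K₁⟯) ϖ
        (AdjoinSimple.gen ↥K₁ (legT ↥K₁) -
          algebraMap ↥(baseRing A K₁) ↥(↥K₁)⟮legT ↥K₁⟯ r)⁻¹ ↥(legE ↥K₁ N) N S' := by
  haveI : CharZero ↥(baseRing A K₁) := charZero_valuationSubring_of_algebraRat _
  refine (geoHyps_legE_baseRing hA N hℓN hK₁ hℓ2 hϖ).inv_translate r ?_
  intro a ha
  simp only [Finset.mem_insert, Finset.mem_singleton] at ha
  rcases ha with rfl | rfl
  · right; rw [zero_sub]; exact hr0.neg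
  · right
    have : (1 : ↥(baseRing A K₁)) - r = -(r - 1) := by ring
    rw [this]; exact hr1.neg

set_option maxHeartbeats 1600000 in
include hA in
/-- **GEO at a base for the cusp-chart coordinate** `t' = (t - r)⁻¹`, Hesse case. -/
theorem geoHyps_hesE_cusp_baseRing [DecidableEq ↥(baseRing A K₁)] (hℓN : ¬ ℓ ∣ N)
    (hK₁ : IsBase ℓ K₁) (hℓ3 : ℓ ≠ 3) [IsDiscreteValuationRing ↥(baseRing A K₁)]
    {ϖ : ↥(baseRing A K₁)} (hϖ : Irreducible ϖ) (r : ↥(baseRing A K₁))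
    (hr : ∀ c : ↥(baseRing A K₁), c ^ 3 = 1 → IsUnit (c - r)) :
    ∃ S' : Finset ↥(baseRing A K₁),
      GeoHyps ↥K₁ (K := ↥(↥K₁)⟮hesT ↥K₁⟯) ϖ
        (AdjoinSimple.gen ↥K₁ (hesT ↥K₁) -
          algebraMap ↥(baseRing A K₁) ↥(↥K₁)⟮hesT ↥K₁⟯ r)⁻¹ ↥(hesE ↥K₁ N) N S' := by
  haveI : CharZero ↥(baseRing A K₁) := charZero_valuationSubring_of_algebraRat _
  obtain ⟨ω, hω, hG⟩ := geoHyps_hesE_baseRing hA N hℓN hK₁ hℓ3 hϖ
  have hω3 : ω ^ 3 = 1 := by linear_combination (ω - 1) * hω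
  refine hG.inv_translate r ?_
  intro a ha
  simp only [Finset.mem_insert, Finset.mem_singleton] at ha
  right
  rcases ha with h | h | h
  · rw [h]; exact hr 1 (one_pow 3)
  · rw [h]; exact hr ω hω3
  · rw [h]; exact hr (ω ^ 2) (by rw [← pow_mul, mul_comm, pow_mul, hω3, one_pow])

end Base

end Fermat.Agent.JA
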