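/-
J-A — helper6 — (O1) base-level assembly: helper9's `geo_mapDomain_eq_ord_of_down` instantiated at a
base `K₁` (R = baseRing A K₁) for the Legendre tower (`ℓ ≠ 2`) and the Hesse tower (`ℓ ≠ 3`), with
helper6's BASE-PKG, helper3's coordinates/SEP/EVAL, helper8's fraction data, helper2's compat,
helper7's (UP) + (BCDEG).
-/
import Mathlib
import Fermat.Agent.JA.O1_helper6_BaseInst
import Fermat.Agent.JA.O1_helper9_HDownPlug
import Fermat.Agent.JA.O1_helper3_BaseInst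
import Fermat.Agent.JA.O1_helper8_FChartLit
import Fermat.Agent.JA.O1_helper8_FChartConc
import Fermat.Agent.JA.O1_helper2_Compat
import Fermat.Agent.JA.O1_helper9_YData
import Fermat.Agent.JA.UP_helper7_Coord
import Fermat.Agent.JA.BCDEG_helper7

set_option autoImplicit false
set_option linter.unusedSectionVars false
set_option linter.style.haveILetI false
set_option synthInstance.maxHeartbeats 400000

open HahnSeries IntermediateField AlgebraicCurve ModularCurve Fermat.Agent.Igusa Polynomial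
  Fermat.Agent.X0N Fermat.Agent.FF
open scoped MatrixGroups
open CongruenceSubgroup

namespace Fermat.Agent.JA

open scoped Fermat.Agent.JA.Host

/-- `Ω = AlgebraicClosure ℚ`. -/
local notation "Ω" => AlgebraicClosure ℚ

section LegAsm

variable {ℓ : ℕ} [Fact ℓ.Prime] {A : ValuationSubring Ω} (hA : A.LiesOverPrime ℓ)
  (N : ℕ) [NeZero N] {K₁ : IntermediateField ℚ Ω}

set_option maxHeartbeats 6400000 in
include hA in
theorem legE_base_mapDomain_eq_ord (hℓN : ¬ ℓ ∣ N) (hK₁ : IsBase ℓ K₁) (hℓ2 : ℓ ≠ 2)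
    [IsDiscreteValuationRing ↥(baseRing A K₁)]
    (h : GaussRes A N (IsLocalRing.residue ↥A)) (b : ℤ)
    (r₀ : ↥(baseRing A K₁))
    (hroot : 256 * (r₀ ^ 2 - r₀ + 1) ^ 3 = (b : ↥(baseRing A K₁)) * (r₀ ^ 2 * (r₀ - 1) ^ 2))
    (hr0 : IsUnit r₀) (hr1 : IsUnit (r₀ - 1))
    (r : Place Ω ↥(modularFunctionFieldBar N) →
      Place (IsLocalRing.ResidueField ↥A)
        ↥(modularFunctionFieldFullC (IsLocalRing.ResidueField ↥A) N))
    (hev₁ : ChartEval h (jBar N) r) (hev₂ : ChartEval h (jInvBar N b) r)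
    (vy : ↥(baseV (baseRing A K₁) N (hFq_baseRing N)))
    (hvy : baseResV (baseRing A K₁) N (hFq_baseRing N) (baseResidueMap A K₁)
      (hRES_baseRing hA N hℓN hK₁) vy ≠ 0)
    (hrat : ∀ P : Place Ω ↥(legE Ω N),
      P.ord (fullToLegE Ω N (baseToBar N K₁ (vy : ↥(keyFq ↥K₁ N)))) ≠ 0 →
      IsRationalPlace (restrictBC (legBC N K₁) (legBC_algebraMap N K₁)
        (closure_range_legBC N K₁) P))
    (D : Divisor Ω ↥(modularFunctionFieldBar N))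
    (hD : ∀ P, D P = P.ord (baseToBar N K₁ (vy : ↥(keyFq ↥K₁ N))))
    (Q : Place (IsLocalRing.ResidueField ↥A)
      ↥(modularFunctionFieldFullC (IsLocalRing.ResidueField ↥A) N)) :
    Finsupp.mapDomain r D Q =
      Q.ord (baseResV (baseRing A K₁) N (hFq_baseRing N) (baseResidueMap A K₁)
        (hRES_baseRing hA N hℓN hK₁) vy) := by
  classical
  haveI : CharZero ↥(baseRing A K₁) := charZero_valuationSubring_of_algebraRat _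
  haveI : CharZero ↥K₁ := algebraRat.charZero _
  haveI : Module.Finite ↥(↥K₁)⟮jqNModC ↥K₁ 2⟯ ↥(keyFw ↥K₁ N 2) := finite_keyFw_base hA N 2
  obtain ⟨ϖ, hϖ⟩ := IsDiscreteValuationRing.exists_irreducible ↥(baseRing A K₁)
  have hgeo := geoHyps_legE_baseRing hA N hℓN hK₁ hℓ2 hϖ
  obtain ⟨S', hgeo'⟩ := hgeo.inv
  obtain ⟨𝒢t, h𝒢t, h𝒢t', h𝒢j, hintj, hU₀⟩ := exists_gauss_legE_baseRing hA (K₁ := K₁) hℓ2 hϖ
  letI : Algebra ↥(modularFunctionFieldBar N) ↥(legE Ω N) :=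
    (fullToLegE Ω N).toRingHom.toAlgebra
  letI := baseAlgFE (K₁ := ↥K₁) N 2 (legT ↥K₁)
  haveI : HasPrincipalDivisors Ω ↥(legE Ω N) := up_hasPrincipalDivisors_legE N
  haveI : IsScalarTower Ω ↥(modularFunctionFieldBar N) ↥(legE Ω N) :=
    isScalarTower_along (fullToLegE Ω N)
  haveI : Algebra.IsIntegral ↥(modularFunctionFieldBar N) ↥(legE Ω N) :=
    isIntegral_along (fullToLegE Ω N) (isIntegral_of_finiteAlong _ (finiteAlong_fullToLegE N))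
  haveI := hgeo.isLocalRing 𝒢t h𝒢t
  letI := baseAlgK₀F (K₁ := ↥K₁) N 2
  haveI := baseAlgK₀F_isScalarTower (K₁ := ↥K₁) N 2 (legT ↥K₁)
  haveI : FiniteDimensional ↥(↥K₁)⟮jqNModC ↥K₁ 2⟯ ↥(↥K₁)⟮legT ↥K₁⟯ :=
    Host.finite_Kj_Kt _ (legT ↥K₁) (isIntegral_legT ↥K₁)
  haveI : CharZero ↥(↥K₁)⟮jqNModC ↥K₁ 2⟯ := algebraRat.charZero _
  have htrj : Transcendental ↥K₁ (AdjoinSimple.gen ↥K₁ (jqNModC ↥K₁ 2)) :=
    Host.transcendental_gen (transcendental_jqNModC 2)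
  have hKj : IntermediateField.adjoin ↥K₁ {AdjoinSimple.gen ↥K₁ (jqNModC ↥K₁ 2)} = ⊤ :=
    Host.adjoin_gen_eq_top _
  haveI : IsDiscreteValuationRing
      ↥(𝒢t.comap (algebraMap ↥(↥K₁)⟮jqNModC ↥K₁ 2⟯ ↥(↥K₁)⟮legT ↥K₁⟯)) :=
    isDiscreteValuationRing_of_isGaussAt ϖ hϖ _ htrj hKj h𝒢j
  haveI : Module.Finite ↥(keyFq ↥K₁ N) ↥(legE ↥K₁ N) :=
    finite_fullToEtu ↥K₁ N 2 (legT ↥K₁) (isIntegral_legT ↥K₁)
  haveI : CharZero ↥(keyFq ↥K₁ N) := algebraRat.charZero _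
  haveI : IsAlgClosed (IsLocalRing.ResidueField ↥A) := isAlgClosed_residueField A
  haveI := finiteDimensional_fullC_residueField hA N hℓN
  have halg : Algebra.IsAlgebraic
      (IsLocalRing.ResidueField ↥A)⟮jTildeElt (IsLocalRing.ResidueField ↥A) N⟯
      ↥(modularFunctionFieldFullC (IsLocalRing.ResidueField ↥A) N) :=
    Algebra.IsAlgebraic.of_finite _ _
  -- the fraction data (P2)
  have hℓ2' : ¬ ℓ ∣ 2 := fun hd =>
    hℓ2 ((Nat.prime_dvd_prime_iff_eq (Fact.out : ℓ.Prime) Nat.prime_two).mp hd)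
  have hℓ256 : ¬ ℓ ∣ 256 := fun hd =>
    hℓ2' ((Fact.out : ℓ.Prime).dvd_of_dvd_pow (show ℓ ∣ 2 ^ 8 by norm_num; exact hd))
  have h256 : IsUnit (256 : ↥(baseRing A K₁)) := by
    have := isUnit_natCast_baseRing hA (K₁ := K₁) hℓ256
    exact_mod_cast this
  obtain ⟨c256, hc256⟩ := h256.exists_right_inv
  obtain ⟨hf₁₁, hf₂₁, hf₁₂, hf₂₂⟩ := o1_fchart_legE (baseRing A K₁) N c256 hc256 b
  obtain ⟨a₁₁, b₁₁, hcop₁₁, hz₁₁⟩ := hf₁₁
  obtain ⟨a₂₁, b₂₁, hcop₂₁, hz₂₁⟩ := hf₂₁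
  obtain ⟨a₁₂, b₁₂, hcop₁₂, hz₁₂⟩ := hf₁₂
  obtain ⟨a₂₂, b₂₂, hcop₂₂, hz₂₂⟩ := hf₂₂
  have hbcF : ∀ x : ↥(keyFq ↥K₁ N), legBC N K₁ (algebraMap ↥(keyFq ↥K₁ N) ↥(legE ↥K₁ N) x) =
      algebraMap ↥(modularFunctionFieldBar N) ↥(legE Ω N) (baseToBar N K₁ x) :=
    fun x => legBC_fullToLegE N K₁ x
  have hrat' : ∀ P : Place Ω ↥(legE Ω N),
      P.ord (legBC N K₁ (algebraMap ↥(keyFq ↥K₁ N) ↥(legE ↥K₁ N) (vy : ↥(keyFq ↥K₁ N)))) ≠ 0 →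
      IsRationalPlace (restrictBC (legBC N K₁) (legBC_algebraMap N K₁)
        (closure_range_legBC N K₁) P) := by
    intro P hP
    rw [hbcF] at hP
    exact hrat P hP
  have hup : ∀ P : Place Ω ↥(modularFunctionFieldBar N),
      ∑ w ∈ P.fiber ↥(legE Ω N), (w.ramificationIndex ↥(modularFunctionFieldBar N) : ℤ) =
        (Module.finrank ↥(keyFq ↥K₁ N) ↥(legE ↥K₁ N) : ℤ) := by
    intro P
    obtain ⟨_, _, _, _, _, hsum⟩ := upstairs_legE N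
    have hdeg := finrank_legE_base N K₁
    rw [hsum P]
    exact congrArg _ hdeg
  exact geo_mapDomain_eq_ord_of_down hgeo hgeo' 𝒢t h𝒢t h𝒢t'
    ((baseResidueMap A K₁).comp (IsLocalRing.residue ↥(baseRing A K₁)))
    (baseRes_surjective (baseRing A K₁) (baseResidueMap A K₁)
      (hK₁.baseResidueMap_bijective hA).2)
    (baseRes_pi (baseRing A K₁) hϖ (baseResidueMap A K₁))
    (baseV (baseRing A K₁) N (hFq_baseRing N))
    (mem_baseV_iff_isIntegral (baseRing A K₁) N 2 (hFq_baseRing N) (legT ↥K₁) hϖ 𝒢t h𝒢j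
      (hmemW_baseRing hA N hℓN hK₁) hgeo h𝒢t)
    (baseResV (baseRing A K₁) N (hFq_baseRing N) (baseResidueMap A K₁)
      (hRES_baseRing hA N hℓN hK₁))
    (baseResV_surjective (baseRing A K₁) N (hFq_baseRing N) (baseResidueMap A K₁)
      (hRES_baseRing hA N hℓN hK₁) (hLIFT_baseRing hA N hℓN hK₁))
    (baseφ (baseRing A K₁) N) (baseAlgFE_baseφ (baseRing A K₁) N 2 (legT ↥K₁))
    (baseResV_const (baseRing A K₁) N (hFq_baseRing N) (baseResidueMap A K₁)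
      (hRES_baseRing hA N hℓN hK₁))
    (legBC_algebraMap N K₁) (closure_range_legBC N K₁) (baseToBar N K₁) hbcF
    (𝒢t.comap (algebraMap ↥(↥K₁)⟮jqNModC ↥K₁ 2⟯ ↥(↥K₁)⟮legT ↥K₁⟯))
    (mem_iff_isIntegral_comap 2 (legT ↥K₁) 𝒢t hintj) hU₀ (hgeo.gauss 𝒢t h𝒢t)
    (mem_comap_iff_mem_baseV (baseRing A K₁) N 2 (hFq_baseRing N) (legT ↥K₁) hϖ 𝒢t h𝒢j)
    (jTildeElt (IsLocalRing.ResidueField ↥A) N) halg
    (isIntegral_baseV_of_isIntegral (baseRing A K₁) N 2 (hFq_baseRing N) (legT ↥K₁) hϖ 𝒢t h𝒢j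
      hintj)
    r hup (baseZj N (hFq_baseRing N)) (baseZjInv N (hFq_baseRing N) b)
    (base_hcover N h (hFq_baseRing N) (hRES_baseRing hA N hℓN hK₁) b)
    a₁₁ b₁₁ hcop₁₁ hz₁₁ a₂₁ b₂₁ hcop₂₁ hz₂₁ a₁₂ b₁₂ hcop₁₂ hz₁₂ a₂₂ b₂₂ hcop₂₂ hz₂₂
    (base_hSEP_j hA N h (hFq_baseRing N) (hRES_baseRing hA N hℓN hK₁) hℓN hK₁)
    (base_hSEP_jInv_of_ne_two hA N h (hFq_baseRing N) (hRES_baseRing hA N hℓN hK₁) hℓN hK₁ hℓ2 b
      r₀ hroot hr0 hr1)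
    (base_hEVAL_j N h (hFq_baseRing N) (hRES_baseRing hA N hℓN hK₁) r hev₁)
    (base_hEVAL_jInv N h (hFq_baseRing N) (hRES_baseRing hA N hℓN hK₁) r b hev₂)
    vy hvy hrat' D hD Q

end LegAsm

section HesAsm

variable {ℓ : ℕ} [Fact ℓ.Prime] {A : ValuationSubring Ω} (hA : A.LiesOverPrime ℓ)
  (N : ℕ) [NeZero N] {K₁ : IntermediateField ℚ Ω}

set_option maxHeartbeats 6400000 in
include hA in
theorem hesE_base_mapDomain_eq_ord (hℓN : ¬ ℓ ∣ N) (hK₁ : IsBase ℓ K₁) (hℓ3 : ℓ ≠ 3)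
    [IsDiscreteValuationRing ↥(baseRing A K₁)]
    (h : GaussRes A N (IsLocalRing.residue ↥A)) (b : ℤ)
    (r₀ : ↥(baseRing A K₁))
    (hroot : 27 * r₀ ^ 3 * (r₀ ^ 3 + 8) ^ 3 = (b : ↥(baseRing A K₁)) * (r₀ ^ 3 - 1) ^ 3)
    (hr : ∀ c : ↥(baseRing A K₁), c ^ 3 = 1 → IsUnit (c - r₀))
    (r : Place Ω ↥(modularFunctionFieldBar N) →
      Place (IsLocalRing.ResidueField ↥A)
        ↥(modularFunctionFieldFullC (IsLocalRing.ResidueField ↥A) N))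
    (hev₁ : ChartEval h (jBar N) r) (hev₂ : ChartEval h (jInvBar N b) r)
    (vy : ↥(baseV (baseRing A K₁) N (hFq_baseRing N)))
    (hvy : baseResV (baseRing A K₁) N (hFq_baseRing N) (baseResidueMap A K₁)
      (hRES_baseRing hA N hℓN hK₁) vy ≠ 0)
    (hrat : ∀ P : Place Ω ↥(hesE Ω N),
      P.ord (fullToHesE Ω N (baseToBar N K₁ (vy : ↥(keyFq ↥K₁ N)))) ≠ 0 →
      IsRationalPlace (restrictBC (hesBC N K₁) (hesBC_algebraMap N K₁)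
        (closure_range_hesBC N K₁) P))
    (D : Divisor Ω ↥(modularFunctionFieldBar N))
    (hD : ∀ P, D P = P.ord (baseToBar N K₁ (vy : ↥(keyFq ↥K₁ N))))
    (Q : Place (IsLocalRing.ResidueField ↥A)
      ↥(modularFunctionFieldFullC (IsLocalRing.ResidueField ↥A) N)) :
    Finsupp.mapDomain r D Q =
      Q.ord (baseResV (baseRing A K₁) N (hFq_baseRing N) (baseResidueMap A K₁)
        (hRES_baseRing hA N hℓN hK₁) vy) := by
  classical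
  haveI : CharZero ↥(baseRing A K₁) := charZero_valuationSubring_of_algebraRat _
  haveI : CharZero ↥K₁ := algebraRat.charZero _
  haveI : Module.Finite ↥(↥K₁)⟮jqNModC ↥K₁ 3⟯ ↥(keyFw ↥K₁ N 3) := finite_keyFw_base hA N 3
  obtain ⟨ϖ, hϖ⟩ := IsDiscreteValuationRing.exists_irreducible ↥(baseRing A K₁)
  obtain ⟨ω, hω, hgeo⟩ := geoHyps_hesE_baseRing hA N hℓN hK₁ hℓ3 hϖ
  obtain ⟨S', hgeo'⟩ := hgeo.inv
  obtain ⟨𝒢t, h𝒢t, h𝒢t', h𝒢j, hintj, hU₀⟩ := exists_gauss_hesE_baseRing hA (K₁ := K₁) hℓ3 hϖ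
  letI : Algebra ↥(modularFunctionFieldBar N) ↥(hesE Ω N) :=
    (fullToHesE Ω N).toRingHom.toAlgebra
  letI := baseAlgFE (K₁ := ↥K₁) N 3 (hesT ↥K₁)
  haveI : HasPrincipalDivisors Ω ↥(hesE Ω N) := up_hasPrincipalDivisors_hesE N
  haveI : IsScalarTower Ω ↥(modularFunctionFieldBar N) ↥(hesE Ω N) :=
    isScalarTower_along (fullToHesE Ω N)
  haveI : Algebra.IsIntegral ↥(modularFunctionFieldBar N) ↥(hesE Ω N) :=
    isIntegral_along (fullToHesE Ω N) (isIntegral_of_finiteAlong _ (finiteAlong_fullToHesE N))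
  haveI := hgeo.isLocalRing 𝒢t h𝒢t
  letI := baseAlgK₀F (K₁ := ↥K₁) N 3
  haveI := baseAlgK₀F_isScalarTower (K₁ := ↥K₁) N 3 (hesT ↥K₁)
  haveI : FiniteDimensional ↥(↥K₁)⟮jqNModC ↥K₁ 3⟯ ↥(↥K₁)⟮hesT ↥K₁⟯ :=
    Host.finite_Kj_Kt _ (hesT ↥K₁) (isIntegral_hesT ↥K₁)
  haveI : CharZero ↥(↥K₁)⟮jqNModC ↥K₁ 3⟯ := algebraRat.charZero _
  have htrj : Transcendental ↥K₁ (AdjoinSimple.gen ↥K₁ (jqNModC ↥K₁ 3)) :=
    Host.transcendental_gen (transcendental_jqNModC 3)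
  have hKj : IntermediateField.adjoin ↥K₁ {AdjoinSimple.gen ↥K₁ (jqNModC ↥K₁ 3)} = ⊤ :=
    Host.adjoin_gen_eq_top _
  haveI : IsDiscreteValuationRing
      ↥(𝒢t.comap (algebraMap ↥(↥K₁)⟮jqNModC ↥K₁ 3⟯ ↥(↥K₁)⟮hesT ↥K₁⟯)) :=
    isDiscreteValuationRing_of_isGaussAt ϖ hϖ _ htrj hKj h𝒢j
  haveI : Module.Finite ↥(keyFq ↥K₁ N) ↥(hesE ↥K₁ N) :=
    finite_fullToEtu ↥K₁ N 3 (hesT ↥K₁) (isIntegral_hesT ↥K₁)
  haveI : CharZero ↥(keyFq ↥K₁ N) := algebraRat.charZero _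
  haveI : IsAlgClosed (IsLocalRing.ResidueField ↥A) := isAlgClosed_residueField A
  haveI := finiteDimensional_fullC_residueField hA N hℓN
  have halg : Algebra.IsAlgebraic
      (IsLocalRing.ResidueField ↥A)⟮jTildeElt (IsLocalRing.ResidueField ↥A) N⟯
      ↥(modularFunctionFieldFullC (IsLocalRing.ResidueField ↥A) N) :=
    Algebra.IsAlgebraic.of_finite _ _
  -- the fraction data (P2)
  have hℓ3' : ¬ ℓ ∣ 3 := fun hd =>
    hℓ3 ((Nat.prime_dvd_prime_iff_eq (Fact.out : ℓ.Prime) Nat.prime_three).mp hd)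
  have hℓ27 : ¬ ℓ ∣ 27 := fun hd =>
    hℓ3' ((Fact.out : ℓ.Prime).dvd_of_dvd_pow (show ℓ ∣ 3 ^ 3 by norm_num; exact hd))
  have hℓ19683 : ¬ ℓ ∣ 19683 := fun hd =>
    hℓ3' ((Fact.out : ℓ.Prime).dvd_of_dvd_pow (show ℓ ∣ 3 ^ 9 by norm_num; exact hd))
  have h27 : IsUnit (27 : ↥(baseRing A K₁)) := by
    have := isUnit_natCast_baseRing hA (K₁ := K₁) hℓ27
    exact_mod_cast this
  have h19683 : IsUnit (19683 : ↥(baseRing A K₁)) := by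
    have := isUnit_natCast_baseRing hA (K₁ := K₁) hℓ19683
    exact_mod_cast this
  obtain ⟨e27, he27⟩ := h27.exists_right_inv
  obtain ⟨d19683, hd19683⟩ := h19683.exists_right_inv
  obtain ⟨hf₁₁, hf₂₁, hf₁₂, hf₂₂⟩ :=
    o1_fchart_hesE (baseRing A K₁) N d19683 e27 hd19683 he27 b
  obtain ⟨a₁₁, b₁₁, hcop₁₁, hz₁₁⟩ := hf₁₁
  obtain ⟨a₂₁, b₂₁, hcop₂₁, hz₂₁⟩ := hf₂₁
  obtain ⟨a₁₂, b₁₂, hcop₁₂, hz₁₂⟩ := hf₁₂
  obtain ⟨a₂₂, b₂₂, hcop₂₂, hz₂₂⟩ := hf₂₂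
  have hbcF : ∀ x : ↥(keyFq ↥K₁ N), hesBC N K₁ (algebraMap ↥(keyFq ↥K₁ N) ↥(hesE ↥K₁ N) x) =
      algebraMap ↥(modularFunctionFieldBar N) ↥(hesE Ω N) (baseToBar N K₁ x) :=
    fun x => hesBC_fullToHesE N K₁ x
  have hrat' : ∀ P : Place Ω ↥(hesE Ω N),
      P.ord (hesBC N K₁ (algebraMap ↥(keyFq ↥K₁ N) ↥(hesE ↥K₁ N) (vy : ↥(keyFq ↥K₁ N)))) ≠ 0 →
      IsRationalPlace (restrictBC (hesBC N K₁) (hesBC_algebraMap N K₁)
        (closure_range_hesBC N K₁) P) := by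
    intro P hP
    rw [hbcF] at hP
    exact hrat P hP
  have hup : ∀ P : Place Ω ↥(modularFunctionFieldBar N),
      ∑ w ∈ P.fiber ↥(hesE Ω N), (w.ramificationIndex ↥(modularFunctionFieldBar N) : ℤ) =
        (Module.finrank ↥(keyFq ↥K₁ N) ↥(hesE ↥K₁ N) : ℤ) := by
    intro P
    obtain ⟨_, _, _, _, _, hsum⟩ := upstairs_hesE N
    have hdeg := finrank_hesE_base N K₁
    rw [hsum P]
    exact congrArg _ hdeg
  exact geo_mapDomain_eq_ord_of_down hgeo hgeo' 𝒢t h𝒢t h𝒢t'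
    ((baseResidueMap A K₁).comp (IsLocalRing.residue ↥(baseRing A K₁)))
    (baseRes_surjective (baseRing A K₁) (baseResidueMap A K₁)
      (hK₁.baseResidueMap_bijective hA).2)
    (baseRes_pi (baseRing A K₁) hϖ (baseResidueMap A K₁))
    (baseV (baseRing A K₁) N (hFq_baseRing N))
    (mem_baseV_iff_isIntegral (baseRing A K₁) N 3 (hFq_baseRing N) (hesT ↥K₁) hϖ 𝒢t h𝒢j
      (hmemW_baseRing hA N hℓN hK₁) hgeo h𝒢t)
    (baseResV (baseRing A K₁) N (hFq_baseRing N) (baseResidueMap A K₁)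
      (hRES_baseRing hA N hℓN hK₁))
    (baseResV_surjective (baseRing A K₁) N (hFq_baseRing N) (baseResidueMap A K₁)
      (hRES_baseRing hA N hℓN hK₁) (hLIFT_baseRing hA N hℓN hK₁))
    (baseφ (baseRing A K₁) N) (baseAlgFE_baseφ (baseRing A K₁) N 3 (hesT ↥K₁))
    (baseResV_const (baseRing A K₁) N (hFq_baseRing N) (baseResidueMap A K₁)
      (hRES_baseRing hA N hℓN hK₁))
    (hesBC_algebraMap N K₁) (closure_range_hesBC N K₁) (baseToBar N K₁) hbcF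
    (𝒢t.comap (algebraMap ↥(↥K₁)⟮jqNModC ↥K₁ 3⟯ ↥(↥K₁)⟮hesT ↥K₁⟯))
    (mem_iff_isIntegral_comap 3 (hesT ↥K₁) 𝒢t hintj) hU₀ (hgeo.gauss 𝒢t h𝒢t)
    (mem_comap_iff_mem_baseV (baseRing A K₁) N 3 (hFq_baseRing N) (hesT ↥K₁) hϖ 𝒢t h𝒢j)
    (jTildeElt (IsLocalRing.ResidueField ↥A) N) halg
    (isIntegral_baseV_of_isIntegral (baseRing A K₁) N 3 (hFq_baseRing N) (hesT ↥K₁) hϖ 𝒢t h𝒢j
      hintj)
    r hup (baseZj N (hFq_baseRing N)) (baseZjInv N (hFq_baseRing N) b)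
    (base_hcover N h (hFq_baseRing N) (hRES_baseRing hA N hℓN hK₁) b)
    a₁₁ b₁₁ hcop₁₁ hz₁₁ a₂₁ b₂₁ hcop₂₁ hz₂₁ a₁₂ b₁₂ hcop₁₂ hz₁₂ a₂₂ b₂₂ hcop₂₂ hz₂₂
    (base_hSEP_j hA N h (hFq_baseRing N) (hRES_baseRing hA N hℓN hK₁) hℓN hK₁)
    (base_hSEP_jInv_of_ne_three hA N h (hFq_baseRing N) (hRES_baseRing hA N hℓN hK₁) hℓN hK₁ hℓ3 b
      r₀ hroot hr)
    (base_hEVAL_j N h (hFq_baseRing N) (hRES_baseRing hA N hℓN hK₁) r hev₁)
    (base_hEVAL_jInv N h (hFq_baseRing N) (hRES_baseRing hA N hℓN hK₁) r b hev₂)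
    vy hvy hrat' D hD Q

end HesAsm

end Fermat.Agent.JA
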