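/-
J-A project, package (ES1) (helper2), part 5: the `ℓ + 1` conjugates of `F'` over `β F` and the
norm formula
`(N_{F'/βF} z)(q^ℓ) = ∏_{b < ℓ} z(ζ^b q) · σ_∞(z)`  in `ℚ̄((q))`.
-/
import Mathlib
import Fermat.Agent.JA.ES1_helper2_Bar
import Fermat.Agent.JA.H0_helper7_Main
import Fermat.Agent.Igusa.A_helper2_Twist
import Fermat.Agent.JA.RAM0_helper2_Shapes
import Fermat.Prelude.Thm_ModularCurve_coeff_jqModC_neg_one

set_option autoImplicit false
set_option linter.style.haveILetI false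

namespace Fermat.Agent.JA

open ModularCurve AlgebraicCurve IntermediateField Fermat.Agent.X0N Fermat.Agent.Igusa

local notation "Ω" => AlgebraicClosure ℚ

variable {N ℓ : ℕ} [NeZero N] [NeZero ℓ] (hℓ : ℓ.Prime) (hℓN : ¬ ℓ ∣ N)

/-- the coefficient of `q⁻¹` in `j`. -/
theorem coeff_coeffEmb_jq_neg_one : (coeffEmb Ω jq).coeff (-1 : ℤ) = 1 := by
  have h := coeffEmb_qExpand_jq Ω 1
  rw [qExpand_one_apply, qExpand_one_apply] at h
  rw [h, coeff_jqModC_neg_one]

/-- the rotation `q ↦ ξ q` fixes `f(q^ℓ)` when `ξ^ℓ = 1`. -/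
theorem twist_qExpand_of_pow_eq_one (ξ : Ωˣ) (hξ : ξ ^ ℓ = 1) (f : LaurentSeries Ω) :
    twist ξ (qExpand Ω ℓ f) = qExpand Ω ℓ f := by
  rw [twist_qExpand, hξ, twist_one]

include hℓ hℓN in
/-- **the norm formula for `F' / β F`**: for `z ∈ F'` and `ζ` a primitive `ℓ`-th root of unity,
`(N_{F'/βF} z)(q^ℓ) = ∏_{b < ℓ} z(ζ^b q) · σ_∞(z)`. -/
theorem qExpand_norm_heckeBetaBar (ζ : Ωˣ) (hζ : IsPrimitiveRoot ζ ℓ)
    (z : ↥(laurentBaseChange Ω (modularFunctionFieldFull (N * ℓ)))) :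
    letI := algebraAlong (heckeBetaBar Ω N ℓ)
    qExpand Ω ℓ ((Algebra.norm ↥(laurentBaseChange Ω (modularFunctionFieldFull N)) z :
        ↥(laurentBaseChange Ω (modularFunctionFieldFull N))) : LaurentSeries Ω) =
      (∏ b : Fin ℓ, twist (ζ ^ (b : ℕ)) (z : LaurentSeries Ω)) * sigmaInf hℓ hℓN z := by
  letI algFF' := algebraAlong (heckeBetaBar Ω N ℓ)
  let Ebar := AlgebraicClosure (LaurentSeries Ω)
  let ιE : LaurentSeries Ω →+* Ebar := algebraMap (LaurentSeries Ω) Ebar
  have hιE : Function.Injective ιE := ιE.injective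
  let φ₀ : ↥(laurentBaseChange Ω (modularFunctionFieldFull N)) →+* LaurentSeries Ω :=
    (qExpand Ω ℓ).comp (laurentBaseChange Ω (modularFunctionFieldFull N)).val.toRingHom
  letI algFE : Algebra ↥(laurentBaseChange Ω (modularFunctionFieldFull N)) Ebar := (ιE.comp φ₀).toAlgebra
  haveI hfin : FiniteDimensional ↥(laurentBaseChange Ω (modularFunctionFieldFull N)) ↥(laurentBaseChange Ω (modularFunctionFieldFull (N * ℓ))) := finiteAlong_heckeBetaBar N ℓ
  haveI : CharZero ↥(laurentBaseChange Ω (modularFunctionFieldFull N)) := charZero_of_injective_algebraMap (algebraMap Ω ↥(laurentBaseChange Ω (modularFunctionFieldFull N))).injective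
  haveI : Algebra.IsSeparable ↥(laurentBaseChange Ω (modularFunctionFieldFull N)) ↥(laurentBaseChange Ω (modularFunctionFieldFull (N * ℓ))) := Algebra.IsAlgebraic.isSeparable_of_perfectField
  have hζℓ : ∀ b : ℕ, (ζ ^ b) ^ ℓ = 1 := fun b => by
    rw [← pow_mul, mul_comm, pow_mul, hζ.pow_eq_one, one_pow]
  -- the `ℓ + 1` embeddings
  let embRot : Fin ℓ → (↥(laurentBaseChange Ω (modularFunctionFieldFull (N * ℓ))) →ₐ[↥(laurentBaseChange Ω (modularFunctionFieldFull N))] Ebar) := fun b =>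
    { toRingHom := ιE.comp ((twist (ζ ^ (b : ℕ))).toRingHom.comp
        (laurentBaseChange Ω (modularFunctionFieldFull (N * ℓ))).val.toRingHom)
      commutes' := fun r => by
        show ιE (twist (ζ ^ (b : ℕ)) (qExpand Ω ℓ (r : LaurentSeries Ω))) =
          ιE (qExpand Ω ℓ (r : LaurentSeries Ω))
        rw [twist_qExpand_of_pow_eq_one _ (hζℓ b)] }
  let embInf : ↥(laurentBaseChange Ω (modularFunctionFieldFull (N * ℓ))) →ₐ[↥(laurentBaseChange Ω (modularFunctionFieldFull N))] Ebar :=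
    { toRingHom := ιE.comp (sigmaInf hℓ hℓN)
      commutes' := fun r => by
        show ιE (sigmaInf hℓ hℓN (heckeBetaBar Ω N ℓ r)) = ιE (qExpand Ω ℓ (r : LaurentSeries Ω))
        rw [sigmaInf_beta] }
  let emb : Option (Fin ℓ) → (↥(laurentBaseChange Ω (modularFunctionFieldFull (N * ℓ))) →ₐ[↥(laurentBaseChange Ω (modularFunctionFieldFull N))] Ebar) := fun o => o.elim embInf embRot
  have hembRot : ∀ (b : Fin ℓ) (w : ↥(laurentBaseChange Ω (modularFunctionFieldFull (N * ℓ)))), embRot b w =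
      ιE (twist (ζ ^ (b : ℕ)) (w : LaurentSeries Ω)) := fun _ _ => rfl
  have hembInf : ∀ w : ↥(laurentBaseChange Ω (modularFunctionFieldFull (N * ℓ))), embInf w = ιE (sigmaInf hℓ hℓN w) := fun _ => rfl
  -- the test element `j`
  set z₀ : ↥(laurentBaseChange Ω (modularFunctionFieldFull (N * ℓ))) := heckeAlphaBar Ω N ℓ (jBar N) with hz₀
  have hz₀c : (z₀ : LaurentSeries Ω) = coeffEmb Ω jq := rfl
  have hrot : ∀ b : Fin ℓ, (twist (ζ ^ (b : ℕ)) (z₀ : LaurentSeries Ω)).coeff (-1 : ℤ) =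
      ((ζ ^ (b : ℕ) : Ωˣ)⁻¹ : Ωˣ) := fun b => by
    rw [twist_coeff, hz₀c, coeff_coeffEmb_jq_neg_one, mul_one, zpow_neg_one]
  have hinf : (sigmaInf hℓ hℓN z₀).coeff (-1 : ℤ) = 0 := by
    rw [hz₀, sigmaInf_alpha]
    refine qExpand_coeff_of_not_dvd (ℓ * ℓ) _ ?_
    rintro ⟨c, hc⟩
    have h2 : 2 ≤ ℓ := hℓ.two_le
    have h4 : (4 : ℤ) ≤ ((ℓ * ℓ : ℕ) : ℤ) := by
      have : 4 ≤ ℓ * ℓ := by nlinarith
      exact_mod_cast this
    have hdvd : ((ℓ * ℓ : ℕ) : ℤ) ∣ 1 := ⟨-c, by linarith⟩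
    have := Int.le_of_dvd one_pos hdvd
    linarith
  have hinj : Function.Injective emb := by
    intro o o' hoo'
    have hval := congrArg (fun σ : ↥(laurentBaseChange Ω (modularFunctionFieldFull (N * ℓ))) →ₐ[↥(laurentBaseChange Ω (modularFunctionFieldFull N))] Ebar => σ z₀) hoo'
    cases o with
    | none =>
      cases o' with
      | none => rfl
      | some b' =>
        exfalso
        have h1 : ιE (sigmaInf hℓ hℓN z₀) = ιE (twist (ζ ^ (b' : ℕ)) (z₀ : LaurentSeries Ω)) := hval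
        have h2 := congrArg (fun x : LaurentSeries Ω => x.coeff (-1 : ℤ)) (hιE h1)
        simp only [hinf, hrot] at h2
        exact Units.ne_zero _ h2.symm
    | some b =>
      cases o' with
      | none =>
        exfalso
        have h1 : ιE (twist (ζ ^ (b : ℕ)) (z₀ : LaurentSeries Ω)) = ιE (sigmaInf hℓ hℓN z₀) := hval
        have h2 := congrArg (fun x : LaurentSeries Ω => x.coeff (-1 : ℤ)) (hιE h1)
        simp only [hinf, hrot] at h2
        exact Units.ne_zero _ h2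
      | some b' =>
        have h1 : ιE (twist (ζ ^ (b : ℕ)) (z₀ : LaurentSeries Ω)) =
            ιE (twist (ζ ^ (b' : ℕ)) (z₀ : LaurentSeries Ω)) := hval
        have h2 := congrArg (fun x : LaurentSeries Ω => x.coeff (-1 : ℤ)) (hιE h1)
        simp only [hrot] at h2
        have h3 : ζ ^ (b : ℕ) = ζ ^ (b' : ℕ) := by
          have := Units.ext h2
          exact inv_injective this
        have h4 := hζ.pow_inj b.2 b'.2 h3
        exact congrArg some (Fin.ext h4)
  have hcard : Fintype.card (Option (Fin ℓ)) = Fintype.card (↥(laurentBaseChange Ω (modularFunctionFieldFull (N * ℓ))) →ₐ[↥(laurentBaseChange Ω (modularFunctionFieldFull N))] Ebar) := by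
    rw [AlgHom.card ↥(laurentBaseChange Ω (modularFunctionFieldFull N)) ↥(laurentBaseChange Ω (modularFunctionFieldFull (N * ℓ))) Ebar, Fintype.card_option, Fintype.card_fin]
    exact (finrank_heckeBetaBar hℓ hℓN).symm
  have hbij : Function.Bijective emb :=
    (Fintype.bijective_iff_injective_and_card emb).mpr ⟨hinj, hcard⟩
  have hnorm := Algebra.norm_eq_prod_embeddings ↥(laurentBaseChange Ω (modularFunctionFieldFull N)) Ebar z
  rw [← Fintype.prod_bijective emb hbij (fun o => emb o z) (fun σ => σ z) (fun _ => rfl),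
    Fintype.prod_option] at hnorm
  have hL : algebraMap ↥(laurentBaseChange Ω (modularFunctionFieldFull N)) Ebar (Algebra.norm ↥(laurentBaseChange Ω (modularFunctionFieldFull N)) z) =
      ιE (qExpand Ω ℓ ((Algebra.norm ↥(laurentBaseChange Ω (modularFunctionFieldFull N)) z : ↥(laurentBaseChange Ω (modularFunctionFieldFull N))) : LaurentSeries Ω)) := rfl
  have hR1 : emb none z = ιE (sigmaInf hℓ hℓN z) := rfl
  have hR2 : ∀ i : Fin ℓ, emb (some i) z = ιE (twist (ζ ^ (i : ℕ)) (z : LaurentSeries Ω)) :=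
    fun _ => rfl
  rw [hL, hR1, Finset.prod_congr rfl (fun i _ => hR2 i), ← map_prod, ← map_mul] at hnorm
  have hfinal := hιE hnorm
  rw [hfinal]
  exact mul_comm _ _

include hℓ hℓN in
/-- **the norm formula for `c − y`**, `y ∈ F` (viewed in `F'`), `c` a constant:
`(N_{F'/βF} (c − y))(q^ℓ) = ∏_{b < ℓ} (c − y(ζ^b q)) · (c − y(q^{ℓ²}))`. -/
theorem qExpand_norm_sub_heckeAlphaBar (ζ : Ωˣ) (hζ : IsPrimitiveRoot ζ ℓ) (c : Ω)
    (y : ↥(laurentBaseChange Ω (modularFunctionFieldFull N))) :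
    letI := algebraAlong (heckeBetaBar Ω N ℓ)
    qExpand Ω ℓ ((Algebra.norm ↥(laurentBaseChange Ω (modularFunctionFieldFull N))
        (algebraMap Ω ↥(laurentBaseChange Ω (modularFunctionFieldFull (N * ℓ))) c -
          heckeAlphaBar Ω N ℓ y) :
        ↥(laurentBaseChange Ω (modularFunctionFieldFull N))) : LaurentSeries Ω) =
      (∏ b : Fin ℓ, (HahnSeries.C c - twist (ζ ^ (b : ℕ)) (y : LaurentSeries Ω))) *
        (HahnSeries.C c - qExpand Ω (ℓ * ℓ) (y : LaurentSeries Ω)) := by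
  have h := qExpand_norm_heckeBetaBar hℓ hℓN ζ hζ
    (algebraMap Ω ↥(laurentBaseChange Ω (modularFunctionFieldFull (N * ℓ))) c -
      heckeAlphaBar Ω N ℓ y)
  rw [h, map_sub, sigmaInf_algebraMap, sigmaInf_alpha]
  congr 1
  refine Finset.prod_congr rfl fun b _ => ?_
  have h1 : ((algebraMap Ω ↥(laurentBaseChange Ω (modularFunctionFieldFull (N * ℓ))) c -
      heckeAlphaBar Ω N ℓ y : ↥(laurentBaseChange Ω (modularFunctionFieldFull (N * ℓ)))) :
      LaurentSeries Ω) = HahnSeries.C c - (y : LaurentSeries Ω) := by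
    rw [AddSubgroupClass.coe_sub, coe_heckeAlphaBar]
    congr 1
    show algebraMap Ω (LaurentSeries Ω) c = HahnSeries.C c
    rw [algebraMap_laurentSeries_eq_single]
    rfl
  rw [h1, map_sub, twist_C]

end Fermat.Agent.JA
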