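/-
J-A project, package (ES1) (helper2), part 7: integrality of `j(q)` over `ℤ[j(q^ℓ)]` and of
`j(q^ℓ)` over `ℤ[j(q)]` inside the function field `F'` of `X₀(N ℓ)` over `ℚ̄`
(the modular equation, from the Igusa package (A), and its Atkin–Lehner transform).
-/
import Mathlib
import Fermat.Agent.JA.ES1_helper2_Norm
import Fermat.Agent.Igusa.A_helper2_Integral
import Fermat.Agent.Igusa.A_helper2_Bridge

set_option autoImplicit false
set_option linter.style.haveILetI false

namespace Fermat.Agent.JA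

open ModularCurve AlgebraicCurve IntermediateField Fermat.Agent.X0N Fermat.Agent.Igusa Polynomial

local notation "Ω" => AlgebraicClosure ℚ

section Abstract

variable {K B : Type*} [CommRing K] [CommRing B] (ι : K →+* B)

/-- the subring of elements of `K` integral over `ℤ`. -/
def intSubring (K : Type*) [CommRing K] : Subring K := (integralClosure ℤ K).toSubring

theorem mem_intSubring {K : Type*} [CommRing K] {a : K} : a ∈ intSubring K ↔ IsIntegral ℤ a :=
  Iff.rfl

/-- `P ↦ P(J)`, `intSubring K [X] → B`. -/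
noncomputable def evalInt (J : B) : Polynomial ↥(intSubring K) →+* B :=
  (aeval J : Polynomial B →ₐ[B] B).toRingHom.comp
    (mapRingHom (ι.comp (intSubring K).subtype))

theorem evalInt_C (J : B) (a : ↥(intSubring K)) : evalInt ι J (C a) = ι (a : K) := by
  simp [evalInt]

theorem evalInt_X (J : B) : evalInt ι J X = J := by
  simp [evalInt]

/-- a ring homomorphism which is the identity on the constants carries `evalInt` to `evalInt`. -/
theorem comp_evalInt {B' : Type*} [CommRing B'] (f : B →+* B') (J : B) :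
    f.comp (evalInt ι J) = evalInt (f.comp ι) (f J) := by
  apply Polynomial.ringHom_ext
  · intro a
    simp [evalInt]
  · simp [evalInt]

/-- **transitivity**: a monic relation with coefficients in `(algebraic integers)[J]` gives
integrality over `ℤ[J]`. -/
theorem isIntegral_adjoin_int_of_evalInt (J X₀ : B) (p : Polynomial (Polynomial ↥(intSubring K)))
    (hp : p.Monic) (h0 : eval₂ (evalInt ι J) X₀ p = 0) :
    IsIntegral ↥(Algebra.adjoin ℤ {J}) X₀ := by
  set S₀ : Subalgebra ℤ B := Algebra.adjoin ℤ {J} with hS₀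
  set T : Subalgebra ↥S₀ B :=
    Algebra.adjoin ↥S₀ (Set.range (fun a : ↥(intSubring K) => ι (a : K))) with hT
  have hJT : J ∈ T := T.algebraMap_mem (⟨J, Algebra.subset_adjoin rfl⟩ : ↥S₀)
  have hrange : ∀ P : Polynomial ↥(intSubring K), evalInt ι J P ∈ T := by
    intro P
    induction P using Polynomial.induction_on' with
    | add P Q hP hQ =>
      rw [map_add]
      exact T.add_mem hP hQ
    | monomial n a =>
      rw [← C_mul_X_pow_eq_monomial, map_mul, map_pow, evalInt_C, evalInt_X]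
      exact T.mul_mem (Algebra.subset_adjoin ⟨a, rfl⟩) (T.pow_mem hJT n)
  haveI : Algebra.IsIntegral ↥S₀ ↥T := by
    rw [hT]
    apply Algebra.IsIntegral.adjoin
    rintro _ ⟨a, rfl⟩
    have ha : IsIntegral ℤ (a : K) := a.2
    have h1 : IsIntegral ℤ (ι (a : K)) := ha.map (ι.toIntAlgHom)
    exact h1.tower_top
  have hX : IsIntegral ↥T X₀ := by
    refine ⟨p.map ((evalInt ι J).codRestrict T.toSubring hrange), hp.map _, ?_⟩
    rw [eval₂_map]
    exact h0
  exact isIntegral_trans X₀ hX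

end Abstract

section Modular

variable {N ℓ : ℕ} [NeZero N] [NeZero ℓ]

/-- **the modular equation** (in the form delivered by the Igusa package (A)): `j(q^ℓ)` satisfies
a monic polynomial with coefficients in `(algebraic integers)[j(q)]`, inside `F'`. -/
theorem exists_monic_evalInt_jBar :
    ∃ p : Polynomial (Polynomial ↥(intSubring Ω)), p.Monic ∧
      eval₂ (evalInt (algebraMap Ω ↥(laurentBaseChange Ω (modularFunctionFieldFull (N * ℓ))))
        (heckeAlphaBar Ω N ℓ (jBar N))) (heckeBetaBar Ω N ℓ (jBar N)) p = 0 := by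
  letI : Algebra Ω ℂ := complexEmbedding.toRingHom.toAlgebra
  have hprim : ∃ z : Ω, IsPrimitiveRoot z ℓ :=
    HasEnoughRootsOfUnity.exists_primitiveRoot Ω ℓ
  obtain ⟨ζ, hζ⟩ := exists_zeta (L := Ω) (N := ℓ) hprim
  have hζA : (ζ : Ω) ∈ intSubring Ω := by
    rw [mem_intSubring]
    refine ⟨X ^ ℓ - 1, monic_X_pow_sub_C 1 (NeZero.ne ℓ), ?_⟩
    have h1 := zeta_pow_N hζ
    have h2 : (ζ : Ω) ^ ℓ = 1 := by rw [← Units.val_pow_eq_pow_val, h1, Units.val_one]
    simp [h2]
  have hpos : 0 < ℓ := Nat.pos_of_ne_zero (NeZero.ne ℓ)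
  obtain ⟨p, hp, h0⟩ := exists_monic_xSer hζ (intSubring Ω) hζA (Idx.diag ℓ ℓ dvd_rfl hpos)
  refine ⟨p, hp, ?_⟩
  -- transport the relation to `F'`
  set F' := laurentBaseChange Ω (modularFunctionFieldFull (N * ℓ)) with hF'
  have hinj : Function.Injective ((qExpand Ω ℓ).comp F'.val.toRingHom) :=
    (qExpand_injective ℓ).comp Subtype.val_injective
  apply hinj
  rw [map_zero, Polynomial.hom_eval₂]
  have hcoe_a : ((heckeAlphaBar Ω N ℓ (jBar N) : ↥F') : LaurentSeries Ω) = jqModC Ω := by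
    rw [coe_heckeAlphaBar, coe_jBar]
    have h := coeffEmb_qExpand_jq Ω 1
    rwa [qExpand_one_apply, qExpand_one_apply] at h
  have hcoe_b : ((heckeBetaBar Ω N ℓ (jBar N) : ↥F') : LaurentSeries Ω) =
      qExpand Ω ℓ (jqModC Ω) := by
    rw [coe_heckeBetaBar, coe_jBar]
    have h := coeffEmb_qExpand_jq Ω 1
    rw [qExpand_one_apply, qExpand_one_apply] at h
    rw [h]
  have hhom : ((qExpand Ω ℓ).comp F'.val.toRingHom).comp
      (evalInt (algebraMap Ω ↥F') (heckeAlphaBar Ω N ℓ (jBar N))) = jtHom (intSubring Ω) ℓ := by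
    rw [comp_evalInt]
    apply Polynomial.ringHom_ext
    · intro a
      rw [evalInt_C, jtHom_apply, Polynomial.map_C, aeval_C]
      show qExpand Ω ℓ (algebraMap Ω (LaurentSeries Ω) (a : Ω)) = _
      rw [algebraMap_laurentSeries_eq_single, qExpand_single, mul_zero]
      exact (algebraMap_laurentSeries_eq_single Ω _).symm
    · rw [evalInt_X, jtHom_apply, Polynomial.map_X, aeval_X]
      show qExpand Ω ℓ ((heckeAlphaBar Ω N ℓ (jBar N) : ↥F') : LaurentSeries Ω) = _
      rw [hcoe_a]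
      rfl
  rw [hhom]
  have hx : ((qExpand Ω ℓ).comp F'.val.toRingHom) (heckeBetaBar Ω N ℓ (jBar N)) =
      xSer Ω ζ ℓ (Idx.diag ℓ ℓ dvd_rfl hpos) := by
    show qExpand Ω ℓ ((heckeBetaBar Ω N ℓ (jBar N) : ↥F') : LaurentSeries Ω) = _
    haveI : NeZero (ℓ * ℓ) := ⟨mul_ne_zero (NeZero.ne ℓ) (NeZero.ne ℓ)⟩
    rw [hcoe_b, xSer_diag, qExpand_qExpand]
  rw [hx]
  exact h0

/-- **`j(q^ℓ)` is integral over `ℤ[j(q)]`** in `F'`. -/
theorem isIntegral_heckeBetaBar_jBar :
    IsIntegral ↥(Algebra.adjoin ℤ {heckeAlphaBar Ω N ℓ (jBar N)})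
      (heckeBetaBar Ω N ℓ (jBar N)) := by
  obtain ⟨p, hp, h0⟩ := exists_monic_evalInt_jBar (N := N) (ℓ := ℓ)
  exact isIntegral_adjoin_int_of_evalInt
    (algebraMap Ω ↥(laurentBaseChange Ω (modularFunctionFieldFull (N * ℓ)))) _ _ p hp h0

/-- **`j(q)` is integral over `ℤ[j(q^ℓ)]`** in `F'` (`ℓ` prime, `ℓ ∤ N`): the Atkin–Lehner
transform of the modular equation. -/
theorem isIntegral_heckeAlphaBar_jBar (hℓ : ℓ.Prime) (hℓN : ¬ ℓ ∣ N) :
    IsIntegral ↥(Algebra.adjoin ℤ {heckeBetaBar Ω N ℓ (jBar N)})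
      (heckeAlphaBar Ω N ℓ (jBar N)) := by
  obtain ⟨p, hp, h0⟩ := exists_monic_evalInt_jBar (N := N) (ℓ := ℓ)
  refine isIntegral_adjoin_int_of_evalInt
    (algebraMap Ω ↥(laurentBaseChange Ω (modularFunctionFieldFull (N * ℓ)))) _ _ p hp ?_
  have h1 := congrArg (atkinLehnerBar N ℓ hℓ hℓN) h0
  rw [map_zero, Polynomial.hom_eval₂, comp_evalInt, atkinLehnerBar_alpha, atkinLehnerBar_beta] at h1
  have h2 : (atkinLehnerBar N ℓ hℓ hℓN).comp
      (algebraMap Ω ↥(laurentBaseChange Ω (modularFunctionFieldFull (N * ℓ)))) =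
      algebraMap Ω ↥(laurentBaseChange Ω (modularFunctionFieldFull (N * ℓ))) :=
    RingHom.ext fun c => atkinLehnerBar_algebraMap hℓ hℓN c
  rw [h2] at h1
  exact h1

end Modular

end Fermat.Agent.JA
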