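/-
J-A project, package (ES1) (helper2), part 8: **the cusp chart**.  For `V = (j - b)⁻¹` (`b ∈ ℤ`),
`α V` is integral over `ℤ[β V, u(β V)⁻¹]` for a polynomial `u ∈ ℤ[X]` with `u(0) = 1`
(and symmetrically), deduced purely algebraically from the modular equation
(`β j` integral over `ℤ[α j]`).
-/
import Mathlib
import Fermat.Agent.JA.ES1_helper2_Integral

set_option autoImplicit false
set_option linter.style.haveILetI false

namespace Fermat.Agent.JA

open ModularCurve AlgebraicCurve IntermediateField Fermat.Agent.X0N Fermat.Agent.Igusa Polynomial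

local notation "Ω" => AlgebraicClosure ℚ

section Abstract

variable {R S : Type*} [CommRing R] [Field S] [Algebra R S]

/-- an element `U ≠ 0` of a field lying in `B[U⁻¹]` is integral over `B`. -/
theorem isIntegral_of_mem_adjoin_inv {B : Type*} [CommRing B] [Algebra B S] {U : S} (hU : U ≠ 0)
    (h : U ∈ Algebra.adjoin B {U⁻¹}) : IsIntegral B U := by
  rw [Algebra.adjoin_singleton_eq_range_aeval] at h
  obtain ⟨Q, hQ⟩ := h
  set n := Q.natDegree with hn
  letI : Invertible (U⁻¹) := invertibleOfNonzero (inv_ne_zero hU)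
  have h1 := eval₂_reflect_mul_pow (algebraMap B S) U⁻¹ n Q le_rfl
  have h2 : ⅟(U⁻¹) = U := by rw [invOf_eq_inv, inv_inv]
  rw [h2] at h1
  have h3 : eval₂ (algebraMap B S) U (reflect n Q) = U ^ (n + 1) := by
    have hQ' : eval₂ (algebraMap B S) U⁻¹ Q = U := hQ
    rw [hQ'] at h1
    have h4 : (U⁻¹) ^ n * U ^ n = 1 := by
      rw [← mul_pow, inv_mul_cancel₀ hU, one_pow]
    calc eval₂ (algebraMap B S) U (reflect n Q)
        = eval₂ (algebraMap B S) U (reflect n Q) * ((U⁻¹) ^ n * U ^ n) := by rw [h4, mul_one]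
      _ = (eval₂ (algebraMap B S) U (reflect n Q) * (U⁻¹) ^ n) * U ^ n := by ring
      _ = U * U ^ n := by rw [h1]
      _ = U ^ (n + 1) := by ring
  have hdeg : (reflect n Q).degree < ((n + 1 : ℕ) : WithBot ℕ) := by
    refine lt_of_le_of_lt degree_le_natDegree ?_
    have := natDegree_reflect_le (N := n) (p := Q)
    rw [← hn, max_self] at this
    exact_mod_cast Nat.lt_succ_of_le this
  refine ⟨X ^ (n + 1) - reflect n Q, monic_X_pow_sub hdeg, ?_⟩
  rw [eval₂_sub, eval₂_pow, eval₂_X, h3, sub_self]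

/-- **the cusp chart trick**: if `y` is integral over `R[x]`, then `x⁻¹` is integral over
`R[y⁻¹, u(y⁻¹)⁻¹]` for a polynomial `u` with constant coefficient `1` (so that `u(y⁻¹)` is a unit
wherever `y⁻¹` is in the maximal ideal). -/
theorem exists_isIntegral_inv_of_isIntegral {x y : S} (hx : x ≠ 0) (hy : y ≠ 0)
    (hint : IsIntegral ↥(Algebra.adjoin R {x}) y) :
    ∃ u : R[X], u.coeff 0 = 1 ∧ (aeval y⁻¹ u ≠ 0 →
      IsIntegral ↥(Algebra.adjoin R {y⁻¹, (aeval y⁻¹ u)⁻¹}) x⁻¹) := by
  classical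
  obtain ⟨p, hp, h0⟩ := hint
  set m := p.natDegree with hm
  have hmem : ∀ s : S, s ∈ Algebra.adjoin R {x} → ∃ P : R[X], aeval x P = s := by
    intro s hs
    rw [Algebra.adjoin_singleton_eq_range_aeval] at hs
    exact hs
  have hP : ∀ i, ∃ P : R[X],
      aeval x P = algebraMap ↥(Algebra.adjoin R {x}) S (p.coeff i) := fun i =>
    hmem _ (p.coeff i).2
  choose P hP using hP
  set V := y⁻¹ with hV
  set u : R[X] := 1 + ∑ i ∈ Finset.range m, C ((P i).coeff 0) * X ^ (m - i) with hu
  set W : S := ∑ i ∈ Finset.range m, aeval x (divX (P i)) * V ^ (m - i) with hW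
  have hu0 : u.coeff 0 = 1 := by
    rw [hu, coeff_add, coeff_one_zero, finsetSum_coeff]
    rw [Finset.sum_eq_zero, add_zero]
    intro i hi
    rw [coeff_C_mul, coeff_X_pow, if_neg, mul_zero]
    have := Finset.mem_range.mp hi
    omega
  -- the relation divided by `y ^ m`
  have hrel : (1 : S) + ∑ i ∈ Finset.range m, aeval x (P i) * V ^ (m - i) = 0 := by
    have h1 : eval₂ (algebraMap ↥(Algebra.adjoin R {x}) S) y p = 0 := h0
    rw [hp.as_sum, eval₂_add, eval₂_pow, eval₂_X, eval₂_finsetSum] at h1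
    have h2 : V ^ m * (y ^ p.natDegree + ∑ i ∈ Finset.range p.natDegree,
        eval₂ (algebraMap ↥(Algebra.adjoin R {x}) S) y (C (p.coeff i) * X ^ i)) = 0 := by
      rw [h1, mul_zero]
    rw [mul_add, Finset.mul_sum, ← hm] at h2
    have h3 : V ^ m * y ^ m = 1 := by
      rw [← mul_pow, hV, inv_mul_cancel₀ hy, one_pow]
    rw [h3] at h2
    rw [← h2]
    congr 1
    refine Finset.sum_congr rfl fun i hi => ?_
    have hi' := Finset.mem_range.mp hi
    rw [eval₂_mul, eval₂_C, eval₂_pow, eval₂_X, ← hP]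
    have h4 : V ^ m = V ^ (m - i) * V ^ i := by rw [← pow_add, Nat.sub_add_cancel hi'.le]
    have h5 : V ^ i * y ^ i = 1 := by rw [← mul_pow, hV, inv_mul_cancel₀ hy, one_pow]
    rw [h4]
    calc aeval x (P i) * V ^ (m - i) = aeval x (P i) * V ^ (m - i) * (V ^ i * y ^ i) := by
            rw [h5, mul_one]
      _ = _ := by ring
  have hkey : aeval V u = - (x * W) := by
    have h1 : aeval V u = 1 + ∑ i ∈ Finset.range m, algebraMap R S ((P i).coeff 0) * V ^ (m - i) := by
      rw [hu, map_add, map_one, map_sum]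
      congr 1
      refine Finset.sum_congr rfl fun i _ => ?_
      rw [map_mul, aeval_C, map_pow, aeval_X]
    have h2 : ∀ i, aeval x (P i) = aeval x (divX (P i)) * x + algebraMap R S ((P i).coeff 0) := by
      intro i
      conv_lhs => rw [← divX_mul_X_add (P i)]
      rw [map_add, map_mul, aeval_X, aeval_C]
    have h3 : (1 : S) + ∑ i ∈ Finset.range m, aeval x (P i) * V ^ (m - i) =
        (1 + ∑ i ∈ Finset.range m, algebraMap R S ((P i).coeff 0) * V ^ (m - i)) + x * W := by
      rw [hW, Finset.mul_sum, add_assoc, ← Finset.sum_add_distrib]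
      congr 1
      refine Finset.sum_congr rfl fun i _ => ?_
      rw [h2 i]
      ring
    rw [hrel] at h3
    rw [h1]
    linear_combination h3.symm
  refine ⟨u, hu0, fun hne => ?_⟩
  set B : Subalgebra R S := Algebra.adjoin R {V, (aeval V u)⁻¹} with hB
  set T : Subalgebra ↥B S := Algebra.adjoin ↥B {x} with hT
  have hxT : x ∈ T := Algebra.subset_adjoin rfl
  have hBT : ∀ b : S, b ∈ B → b ∈ T := fun b hb => T.algebraMap_mem (⟨b, hb⟩ : ↥B)
  have hVT : V ∈ T := hBT V (Algebra.subset_adjoin (by simp))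
  have hinvT : (aeval V u)⁻¹ ∈ T := hBT _ (Algebra.subset_adjoin (by simp))
  have hpolyT : ∀ Q : R[X], aeval x Q ∈ T := by
    intro Q
    have h1 : Algebra.adjoin R {x} ≤ T.restrictScalars R :=
      Algebra.adjoin_le (by simpa using hxT)
    exact h1 (aeval_mem_adjoin_singleton R x)
  have hWT : W ∈ T := by
    rw [hW]
    exact T.sum_mem fun i _ => T.mul_mem (hpolyT _) (T.pow_mem hVT _)
  have hxinv : x⁻¹ = - (W * (aeval V u)⁻¹) := by
    rw [hkey]
    have hW0 : W ≠ 0 := by
      intro h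
      rw [hkey, h, mul_zero, neg_zero] at hne
      exact hne rfl
    field_simp
  apply isIntegral_of_mem_adjoin_inv (B := ↥B) (inv_ne_zero hx)
  rw [inv_inv, hxinv]
  exact T.neg_mem (T.mul_mem hWT hinvT)


/-- transport of integrality along an equality of subalgebras. -/
theorem isIntegral_of_subalgebra_eq {R S : Type*} [CommRing R] [CommRing S] [Algebra R S]
    {A B : Subalgebra R S} (e : A = B) {y : S} (h : IsIntegral ↥A y) : IsIntegral ↥B y := by
  subst e
  exact h

/-- integrality over `ℤ[x]` is insensitive to translating by constants. -/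
theorem isIntegral_adjoin_sub_intCast {S : Type*} [CommRing S] {x y : S} (b : ℤ)
    (h : IsIntegral ↥(Algebra.adjoin ℤ {x}) y) :
    IsIntegral ↥(Algebra.adjoin ℤ {x - (b : S)}) (y - (b : S)) := by
  have e : Algebra.adjoin ℤ {x} = Algebra.adjoin ℤ {x - (b : S)} := by
    apply le_antisymm
    · apply Algebra.adjoin_le
      intro a ha
      rw [Set.mem_singleton_iff] at ha
      have : a = (x - (b : S)) + (b : S) := by rw [ha]; ring
      rw [this]
      exact Subalgebra.add_mem _ (Algebra.subset_adjoin rfl) (intCast_mem _ b)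
    · apply Algebra.adjoin_le
      intro a ha
      rw [Set.mem_singleton_iff] at ha
      rw [ha]
      exact Subalgebra.sub_mem _ (Algebra.subset_adjoin rfl) (intCast_mem _ b)
  refine isIntegral_of_subalgebra_eq e (h.sub ?_)
  have := isIntegral_algebraMap (R := ↥(Algebra.adjoin ℤ {x})) (A := S)
    (x := ((b : ℤ) : ↥(Algebra.adjoin ℤ {x})))
  rwa [map_intCast] at this
end Abstract

section Modular

variable {N ℓ : ℕ} [NeZero N] [NeZero ℓ]

/-- `(j - b)⁻¹` is transcendental over `ℚ̄`. -/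
theorem transcendental_inv_jBar_sub (N : ℕ) [NeZero N] (b : ℤ) :
    Transcendental Ω ((jBar N - (b : ↥(laurentBaseChange Ω (modularFunctionFieldFull N))))⁻¹) := by
  intro h
  rw [IsAlgebraic.inv_iff] at h
  apply transcendental_jBar N
  have hb : IsAlgebraic Ω ((b : ℤ) : ↥(laurentBaseChange Ω (modularFunctionFieldFull N))) := by
    have := isAlgebraic_algebraMap (R := Ω)
      (A := ↥(laurentBaseChange Ω (modularFunctionFieldFull N))) ((b : ℤ) : Ω)
    rwa [map_intCast] at this
  have := h.add hb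
  rwa [sub_add_cancel] at this


/-- transcendence over `ℤ` of the image of `(j - b)⁻¹` under an injective `ℚ̄`-algebra map. -/
theorem transcendental_int_map_inv_jBar_sub {F' : Type*} [Field F'] [Algebra Ω F']
    (φ : ↥(laurentBaseChange Ω (modularFunctionFieldFull N)) →ₐ[Ω] F') (b : ℤ) :
    Transcendental ℤ (φ ((jBar N - (b : ↥(laurentBaseChange Ω (modularFunctionFieldFull N))))⁻¹)) := by
  have h1 : Transcendental Ω
      (φ ((jBar N - (b : ↥(laurentBaseChange Ω (modularFunctionFieldFull N))))⁻¹)) := by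
    intro h
    exact transcendental_inv_jBar_sub N b ((isAlgebraic_algHom_iff φ φ.injective).mp h)
  exact h1.restrictScalars (R := ℤ) (algebraMap ℤ Ω).injective_int

theorem aeval_map_inv_jBar_sub_ne_zero {F' : Type*} [Field F'] [Algebra Ω F']
    (φ : ↥(laurentBaseChange Ω (modularFunctionFieldFull N)) →ₐ[Ω] F') (b : ℤ) (u : ℤ[X])
    (hu : u ≠ 0) :
    aeval (φ ((jBar N - (b : ↥(laurentBaseChange Ω (modularFunctionFieldFull N))))⁻¹)) u ≠ 0 :=
  fun h => transcendental_int_map_inv_jBar_sub φ b ⟨u, hu, h⟩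

/-- **the cusp chart**: `α V` is integral over `ℤ[β V, u(β V)⁻¹]`, `V = (j - b)⁻¹`, for some
`u ∈ ℤ[X]` with `u(0) = 1`. -/
theorem exists_isIntegral_heckeAlphaBar_inv_jBar_sub (b : ℤ) :
    ∃ u : ℤ[X], u.coeff 0 = 1 ∧
      aeval (heckeBetaBar Ω N ℓ
        ((jBar N - (b : ↥(laurentBaseChange Ω (modularFunctionFieldFull N))))⁻¹)) u ≠ 0 ∧
      IsIntegral ↥(Algebra.adjoin ℤ
        {heckeBetaBar Ω N ℓ ((jBar N - (b : ↥(laurentBaseChange Ω (modularFunctionFieldFull N))))⁻¹),
          (aeval (heckeBetaBar Ω N ℓ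
            ((jBar N - (b : ↥(laurentBaseChange Ω (modularFunctionFieldFull N))))⁻¹)) u)⁻¹})
        (heckeAlphaBar Ω N ℓ
          ((jBar N - (b : ↥(laurentBaseChange Ω (modularFunctionFieldFull N))))⁻¹)) := by
  have hj : jBar N - (b : ↥(laurentBaseChange Ω (modularFunctionFieldFull N))) ≠ 0 := by
    intro h
    apply transcendental_inv_jBar_sub N b
    rw [h, inv_zero]
    exact isAlgebraic_zero
  have hx : heckeAlphaBar Ω N ℓ (jBar N) -
      (b : ↥(laurentBaseChange Ω (modularFunctionFieldFull (N * ℓ)))) ≠ 0 := by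
    have := (map_ne_zero (heckeAlphaBar Ω N ℓ)).mpr hj
    rwa [map_sub, map_intCast] at this
  have hy : heckeBetaBar Ω N ℓ (jBar N) -
      (b : ↥(laurentBaseChange Ω (modularFunctionFieldFull (N * ℓ)))) ≠ 0 := by
    have := (map_ne_zero (heckeBetaBar Ω N ℓ)).mpr hj
    rwa [map_sub, map_intCast] at this
  have hint := isIntegral_adjoin_sub_intCast b (isIntegral_heckeBetaBar_jBar (N := N) (ℓ := ℓ))
  obtain ⟨u, hu0, hu⟩ := exists_isIntegral_inv_of_isIntegral hx hy hint
  have hV : heckeBetaBar Ω N ℓ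
      ((jBar N - (b : ↥(laurentBaseChange Ω (modularFunctionFieldFull N))))⁻¹) =
      (heckeBetaBar Ω N ℓ (jBar N) -
        (b : ↥(laurentBaseChange Ω (modularFunctionFieldFull (N * ℓ)))))⁻¹ := by
    rw [map_inv₀, map_sub, map_intCast]
  have hU : heckeAlphaBar Ω N ℓ
      ((jBar N - (b : ↥(laurentBaseChange Ω (modularFunctionFieldFull N))))⁻¹) =
      (heckeAlphaBar Ω N ℓ (jBar N) -
        (b : ↥(laurentBaseChange Ω (modularFunctionFieldFull (N * ℓ)))))⁻¹ := by
    rw [map_inv₀, map_sub, map_intCast]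
  have hne : aeval (heckeBetaBar Ω N ℓ
      ((jBar N - (b : ↥(laurentBaseChange Ω (modularFunctionFieldFull N))))⁻¹)) u ≠ 0 := by
    apply aeval_map_inv_jBar_sub_ne_zero
    intro h
    rw [h, coeff_zero] at hu0
    exact zero_ne_one hu0
  refine ⟨u, hu0, hne, ?_⟩
  rw [hV] at hne ⊢
  rw [hU]
  exact hu hne

/-- the mirror statement: `β V` is integral over `ℤ[α V, u(α V)⁻¹]`. -/
theorem exists_isIntegral_heckeBetaBar_inv_jBar_sub (hℓ : ℓ.Prime) (hℓN : ¬ ℓ ∣ N) (b : ℤ) :
    ∃ u : ℤ[X], u.coeff 0 = 1 ∧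
      aeval (heckeAlphaBar Ω N ℓ
        ((jBar N - (b : ↥(laurentBaseChange Ω (modularFunctionFieldFull N))))⁻¹)) u ≠ 0 ∧
      IsIntegral ↥(Algebra.adjoin ℤ
        {heckeAlphaBar Ω N ℓ ((jBar N - (b : ↥(laurentBaseChange Ω (modularFunctionFieldFull N))))⁻¹),
          (aeval (heckeAlphaBar Ω N ℓ
            ((jBar N - (b : ↥(laurentBaseChange Ω (modularFunctionFieldFull N))))⁻¹)) u)⁻¹})
        (heckeBetaBar Ω N ℓ
          ((jBar N - (b : ↥(laurentBaseChange Ω (modularFunctionFieldFull N))))⁻¹)) := by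
  have hj : jBar N - (b : ↥(laurentBaseChange Ω (modularFunctionFieldFull N))) ≠ 0 := by
    intro h
    apply transcendental_inv_jBar_sub N b
    rw [h, inv_zero]
    exact isAlgebraic_zero
  have hx : heckeAlphaBar Ω N ℓ (jBar N) -
      (b : ↥(laurentBaseChange Ω (modularFunctionFieldFull (N * ℓ)))) ≠ 0 := by
    have := (map_ne_zero (heckeAlphaBar Ω N ℓ)).mpr hj
    rwa [map_sub, map_intCast] at this
  have hy : heckeBetaBar Ω N ℓ (jBar N) -
      (b : ↥(laurentBaseChange Ω (modularFunctionFieldFull (N * ℓ)))) ≠ 0 := by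
    have := (map_ne_zero (heckeBetaBar Ω N ℓ)).mpr hj
    rwa [map_sub, map_intCast] at this
  have hint := isIntegral_adjoin_sub_intCast b (isIntegral_heckeAlphaBar_jBar (N := N) hℓ hℓN)
  obtain ⟨u, hu0, hu⟩ := exists_isIntegral_inv_of_isIntegral hy hx hint
  have hV : heckeAlphaBar Ω N ℓ
      ((jBar N - (b : ↥(laurentBaseChange Ω (modularFunctionFieldFull N))))⁻¹) =
      (heckeAlphaBar Ω N ℓ (jBar N) -
        (b : ↥(laurentBaseChange Ω (modularFunctionFieldFull (N * ℓ)))))⁻¹ := by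
    rw [map_inv₀, map_sub, map_intCast]
  have hU : heckeBetaBar Ω N ℓ
      ((jBar N - (b : ↥(laurentBaseChange Ω (modularFunctionFieldFull N))))⁻¹) =
      (heckeBetaBar Ω N ℓ (jBar N) -
        (b : ↥(laurentBaseChange Ω (modularFunctionFieldFull (N * ℓ)))))⁻¹ := by
    rw [map_inv₀, map_sub, map_intCast]
  have hne : aeval (heckeAlphaBar Ω N ℓ
      ((jBar N - (b : ↥(laurentBaseChange Ω (modularFunctionFieldFull N))))⁻¹)) u ≠ 0 := by
    apply aeval_map_inv_jBar_sub_ne_zero
    intro h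
    rw [h, coeff_zero] at hu0
    exact zero_ne_one hu0
  refine ⟨u, hu0, hne, ?_⟩
  rw [hV] at hne ⊢
  rw [hU]
  exact hu hne

end Modular

end Fermat.Agent.JA
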