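/-
J-A package ES / C3 (helper4), part 9: **the ring of functions with a value in `A` at a place**.

For a valuation subring `A` of the constant field `K` and a place `P` of `F / K`:
`valueSubring A P = {f | f is regular at P and f(P) ∈ A}`, the evaluation `valueHom`, and the fact
that `valueSubring A P` is integrally closed in `F` when `deg P = 1`.
-/
import Mathlib
import Fermat.Agent.JA.ES_helper4_Value

set_option autoImplicit false
set_option linter.unusedSectionVars false

open AlgebraicCurve

namespace Fermat.Agent.JA

section ValueRing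

variable {K F : Type*} [Field K] [Field F] [Algebra K F]

/-- the functions regular at `P` whose value lies in the valuation subring `A` of the constants. -/
def valueSubring (A : ValuationSubring K) (P : Place K F) : Subring F where
  carrier := {f | ∃ a : A, HasValueAt P f (a : K)}
  mul_mem' := by
    rintro f g ⟨a, ha⟩ ⟨b, hb⟩
    exact ⟨a * b, ha.mul hb⟩
  one_mem' := ⟨1, HasValueAt.one' P⟩
  add_mem' := by
    rintro f g ⟨a, ha⟩ ⟨b, hb⟩
    exact ⟨a + b, ha.add hb⟩
  zero_mem' := ⟨0, HasValueAt.zero' P⟩
  neg_mem' := by
    rintro f ⟨a, ha⟩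
    exact ⟨-a, ha.neg⟩

variable {A : ValuationSubring K} {P : Place K F}

theorem mem_valueSubring_iff {f : F} :
    f ∈ valueSubring A P ↔ ∃ a : A, HasValueAt P f (a : K) := Iff.rfl

theorem valueSubring_le : valueSubring A P ≤ P.toValuationSubring.toSubring := by
  rintro f ⟨a, ha⟩
  exact ha.mem

theorem algebraMap_mem_valueSubring (a : A) : algebraMap K F (a : K) ∈ valueSubring A P :=
  ⟨a, HasValueAt.algebraMap' P _⟩

/-- the value at `P` of an element of `valueSubring A P`. -/
noncomputable def valueIn (A : ValuationSubring K) (P : Place K F) (f : valueSubring A P) : A :=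
  f.2.choose

theorem hasValueAt_valueIn (f : valueSubring A P) : HasValueAt P (f : F) (valueIn A P f : K) :=
  f.2.choose_spec

theorem valueIn_eq {f : valueSubring A P} {a : A} (h : HasValueAt P (f : F) (a : K)) :
    valueIn A P f = a :=
  Subtype.ext ((hasValueAt_valueIn f).unique h)

/-- evaluation at `P` as a ring homomorphism `valueSubring A P →+* A`. -/
noncomputable def valueHom (A : ValuationSubring K) (P : Place K F) : valueSubring A P →+* A where
  toFun := valueIn A P
  map_one' := valueIn_eq (HasValueAt.one' P)
  map_mul' f g := valueIn_eq ((hasValueAt_valueIn f).mul (hasValueAt_valueIn g))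
  map_zero' := valueIn_eq (HasValueAt.zero' P)
  map_add' f g := valueIn_eq ((hasValueAt_valueIn f).add (hasValueAt_valueIn g))

theorem hasValueAt_valueHom (f : valueSubring A P) :
    HasValueAt P (f : F) (valueHom A P f : K) := hasValueAt_valueIn f

theorem valueHom_eq {f : valueSubring A P} {a : A} (h : HasValueAt P (f : F) (a : K)) :
    valueHom A P f = a := valueIn_eq h

/-- the value of a polynomial expression. -/
theorem hasValueAt_eval₂ (p : Polynomial (valueSubring A P)) {f : F} {c : K}
    (hf : HasValueAt P f c) :
    HasValueAt P (Polynomial.eval₂ (valueSubring A P).subtype f p)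
      (Polynomial.eval₂ (A.subtype.comp (valueHom A P)) c p) := by
  rw [Polynomial.eval₂_eq_sum_range, Polynomial.eval₂_eq_sum_range]
  refine HasValueAt.sum _ _ _ fun i _ => ?_
  exact (hasValueAt_valueHom (p.coeff i)).mul (hf.pow i)

/-- **`valueSubring A P` is integrally closed in `F`** (for a place of degree one). -/
theorem mem_valueSubring_of_isIntegral (hdeg : P.deg = 1) {f : F}
    (hf : IsIntegral (valueSubring A P) f) : f ∈ valueSubring A P := by
  -- `f` is regular at `P`
  have hfO : f ∈ P.toValuationSubring := by
    have h1 : IsIntegral P.toValuationSubring f :=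
      IsIntegral.map_of_comp_eq (Subring.inclusion (valueSubring_le (A := A) (P := P)))
        (RingHom.id F) (RingHom.ext fun x => rfl) hf
    obtain ⟨y, hy⟩ := (IsIntegrallyClosedIn.isIntegral_iff (R := P.toValuationSubring)
      (A := F)).mp h1
    rw [← hy]
    exact y.2
  obtain ⟨c, hc⟩ := HasValueAt.exists_of_mem hdeg hfO
  obtain ⟨p, hp, hpf⟩ := hf
  have h1 := hasValueAt_eval₂ p hc
  have h2 : Polynomial.eval₂ (valueSubring A P).subtype f p = 0 := hpf
  rw [h2] at h1
  have h3 : Polynomial.eval₂ (A.subtype.comp (valueHom A P)) c p = 0 :=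
    (h1.unique (HasValueAt.zero' P))
  -- `c` is integral over `A`
  have hcA : IsIntegral A c := by
    refine ⟨p.map (valueHom A P), hp.map _, ?_⟩
    rw [Polynomial.eval₂_map]
    exact h3
  obtain ⟨a, ha⟩ := (IsIntegrallyClosedIn.isIntegral_iff (R := A) (A := K)).mp hcA
  refine ⟨a, ?_⟩
  have e : ((a : A) : K) = c := ha
  rw [e]
  exact hc

/-- an element integral over a subring of `valueSubring A P` lies in `valueSubring A P`. -/
theorem mem_valueSubring_of_isIntegral_of_le (hdeg : P.deg = 1) {R : Subring F}
    (hR : R ≤ valueSubring A P) {f : F} (hf : IsIntegral R f) : f ∈ valueSubring A P :=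
  mem_valueSubring_of_isIntegral hdeg
    (IsIntegral.map_of_comp_eq (Subring.inclusion hR) (RingHom.id F) (RingHom.ext fun _ => rfl) hf)

end ValueRing

end Fermat.Agent.JA
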