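/-
J-A package ES / C3 (helper4), part 10: **(G2) the charts are stable under the Hecke
correspondence**, and the two charts cover all places.

Abstract form: `X, Y` elements of a function field `F'` (`X = α j`, `Y = β j`), `W` a place of
degree one, `A` a valuation subring of the constants.
* if `X` is integral over `ℤ[Y]` and `Y(W) ∈ A` then `X(W) ∈ A`;
* if `Y` is integral over `ℤ[X]` and `(Y - b)⁻¹(W) ∈ 𝔪_A` then `(X - b)⁻¹(W) ∈ 𝔪_A`.
-/
import Mathlib
import Fermat.Agent.JA.ES_helper4_ValueRing

set_option autoImplicit false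
set_option linter.unusedSectionVars false

open AlgebraicCurve

namespace Fermat.Agent.JA

section G2

variable {K F : Type*} [Field K] [Field F] [Algebra K F]
variable {A : ValuationSubring K} {P : Place K F}

theorem intCast_mem_valueSubring (b : ℤ) : (b : F) ∈ valueSubring A P := by
  refine ⟨(b : A), ?_⟩
  have e : (b : F) = algebraMap K F (((b : A) : A) : K) := by
    push_cast
    rw [map_intCast]
  rw [e]
  exact HasValueAt.algebraMap' P _

/-- an element integral over `ℤ[s]`, `s ⊆ valueSubring A P`, lies in `valueSubring A P`. -/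
theorem mem_valueSubring_of_isIntegral_adjoin (hdeg : P.deg = 1) {s : Set F}
    (hs : s ⊆ valueSubring A P) {f : F} (hf : IsIntegral (Algebra.adjoin ℤ s) f) :
    f ∈ valueSubring A P := by
  have hle : ∀ x ∈ Algebra.adjoin ℤ s, x ∈ valueSubring A P := by
    intro x hx
    induction hx using Algebra.adjoin_induction with
    | mem x hx => exact hs hx
    | algebraMap r =>
      rw [eq_intCast]
      exact intCast_mem_valueSubring r
    | add x y _ _ hx hy => exact (valueSubring A P).add_mem hx hy
    | mul x y _ _ hx hy => exact (valueSubring A P).mul_mem hx hy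
  let g : ↥(Algebra.adjoin ℤ s) →+* ↥(valueSubring A P) :=
    (Algebra.adjoin ℤ s).val.toRingHom.codRestrict (valueSubring A P) (fun x => hle x x.2)
  exact mem_valueSubring_of_isIntegral hdeg
    (IsIntegral.map_of_comp_eq g (RingHom.id F) (RingHom.ext fun _ => rfl) hf)

/-- **(INV)**: a nonzero function either has a value in `𝔪_A` at `P`, or its inverse has a value in
`A`. -/
theorem hasValueAt_or_inv (hdeg : P.deg = 1) (x : F) :
    (∃ a : A, IsLocalRing.residue A a = 0 ∧ HasValueAt P x (a : K)) ∨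
      ∃ a : A, HasValueAt P x⁻¹ (a : K) := by
  by_cases hx : x ∈ P.toValuationSubring
  · obtain ⟨c, hc⟩ := HasValueAt.exists_of_mem hdeg hx
    by_cases hcA : ∃ a : A, IsLocalRing.residue A a = 0 ∧ (a : K) = c
    · obtain ⟨a, ha0, hac⟩ := hcA
      exact Or.inl ⟨a, ha0, hac ▸ hc⟩
    · right
      have hc0 : c ≠ 0 := by
        rintro rfl
        exact hcA ⟨0, map_zero _, rfl⟩
      have hcinv : c⁻¹ ∈ A := by
        rcases A.mem_or_inv_mem c with h | h
        · by_cases hu : IsUnit (⟨c, h⟩ : A)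
          · obtain ⟨u, hu⟩ := hu
            have e : ((u⁻¹ : Aˣ) : K) = c⁻¹ := by
              have h1 : ((u : A) : K) * ((u⁻¹ : Aˣ) : K) = 1 := by
                rw [← MulMemClass.coe_mul, Units.mul_inv]; rfl
              rw [hu] at h1
              exact eq_inv_of_mul_eq_one_right h1
            rw [← e]
            exact ((u⁻¹ : Aˣ) : A).2
          · exfalso
            apply hcA
            refine ⟨⟨c, h⟩, ?_, rfl⟩
            rw [IsLocalRing.residue_eq_zero_iff]
            exact (IsLocalRing.mem_maximalIdeal _).mpr hu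
        · exact h
      exact ⟨⟨c⁻¹, hcinv⟩, hc.inv hc0⟩
  · right
    refine ⟨0, ?_⟩
    rw [ZeroMemClass.coe_zero, HasValueAt.zero_iff_lt]
    have h1 : ¬ P.adicValuation x ≤ 1 := fun h =>
      hx ((Fermat.Agent.FF.PlaceAux.mem_iff_adicValuation_le_one P).mpr h)
    rw [not_le] at h1
    rw [map_inv₀]
    exact inv_lt_one_of_one_lt₀ h1

/-- **(COVER)**: every place of degree one lies in the chart of `j` or is a zero mod `𝔪_A` of
`(j - b)⁻¹`. -/
theorem hasValueAt_or_hasValueAt_inv_sub (hdeg : P.deg = 1) (j : F) (b : ℤ) :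
    (∃ a : A, HasValueAt P j (a : K)) ∨
      ∃ a : A, IsLocalRing.residue A a = 0 ∧ HasValueAt P (j - (b : F))⁻¹ (a : K) := by
  rcases hasValueAt_or_inv (A := A) hdeg (j - (b : F))⁻¹ with h | ⟨a, ha⟩
  · exact Or.inr h
  · left
    rw [inv_inv] at ha
    obtain ⟨b', hb'⟩ := intCast_mem_valueSubring (A := A) (P := P) b
    refine ⟨a + b', ?_⟩
    have := ha.add hb'
    rwa [sub_add_cancel] at this

/-- **(G2) for the `j`-chart.** -/
theorem hasValueAt_of_isIntegral_adjoin_int (hdeg : P.deg = 1) {X Y : F}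
    (hXY : IsIntegral (Algebra.adjoin ℤ {Y}) X) (hY : ∃ a : A, HasValueAt P Y (a : K)) :
    ∃ a : A, HasValueAt P X (a : K) :=
  mem_valueSubring_of_isIntegral_adjoin hdeg
    (Set.singleton_subset_iff.mpr (show Y ∈ valueSubring A P from hY)) hXY

/-- **(G2) for the cusp chart.** -/
theorem hasValueAt_inv_sub_of_isIntegral_adjoin_int (hdeg : P.deg = 1) {X Y : F} (b : ℤ)
    (hYX : IsIntegral (Algebra.adjoin ℤ {X}) Y) (hYb : Y - (b : F) ≠ 0)
    (hY : ∃ a : A, IsLocalRing.residue A a = 0 ∧ HasValueAt P (Y - (b : F))⁻¹ (a : K)) :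
    ∃ a : A, IsLocalRing.residue A a = 0 ∧ HasValueAt P (X - (b : F))⁻¹ (a : K) := by
  rcases hasValueAt_or_inv (A := A) hdeg (X - (b : F))⁻¹ with h | ⟨a', ha'⟩
  · exact h
  · exfalso
    rw [inv_inv] at ha'
    obtain ⟨b', hb'⟩ := intCast_mem_valueSubring (A := A) (P := P) b
    have hX : X ∈ valueSubring A P := by
      refine ⟨a' + b', ?_⟩
      have := ha'.add hb'
      rwa [sub_add_cancel] at this
    obtain ⟨a'', ha''⟩ : Y ∈ valueSubring A P :=
      mem_valueSubring_of_isIntegral_adjoin hdeg (Set.singleton_subset_iff.mpr hX) hYX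
    obtain ⟨a, ha0, ha⟩ := hY
    have h1 : HasValueAt P ((Y - (b : F))⁻¹ * (Y - (b : F))) ((a : K) * ((a'' : K) - (b' : K))) :=
      ha.mul (ha''.sub hb')
    rw [inv_mul_cancel₀ hYb] at h1
    have h2 : (a : K) * ((a'' : K) - (b' : K)) = 1 := (h1.unique (HasValueAt.one' P))
    have h3 : (a * (a'' - b') : A) = 1 := Subtype.ext h2
    have h4 := congrArg (IsLocalRing.residue A) h3
    rw [map_mul, ha0, zero_mul, map_one] at h4
    exact zero_ne_one h4

end G2

end Fermat.Agent.JA
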