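/-
J-A, S37 end assembly (helper7), part 2: the coefficientwise semilinear automorphisms of the
function field `F̃ = modularFunctionFieldFullC k N ⊂ k((q))` (the analogue of the Prelude's
`arithmeticGalois` for an arbitrary field `k` and an arbitrary ring automorphism of `k`).
-/
import Mathlib
import Fermat.Prelude.Def_ModularCurve_X0ModL
import Fermat.Prelude.Def_AlgebraicCurve_BaseChangeGalois

set_option autoImplicit false

open HahnSeries IntermediateField AlgebraicCurve

namespace Fermat.Agent.JA

open ModularCurve

section CoeffAutC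

variable (k : Type*) [Field k] (N : ℕ)

theorem mem_modularFunctionFieldFullC_iff {x : LaurentSeries k} :
    x ∈ modularFunctionFieldFullC k N ↔
      x ∈ Subfield.closure
        (Set.range (algebraMap k (LaurentSeries k)) ∪ divisorExpansionsC k N) :=
  Iff.rfl

variable {k N} in
theorem coeffMap_mem_modularFunctionFieldFullC (τ : k →+* k) {x : LaurentSeries k}
    (hx : x ∈ modularFunctionFieldFullC k N) :
    coeffMap τ x ∈ modularFunctionFieldFullC k N := by
  rw [mem_modularFunctionFieldFullC_iff] at hx
  induction hx using Subfield.closure_induction with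
  | mem y hy =>
      rcases hy with ⟨a, rfl⟩ | ⟨d, hd, hdN, rfl⟩
      · rw [coeffMap_algebraMap]
        exact (modularFunctionFieldFullC k N).algebraMap_mem _
      · haveI := hd
        rw [coeffMap_qExpand, coeffMap_jqModC]
        exact jqModCd_mem_full k N hdN
  | one => simp
  | add x y _ _ hx hy => simpa using add_mem hx hy
  | neg x _ hx => simpa using neg_mem hx
  | inv x _ hx => simpa using inv_mem hx
  | mul x y _ _ hx hy => simpa using mul_mem hx hy

/-- the coefficientwise action of a ring automorphism of `k` on `F̃`. -/
noncomputable def coeffRingAutC (τ : k ≃+* k) :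
    (modularFunctionFieldFullC k N) ≃+* (modularFunctionFieldFullC k N) where
  toFun x := ⟨coeffMap (τ : k →+* k) (x : LaurentSeries k),
    coeffMap_mem_modularFunctionFieldFullC _ x.2⟩
  invFun x := ⟨coeffMap (τ.symm : k →+* k) (x : LaurentSeries k),
    coeffMap_mem_modularFunctionFieldFullC _ x.2⟩
  left_inv x := Subtype.ext <| by
    show coeffMap (τ.symm : k →+* k) (coeffMap (τ : k →+* k) (x : LaurentSeries k))
      = (x : LaurentSeries k)
    rw [coeffMap_coeffMap,
      coeffMap_congr (g := RingHom.id k) (RingHom.ext fun a => τ.symm_apply_apply a)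
        (x : LaurentSeries k),
      coeffMap_id]
  right_inv x := Subtype.ext <| by
    show coeffMap (τ : k →+* k) (coeffMap (τ.symm : k →+* k) (x : LaurentSeries k))
      = (x : LaurentSeries k)
    rw [coeffMap_coeffMap,
      coeffMap_congr (g := RingHom.id k) (RingHom.ext fun a => τ.apply_symm_apply a)
        (x : LaurentSeries k),
      coeffMap_id]
  map_mul' x y :=
    Subtype.ext (map_mul (coeffMap (τ : k →+* k)) (x : LaurentSeries k) (y : LaurentSeries k))
  map_add' x y :=
    Subtype.ext (map_add (coeffMap (τ : k →+* k)) (x : LaurentSeries k) (y : LaurentSeries k))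

@[simp]
theorem coe_coeffRingAutC_apply (τ : k ≃+* k) (x : modularFunctionFieldFullC k N) :
    (coeffRingAutC k N τ x : LaurentSeries k) = coeffMap (τ : k →+* k) (x : LaurentSeries k) :=
  rfl

theorem coeffRingAutC_algebraMap (τ : k ≃+* k) (a : k) :
    coeffRingAutC k N τ (algebraMap k (modularFunctionFieldFullC k N) a)
      = algebraMap k (modularFunctionFieldFullC k N) (τ a) :=
  Subtype.ext (coeffMap_algebraMap (τ : k →+* k) a)

/-- the coefficientwise semilinear automorphisms of `F̃`. -/
noncomputable def coeffAutC : RingAut k →* SemilinearAut k (modularFunctionFieldFullC k N) where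
  toFun τ := ⟨(coeffRingAutC k N τ, τ), fun a => coeffRingAutC_algebraMap k N τ a⟩
  map_one' := by
    refine Subtype.ext (Prod.ext (RingEquiv.ext fun x => Subtype.ext ?_) rfl)
    show coeffMap ((1 : RingAut k) : k →+* k) (x : LaurentSeries k) = (x : LaurentSeries k)
    rw [show ((1 : RingAut k) : k →+* k) = RingHom.id k from RingHom.ext fun _ => rfl,
      coeffMap_id]
  map_mul' σ τ := by
    refine Subtype.ext (Prod.ext (RingEquiv.ext fun x => Subtype.ext ?_) rfl)
    show coeffMap ((σ * τ : RingAut k) : k →+* k) (x : LaurentSeries k)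
      = coeffMap (σ : k →+* k) (coeffMap (τ : k →+* k) (x : LaurentSeries k))
    rw [coeffMap_coeffMap]
    exact coeffMap_congr (RingHom.ext fun _ => rfl) _

@[simp]
theorem toRingAut_coeffAutC (τ : RingAut k) :
    SemilinearAut.toRingAut (coeffAutC k N τ) = coeffRingAutC k N τ :=
  rfl

@[simp]
theorem baseAut_coeffAutC (τ : RingAut k) :
    SemilinearAut.baseAut (coeffAutC k N τ) = τ :=
  rfl

theorem coe_coeffAutC_smul (τ : RingAut k) (x : modularFunctionFieldFullC k N) :
    ((coeffAutC k N τ • x : modularFunctionFieldFullC k N) : LaurentSeries k)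
      = coeffMap (τ : k →+* k) (x : LaurentSeries k) :=
  rfl

end CoeffAutC

end Fermat.Agent.JA
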