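/-
J-A, S37 end assembly (helper7), part 1: the "coinduced trick".

Given a reduction map `red : J →+ M` (NOT assumed Hecke-equivariant) and an endomorphism `Fr` of
`M` such that
* [E1] `red (τ • x) = red x` for `τ` in the inertia group of `A`,
* [E2] `red (σ • x) = Fr (red x)` for every Frobenius element `σ` at `A`,
* [E3] `red (σ • σ • x - T_ℓ • (σ • x) + ℓ • x) = 0` for every Frobenius element `σ` at `A`,
* [E4] `red` is injective on `p`-power torsion,
and a Frobenius element `σ₀` exists, we construct the specialization datum required by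
`ModularCurve.SpecializationExists`: `J' := J ⧸ core`, where `core` is the largest Hecke-stable
subgroup of `ker red`.
-/
import Mathlib
import Fermat.Prelude.Def_ModularCurve_HeckeModule

set_option autoImplicit false

namespace Fermat.Agent.JA

open ModularCurve

section Core

variable {J : Type*} [AddCommGroup J] [Module HeckeAlg J]
variable {M : Type*} [AddCommGroup M] (red : J →+ M)

/-- the largest Hecke-stable subgroup of the kernel of `red`. -/
def heckeCore : Submodule HeckeAlg J where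
  carrier := {x | ∀ T : HeckeAlg, red (T • x) = 0}
  add_mem' := by
    intro a b ha hb T
    rw [smul_add, map_add, ha T, hb T, add_zero]
  zero_mem' := by
    intro T
    rw [smul_zero, map_zero]
  smul_mem' := by
    intro S x hx T
    rw [smul_smul]
    exact hx (T * S)

theorem mem_heckeCore {x : J} : x ∈ heckeCore red ↔ ∀ T : HeckeAlg, red (T • x) = 0 := Iff.rfl

theorem red_eq_zero_of_mem_heckeCore {x : J} (hx : x ∈ heckeCore red) : red x = 0 := by
  have h := hx 1
  rwa [one_smul] at h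

variable {G : Type*} [Group G] [DistribMulAction G J] [SMulCommClass G HeckeAlg J]

theorem smul_mem_heckeCore {Fr : M →+ M} {g : G} (hg : ∀ x : J, red (g • x) = Fr (red x))
    {x : J} (hx : x ∈ heckeCore red) : g • x ∈ heckeCore red := by
  intro T
  rw [← smul_comm g T x, hg, hx T, map_zero]

/-- the endomorphism of `J ⧸ core` induced by a group element acting compatibly with `Fr`. -/
noncomputable def coreQuotMap {Fr : M →+ M} (g : G)
    (hg : ∀ x : J, red (g • x) = Fr (red x)) :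
    (J ⧸ heckeCore red) →+ (J ⧸ heckeCore red) :=
  ((heckeCore red).mapQ (heckeCore red) (DistribSMul.toLinearMap HeckeAlg J g)
    (fun _ hx => smul_mem_heckeCore red hg hx)).toAddMonoidHom

theorem coreQuotMap_mk {Fr : M →+ M} (g : G) (hg : ∀ x : J, red (g • x) = Fr (red x))
    (x : J) : coreQuotMap red g hg (Submodule.Quotient.mk x) = Submodule.Quotient.mk (g • x) :=
  rfl

end Core

section Specialization

variable {K L : Type*} [Field K] [Field L] [Algebra K L]

/-- **the coinduced trick**: one clause of `SpecializationExists`. -/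
theorem exists_isSpecialization_of_red (p : ℕ) (J : Type) [AddCommGroup J] [Module HeckeAlg J]
    [DistribMulAction (L ≃ₐ[K] L) J] [SMulCommClass (L ≃ₐ[K] L) HeckeAlg J]
    (ℓ : ℕ) (hℓ : ℓ.Prime) (A : ValuationSubring L)
    {M : Type*} [AddCommGroup M] (red : J →+ M) (Fr : M →+ M)
    (σ₀ : L ≃ₐ[K] L) (hσ₀ : A.IsFrobeniusAt σ₀ ℓ)
    (hE1 : ∀ σ ∈ A.inertiaSubgroupIn K, ∀ x : J, red (σ • x) = red x)
    (hE2 : ∀ σ : L ≃ₐ[K] L, A.IsFrobeniusAt σ ℓ → ∀ x : J, red (σ • x) = Fr (red x))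
    (hE3 : ∀ x : J, red (σ₀ • σ₀ • x - heckeGen ⟨ℓ, hℓ⟩ • (σ₀ • x) + ℓ • x) = 0)
    (hE4 : ∀ x : J, (∃ n : ℕ, p ^ n • x = 0) → red x = 0 → x = 0) :
    ∃ (J' : Type) (_ : AddCommGroup J') (_ : Module HeckeAlg J') (sp : J →+ J')
      (F : J' →+ J'),
      IsSpecialization (K := K) p J J' A ℓ sp F ∧ SpecialFibreRelation J' ℓ hℓ F := by
  refine ⟨J ⧸ heckeCore red, inferInstance, inferInstance, (heckeCore red).mkQ.toAddMonoidHom,
    coreQuotMap red σ₀ (hE2 σ₀ hσ₀), ⟨?_, ?_, ?_, ?_⟩, ?_⟩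
  · intro T x
    rfl
  · intro σ hσ x
    show (Submodule.Quotient.mk (σ • x) : J ⧸ heckeCore red) = Submodule.Quotient.mk x
    rw [Submodule.Quotient.eq]
    intro T
    rw [smul_sub, map_sub, ← smul_comm σ T x, hE1 σ hσ, sub_self]
  · intro σ hσ x
    show (Submodule.Quotient.mk (σ • x) : J ⧸ heckeCore red) = Submodule.Quotient.mk (σ₀ • x)
    rw [Submodule.Quotient.eq]
    intro T
    rw [smul_sub, map_sub, ← smul_comm σ T x, ← smul_comm σ₀ T x, hE2 σ hσ, hE2 σ₀ hσ₀, sub_self]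
  · intro x hx hsp
    have hmem : x ∈ heckeCore red := (Submodule.Quotient.mk_eq_zero _).mp hsp
    exact hE4 x hx (red_eq_zero_of_mem_heckeCore red hmem)
  · intro y
    obtain ⟨x, rfl⟩ := Submodule.Quotient.mk_surjective _ y
    rw [coreQuotMap_mk, coreQuotMap_mk]
    show (Submodule.Quotient.mk (σ₀ • σ₀ • x) : J ⧸ heckeCore red)
      - heckeGen ⟨ℓ, hℓ⟩ • Submodule.Quotient.mk (σ₀ • x) + ℓ • Submodule.Quotient.mk x = 0
    rw [← Submodule.Quotient.mk_smul, ← Submodule.Quotient.mk_smul, ← Submodule.Quotient.mk_sub,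
      ← Submodule.Quotient.mk_add, Submodule.Quotient.mk_eq_zero]
    intro T
    have e : T • (σ₀ • σ₀ • x - heckeGen ⟨ℓ, hℓ⟩ • (σ₀ • x) + ℓ • x)
        = σ₀ • σ₀ • (T • x) - heckeGen ⟨ℓ, hℓ⟩ • (σ₀ • (T • x)) + ℓ • (T • x) := by
      rw [smul_add, smul_sub, smul_comm σ₀ T x, smul_comm σ₀ T (σ₀ • x),
        smul_comm T (heckeGen ⟨ℓ, hℓ⟩) (σ₀ • x), smul_comm T ℓ x]
    rw [e]
    exact hE3 (T • x)

/-- **`SpecializationExists` from reduction maps** (all primes `ℓ ∤ N p` and all `A | ℓ`). -/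
theorem specializationExists_of_red (N p : ℕ) (J : Type) [AddCommGroup J] [Module HeckeAlg J]
    [DistribMulAction (L ≃ₐ[K] L) J] [SMulCommClass (L ≃ₐ[K] L) HeckeAlg J]
    (h : ∀ ℓ : ℕ, (hℓ : ℓ.Prime) → ¬ ℓ ∣ N * p →
      ∀ A : ValuationSubring L, A.LiesOverPrime ℓ →
        ∃ (M : Type) (_ : AddCommGroup M) (red : J →+ M) (Fr : M →+ M) (σ₀ : L ≃ₐ[K] L),
          A.IsFrobeniusAt σ₀ ℓ ∧
          (∀ σ ∈ A.inertiaSubgroupIn K, ∀ x : J, red (σ • x) = red x) ∧
          (∀ σ : L ≃ₐ[K] L, A.IsFrobeniusAt σ ℓ → ∀ x : J, red (σ • x) = Fr (red x)) ∧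
          (∀ x : J, red (σ₀ • σ₀ • x - heckeGen ⟨ℓ, hℓ⟩ • (σ₀ • x) + ℓ • x) = 0) ∧
          (∀ x : J, (∃ n : ℕ, p ^ n • x = 0) → red x = 0 → x = 0)) :
    SpecializationExists (K := K) (L := L) N p J := by
  intro ℓ hℓ hℓNp A hA
  obtain ⟨M, _, red, Fr, σ₀, hσ₀, hE1, hE2, hE3, hE4⟩ := h ℓ hℓ hℓNp A hA
  exact exists_isSpecialization_of_red p J ℓ hℓ A red Fr σ₀ hσ₀ hE1 hE2 hE3 hE4

end Specialization

end Fermat.Agent.JA
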