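/-
J-A, S37 end assembly (helper7), part 3: from a place reduction map to `S37`.

Inputs (all for a fixed `A | ℓ`, `k := ResidueField A`, `F̃ := modularFunctionFieldFullC k N`):
* `r`, `hr : IsPlaceReductionModL A N r`, `hgen : PrincipalGeneratedByIntegral A (residue A) N`;
* (EQUIV) `r (σ • P) = coeffAutC k N (resAut A σ) • r P` for `σ` in the decomposition group of `A`;
* (ES) the Eichler–Shimura congruence on `Pic⁰`: `red (T_ℓ x) = Φ • red x + ℓ • Φ⁻¹ • red x`;
* (INJ) `red` is injective on `p`-power torsion (= S18 for `r`).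
Output: the `(ℓ, A)`-clause of `SpecializationExists`, hence `S37` itself.
-/
import Mathlib
import Fermat.Agent.JA.S37Asm_helper7_Coind
import Fermat.Agent.JA.S37Asm_helper7_CoeffAut
import Fermat.Prelude.Def_ModularCurve_ReductionModL
import Fermat.Prelude.Def_ModularCurve_HeckeModule
import Fermat.Agent.CFT.LocForm.FrobAt_helper4

set_option autoImplicit false
set_option linter.style.haveILetI false

open HahnSeries IntermediateField AlgebraicCurve

namespace Fermat.Agent.JA

open ModularCurve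

section MapDomain

variable {K F K' F' : Type*} [Field K] [Field F] [Algebra K F] [Field K'] [Field F']
  [Algebra K' F']

/-- a place map intertwining two semilinear automorphisms intertwines the divisor actions. -/
theorem mapDomain_smul_of_equivariant (r : Place K F → Place K' F') (g : SemilinearAut K F)
    (g' : SemilinearAut K' F') (h : ∀ P, r (g • P) = g' • r P) (D : Divisor K F) :
    Finsupp.mapDomain r (g • D) = g' • Finsupp.mapDomain r D := by
  rw [SemilinearAut.divisor_smul_def, SemilinearAut.divisor_smul_def, ← Finsupp.mapDomain_comp,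
    ← Finsupp.mapDomain_comp]
  congr 1
  funext P
  exact h P

end MapDomain

section AbstractES

/-- the Eichler–Shimura congruence implies the quadratic relation after reduction. -/
theorem red_quadratic_eq_zero {J M G H : Type*} [AddCommGroup J] [AddCommGroup M] [Group G]
    [Group H] [DistribMulAction G J] [DistribMulAction H M] (red : J →+ M) (T : J → J)
    (σ₀ : G) (Φ : H) (ℓ : ℕ) (hfrob : ∀ x, red (σ₀ • x) = Φ • red x)
    (hES : ∀ x, red (T x) = Φ • red x + ℓ • (Φ⁻¹ • red x)) (x : J) :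
    red (σ₀ • σ₀ • x - T (σ₀ • x) + ℓ • x) = 0 := by
  rw [map_add, map_sub, map_nsmul, hES, hfrob (σ₀ • x), hfrob x, inv_smul_smul]
  abel

end AbstractES

section Clause

set_option synthInstance.maxHeartbeats 400000
set_option maxHeartbeats 1600000

variable (A : ValuationSubring (AlgebraicClosure ℚ)) (N : ℕ) [NeZero N]

/-- the action of the decomposition group on the residue field. -/
noncomputable def resAut :
    A.decompositionSubgroup ℚ →* RingAut (IsLocalRing.ResidueField A) :=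
  MulSemiringAction.toRingAut (A.decompositionSubgroup ℚ) (IsLocalRing.ResidueField A)

theorem resAut_apply (σ : A.decompositionSubgroup ℚ) (x : IsLocalRing.ResidueField A) :
    resAut A σ x = σ • x := rfl

theorem resAut_eq_one_of_mem_inertia {σ : A.decompositionSubgroup ℚ}
    (hσ : σ ∈ A.inertiaSubgroup ℚ) : resAut A σ = 1 := hσ

theorem resAut_eq_of_isFrobeniusAt {ℓ : ℕ} {σ σ₀ : AlgebraicClosure ℚ ≃ₐ[ℚ] AlgebraicClosure ℚ}
    (hσ : A.IsFrobeniusAt σ ℓ) (hσ₀ : A.IsFrobeniusAt σ₀ ℓ) :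
    resAut A ⟨σ, hσ.mem_decompositionSubgroup⟩ = resAut A ⟨σ₀, hσ₀.mem_decompositionSubgroup⟩ := by
  ext x
  rw [resAut_apply, resAut_apply, hσ.smul_residue_eq, hσ₀.smul_residue_eq]

variable {A N}
variable {r : Place (AlgebraicClosure ℚ) (modularFunctionFieldBar N) →
      Place (IsLocalRing.ResidueField A)
        (modularFunctionFieldFullC (IsLocalRing.ResidueField A) N)}
variable (hr : IsPlaceReductionModL A N r)
  (hgen : PrincipalGeneratedByIntegral A (IsLocalRing.residue A) N)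

/-- (EQUIV) ⇒ the reduction map on `Pic⁰` intertwines the Galois action of the decomposition group
with the coefficientwise action on `J̃`. -/
theorem reductionPic0Along_smul
    (hequiv : ∀ (σ : A.decompositionSubgroup ℚ)
      (P : Place (AlgebraicClosure ℚ) (modularFunctionFieldBar N)),
      r (arithmeticGalois (modularFunctionFieldFull N) σ.1 • P)
        = coeffAutC (IsLocalRing.ResidueField A) N (resAut A σ) • r P)
    (σ : A.decompositionSubgroup ℚ) (x : JZero N) :
    reductionPic0Along r hr hgen ((σ : AlgebraicClosure ℚ ≃ₐ[ℚ] AlgebraicClosure ℚ) • x)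
      = coeffAutC (IsLocalRing.ResidueField A) N (resAut A σ) • reductionPic0Along r hr hgen x := by
  obtain ⟨D, rfl⟩ := Pic0.mk_surjective x
  rw [galois_smul_pic0_def, SemilinearAut.pic0_smul_mk, reductionPic0Along_mk,
    reductionPic0Along_mk, SemilinearAut.pic0_smul_mk]
  refine congrArg Pic0.mk (Subtype.ext ?_)
  rw [coe_reductionDegZeroAlong, SemilinearAut.coe_degZeroSMulHom, SemilinearAut.coe_degZeroSMulHom,
    coe_reductionDegZeroAlong]
  exact mapDomain_smul_of_equivariant r _ _ (hequiv σ) _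

/-- **the `(ℓ, A)`-clause of S37 from a place reduction**. -/
theorem exists_red_of_placeReduction (p : ℕ) {ℓ : ℕ} (hℓ : ℓ.Prime) (hA : A.LiesOverPrime ℓ)
    (hequiv : ∀ (σ : A.decompositionSubgroup ℚ)
      (P : Place (AlgebraicClosure ℚ) (modularFunctionFieldBar N)),
      r (arithmeticGalois (modularFunctionFieldFull N) σ.1 • P)
        = coeffAutC (IsLocalRing.ResidueField A) N (resAut A σ) • r P)
    (hES : ∀ (σ₀ : A.decompositionSubgroup ℚ), A.IsFrobeniusAt σ₀.1 ℓ → ∀ x : JZero N,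
      reductionPic0Along r hr hgen (heckeOperatorBar N ⟨ℓ, hℓ⟩ x)
        = coeffAutC (IsLocalRing.ResidueField A) N (resAut A σ₀) • reductionPic0Along r hr hgen x
          + ℓ • ((coeffAutC (IsLocalRing.ResidueField A) N (resAut A σ₀))⁻¹ •
              reductionPic0Along r hr hgen x))
    (hinj : ∀ x : JZero N, (∃ n : ℕ, p ^ n • x = 0) → reductionPic0Along r hr hgen x = 0 → x = 0) :
    ∃ (M : Type) (_ : AddCommGroup M) (red : JZero N →+ M) (Fr : M →+ M)
      (σ₀ : AlgebraicClosure ℚ ≃ₐ[ℚ] AlgebraicClosure ℚ),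
      A.IsFrobeniusAt σ₀ ℓ ∧
      (∀ σ ∈ A.inertiaSubgroupIn ℚ, ∀ x : JZero N, red (σ • x) = red x) ∧
      (∀ σ : AlgebraicClosure ℚ ≃ₐ[ℚ] AlgebraicClosure ℚ, A.IsFrobeniusAt σ ℓ →
        ∀ x : JZero N, red (σ • x) = Fr (red x)) ∧
      (∀ x : JZero N,
        red (σ₀ • σ₀ • x - heckeOperatorBar N ⟨ℓ, hℓ⟩ (σ₀ • x) + ℓ • x) = 0) ∧
      (∀ x : JZero N, (∃ n : ℕ, p ^ n • x = 0) → red x = 0 → x = 0) := by
  obtain ⟨σ₀, hσ₀⟩ := Fermat.Agent.CFT.LocForm.exists_isFrobeniusAt A hℓ hA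
  have hsm := reductionPic0Along_smul hr hgen hequiv
  have hfrob : ∀ σ : AlgebraicClosure ℚ ≃ₐ[ℚ] AlgebraicClosure ℚ, A.IsFrobeniusAt σ ℓ →
      ∀ x : JZero N, reductionPic0Along r hr hgen (σ • x)
        = coeffAutC (IsLocalRing.ResidueField A) N
            (resAut A ⟨σ₀, hσ₀.mem_decompositionSubgroup⟩) • reductionPic0Along r hr hgen x := by
    intro σ hσ x
    have h := hsm ⟨σ, hσ.mem_decompositionSubgroup⟩ x
    rw [resAut_eq_of_isFrobeniusAt A hσ hσ₀] at h
    exact h
  refine ⟨JZeroC (IsLocalRing.ResidueField A) N, inferInstance, reductionPic0Along r hr hgen,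
    DistribSMul.toAddMonoidHom _ (coeffAutC (IsLocalRing.ResidueField A) N
      (resAut A ⟨σ₀, hσ₀.mem_decompositionSubgroup⟩)), σ₀, hσ₀, ?_, ?_, ?_, hinj⟩
  · rintro σ ⟨τ, hτ, rfl⟩ x
    have h := hsm τ x
    rw [resAut_eq_one_of_mem_inertia A hτ, map_one, one_smul] at h
    exact h
  · intro σ hσ x
    exact hfrob σ hσ x
  · intro x
    exact red_quadratic_eq_zero (reductionPic0Along r hr hgen) (heckeOperatorBar N ⟨ℓ, hℓ⟩) σ₀
      (coeffAutC (IsLocalRing.ResidueField A) N (resAut A ⟨σ₀, hσ₀.mem_decompositionSubgroup⟩)) ℓ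
      (hfrob σ₀ hσ₀) (hES ⟨σ₀, hσ₀.mem_decompositionSubgroup⟩ hσ₀) x

end Clause

section Final

/-- **S37 from the `(ℓ, A)`-clauses**, literally with the binders of `S37.result`. -/
theorem s37_of_clauses (N p : ℕ) [NeZero N] (hcomm : HeckeOperatorsCommuteBar N)
    (h : ∀ ℓ : ℕ, (hℓ : ℓ.Prime) → ¬ ℓ ∣ N * p →
      ∀ A : ValuationSubring (AlgebraicClosure ℚ), A.LiesOverPrime ℓ →
        ∃ (M : Type) (_ : AddCommGroup M) (red : JZero N →+ M) (Fr : M →+ M)
          (σ₀ : AlgebraicClosure ℚ ≃ₐ[ℚ] AlgebraicClosure ℚ),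
          A.IsFrobeniusAt σ₀ ℓ ∧
          (∀ σ ∈ A.inertiaSubgroupIn ℚ, ∀ x : JZero N, red (σ • x) = red x) ∧
          (∀ σ : AlgebraicClosure ℚ ≃ₐ[ℚ] AlgebraicClosure ℚ, A.IsFrobeniusAt σ ℓ →
            ∀ x : JZero N, red (σ • x) = Fr (red x)) ∧
          (∀ x : JZero N,
            red (σ₀ • σ₀ • x - heckeOperatorBar N ⟨ℓ, hℓ⟩ (σ₀ • x) + ℓ • x) = 0) ∧
          (∀ x : JZero N, (∃ n : ℕ, p ^ n • x = 0) → red x = 0 → x = 0)) :
    letI := ModularCurve.heckeModuleBar N
    ∀ (_ : SMulCommClass (AlgebraicClosure ℚ ≃ₐ[ℚ] AlgebraicClosure ℚ) ModularCurve.HeckeAlg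
      (ModularCurve.JZero N)),
      ModularCurve.SpecializationExists (K := ℚ) (L := AlgebraicClosure ℚ) N p
        (ModularCurve.JZero N) := by
  letI := ModularCurve.heckeModuleBar N
  intro _
  refine specializationExists_of_red N p (JZero N) ?_
  intro ℓ hℓ hℓNp A hA
  obtain ⟨M, instM, red, Fr, σ₀, hσ₀, hE1, hE2, hE3, hE4⟩ := h ℓ hℓ hℓNp A hA
  refine ⟨M, instM, red, Fr, σ₀, hσ₀, hE1, hE2, ?_, hE4⟩
  intro x
  have e : heckeGen ⟨ℓ, hℓ⟩ • (σ₀ • x) = heckeOperatorBar N ⟨ℓ, hℓ⟩ (σ₀ • x) :=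
    heckeModuleBar_heckeGen_smul hcomm ⟨ℓ, hℓ⟩ (σ₀ • x)
  rw [e]
  exact hE3 x

end Final

end Fermat.Agent.JA
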