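/-
J-A, S37 end assembly (helper7), part 5: the Eichler–Shimura congruence on `Pic⁰` from its
place-level form  `r_*(T_ℓ P) = [Φ (r P)] + ℓ [Φ⁻¹ (r P)]`.
-/
import Mathlib
import Fermat.Agent.JA.S37Asm_helper7_Red
import Fermat.Agent.JA.H0_helper7_Main

set_option autoImplicit false
set_option linter.style.haveILetI false
set_option linter.unusedSectionVars false

open HahnSeries IntermediateField AlgebraicCurve

namespace Fermat.Agent.JA

open ModularCurve

set_option synthInstance.maxHeartbeats 400000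
set_option maxHeartbeats 1600000

section Abstract

variable {K F K' F' : Type*} [Field K] [Field F] [Algebra K F] [Field K'] [Field F']
  [Algebra K' F']

/-- divisor-level Eichler–Shimura from its values on single places. -/
theorem mapDomain_correspondence_eq (r : Place K F → Place K' F') (T : Divisor K F →+ Divisor K F)
    (Φ : SemilinearAut K' F') (ℓ : ℕ)
    (h : ∀ P : Place K F, Finsupp.mapDomain r (T (Finsupp.single P 1))
      = Finsupp.single (Φ • r P) 1 + Finsupp.single (Φ⁻¹ • r P) (ℓ : ℤ))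
    (D : Divisor K F) :
    Finsupp.mapDomain r (T D) = Φ • Finsupp.mapDomain r D + ℓ • (Φ⁻¹ • Finsupp.mapDomain r D) := by
  induction D using Finsupp.induction_linear with
  | zero => simp
  | add D E hD hE =>
    rw [map_add, Finsupp.mapDomain_add, hD, hE, Finsupp.mapDomain_add, smul_add, smul_add, smul_add]
    abel
  | single P n =>
    have e : (Finsupp.single P n : Divisor K F) = n • Finsupp.single P (1 : ℤ) := by
      rw [Finsupp.smul_single, smul_eq_mul, mul_one]
    have e1 : Finsupp.mapDomain r (T (Finsupp.single P n))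
        = n • Finsupp.mapDomain r (T (Finsupp.single P 1)) := by
      rw [e, map_zsmul, Finsupp.mapDomain_smul]
    rw [e1, h P, Finsupp.mapDomain_single, SemilinearAut.smul_single, SemilinearAut.smul_single,
      smul_add, Finsupp.smul_single, Finsupp.smul_single, Finsupp.smul_single]
    simp only [smul_eq_mul, mul_one, nsmul_eq_mul]
    rw [mul_comm]

end Abstract

section Concrete

variable {A : ValuationSubring (AlgebraicClosure ℚ)} {N : ℕ} [NeZero N]
variable {r : Place (AlgebraicClosure ℚ) (modularFunctionFieldBar N) →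
      Place (IsLocalRing.ResidueField A)
        (modularFunctionFieldFullC (IsLocalRing.ResidueField A) N)}
variable (hr : IsPlaceReductionModL A N r)
  (hgen : PrincipalGeneratedByIntegral A (IsLocalRing.residue A) N)

/-- **Eichler–Shimura on `Pic⁰` from its place-level form.** -/
theorem es_pic_of_es_place {ℓ : ℕ} (hℓ : ℓ.Prime) [NeZero ℓ]
    [HasPrincipalDivisors (AlgebraicClosure ℚ)
      (laurentBaseChange (AlgebraicClosure ℚ) (modularFunctionFieldFull (N * ℓ)))]
    (hα : HeckeAlphaBarIntegral (AlgebraicClosure ℚ) N ℓ)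
    (hβ : HeckeBetaBarIntegral (AlgebraicClosure ℚ) N ℓ)
    (Φ : SemilinearAut (IsLocalRing.ResidueField A)
      (modularFunctionFieldFullC (IsLocalRing.ResidueField A) N))
    (h : ∀ P : Place (AlgebraicClosure ℚ) (modularFunctionFieldBar N),
      Finsupp.mapDomain r (heckeDivBar hα hβ (Finsupp.single P 1))
        = Finsupp.single (Φ • r P) 1 + Finsupp.single (Φ⁻¹ • r P) (ℓ : ℤ))
    (x : JZero N) :
    reductionPic0Along r hr hgen (heckeOperatorBar N ⟨ℓ, hℓ⟩ x)
      = Φ • reductionPic0Along r hr hgen x + ℓ • (Φ⁻¹ • reductionPic0Along r hr hgen x) := by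
  have hFI : FundamentalIdentityAlong (AlgebraicClosure ℚ) (heckeBetaBar (AlgebraicClosure ℚ) N ℓ) hβ :=
    fundamentalIdentityAlong_of_coord (Fermat.Agent.X0N.jCoordBar N)
      (Fermat.Agent.X0N.jCoordBar (N * ℓ)) _ _
  have hfin : FiniteAlong (AlgebraicClosure ℚ) (heckeAlphaBar (AlgebraicClosure ℚ) N ℓ) :=
    finiteAlong_heckeAlphaBar N ℓ
  have hN : NormFormulaAlong (AlgebraicClosure ℚ) (heckeAlphaBar (AlgebraicClosure ℚ) N ℓ) hfin :=
    normFormulaAlong_of_coord (Fermat.Agent.X0N.jCoordBar N)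
      (Fermat.Agent.X0N.jCoordBar (N * ℓ)) _ _
  have e1 : heckeOperatorBar N ⟨ℓ, hℓ⟩ x = heckePic0Bar hα hβ hFI hfin hN x :=
    (heckeOperatorBar_apply N ⟨ℓ, hℓ⟩ x).trans
      (congrFun (congrArg DFunLike.coe (heckeOperatorAlong_eq hα hβ hFI hfin hN)) x)
  rw [e1]
  obtain ⟨D, rfl⟩ := Pic0.mk_surjective x
  have e2 : heckePic0Bar hα hβ hFI hfin hN (Pic0.mk D)
      = Pic0.mk (Pic0.degZeroCorrespondence (heckeBetaBar (AlgebraicClosure ℚ) N ℓ)
          (heckeAlphaBar (AlgebraicClosure ℚ) N ℓ) hβ hα hFI D) := rfl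
  rw [e2, reductionPic0Along_mk, reductionPic0Along_mk,
    SemilinearAut.pic0_smul_mk, SemilinearAut.pic0_smul_mk]
  have e3 : ∀ X Y : Divisor.degZero (K := IsLocalRing.ResidueField A)
      (F := modularFunctionFieldFullC (IsLocalRing.ResidueField A) N),
      Pic0.mk X + ℓ • Pic0.mk Y = Pic0.mk (X + ℓ • Y) := fun X Y => rfl
  rw [e3]
  refine congrArg Pic0.mk (Subtype.ext ?_)
  exact mapDomain_correspondence_eq r (heckeDivBar hα hβ) Φ ℓ h
    (D : Divisor (AlgebraicClosure ℚ) (modularFunctionFieldBar N))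

end Concrete

end Fermat.Agent.JA
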