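/-
J-A package ES / C3 (helper4), part 6: Eichler–Shimura at place level for `X₀(N)` over `ℚ̄`
(the abstract assembly `es_place_abstract₂` specialised to `β, α : F_N → F_{Nℓ}`, the residue map of
a valuation subring `A` of `ℚ̄` and the coefficientwise Frobenius of `F̃`).
-/
import Mathlib
import Fermat.Agent.JA.ES_helper4_Main2
import Fermat.Agent.JA.S37Asm_helper7_ESPlace
import Fermat.Agent.JA.BASE_helper1_Res

set_option autoImplicit false
set_option linter.unusedSectionVars false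
set_option linter.style.haveILetI false

open HahnSeries IntermediateField AlgebraicCurve

namespace Fermat.Agent.JA

open ModularCurve Fermat.Agent.X0N

set_option synthInstance.maxHeartbeats 400000
set_option maxHeartbeats 1600000

section Frob

variable (A : ValuationSubring (AlgebraicClosure ℚ)) (N : ℕ) [NeZero N]

/-- the coefficientwise semilinear automorphism of `F̃` attached to a Frobenius element acts on
the constants by `a ↦ a ^ ℓ`. -/
theorem baseAut_coeffAutC_resAut_of_isFrobeniusAt {ℓ : ℕ}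
    (σ₀ : A.decompositionSubgroup ℚ) (hσ₀ : A.IsFrobeniusAt σ₀.1 ℓ)
    (a : IsLocalRing.ResidueField A) :
    SemilinearAut.baseAut (coeffAutC (IsLocalRing.ResidueField A) N (resAut A σ₀)) a = a ^ ℓ := by
  rw [baseAut_coeffAutC, resAut_apply]
  exact hσ₀.smul_residue_eq a

end Frob

section Main

variable {A : ValuationSubring (AlgebraicClosure ℚ)} {N : ℕ} [NeZero N] {ℓ : ℕ} [NeZero ℓ]

/-- **Eichler–Shimura at place level for `X₀(N)`**, from the chart inputs (EVAL), (G2), (SEP),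
(KRON-N) and (SPEC-N). -/
theorem es_place_modular
    [HasPrincipalDivisors (AlgebraicClosure ℚ)
      (laurentBaseChange (AlgebraicClosure ℚ) (modularFunctionFieldFull (N * ℓ)))]
    (hα : HeckeAlphaBarIntegral (AlgebraicClosure ℚ) N ℓ)
    (hβ : HeckeBetaBarIntegral (AlgebraicClosure ℚ) N ℓ)
    (r : Place (AlgebraicClosure ℚ) (modularFunctionFieldBar N) →
      Place (IsLocalRing.ResidueField A)
        (modularFunctionFieldFullC (IsLocalRing.ResidueField A) N))
    (σ₀ : A.decompositionSubgroup ℚ) (hσ₀ : A.IsFrobeniusAt σ₀.1 ℓ)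
    {𝔅₁ 𝔅₂ : Type*} (ι : 𝔅₁ → modularFunctionFieldBar N)
    (ρ : 𝔅₁ → modularFunctionFieldFullC (IsLocalRing.ResidueField A) N)
    (ι₂ : 𝔅₂ → modularFunctionFieldBar N)
    (ρ₂ : 𝔅₂ → modularFunctionFieldFullC (IsLocalRing.ResidueField A) N)
    (good₁ good : Place (AlgebraicClosure ℚ) (modularFunctionFieldBar N) → Prop)
    (goodk : Place (IsLocalRing.ResidueField A)
      (modularFunctionFieldFullC (IsLocalRing.ResidueField A) N) → Prop)
    (hdegk : ∀ Q, goodk Q → Q.deg = 1)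
    (heval : ∀ P, good₁ P → ∀ y : 𝔅₁, ∃ a : A,
      HasValueAt P (ι y) (a : AlgebraicClosure ℚ) ∧
        HasValueAt (r P) (ρ y) (IsLocalRing.residue A a))
    (heval₂ : ∀ P, good P → ∀ n : 𝔅₂, ∃ a : A,
      HasValueAt P (ι₂ n) (a : AlgebraicClosure ℚ) ∧
        HasValueAt (r P) (ρ₂ n) (IsLocalRing.residue A a))
    (hgood_r : ∀ P, good P → goodk (r P)) (hgood_r₁ : ∀ P, good₁ P → goodk (r P))
    (hgoodΦ : ∀ Q, goodk Q →
      goodk (coeffAutC (IsLocalRing.ResidueField A) N (resAut A σ₀) • Q) ∧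
      goodk ((coeffAutC (IsLocalRing.ResidueField A) N (resAut A σ₀))⁻¹ • Q))
    (hreg : ∀ (y : 𝔅₁) Q, goodk Q → ρ y ∈ Q.toValuationSubring)
    (hG2 : ∀ P, good P →
      ∀ W ∈ Place.fiberAlong (heckeBetaBar (AlgebraicClosure ℚ) N ℓ) hβ P,
        good₁ (W.restrictAlong (heckeAlphaBar (AlgebraicClosure ℚ) N ℓ) hα))
    (hsep : ∀ T : Finset (Place (IsLocalRing.ResidueField A)
        (modularFunctionFieldFullC (IsLocalRing.ResidueField A) N)),
      (∀ Q ∈ T, goodk Q) → ∀ Q₀ ∈ T,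
      ∃ y : 𝔅₁, HasValueAt Q₀ (ρ y) 0 ∧ ∀ Q ∈ T, Q ≠ Q₀ → ¬ HasValueAt Q (ρ y) 0)
    (hkron : ∀ (y : 𝔅₁) (c : A), ∃ n : 𝔅₂,
      ι₂ n = normAlong (heckeBetaBar (AlgebraicClosure ℚ) N ℓ)
        (algebraMap (AlgebraicClosure ℚ) (modularFunctionFieldBar (N * ℓ)) (c : AlgebraicClosure ℚ)
          - heckeAlphaBar (AlgebraicClosure ℚ) N ℓ (ι y)) ∧
      ρ₂ n = (algebraMap (IsLocalRing.ResidueField A) _ (IsLocalRing.residue A c ^ ℓ)
          - coeffAutC (IsLocalRing.ResidueField A) N (resAut A σ₀) • ρ y)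
        * (algebraMap (IsLocalRing.ResidueField A) _ (IsLocalRing.residue A c)
          - ((coeffAutC (IsLocalRing.ResidueField A) N (resAut A σ₀))⁻¹ • ρ y) ^ ℓ))
    (hspec : ∀ (P : Place (AlgebraicClosure ℚ) (modularFunctionFieldBar N))
      (z : modularFunctionFieldBar (N * ℓ))
      (a : Place (AlgebraicClosure ℚ) (modularFunctionFieldBar (N * ℓ)) → AlgebraicClosure ℚ),
      (∀ W ∈ Place.fiberAlong (heckeBetaBar (AlgebraicClosure ℚ) N ℓ) hβ P, HasValueAt W z (a W)) →
      HasValueAt P (normAlong (heckeBetaBar (AlgebraicClosure ℚ) N ℓ) z)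
        (∏ W ∈ Place.fiberAlong (heckeBetaBar (AlgebraicClosure ℚ) N ℓ) hβ P,
          a W ^ W.ramificationIndexAlong (heckeBetaBar (AlgebraicClosure ℚ) N ℓ)))
    (P : Place (AlgebraicClosure ℚ) (modularFunctionFieldBar N)) (hP : good P) :
    Finsupp.mapDomain r (heckeDivBar hα hβ (Finsupp.single P 1))
      = Finsupp.single (coeffAutC (IsLocalRing.ResidueField A) N (resAut A σ₀) • r P) 1
        + Finsupp.single ((coeffAutC (IsLocalRing.ResidueField A) N (resAut A σ₀))⁻¹ • r P)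
            (ℓ : ℤ) := by
  haveI : IsAlgClosed (IsLocalRing.ResidueField A) := isAlgClosed_residueField A
  haveI : Infinite (IsLocalRing.ResidueField A) := IsAlgClosed.instInfinite
  exact es_place_abstract₂ (heckeBetaBar (AlgebraicClosure ℚ) N ℓ)
    (heckeAlphaBar (AlgebraicClosure ℚ) N ℓ) hβ hα
    (fun W => (jCoordBar (N * ℓ)).deg_eq_one W) A (IsLocalRing.residue A)
    IsLocalRing.residue_surjective r
    (coeffAutC (IsLocalRing.ResidueField A) N (resAut A σ₀)) ℓ
    (baseAut_coeffAutC_resAut_of_isFrobeniusAt A N σ₀ hσ₀)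
    ι ρ ι₂ ρ₂ good₁ good goodk hdegk heval heval₂ hgood_r hgood_r₁ hgoodΦ hreg hG2 hsep hkron
    hspec P hP

end Main

end Fermat.Agent.JA
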