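/-
J-A package ES / C3 (helper4), part 8: **(KRON-N) on the chart rings of `X₀(N)`**.

From the norm formula of (ES1) [`N_{F'/βF}(c - α Y)(q^ℓ) = ∏_{b<ℓ}(c - Y(ζ^b q))·(c - Y(q^{ℓ²}))`]
and the integrality of `α z` over `β(A[z])` (modular equation): for `y` in the chart ring of `z`
and `c ∈ A` the norm `N(c - α y)` is again in the chart ring and its reduction is
`(c̃^ℓ - Φ•ỹ)(c̃ - (Φ⁻¹•ỹ)^ℓ)` — literally the input `hkron` of `es_place_modular`.
-/
import Mathlib
import Fermat.Agent.JA.ES_helper4_Modular
import Fermat.Agent.JA.ES_helper4_Kron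
import Fermat.Agent.JA.ES_helper4_Integral
import Fermat.Agent.JA.RED_helper7_Defs
import Fermat.Agent.JA.BASE_helper1_Cyclo

set_option autoImplicit false
set_option linter.unusedSectionVars false
set_option linter.style.haveILetI false

open HahnSeries IntermediateField AlgebraicCurve

namespace Fermat.Agent.JA

open ModularCurve Fermat.Agent.X0N Fermat.Agent.Igusa

set_option synthInstance.maxHeartbeats 400000
set_option maxHeartbeats 1600000

section IntegralClosure

variable {L : Type*} [Field L] [Algebra ℚ L] (A : ValuationSubring L) (N : ℕ)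
  {F' : Type*} [Field F'] [Algebra L F']

/-- integrality of `ψ` over `φ` on `A[z]` from the generator `z`. -/
theorem isIntegralElem_of_coeffSubring
    (z : ↥(laurentBaseChange L (modularFunctionFieldFull N)))
    (φ ψ : ↥(laurentBaseChange L (modularFunctionFieldFull N)) →ₐ[L] F')
    (hz : (φ.toRingHom.comp (algebraMap ↥(coeffSubring A N z) _)).IsIntegralElem (ψ z))
    (x : ↥(coeffSubring A N z)) :
    (φ.toRingHom.comp (algebraMap ↥(coeffSubring A N z) _)).IsIntegralElem
      (ψ (algebraMap ↥(coeffSubring A N z) _ x)) := by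
  letI : Algebra ↥(coeffSubring A N z) F' :=
    (φ.toRingHom.comp (algebraMap ↥(coeffSubring A N z) _)).toAlgebra
  obtain ⟨x, hx⟩ := x
  show IsIntegral ↥(coeffSubring A N z) (ψ x)
  induction hx using Subring.closure_induction with
  | mem x hx =>
    rcases hx with ⟨a, rfl⟩ | hx
    · have e : ψ (algebraMap L _ (a : L))
          = algebraMap ↥(coeffSubring A N z) F' ⟨_, algebraMap_mem_coeffSubring z a⟩ := by
        show _ = φ (algebraMap L _ (a : L))
        rw [AlgHom.commutes, AlgHom.commutes]
      rw [e]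
      exact isIntegral_algebraMap
    · rw [Set.mem_singleton_iff] at hx
      rw [hx]
      exact hz
  | zero => rw [map_zero]; exact isIntegral_zero
  | one => rw [map_one]; exact isIntegral_one
  | add x y _ _ hx hy => rw [map_add]; exact hx.add hy
  | neg x _ hx => rw [map_neg]; exact hx.neg
  | mul x y _ _ hx hy => rw [map_mul]; exact hx.mul hy

end IntegralClosure

section Chart

variable {ℓ : ℕ} [hℓ : Fact ℓ.Prime] {A : ValuationSubring (AlgebraicClosure ℚ)}
  {N : ℕ} [NeZero N]

/-- **(KRON-N) on a chart ring.** -/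
theorem chart_kron (hA : A.LiesOverPrime ℓ) (h : GaussRes A N (IsLocalRing.residue A))
    (z : ↥(modularFunctionFieldBar N))
    (σ₀ : A.decompositionSubgroup ℚ) (hσ₀ : A.IsFrobeniusAt σ₀.1 ℓ)
    (ζ : (↥A)ˣ) (hζ : ζ ^ ℓ = 1)
    (hnormf : ∀ (Y : ↥(modularFunctionFieldBar N)) (c : AlgebraicClosure ℚ),
      haveI : NeZero ℓ := ⟨hℓ.out.ne_zero⟩
      qExpand (AlgebraicClosure ℚ) ℓ
          ((normAlong (heckeBetaBar (AlgebraicClosure ℚ) N ℓ)
            (algebraMap (AlgebraicClosure ℚ) ↥(modularFunctionFieldBar (N * ℓ)) c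
              - heckeAlphaBar (AlgebraicClosure ℚ) N ℓ Y) : ↥(modularFunctionFieldBar N)) :
            LaurentSeries (AlgebraicClosure ℚ))
        = (∏ b ∈ Finset.range ℓ,
            twist (Units.map (A.subtype : ↥A →* AlgebraicClosure ℚ) ζ ^ b)
              (HahnSeries.C c - (Y : LaurentSeries (AlgebraicClosure ℚ))))
          * (HahnSeries.C c
              - qExpand (AlgebraicClosure ℚ) (ℓ ^ 2) (Y : LaurentSeries (AlgebraicClosure ℚ))))
    (hint : haveI : NeZero ℓ := ⟨hℓ.out.ne_zero⟩
      ((heckeBetaBar (AlgebraicClosure ℚ) N ℓ).toRingHom.comp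
        (algebraMap ↥(coeffSubring A N z) _)).IsIntegralElem
          (heckeAlphaBar (AlgebraicClosure ℚ) N ℓ z))
    (y : ↥(chartRing A N z)) (c : ↥A) :
    haveI : NeZero ℓ := ⟨hℓ.out.ne_zero⟩
    ∃ n : ↥(chartRing A N z),
      chartι A N z n = normAlong (heckeBetaBar (AlgebraicClosure ℚ) N ℓ)
        (algebraMap (AlgebraicClosure ℚ) ↥(modularFunctionFieldBar (N * ℓ))
            ((c : ↥A) : AlgebraicClosure ℚ)
          - heckeAlphaBar (AlgebraicClosure ℚ) N ℓ (chartι A N z y)) ∧
      chartρF h z n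
        = (algebraMap (IsLocalRing.ResidueField A) _ (IsLocalRing.residue A c ^ ℓ)
            - coeffAutC (IsLocalRing.ResidueField A) N (resAut A σ₀) • chartρF h z y)
          * (algebraMap (IsLocalRing.ResidueField A) _ (IsLocalRing.residue A c)
            - ((coeffAutC (IsLocalRing.ResidueField A) N (resAut A σ₀))⁻¹ • chartρF h z y) ^ ℓ) := by
  haveI : NeZero ℓ := ⟨hℓ.out.ne_zero⟩
  haveI : CharP (IsLocalRing.ResidueField A) ℓ := charP_residueField hA
  haveI : ExpChar (IsLocalRing.ResidueField A) ℓ := ExpChar.prime hℓ.out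
  -- the norm as a Laurent series
  set ν : ↥(modularFunctionFieldBar N) :=
    normAlong (heckeBetaBar (AlgebraicClosure ℚ) N ℓ)
      (algebraMap (AlgebraicClosure ℚ) ↥(modularFunctionFieldBar (N * ℓ))
          ((c : ↥A) : AlgebraicClosure ℚ)
        - heckeAlphaBar (AlgebraicClosure ℚ) N ℓ (chartι A N z y)) with hν
  have hsub : Function.Injective (A.subtype : ↥A →+* AlgebraicClosure ℚ) := Subtype.val_injective
  obtain ⟨n, hn1, hn2⟩ := exists_kron_of_norm_formula (A.subtype : ↥A →+* AlgebraicClosure ℚ)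
    (IsLocalRing.residue A) ℓ hsub ζ hζ (y : LaurentSeries ↥A) c
    (ν : LaurentSeries (AlgebraicClosure ℚ)) (hnormf (chartι A N z y) (c : AlgebraicClosure ℚ))
  -- `n` is Gauss-integral
  have hng : n ∈ gaussRing A N := by
    rw [mem_gaussRing_iff, hn1]
    exact ν.2
  have hnι : gaussι A N ⟨n, hng⟩ = ν := Subtype.ext hn1
  -- `n` lies in the chart ring
  have hnint : IsIntegral ↥(coeffSubring A N z) (gaussι A N ⟨n, hng⟩) := by
    rw [hnι, hν]
    have e : algebraMap (AlgebraicClosure ℚ) ↥(modularFunctionFieldBar (N * ℓ))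
          ((c : ↥A) : AlgebraicClosure ℚ)
        = heckeBetaBar (AlgebraicClosure ℚ) N ℓ
          (algebraMap ↥(coeffSubring A N z) ↥(modularFunctionFieldBar N)
            ⟨_, algebraMap_mem_coeffSubring z c⟩) := by
      show _ = heckeBetaBar (AlgebraicClosure ℚ) N ℓ
        (algebraMap (AlgebraicClosure ℚ) _ ((c : ↥A) : AlgebraicClosure ℚ))
      rw [AlgHom.commutes]
    rw [e]
    exact isIntegral_normAlong_sub (heckeBetaBar (AlgebraicClosure ℚ) N ℓ)
      (heckeAlphaBar (AlgebraicClosure ℚ) N ℓ)
      (isIntegralElem_of_coeffSubring A N z _ _ hint) _ _ (isIntegral_chartι z y)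
  refine ⟨⟨n, hng, hnint⟩, hnι, ?_⟩
  -- the reduction
  apply Subtype.ext
  have hfrob : ((resAut A σ₀ : IsLocalRing.ResidueField A ≃+* IsLocalRing.ResidueField A) :
      IsLocalRing.ResidueField A →+* IsLocalRing.ResidueField A)
      = frobenius (IsLocalRing.ResidueField A) ℓ := by
    ext x
    show resAut A σ₀ x = x ^ ℓ
    rw [resAut_apply]
    exact hσ₀.smul_residue_eq x
  have h1 : ((coeffAutC (IsLocalRing.ResidueField A) N (resAut A σ₀) • chartρF h z y :
      ↥(modularFunctionFieldFullC (IsLocalRing.ResidueField A) N)) :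
        LaurentSeries (IsLocalRing.ResidueField A))
      = coeffMap (frobenius (IsLocalRing.ResidueField A) ℓ)
          (coeffMap (IsLocalRing.residue A) (y : LaurentSeries ↥A)) := by
    rw [coe_coeffAutC_smul, hfrob, coe_chartρF]
  have h2 : ((((coeffAutC (IsLocalRing.ResidueField A) N (resAut A σ₀))⁻¹ • chartρF h z y) ^ ℓ :
      ↥(modularFunctionFieldFullC (IsLocalRing.ResidueField A) N)) :
        LaurentSeries (IsLocalRing.ResidueField A))
      = qExpand (IsLocalRing.ResidueField A) ℓ
          (coeffMap (IsLocalRing.residue A) (y : LaurentSeries ↥A)) := by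
    rw [SubmonoidClass.coe_pow, laurent_pow_char ℓ, ← map_inv, coe_coeffAutC_smul,
      coeffMap_coeffMap, coe_chartρF]
    congr 1
    have e : (frobenius (IsLocalRing.ResidueField A) ℓ).comp
        (((resAut A σ₀)⁻¹ : RingAut (IsLocalRing.ResidueField A)) :
          IsLocalRing.ResidueField A →+* IsLocalRing.ResidueField A)
        = RingHom.id _ := by
      rw [← hfrob]
      ext x
      show resAut A σ₀ ((resAut A σ₀)⁻¹ x) = x
      exact (resAut A σ₀).apply_symm_apply x
    rw [coeffMap_congr e, coeffMap_id]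
  have e3 : ∀ a : IsLocalRing.ResidueField A,
      ((algebraMap (IsLocalRing.ResidueField A)
        ↥(modularFunctionFieldFullC (IsLocalRing.ResidueField A) N) a :
          ↥(modularFunctionFieldFullC (IsLocalRing.ResidueField A) N)) :
        LaurentSeries (IsLocalRing.ResidueField A)) = HahnSeries.C a := by
    intro a
    rw [HahnSeries.C_apply, ← algebraMap_laurentSeries_eq_single]
    rfl
  show coeffMap (IsLocalRing.residue A) n = _
  rw [hn2, MulMemClass.coe_mul, AddSubgroupClass.coe_sub, AddSubgroupClass.coe_sub, h1, h2, e3,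
    e3]

end Chart

end Fermat.Agent.JA
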