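/-
J-A package ES / C3 (helper4), part 12: **(KRON-N) on the Gauss ring** (the chart-free part of
`chart_kron`): for a Gauss-integral `y` and `c ∈ A` the norm `N_{F'/βF}(c - α y)` is Gauss-integral
and its reduction is `(c̃^ℓ - Φ•ỹ)(c̃ - (Φ⁻¹•ỹ)^ℓ)`.
-/
import Mathlib
import Fermat.Agent.JA.ES_helper4_KronChart

set_option autoImplicit false
set_option linter.unusedSectionVars false
set_option linter.style.haveILetI false

open HahnSeries IntermediateField AlgebraicCurve

namespace Fermat.Agent.JA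

open ModularCurve Fermat.Agent.X0N Fermat.Agent.Igusa

set_option synthInstance.maxHeartbeats 400000
set_option maxHeartbeats 1600000

section Gauss

variable {ℓ : ℕ} [hℓ : Fact ℓ.Prime] {A : ValuationSubring (AlgebraicClosure ℚ)}
  {N : ℕ} [NeZero N]

/-- **(KRON-N) on the Gauss ring.** -/
theorem gauss_kron (hA : A.LiesOverPrime ℓ) (h : GaussRes A N (IsLocalRing.residue A))
    (σ₀ : A.decompositionSubgroup ℚ) (hσ₀ : A.IsFrobeniusAt σ₀.1 ℓ)
    (ζ : (↥A)ˣ) (hζ : ζ ^ ℓ = 1)
    (hnormf : ∀ (Y : ↥(modularFunctionFieldBar N)) (c : AlgebraicClosure ℚ),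
      haveI : NeZero ℓ := ⟨hℓ.out.ne_zero⟩
      qExpand (AlgebraicClosure ℚ) ℓ
          ((normAlong (heckeBetaBar (AlgebraicClosure ℚ) N ℓ)
            (algebraMap (AlgebraicClosure ℚ) ↥(modularFunctionFieldBar (N * ℓ)) c
              - heckeAlphaBar (AlgebraicClosure ℚ) N ℓ Y) : ↥(modularFunctionFieldBar N)) :
            LaurentSeries (AlgebraicClosure ℚ))
        = (∏ b ∈ Finset.range ℓ,
            twist (Units.map (A.subtype : ↥A →* AlgebraicClosure ℚ) ζ ^ b)
              (HahnSeries.C c - (Y : LaurentSeries (AlgebraicClosure ℚ))))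
          * (HahnSeries.C c
              - qExpand (AlgebraicClosure ℚ) (ℓ ^ 2) (Y : LaurentSeries (AlgebraicClosure ℚ))))
    (y : ↥(gaussRing A N)) (c : ↥A) :
    haveI : NeZero ℓ := ⟨hℓ.out.ne_zero⟩
    ∃ n : ↥(gaussRing A N),
      gaussι A N n = normAlong (heckeBetaBar (AlgebraicClosure ℚ) N ℓ)
        (algebraMap (AlgebraicClosure ℚ) ↥(modularFunctionFieldBar (N * ℓ))
            ((c : ↥A) : AlgebraicClosure ℚ)
          - heckeAlphaBar (AlgebraicClosure ℚ) N ℓ (gaussι A N y)) ∧
      gaussρF h n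
        = (algebraMap (IsLocalRing.ResidueField A) _ (IsLocalRing.residue A c ^ ℓ)
            - coeffAutC (IsLocalRing.ResidueField A) N (resAut A σ₀) • gaussρF h y)
          * (algebraMap (IsLocalRing.ResidueField A) _ (IsLocalRing.residue A c)
            - ((coeffAutC (IsLocalRing.ResidueField A) N (resAut A σ₀))⁻¹ • gaussρF h y) ^ ℓ) := by
  haveI : NeZero ℓ := ⟨hℓ.out.ne_zero⟩
  haveI : CharP (IsLocalRing.ResidueField A) ℓ := charP_residueField hA
  haveI : ExpChar (IsLocalRing.ResidueField A) ℓ := ExpChar.prime hℓ.out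
  set ν : ↥(modularFunctionFieldBar N) :=
    normAlong (heckeBetaBar (AlgebraicClosure ℚ) N ℓ)
      (algebraMap (AlgebraicClosure ℚ) ↥(modularFunctionFieldBar (N * ℓ))
          ((c : ↥A) : AlgebraicClosure ℚ)
        - heckeAlphaBar (AlgebraicClosure ℚ) N ℓ (gaussι A N y)) with hν
  have hsub : Function.Injective (A.subtype : ↥A →+* AlgebraicClosure ℚ) := Subtype.val_injective
  obtain ⟨n, hn1, hn2⟩ := exists_kron_of_norm_formula (A.subtype : ↥A →+* AlgebraicClosure ℚ)
    (IsLocalRing.residue A) ℓ hsub ζ hζ (y : LaurentSeries ↥A) c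
    (ν : LaurentSeries (AlgebraicClosure ℚ)) (hnormf (gaussι A N y) (c : AlgebraicClosure ℚ))
  have hng : n ∈ gaussRing A N := by
    rw [mem_gaussRing_iff, hn1]
    exact ν.2
  have hnι : gaussι A N ⟨n, hng⟩ = ν := Subtype.ext hn1
  refine ⟨⟨n, hng⟩, hnι, ?_⟩
  apply Subtype.ext
  have hfrob : ((resAut A σ₀ : IsLocalRing.ResidueField A ≃+* IsLocalRing.ResidueField A) :
      IsLocalRing.ResidueField A →+* IsLocalRing.ResidueField A)
      = frobenius (IsLocalRing.ResidueField A) ℓ := by
    ext x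
    show resAut A σ₀ x = x ^ ℓ
    rw [resAut_apply]
    exact hσ₀.smul_residue_eq x
  have h1 : ((coeffAutC (IsLocalRing.ResidueField A) N (resAut A σ₀) • gaussρF h y :
      ↥(modularFunctionFieldFullC (IsLocalRing.ResidueField A) N)) :
        LaurentSeries (IsLocalRing.ResidueField A))
      = coeffMap (frobenius (IsLocalRing.ResidueField A) ℓ)
          (coeffMap (IsLocalRing.residue A) (y : LaurentSeries ↥A)) := by
    rw [coe_coeffAutC_smul, hfrob, coe_gaussρF]
  have h2 : ((((coeffAutC (IsLocalRing.ResidueField A) N (resAut A σ₀))⁻¹ • gaussρF h y) ^ ℓ :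
      ↥(modularFunctionFieldFullC (IsLocalRing.ResidueField A) N)) :
        LaurentSeries (IsLocalRing.ResidueField A))
      = qExpand (IsLocalRing.ResidueField A) ℓ
          (coeffMap (IsLocalRing.residue A) (y : LaurentSeries ↥A)) := by
    rw [SubmonoidClass.coe_pow, laurent_pow_char ℓ, ← map_inv, coe_coeffAutC_smul,
      coeffMap_coeffMap, coe_gaussρF]
    congr 1
    have e : (frobenius (IsLocalRing.ResidueField A) ℓ).comp
        (((resAut A σ₀)⁻¹ : RingAut (IsLocalRing.ResidueField A)) :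
          IsLocalRing.ResidueField A →+* IsLocalRing.ResidueField A)
        = RingHom.id _ := by
      rw [← hfrob]
      ext x
      show resAut A σ₀ ((resAut A σ₀)⁻¹ x) = x
      exact (resAut A σ₀).apply_symm_apply x
    rw [coeffMap_congr e, coeffMap_id]
  have e3 : ∀ a : IsLocalRing.ResidueField A,
      ((algebraMap (IsLocalRing.ResidueField A)
        ↥(modularFunctionFieldFullC (IsLocalRing.ResidueField A) N) a :
          ↥(modularFunctionFieldFullC (IsLocalRing.ResidueField A) N)) :
        LaurentSeries (IsLocalRing.ResidueField A)) = HahnSeries.C a := by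
    intro a
    rw [HahnSeries.C_apply, ← algebraMap_laurentSeries_eq_single]
    rfl
  show coeffMap (IsLocalRing.residue A) n = _
  rw [hn2, MulMemClass.coe_mul, AddSubgroupClass.coe_sub, AddSubgroupClass.coe_sub, h1, h2, e3,
    e3]

end Gauss

end Fermat.Agent.JA
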