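/-
J-A package ES / C3 (helper4), part 13: **the localised chart ring** (for the cusp chart).

`chartLoc A N z s` = Gauss-integral series `n` such that `s ^ m * n` lies in the chart ring of `z`
for some `m`.  (EVAL) extends from the chart ring to `chartLoc` at the places where `s` takes a unit
value, and (KRON-N) holds with values in `chartLoc` when `α z` is integral over
`ℤ[β z, (β s)⁻¹]`.
-/
import Mathlib
import Fermat.Agent.JA.ES_helper4_KronGauss
import Fermat.Agent.JA.ES_helper4_LocInt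

set_option autoImplicit false
set_option linter.unusedSectionVars false
set_option linter.style.haveILetI false

open HahnSeries IntermediateField AlgebraicCurve

namespace Fermat.Agent.JA

open ModularCurve Fermat.Agent.X0N Fermat.Agent.Igusa

set_option synthInstance.maxHeartbeats 400000
set_option maxHeartbeats 1600000

section General

/-- integrality over `ℤ[s]` implies integrality over any subring containing `s`. -/
theorem isIntegral_of_adjoin_int_of_subset {S : Type*} [CommRing S] {s : Set S} {T : Subring S}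
    (hs : s ⊆ T) {x : S} (hx : IsIntegral (Algebra.adjoin ℤ s) x) : IsIntegral T x := by
  have hle : ∀ y ∈ Algebra.adjoin ℤ s, y ∈ T := by
    intro y hy
    induction hy using Algebra.adjoin_induction with
    | mem y hy => exact hs hy
    | algebraMap r =>
      rw [eq_intCast]
      exact intCast_mem T r
    | add x y _ _ hx hy => exact T.add_mem hx hy
    | mul x y _ _ hx hy => exact T.mul_mem hx hy
  let g : ↥(Algebra.adjoin ℤ s) →+* ↥T :=
    (Algebra.adjoin ℤ s).val.toRingHom.codRestrict T (fun x => hle x x.2)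
  exact IsIntegral.map_of_comp_eq g (RingHom.id S) (RingHom.ext fun _ => rfl) hx

variable {K F : Type*} [Field K] [Field F] [Algebra K F]

/-- value of `n` from the values of `s` (nonzero) and `s ^ m * n`. -/
theorem hasValueAt_of_pow_mul {P : Place K F} {s n : F} {as a' : K} (m : ℕ)
    (hs : HasValueAt P s as) (has : as ≠ 0) (hn' : HasValueAt P (s ^ m * n) a') :
    HasValueAt P n (a' * (as ^ m)⁻¹) := by
  have hs0 : s ≠ 0 := (hs.ord_eq_zero has).1
  have e : n = (s ^ m * n) * (s ^ m)⁻¹ := by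
    field_simp
  rw [e]
  exact hn'.mul ((hs.pow m).inv (pow_ne_zero m has))

end General

section ChartLoc

variable {L : Type*} [Field L] [Algebra ℚ L] (A : ValuationSubring L) (N : ℕ)

/-- the chart ring of `z` localised at `s`, inside the Gauss ring. -/
def chartLoc (z : ↥(laurentBaseChange L (modularFunctionFieldFull N)))
    (s : ↥(chartRing A N z)) : Type _ :=
  {n : ↥(gaussRing A N) // ∃ m : ℕ,
    (s : LaurentSeries ↥A) ^ m * (n : LaurentSeries ↥A) ∈ chartRing A N z}

variable {A N}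
variable {k : Type*} [Field k] {π : ↥A →+* k}

theorem chartι_pow_mul (z : ↥(laurentBaseChange L (modularFunctionFieldFull N)))
    (s : ↥(chartRing A N z)) (n : ↥(gaussRing A N)) (m : ℕ)
    (hm : (s : LaurentSeries ↥A) ^ m * (n : LaurentSeries ↥A) ∈ chartRing A N z) :
    chartι A N z ⟨_, hm⟩ = chartι A N z s ^ m * gaussι A N n := by
  apply Subtype.ext
  show coeffMap A.subtype ((s : LaurentSeries ↥A) ^ m * (n : LaurentSeries ↥A)) = _
  rw [map_mul, map_pow]
  rfl

theorem chartρF_pow_mul (h : GaussRes A N π)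
    (z : ↥(laurentBaseChange L (modularFunctionFieldFull N)))
    (s : ↥(chartRing A N z)) (n : ↥(gaussRing A N)) (m : ℕ)
    (hm : (s : LaurentSeries ↥A) ^ m * (n : LaurentSeries ↥A) ∈ chartRing A N z) :
    chartρF h z ⟨_, hm⟩ = chartρF h z s ^ m * gaussρF h n := by
  apply Subtype.ext
  show coeffMap π ((s : LaurentSeries ↥A) ^ m * (n : LaurentSeries ↥A)) = _
  rw [map_mul, map_pow]
  rfl

/-- **(EVAL) on the localised chart ring.** -/
theorem chartLoc_eval (h : GaussRes A N π)
    (z : ↥(laurentBaseChange L (modularFunctionFieldFull N)))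
    (r : Place L ↥(laurentBaseChange L (modularFunctionFieldFull N)) →
      Place k ↥(modularFunctionFieldFullC k N))
    (hev : ChartEval h z r) (s : ↥(chartRing A N z))
    (P : Place L ↥(laurentBaseChange L (modularFunctionFieldFull N))) (hP : GoodAt A N z P)
    (hsP : ∃ a : ↥A, IsUnit a ∧ HasValueAt P (chartι A N z s) (a : L))
    (n : chartLoc A N z s) :
    ∃ a : ↥A, HasValueAt P (gaussι A N n.1) (a : L) ∧
      HasValueAt (r P) (gaussρF h n.1) (π a) := by
  obtain ⟨m, hm⟩ := n.2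
  obtain ⟨as, has1, has2⟩ := hev P hP s
  obtain ⟨au, hu, hau⟩ := hsP
  have e : as = au := Subtype.ext (has1.unique hau)
  subst e
  obtain ⟨u, rfl⟩ := hu
  obtain ⟨a', ha'1, ha'2⟩ := hev P hP ⟨_, hm⟩
  rw [chartι_pow_mul] at ha'1
  rw [chartρF_pow_mul] at ha'2
  have hu0 : ((u : ↥A) : L) ≠ 0 := by
    intro h0
    have : (u : ↥A) = 0 := Subtype.ext h0
    exact u.ne_zero this
  have hπu0 : π (u : ↥A) ≠ 0 := (u.isUnit.map π).ne_zero
  have hinvL : (((u⁻¹ : (↥A)ˣ) : ↥A) : L) = ((u : ↥A) : L)⁻¹ := by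
    have h1 : ((u : ↥A) : L) * (((u⁻¹ : (↥A)ˣ) : ↥A) : L) = 1 := by
      rw [← MulMemClass.coe_mul, Units.mul_inv]; rfl
    exact eq_inv_of_mul_eq_one_right h1
  have hinvk : π ((u⁻¹ : (↥A)ˣ) : ↥A) = (π (u : ↥A))⁻¹ := by
    have h1 : π (u : ↥A) * π ((u⁻¹ : (↥A)ˣ) : ↥A) = 1 := by
      rw [← map_mul, Units.mul_inv, map_one]
    exact eq_inv_of_mul_eq_one_right h1
  refine ⟨a' * ((u⁻¹ : (↥A)ˣ) : ↥A) ^ m, ?_, ?_⟩
  · have h1 := hasValueAt_of_pow_mul m has1 hu0 ha'1
    have e : ((a' * ((u⁻¹ : (↥A)ˣ) : ↥A) ^ m : ↥A) : L) = (a' : L) * (((u : ↥A) : L) ^ m)⁻¹ := by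
      rw [MulMemClass.coe_mul, SubmonoidClass.coe_pow, hinvL, inv_pow]
    rw [e]
    exact h1
  · have h1 := hasValueAt_of_pow_mul m has2 hπu0 ha'2
    have e : π (a' * ((u⁻¹ : (↥A)ˣ) : ↥A) ^ m) = π a' * (π (u : ↥A) ^ m)⁻¹ := by
      rw [map_mul, map_pow, hinvk, inv_pow]
    rw [e]
    exact h1

end ChartLoc

section Kron

variable {ℓ : ℕ} [hℓ : Fact ℓ.Prime] {A : ValuationSubring (AlgebraicClosure ℚ)}
  {N : ℕ} [NeZero N]

/-- integrality of `α` over `β` localised at `s`, on `A[z]`, from the generator `z`. -/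
theorem isIntegral_closure_of_coeffSubring {F' : Type*} [Field F']
    [Algebra (AlgebraicClosure ℚ) F']
    (z s : ↥(modularFunctionFieldBar N))
    (φ ψ : ↥(modularFunctionFieldBar N) →ₐ[AlgebraicClosure ℚ] F')
    (hz : IsIntegral ↥(Algebra.adjoin ℤ {φ z, (φ s)⁻¹}) (ψ z))
    (x : ↥(coeffSubring A N z)) :
    IsIntegral (Subring.closure (φ '' (coeffSubring A N z : Set ↥(modularFunctionFieldBar N))
      ∪ {(φ s)⁻¹})) (ψ (x : ↥(modularFunctionFieldBar N))) := by
  set T := Subring.closure (φ '' (coeffSubring A N z : Set ↥(modularFunctionFieldBar N))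
      ∪ {(φ s)⁻¹}) with hT
  obtain ⟨x, hx⟩ := x
  show IsIntegral T (ψ x)
  induction hx using Subring.closure_induction with
  | mem x hx =>
    rcases hx with ⟨a, rfl⟩ | hx
    · have hmem : ψ (algebraMap (AlgebraicClosure ℚ) _ (a : AlgebraicClosure ℚ)) ∈ T := by
        rw [AlgHom.commutes, ← AlgHom.commutes φ]
        exact Subring.subset_closure (Or.inl ⟨_, algebraMap_mem_coeffSubring z a, rfl⟩)
      exact isIntegral_algebraMap (R := T) (x := ⟨_, hmem⟩)
    · rw [Set.mem_singleton_iff] at hx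
      rw [hx]
      refine isIntegral_of_adjoin_int_of_subset ?_ hz
      intro w hw
      rcases hw with rfl | hw
      · exact Subring.subset_closure (Or.inl ⟨z, self_mem_coeffSubring z, rfl⟩)
      · rw [Set.mem_singleton_iff] at hw
        rw [hw]
        exact Subring.subset_closure (Or.inr rfl)
  | zero => rw [map_zero]; exact isIntegral_zero
  | one => rw [map_one]; exact isIntegral_one
  | add x y _ _ hx hy => rw [map_add]; exact hx.add hy
  | neg x _ hx => rw [map_neg]; exact hx.neg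
  | mul x y _ _ hx hy => rw [map_mul]; exact hx.mul hy

/-- **(KRON-N) on the localised chart ring.** -/
theorem chartLoc_kron (hA : A.LiesOverPrime ℓ) (h : GaussRes A N (IsLocalRing.residue A))
    (z : ↥(modularFunctionFieldBar N)) (s : ↥(chartRing A N z))
    (hsz : chartι A N z s ∈ coeffSubring A N z) (hs0 : chartι A N z s ≠ 0)
    (σ₀ : A.decompositionSubgroup ℚ) (hσ₀ : A.IsFrobeniusAt σ₀.1 ℓ)
    (ζ : (↥A)ˣ) (hζ : ζ ^ ℓ = 1)
    (hnormf : ∀ (Y : ↥(modularFunctionFieldBar N)) (c : AlgebraicClosure ℚ),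
      haveI : NeZero ℓ := ⟨hℓ.out.ne_zero⟩
      qExpand (AlgebraicClosure ℚ) ℓ
          ((normAlong (heckeBetaBar (AlgebraicClosure ℚ) N ℓ)
            (algebraMap (AlgebraicClosure ℚ) ↥(modularFunctionFieldBar (N * ℓ)) c
              - heckeAlphaBar (AlgebraicClosure ℚ) N ℓ Y) : ↥(modularFunctionFieldBar N)) :
            LaurentSeries (AlgebraicClosure ℚ))
        = (∏ b ∈ Finset.range ℓ,
            twist (Units.map (A.subtype : ↥A →* AlgebraicClosure ℚ) ζ ^ b)
              (HahnSeries.C c - (Y : LaurentSeries (AlgebraicClosure ℚ))))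
          * (HahnSeries.C c
              - qExpand (AlgebraicClosure ℚ) (ℓ ^ 2) (Y : LaurentSeries (AlgebraicClosure ℚ))))
    (hint : haveI : NeZero ℓ := ⟨hℓ.out.ne_zero⟩
      IsIntegral ↥(Algebra.adjoin ℤ
        {heckeBetaBar (AlgebraicClosure ℚ) N ℓ z,
          (heckeBetaBar (AlgebraicClosure ℚ) N ℓ (chartι A N z s))⁻¹})
        (heckeAlphaBar (AlgebraicClosure ℚ) N ℓ z))
    (y : ↥(chartRing A N z)) (c : ↥A) :
    haveI : NeZero ℓ := ⟨hℓ.out.ne_zero⟩
    ∃ n : chartLoc A N z s,
      gaussι A N n.1 = normAlong (heckeBetaBar (AlgebraicClosure ℚ) N ℓ)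
        (algebraMap (AlgebraicClosure ℚ) ↥(modularFunctionFieldBar (N * ℓ))
            ((c : ↥A) : AlgebraicClosure ℚ)
          - heckeAlphaBar (AlgebraicClosure ℚ) N ℓ (chartι A N z y)) ∧
      gaussρF h n.1
        = (algebraMap (IsLocalRing.ResidueField A) _ (IsLocalRing.residue A c ^ ℓ)
            - coeffAutC (IsLocalRing.ResidueField A) N (resAut A σ₀) • chartρF h z y)
          * (algebraMap (IsLocalRing.ResidueField A) _ (IsLocalRing.residue A c)
            - ((coeffAutC (IsLocalRing.ResidueField A) N (resAut A σ₀))⁻¹ • chartρF h z y) ^ ℓ) := by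
  haveI : NeZero ℓ := ⟨hℓ.out.ne_zero⟩
  obtain ⟨n, hn1, hn2⟩ := gauss_kron hA h σ₀ hσ₀ ζ hζ hnormf
    (Subring.inclusion (chartRing_le_gaussRing z) y) c
  -- localised integrality of the norm
  obtain ⟨m, hm⟩ := exists_isIntegral_pow_mul_normAlong
    (heckeBetaBar (AlgebraicClosure ℚ) N ℓ) (heckeAlphaBar (AlgebraicClosure ℚ) N ℓ)
    (coeffSubring A N z) ⟨chartι A N z s, hsz⟩ hs0
    (isIntegral_closure_of_coeffSubring z (chartι A N z s) _ _ hint)
    ⟨_, algebraMap_mem_coeffSubring z c⟩ (chartι A N z y) (isIntegral_chartι z y)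
  have hmem : (s : LaurentSeries ↥A) ^ m * (n : LaurentSeries ↥A) ∈ chartRing A N z := by
    have hg : (s : LaurentSeries ↥A) ^ m * (n : LaurentSeries ↥A) ∈ gaussRing A N :=
      (gaussRing A N).mul_mem ((gaussRing A N).pow_mem s.2.1 m) n.2
    refine ⟨hg, ?_⟩
    have e : gaussι A N ⟨_, hg⟩ = chartι A N z s ^ m * gaussι A N n := by
      apply Subtype.ext
      show coeffMap A.subtype ((s : LaurentSeries ↥A) ^ m * (n : LaurentSeries ↥A)) = _
      rw [map_mul, map_pow]
      rfl
    rw [e, hn1]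
    have e2 : (heckeBetaBar (AlgebraicClosure ℚ) N ℓ)
        (algebraMap (AlgebraicClosure ℚ) ↥(modularFunctionFieldBar N)
          ((c : ↥A) : AlgebraicClosure ℚ))
        = algebraMap (AlgebraicClosure ℚ) ↥(modularFunctionFieldBar (N * ℓ))
          ((c : ↥A) : AlgebraicClosure ℚ) := AlgHom.commutes _ _
    rw [← e2]
    exact hm
  exact ⟨⟨n, m, hmem⟩, hn1, hn2⟩

end Kron

end Fermat.Agent.JA
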