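/-
J-A package ES / C3 (helper4), part 14: **series-level facts for the two charts**.

* `j` lies in its chart ring (`jA`), with reduction `j̃`;
* `V = (j - b)⁻¹` lies in its chart ring (`vA b`), with reduction `(j̃ - b)⁻¹`; polynomials in `V`;
* the coefficientwise automorphisms of `F̃` fix `j̃` and `(j̃ - b)⁻¹`;
* reductions of chart functions are regular where the reduction of the chart coordinate is.
-/
import Mathlib
import Fermat.Agent.JA.ES_helper4_CuspChart
import Fermat.Agent.JA.CONST_helper6

set_option autoImplicit false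
set_option linter.unusedSectionVars false
set_option linter.style.haveILetI false

open HahnSeries IntermediateField AlgebraicCurve

namespace Fermat.Agent.JA

open ModularCurve Fermat.Agent.X0N

set_option synthInstance.maxHeartbeats 400000
set_option maxHeartbeats 1600000

section Generic

variable {L : Type*} [Field L] [Algebra ℚ L] {A : ValuationSubring L} {N : ℕ}
variable {k : Type*} [Field k] {π : ↥A →+* k}

/-- a series over `A` representing `z` lies in the chart ring of `z`. -/
theorem mem_chartRing_self (z : ↥(laurentBaseChange L (modularFunctionFieldFull N)))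
    (zS : LaurentSeries ↥A)
    (hz : coeffMap A.subtype zS = (z : LaurentSeries L)) : zS ∈ chartRing A N z := by
  have hg : zS ∈ gaussRing A N := by
    rw [mem_gaussRing_iff, hz]
    exact z.2
  refine ⟨hg, ?_⟩
  have e : gaussι A N ⟨zS, hg⟩ = z := Subtype.ext hz
  rw [e]
  exact isIntegral_algebraMap (R := ↥(coeffSubring A N z)) (x := ⟨z, self_mem_coeffSubring z⟩)

theorem chartι_mk_self (z : ↥(laurentBaseChange L (modularFunctionFieldFull N)))
    (zS : LaurentSeries ↥A)
    (hz : coeffMap A.subtype zS = (z : LaurentSeries L)) :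
    chartι A N z ⟨zS, mem_chartRing_self z zS hz⟩ = z := Subtype.ext hz

/-- polynomial expressions with integer coefficients commute with `chartι`. -/
theorem chartι_aeval (z : ↥(laurentBaseChange L (modularFunctionFieldFull N)))
    (x : ↥(chartRing A N z)) (u : Polynomial ℤ) :
    chartι A N z (Polynomial.aeval x u) = Polynomial.aeval (chartι A N z x) u :=
  (Polynomial.aeval_algHom_apply (chartι A N z).toIntAlgHom x u).symm

theorem chartρF_aeval (h : GaussRes A N π)
    (z : ↥(laurentBaseChange L (modularFunctionFieldFull N)))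
    (x : ↥(chartRing A N z)) (u : Polynomial ℤ) :
    chartρF h z (Polynomial.aeval x u) = Polynomial.aeval (chartρF h z x) u :=
  (Polynomial.aeval_algHom_apply (chartρF h z).toIntAlgHom x u).symm

/-- a polynomial in `z` with integer coefficients lies in `A[z]`. -/
theorem aeval_mem_coeffSubring (z : ↥(laurentBaseChange L (modularFunctionFieldFull N)))
    (u : Polynomial ℤ) : Polynomial.aeval z u ∈ coeffSubring A N z := by
  have h : Polynomial.aeval z u
      = ((Polynomial.aeval (⟨z, self_mem_coeffSubring z⟩ : ↥(coeffSubring A N z)) u :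
          ↥(coeffSubring A N z)) : ↥(laurentBaseChange L (modularFunctionFieldFull N))) :=
    Polynomial.aeval_algHom_apply (coeffSubring A N z).subtype.toIntAlgHom
      (⟨z, self_mem_coeffSubring z⟩ : ↥(coeffSubring A N z)) u
  rw [h]
  exact Subtype.property _

end Generic

section Reg

variable {L : Type*} [Field L] [Algebra ℚ L] {A : ValuationSubring L} {N : ℕ}
variable {k : Type*} [Field k] {π : ↥A →+* k}

/-- **(hreg)**: the reduction of a chart function is regular at every place where the reduction of
the chart coordinate is regular. -/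
theorem chartρF_mem_of_mem (h : GaussRes A N π)
    (z : ↥(laurentBaseChange L (modularFunctionFieldFull N))) (zA : ↥(gaussRing A N))
    (hzA : gaussι A N zA = z) (y : ↥(chartRing A N z))
    (Q : Place k ↥(modularFunctionFieldFullC k N))
    (hQ : gaussρF h zA ∈ Q.toValuationSubring) :
    chartρF h z y ∈ Q.toValuationSubring := by
  -- the subring `A[zA]` of the Gauss ring
  set G : Subring ↥(gaussRing A N) :=
    Subring.closure (Set.range (gaussC A N) ∪ {zA}) with hG
  set f : ↥G →+* ↥(laurentBaseChange L (modularFunctionFieldFull N)) :=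
    (gaussι A N).comp G.subtype with hf
  have hle : coeffSubring A N z ≤ f.range := by
    unfold coeffSubring
    rw [Subring.closure_le]
    rintro x (⟨a, rfl⟩ | hx)
    · exact ⟨⟨gaussC A N a, Subring.subset_closure (Or.inl ⟨a, rfl⟩)⟩, gaussι_gaussC A N a⟩
    · rw [Set.mem_singleton_iff] at hx
      rw [hx]
      exact ⟨⟨zA, Subring.subset_closure (Or.inr rfl)⟩, hzA⟩
  set y' : ↥(gaussRing A N) := Subring.inclusion (chartRing_le_gaussRing z) y with hy'
  have hint : f.IsIntegralElem (gaussι A N y') :=
    isIntegralElem_of_isIntegral_of_le_range f _ hle (isIntegral_chartι z y)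
  obtain ⟨p, hp, hpy⟩ := hint
  -- the relation holds in the Gauss ring
  have h1 : Polynomial.eval₂ G.subtype y' p = 0 := by
    apply gaussι_injective A N
    rw [map_zero, Polynomial.hom_eval₂]
    exact hpy
  -- apply the reduction
  set g : ↥G →+* ↥(modularFunctionFieldFullC k N) := (gaussρF h).comp G.subtype with hg
  have h2 : Polynomial.eval₂ g (gaussρF h y') p = 0 := by
    have := congrArg (gaussρF h) h1
    rwa [map_zero, Polynomial.hom_eval₂] at this
  have hrange : ∀ x : ↥G, g x ∈ Q.toValuationSubring := by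
    rintro ⟨x, hx⟩
    show gaussρF h x ∈ Q.toValuationSubring
    induction hx using Subring.closure_induction with
    | mem x hx =>
      rcases hx with ⟨a, rfl⟩ | hx
      · have e : gaussρF h (gaussC A N a) = algebraMap k _ (π a) := by
          apply Subtype.ext
          exact gaussρ_gaussC A N π a
        rw [e]
        exact Q.algebraMap_mem' _
      · rw [Set.mem_singleton_iff] at hx
        rw [hx]
        exact hQ
    | zero => rw [map_zero]; exact Q.toValuationSubring.zero_mem
    | one => rw [map_one]; exact Q.toValuationSubring.one_mem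
    | add x y _ _ hx hy => rw [map_add]; exact Q.toValuationSubring.add_mem _ _ hx hy
    | neg x _ hx => rw [map_neg]; exact Q.toValuationSubring.neg_mem _ hx
    | mul x y _ _ hx hy => rw [map_mul]; exact Q.toValuationSubring.mul_mem _ _ hx hy
  let g' : ↥G →+* ↥Q.toValuationSubring := g.codRestrict Q.toValuationSubring.toSubring hrange
  have h3 : IsIntegral ↥Q.toValuationSubring (gaussρF h y') := by
    refine ⟨p.map g', hp.map g', ?_⟩
    rw [Polynomial.eval₂_map]
    exact h2
  obtain ⟨w, hw⟩ := (IsIntegrallyClosedIn.isIntegral_iff (R := ↥Q.toValuationSubring)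
    (A := ↥(modularFunctionFieldFullC k N))).mp h3
  have e : chartρF h z y = gaussρF h y' := rfl
  rw [e, ← hw]
  exact w.2

end Reg

section JChart

variable {A : ValuationSubring (AlgebraicClosure ℚ)} {N : ℕ} [NeZero N]
variable {k : Type*} [Field k] {π : ↥A →+* k}

theorem coe_jBar_eq_jqModC_h4 :
    ((jBar N : ↥(modularFunctionFieldBar N)) : LaurentSeries (AlgebraicClosure ℚ))
      = jqModC (AlgebraicClosure ℚ) := by
  rw [coe_jBar, coeffEmb, ← jqModC_rat, coeffMap_jqModC]

theorem coeffMap_subtype_jqModC_eq_jBar :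
    coeffMap A.subtype (jqModC ↥A)
      = ((jBar N : ↥(modularFunctionFieldBar N)) : LaurentSeries (AlgebraicClosure ℚ)) := by
  rw [coe_jBar_eq_jqModC_h4, coeffMap_jqModC]

variable (A N) in
/-- **`j` as an element of its chart ring.** -/
noncomputable def jA : ↥(chartRing A N (jBar N)) :=
  ⟨jqModC ↥A, mem_chartRing_self (jBar N) _ coeffMap_subtype_jqModC_eq_jBar⟩

@[simp] theorem coe_jA : ((jA A N : ↥(chartRing A N (jBar N))) : LaurentSeries ↥A) = jqModC ↥A :=
  rfl

theorem chartι_jA : chartι A N (jBar N) (jA A N) = jBar N :=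
  chartι_mk_self (jBar N) _ coeffMap_subtype_jqModC_eq_jBar

theorem chartρF_jA (h : GaussRes A N π) : chartρF h (jBar N) (jA A N) = jTildeElt k N := by
  apply Subtype.ext
  show coeffMap π (jqModC ↥A) = jqModC k
  exact coeffMap_jqModC π

end JChart

section VChart

variable {A : ValuationSubring (AlgebraicClosure ℚ)} {N : ℕ} [NeZero N]
variable {k : Type*} [Field k] {π : ↥A →+* k}

/-- `j - b` is a unit of `R((q))` for every domain `R`. -/
theorem isUnit_jqModC_sub_C {R : Type*} [CommRing R] [IsDomain R] (b : R) :
    IsUnit (jqModC R - HahnSeries.C b) := by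
  rw [HahnSeries.isUnit_iff]
  set x : LaurentSeries R := jqModC R - HahnSeries.C b with hx
  have hc1 : x.coeff (-1) = 1 := by
    rw [hx, HahnSeries.coeff_sub, coeff_jqModC_neg_one, HahnSeries.C_apply,
      HahnSeries.coeff_single_of_ne (by norm_num), sub_zero]
  have hlt : ∀ m : ℤ, m < -1 → x.coeff m = 0 := by
    intro m hm
    rw [hx, HahnSeries.coeff_sub, coeff_jqModC_of_lt R hm, HahnSeries.C_apply,
      HahnSeries.coeff_single_of_ne (by omega), sub_zero]
  have hx0 : x ≠ 0 := by
    intro h0
    rw [h0, HahnSeries.coeff_zero] at hc1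
    exact zero_ne_one hc1
  have hord : x.order = -1 := by
    apply le_antisymm
    · exact HahnSeries.order_le_of_coeff_ne_zero (by rw [hc1]; exact one_ne_zero)
    · by_contra hlt'
      rw [not_le] at hlt'
      exact hx0 (HahnSeries.coeff_order_eq_zero.mp (hlt _ hlt'))
  rw [HahnSeries.leadingCoeff_eq, hord, hc1]
  exact isUnit_one

/-- the series of `V = (j - b)⁻¹` over a domain. -/
noncomputable def vSer (R : Type*) [CommRing R] [IsDomain R] (b : ℤ) : LaurentSeries R :=
  (((isUnit_jqModC_sub_C (R := R) (b : R)).unit)⁻¹ : (LaurentSeries R)ˣ)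

theorem jqModC_sub_C_mul_vSer (R : Type*) [CommRing R] [IsDomain R] (b : ℤ) :
    (jqModC R - HahnSeries.C (b : R)) * vSer R b = 1 :=
  (isUnit_jqModC_sub_C (R := R) (b : R)).mul_val_inv

/-- `coeffMap` of `vSer` along a ring hom into a field is the inverse of `j - b`. -/
theorem coeffMap_vSer {R : Type*} [CommRing R] [IsDomain R] {K : Type*} [Field K] (f : R →+* K)
    (b : ℤ) : coeffMap f (vSer R b) = (jqModC K - HahnSeries.C (b : K))⁻¹ := by
  have h1 := congrArg (coeffMap f) (jqModC_sub_C_mul_vSer R b)
  rw [map_mul, map_one, map_sub, coeffMap_jqModC, coeffMap_C, map_intCast] at h1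
  exact eq_inv_of_mul_eq_one_right h1

theorem coe_inv_jBar_sub (b : ℤ) :
    (((jBar N - (b : ↥(modularFunctionFieldBar N)))⁻¹ : ↥(modularFunctionFieldBar N)) :
        LaurentSeries (AlgebraicClosure ℚ))
      = (jqModC (AlgebraicClosure ℚ) - HahnSeries.C (b : AlgebraicClosure ℚ))⁻¹ := by
  have e : ((b : ↥(modularFunctionFieldBar N)) : LaurentSeries (AlgebraicClosure ℚ))
      = HahnSeries.C (b : AlgebraicClosure ℚ) := by
    rw [map_intCast]
    rfl
  have h := map_inv₀ (algebraMap ↥(modularFunctionFieldBar N)
    (LaurentSeries (AlgebraicClosure ℚ))) (jBar N - (b : ↥(modularFunctionFieldBar N)))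
  change ((((jBar N - (b : ↥(modularFunctionFieldBar N)))⁻¹ : ↥(modularFunctionFieldBar N)) :
    LaurentSeries (AlgebraicClosure ℚ))) = (((jBar N - (b : ↥(modularFunctionFieldBar N)) :
      ↥(modularFunctionFieldBar N)) : LaurentSeries (AlgebraicClosure ℚ)))⁻¹ at h
  rw [h, AddSubgroupClass.coe_sub, coe_jBar_eq_jqModC_h4, e]

theorem coeffMap_subtype_vSer (b : ℤ) :
    coeffMap A.subtype (vSer ↥A b)
      = (((jBar N - (b : ↥(modularFunctionFieldBar N)))⁻¹ : ↥(modularFunctionFieldBar N)) :
        LaurentSeries (AlgebraicClosure ℚ)) := by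
  rw [coe_inv_jBar_sub, coeffMap_vSer]

variable (A N) in
/-- **`V = (j - b)⁻¹` as an element of its chart ring.** -/
noncomputable def vA (b : ℤ) :
    ↥(chartRing A N (jBar N - (b : ↥(modularFunctionFieldBar N)))⁻¹) :=
  ⟨vSer ↥A b, mem_chartRing_self _ _ (coeffMap_subtype_vSer b)⟩

theorem chartι_vA (b : ℤ) :
    chartι A N _ (vA A N b) = (jBar N - (b : ↥(modularFunctionFieldBar N)))⁻¹ :=
  chartι_mk_self _ _ (coeffMap_subtype_vSer b)

theorem chartρF_vA (h : GaussRes A N π) (b : ℤ) :
    chartρF h _ (vA A N b)
      = (jTildeElt k N - (b : ↥(modularFunctionFieldFullC k N)))⁻¹ := by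
  apply Subtype.ext
  show coeffMap π (vSer ↥A b) = _
  rw [coeffMap_vSer]
  have e : ((b : ↥(modularFunctionFieldFullC k N)) : LaurentSeries k)
      = HahnSeries.C (b : k) := by
    rw [map_intCast]
    rfl
  have h' := map_inv₀ (algebraMap ↥(modularFunctionFieldFullC k N) (LaurentSeries k))
    (jTildeElt k N - (b : ↥(modularFunctionFieldFullC k N)))
  change ((((jTildeElt k N - (b : ↥(modularFunctionFieldFullC k N)))⁻¹ :
      ↥(modularFunctionFieldFullC k N)) : LaurentSeries k))
    = (((jTildeElt k N - (b : ↥(modularFunctionFieldFullC k N)) :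
      ↥(modularFunctionFieldFullC k N)) : LaurentSeries k))⁻¹ at h'
  rw [h', AddSubgroupClass.coe_sub, coe_jTildeElt, e]

end VChart

section Fix

variable (k : Type*) [Field k] (N : ℕ) [NeZero N]

/-- **the coefficientwise automorphisms fix `j̃`.** -/
theorem coeffAutC_smul_jTildeElt (τ : RingAut k) :
    coeffAutC k N τ • jTildeElt k N = jTildeElt k N := by
  apply Subtype.ext
  rw [coe_coeffAutC_smul, coe_jTildeElt]
  exact coeffMap_jqModC _

theorem coeffAutC_smul_inv_jTildeElt_sub (τ : RingAut k) (b : ℤ) :
    coeffAutC k N τ • (jTildeElt k N - (b : ↥(modularFunctionFieldFullC k N)))⁻¹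
      = (jTildeElt k N - (b : ↥(modularFunctionFieldFullC k N)))⁻¹ := by
  rw [smul_inv'', smul_sub, coeffAutC_smul_jTildeElt]
  congr 2
  exact map_intCast (MulSemiringAction.toRingHom _ _ (coeffAutC k N τ)) b

end Fix

end Fermat.Agent.JA
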