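/-
J-A, package (ES), leaf ES3 (helper7), part 1: linear algebra of norms.
* the norm on a finite product of finite free algebras is the product of the norms;
* the norm of `c + nilpotent` is `c ^ rank`;
* the norm commutes with reduction modulo the maximal ideal of a local base ring.
-/
import Mathlib
import Fermat.Agent.TW.ECD1_helper5_Block

set_option autoImplicit false
set_option linter.unusedSectionVars false

open Module

namespace Fermat.Agent.JA

section NormPi

variable {K : Type*} [CommRing K] {ι : Type*} [Fintype ι] [DecidableEq ι]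
  {T : ι → Type*} [∀ i, CommRing (T i)] [∀ i, Algebra K (T i)]
  [∀ i, Module.Free K (T i)] [∀ i, Module.Finite K (T i)]

/-- the norm on a finite product of finite free algebras. -/
theorem norm_pi_eq_prod (x : ∀ i, T i) :
    Algebra.norm K x = ∏ i, Algebra.norm K (x i) := by
  classical
  let b : ∀ i, Basis (Free.ChooseBasisIndex K (T i)) K (T i) := fun i => Free.chooseBasis K (T i)
  rw [Algebra.norm_eq_matrix_det (Pi.basis b)]
  have h : Algebra.leftMulMatrix (Pi.basis b) x
      = Matrix.blockDiagonal' fun i => Algebra.leftMulMatrix (b i) (x i) := by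
    ext ⟨i, a⟩ ⟨j, c⟩
    rw [Algebra.leftMulMatrix_apply, LinearMap.toMatrix_apply, Matrix.blockDiagonal'_apply,
      Pi.basis_repr, Pi.basis_apply]
    simp only [Algebra.lmul_algebraMap, Algebra.coe_lmul_eq_mul, LinearMap.mul_apply']
    by_cases hij : i = j
    · subst hij
      rw [dif_pos rfl, Algebra.leftMulMatrix_apply, LinearMap.toMatrix_apply]
      simp only [Algebra.coe_lmul_eq_mul, LinearMap.mul_apply', Pi.mul_apply, Pi.single_eq_same,
        cast_eq]
    · rw [dif_neg hij]
      simp only [Pi.mul_apply, Pi.single_eq_of_ne hij, mul_zero, map_zero, Finsupp.coe_zero,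
        Pi.zero_apply]
  rw [h, Fermat.Agent.TW.EC.det_blockDiagonal'_ECD1]
  refine Finset.prod_congr rfl fun i _ => ?_
  rw [Algebra.norm_eq_matrix_det (b i)]

end NormPi

section NormNilpotent

variable {K : Type*} [Field K] {T : Type*} [CommRing T] [Algebra K T] [Module.Finite K T]

/-- the norm of `c + n` with `n` nilpotent. -/
theorem norm_algebraMap_add_nilpotent (c : K) {n : T} (hn : IsNilpotent n) :
    Algebra.norm K (algebraMap K T c + n) = c ^ finrank K T := by
  have hnil : IsNilpotent (-(Algebra.lmul K T n)) := (hn.map (Algebra.lmul K T)).neg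
  have h1 := LinearMap.eval_charpoly (-(Algebra.lmul K T n)) c
  rw [hnil.charpoly_eq_X_pow_finrank, Polynomial.eval_pow, Polynomial.eval_X, sub_neg_eq_add] at h1
  rw [Algebra.norm_apply, h1, map_add]
  congr 2
  ext t
  simp [Algebra.smul_def]

end NormNilpotent

section NormQuotient

open IsLocalRing

variable {R S : Type*} [CommRing R] [CommRing S] [Algebra R S] [IsLocalRing R]
  [Module.Free R S] [Module.Finite R S]

/-- the norm commutes with reduction modulo the maximal ideal (cf. `Algebra.trace_quotient_mk`). -/
theorem norm_quotient_mk (x : S) :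
    Algebra.norm (R ⧸ maximalIdeal R)
        (Ideal.Quotient.mk (Ideal.map (algebraMap R S) (maximalIdeal R)) x) =
      Ideal.Quotient.mk (maximalIdeal R) (Algebra.norm R x) := by
  classical
  let b : Module.Basis (Free.ChooseBasisIndex R S) R S := Module.Free.chooseBasis R S
  rw [Algebra.norm_eq_matrix_det b, Algebra.norm_eq_matrix_det (basisQuotient b), RingHom.map_det]
  congr 1
  ext i j
  simp only [Algebra.leftMulMatrix_apply, Algebra.coe_lmul_eq_mul, LinearMap.toMatrix_apply,
    basisQuotient_apply, LinearMap.mul_apply', RingHom.mapMatrix_apply, Matrix.map_apply, ← map_mul,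
    basisQuotient_repr]

end NormQuotient

end Fermat.Agent.JA
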