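/-
J-A, package (ES), leaf ES3 (helper7), part 2: the norm of an element of a finite free extension
`S / R` of Dedekind domains modulo a maximal ideal `p` of the local ring `R`, in terms of the values
of the element at the primes over `p`.
-/
import Mathlib
import Fermat.Agent.JA.ES_helper7_NormPi

set_option autoImplicit false
set_option linter.unusedSectionVars false
set_option linter.deprecated false

open Module Ideal UniqueFactorizationMonoid IsLocalRing

namespace Fermat.Agent.JA

section NormDed

variable {R : Type*} [CommRing R] [IsLocalRing R]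
  {S : Type*} [CommRing S] [IsDedekindDomain S] [Algebra R S] [Module.Free R S] [Module.Finite R S]

/-- the Chinese remainder decomposition of `S / pS` as an algebra isomorphism over `R / p`. -/
noncomputable def piQuotientAlgEquiv (hp : map (algebraMap R S) (maximalIdeal R) ≠ ⊥) :
    (S ⧸ map (algebraMap R S) (maximalIdeal R)) ≃ₐ[R ⧸ maximalIdeal R]
      ∀ P : (factors (map (algebraMap R S) (maximalIdeal R))).toFinset,
        S ⧸ (P : Ideal S) ^ (maximalIdeal R).ramificationIdx' P.1 :=
  AlgEquiv.ofLinearEquiv (Factors.piQuotientLinearEquiv S (maximalIdeal R) hp)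
    (map_one (Factors.piQuotientEquiv (maximalIdeal R) hp))
    (map_mul (Factors.piQuotientEquiv (maximalIdeal R) hp))

theorem piQuotientAlgEquiv_mk (hp : map (algebraMap R S) (maximalIdeal R) ≠ ⊥) (x : S) :
    piQuotientAlgEquiv hp (Ideal.Quotient.mk _ x) = fun _ => Ideal.Quotient.mk _ x := rfl

/-- **the norm modulo `p`**: if `z ≡ c P` modulo every prime `P` over `p`, then
`N(z) ≡ ∏ (c P) ^ (e_P f_P)` modulo `p`. -/
theorem norm_mk_eq_prod (hp : map (algebraMap R S) (maximalIdeal R) ≠ ⊥)
    (z : S) (c : Ideal S → R)
    (hc : ∀ P ∈ (factors (map (algebraMap R S) (maximalIdeal R))).toFinset,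
      z - algebraMap R S (c P) ∈ P) :
    Ideal.Quotient.mk (maximalIdeal R) (Algebra.norm R z) =
      ∏ P ∈ (factors (map (algebraMap R S) (maximalIdeal R))).toFinset,
        Ideal.Quotient.mk (maximalIdeal R) (c P) ^
          ((maximalIdeal R).ramificationIdx' P * (maximalIdeal R).inertiaDeg' P) := by
  classical
  letI : Field (R ⧸ maximalIdeal R) := Ideal.Quotient.field (maximalIdeal R)
  haveI hfree : ∀ P : (factors (map (algebraMap R S) (maximalIdeal R))).toFinset,
      Module.Free (R ⧸ maximalIdeal R)
        (S ⧸ (P : Ideal S) ^ (maximalIdeal R).ramificationIdx' P.1) :=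
    fun P => Module.Free.of_divisionRing _ _
  rw [← norm_quotient_mk, ← Algebra.norm_eq_of_algEquiv (piQuotientAlgEquiv hp),
    piQuotientAlgEquiv_mk, norm_pi_eq_prod]
  refine Eq.trans ?_ (Finset.prod_coe_sort _ _)
  refine Finset.prod_congr rfl fun P _ => ?_
  have hnil : IsNilpotent (Ideal.Quotient.mk ((P : Ideal S) ^ (maximalIdeal R).ramificationIdx' P.1)
      (z - algebraMap R S (c P))) := by
    refine ⟨(maximalIdeal R).ramificationIdx' P.1, ?_⟩
    rw [← map_pow, Ideal.Quotient.eq_zero_iff_mem]
    exact Ideal.pow_mem_pow (hc P P.2) _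
  have hz : Ideal.Quotient.mk ((P : Ideal S) ^ (maximalIdeal R).ramificationIdx' P.1) z =
      algebraMap (R ⧸ maximalIdeal R) _ (Ideal.Quotient.mk (maximalIdeal R) (c P)) +
        Ideal.Quotient.mk ((P : Ideal S) ^ (maximalIdeal R).ramificationIdx' P.1)
          (z - algebraMap R S (c P)) := by
    rw [Ideal.Quotient.algebraMap_quotient_pow_ramificationIdx, ← map_add]
    congr 1
    ring
  rw [hz, norm_algebraMap_add_nilpotent _ hnil, Factors.finrank_pow_ramificationIdx]

end NormDed

end Fermat.Agent.JA
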