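/-
J-A, package (ES), leaf ES3 (helper7), part 3: **(SPEC-N)**, the value of a norm at a place.

For a finite separable extension `F'/F` of function fields over `K` all of whose places have degree
one, a place `v` of `F` and `z : F'` regular at all places `w` over `v` with values `a w`:
`N_{F'/F}(z)` is regular at `v` with value `∏_{w ∣ v} (a w) ^ e(w ∣ v)`.
-/
import Mathlib
import Fermat.Agent.JA.ES_helper7_NormDed
import Fermat.Agent.JA.H0_helper7_Norm
import Fermat.Agent.JA.ES_helper4_Value

set_option autoImplicit false
set_option linter.unusedSectionVars false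
set_option linter.deprecated false
set_option linter.style.haveILetI false

open AlgebraicCurve IsDedekindDomain UniqueFactorizationMonoid IsLocalRing

namespace Fermat.Agent.JA

open Fermat.Agent.FF Fermat.Agent.FF.Gal

variable {K F F' : Type*} [Field K] [Field F] [Field F'] [Algebra K F] [Algebra K F']
  [Algebra F F'] [IsScalarTower K F F'] [FiniteDimensional F F'] [Algebra.IsSeparable F F']

section Mem

variable (v : Place K F)

/-- an element regular at all places over `v` lies in the integral closure of `v`. -/
theorem mem_intCl_of_forall_mem (z : F')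
    (h : ∀ w : Place K F', LiesOver w v → z ∈ w.toValuationSubring) : z ∈ intCl F' v := by
  have h1 : ∀ P : HeightOneSpectrum (intCl F' v), P.valuation F' z ≤ 1 := by
    intro P
    have h2 := h (placeOf v P) (liesOver_placeOf v P)
    rw [placeOf_toValuationSubring, Valuation.mem_valuationSubring_iff] at h2
    exact h2
  obtain ⟨x, hx⟩ := HeightOneSpectrum.mem_integers_of_valuation_le_one F' z h1
  rw [← hx]
  exact x.2

end Mem

section Main

variable [CharZero K] [Algebra.IsIntegral F F'] [HasPrincipalDivisors K F']

instance free_intCl_ES (v : Place K F) : Module.Free v.toValuationSubring (intCl F' v) :=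
  Module.free_of_finite_type_torsion_free'

/-- **(SPEC-N)**, algebra form. -/
theorem hasValueAt_norm (hdeg' : ∀ w : Place K F', w.deg = 1)
    (v : Place K F) (z : F') (a : Place K F' → K)
    (h : ∀ w ∈ v.fiber F', HasValueAt w z (a w)) :
    HasValueAt v (Algebra.norm F z) (∏ w ∈ v.fiber F', a w ^ w.ramificationIndex F) := by
  classical
  set R := v.toValuationSubring with hR
  set S := intCl F' v with hS
  have hp0 : maximalIdeal R ≠ ⊥ := IsDiscreteValuationRing.not_a_field _
  have hpS : Ideal.map (algebraMap R S) (maximalIdeal R) ≠ ⊥ := Ideal.map_ne_bot_of_ne_bot hp0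
  have hfib : ∀ w : Place K F', LiesOver w v → w ∈ v.fiber F' := fun w hw =>
    Place.mem_fiber.mpr (liesOver_iff_restrict_eq.mp hw)
  -- `z` is integral
  have hzS : z ∈ S := mem_intCl_of_forall_mem v z fun w hw => (h w (hfib w hw)).mem
  set zS : S := ⟨z, hzS⟩ with hzSdef
  -- the values as a function on ideals
  let c : Ideal S → R := fun P =>
    if hP : P.IsPrime ∧ P ≠ ⊥ then algebraMap K R (a (placeOf v ⟨P, hP.1, hP.2⟩)) else 0
  have hprime : ∀ P ∈ (factors (Ideal.map (algebraMap R S) (maximalIdeal R))).toFinset,
      P.IsPrime ∧ P ≠ ⊥ := by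
    intro P hP
    have := prime_of_factor P (Multiset.mem_toFinset.mp hP)
    exact ⟨Ideal.isPrime_of_prime this, this.ne_zero⟩
  have hc : ∀ P ∈ (factors (Ideal.map (algebraMap R S) (maximalIdeal R))).toFinset,
      zS - algebraMap R S (c P) ∈ P := by
    intro P hP
    obtain ⟨hP1, hP0⟩ := hprime P hP
    have hl := liesOver_placeOf v ⟨P, hP1, hP0⟩
    have hcen := center_placeOf v ⟨P, hP1, hP0⟩
    have hmem : zS - algebraMap R S (c P) ∈ center hl := by
      rw [mem_center_iff]
      have hval := h _ (hfib _ hl)
      have hcoe : ((zS - algebraMap R S (c P) : S) : F') =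
          z - algebraMap K F' (a (placeOf v ⟨P, hP1, hP0⟩)) := by
        simp only [c, dif_pos (And.intro hP1 hP0)]
        rw [IsScalarTower.algebraMap_apply K F F']
        rfl
      rw [hcoe]
      exact HasValueAt.iff_ord.mp hval
    rwa [hcen] at hmem
  have key := norm_mk_eq_prod hpS zS c hc
  -- reindex the product by the places over `v`
  have hprod : ∏ P ∈ (factors (Ideal.map (algebraMap R S) (maximalIdeal R))).toFinset,
      Ideal.Quotient.mk (maximalIdeal R) (c P) ^
        ((maximalIdeal R).ramificationIdx' P * (maximalIdeal R).inertiaDeg' P) =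
      Ideal.Quotient.mk (maximalIdeal R)
        (algebraMap K R (∏ w ∈ v.fiber F', a w ^ w.ramificationIndex F)) := by
    rw [map_prod, map_prod]
    symm
    refine Finset.prod_bij
      (fun w hw => center (liesOver_iff_restrict_eq.mpr (Place.mem_fiber.mp hw))) ?_ ?_ ?_ ?_
    · intro w hw
      have hl : LiesOver w v := liesOver_iff_restrict_eq.mpr (Place.mem_fiber.mp hw)
      exact (IsDedekindDomain.mem_primesOverFinset_iff hp0 S).mpr ⟨center_isPrime hl, inferInstance⟩
    · intro w hw w' hw' heq
      exact eq_of_center_eq _ _ heq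
    · intro P hP
      obtain ⟨hP1, hP0⟩ := hprime P hP
      exact ⟨placeOf v ⟨P, hP1, hP0⟩, hfib _ (liesOver_placeOf v _), center_placeOf v ⟨P, hP1, hP0⟩⟩
    · intro w hw
      have hl : LiesOver w v := liesOver_iff_restrict_eq.mpr (Place.mem_fiber.mp hw)
      have hP1 : (center hl).IsPrime := center_isPrime hl
      have hP0 : center hl ≠ ⊥ := center_ne_bot hl
      have hw' : placeOf v ⟨center hl, hP1, hP0⟩ = w := by
        apply eq_of_center_eq (liesOver_placeOf v _) hl
        exact center_placeOf v ⟨center hl, hP1, hP0⟩
      have hcw : c (center hl) = algebraMap K R (a w) := by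
        simp only [c, dif_pos (And.intro hP1 hP0)]
        rw [hw']
      have he : (maximalIdeal R).ramificationIdx' (center hl) = w.ramificationIndex F := by
        rw [Ideal.ramificationIdx'_eq_ramificationIdx (maximalIdeal R) (center hl) hp0]
        exact ramificationIdx_center_eq hl
      have hf : (maximalIdeal R).inertiaDeg' (center hl) = 1 := by
        rw [Ideal.inertiaDeg'_eq_inertiaDeg (maximalIdeal R) (center hl)]
        exact inertiaDeg_center_eq_one hl (hdeg' w)
      rw [hcw, he, hf, mul_one, map_pow, map_pow]
  rw [hprod, Ideal.Quotient.eq] at key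
  -- back to `F`
  have h1 : algebraMap R F (Algebra.intNorm R S zS) = Algebra.norm F (algebraMap S F' zS) :=
    Algebra.algebraMap_intNorm zS
  have h2 : Algebra.intNorm R S zS = Algebra.norm R zS := by
    rw [Algebra.intNorm_eq_norm]
  have h3 : Algebra.norm F z = ((Algebra.norm R zS : R) : F) := by
    rw [← h2]
    exact h1.symm
  rw [HasValueAt.iff_ord, h3]
  have h4 : ((Algebra.norm R zS : R) : F) -
      algebraMap K F (∏ w ∈ v.fiber F', a w ^ w.ramificationIndex F) =
      ((Algebra.norm R zS - algebraMap K R (∏ w ∈ v.fiber F', a w ^ w.ramificationIndex F) : R) : F) :=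
    rfl
  rw [h4]
  exact (mem_maximalIdeal_iff _ _).mp key

end Main

end Fermat.Agent.JA
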