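/-
J-A, package (ES), leaf ES3 (helper7), part 4: **(SPEC-N)** along an embedding of function fields,
literally the hypothesis `hspec` of helper4's `es_place_abstract`.
-/
import Mathlib
import Fermat.Agent.JA.ES_helper7_SpecN
import Fermat.Agent.JA.ES_helper4_Main

set_option autoImplicit false
set_option linter.unusedSectionVars false
set_option linter.style.haveILetI false

open AlgebraicCurve

namespace Fermat.Agent.JA

variable {K F F' : Type*} [Field K] [Field F] [Field F'] [Algebra K F] [Algebra K F']
  [CharZero K] [HasPrincipalDivisors K F']

/-- **(SPEC-N)** along `φ`: the value of the norm at a place is the product of the values at the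
places above, with the ramification indices as exponents. -/
theorem hasValueAt_normAlong (φ : F →ₐ[K] F') (hφ : φ.toRingHom.IsIntegral)
    (hfin : FiniteAlong K φ) (hdeg' : ∀ W : Place K F', W.deg = 1)
    (P : Place K F) (z : F') (a : Place K F' → K)
    (h : ∀ W ∈ Place.fiberAlong φ hφ P, HasValueAt W z (a W)) :
    HasValueAt P (normAlong φ z)
      (∏ W ∈ Place.fiberAlong φ hφ P, a W ^ W.ramificationIndexAlong φ) := by
  letI := algebraAlong φ
  haveI := isScalarTower_along φ
  haveI := isIntegral_along φ hφ
  haveI : Module.Finite F F' := hfin
  haveI : CharZero F := charZero_of_injective_algebraMap (algebraMap K F).injective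
  haveI : Algebra.IsSeparable F F' := Algebra.IsAlgebraic.isSeparable_of_perfectField
  exact hasValueAt_norm hdeg' P z a h

end Fermat.Agent.JA
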