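/-
J-A package ES / C3 (helper4), part 15: **Eichler–Shimura at place level for every place of
`X₀(N)`** (O4), from the chart inputs of the place reduction:
(RES) `GaussRes`, (EVAL) `ChartEval` and (SEP) `ChartSep` for the `j`-chart and for the cusp chart
`V = (j - b)⁻¹`, and `deg = 1` for the places of `F̃`.
-/
import Mathlib
import Fermat.Agent.JA.ES_helper4_Series
import Fermat.Agent.JA.ES_helper4_G2
import Fermat.Agent.JA.ES_helper7_SpecNAlong
import Fermat.Agent.JA.ES1_helper2_Shape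
import Fermat.Agent.JA.ES1_helper2_Integral
import Fermat.Agent.JA.ES1_helper2_Cusp

set_option autoImplicit false
set_option linter.unusedSectionVars false
set_option linter.style.haveILetI false

open HahnSeries IntermediateField AlgebraicCurve

namespace Fermat.Agent.JA

open ModularCurve Fermat.Agent.X0N Fermat.Agent.Igusa

set_option synthInstance.maxHeartbeats 400000
set_option maxHeartbeats 1600000

section Aux

variable {K F : Type*} [Field K] [Field F] [Algebra K F]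

/-- a function fixed by `g` and regular at `Q` is regular at `g • Q`. -/
theorem mem_smul_place_of_smul_eq (g : SemilinearAut K F) (Q : Place K F) {f : F}
    (hf : g • f = f) (h : f ∈ Q.toValuationSubring) : f ∈ (g • Q).toValuationSubring := by
  rw [SemilinearAut.smul_toValuationSubring,
    ValuationSubring.mem_pointwise_smul_iff_inv_smul_mem]
  have e : g⁻¹ • f = f := by
    conv_lhs => rw [← hf]
    exact inv_smul_smul g f
  rw [e]
  exact h

/-- a function fixed by `g` and vanishing at `Q` vanishes at `g • Q`. -/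
theorem hasValueAt_zero_smul_place_of_smul_eq (g : SemilinearAut K F) (Q : Place K F) {f : F}
    (hf : g • f = f) (h : HasValueAt Q f 0) : HasValueAt (g • Q) f 0 := by
  have h1 := h.smul g
  rw [map_zero, hf] at h1
  exact h1

/-- the value of a polynomial expression with integer coefficients. -/
theorem HasValueAt.aeval_int {P : Place K F} {f : F} {c : K} (hf : HasValueAt P f c)
    (u : Polynomial ℤ) : HasValueAt P (Polynomial.aeval f u) (Polynomial.aeval c u) := by
  rw [Polynomial.aeval_eq_sum_range, Polynomial.aeval_eq_sum_range]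
  refine HasValueAt.sum _ _ _ fun i _ => ?_
  rw [zsmul_eq_mul, zsmul_eq_mul]
  refine HasValueAt.mul ?_ (hf.pow i)
  have e : ((u.coeff i : ℤ) : F) = algebraMap K F ((u.coeff i : ℤ) : K) := (map_intCast _ _).symm
  rw [e]
  exact HasValueAt.algebraMap' P _

/-- a polynomial with constant coefficient one takes unit values on the maximal ideal. -/
theorem isUnit_aeval_of_residue_eq_zero {K : Type*} [Field K] (A : ValuationSubring K)
    (u : Polynomial ℤ) (hu : u.coeff 0 = 1) (a : ↥A) (ha : IsLocalRing.residue ↥A a = 0) :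
    IsUnit (Polynomial.aeval a u) := by
  rw [← IsLocalRing.residue_ne_zero_iff_isUnit]
  have e : IsLocalRing.residue ↥A (Polynomial.aeval a u)
      = Polynomial.aeval (IsLocalRing.residue ↥A a) u :=
    (Polynomial.aeval_algHom_apply (IsLocalRing.residue ↥A).toIntAlgHom a u).symm
  rw [e, ha, ← Polynomial.coeff_zero_eq_aeval_zero', hu]
  simp

/-- a primitive `ℓ`-th root of unity of `ℚ̄` is a unit of every valuation subring. -/
theorem exists_unit_isPrimitiveRoot (A : ValuationSubring (AlgebraicClosure ℚ)) (ℓ : ℕ)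
    [NeZero ℓ] :
    ∃ ζ : (↥A)ˣ, IsPrimitiveRoot
      (Units.map (A.subtype : ↥A →* AlgebraicClosure ℚ) ζ) ℓ := by
  obtain ⟨ζ, hζ⟩ := HasEnoughRootsOfUnity.exists_primitiveRoot (AlgebraicClosure ℚ) ℓ
  have hpow : ζ ^ ℓ = 1 := hζ.pow_eq_one
  have hζ0 : ζ ≠ 0 := hζ.ne_zero (NeZero.ne ℓ)
  have hinv : ζ⁻¹ = ζ ^ (ℓ - 1) := by
    have h1 : ζ * ζ ^ (ℓ - 1) = 1 := by
      rw [← pow_succ', Nat.sub_add_cancel (Nat.one_le_iff_ne_zero.mpr (NeZero.ne ℓ)), hpow]
    exact (eq_inv_of_mul_eq_one_right h1).symm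
  have hmem : ζ ∈ A := by
    rcases A.mem_or_inv_mem ζ with h | h
    · exact h
    · have h2 : (ζ⁻¹) ^ (ℓ - 1) ∈ A := A.pow_mem h _
      have e : (ζ⁻¹) ^ (ℓ - 1) = ζ := by
        have h3 : (ζ⁻¹) ^ (ℓ - 1) * ζ⁻¹ = 1 := by
          rw [← pow_succ, Nat.sub_add_cancel (Nat.one_le_iff_ne_zero.mpr (NeZero.ne ℓ)),
            inv_pow, hpow, inv_one]
        have := eq_inv_of_mul_eq_one_left h3
        rwa [inv_inv] at this
      rwa [e] at h2
  have hmem' : ζ⁻¹ ∈ A := by
    rw [hinv]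
    exact A.pow_mem hmem _
  let u : (↥A)ˣ := ⟨⟨ζ, hmem⟩, ⟨ζ⁻¹, hmem'⟩, Subtype.ext (mul_inv_cancel₀ hζ0),
    Subtype.ext (inv_mul_cancel₀ hζ0)⟩
  refine ⟨u, ?_⟩
  have e : ((Units.map (A.subtype : ↥A →* AlgebraicClosure ℚ) u : (AlgebraicClosure ℚ)ˣ) :
      AlgebraicClosure ℚ) = ζ := rfl
  exact IsPrimitiveRoot.coe_units_iff.mp (e ▸ hζ)

end Aux

section Main

variable {ℓ : ℕ} [hℓ : Fact ℓ.Prime] {A : ValuationSubring (AlgebraicClosure ℚ)}
  {N : ℕ} [NeZero N]

/-- the norm formula of (ES1) in the shape `hnormf` of `chart_kron`. -/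
theorem hnormf_of_es1 (hℓN : ¬ ℓ ∣ N) (ζ : (↥A)ˣ)
    (hζ : IsPrimitiveRoot (Units.map (A.subtype : ↥A →* AlgebraicClosure ℚ) ζ) ℓ)
    (Y : ↥(modularFunctionFieldBar N)) (c : AlgebraicClosure ℚ) :
    haveI : NeZero ℓ := ⟨hℓ.out.ne_zero⟩
    qExpand (AlgebraicClosure ℚ) ℓ
        ((normAlong (heckeBetaBar (AlgebraicClosure ℚ) N ℓ)
          (algebraMap (AlgebraicClosure ℚ) ↥(modularFunctionFieldBar (N * ℓ)) c
            - heckeAlphaBar (AlgebraicClosure ℚ) N ℓ Y) : ↥(modularFunctionFieldBar N)) :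
          LaurentSeries (AlgebraicClosure ℚ))
      = (∏ b ∈ Finset.range ℓ,
          twist (Units.map (A.subtype : ↥A →* AlgebraicClosure ℚ) ζ ^ b)
            (HahnSeries.C c - (Y : LaurentSeries (AlgebraicClosure ℚ))))
        * (HahnSeries.C c
            - qExpand (AlgebraicClosure ℚ) (ℓ ^ 2) (Y : LaurentSeries (AlgebraicClosure ℚ))) := by
  haveI : NeZero ℓ := ⟨hℓ.out.ne_zero⟩
  exact qExpand_norm_sub_heckeAlphaBar_range hℓ.out hℓN _ hζ c Y

/-- the integrality input `hint` of `chart_kron` for the `j`-chart. -/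
theorem hint_jBar (hℓN : ¬ ℓ ∣ N) :
    haveI : NeZero ℓ := ⟨hℓ.out.ne_zero⟩
    ((heckeBetaBar (AlgebraicClosure ℚ) N ℓ).toRingHom.comp
      (algebraMap ↥(coeffSubring A N (jBar N)) _)).IsIntegralElem
        (heckeAlphaBar (AlgebraicClosure ℚ) N ℓ (jBar N)) := by
  haveI : NeZero ℓ := ⟨hℓ.out.ne_zero⟩
  set f := (heckeBetaBar (AlgebraicClosure ℚ) N ℓ).toRingHom.comp
      (algebraMap ↥(coeffSubring A N (jBar N)) ↥(modularFunctionFieldBar N)) with hf
  have h1 : IsIntegral ↥f.range (heckeAlphaBar (AlgebraicClosure ℚ) N ℓ (jBar N)) := by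
    refine isIntegral_of_adjoin_int_of_subset ?_ (isIntegral_heckeAlphaBar_jBar hℓ.out hℓN)
    intro w hw
    rw [Set.mem_singleton_iff] at hw
    rw [hw]
    exact ⟨⟨jBar N, self_mem_coeffSubring _⟩, rfl⟩
  exact isIntegralElem_of_isIntegral_of_le_range f f.range le_rfl h1

/-- **(O4) on the `j`-chart.** -/
theorem es_place_jchart (hA : A.LiesOverPrime ℓ) (hℓN : ¬ ℓ ∣ N)
    (h : GaussRes A N (IsLocalRing.residue A))
    [HasPrincipalDivisors (AlgebraicClosure ℚ)
      (laurentBaseChange (AlgebraicClosure ℚ) (modularFunctionFieldFull (N * ℓ)))]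
    (hα : haveI : NeZero ℓ := ⟨hℓ.out.ne_zero⟩; HeckeAlphaBarIntegral (AlgebraicClosure ℚ) N ℓ)
    (hβ : haveI : NeZero ℓ := ⟨hℓ.out.ne_zero⟩; HeckeBetaBarIntegral (AlgebraicClosure ℚ) N ℓ)
    (r : Place (AlgebraicClosure ℚ) (modularFunctionFieldBar N) →
      Place (IsLocalRing.ResidueField A)
        (modularFunctionFieldFullC (IsLocalRing.ResidueField A) N))
    (σ₀ : A.decompositionSubgroup ℚ) (hσ₀ : A.IsFrobeniusAt σ₀.1 ℓ)
    (hdegk : ∀ Q : Place (IsLocalRing.ResidueField A)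
      (modularFunctionFieldFullC (IsLocalRing.ResidueField A) N), Q.deg = 1)
    (hev : ChartEval h (jBar N) r)
    (hsep : ChartSep h (jBar N)
      (fun Q => jTildeElt (IsLocalRing.ResidueField A) N ∈ Q.toValuationSubring))
    (P : Place (AlgebraicClosure ℚ) (modularFunctionFieldBar N))
    (hP : GoodAt A N (jBar N) P) :
    haveI : NeZero ℓ := ⟨hℓ.out.ne_zero⟩
    Finsupp.mapDomain r (heckeDivBar hα hβ (Finsupp.single P 1))
      = Finsupp.single (coeffAutC (IsLocalRing.ResidueField A) N (resAut A σ₀) • r P) 1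
        + Finsupp.single ((coeffAutC (IsLocalRing.ResidueField A) N (resAut A σ₀))⁻¹ • r P)
            (ℓ : ℤ) := by
  haveI : NeZero ℓ := ⟨hℓ.out.ne_zero⟩
  obtain ⟨ζ, hζ⟩ := exists_unit_isPrimitiveRoot A ℓ
  have hζ1 : ζ ^ ℓ = 1 := by
    have h1 := hζ.pow_eq_one
    rw [← map_pow] at h1
    exact Units.map_injective (f := (A.subtype : ↥A →* AlgebraicClosure ℚ))
      Subtype.val_injective (h1.trans (map_one _).symm)
  have hdeg' : ∀ W : Place (AlgebraicClosure ℚ) (modularFunctionFieldBar (N * ℓ)), W.deg = 1 :=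
    fun W => (jCoordBar (N * ℓ)).deg_eq_one W
  refine es_place_modular hα hβ r σ₀ hσ₀ (chartι A N (jBar N)) (chartρF h (jBar N))
    (chartι A N (jBar N)) (chartρF h (jBar N)) (GoodAt A N (jBar N)) (GoodAt A N (jBar N))
    (fun Q => jTildeElt (IsLocalRing.ResidueField A) N ∈ Q.toValuationSubring)
    (fun Q _ => hdegk Q) hev hev ?_ ?_ ?_ ?_ ?_ hsep ?_ ?_ P hP
  · -- hgood_r
    intro P hP
    obtain ⟨a, -, h2⟩ := hev P hP (jA A N)
    rw [chartρF_jA] at h2
    exact h2.mem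
  · intro P hP
    obtain ⟨a, -, h2⟩ := hev P hP (jA A N)
    rw [chartρF_jA] at h2
    exact h2.mem
  · -- hgoodΦ
    intro Q hQ
    refine ⟨mem_smul_place_of_smul_eq _ Q (coeffAutC_smul_jTildeElt _ N _) hQ, ?_⟩
    rw [← map_inv]
    exact mem_smul_place_of_smul_eq _ Q (coeffAutC_smul_jTildeElt _ N _) hQ
  · -- hreg
    intro y Q hQ
    refine chartρF_mem_of_mem h (jBar N)
      (Subring.inclusion (chartRing_le_gaussRing (jBar N)) (jA A N)) chartι_jA y Q ?_
    have e : gaussρF h (Subring.inclusion (chartRing_le_gaussRing (jBar N)) (jA A N))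
        = jTildeElt (IsLocalRing.ResidueField A) N := chartρF_jA h
    rw [e]
    exact hQ
  · -- hG2
    intro P hP W hW
    obtain ⟨a, ha⟩ := hP
    have hWP : W.restrictAlong (heckeBetaBar (AlgebraicClosure ℚ) N ℓ) hβ = P :=
      Place.mem_fiberAlong.mp hW
    have h1 : HasValueAt W (heckeBetaBar (AlgebraicClosure ℚ) N ℓ (jBar N))
        (a : AlgebraicClosure ℚ) := by
      rw [← hasValueAt_restrictAlong_iff _ hβ, hWP]
      exact ha
    obtain ⟨a', ha'⟩ := hasValueAt_of_isIntegral_adjoin_int (A := A) (hdeg' W)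
      (isIntegral_heckeAlphaBar_jBar hℓ.out hℓN) ⟨a, h1⟩
    exact ⟨a', (hasValueAt_restrictAlong_iff _ hα W _ _).mpr ha'⟩
  · -- hkron
    exact chart_kron hA h (jBar N) σ₀ hσ₀ ζ hζ1 (hnormf_of_es1 hℓN ζ hζ) (hint_jBar hℓN)
  · -- hspec
    intro P z a hz
    exact hasValueAt_normAlong _ hβ (finiteAlong_heckeBetaBar N ℓ) hdeg' P z a hz

theorem jBar_sub_intCast_ne_zero (b : ℤ) :
    jBar N - (b : ↥(modularFunctionFieldBar N)) ≠ 0 := by
  intro h0
  apply transcendental_jBar N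
  have e : jBar N = algebraMap (AlgebraicClosure ℚ) ↥(modularFunctionFieldBar N)
      ((b : ℤ) : AlgebraicClosure ℚ) := by
    rw [map_intCast]
    exact sub_eq_zero.mp h0
  rw [e]
  exact isAlgebraic_algebraMap _

theorem map_inv_jBar_sub {F' : Type*} [Field F'] [Algebra (AlgebraicClosure ℚ) F']
    (φ : ↥(modularFunctionFieldBar N) →ₐ[AlgebraicClosure ℚ] F') (b : ℤ) :
    φ ((jBar N - (b : ↥(modularFunctionFieldBar N)))⁻¹) = (φ (jBar N) - (b : F'))⁻¹ := by
  rw [map_inv₀, map_sub, map_intCast]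

/-- **(O4) on the cusp chart `V = (j - b)⁻¹`.** -/
theorem es_place_vchart (hA : A.LiesOverPrime ℓ) (hℓN : ¬ ℓ ∣ N)
    (h : GaussRes A N (IsLocalRing.residue A))
    [HasPrincipalDivisors (AlgebraicClosure ℚ)
      (laurentBaseChange (AlgebraicClosure ℚ) (modularFunctionFieldFull (N * ℓ)))]
    (hα : haveI : NeZero ℓ := ⟨hℓ.out.ne_zero⟩; HeckeAlphaBarIntegral (AlgebraicClosure ℚ) N ℓ)
    (hβ : haveI : NeZero ℓ := ⟨hℓ.out.ne_zero⟩; HeckeBetaBarIntegral (AlgebraicClosure ℚ) N ℓ)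
    (r : Place (AlgebraicClosure ℚ) (modularFunctionFieldBar N) →
      Place (IsLocalRing.ResidueField A)
        (modularFunctionFieldFullC (IsLocalRing.ResidueField A) N))
    (σ₀ : A.decompositionSubgroup ℚ) (hσ₀ : A.IsFrobeniusAt σ₀.1 ℓ) (b : ℤ)
    (hdegk : ∀ Q : Place (IsLocalRing.ResidueField A)
      (modularFunctionFieldFullC (IsLocalRing.ResidueField A) N), Q.deg = 1)
    (hev : ChartEval h (jBar N - (b : ↥(modularFunctionFieldBar N)))⁻¹ r)
    (hsep : ChartSep h (jBar N - (b : ↥(modularFunctionFieldBar N)))⁻¹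
      (fun Q => HasValueAt Q (jTildeElt (IsLocalRing.ResidueField A) N
        - (b : ↥(modularFunctionFieldFullC (IsLocalRing.ResidueField A) N)))⁻¹ 0))
    (P : Place (AlgebraicClosure ℚ) (modularFunctionFieldBar N))
    (hP : ∃ a : ↥A, IsLocalRing.residue ↥A a = 0 ∧
      HasValueAt P (jBar N - (b : ↥(modularFunctionFieldBar N)))⁻¹ (a : AlgebraicClosure ℚ)) :
    haveI : NeZero ℓ := ⟨hℓ.out.ne_zero⟩
    Finsupp.mapDomain r (heckeDivBar hα hβ (Finsupp.single P 1))
      = Finsupp.single (coeffAutC (IsLocalRing.ResidueField A) N (resAut A σ₀) • r P) 1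
        + Finsupp.single ((coeffAutC (IsLocalRing.ResidueField A) N (resAut A σ₀))⁻¹ • r P)
            (ℓ : ℤ) := by
  haveI : NeZero ℓ := ⟨hℓ.out.ne_zero⟩
  obtain ⟨ζ, hζ⟩ := exists_unit_isPrimitiveRoot A ℓ
  have hζ1 : ζ ^ ℓ = 1 := by
    have h1 := hζ.pow_eq_one
    rw [← map_pow] at h1
    exact Units.map_injective (f := (A.subtype : ↥A →* AlgebraicClosure ℚ))
      Subtype.val_injective (h1.trans (map_one _).symm)
  have hdeg' : ∀ W : Place (AlgebraicClosure ℚ) (modularFunctionFieldBar (N * ℓ)), W.deg = 1 :=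
    fun W => (jCoordBar (N * ℓ)).deg_eq_one W
  set V : ↥(modularFunctionFieldBar N) := (jBar N - (b : ↥(modularFunctionFieldBar N)))⁻¹ with hV
  set Vt : ↥(modularFunctionFieldFullC (IsLocalRing.ResidueField A) N) :=
    (jTildeElt (IsLocalRing.ResidueField A) N
      - (b : ↥(modularFunctionFieldFullC (IsLocalRing.ResidueField A) N)))⁻¹ with hVt
  have hfix1 : coeffAutC (IsLocalRing.ResidueField A) N (resAut A σ₀) • Vt = Vt :=
    coeffAutC_smul_inv_jTildeElt_sub _ N _ b
  have hfix2 : (coeffAutC (IsLocalRing.ResidueField A) N (resAut A σ₀))⁻¹ • Vt = Vt := by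
    have e : (coeffAutC (IsLocalRing.ResidueField A) N (resAut A σ₀))⁻¹
        = coeffAutC (IsLocalRing.ResidueField A) N (resAut A σ₀)⁻¹ := (map_inv _ _).symm
    rw [e]
    exact coeffAutC_smul_inv_jTildeElt_sub _ N _ b
  -- the polynomial `u` of the cusp integrality
  obtain ⟨u, hu0, hune, hint⟩ := exists_isIntegral_heckeAlphaBar_inv_jBar_sub (N := N) (ℓ := ℓ) b
  rw [← hV] at hune hint
  set sA : ↥(chartRing A N V) := Polynomial.aeval (vA A N b) u with hsA
  have hιs : chartι A N V sA = Polynomial.aeval V u := by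
    rw [hsA, chartι_aeval, chartι_vA]
  have hβs : heckeBetaBar (AlgebraicClosure ℚ) N ℓ (Polynomial.aeval V u)
      = Polynomial.aeval (heckeBetaBar (AlgebraicClosure ℚ) N ℓ V) u :=
    (Polynomial.aeval_algHom_apply
      ((heckeBetaBar (AlgebraicClosure ℚ) N ℓ).toRingHom.toIntAlgHom) V u).symm
  have hsz : chartι A N V sA ∈ coeffSubring A N V := by
    rw [hιs]
    exact aeval_mem_coeffSubring V u
  have hs0 : chartι A N V sA ≠ 0 := by
    rw [hιs]
    intro h0
    apply hune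
    rw [← hβs, h0, map_zero]
  have hint' : IsIntegral ↥(Algebra.adjoin ℤ
      {heckeBetaBar (AlgebraicClosure ℚ) N ℓ V,
        (heckeBetaBar (AlgebraicClosure ℚ) N ℓ (chartι A N V sA))⁻¹})
      (heckeAlphaBar (AlgebraicClosure ℚ) N ℓ V) := by
    rw [hιs, hβs]
    exact hint
  -- the value of `sA` at a good place is a unit
  have hsP : ∀ P : Place (AlgebraicClosure ℚ) (modularFunctionFieldBar N),
      (∃ a : ↥A, IsLocalRing.residue ↥A a = 0 ∧ HasValueAt P V (a : AlgebraicClosure ℚ)) →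
      ∃ a : ↥A, IsUnit a ∧ HasValueAt P (chartι A N V sA) (a : AlgebraicClosure ℚ) := by
    rintro P ⟨a, ha0, ha⟩
    refine ⟨Polynomial.aeval a u, isUnit_aeval_of_residue_eq_zero A u hu0 a ha0, ?_⟩
    have e : ((Polynomial.aeval a u : ↥A) : AlgebraicClosure ℚ)
        = Polynomial.aeval (a : AlgebraicClosure ℚ) u :=
      (Polynomial.aeval_algHom_apply (A.subtype.toIntAlgHom) a u).symm
    rw [hιs, e]
    exact ha.aeval_int u
  have hgood_r : ∀ P : Place (AlgebraicClosure ℚ) (modularFunctionFieldBar N),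
      (∃ a : ↥A, IsLocalRing.residue ↥A a = 0 ∧ HasValueAt P V (a : AlgebraicClosure ℚ)) →
      HasValueAt (r P) Vt 0 := by
    rintro P ⟨a, ha0, ha⟩
    obtain ⟨a', h1, h2⟩ := hev P ⟨a, ha⟩ (vA A N b)
    rw [chartι_vA] at h1
    rw [chartρF_vA] at h2
    have e : a' = a := Subtype.ext (h1.unique ha)
    rw [e, ha0] at h2
    exact h2
  refine es_place_modular hα hβ r σ₀ hσ₀ (chartι A N V) (chartρF h V)
    (fun n : chartLoc A N V sA => gaussι A N n.1) (fun n : chartLoc A N V sA => gaussρF h n.1)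
    (fun P => ∃ a : ↥A, IsLocalRing.residue ↥A a = 0 ∧ HasValueAt P V (a : AlgebraicClosure ℚ))
    (fun P => ∃ a : ↥A, IsLocalRing.residue ↥A a = 0 ∧ HasValueAt P V (a : AlgebraicClosure ℚ))
    (fun Q => HasValueAt Q Vt 0)
    (fun Q _ => hdegk Q) ?_ ?_ hgood_r hgood_r ?_ ?_ ?_ hsep ?_ ?_ P hP
  · -- heval
    rintro P ⟨a, -, ha⟩ y
    exact hev P ⟨a, ha⟩ y
  · -- heval₂
    rintro P ⟨a, ha0, ha⟩ n
    exact chartLoc_eval h V r hev sA P ⟨a, ha⟩ (hsP P ⟨a, ha0, ha⟩) n
  · -- hgoodΦ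
    intro Q hQ
    constructor
    · exact hasValueAt_zero_smul_place_of_smul_eq _ Q hfix1 hQ
    · exact hasValueAt_zero_smul_place_of_smul_eq _ Q hfix2 hQ
  · -- hreg
    intro y Q hQ
    refine chartρF_mem_of_mem h V
      (Subring.inclusion (chartRing_le_gaussRing V) (vA A N b)) (chartι_vA b) y Q ?_
    have e : gaussρF h (Subring.inclusion (chartRing_le_gaussRing V) (vA A N b)) = Vt :=
      chartρF_vA h b
    rw [e]
    exact hQ.mem
  · -- hG2
    rintro P ⟨a, ha0, ha⟩ W hW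
    have hWP : W.restrictAlong (heckeBetaBar (AlgebraicClosure ℚ) N ℓ) hβ = P :=
      Place.mem_fiberAlong.mp hW
    have h1 : HasValueAt W (heckeBetaBar (AlgebraicClosure ℚ) N ℓ V)
        (a : AlgebraicClosure ℚ) := by
      rw [← hasValueAt_restrictAlong_iff _ hβ, hWP]
      exact ha
    rw [hV, map_inv_jBar_sub] at h1
    have hYb : heckeBetaBar (AlgebraicClosure ℚ) N ℓ (jBar N)
        - (b : ↥(modularFunctionFieldBar (N * ℓ))) ≠ 0 := by
      have e : heckeBetaBar (AlgebraicClosure ℚ) N ℓ (jBar N)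
          - (b : ↥(modularFunctionFieldBar (N * ℓ)))
          = heckeBetaBar (AlgebraicClosure ℚ) N ℓ
            (jBar N - (b : ↥(modularFunctionFieldBar N))) := by
        rw [map_sub, map_intCast]
      rw [e]
      exact (map_ne_zero _).mpr (jBar_sub_intCast_ne_zero b)
    obtain ⟨a', ha'0, ha'⟩ := hasValueAt_inv_sub_of_isIntegral_adjoin_int (A := A) (hdeg' W) b
      (isIntegral_heckeBetaBar_jBar (N := N) (ℓ := ℓ)) hYb ⟨a, ha0, h1⟩
    refine ⟨a', ha'0, (hasValueAt_restrictAlong_iff _ hα W _ _).mpr ?_⟩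
    rw [hV, map_inv_jBar_sub]
    exact ha'
  · -- hkron
    exact chartLoc_kron hA h V sA hsz hs0 σ₀ hσ₀ ζ hζ1 (hnormf_of_es1 hℓN ζ hζ) hint'
  · -- hspec
    intro P z a hz
    exact hasValueAt_normAlong _ hβ (finiteAlong_heckeBetaBar N ℓ) hdeg' P z a hz

/-- **(O4): Eichler–Shimura at place level for every place of `X₀(N)`.** -/
theorem es_place_all (hA : A.LiesOverPrime ℓ) (hℓN : ¬ ℓ ∣ N)
    (h : GaussRes A N (IsLocalRing.residue A))
    [HasPrincipalDivisors (AlgebraicClosure ℚ)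
      (laurentBaseChange (AlgebraicClosure ℚ) (modularFunctionFieldFull (N * ℓ)))]
    (hα : haveI : NeZero ℓ := ⟨hℓ.out.ne_zero⟩; HeckeAlphaBarIntegral (AlgebraicClosure ℚ) N ℓ)
    (hβ : haveI : NeZero ℓ := ⟨hℓ.out.ne_zero⟩; HeckeBetaBarIntegral (AlgebraicClosure ℚ) N ℓ)
    (r : Place (AlgebraicClosure ℚ) (modularFunctionFieldBar N) →
      Place (IsLocalRing.ResidueField A)
        (modularFunctionFieldFullC (IsLocalRing.ResidueField A) N))
    (σ₀ : A.decompositionSubgroup ℚ) (hσ₀ : A.IsFrobeniusAt σ₀.1 ℓ) (b : ℤ)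
    (hdegk : ∀ Q : Place (IsLocalRing.ResidueField A)
      (modularFunctionFieldFullC (IsLocalRing.ResidueField A) N), Q.deg = 1)
    (hevJ : ChartEval h (jBar N) r)
    (hsepJ : ChartSep h (jBar N)
      (fun Q => jTildeElt (IsLocalRing.ResidueField A) N ∈ Q.toValuationSubring))
    (hevV : ChartEval h (jBar N - (b : ↥(modularFunctionFieldBar N)))⁻¹ r)
    (hsepV : ChartSep h (jBar N - (b : ↥(modularFunctionFieldBar N)))⁻¹
      (fun Q => HasValueAt Q (jTildeElt (IsLocalRing.ResidueField A) N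
        - (b : ↥(modularFunctionFieldFullC (IsLocalRing.ResidueField A) N)))⁻¹ 0))
    (P : Place (AlgebraicClosure ℚ) (modularFunctionFieldBar N)) :
    haveI : NeZero ℓ := ⟨hℓ.out.ne_zero⟩
    Finsupp.mapDomain r (heckeDivBar hα hβ (Finsupp.single P 1))
      = Finsupp.single (coeffAutC (IsLocalRing.ResidueField A) N (resAut A σ₀) • r P) 1
        + Finsupp.single ((coeffAutC (IsLocalRing.ResidueField A) N (resAut A σ₀))⁻¹ • r P)
            (ℓ : ℤ) := by
  haveI : NeZero ℓ := ⟨hℓ.out.ne_zero⟩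
  rcases hasValueAt_or_hasValueAt_inv_sub (A := A) ((jCoordBar N).deg_eq_one P) (jBar N) b
    with hP | hP
  · exact es_place_jchart hA hℓN h hα hβ r σ₀ hσ₀ hdegk hevJ hsepJ P hP
  · exact es_place_vchart hA hℓN h hα hβ r σ₀ hσ₀ b hdegk hevV hsepV P hP

end Main

end Fermat.Agent.JA
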