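/-
J-A package ES / C3 (helper4), part 16: the inputs of helper7's `exists_placeReduction_of_charts`
for the two charts `z₁ = j`, `z₂ = (j - b)⁻¹` (Gauss-ring representatives and their relation), and
`es_place_all` restated with (SEP) in the shape used there.
-/
import Mathlib
import Fermat.Agent.JA.ES_helper4_Final

set_option autoImplicit false
set_option linter.unusedSectionVars false
set_option linter.style.haveILetI false

open HahnSeries IntermediateField AlgebraicCurve

namespace Fermat.Agent.JA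

open ModularCurve Fermat.Agent.X0N

set_option synthInstance.maxHeartbeats 400000
set_option maxHeartbeats 1600000

section Mono

variable {L : Type*} [Field L] [Algebra ℚ L] {A : ValuationSubring L} {N : ℕ}
variable {k : Type*} [Field k] {π : ↥A →+* k}

/-- (SEP) for a class of places implies (SEP) for every smaller class. -/
theorem ChartSep.mono {h : GaussRes A N π}
    {z : ↥(laurentBaseChange L (modularFunctionFieldFull N))}
    {goodk goodk' : Place k ↥(modularFunctionFieldFullC k N) → Prop}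
    (hsep : ChartSep h z goodk) (hle : ∀ Q, goodk' Q → goodk Q) : ChartSep h z goodk' :=
  fun T hT Q₀ hQ₀ => hsep T (fun Q hQ => hle Q (hT Q hQ)) Q₀ hQ₀

end Mono

section Reps

variable (A : ValuationSubring (AlgebraicClosure ℚ)) (N : ℕ) [NeZero N]

/-- `j` as a Gauss-integral series. -/
noncomputable def jG : ↥(gaussRing A N) :=
  Subring.inclusion (chartRing_le_gaussRing (jBar N)) (jA A N)

/-- `(j - b)⁻¹` as a Gauss-integral series. -/
noncomputable def vG (b : ℤ) : ↥(gaussRing A N) :=
  Subring.inclusion (chartRing_le_gaussRing _) (vA A N b)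

variable {A N}
variable {k : Type*} [Field k] {π : ↥A →+* k}

@[simp] theorem coe_jG : ((jG A N : ↥(gaussRing A N)) : LaurentSeries ↥A) = jqModC ↥A := rfl

@[simp] theorem coe_vG (b : ℤ) :
    ((vG A N b : ↥(gaussRing A N)) : LaurentSeries ↥A) = vSer ↥A b := rfl

theorem gaussι_jG : gaussι A N (jG A N) = jBar N := chartι_jA

theorem gaussι_vG (b : ℤ) :
    gaussι A N (vG A N b) = (jBar N - (b : ↥(modularFunctionFieldBar N)))⁻¹ := chartι_vA b

theorem gaussρF_jG (h : GaussRes A N π) : gaussρF h (jG A N) = jTildeElt k N := chartρF_jA h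

theorem gaussρF_vG (h : GaussRes A N π) (b : ℤ) :
    gaussρF h (vG A N b) = (jTildeElt k N - (b : ↥(modularFunctionFieldFullC k N)))⁻¹ :=
  chartρF_vA h b

/-- the relation between the two chart coordinates, in the Gauss ring. -/
theorem vG_mul_jG_sub (b : ℤ) : vG A N b * (jG A N - gaussC A N (b : ↥A)) = 1 := by
  apply Subtype.ext
  show vSer ↥A b * (jqModC ↥A - HahnSeries.C ((b : ℤ) : ↥A)) = 1
  rw [mul_comm]
  exact jqModC_sub_C_mul_vSer ↥A b

end Reps

section Main

variable {ℓ : ℕ} [hℓ : Fact ℓ.Prime] {A : ValuationSubring (AlgebraicClosure ℚ)}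
  {N : ℕ} [NeZero N]

/-- **(O4) for every place**, with (SEP) in the shape of `exists_placeReduction_of_charts`
(`yz₁ = jG A N`, `yz₂ = vG A N b`). -/
theorem es_place_all_of_gauss (hA : A.LiesOverPrime ℓ) (hℓN : ¬ ℓ ∣ N)
    (h : GaussRes A N (IsLocalRing.residue A))
    [HasPrincipalDivisors (AlgebraicClosure ℚ)
      (laurentBaseChange (AlgebraicClosure ℚ) (modularFunctionFieldFull (N * ℓ)))]
    (hα : haveI : NeZero ℓ := ⟨hℓ.out.ne_zero⟩; HeckeAlphaBarIntegral (AlgebraicClosure ℚ) N ℓ)
    (hβ : haveI : NeZero ℓ := ⟨hℓ.out.ne_zero⟩; HeckeBetaBarIntegral (AlgebraicClosure ℚ) N ℓ)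
    (r : Place (AlgebraicClosure ℚ) (modularFunctionFieldBar N) →
      Place (IsLocalRing.ResidueField A)
        (modularFunctionFieldFullC (IsLocalRing.ResidueField A) N))
    (σ₀ : A.decompositionSubgroup ℚ) (hσ₀ : A.IsFrobeniusAt σ₀.1 ℓ) (b : ℤ)
    (hdegk : ∀ Q : Place (IsLocalRing.ResidueField A)
      (modularFunctionFieldFullC (IsLocalRing.ResidueField A) N), Q.deg = 1)
    (hevJ : ChartEval h (jBar N) r)
    (hsepJ : ChartSep h (jBar N) (fun Q => gaussρF h (jG A N) ∈ Q.toValuationSubring))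
    (hevV : ChartEval h (jBar N - (b : ↥(modularFunctionFieldBar N)))⁻¹ r)
    (hsepV : ChartSep h (jBar N - (b : ↥(modularFunctionFieldBar N)))⁻¹
      (fun Q => gaussρF h (vG A N b) ∈ Q.toValuationSubring))
    (P : Place (AlgebraicClosure ℚ) (modularFunctionFieldBar N)) :
    haveI : NeZero ℓ := ⟨hℓ.out.ne_zero⟩
    Finsupp.mapDomain r (heckeDivBar hα hβ (Finsupp.single P 1))
      = Finsupp.single (coeffAutC (IsLocalRing.ResidueField A) N (resAut A σ₀) • r P) 1
        + Finsupp.single ((coeffAutC (IsLocalRing.ResidueField A) N (resAut A σ₀))⁻¹ • r P)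
            (ℓ : ℤ) := by
  haveI : NeZero ℓ := ⟨hℓ.out.ne_zero⟩
  refine es_place_all hA hℓN h hα hβ r σ₀ hσ₀ b hdegk hevJ ?_ hevV ?_ P
  · refine hsepJ.mono fun Q hQ => ?_
    rw [gaussρF_jG]
    exact hQ
  · refine hsepV.mono fun Q hQ => ?_
    rw [gaussρF_vG]
    exact hQ.mem

end Main

end Fermat.Agent.JA
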