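/-
J-A package G1-Ω (helper5), part 3a: integrality over `R[s]` inside `R((q))`, in a form which is
functorial in the coefficient ring: `IsChartIntegral s y` iff `y` is a root of a monic polynomial
with coefficients polynomials in `s` over `R`.
-/
import Mathlib
import Fermat.Prelude.Def_ModularCurve_LaurentCoeff

set_option autoImplicit false
set_option linter.unusedSectionVars false

open Polynomial ModularCurve

namespace Fermat.Agent.JA

noncomputable section

section ChartInt

variable {R : Type*} [CommRing R]

/-- the evaluation `R[X] → R((q))`, `X ↦ s`. -/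
def serEval (s : LaurentSeries R) : R[X] →+* LaurentSeries R :=
  eval₂RingHom (HahnSeries.C : R →+* LaurentSeries R) s

@[simp] theorem serEval_C (s : LaurentSeries R) (a : R) : serEval s (C a) = HahnSeries.C a := by
  rw [serEval, coe_eval₂RingHom, eval₂_C]

@[simp] theorem serEval_X (s : LaurentSeries R) : serEval s X = s := by
  rw [serEval, coe_eval₂RingHom, eval₂_X]

/-- `y` is integral over `R[s]` inside `R((q))`. -/
def IsChartIntegral (s y : LaurentSeries R) : Prop :=
  ∃ P : R[X][X], P.Monic ∧ eval₂ (serEval s) y P = 0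

theorem coeffMap_C_h5 {S : Type*} [CommRing S] (f : R →+* S) (a : R) :
    coeffMap f (HahnSeries.C a : LaurentSeries R) = HahnSeries.C (f a) := by
  rw [HahnSeries.C_apply, coeffMap_single, HahnSeries.C_apply]

theorem coeffMap_comp_serEval {S : Type*} [CommRing S] (f : R →+* S) (s : LaurentSeries R) :
    (coeffMap f).comp (serEval s) = (serEval (coeffMap f s)).comp (mapRingHom f) := by
  apply Polynomial.ringHom_ext
  · intro a
    rw [RingHom.comp_apply, RingHom.comp_apply, serEval_C, coeffMap_C_h5, coe_mapRingHom, map_C,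
      serEval_C]
  · rw [RingHom.comp_apply, RingHom.comp_apply, serEval_X, coe_mapRingHom, map_X, serEval_X]

theorem IsChartIntegral.map {S : Type*} [CommRing S] (f : R →+* S) {s y : LaurentSeries R}
    (h : IsChartIntegral s y) : IsChartIntegral (coeffMap f s) (coeffMap f y) := by
  obtain ⟨P, hP, h0⟩ := h
  refine ⟨P.map (mapRingHom f), hP.map _, ?_⟩
  rw [eval₂_map, ← coeffMap_comp_serEval, ← Polynomial.hom_eval₂, h0, map_zero]

theorem coeffMap_injective_h5 {S : Type*} [CommRing S] {f : R →+* S} (hf : Function.Injective f) :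
    Function.Injective (coeffMap f : LaurentSeries R → LaurentSeries S) := by
  intro x y h
  ext n
  have := congrArg (fun z : LaurentSeries S => z.coeff n) h
  simp only [coeffMap_coeff] at this
  exact hf this

/-- descent of integrality along an injective coefficient map, when the coefficients of the
equation come from the smaller ring. -/
theorem IsChartIntegral.of_map {S : Type*} [CommRing S] [Nontrivial S] {f : R →+* S}
    (hf : Function.Injective f) {s y : LaurentSeries R} (P : S[X][X]) (hP : P.Monic)
    (hcoef : ∀ i k, (P.coeff i).coeff k ∈ Set.range f)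
    (h0 : eval₂ (serEval (coeffMap f s)) (coeffMap f y) P = 0) : IsChartIntegral s y := by
  have hlift : P ∈ lifts (mapRingHom f) := by
    rw [lifts_iff_coeff_lifts]
    intro i
    have h1 : P.coeff i ∈ lifts f := (lifts_iff_coeff_lifts _).mpr (hcoef i)
    obtain ⟨q, hq⟩ := (mem_lifts _).mp h1
    exact ⟨q, by rw [coe_mapRingHom, hq]⟩
  obtain ⟨P₁, hP₁, -, hmon⟩ := lifts_and_degree_eq_and_monic hlift hP
  refine ⟨P₁, hmon, ?_⟩
  apply coeffMap_injective_h5 hf
  rw [map_zero, Polynomial.hom_eval₂, coeffMap_comp_serEval, ← eval₂_map, hP₁, h0]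

/-- integrality over the subring generated by the image of `φ` and `z`, via bivariate
polynomials. -/
theorem isIntegral_closure_iff {T : Type*} [CommRing T] [Nontrivial T] (φ : R →+* T) (z w : T) :
    IsIntegral ↥(Subring.closure (Set.range φ ∪ {z})) w ↔
      ∃ P : R[X][X], P.Monic ∧ eval₂ (eval₂RingHom φ z) w P = 0 := by
  set S := Subring.closure (Set.range φ ∪ {z}) with hS
  set e : R[X] →+* T := eval₂RingHom φ z with he
  have hle : S ≤ e.range := by
    rw [hS, Subring.closure_le]
    rintro x (⟨a, rfl⟩ | hx)
    · exact ⟨C a, by rw [he, coe_eval₂RingHom, eval₂_C]⟩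
    · rw [Set.mem_singleton_iff] at hx
      rw [hx]
      exact ⟨X, by rw [he, coe_eval₂RingHom, eval₂_X]⟩
  have hmem : ∀ f : R[X], e f ∈ S := by
    intro f
    rw [he, coe_eval₂RingHom, eval₂_eq_sum_range]
    refine Subring.sum_mem _ fun i _ => Subring.mul_mem _ ?_ (Subring.pow_mem _ ?_ _)
    · exact Subring.subset_closure (Or.inl ⟨_, rfl⟩)
    · exact Subring.subset_closure (Or.inr rfl)
  set ψ : R[X] →+* ↥S := e.codRestrict S hmem with hψ
  have hψsurj : Function.Surjective ψ := by
    rintro ⟨x, hx⟩
    obtain ⟨f, hf⟩ := hle hx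
    exact ⟨f, Subtype.ext hf⟩
  have hcomp : (algebraMap ↥S T).comp ψ = e := RingHom.ext fun f => rfl
  constructor
  · rintro ⟨p, hp, h0⟩
    have hlift : p ∈ lifts ψ := by
      rw [lifts_iff_coeff_lifts]
      intro i
      exact hψsurj _
    obtain ⟨P, hP, -, hmon⟩ := lifts_and_degree_eq_and_monic hlift hp
    refine ⟨P, hmon, ?_⟩
    rw [← hcomp, ← eval₂_map, hP]
    exact h0
  · rintro ⟨P, hP, h0⟩
    refine ⟨P.map ψ, hP.map _, ?_⟩
    rw [eval₂_map, hcomp]
    exact h0

end ChartInt

end

end Fermat.Agent.JA
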