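/-
J-A package G1-Ω (helper5), part 3b: **saturation of a chart at a base**: for a discrete valuation
ring `R`, `F ⊆ L((q))` finite over `K₀ = L(s)`, `s` Gauss-integral with transcendental reduction
and uniqueness of the Gauss valuation of `F`: if `y ∈ R((q))` is integral over `R[s]`, lies in `F`
and reduces to `0`, then `y = π y'` with `y'` integral over `R[s]`.
-/
import Fermat.Agent.JA.G1OMEGA_helper5_SatAlg
import Fermat.Agent.JA.G1_helper5_Unr
import Fermat.Agent.JA.GEO_lead_Local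

set_option autoImplicit false
set_option linter.unusedSectionVars false
set_option linter.style.haveILetI false

open Polynomial IntermediateField Fermat.Agent.Igusa ModularCurve

namespace Fermat.Agent.JA

noncomputable section

section SatBase

variable {R : Type*} [CommRing R] [IsDomain R] [IsDiscreteValuationRing R] [CharZero R]
  {L : Type*} [Field L] [Algebra R L] [IsFractionRing R L]
  (F : IntermediateField L (LaurentSeries L)) (hF : F ≤ gaussField R L)
  (sR : LaurentSeries R)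
  (hst : Transcendental (IsLocalRing.ResidueField R) (red R sR))
  {K₀ : Type*} [Field K₀] [Algebra L K₀] [Algebra R K₀] [IsScalarTower R L K₀]
  [Algebra K₀ ↥F] [IsScalarTower L K₀ ↥F]
  (j₀ : K₀) (hj₀ : ((algebraMap K₀ ↥F j₀ : ↥F) : LaurentSeries L) = emb R L sR)
  (ht : Transcendental L j₀) (hK₀ : IntermediateField.adjoin L {j₀} = ⊤)
  {π : R} (hπ : Irreducible π)

variable (R) in
/-- the structure map `R[j₀] → F`. -/
def adjoinToF : ↥(Algebra.adjoin R {j₀}) →+* ↥F :=
  (algebraMap K₀ ↥F).comp (algebraMap ↥(Algebra.adjoin R {j₀}) K₀)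

include hj₀ in
theorem coe_adjoinToF_aeval (g : R[X]) :
    ((adjoinToF R F j₀ (aeval (⟨j₀, Algebra.self_mem_adjoin_singleton R j₀⟩ :
      ↥(Algebra.adjoin R {j₀})) g) : ↥F) : LaurentSeries L) = emb R L (serEval sR g) := by
  have h := baseToSeries_aeval F sR j₀ hj₀ g
  rw [baseToSeries_apply] at h
  rw [adjoinToF, RingHom.comp_apply]
  have h1 : algebraMap ↥(Algebra.adjoin R {j₀}) K₀
      (aeval (⟨j₀, Algebra.self_mem_adjoin_singleton R j₀⟩ : ↥(Algebra.adjoin R {j₀})) g) =
      aeval j₀ g := coe_aeval_adjoin_gen j₀ g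
  rw [h1, h]
  rfl

include hj₀ ht in
/-- integrality over `R[j₀]` of an element of `F` with integral coefficients is integrality
over `R[s]` in `R((q))`. -/
theorem isIntegralElem_adjoinToF_iff (y : LaurentSeries R) (w : ↥F)
    (hw : (w : LaurentSeries L) = emb R L y) :
    (adjoinToF R F j₀).IsIntegralElem w ↔ IsChartIntegral sR y := by
  have hT := aeval_adjoin_bijective (R := R) (K₁ := L) j₀ ht
  set φ : R[X] →+* ↥(Algebra.adjoin R {j₀}) :=
    ((aeval (⟨j₀, Algebra.self_mem_adjoin_singleton R j₀⟩ : ↥(Algebra.adjoin R {j₀})) :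
      R[X] →ₐ[R] ↥(Algebra.adjoin R {j₀})) : R[X] →+* ↥(Algebra.adjoin R {j₀})) with hφ
  have hcomp : ((F.val : ↥F →+* LaurentSeries L).comp ((adjoinToF R F j₀).comp φ)) =
      (emb R L).comp (serEval sR) := by
    refine RingHom.ext fun g => ?_
    exact coe_adjoinToF_aeval F sR j₀ hj₀ g
  have hval : Function.Injective (F.val : ↥F →+* LaurentSeries L) := Subtype.val_injective
  have hkey : ∀ P : R[X][X], eval₂ (adjoinToF R F j₀) w (P.map φ) = 0 ↔
      eval₂ (serEval sR) y P = 0 := by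
    intro P
    rw [eval₂_map, ← map_eq_zero_iff _ hval, Polynomial.hom_eval₂, hcomp,
      ← map_eq_zero_iff _ (emb_injective R L), Polynomial.hom_eval₂]
    have : (F.val : ↥F →+* LaurentSeries L) w = emb R L y := hw
    rw [this]
  constructor
  · rintro ⟨p, hp, h0⟩
    have hlift : p ∈ lifts φ := by
      rw [lifts_iff_coeff_lifts]
      intro i
      exact hT.2 _
    obtain ⟨P, hP, -, hmon⟩ := lifts_and_degree_eq_and_monic hlift hp
    refine ⟨P, hmon, (hkey P).mp ?_⟩
    rw [hP]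
    exact h0
  · rintro ⟨P, hP, h0⟩
    exact ⟨P.map φ, hP.map _, (hkey P).mpr h0⟩

variable [FiniteDimensional K₀ ↥F]

include hF hst hj₀ ht hK₀ hπ in
/-- **saturation of the chart at a base**. -/
theorem sat_base
    (hmemW : ∀ W : ValuationSubring ↥F,
      (∀ c : ↥F, (c : LaurentSeries L) ∈ L⟮emb R L sR⟯ →
        (c ∈ W ↔ (c : LaurentSeries L) ∈ gaussInt R L)) →
      ∀ z : ↥F, (z : LaurentSeries L) ∈ gaussInt R L → z ∈ W)
    (y : LaurentSeries R) (hy : emb R L y ∈ F) (hint : IsChartIntegral sR y)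
    (hred : red R y = 0) :
    ∃ y' : LaurentSeries R, y = HahnSeries.C π * y' ∧ emb R L y' ∈ F ∧
      IsChartIntegral sR y' := by
  obtain ⟨y', hyy'⟩ := (red_eq_zero_iff hπ y).mp hred
  have hCne : (HahnSeries.C (algebraMap R L π) : LaurentSeries L) ≠ 0 :=
    C_algebraMap_ne_zero hπ.ne_zero
  have hemb : emb R L y = HahnSeries.C (algebraMap R L π) * emb R L y' := by
    rw [hyy', map_mul, emb_C]
  have hCF : (HahnSeries.C (algebraMap R L π) : LaurentSeries L) ∈ F := by
    have h1 : (HahnSeries.C (algebraMap R L π) : LaurentSeries L) =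
        algebraMap L (LaurentSeries L) (algebraMap R L π) := by
      rw [algebraMap_laurentSeries_eq_single, HahnSeries.C_apply]
    rw [h1]
    exact F.algebraMap_mem _
  have hy'F : emb R L y' ∈ F := by
    have h1 : emb R L y' = (HahnSeries.C (algebraMap R L π))⁻¹ * emb R L y := by
      rw [hemb, inv_mul_cancel_left₀ hCne]
    rw [h1]
    exact F.mul_mem (F.inv_mem hCF) hy
  refine ⟨y', hyy', hy'F, ?_⟩
  -- the chart
  haveI := isFractionRing_adjoin (R := R) (K₁ := L) j₀ hK₀
  obtain ⟨iDom, iUFD, hπA, hiff⟩ := isGaussAt_iff_eq_primeValSubring_adjoin π hπ j₀ ht hK₀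
  haveI : FaithfulSMul ↥(Algebra.adjoin R {j₀}) ↥F :=
    (faithfulSMul_iff_algebraMap_injective _ _).mpr
      ((algebraMap K₀ ↥F).injective.comp Subtype.val_injective)
  haveI : IsIntegrallyClosed ↥(integralClosure ↥(Algebra.adjoin R {j₀}) ↥F) :=
    integralClosure.isIntegrallyClosedOfFiniteExtension K₀
  set x : ↥F := ⟨emb R L y, hy⟩ with hxdef
  set w' : ↥F := ⟨emb R L y', hy'F⟩ with hw'def
  have hx : IsIntegral ↥(Algebra.adjoin R {j₀}) x :=
    (isIntegralElem_adjoinToF_iff F sR j₀ hj₀ ht y x rfl).mpr hint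
  -- the Gauss valuation subring
  have h𝒢 : IsGaussAt R π j₀ (primeValSubring K₀ hπA) := (hiff _).mpr rfl
  have h𝒢eq : primeValSubring K₀ hπA = (gaussValSub R L F hF).comap (algebraMap K₀ ↥F) :=
    isGaussAt_unique π hπ j₀ ht hK₀ h𝒢 (isGaussAt_comap_gaussValSub F hF sR j₀ hj₀ hπ hst)
  haveI : IsDiscreteValuationRing ↥(primeValSubring K₀ hπA) :=
    isDiscreteValuationRing_primeValSubring hπA
  haveI : Algebra.IsAlgebraic K₀ ↥F := Algebra.IsAlgebraic.of_finite K₀ ↥F
  have hw' : IsIntegral ↥(primeValSubring K₀ hπA) w' :=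
    isIntegral_of_mem_gaussInt F hF sR j₀ hj₀ hmemW _ h𝒢eq w' (emb_mem_gaussInt R L y')
  have hmul : x = algebraMap ↥(Algebra.adjoin R {j₀}) ↥F
      (algebraMap R ↥(Algebra.adjoin R {j₀}) π) * w' := by
    apply Subtype.ext
    have h1 : ((algebraMap ↥(Algebra.adjoin R {j₀}) ↥F
        (algebraMap R ↥(Algebra.adjoin R {j₀}) π) : ↥F) : LaurentSeries L) =
        constR (L := L) π := baseToSeries_algebraMap F π
    rw [MulMemClass.coe_mul, h1, constR_apply]
    exact hemb
  have hw'int := isIntegral_of_mul_eq (K := K₀) hπA hx hw' hmul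
  exact (isIntegralElem_adjoinToF_iff F sR j₀ hj₀ ht y' w' rfl).mp hw'int

end SatBase

section SatBase2

variable {R : Type*} [CommRing R] [IsDomain R] [IsDiscreteValuationRing R] [CharZero R]
  {L : Type*} [Field L] [Algebra R L] [IsFractionRing R L]
  (F : IntermediateField L (LaurentSeries L)) (hF : F ≤ gaussField R L)
  (jR sR : LaurentSeries R)
  (hst : Transcendental (IsLocalRing.ResidueField R) (red R sR))
  {K₀ : Type*} [Field K₀] [Algebra L K₀] [Algebra R K₀] [IsScalarTower R L K₀]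
  [Algebra K₀ ↥F] [IsScalarTower L K₀ ↥F]
  (g₀ : K₀) (hg₀ : ((algebraMap K₀ ↥F g₀ : ↥F) : LaurentSeries L) = emb R L jR)
  (htg : Transcendental L g₀) (hKg : IntermediateField.adjoin L {g₀} = ⊤)
  {π : R} (hπ : Irreducible π) [FiniteDimensional K₀ ↥F]

include hF hst hg₀ htg hKg hπ in
/-- **saturation of the chart of `s` at a base**, for any coordinate `s` of `K₀ = L(j)`
(`L(s) = L(j)`). -/
theorem sat_base_of_mem
    (H1a : emb R L sR ∈ L⟮emb R L jR⟯) (H1b : emb R L jR ∈ L⟮emb R L sR⟯)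
    (hmemW : ∀ W : ValuationSubring ↥F,
      (∀ c : ↥F, (c : LaurentSeries L) ∈ L⟮emb R L jR⟯ →
        (c ∈ W ↔ (c : LaurentSeries L) ∈ gaussInt R L)) →
      ∀ z : ↥F, (z : LaurentSeries L) ∈ gaussInt R L → z ∈ W)
    (y : LaurentSeries R) (hy : emb R L y ∈ F) (hint : IsChartIntegral sR y)
    (hred : red R y = 0) :
    ∃ y' : LaurentSeries R, y = HahnSeries.C π * y' ∧ emb R L y' ∈ F ∧
      IsChartIntegral sR y' := by
  obtain ⟨j₀, hj₀'⟩ := exists_baseToSeries_eq F jR g₀ hg₀ hKg H1a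
  have hj₀ : ((algebraMap K₀ ↥F j₀ : ↥F) : LaurentSeries L) = emb R L sR := hj₀'
  have hfield : L⟮emb R L sR⟯ = L⟮emb R L jR⟯ :=
    le_antisymm (adjoin_simple_le_iff.mpr H1a) (adjoin_simple_le_iff.mpr H1b)
  -- `j₀` generates `K₀`
  have hK₀ : IntermediateField.adjoin L {j₀} = ⊤ := by
    apply IntermediateField.map_injective (baseToSeries (K₀ := K₀) F)
    rw [IntermediateField.adjoin_map, Set.image_singleton, ← hKg, IntermediateField.adjoin_map,
      Set.image_singleton]
    have e1 : baseToSeries F j₀ = emb R L sR := hj₀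
    have e2 : baseToSeries F g₀ = emb R L jR := hg₀
    rw [e1, e2, hfield]
  -- `j₀` is transcendental
  have ht : Transcendental L j₀ := by
    intro halg
    apply htg
    haveI : Algebra.IsAlgebraic L ↥(L⟮j₀⟯) :=
      IntermediateField.isAlgebraic_adjoin_simple halg.isIntegral
    have hmem : g₀ ∈ L⟮j₀⟯ := by rw [hK₀]; trivial
    have h1 : IsAlgebraic L (⟨g₀, hmem⟩ : ↥(L⟮j₀⟯)) := Algebra.IsAlgebraic.isAlgebraic _
    exact IntermediateField.isAlgebraic_iff.mp h1
  refine sat_base F hF sR hst j₀ hj₀ ht hK₀ hπ (fun W hW z hz => ?_) y hy hint hred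
  exact hmemW W (fun c hc => hW c (hfield ▸ hc)) z hz

end SatBase2

end

end Fermat.Agent.JA
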