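/-
J-A package G1-Ω (helper5), part 3c: **(SAT-Ω)** = helper7's `ChartSat` for the charts of `j` and of
`1/(j - b)`: a chart function with zero reduction is divisible, in the chart ring, by a constant of
`A` with zero reduction.
-/
import Fermat.Agent.JA.G1OMEGA_helper5_SatBase
import Fermat.Agent.JA.G1OMEGA_helper5_PGI
import Fermat.Agent.JA.BC_helper9_DescBase
import Fermat.Agent.JA.RED_helper7_Defs
import Fermat.Agent.JA.HOST_helper3_Kit

set_option autoImplicit false
set_option linter.unusedSectionVars false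
set_option linter.style.haveILetI false

open scoped MatrixGroups
open Polynomial IntermediateField Fermat.Agent.Igusa Fermat.Agent.X0N ModularCurve
  CongruenceSubgroup AlgebraicCurve

namespace Fermat.Agent.JA

noncomputable section

section Link

variable {L : Type*} [Field L] [Algebra ℚ L] (A : ValuationSubring L) (N : ℕ)

/-- integrality over helper7's `coeffSubring A N z` is `IsChartIntegral`. -/
theorem isIntegral_coeffSubring_iff (z : ↥(laurentBaseChange L (modularFunctionFieldFull N)))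
    (zA : LaurentSeries ↥A) (hzA : coeffMap A.subtype zA = (z : LaurentSeries L))
    (y : LaurentSeries ↥A) (hy : y ∈ gaussRing A N) :
    IsIntegral ↥(coeffSubring A N z) (gaussι A N ⟨y, hy⟩) ↔ IsChartIntegral zA y := by
  set φ : ↥A →+* ↥(laurentBaseChange L (modularFunctionFieldFull N)) :=
    (algebraMap L ↥(laurentBaseChange L (modularFunctionFieldFull N))).comp A.subtype with hφ
  have hS : coeffSubring A N z = Subring.closure (Set.range φ ∪ {z}) := rfl
  rw [hS, isIntegral_closure_iff]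
  set val : ↥(laurentBaseChange L (modularFunctionFieldFull N)) →+* LaurentSeries L :=
    ((laurentBaseChange L (modularFunctionFieldFull N)).val :
      ↥(laurentBaseChange L (modularFunctionFieldFull N)) →+* LaurentSeries L) with hval
  have hinj : Function.Injective val := Subtype.val_injective
  have hcomp : val.comp (eval₂RingHom φ z) = (coeffMap A.subtype).comp (serEval zA) := by
    apply Polynomial.ringHom_ext
    · intro a
      rw [RingHom.comp_apply, RingHom.comp_apply, coe_eval₂RingHom, eval₂_C, serEval_C,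
        coeffMap_C_h5]
      change algebraMap L (LaurentSeries L) (a : L) = _
      rw [algebraMap_laurentSeries_eq_single, HahnSeries.C_apply]
      rfl
    · rw [RingHom.comp_apply, RingHom.comp_apply, coe_eval₂RingHom, eval₂_X, serEval_X, hzA]
      rfl
  have hkey : ∀ P : (↥A)[X][X], eval₂ (eval₂RingHom φ z) (gaussι A N ⟨y, hy⟩) P = 0 ↔
      eval₂ (serEval zA) y P = 0 := by
    intro P
    rw [← map_eq_zero_iff _ hinj, Polynomial.hom_eval₂, hcomp,
      ← map_eq_zero_iff _ (coeffMap_subtype_injective_h5 A), Polynomial.hom_eval₂]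
    rfl
  constructor
  · rintro ⟨P, hP, h0⟩
    exact ⟨P, hP, (hkey P).mp h0⟩
  · rintro ⟨P, hP, h0⟩
    exact ⟨P, hP, (hkey P).mpr h0⟩

end Link

section BaseInst

local notation "Ω" => AlgebraicClosure ℚ

variable {ℓ : ℕ} [Fact ℓ.Prime] {A : ValuationSubring (AlgebraicClosure ℚ)}
  (hA : A.LiesOverPrime ℓ) (N : ℕ) [NeZero N] {K₁ : IntermediateField ℚ (AlgebraicClosure ℚ)}

theorem coeffMap_intCast_comp {S T : Type*} [CommRing S] [CommRing T] (f : S →+* T)
    (zZ : LaurentSeries ℤ) :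
    coeffMap f (coeffMap (Int.castRingHom S) zZ) = coeffMap (Int.castRingHom T) zZ := by
  have h : f.comp (Int.castRingHom S) = Int.castRingHom T := RingHom.ext_int _ _
  rw [coeffMap_coeffMap, h]

include hA in
/-- **saturation of the chart of an integral coordinate at a base** `R₁ = A ∩ K₁`. -/
theorem sat_baseRing (hℓN : ¬ ℓ ∣ N) (hK₁ : IsBase ℓ K₁) (zZ : LaurentSeries ℤ)
    (H1a : coeffMap (Int.castRingHom ↥K₁) zZ ∈ (↥K₁)⟮jqModC ↥K₁⟯)
    (H1b : jqModC ↥K₁ ∈ (↥K₁)⟮coeffMap (Int.castRingHom ↥K₁) zZ⟯)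
    (H2 : Transcendental (IsLocalRing.ResidueField ↥(baseRing A K₁))
      (coeffMap (Int.castRingHom (IsLocalRing.ResidueField ↥(baseRing A K₁))) zZ))
    [IsDiscreteValuationRing ↥(baseRing A K₁)]
    {π : ↥(baseRing A K₁)} (hπ : Irreducible π)
    (y : LaurentSeries ↥(baseRing A K₁))
    (hy : emb ↥(baseRing A K₁) ↥K₁ y ∈ laurentBaseChange ↥K₁ (modularFunctionFieldFull N))
    (hint : IsChartIntegral (coeffMap (Int.castRingHom ↥(baseRing A K₁)) zZ) y)
    (hred : red ↥(baseRing A K₁) y = 0) :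
    ∃ y' : LaurentSeries ↥(baseRing A K₁), y = HahnSeries.C π * y' ∧
      emb ↥(baseRing A K₁) ↥K₁ y' ∈ laurentBaseChange ↥K₁ (modularFunctionFieldFull N) ∧
      IsChartIntegral (coeffMap (Int.castRingHom ↥(baseRing A K₁)) zZ) y' := by
  letI : Algebra ↥K₁ ℂ :=
    (((IsAlgClosed.lift : Ω →ₐ[ℚ] ℂ) : Ω →+* ℂ).comp (algebraMap ↥K₁ Ω)).toAlgebra
  haveI : IsScalarTower ℚ ↥K₁ ℂ := IsScalarTower.of_algebraMap_eq' (Subsingleton.elim _ _)
  haveI hfin : Module.Finite (↥K₁)⟮jGen ↥K₁ N⟯
      ↥(laurentBaseChange ↥K₁ (modularFunctionFieldFull N)) :=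
    (finrank_laurentBaseChange_full_eq ↥K₁ N).1
  have hjgen : ((jGen ↥K₁ N : ↥(laurentBaseChange ↥K₁ (modularFunctionFieldFull N))) :
      LaurentSeries ↥K₁) = emb ↥(baseRing A K₁) ↥K₁ (jqModC ↥(baseRing A K₁)) := by
    rw [emb_jqModC]
    change coeffEmb ↥K₁ jq = jqModC ↥K₁
    rw [coeffEmb, ← jqModC_rat, coeffMap_jqModC]
  have htrj : Transcendental ↥K₁ (jGen ↥K₁ N) := by
    have h := transcendental_coeffEmb_jq ↥K₁
    exact (transcendental_algebraMap_iff
      (algebraMap ↥(laurentBaseChange ↥K₁ (modularFunctionFieldFull N))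
        (LaurentSeries ↥K₁)).injective).mp h
  have hemb : emb ↥(baseRing A K₁) ↥K₁ (coeffMap (Int.castRingHom ↥(baseRing A K₁)) zZ) =
      coeffMap (Int.castRingHom ↥K₁) zZ := coeffMap_intCast_comp _ zZ
  have hredz : red ↥(baseRing A K₁) (coeffMap (Int.castRingHom ↥(baseRing A K₁)) zZ) =
      coeffMap (Int.castRingHom (IsLocalRing.ResidueField ↥(baseRing A K₁))) zZ :=
    coeffMap_intCast_comp _ zZ
  refine sat_base_of_mem (K₀ := ↥((↥K₁)⟮jGen ↥K₁ N⟯))
    (laurentBaseChange ↥K₁ (modularFunctionFieldFull N))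
    (laurentBaseChange_full_le_gaussField ↥(baseRing A K₁) ↥K₁ N)
    (jqModC ↥(baseRing A K₁)) (coeffMap (Int.castRingHom ↥(baseRing A K₁)) zZ)
    (by rw [hredz]; exact H2)
    (AdjoinSimple.gen ↥K₁ (jGen ↥K₁ N)) hjgen (Host.transcendental_gen htrj)
    (Host.adjoin_gen_eq_top _) hπ ?_ ?_ ?_ y hy hint hred
  · rw [hemb, emb_jqModC]; exact H1a
  · rw [hemb, emb_jqModC]; exact H1b
  · intro W hW z hz
    exact mem_of_mem_gaussInt_baseRing hA N hℓN hK₁.flatBase_le W hW z hz

end BaseInst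

section Omega

local notation "Ω" => AlgebraicClosure ℚ

variable {ℓ : ℕ} [Fact ℓ.Prime] {A : ValuationSubring (AlgebraicClosure ℚ)}
  (hA : A.LiesOverPrime ℓ) (N : ℕ) [NeZero N]

include hA in
/-- **(SAT-Ω)** for the chart of an integral coordinate `z` of the `j`-line, given by a Laurent
series `zZ` with integer coefficients such that `K₁(z) = K₁(j)` over every `K₁` and the reductions
of `z` are transcendental. -/
theorem chartSat_of_intSeries (hℓN : ¬ ℓ ∣ N) (zZ : LaurentSeries ℤ)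
    (H1a : ∀ K₁ : IntermediateField ℚ Ω,
      coeffMap (Int.castRingHom ↥K₁) zZ ∈ (↥K₁)⟮jqModC ↥K₁⟯)
    (H1b : ∀ K₁ : IntermediateField ℚ Ω,
      jqModC ↥K₁ ∈ (↥K₁)⟮coeffMap (Int.castRingHom ↥K₁) zZ⟯)
    (H2 : ∀ K₁ : IntermediateField ℚ Ω,
      Transcendental (IsLocalRing.ResidueField ↥(baseRing A K₁))
        (coeffMap (Int.castRingHom (IsLocalRing.ResidueField ↥(baseRing A K₁))) zZ))
    (z : ↥(laurentBaseChange Ω (modularFunctionFieldFull N)))
    (hz : (z : LaurentSeries Ω) = coeffMap (Int.castRingHom Ω) zZ) :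
    ChartSat (A := A) (N := N) (π := IsLocalRing.residue ↥A) z := by
  classical
  intro y hρ
  obtain ⟨hyG, hyI⟩ := y.2
  set zA : LaurentSeries ↥A := coeffMap (Int.castRingHom ↥A) zZ with hzAdef
  have hzA : coeffMap A.subtype zA = (z : LaurentSeries Ω) := by
    rw [hz]
    exact coeffMap_intCast_comp _ zZ
  obtain ⟨P, hP, hP0⟩ := (isIntegral_coeffSubring_iff A N z zA hzA _ hyG).mp hyI
  have hρ' : coeffMap (IsLocalRing.residue ↥A) (y : LaurentSeries ↥A) = 0 := hρ
  -- a base containing all the constants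
  set t : Finset Ω := P.coeffs.biUnion (fun q => q.coeffs.image (fun a : ↥A => (a : Ω))) with ht
  obtain ⟨K₁, hK₁, -, htK, y₁, hy₁, hy₁F⟩ :=
    (isBase_flatBase (ℓ := ℓ)).exists_ge_descent_int t hyG
  haveI := hK₁.isDiscreteValuationRing hA
  obtain ⟨π₁, hπ₁⟩ := IsDiscreteValuationRing.exists_irreducible ↥(baseRing A K₁)
  have hsR : coeffMap (baseIncl A K₁) (coeffMap (Int.castRingHom ↥(baseRing A K₁)) zZ) = zA :=
    coeffMap_intCast_comp _ zZ
  have hcoef : ∀ i k, (P.coeff i).coeff k ∈ Set.range (baseIncl A K₁) := by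
    intro i k
    by_cases h0 : (P.coeff i).coeff k = 0
    · exact ⟨0, by rw [map_zero, h0]⟩
    · have hi : P.coeff i ∈ P.coeffs :=
        coeff_mem_coeffs (fun h => h0 (by rw [h, coeff_zero]))
      have hk : (P.coeff i).coeff k ∈ (P.coeff i).coeffs := coeff_mem_coeffs h0
      have hmem : (((P.coeff i).coeff k : ↥A) : Ω) ∈ K₁ :=
        htK _ (Finset.mem_biUnion.mpr ⟨_, hi, Finset.mem_image.mpr ⟨_, hk, rfl⟩⟩)
      refine ⟨⟨⟨_, hmem⟩, ?_⟩, ?_⟩
      · rw [mem_baseRing_iff]
        exact (A.valuation_le_one_iff _).mpr ((P.coeff i).coeff k).2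
      · apply Subtype.ext
        rfl
  have hint₁ : IsChartIntegral (coeffMap (Int.castRingHom ↥(baseRing A K₁)) zZ) y₁ :=
    IsChartIntegral.of_map (baseIncl_injective A K₁) P hP hcoef (by rw [hsR, hy₁]; exact hP0)
  have hred₁ : red ↥(baseRing A K₁) y₁ = 0 := by
    have h1 := coeffMap_residue_coeffMap_baseIncl (A := A) y₁
    rw [hy₁, hρ'] at h1
    exact (coeffMap (baseResidueMap A K₁)).injective (by rw [← h1, map_zero])
  obtain ⟨y₁', hyy', hy₁'F, hint₁'⟩ := sat_baseRing hA N hℓN hK₁ zZ (H1a K₁) (H1b K₁) (H2 K₁)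
    hπ₁ y₁ hy₁F hint₁ hred₁
  -- push up
  have hy'G : coeffMap (baseIncl A K₁) y₁' ∈ gaussRing A N := by
    rw [mem_gaussRing_iff, coeffMap_subtype_coeffMap_baseIncl]
    exact coeffMap_hom_mem_laurentBaseChange _ _ hy₁'F
  have hint' : IsChartIntegral zA (coeffMap (baseIncl A K₁) y₁') := by
    have h := hint₁'.map (baseIncl A K₁)
    rwa [hsR] at h
  refine ⟨baseIncl A K₁ π₁, ⟨coeffMap (baseIncl A K₁) y₁', hy'G,
    (isIntegral_coeffSubring_iff A N z zA hzA _ hy'G).mpr hint'⟩, ?_, ?_⟩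
  · rw [← baseResidueMap_residue]
    have h0 : IsLocalRing.residue ↥(baseRing A K₁) π₁ = 0 := by
      rw [IsLocalRing.residue_eq_zero_iff, IsLocalRing.mem_maximalIdeal]
      exact hπ₁.not_isUnit
    rw [h0, map_zero]
  · change (y : LaurentSeries ↥A) = HahnSeries.C (baseIncl A K₁ π₁) * coeffMap (baseIncl A K₁) y₁'
    rw [← hy₁, hyy', map_mul, coeffMap_C_h5]

end Omega

section Charts

local notation "Ω" => AlgebraicClosure ℚ

variable {ℓ : ℕ} [Fact ℓ.Prime] {A : ValuationSubring (AlgebraicClosure ℚ)}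
  (hA : A.LiesOverPrime ℓ) (N : ℕ) [NeZero N]

include hA in
/-- **(SAT-Ω)** for the chart of `j`. -/
theorem chartSat_j (hℓN : ¬ ℓ ∣ N) (z : ↥(laurentBaseChange Ω (modularFunctionFieldFull N)))
    (hz : (z : LaurentSeries Ω) = jqModC Ω) :
    ChartSat (A := A) (N := N) (π := IsLocalRing.residue ↥A) z := by
  refine chartSat_of_intSeries hA N hℓN (jqModC ℤ) (fun K₁ => ?_) (fun K₁ => ?_) (fun K₁ => ?_) z
    (by rw [hz, coeffMap_jqModC])
  · rw [coeffMap_jqModC]
    exact mem_adjoin_simple_self _ _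
  · rw [coeffMap_jqModC]
    exact mem_adjoin_simple_self _ _
  · rw [coeffMap_jqModC]
    exact transcendental_jqModC _

/-- the inverse of `j - b` as a Laurent series with integer coefficients. -/
theorem exists_jInv (b : ℤ) :
    ∃ zZ : LaurentSeries ℤ, (jqModC ℤ - HahnSeries.C b) * zZ = 1 := by
  have hcoeff : ∀ k : ℤ, k < 0 →
      (jqModC ℤ - HahnSeries.C b).coeff k = (jqModC ℤ).coeff k := by
    intro k hk
    rw [HahnSeries.coeff_sub, HahnSeries.C_apply, HahnSeries.coeff_single_of_ne hk.ne, sub_zero]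
  have h1 : (jqModC ℤ - HahnSeries.C b).coeff (-1) = 1 := by
    rw [hcoeff _ (by norm_num), coeff_jqModC_neg_one]
  have hne : jqModC ℤ - HahnSeries.C b ≠ 0 := by
    intro h
    rw [h, HahnSeries.coeff_zero] at h1
    exact zero_ne_one h1
  have hord : (jqModC ℤ - HahnSeries.C b).order = -1 := by
    apply le_antisymm
    · exact HahnSeries.order_le_of_coeff_ne_zero (by rw [h1]; exact one_ne_zero)
    · by_contra hlt
      rw [not_le] at hlt
      have h2 := hcoeff _ (lt_trans hlt (by norm_num))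
      rw [coeff_jqModC_of_lt ℤ hlt] at h2
      exact hne (HahnSeries.coeff_order_eq_zero.mp h2)
  have hu : IsUnit (jqModC ℤ - HahnSeries.C b) := by
    rw [HahnSeries.isUnit_iff, HahnSeries.leadingCoeff_eq, hord, h1]
    exact isUnit_one
  obtain ⟨u, hu⟩ := hu
  exact ⟨↑u⁻¹, by rw [← hu]; exact u.mul_inv⟩

theorem coeffMap_jInv {b : ℤ} {zZ : LaurentSeries ℤ}
    (h : (jqModC ℤ - HahnSeries.C b) * zZ = 1) (k : Type*) [Field k] :
    coeffMap (Int.castRingHom k) zZ = (jqModC k - HahnSeries.C (b : k))⁻¹ := by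
  have h1 := congrArg (coeffMap (Int.castRingHom k)) h
  rw [map_mul, map_sub, coeffMap_jqModC, coeffMap_C_h5, map_one] at h1
  exact eq_inv_of_mul_eq_one_right h1

theorem C_mem_intermediateField_h5 {k : Type*} [Field k] (E : IntermediateField k (LaurentSeries k))
    (c : k) : (HahnSeries.C c : LaurentSeries k) ∈ E := by
  have h1 : (HahnSeries.C c : LaurentSeries k) = algebraMap k (LaurentSeries k) c := by
    rw [algebraMap_laurentSeries_eq_single, HahnSeries.C_apply]
  rw [h1]
  exact E.algebraMap_mem _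

theorem jqModC_sub_C_ne_zero {k : Type*} [Field k] (c : k) :
    jqModC k - HahnSeries.C c ≠ 0 := by
  intro h
  have h1 : jqModC k = algebraMap k (LaurentSeries k) c := by
    rw [algebraMap_laurentSeries_eq_single, ← HahnSeries.C_apply]
    exact sub_eq_zero.mp h
  exact transcendental_jqModC k (h1 ▸ isAlgebraic_algebraMap c)

theorem transcendental_inv_jqModC_sub_C {k : Type*} [Field k] (c : k) :
    Transcendental k (jqModC k - HahnSeries.C c)⁻¹ := by
  intro halg
  apply transcendental_jqModC k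
  have h1 : IsAlgebraic k (jqModC k - HahnSeries.C c) := by
    have := halg.inv
    rwa [inv_inv] at this
  have h2 : IsAlgebraic k (HahnSeries.C c : LaurentSeries k) := by
    have h3 : (HahnSeries.C c : LaurentSeries k) = algebraMap k (LaurentSeries k) c := by
      rw [algebraMap_laurentSeries_eq_single, HahnSeries.C_apply]
    rw [h3]
    exact isAlgebraic_algebraMap c
  have := h1.add h2
  rwa [sub_add_cancel] at this

include hA in
/-- **(SAT-Ω)** for the chart of `1/(j - b)`, `b ∈ ℤ`. -/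
theorem chartSat_inv (hℓN : ¬ ℓ ∣ N) (b : ℤ)
    (z : ↥(laurentBaseChange Ω (modularFunctionFieldFull N)))
    (hz : (z : LaurentSeries Ω) = (jqModC Ω - HahnSeries.C (b : Ω))⁻¹) :
    ChartSat (A := A) (N := N) (π := IsLocalRing.residue ↥A) z := by
  obtain ⟨zZ, hzZ⟩ := exists_jInv b
  refine chartSat_of_intSeries hA N hℓN zZ (fun K₁ => ?_) (fun K₁ => ?_) (fun K₁ => ?_) z
    (by rw [hz, coeffMap_jInv hzZ])
  · rw [coeffMap_jInv hzZ]
    exact inv_mem (sub_mem (mem_adjoin_simple_self _ _) (C_mem_intermediateField_h5 _ _))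
  · rw [coeffMap_jInv hzZ]
    have h1 : jqModC ↥K₁ = ((jqModC ↥K₁ - HahnSeries.C ((b : ℤ) : ↥K₁))⁻¹)⁻¹ +
        HahnSeries.C ((b : ℤ) : ↥K₁) := by
      rw [inv_inv, sub_add_cancel]
    rw [h1]
    refine add_mem (inv_mem ?_) (C_mem_intermediateField_h5 _ _)
    rw [inv_inv, sub_add_cancel]
    exact mem_adjoin_simple_self _ _
  · rw [coeffMap_jInv hzZ]
    exact transcendental_inv_jqModC_sub_C _

end Charts

end

end Fermat.Agent.JA
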