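/-
J-A programme, package RED (helper7), part 2: **existence of a place with prescribed values**
(lying over in the Dedekind ring of functions integral over `k[t]`).

`F / k` a function field with separating coordinate `t` (any characteristic), `Bt ⊆ F` a subring
containing `k` and `t`, integral over `k[t]`, `χ : Bt →+* k` a `k`-point: there is a place `Q` of
`F` with `b(Q) = χ b` for all `b ∈ Bt`.
-/
import Mathlib
import Fermat.Agent.JA.SEP_helper6_Coord

set_option autoImplicit false
set_option linter.unusedSectionVars false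
set_option linter.style.haveILetI false

open Polynomial AlgebraicCurve IsDedekindDomain IntermediateField

namespace Fermat.Agent.JA

open Fermat.Agent.FF Fermat.Agent.FF.RR

section TC

variable (K F : Type*) [Field K] [Field F] [Algebra K F] [Algebra K[X] F] [Algebra (RatFunc K) F]
  [IsScalarTower K[X] (RatFunc K) F] [IsScalarTower K K[X] F] [IsScalarTower K (RatFunc K) F]
  [FiniteDimensional (RatFunc K) F] [Algebra.IsSeparable (RatFunc K) F]

/-- **(EX-k), typeclass setting.** -/
theorem exists_place_hasValueAt_TC (Bt : Subring F) (hx : xF K F ∈ Bt)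
    (hK : ∀ c : K, algebraMap K F c ∈ Bt) (hint : ∀ b ∈ Bt, IsIntegral K[X] b)
    (χ : ↥Bt →+* K) (hχ : ∀ c : K, χ ⟨algebraMap K F c, hK c⟩ = c) :
    ∃ Q : Place K F, ∀ b : ↥Bt, HasValueAt Q (b : F) (χ b) := by
  classical
  -- the inclusion of `Bt` in the ring of integers
  let φ : ↥Bt →+* FunctionField.ringOfIntegers K F :=
    { toFun := fun b => ⟨(b : F), hint b b.2⟩
      map_one' := rfl
      map_mul' := fun _ _ => rfl
      map_zero' := rfl
      map_add' := fun _ _ => rfl }
  have hφ : ∀ b : ↥Bt, ((φ b : FunctionField.ringOfIntegers K F) : F) = (b : F) := fun _ => rfl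
  have hφinj : Function.Injective φ := by
    intro a b hab
    apply Subtype.ext
    have := congrArg (fun d : FunctionField.ringOfIntegers K F => (d : F)) hab
    exact this
  letI : Algebra ↥Bt (FunctionField.ringOfIntegers K F) := φ.toAlgebra
  -- polynomials land in `Bt`
  have hpoly : ∀ p : K[X], algebraMap K[X] F p ∈ Bt := by
    intro p
    rw [algebraMap_poly_eq_aeval_xF]
    induction p using Polynomial.induction_on' with
    | add p q hp hq => rw [map_add]; exact Bt.add_mem hp hq
    | monomial n a =>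
      rw [← C_mul_X_pow_eq_monomial, map_mul, map_pow, aeval_C, aeval_X]
      exact Bt.mul_mem (hK a) (Bt.pow_mem hx n)
  let ψ : K[X] →+* ↥Bt := (algebraMap K[X] F).codRestrict Bt hpoly
  letI : Algebra K[X] ↥Bt := ψ.toAlgebra
  haveI : IsScalarTower K[X] ↥Bt (FunctionField.ringOfIntegers K F) :=
    IsScalarTower.of_algebraMap_eq fun p => Subtype.ext rfl
  haveI : Algebra.IsIntegral ↥Bt (FunctionField.ringOfIntegers K F) := by
    refine ⟨fun d => ?_⟩
    have h1 : IsIntegral K[X] d := by
      have h2 : IsIntegral K[X] (algebraMap (FunctionField.ringOfIntegers K F) F d) := d.2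
      exact (isIntegral_algebraMap_iff
        (IsFractionRing.injective (FunctionField.ringOfIntegers K F) F)).mp h2
    exact h1.tower_top
  -- the kernel of `χ`
  have hsurj : Function.Surjective χ := fun c => ⟨_, hχ c⟩
  haveI hmax : (RingHom.ker χ).IsMaximal := RingHom.ker_isMaximal_of_surjective χ hsurj
  have hker : RingHom.ker (algebraMap ↥Bt (FunctionField.ringOfIntegers K F)) ≤ RingHom.ker χ := by
    intro b hb
    have : b = 0 := hφinj (by rw [map_zero]; exact hb)
    rw [this]; exact (RingHom.ker χ).zero_mem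
  obtain ⟨𝔮, h𝔮max, h𝔮⟩ := Ideal.exists_ideal_over_maximal_of_isIntegral (RingHom.ker χ) hker
  -- elements of the kernel
  have hmem : ∀ b : ↥Bt, φ (b - ⟨algebraMap K F (χ b), hK (χ b)⟩) ∈ 𝔮 := by
    intro b
    have h1 : b - ⟨algebraMap K F (χ b), hK (χ b)⟩ ∈ RingHom.ker χ := by
      rw [RingHom.mem_ker, map_sub, hχ, sub_self]
    rw [← h𝔮] at h1
    exact h1
  -- `𝔮` is not zero
  have h𝔮0 : 𝔮 ≠ ⊥ := by
    intro h0
    have h1 := hmem ⟨xF K F, hx⟩
    rw [h0, Ideal.mem_bot] at h1
    have h2 := congrArg (fun d : FunctionField.ringOfIntegers K F => (d : F)) h1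
    simp only [hφ] at h2
    have h3 : xF K F = algebraMap K F (χ ⟨xF K F, hx⟩) := sub_eq_zero.mp h2
    apply transcendental_xF K F
    rw [h3]
    exact isAlgebraic_algebraMap _
  refine ⟨placeOf (k := K) (F := F) ⟨𝔮, h𝔮max.isPrime, h𝔮0⟩, fun b => ?_⟩
  have h1 := (hasValueAt_placeOf_algebraMap_zero_iff (k := K) (F := F)
    (⟨𝔮, h𝔮max.isPrime, h𝔮0⟩ : HeightOneSpectrum (FunctionField.ringOfIntegers K F))
    (φ (b - ⟨algebraMap K F (χ b), hK (χ b)⟩))).mpr (hmem b)
  have h2 : algebraMap (FunctionField.ringOfIntegers K F) F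
      (φ (b - ⟨algebraMap K F (χ b), hK (χ b)⟩)) = (b : F) - algebraMap K F (χ b) := rfl
  rw [h2] at h1
  unfold HasValueAt at h1 ⊢
  rwa [map_zero, sub_zero] at h1

end TC

section Coord

variable {k F : Type*} [Field k] [Field F] [Algebra k F]

/-- **(EX-k), coordinate form.** -/
theorem exists_place_hasValueAt (t : F) (ht : Transcendental k t)
    [hfin : FiniteDimensional k⟮t⟯ F] [hsep : Algebra.IsSeparable k⟮t⟯ F]
    (Bt : Subring F) (htB : t ∈ Bt) (hK : ∀ c : k, algebraMap k F c ∈ Bt)
    (hint : ∀ b ∈ Bt, IsIntegral (Algebra.adjoin k {t}) b)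
    (χ : ↥Bt →+* k) (hχ : ∀ c : k, χ ⟨algebraMap k F c, hK c⟩ = c) :
    ∃ Q : Place k F, ∀ b : ↥Bt, HasValueAt Q (b : F) (χ b) := by
  obtain ⟨i1, i2, i3, i4, i5, i6, i7, hx⟩ :=
    exists_typeclass_setting_of_isSeparable (⟨t, ht, hfin⟩ : Coord k F) hsep
  have hx' : xF k F = t := hx
  refine exists_place_hasValueAt_TC k F Bt (by rw [hx']; exact htB) hK ?_ χ hχ
  intro b hb
  -- integrality over `k[t]` is integrality over `k[X]`
  have h1 := hint b hb
  let φ : k[X] →ₐ[k] Algebra.adjoin k {t} :=
    aeval (⟨t, Algebra.subset_adjoin (Set.mem_singleton _)⟩ : Algebra.adjoin k {t})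
  have hφsurj : Function.Surjective φ := by
    rintro ⟨y, hy⟩
    rw [Algebra.adjoin_singleton_eq_range_aeval] at hy
    obtain ⟨p, rfl⟩ := hy
    refine ⟨p, Subtype.ext ?_⟩
    have h : ∀ q : k[X], ((φ q : Algebra.adjoin k {t}) : F) = aeval t q := by
      intro q
      simp [φ]
    rw [h]
    rfl
  have hcomp : (algebraMap (Algebra.adjoin k {t}) F).comp φ.toRingHom = algebraMap k[X] F := by
    ext
    · simp [φ, algebraMap_poly_eq_aeval_xF]
    · simp [φ, algebraMap_poly_eq_aeval_xF, hx']
  obtain ⟨p, hpm, hp⟩ := h1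
  obtain ⟨q, hq, -, hqm⟩ := Polynomial.lifts_and_degree_eq_and_monic
    ((Polynomial.mem_lifts p).mpr (Polynomial.map_surjective φ.toRingHom hφsurj p)) hpm
  refine ⟨q, hqm, ?_⟩
  rw [← hcomp, ← Polynomial.eval₂_map, hq]
  exact hp

end Coord

end Fermat.Agent.JA
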