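/-
J-A programme, package RED (helper7), part 3: **integrality descends to reductions**.

If `z = ι y_z` is the function of a Gauss-integral series `y_z`, then for every Gauss-integral
series `y` whose function is integral over `A[z]`, the reduction `ρ y` is integral over `k[ρ y_z]`.
-/
import Mathlib
import Fermat.Agent.JA.RED_helper7_Defs

set_option autoImplicit false
set_option linter.unusedSectionVars false

open AlgebraicCurve ModularCurve Polynomial

namespace Fermat.Agent.JA

noncomputable section

section Abstract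

variable {B B' : Type*} [CommRing B] [CommRing B'] [Nontrivial B']

/-- integrality over a subring descends along an injective ring hom. -/
theorem isIntegral_of_injective_of_le_map (ι : B →+* B') (hι : Function.Injective ι)
    (Γ : Subring B) (S : Subring B') (hS : S ≤ Γ.map ι) {y : B} (hy : IsIntegral ↥S (ι y)) :
    IsIntegral ↥Γ y := by
  obtain ⟨p, hpm, hp⟩ := hy
  -- the surjection `Γ → Γ.map ι`
  let f : ↥Γ →+* ↥(Γ.map ι) := (ι.comp Γ.subtype).codRestrict (Γ.map ι)
    (fun x => Subring.mem_map.mpr ⟨x, x.2, rfl⟩)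
  have hf : Function.Surjective f := by
    rintro ⟨x, hx⟩
    obtain ⟨g, hg, rfl⟩ := Subring.mem_map.mp hx
    exact ⟨⟨g, hg⟩, rfl⟩
  set p' : (↥(Γ.map ι))[X] := p.map (Subring.inclusion hS) with hp'
  have hp'm : p'.Monic := hpm.map _
  obtain ⟨q, hq, -, hqm⟩ := Polynomial.lifts_and_degree_eq_and_monic
    ((Polynomial.mem_lifts p').mpr (Polynomial.map_surjective f hf p')) hp'm
  refine ⟨q, hqm, ?_⟩
  apply hι
  rw [map_zero]
  have h1 : ι (eval₂ (algebraMap ↥Γ B) y q) = eval₂ (ι.comp (algebraMap ↥Γ B)) (ι y) q :=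
    Polynomial.hom_eval₂ q (algebraMap ↥Γ B) ι y
  rw [h1]
  have h2 : ι.comp (algebraMap ↥Γ B) = ((Γ.map ι).subtype).comp f := rfl
  rw [h2, ← Polynomial.eval₂_map, hq, hp', Polynomial.eval₂_map]
  exact hp

end Abstract

section Modular

variable {L : Type*} [Field L] [Algebra ℚ L] (A : ValuationSubring L) (N : ℕ)
variable {k : Type*} [Field k] (π : ↥A →+* k)

/-- the subring `A[y_z]` of the ring of Gauss-integral series. -/
def coeffLift (yz : ↥(gaussRing A N)) : Subring ↥(gaussRing A N) :=
  Subring.closure (Set.range (gaussC A N) ∪ {yz})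

theorem coeffSubring_le_map (yz : ↥(gaussRing A N)) :
    coeffSubring A N (gaussι A N yz) ≤ (coeffLift A N yz).map (gaussι A N) := by
  rw [coeffSubring, Subring.closure_le]
  rintro x (⟨a, rfl⟩ | hx)
  · refine Subring.mem_map.mpr ⟨gaussC A N a, Subring.subset_closure (Or.inl ⟨a, rfl⟩), ?_⟩
    exact gaussι_gaussC A N a
  · rw [Set.mem_singleton_iff] at hx
    rw [hx]
    exact Subring.mem_map.mpr ⟨yz, Subring.subset_closure (Or.inr rfl), rfl⟩

variable {A N π}

theorem gaussρF_mem_adjoin (h : GaussRes A N π) (yz : ↥(gaussRing A N)) {γ : ↥(gaussRing A N)}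
    (hγ : γ ∈ coeffLift A N yz) : gaussρF h γ ∈ Algebra.adjoin k {gaussρF h yz} := by
  induction hγ using Subring.closure_induction with
  | mem x hx =>
    rcases hx with ⟨a, rfl⟩ | hx
    · have h1 : gaussρF h (gaussC A N a) =
          algebraMap k ↥(modularFunctionFieldFullC k N) (π a) := by
        apply Subtype.ext
        rw [coe_gaussρF]
        exact gaussρ_gaussC A N π a
      rw [h1]
      exact Subalgebra.algebraMap_mem _ _
    · rw [Set.mem_singleton_iff] at hx
      rw [hx]
      exact Algebra.subset_adjoin rfl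
  | zero => rw [map_zero]; exact Subalgebra.zero_mem _
  | one => rw [map_one]; exact Subalgebra.one_mem _
  | add x y _ _ hx hy => rw [map_add]; exact Subalgebra.add_mem _ hx hy
  | neg x _ hx => rw [map_neg]; exact Subalgebra.neg_mem _ hx
  | mul x y _ _ hx hy => rw [map_mul]; exact Subalgebra.mul_mem _ hx hy

/-- **integrality descends to reductions** (Gauss-ring form). -/
theorem isIntegral_gaussρF (h : GaussRes A N π) (yz y : ↥(gaussRing A N))
    (hy : IsIntegral ↥(coeffSubring A N (gaussι A N yz)) (gaussι A N y)) :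
    IsIntegral ↥(Algebra.adjoin k {gaussρF h yz}) (gaussρF h y) := by
  have h1 : IsIntegral ↥(coeffLift A N yz) y :=
    isIntegral_of_injective_of_le_map (gaussι A N) (gaussι_injective A N) _ _
      (coeffSubring_le_map A N yz) hy
  let θ : ↥(coeffLift A N yz) →+* ↥(Algebra.adjoin k {gaussρF h yz}) :=
    ((gaussρF h).comp (coeffLift A N yz).subtype).codRestrict _
      (fun γ => gaussρF_mem_adjoin h yz γ.2)
  exact IsIntegral.map_of_comp_eq θ (gaussρF h) rfl h1

/-- **integrality descends to reductions** (chart form). -/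
theorem isIntegral_chartρF (h : GaussRes A N π)
    (z : ↥(laurentBaseChange L (modularFunctionFieldFull N))) (yz : ↥(gaussRing A N))
    (hyz : gaussι A N yz = z) (y : ↥(chartRing A N z)) :
    IsIntegral ↥(Algebra.adjoin k {gaussρF h yz}) (chartρF h z y) := by
  subst hyz
  exact isIntegral_gaussρF h yz _ (isIntegral_chartι _ y)

end Modular

end

end Fermat.Agent.JA
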