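/-
J-A programme, package RED (helper7), part 5 (**R1**, continued): the reduction map of places.

* `EvalAt h z P Q` : the place `Q` of `F̃` is a reduction of the place `P` of `F_L` in the chart
  of `z` (every chart function has a value `a ∈ A` at `P` and its reduction has the value `π a`
  at `Q`);
* existence (from `exists_place_chartEval`), uniqueness (from (SEP) for the chart),
  compatibility of the charts of `z₁` and `z₂ = (z₁ - b)⁻¹` on the overlap, and the cover;
* `exists_chartReduction` : the reduction map `r`, with (EVAL) for both charts and its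
  characterisation.
-/
import Mathlib
import Fermat.Agent.JA.RED_helper7_R1
import Fermat.Agent.JA.SEP_helper6_Lift

set_option autoImplicit false
set_option linter.unusedSectionVars false
set_option linter.style.haveILetI false

open AlgebraicCurve ModularCurve IntermediateField

namespace Fermat.Agent.JA

noncomputable section

variable {L : Type*} [Field L] [Algebra ℚ L] {A : ValuationSubring L} {N : ℕ}
variable {k : Type*} [Field k] {π : ↥A →+* k}

/-- `Q` is a reduction of `P` in the chart of `z`. -/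
def EvalAt (h : GaussRes A N π) (z : ↥(laurentBaseChange L (modularFunctionFieldFull N)))
    (P : Place L ↥(laurentBaseChange L (modularFunctionFieldFull N)))
    (Q : Place k ↥(modularFunctionFieldFullC k N)) : Prop :=
  ∀ y : ↥(chartRing A N z), ∃ a : ↥A,
    HasValueAt P (chartι A N z y) (a : L) ∧ HasValueAt Q (chartρF h z y) (π a)

theorem chartEval_iff_evalAt (h : GaussRes A N π)
    (z : ↥(laurentBaseChange L (modularFunctionFieldFull N)))
    (r : Place L ↥(laurentBaseChange L (modularFunctionFieldFull N)) →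
      Place k ↥(modularFunctionFieldFullC k N)) :
    ChartEval h z r ↔ ∀ P, GoodAt A N z P → EvalAt h z P (r P) := Iff.rfl

theorem evalAt_iff (h : GaussRes A N π)
    (z : ↥(laurentBaseChange L (modularFunctionFieldFull N)))
    (P : Place L ↥(laurentBaseChange L (modularFunctionFieldFull N))) (hdeg : P.deg = 1)
    (hP : GoodAt A N z P) (Q : Place k ↥(modularFunctionFieldFullC k N)) :
    EvalAt h z P Q ↔
      ∀ y : ↥(chartRing A N z), HasValueAt Q (chartρF h z y) (π (chartEval z P hdeg hP y)) := by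
  constructor
  · intro hE y
    obtain ⟨a, ha, haQ⟩ := hE y
    have e : chartEval z P hdeg hP y = a := chartValue_eq z P hdeg hP y ha
    rw [e]
    exact haQ
  · intro hE y
    exact ⟨chartEval z P hdeg hP y, hasValueAt_chartEval z P hdeg hP y, hE y⟩

/-- **existence** of a reduction of `P` in the chart of `z`. -/
theorem exists_evalAt (hπ : Function.Surjective π) (h : GaussRes A N π)
    (z : ↥(laurentBaseChange L (modularFunctionFieldFull N)))
    (yz : ↥(gaussRing A N)) (hyz : gaussι A N yz = z) (hsat : ChartSat (π := π) z)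
    (ht : Transcendental k (gaussρF h yz))
    [FiniteDimensional k⟮gaussρF h yz⟯ ↥(modularFunctionFieldFullC k N)]
    [Algebra.IsSeparable k⟮gaussρF h yz⟯ ↥(modularFunctionFieldFullC k N)]
    (P : Place L ↥(laurentBaseChange L (modularFunctionFieldFull N))) (hdeg : P.deg = 1)
    (hP : GoodAt A N z P) :
    ∃ Q : Place k ↥(modularFunctionFieldFullC k N), EvalAt h z P Q := by
  obtain ⟨Q, hQ⟩ := exists_place_chartEval hπ h z yz hyz hsat ht P hdeg hP
  exact ⟨Q, (evalAt_iff h z P hdeg hP Q).mpr hQ⟩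

/-- the coordinate of the chart, as an element of the chart ring. -/
def chartCoord (z : ↥(laurentBaseChange L (modularFunctionFieldFull N)))
    (yz : ↥(gaussRing A N)) (hyz : gaussι A N yz = z) : ↥(chartRing A N z) :=
  ⟨(yz : LaurentSeries ↥A), mem_chartRing_of_gaussι_eq z yz hyz⟩

theorem chartι_chartCoord (z : ↥(laurentBaseChange L (modularFunctionFieldFull N)))
    (yz : ↥(gaussRing A N)) (hyz : gaussι A N yz = z) :
    chartι A N z (chartCoord z yz hyz) = z := hyz

theorem chartρF_chartCoord (h : GaussRes A N π)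
    (z : ↥(laurentBaseChange L (modularFunctionFieldFull N)))
    (yz : ↥(gaussRing A N)) (hyz : gaussι A N yz = z) :
    chartρF h z (chartCoord z yz hyz) = gaussρF h yz := rfl

/-- the reduced coordinate is regular at a reduction of `P`. -/
theorem EvalAt.coord_mem {h : GaussRes A N π}
    {z : ↥(laurentBaseChange L (modularFunctionFieldFull N))}
    {P : Place L ↥(laurentBaseChange L (modularFunctionFieldFull N))}
    {Q : Place k ↥(modularFunctionFieldFullC k N)} (hE : EvalAt h z P Q)
    (yz : ↥(gaussRing A N)) (hyz : gaussι A N yz = z) :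
    gaussρF h yz ∈ Q.toValuationSubring := by
  obtain ⟨a, -, ha⟩ := hE (chartCoord z yz hyz)
  rw [chartρF_chartCoord] at ha
  exact ha.mem

/-- **uniqueness** of the reduction of `P` in the chart of `z`, from (SEP). -/
theorem EvalAt.unique {h : GaussRes A N π}
    {z : ↥(laurentBaseChange L (modularFunctionFieldFull N))}
    {P : Place L ↥(laurentBaseChange L (modularFunctionFieldFull N))}
    {Q Q' : Place k ↥(modularFunctionFieldFullC k N)} (hE : EvalAt h z P Q)
    (hE' : EvalAt h z P Q') (yz : ↥(gaussRing A N)) (hyz : gaussι A N yz = z)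
    (hsep : ChartSep h z (fun Q => gaussρF h yz ∈ Q.toValuationSubring)) : Q = Q' := by
  classical
  by_contra hne
  obtain ⟨y, hy0, hy⟩ := hsep {Q, Q'} (by
    intro Q'' hQ''
    rw [Finset.mem_insert, Finset.mem_singleton] at hQ''
    rcases hQ'' with rfl | rfl
    · exact hE.coord_mem yz hyz
    · exact hE'.coord_mem yz hyz) Q (Finset.mem_insert_self _ _)
  have hy' := hy Q' (by rw [Finset.mem_insert, Finset.mem_singleton]; exact Or.inr rfl)
    (fun e => hne e.symm)
  obtain ⟨a, haP, haQ⟩ := hE y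
  obtain ⟨a', haP', haQ'⟩ := hE' y
  have e1 : a = a' := Subtype.ext (haP.unique haP')
  have e2 : π a = 0 := haQ.unique hy0
  rw [← e1, e2] at haQ'
  exact hy' haQ'

section Overlap

variable (h : GaussRes A N π)
  (z₁ z₂ : ↥(laurentBaseChange L (modularFunctionFieldFull N)))
  (yz₁ yz₂ : ↥(gaussRing A N)) (hyz₁ : gaussι A N yz₁ = z₁) (hyz₂ : gaussι A N yz₂ = z₂)
  (b : ↥A) (hrel : yz₂ * (yz₁ - gaussC A N b) = 1)

include hyz₁ hyz₂ hrel in
theorem chart_rel :
    z₂ * (z₁ - algebraMap L ↥(laurentBaseChange L (modularFunctionFieldFull N)) (b : L)) = 1 := by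
  have := congrArg (gaussι A N) hrel
  rw [map_mul, map_sub, map_one, hyz₁, hyz₂, gaussι_gaussC] at this
  exact this

include hyz₁ hyz₂ hrel in
/-- **the cover**: a place of degree one lies in the domain of one of the two charts. -/
theorem goodAt_or_goodAt (P : Place L ↥(laurentBaseChange L (modularFunctionFieldFull N)))
    (hdeg : P.deg = 1) : GoodAt A N z₁ P ∨ GoodAt A N z₂ P := by
  have hrel' := chart_rel z₁ z₂ yz₁ yz₂ hyz₁ hyz₂ b hrel
  have hz₂ : z₂ = (z₁ - algebraMap L ↥(laurentBaseChange L (modularFunctionFieldFull N))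
      (b : L))⁻¹ := eq_inv_of_mul_eq_one_left hrel'
  rcases (compVal A P hdeg).mem_or_inv_mem
    (z₁ - algebraMap L ↥(laurentBaseChange L (modularFunctionFieldFull N)) (b : L)) with h1 | h1
  · left
    obtain ⟨a, ha⟩ := mem_compVal_iff.mp h1
    refine ⟨a + b, ?_⟩
    have := ha.add (HasValueAt.algebraMap' P (b : L))
    rwa [sub_add_cancel] at this
  · right
    obtain ⟨a, ha⟩ := mem_compVal_iff.mp h1
    exact ⟨a, hz₂ ▸ ha⟩

include hyz₁ hyz₂ hrel in
/-- a function of the chart of `z₂` becomes a function of the chart of `z₁` after multiplication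
by a power of `z₁ - b`. -/
theorem exists_pow_mul_mem_chartRing (y : ↥(chartRing A N z₂)) :
    ∃ m : ℕ, ((yz₁ - gaussC A N b : ↥(gaussRing A N)) : LaurentSeries ↥A) ^ m *
      (y : LaurentSeries ↥A) ∈ chartRing A N z₁ := by
  have hrel' := chart_rel z₁ z₂ yz₁ yz₂ hyz₁ hyz₂ b hrel
  set wF : ↥(laurentBaseChange L (modularFunctionFieldFull N)) :=
    z₁ - algebraMap L ↥(laurentBaseChange L (modularFunctionFieldFull N)) (b : L) with hwF
  have hwS : wF ∈ coeffSubring A N z₁ :=
    (coeffSubring A N z₁).sub_mem (self_mem_coeffSubring z₁) (algebraMap_mem_coeffSubring z₁ b)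
  have hle : coeffSubring A N z₂ ≤ awaySubring (coeffSubring A N z₁) wF hwS := by
    rw [coeffSubring, Subring.closure_le]
    rintro x (⟨a, rfl⟩ | hx)
    · exact le_awaySubring _ _ hwS (algebraMap_mem_coeffSubring z₁ a)
    · rw [Set.mem_singleton_iff] at hx
      rw [hx]
      refine ⟨1, ?_⟩
      rw [pow_one, mul_comm, hrel']
      exact (coeffSubring A N z₁).one_mem
  have hint : IsIntegral ↥(awaySubring (coeffSubring A N z₁) wF hwS) (chartι A N z₂ y) :=
    IsIntegral.map_of_comp_eq (Subring.inclusion hle)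
      (RingHom.id ↥(laurentBaseChange L (modularFunctionFieldFull N))) rfl (isIntegral_chartι z₂ y)
  obtain ⟨m, hm⟩ := exists_pow_mul_isIntegral_of_isIntegral_awaySubring (coeffSubring A N z₁) wF hwS
    _ hint
  refine ⟨m, ?_⟩
  have hmem : ((yz₁ - gaussC A N b : ↥(gaussRing A N)) : LaurentSeries ↥A) ^ m *
      (y : LaurentSeries ↥A) ∈ gaussRing A N :=
    (gaussRing A N).mul_mem ((gaussRing A N).pow_mem (yz₁ - gaussC A N b).2 m)
      (chartRing_le_gaussRing z₂ y.2)
  refine ⟨hmem, ?_⟩
  have e : gaussι A N ⟨_, hmem⟩ = wF ^ m * chartι A N z₂ y := by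
    have e1 : (⟨_, hmem⟩ : ↥(gaussRing A N)) =
        (yz₁ - gaussC A N b) ^ m * Subring.inclusion (chartRing_le_gaussRing z₂) y := rfl
    rw [e1, map_mul, map_pow, map_sub, hyz₁, gaussι_gaussC]
    rfl
  rw [e]
  exact hm

include hyz₁ hyz₂ hrel in
/-- **compatibility of the two charts on the overlap**. -/
theorem EvalAt.overlap {P : Place L ↥(laurentBaseChange L (modularFunctionFieldFull N))}
    {Q : Place k ↥(modularFunctionFieldFullC k N)} (hE : EvalAt h z₁ P Q)
    (hP₂ : GoodAt A N z₂ P) : EvalAt h z₂ P Q := by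
  have hrel' := chart_rel z₁ z₂ yz₁ yz₂ hyz₁ hyz₂ b hrel
  intro y
  obtain ⟨m, hm⟩ := exists_pow_mul_mem_chartRing z₁ z₂ yz₁ yz₂ hyz₁ hyz₂ b hrel y
  -- the element `w = z₁ - b` of the chart of `z₁`
  have hwmem : ((yz₁ - gaussC A N b : ↥(gaussRing A N)) : LaurentSeries ↥A) ∈ chartRing A N z₁ :=
    (chartRing A N z₁).sub_mem (mem_chartRing_of_gaussι_eq z₁ yz₁ hyz₁)
      (gaussC_mem_chartRing z₁ b)
  set w : ↥(chartRing A N z₁) := ⟨_, hwmem⟩ with hw
  set u : ↥(chartRing A N z₁) := ⟨_, hm⟩ with hu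
  have hιw : chartι A N z₁ w =
      z₁ - algebraMap L ↥(laurentBaseChange L (modularFunctionFieldFull N)) (b : L) := by
    have e1 : chartι A N z₁ w = gaussι A N (yz₁ - gaussC A N b) := rfl
    rw [e1, map_sub, hyz₁, gaussι_gaussC]
  have hιu : chartι A N z₁ u = chartι A N z₁ w ^ m * chartι A N z₂ y := by
    apply Subtype.ext
    rw [coe_chartι]
    change coeffMap A.subtype (((yz₁ - gaussC A N b : ↥(gaussRing A N)) : LaurentSeries ↥A) ^ m *
      (y : LaurentSeries ↥A)) = _
    rw [map_mul, map_pow]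
    rfl
  have hρu : chartρF h z₁ u = chartρF h z₁ w ^ m * chartρF h z₂ y := by
    apply Subtype.ext
    rw [coe_chartρF]
    change coeffMap π (((yz₁ - gaussC A N b : ↥(gaussRing A N)) : LaurentSeries ↥A) ^ m *
      (y : LaurentSeries ↥A)) = _
    rw [map_mul, map_pow]
    rfl
  obtain ⟨c, hcP, hcQ⟩ := hE u
  obtain ⟨d, hdP, hdQ⟩ := hE w
  obtain ⟨e, heP⟩ := hP₂
  -- `e * d = 1`
  have hed : e * d = 1 := by
    apply Subtype.ext
    have h1 : HasValueAt P (z₂ * chartι A N z₁ w) ((e : L) * (d : L)) := heP.mul hdP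
    rw [hιw, hrel'] at h1
    exact h1.unique (HasValueAt.one' P)
  have hπed : π e * π d = 1 := by rw [← map_mul, hed, map_one]
  have hπd : π d ≠ 0 := fun h0 => by rw [h0, mul_zero] at hπed; exact zero_ne_one hπed
  have hπe : π e = (π d)⁻¹ := eq_inv_of_mul_eq_one_left hπed
  -- the function `y = z₂ ^ m * u`
  have hy : chartι A N z₂ y = z₂ ^ m * chartι A N z₁ u := by
    rw [hιu, ← mul_assoc, ← mul_pow, hιw, hrel', one_pow, one_mul]
  refine ⟨e ^ m * c, ?_, ?_⟩
  · rw [hy]
    have := (heP.pow m).mul hcP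
    simpa using this
  · have hw0 : chartρF h z₁ w ≠ 0 := by
      intro h0
      rw [h0] at hdQ
      exact hπd ((HasValueAt.zero' Q).unique hdQ).symm
    have hρy : chartρF h z₂ y = (chartρF h z₁ w)⁻¹ ^ m * chartρF h z₁ u := by
      rw [hρu, ← mul_assoc, ← mul_pow, inv_mul_cancel₀ hw0, one_pow, one_mul]
    rw [hρy, map_mul, map_pow, hπe]
    exact ((hdQ.inv hπd).pow m).mul hcQ

end Overlap

section Reduction

/-- **(R1)**: the reduction map of places, with (EVAL) for both charts and its characterisation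
by (EVAL) in either chart. -/
theorem exists_chartReduction (hπ : Function.Surjective π) (h : GaussRes A N π)
    (hdegL : ∀ P : Place L ↥(laurentBaseChange L (modularFunctionFieldFull N)), P.deg = 1)
    (z₁ z₂ : ↥(laurentBaseChange L (modularFunctionFieldFull N)))
    (yz₁ yz₂ : ↥(gaussRing A N)) (hyz₁ : gaussι A N yz₁ = z₁) (hyz₂ : gaussι A N yz₂ = z₂)
    (b : ↥A) (hrel : yz₂ * (yz₁ - gaussC A N b) = 1)
    (hsat₁ : ChartSat (π := π) z₁) (hsat₂ : ChartSat (π := π) z₂)
    (ht₁ : Transcendental k (gaussρF h yz₁)) (ht₂ : Transcendental k (gaussρF h yz₂))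
    [FiniteDimensional k⟮gaussρF h yz₁⟯ ↥(modularFunctionFieldFullC k N)]
    [Algebra.IsSeparable k⟮gaussρF h yz₁⟯ ↥(modularFunctionFieldFullC k N)]
    [FiniteDimensional k⟮gaussρF h yz₂⟯ ↥(modularFunctionFieldFullC k N)]
    [Algebra.IsSeparable k⟮gaussρF h yz₂⟯ ↥(modularFunctionFieldFullC k N)]
    (hsep₁ : ChartSep h z₁ (fun Q => gaussρF h yz₁ ∈ Q.toValuationSubring))
    (hsep₂ : ChartSep h z₂ (fun Q => gaussρF h yz₂ ∈ Q.toValuationSubring)) :
    ∃ r : Place L ↥(laurentBaseChange L (modularFunctionFieldFull N)) →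
        Place k ↥(modularFunctionFieldFullC k N),
      ChartEval h z₁ r ∧ ChartEval h z₂ r ∧
      (∀ P Q, GoodAt A N z₁ P → EvalAt h z₁ P Q → r P = Q) ∧
      (∀ P Q, GoodAt A N z₂ P → EvalAt h z₂ P Q → r P = Q) := by
  classical
  have key : ∀ P : Place L ↥(laurentBaseChange L (modularFunctionFieldFull N)),
      ∃ Q : Place k ↥(modularFunctionFieldFullC k N),
        (GoodAt A N z₁ P → EvalAt h z₁ P Q) ∧ (GoodAt A N z₂ P → EvalAt h z₂ P Q) := by
    intro P
    by_cases h1 : GoodAt A N z₁ P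
    · obtain ⟨Q, hQ⟩ := exists_evalAt hπ h z₁ yz₁ hyz₁ hsat₁ ht₁ P (hdegL P) h1
      exact ⟨Q, fun _ => hQ, fun h2 => hQ.overlap h z₁ z₂ yz₁ yz₂ hyz₁ hyz₂ b hrel h2⟩
    · have h2 : GoodAt A N z₂ P :=
        (goodAt_or_goodAt z₁ z₂ yz₁ yz₂ hyz₁ hyz₂ b hrel P (hdegL P)).resolve_left h1
      obtain ⟨Q, hQ⟩ := exists_evalAt hπ h z₂ yz₂ hyz₂ hsat₂ ht₂ P (hdegL P) h2
      exact ⟨Q, fun h1' => absurd h1' h1, fun _ => hQ⟩
  choose r hr using key
  refine ⟨r, fun P hP => (hr P).1 hP, fun P hP => (hr P).2 hP, ?_, ?_⟩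
  · intro P Q hP hQ
    exact ((hr P).1 hP).unique hQ yz₁ hyz₁ hsep₁
  · intro P Q hP hQ
    exact ((hr P).2 hP).unique hQ yz₂ hyz₂ hsep₂

end Reduction

end

end Fermat.Agent.JA
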