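/-
J-A programme, package RED (helper7), part 7: the reduction map of places for a valuation subring
`A` of `ℚ̄`, with (EVAL) for two charts, its characterisation, and **(EQUIV)** for the
decomposition group of `A`.
-/
import Mathlib
import Fermat.Agent.JA.RED_helper7_Equiv
import Fermat.Agent.JA.S37Asm_helper7_Red
import Fermat.Agent.X0N.S24_helper7_Wiring

set_option autoImplicit false
set_option linter.unusedSectionVars false
set_option linter.style.haveILetI false

open AlgebraicCurve ModularCurve IntermediateField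

namespace Fermat.Agent.JA

noncomputable section

set_option synthInstance.maxHeartbeats 400000
set_option maxHeartbeats 1600000

variable {A : ValuationSubring (AlgebraicClosure ℚ)} {N : ℕ} [NeZero N]

theorem decomposition_apply_mem (σ : A.decompositionSubgroup ℚ) (a : AlgebraicClosure ℚ)
    (ha : a ∈ A) : σ.1 a ∈ A :=
  (σ • (⟨a, ha⟩ : ↥A) : ↥A).2

theorem decomposition_symm_apply_mem (σ : A.decompositionSubgroup ℚ) (a : AlgebraicClosure ℚ)
    (ha : a ∈ A) : σ.1.symm a ∈ A :=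
  decomposition_apply_mem σ⁻¹ a ha

theorem residue_restrictA_decomposition (σ : A.decompositionSubgroup ℚ) (a : ↥A) :
    IsLocalRing.residue ↥A (restrictA σ.1 (decomposition_apply_mem σ) a) =
      resAut A σ (IsLocalRing.residue ↥A a) := by
  rw [resAut_apply]
  rfl

/-- **(EQUIV) over `ℚ̄`** for a reduction map characterised by (EVAL) in two charts. -/
theorem reduction_smul_decomposition (h : GaussRes A N (IsLocalRing.residue ↥A))
    (z₁ z₂ : ↥(modularFunctionFieldBar N))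
    (hz₁ : ∀ σ : AlgebraicClosure ℚ ≃ₐ[ℚ] AlgebraicClosure ℚ,
      arithmeticGalois (modularFunctionFieldFull N) σ • z₁ = z₁)
    (hz₂ : ∀ σ : AlgebraicClosure ℚ ≃ₐ[ℚ] AlgebraicClosure ℚ,
      arithmeticGalois (modularFunctionFieldFull N) σ • z₂ = z₂)
    (r : Place (AlgebraicClosure ℚ) ↥(modularFunctionFieldBar N) →
      Place (IsLocalRing.ResidueField ↥A)
        ↥(modularFunctionFieldFullC (IsLocalRing.ResidueField ↥A) N))
    (hr₁ : ChartEval h z₁ r) (hr₂ : ChartEval h z₂ r)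
    (hu₁ : ∀ P Q, GoodAt A N z₁ P → EvalAt h z₁ P Q → r P = Q)
    (hu₂ : ∀ P Q, GoodAt A N z₂ P → EvalAt h z₂ P Q → r P = Q)
    (hcover : ∀ P, GoodAt A N z₁ P ∨ GoodAt A N z₂ P)
    (σ : A.decompositionSubgroup ℚ)
    (P : Place (AlgebraicClosure ℚ) ↥(modularFunctionFieldBar N)) :
    r (arithmeticGalois (modularFunctionFieldFull N) σ.1 • P)
      = coeffAutC (IsLocalRing.ResidueField ↥A) N (resAut A σ) • r P :=
  reduction_smul h σ.1 (decomposition_apply_mem σ) (decomposition_symm_apply_mem σ)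
    (resAut A σ) (residue_restrictA_decomposition σ) z₁ z₂ (hz₁ σ.1) (hz₂ σ.1) r hr₁ hr₂ hu₁ hu₂
    hcover P

/-- **the place reduction over `ℚ̄` from two charts**, with (EVAL), its characterisation and
(EQUIV). -/
theorem exists_placeReduction_of_charts (h : GaussRes A N (IsLocalRing.residue ↥A))
    (z₁ z₂ : ↥(modularFunctionFieldBar N))
    (hz₁ : ∀ σ : AlgebraicClosure ℚ ≃ₐ[ℚ] AlgebraicClosure ℚ,
      arithmeticGalois (modularFunctionFieldFull N) σ • z₁ = z₁)
    (hz₂ : ∀ σ : AlgebraicClosure ℚ ≃ₐ[ℚ] AlgebraicClosure ℚ,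
      arithmeticGalois (modularFunctionFieldFull N) σ • z₂ = z₂)
    (yz₁ yz₂ : ↥(gaussRing A N)) (hyz₁ : gaussι A N yz₁ = z₁) (hyz₂ : gaussι A N yz₂ = z₂)
    (b : ↥A) (hrel : yz₂ * (yz₁ - gaussC A N b) = 1)
    (hsat₁ : ChartSat (π := IsLocalRing.residue ↥A) z₁)
    (hsat₂ : ChartSat (π := IsLocalRing.residue ↥A) z₂)
    (ht₁ : Transcendental (IsLocalRing.ResidueField ↥A) (gaussρF h yz₁))
    (ht₂ : Transcendental (IsLocalRing.ResidueField ↥A) (gaussρF h yz₂))
    [FiniteDimensional (IsLocalRing.ResidueField ↥A)⟮gaussρF h yz₁⟯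
      ↥(modularFunctionFieldFullC (IsLocalRing.ResidueField ↥A) N)]
    [Algebra.IsSeparable (IsLocalRing.ResidueField ↥A)⟮gaussρF h yz₁⟯
      ↥(modularFunctionFieldFullC (IsLocalRing.ResidueField ↥A) N)]
    [FiniteDimensional (IsLocalRing.ResidueField ↥A)⟮gaussρF h yz₂⟯
      ↥(modularFunctionFieldFullC (IsLocalRing.ResidueField ↥A) N)]
    [Algebra.IsSeparable (IsLocalRing.ResidueField ↥A)⟮gaussρF h yz₂⟯
      ↥(modularFunctionFieldFullC (IsLocalRing.ResidueField ↥A) N)]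
    (hsep₁ : ChartSep h z₁ (fun Q => gaussρF h yz₁ ∈ Q.toValuationSubring))
    (hsep₂ : ChartSep h z₂ (fun Q => gaussρF h yz₂ ∈ Q.toValuationSubring)) :
    ∃ r : Place (AlgebraicClosure ℚ) ↥(modularFunctionFieldBar N) →
        Place (IsLocalRing.ResidueField ↥A)
          ↥(modularFunctionFieldFullC (IsLocalRing.ResidueField ↥A) N),
      ChartEval h z₁ r ∧ ChartEval h z₂ r ∧
      (∀ P Q, GoodAt A N z₁ P → EvalAt h z₁ P Q → r P = Q) ∧
      (∀ P Q, GoodAt A N z₂ P → EvalAt h z₂ P Q → r P = Q) ∧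
      (∀ P, GoodAt A N z₁ P ∨ GoodAt A N z₂ P) ∧
      ∀ (σ : A.decompositionSubgroup ℚ)
        (P : Place (AlgebraicClosure ℚ) ↥(modularFunctionFieldBar N)),
        r (arithmeticGalois (modularFunctionFieldFull N) σ.1 • P)
          = coeffAutC (IsLocalRing.ResidueField ↥A) N (resAut A σ) • r P := by
  have hdegL : ∀ P : Place (AlgebraicClosure ℚ) ↥(modularFunctionFieldBar N), P.deg = 1 :=
    fun P => (Fermat.Agent.X0N.jCoordBar N).deg_eq_one P
  have hcover : ∀ P, GoodAt A N z₁ P ∨ GoodAt A N z₂ P := fun P =>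
    goodAt_or_goodAt z₁ z₂ yz₁ yz₂ hyz₁ hyz₂ b hrel P (hdegL P)
  obtain ⟨r, hr₁, hr₂, hu₁, hu₂⟩ := exists_chartReduction IsLocalRing.residue_surjective h hdegL
    z₁ z₂ yz₁ yz₂ hyz₁ hyz₂ b hrel hsat₁ hsat₂ ht₁ ht₂ hsep₁ hsep₂
  exact ⟨r, hr₁, hr₂, hu₁, hu₂, hcover, fun σ P =>
    reduction_smul_decomposition h z₁ z₂ hz₁ hz₂ r hr₁ hr₂ hu₁ hu₂ hcover σ P⟩

end

end Fermat.Agent.JA
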