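/-
J-A programme, package RED (helper7), part 8: the second chart `z₂ = (z₁ - b)⁻¹` inherits
transcendence, finiteness, separability and Galois-invariance from the first one.
-/
import Mathlib
import Fermat.Agent.JA.RED_helper7_Omega

set_option autoImplicit false
set_option linter.unusedSectionVars false
set_option linter.style.haveILetI false

open AlgebraicCurve ModularCurve IntermediateField

namespace Fermat.Agent.JA

noncomputable section

section Abstract

variable {k F : Type*} [Field k] [Field F] [Algebra k F]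

theorem adjoin_simple_eq_of_mul_sub_eq_one {s t : F} {c : k}
    (hst : s * (t - algebraMap k F c) = 1) : k⟮s⟯ = k⟮t⟯ := by
  have hs : s = (t - algebraMap k F c)⁻¹ := eq_inv_of_mul_eq_one_left hst
  have ht : t = s⁻¹ + algebraMap k F c := by
    rw [hs, inv_inv, sub_add_cancel]
  apply le_antisymm
  · rw [adjoin_simple_le_iff, hs]
    exact inv_mem (sub_mem (mem_adjoin_simple_self k t) (IntermediateField.algebraMap_mem _ c))
  · rw [adjoin_simple_le_iff, ht]
    exact add_mem (inv_mem (mem_adjoin_simple_self k s)) (IntermediateField.algebraMap_mem _ c)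

theorem transcendental_of_mul_sub_eq_one {s t : F} {c : k}
    (hst : s * (t - algebraMap k F c) = 1) (ht : Transcendental k t) : Transcendental k s := by
  intro hs
  apply ht
  have hs' : s = (t - algebraMap k F c)⁻¹ := eq_inv_of_mul_eq_one_left hst
  have ht' : t = s⁻¹ + algebraMap k F c := by
    rw [hs', inv_inv, sub_add_cancel]
  rw [ht']
  exact hs.inv.add (isAlgebraic_algebraMap c)

theorem finiteDimensional_of_intermediateField_eq {K₁ K₂ : IntermediateField k F} (e : K₁ = K₂)
    [FiniteDimensional ↥K₁ F] : FiniteDimensional ↥K₂ F := by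
  subst e
  infer_instance

theorem isSeparable_of_intermediateField_eq {K₁ K₂ : IntermediateField k F} (e : K₁ = K₂)
    [Algebra.IsSeparable ↥K₁ F] : Algebra.IsSeparable ↥K₂ F := by
  subst e
  infer_instance

end Abstract

section Gauss

variable {L : Type*} [Field L] [Algebra ℚ L] {A : ValuationSubring L} {N : ℕ}
variable {k : Type*} [Field k] {π : ↥A →+* k}

theorem gaussρF_rel (h : GaussRes A N π) (yz₁ yz₂ : ↥(gaussRing A N)) (b : ↥A)
    (hrel : yz₂ * (yz₁ - gaussC A N b) = 1) :
    gaussρF h yz₂ *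
      (gaussρF h yz₁ - algebraMap k ↥(modularFunctionFieldFullC k N) (π b)) = 1 := by
  have e := congrArg (gaussρF h) hrel
  rw [map_mul, map_sub, map_one] at e
  have e2 : gaussρF h (gaussC A N b) = algebraMap k ↥(modularFunctionFieldFullC k N) (π b) := by
    apply Subtype.ext
    rw [coe_gaussρF]
    exact gaussρ_gaussC A N π b
  rw [e2] at e
  exact e

end Gauss

section Omega

set_option synthInstance.maxHeartbeats 400000
set_option maxHeartbeats 1600000

variable {A : ValuationSubring (AlgebraicClosure ℚ)} {N : ℕ} [NeZero N]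

/-- the second chart coordinate is Galois-invariant if the first one and `b` are. -/
theorem smul_chart2_eq (z₁ z₂ : ↥(modularFunctionFieldBar N)) (b : AlgebraicClosure ℚ)
    (hrel : z₂ * (z₁ - algebraMap (AlgebraicClosure ℚ) ↥(modularFunctionFieldBar N) b) = 1)
    (σ : AlgebraicClosure ℚ ≃ₐ[ℚ] AlgebraicClosure ℚ) (hb : σ b = b)
    (hz₁ : arithmeticGalois (modularFunctionFieldFull N) σ • z₁ = z₁) :
    arithmeticGalois (modularFunctionFieldFull N) σ • z₂ = z₂ := by
  have e := congrArg (fun x => arithmeticGalois (modularFunctionFieldFull N) σ • x) hrel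
  simp only [smul_mul', smul_sub, smul_one, hz₁, SemilinearAut.smul_algebraMap,
    baseAut_arithmeticGalois] at e
  have e2 : (σ.toRingEquiv : AlgebraicClosure ℚ ≃+* AlgebraicClosure ℚ) b = b := hb
  rw [e2] at e
  exact (eq_inv_of_mul_eq_one_left e).trans (eq_inv_of_mul_eq_one_left hrel).symm

/-- **the place reduction over `ℚ̄` from two charts**, all field-theoretic inputs on the first
chart only. -/
theorem exists_placeReduction_of_charts' (h : GaussRes A N (IsLocalRing.residue ↥A))
    (z₁ z₂ : ↥(modularFunctionFieldBar N))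
    (hz₁ : ∀ σ : AlgebraicClosure ℚ ≃ₐ[ℚ] AlgebraicClosure ℚ,
      arithmeticGalois (modularFunctionFieldFull N) σ • z₁ = z₁)
    (yz₁ yz₂ : ↥(gaussRing A N)) (hyz₁ : gaussι A N yz₁ = z₁) (hyz₂ : gaussι A N yz₂ = z₂)
    (b : ↥A) (hb : ∀ σ : AlgebraicClosure ℚ ≃ₐ[ℚ] AlgebraicClosure ℚ,
      σ (b : AlgebraicClosure ℚ) = b)
    (hrel : yz₂ * (yz₁ - gaussC A N b) = 1)
    (hsat₁ : ChartSat (π := IsLocalRing.residue ↥A) z₁)
    (hsat₂ : ChartSat (π := IsLocalRing.residue ↥A) z₂)
    (ht₁ : Transcendental (IsLocalRing.ResidueField ↥A) (gaussρF h yz₁))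
    [FiniteDimensional (IsLocalRing.ResidueField ↥A)⟮gaussρF h yz₁⟯
      ↥(modularFunctionFieldFullC (IsLocalRing.ResidueField ↥A) N)]
    [Algebra.IsSeparable (IsLocalRing.ResidueField ↥A)⟮gaussρF h yz₁⟯
      ↥(modularFunctionFieldFullC (IsLocalRing.ResidueField ↥A) N)]
    (hsep₁ : ChartSep h z₁ (fun Q => gaussρF h yz₁ ∈ Q.toValuationSubring))
    (hsep₂ : ChartSep h z₂ (fun Q => gaussρF h yz₂ ∈ Q.toValuationSubring)) :
    ∃ r : Place (AlgebraicClosure ℚ) ↥(modularFunctionFieldBar N) →
        Place (IsLocalRing.ResidueField ↥A)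
          ↥(modularFunctionFieldFullC (IsLocalRing.ResidueField ↥A) N),
      ChartEval h z₁ r ∧ ChartEval h z₂ r ∧
      (∀ P Q, GoodAt A N z₁ P → EvalAt h z₁ P Q → r P = Q) ∧
      (∀ P Q, GoodAt A N z₂ P → EvalAt h z₂ P Q → r P = Q) ∧
      (∀ P, GoodAt A N z₁ P ∨ GoodAt A N z₂ P) ∧
      ∀ (σ : A.decompositionSubgroup ℚ)
        (P : Place (AlgebraicClosure ℚ) ↥(modularFunctionFieldBar N)),
        r (arithmeticGalois (modularFunctionFieldFull N) σ.1 • P)
          = coeffAutC (IsLocalRing.ResidueField ↥A) N (resAut A σ) • r P := by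
  have hρrel := gaussρF_rel h yz₁ yz₂ b hrel
  have hK := adjoin_simple_eq_of_mul_sub_eq_one hρrel
  haveI := finiteDimensional_of_intermediateField_eq hK.symm
  haveI := isSeparable_of_intermediateField_eq hK.symm
  have hz₂ : ∀ σ : AlgebraicClosure ℚ ≃ₐ[ℚ] AlgebraicClosure ℚ,
      arithmeticGalois (modularFunctionFieldFull N) σ • z₂ = z₂ := fun σ =>
    smul_chart2_eq z₁ z₂ (b : AlgebraicClosure ℚ)
      (chart_rel z₁ z₂ yz₁ yz₂ hyz₁ hyz₂ b hrel) σ (hb σ) (hz₁ σ)
  exact exists_placeReduction_of_charts h z₁ z₂ hz₁ hz₂ yz₁ yz₂ hyz₁ hyz₂ b hrel hsat₁ hsat₂ ht₁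
    (transcendental_of_mul_sub_eq_one hρrel ht₁) hsep₁ hsep₂

end Omega

end

end Fermat.Agent.JA
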