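/-
J-A programme, package RED (helper7), part 9: the two concrete charts `j` and `(j - b)⁻¹`
(`b ∈ ℤ`) over `ℚ̄`, and the place reduction for `A | ℓ` with everything discharged except (SEP)
for the two charts.
-/
import Mathlib
import Fermat.Agent.JA.RED_helper7_Chart2
import Fermat.Agent.JA.G1OMEGA_helper5_Sat
import Fermat.Agent.JA.G1OMEGA_helper5_PGI
import Fermat.Agent.JA.G1_helper5_Unram
import Fermat.Agent.JA.CONST_helper6
import Fermat.Agent.X0N.LD_helper1_Laurent

set_option autoImplicit false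
set_option linter.unusedSectionVars false
set_option linter.style.haveILetI false

open AlgebraicCurve ModularCurve IntermediateField

namespace Fermat.Agent.JA

noncomputable section

set_option synthInstance.maxHeartbeats 400000
set_option maxHeartbeats 1600000

open Fermat.Agent.X0N

local notation "Ω" => AlgebraicClosure ℚ

section Coords

variable (A : ValuationSubring Ω) (N : ℕ) [NeZero N]

theorem coe_jBar_eq_jqModC :
    ((jBar N : ↥(modularFunctionFieldBar N)) : LaurentSeries Ω) = jqModC Ω := by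
  rw [coe_jBar, coeffEmb, ← jqModC_rat, coeffMap_jqModC]

/-- `j` as a Gauss-integral series. -/
def jGauss : ↥(gaussRing A N) :=
  ⟨jqModC ↥A, by
    rw [mem_gaussRing_iff, coeffMap_jqModC, ← coe_jBar_eq_jqModC N]
    exact (jBar N).2⟩

@[simp] theorem coe_jGauss : ((jGauss A N : ↥(gaussRing A N)) : LaurentSeries ↥A) = jqModC ↥A :=
  rfl

theorem gaussι_jGauss : gaussι A N (jGauss A N) = jBar N := by
  apply Subtype.ext
  rw [coe_gaussι, coe_jGauss, coeffMap_jqModC, coe_jBar_eq_jqModC]

theorem gaussρF_jGauss {k : Type*} [Field k] {π : ↥A →+* k} (h : GaussRes A N π) :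
    gaussρF h (jGauss A N) = jTildeElt k N := by
  apply Subtype.ext
  rw [coe_gaussρF, coe_jGauss, coeffMap_jqModC, coe_jTildeElt]

theorem smul_jBar (σ : Ω ≃ₐ[ℚ] Ω) :
    arithmeticGalois (modularFunctionFieldFull N) σ • jBar N = jBar N := by
  apply Subtype.ext
  rw [coe_arithmeticGalois_smul, coe_jBar, coeffMap_coeffEmb]

/-- the inverse of `j - b` as an integer Laurent series. -/
def jInvZ (b : ℤ) : LaurentSeries ℤ := (exists_jInv b).choose

theorem jInvZ_spec (b : ℤ) : (jqModC ℤ - HahnSeries.C b) * jInvZ b = 1 :=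
  (exists_jInv b).choose_spec

/-- the second chart coordinate `(j - b)⁻¹`. -/
def jInvBar (b : ℤ) : ↥(modularFunctionFieldBar N) :=
  (jBar N - algebraMap Ω ↥(modularFunctionFieldBar N) (b : Ω))⁻¹

theorem coe_jInvBar (b : ℤ) :
    ((jInvBar N b : ↥(modularFunctionFieldBar N)) : LaurentSeries Ω) =
      (jqModC Ω - HahnSeries.C (b : Ω))⁻¹ := by
  have h1 : ((algebraMap Ω ↥(modularFunctionFieldBar N) (b : Ω) :
      ↥(modularFunctionFieldBar N)) : LaurentSeries Ω) = HahnSeries.C (b : Ω) := by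
    change algebraMap Ω (LaurentSeries Ω) (b : Ω) = _
    rw [algebraMap_laurentSeries_eq_single, HahnSeries.C_apply]
  change (((jBar N : ↥(modularFunctionFieldBar N)) : LaurentSeries Ω) -
    ((algebraMap Ω ↥(modularFunctionFieldBar N) (b : Ω) :
      ↥(modularFunctionFieldBar N)) : LaurentSeries Ω))⁻¹ = _
  rw [h1, coe_jBar_eq_jqModC]

theorem coeffMap_intCast_comp_h7 {S T : Type*} [CommRing S] [CommRing T] (f : S →+* T)
    (x : LaurentSeries ℤ) :
    coeffMap f (coeffMap (Int.castRingHom S) x) = coeffMap (Int.castRingHom T) x := by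
  rw [coeffMap_coeffMap]
  exact coeffMap_congr (RingHom.ext_int _ _) x

/-- `(j - b)⁻¹` as a Gauss-integral series. -/
def jInvGauss (b : ℤ) : ↥(gaussRing A N) :=
  ⟨coeffMap (Int.castRingHom ↥A) (jInvZ b), by
    rw [mem_gaussRing_iff, coeffMap_intCast_comp_h7, coeffMap_jInv (jInvZ_spec b),
      ← coe_jInvBar N b]
    exact (jInvBar N b).2⟩

@[simp] theorem coe_jInvGauss (b : ℤ) :
    ((jInvGauss A N b : ↥(gaussRing A N)) : LaurentSeries ↥A) =
      coeffMap (Int.castRingHom ↥A) (jInvZ b) := rfl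

theorem gaussι_jInvGauss (b : ℤ) : gaussι A N (jInvGauss A N b) = jInvBar N b := by
  apply Subtype.ext
  rw [coe_gaussι, coe_jInvGauss, coeffMap_intCast_comp_h7, coeffMap_jInv (jInvZ_spec b),
    coe_jInvBar]

theorem jInvGauss_rel (b : ℤ) :
    jInvGauss A N b * (jGauss A N - gaussC A N ((b : ℤ) : ↥A)) = 1 := by
  apply Subtype.ext
  change coeffMap (Int.castRingHom ↥A) (jInvZ b) *
    (jqModC ↥A - (HahnSeries.C ((b : ℤ) : ↥A) : LaurentSeries ↥A)) = 1
  have h1 := congrArg (coeffMap (Int.castRingHom ↥A)) (jInvZ_spec b)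
  rw [map_mul, map_sub, coeffMap_jqModC, coeffMap_C_h5, map_one] at h1
  rw [mul_comm]
  exact h1

theorem intCast_fixed (b : ℤ) (σ : Ω ≃ₐ[ℚ] Ω) :
    σ ((((b : ℤ) : ↥A) : ↥A) : Ω) = ((((b : ℤ) : ↥A) : ↥A) : Ω) := by
  have h1 : ((((b : ℤ) : ↥A) : ↥A) : Ω) = ((b : ℤ) : Ω) := by
    simp
  rw [h1, map_intCast]

end Coords

section Residue

variable {ℓ : ℕ} [Fact ℓ.Prime] {A : ValuationSubring Ω}
  (hA : A.LiesOverPrime ℓ) (N : ℕ) [NeZero N]

include hA in
/-- **(RES-Ω)** in the shape of `GaussRes`. -/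
theorem gaussRes_residue (hℓN : ¬ ℓ ∣ N) : GaussRes A N (IsLocalRing.residue ↥A) :=
  fun y hy => coeffMap_residue_mem_fullC hA N hℓN y hy

include hA in
/-- **the place reduction for `A | ℓ`**, from (SEP) for the charts of `j` and `(j - b)⁻¹`:
(EVAL) for both charts, characterisation, cover, (EQUIV). -/
theorem exists_placeReduction_residue (hℓN : ¬ ℓ ∣ N) (b : ℤ)
    (hsep₁ : ChartSep (gaussRes_residue hA N hℓN) (jBar N)
      (fun Q => gaussρF (gaussRes_residue hA N hℓN) (jGauss A N) ∈ Q.toValuationSubring))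
    (hsep₂ : ChartSep (gaussRes_residue hA N hℓN) (jInvBar N b)
      (fun Q => gaussρF (gaussRes_residue hA N hℓN) (jInvGauss A N b) ∈ Q.toValuationSubring)) :
    ∃ r : Place Ω ↥(modularFunctionFieldBar N) →
        Place (IsLocalRing.ResidueField ↥A)
          ↥(modularFunctionFieldFullC (IsLocalRing.ResidueField ↥A) N),
      ChartEval (gaussRes_residue hA N hℓN) (jBar N) r ∧
      ChartEval (gaussRes_residue hA N hℓN) (jInvBar N b) r ∧
      (∀ P Q, GoodAt A N (jBar N) P →
        EvalAt (gaussRes_residue hA N hℓN) (jBar N) P Q → r P = Q) ∧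
      (∀ P Q, GoodAt A N (jInvBar N b) P →
        EvalAt (gaussRes_residue hA N hℓN) (jInvBar N b) P Q → r P = Q) ∧
      (∀ P, GoodAt A N (jBar N) P ∨ GoodAt A N (jInvBar N b) P) ∧
      ∀ (σ : A.decompositionSubgroup ℚ) (P : Place Ω ↥(modularFunctionFieldBar N)),
        r (arithmeticGalois (modularFunctionFieldFull N) σ.1 • P)
          = coeffAutC (IsLocalRing.ResidueField ↥A) N (resAut A σ) • r P := by
  have e := gaussρF_jGauss A N (gaussRes_residue hA N hℓN)
  haveI : FiniteDimensional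
      (IsLocalRing.ResidueField ↥A)⟮gaussρF (gaussRes_residue hA N hℓN) (jGauss A N)⟯
      ↥(modularFunctionFieldFullC (IsLocalRing.ResidueField ↥A) N) := by
    rw [e]
    exact finiteDimensional_fullC_residueField hA N hℓN
  haveI : Algebra.IsSeparable
      (IsLocalRing.ResidueField ↥A)⟮gaussρF (gaussRes_residue hA N hℓN) (jGauss A N)⟯
      ↥(modularFunctionFieldFullC (IsLocalRing.ResidueField ↥A) N) := by
    rw [e]
    exact isSeparable_fullC_residueField hA N hℓN
  exact exists_placeReduction_of_charts' (gaussRes_residue hA N hℓN) (jBar N) (jInvBar N b)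
    (smul_jBar N) (jGauss A N) (jInvGauss A N b) (gaussι_jGauss A N) (gaussι_jInvGauss A N b)
    ((b : ℤ) : ↥A) (intCast_fixed A b) (jInvGauss_rel A N b)
    (chartSat_j hA N hℓN (jBar N) (coe_jBar_eq_jqModC N))
    (chartSat_inv hA N hℓN b (jInvBar N b) (coe_jInvBar N b))
    (by rw [e]; exact transcendental_jTildeElt _ N) hsep₁ hsep₂

end Residue

end

end Fermat.Agent.JA
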