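/-
J-A — helper8 — S18 end assembly, part 3: the statement of S18 from (KEY) and (CONST̃) for the
residue field of a valuation ring `A` of `ℚ̄`.
-/
import Mathlib
import Fermat.Agent.JA.S18Asm_helper8_Main
import Fermat.Agent.JA.BASE_helper1_Res
import Fermat.Agent.X0N.S24_helper7_Wiring
import Fermat.Agent.JA.CONST_helper6

set_option autoImplicit false
set_option linter.unusedSectionVars false
set_option linter.style.haveILetI false
set_option synthInstance.maxHeartbeats 400000

open HahnSeries IntermediateField AlgebraicCurve ModularCurve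

namespace Fermat.Agent.JA

/-- **S18 from (KEY) and (CONST̃).** -/
theorem s18_of_key (N : ℕ) [NeZero N] (A : ValuationSubring (AlgebraicClosure ℚ))
    (hconstC : ∀ x : modularFunctionFieldFullC (IsLocalRing.ResidueField A) N, x ≠ 0 →
      (∀ Q : Place (IsLocalRing.ResidueField A)
        (modularFunctionFieldFullC (IsLocalRing.ResidueField A) N), Q.ord x = 0) →
      ∃ c : IsLocalRing.ResidueField A,
        x = algebraMap (IsLocalRing.ResidueField A)
          (modularFunctionFieldFullC (IsLocalRing.ResidueField A) N) c)
    (h : ModularCurve.ReductionInputsModL A N) (m : ℕ) (hm0 : m ≠ 0)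
    (hkey : KeyStatement A (IsLocalRing.residue A) N m) (z : ModularCurve.JZero N)
    (hmz : m • z = 0) (hz : ModularCurve.reductionModL A N z = 0) : z = 0 := by
  haveI : IsAlgClosed (IsLocalRing.ResidueField A) := isAlgClosed_residueField A
  haveI : HasPrincipalDivisors (AlgebraicClosure ℚ) (modularFunctionFieldBar N) :=
    (Fermat.Agent.X0N.jCoordBar N).hasPrincipalDivisors
  have hz' : reductionPic0Along h.choose h.choose_spec.1 h.choose_spec.2 z = 0 := by
    rw [← reductionAlong_eq h]
    exact hz
  exact eq_zero_of_key IsLocalRing.residue_surjective hconstC h.choose_spec.1 h.choose_spec.2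
    hm0 hkey z hmz hz'

/-- **S18 from (KEY) and the separability/finiteness of `F̃ / k(j̃)`** (the latter from G1.DEG),
with the binders of `S18.result`. -/
theorem s18_of_key_of_isSeparable (N : ℕ) [NeZero N] {ℓ : ℕ} [Fact ℓ.Prime]
    (A : ValuationSubring (AlgebraicClosure ℚ))
    (hsep : Algebra.IsSeparable
      (IsLocalRing.ResidueField A)⟮jTildeElt (IsLocalRing.ResidueField A) N⟯
      ↥(modularFunctionFieldFullC (IsLocalRing.ResidueField A) N))
    (hfin : FiniteDimensional
      (IsLocalRing.ResidueField A)⟮jTildeElt (IsLocalRing.ResidueField A) N⟯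
      ↥(modularFunctionFieldFullC (IsLocalRing.ResidueField A) N))
    (h : ModularCurve.ReductionInputsModL A N) (m : ℕ) (hm : ¬ ℓ ∣ m)
    (hkey : KeyStatement A (IsLocalRing.residue A) N m) (z : ModularCurve.JZero N)
    (hmz : m • z = 0) (hz : ModularCurve.reductionModL A N z = 0) : z = 0 := by
  haveI : IsAlgClosed (IsLocalRing.ResidueField A) := isAlgClosed_residueField A
  have hm0 : m ≠ 0 := by
    rintro rfl
    exact hm (dvd_zero ℓ)
  exact s18_of_key N A (fun x hx hord =>
    const_of_ord_eq_zero (IsLocalRing.ResidueField A) N hsep hfin x hx hord) h m hm0 hkey z hmz hz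

end Fermat.Agent.JA
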