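/-
J-A, S37 end assembly (helper7), part 4: `S37` from the place reductions, (EQUIV), (ES), (KEY)
and (CONST̃).
-/
import Mathlib
import Fermat.Agent.JA.S37Asm_helper7_Red
import Fermat.Agent.JA.S18Asm_helper8_Wrap

set_option autoImplicit false
set_option linter.style.haveILetI false

open HahnSeries IntermediateField AlgebraicCurve

namespace Fermat.Agent.JA

open ModularCurve

set_option synthInstance.maxHeartbeats 400000
set_option maxHeartbeats 1600000

/-- the data, for one valuation subring `A | ℓ` of `ℚ̄`, from which the `(ℓ, A)`-clause of S37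
follows. -/
structure PlaceReductionData (N p : ℕ) [NeZero N] (ℓ : ℕ) (hℓ : ℓ.Prime)
    (A : ValuationSubring (AlgebraicClosure ℚ)) : Prop where
  exists_data : ∃ (r : Place (AlgebraicClosure ℚ) (modularFunctionFieldBar N) →
      Place (IsLocalRing.ResidueField A)
        (modularFunctionFieldFullC (IsLocalRing.ResidueField A) N))
    (hr : IsPlaceReductionModL A N r)
    (hgen : PrincipalGeneratedByIntegral A (IsLocalRing.residue A) N),
    (∀ (σ : A.decompositionSubgroup ℚ)
      (P : Place (AlgebraicClosure ℚ) (modularFunctionFieldBar N)),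
      r (arithmeticGalois (modularFunctionFieldFull N) σ.1 • P)
        = coeffAutC (IsLocalRing.ResidueField A) N (resAut A σ) • r P) ∧
    (∀ (σ₀ : A.decompositionSubgroup ℚ), A.IsFrobeniusAt σ₀.1 ℓ → ∀ x : JZero N,
      reductionPic0Along r hr hgen (heckeOperatorBar N ⟨ℓ, hℓ⟩ x)
        = coeffAutC (IsLocalRing.ResidueField A) N (resAut A σ₀) • reductionPic0Along r hr hgen x
          + ℓ • ((coeffAutC (IsLocalRing.ResidueField A) N (resAut A σ₀))⁻¹ •
              reductionPic0Along r hr hgen x))
  key : ∀ n : ℕ, KeyStatement A (IsLocalRing.residue A) N (p ^ n)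
  constC : ∀ x : modularFunctionFieldFullC (IsLocalRing.ResidueField A) N, x ≠ 0 →
      (∀ Q : Place (IsLocalRing.ResidueField A)
        (modularFunctionFieldFullC (IsLocalRing.ResidueField A) N), Q.ord x = 0) →
      ∃ c : IsLocalRing.ResidueField A,
        x = algebraMap (IsLocalRing.ResidueField A)
          (modularFunctionFieldFullC (IsLocalRing.ResidueField A) N) c

/-- **S37 from the place reduction data**, literally with the binders of `S37.result`. -/
theorem s37_of_placeReductionData (N p : ℕ) [NeZero N] (hcomm : HeckeOperatorsCommuteBar N)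
    (h : ∀ ℓ : ℕ, (hℓ : ℓ.Prime) → ¬ ℓ ∣ N * p →
      ∀ A : ValuationSubring (AlgebraicClosure ℚ), A.LiesOverPrime ℓ →
        PlaceReductionData N p ℓ hℓ A) :
    letI := ModularCurve.heckeModuleBar N
    ∀ (_ : SMulCommClass (AlgebraicClosure ℚ ≃ₐ[ℚ] AlgebraicClosure ℚ) ModularCurve.HeckeAlg
      (ModularCurve.JZero N)),
      ModularCurve.SpecializationExists (K := ℚ) (L := AlgebraicClosure ℚ) N p
        (ModularCurve.JZero N) := by
  refine s37_of_clauses N p hcomm ?_
  intro ℓ hℓ hℓNp A hA
  obtain ⟨⟨r, hr, hgen, hequiv, hES⟩, hkey, hconstC⟩ := h ℓ hℓ hℓNp A hA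
  have hp0 : p ≠ 0 := by
    rintro rfl
    exact hℓNp (by rw [mul_zero]; exact dvd_zero ℓ)
  haveI : IsAlgClosed (IsLocalRing.ResidueField A) := isAlgClosed_residueField A
  haveI : HasPrincipalDivisors (AlgebraicClosure ℚ) (modularFunctionFieldBar N) :=
    (Fermat.Agent.X0N.jCoordBar N).hasPrincipalDivisors
  refine exists_red_of_placeReduction hr hgen p hℓ hA hequiv hES ?_
  rintro x ⟨n, hn⟩ hx
  exact eq_zero_of_key IsLocalRing.residue_surjective hconstC hr hgen (pow_ne_zero n hp0)
    (hkey n) x hn hx

end Fermat.Agent.JA
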