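/-
J-A — helper8 — S37: the fields `key` and `constC` of helper7's `PlaceReductionData` are
unconditional (KEY at every base + BC, and (CONST̃) with G1.DEG); what remains for S37 is the
existence of the place reduction `r` with (O1)–(O4).
-/
import Mathlib
import Fermat.Agent.JA.S37Asm_helper7_Top
import Fermat.Agent.JA.G1_helper5_Unram
import Fermat.Agent.JA.BC_helper9_Main
import Fermat.Agent.JA.KEYBASE_helper8_Final

set_option autoImplicit false
set_option linter.style.haveILetI false

open HahnSeries IntermediateField AlgebraicCurve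

namespace Fermat.Agent.JA

open ModularCurve

set_option synthInstance.maxHeartbeats 400000
set_option maxHeartbeats 1600000

/-- **(KEY) over `Ω`**, unconditionally, for every `m` prime to `ℓ`. -/
theorem keyStatement_residue {ℓ : ℕ} [Fact ℓ.Prime] {A : ValuationSubring (AlgebraicClosure ℚ)}
    (hA : A.LiesOverPrime ℓ) (N : ℕ) [NeZero N] (hℓN : ¬ ℓ ∣ N) (m : ℕ) (hℓm : ¬ ℓ ∣ m) :
    KeyStatement A (IsLocalRing.residue ↥A) N m := by
  have hm0 : 0 < m := Nat.pos_of_ne_zero (by rintro rfl; exact hℓm (dvd_zero ℓ))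
  exact keyStatement_of_keyBaseStatement hA N m hm0
    (fun _ hK₁ => keyBaseStatement_baseRing hA N m hm0 hℓN hℓm hK₁)

/-- **`PlaceReductionData` from the place reduction alone**: the fields `key` and `constC` are
discharged. -/
theorem placeReductionData_of_exists_data (N p : ℕ) [NeZero N] (ℓ : ℕ) (hℓ : ℓ.Prime)
    (hℓNp : ¬ ℓ ∣ N * p) (A : ValuationSubring (AlgebraicClosure ℚ)) (hA : A.LiesOverPrime ℓ)
    (hdata : ∃ (r : Place (AlgebraicClosure ℚ) (modularFunctionFieldBar N) →
      Place (IsLocalRing.ResidueField A)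
        (modularFunctionFieldFullC (IsLocalRing.ResidueField A) N))
    (hr : IsPlaceReductionModL A N r)
    (hgen : PrincipalGeneratedByIntegral A (IsLocalRing.residue A) N),
    (∀ (σ : A.decompositionSubgroup ℚ)
      (P : Place (AlgebraicClosure ℚ) (modularFunctionFieldBar N)),
      r (arithmeticGalois (modularFunctionFieldFull N) σ.1 • P)
        = coeffAutC (IsLocalRing.ResidueField A) N (resAut A σ) • r P) ∧
    (∀ (σ₀ : A.decompositionSubgroup ℚ), A.IsFrobeniusAt σ₀.1 ℓ → ∀ x : JZero N,
      reductionPic0Along r hr hgen (heckeOperatorBar N ⟨ℓ, hℓ⟩ x)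
        = coeffAutC (IsLocalRing.ResidueField A) N (resAut A σ₀) • reductionPic0Along r hr hgen x
          + ℓ • ((coeffAutC (IsLocalRing.ResidueField A) N (resAut A σ₀))⁻¹ •
              reductionPic0Along r hr hgen x))) :
    PlaceReductionData N p ℓ hℓ A := by
  haveI : Fact ℓ.Prime := ⟨hℓ⟩
  have hℓN : ¬ ℓ ∣ N := fun h => hℓNp (dvd_mul_of_dvd_left h p)
  have hℓp : ¬ ℓ ∣ p := fun h => hℓNp (dvd_mul_of_dvd_right h N)
  haveI : IsAlgClosed (IsLocalRing.ResidueField A) := isAlgClosed_residueField A
  refine ⟨hdata, fun n => ?_, fun x hx hord => ?_⟩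
  · exact keyStatement_residue hA N hℓN (p ^ n) (fun h => hℓp (hℓ.dvd_of_dvd_pow h))
  · exact const_of_ord_eq_zero (IsLocalRing.ResidueField A) N
      (isSeparable_fullC_residueField hA N hℓN) (finiteDimensional_fullC_residueField hA N hℓN)
      x hx hord

end Fermat.Agent.JA
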