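/-
J-A, S37 end assembly (helper7), part 6: `PlaceReductionData` for `A | ℓ` from (SEP) for the two
charts and (O1) for the reduction map of `exists_placeReduction_residue`.
-/
import Mathlib
import Fermat.Agent.JA.RED_helper7_Coords
import Fermat.Agent.JA.ES_helper4_Shim
import Fermat.Agent.JA.S37KEY_helper8
import Fermat.Agent.JA.DEGK_helper8
import Fermat.Agent.JA.S37Asm_helper7_ESPlace

set_option autoImplicit false
set_option linter.unusedSectionVars false
set_option linter.style.haveILetI false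

open HahnSeries IntermediateField AlgebraicCurve

namespace Fermat.Agent.JA

open ModularCurve Fermat.Agent.X0N

set_option synthInstance.maxHeartbeats 400000
set_option maxHeartbeats 1600000

local notation "Ω" => AlgebraicClosure ℚ

section Bridge

variable (A : ValuationSubring Ω) (N : ℕ) [NeZero N]

theorem jInvBar_eq (b : ℤ) :
    jInvBar N b = (jBar N - (b : ↥(modularFunctionFieldBar N)))⁻¹ := by
  rw [jInvBar, map_intCast]

theorem jG_eq_jGauss : jG A N = jGauss A N :=
  gaussι_injective A N (gaussι_jG.trans (gaussι_jGauss A N).symm)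

theorem vG_eq_jInvGauss (b : ℤ) : vG A N b = jInvGauss A N b :=
  gaussι_injective A N (by rw [gaussι_vG, gaussι_jInvGauss, jInvBar_eq])

end Bridge

section Final

variable {ℓ : ℕ} [hℓ : Fact ℓ.Prime] (N p : ℕ) [NeZero N] {A : ValuationSubring Ω}

/-- **`PlaceReductionData` from (SEP) ×2 and (O1).** -/
theorem placeReductionData_of_sep_of_O1 (hℓNp : ¬ ℓ ∣ N * p) (hA : A.LiesOverPrime ℓ)
    (h : GaussRes A N (IsLocalRing.residue ↥A)) (b : ℤ)
    (hsep₁ : ChartSep h (jBar N)
      (fun Q => gaussρF h (jGauss A N) ∈ Q.toValuationSubring))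
    (hsep₂ : ChartSep h (jInvBar N b)
      (fun Q => gaussρF h (jInvGauss A N b) ∈ Q.toValuationSubring))
    (hO1 : ∀ r : Place Ω ↥(modularFunctionFieldBar N) →
        Place (IsLocalRing.ResidueField ↥A)
          ↥(modularFunctionFieldFullC (IsLocalRing.ResidueField ↥A) N),
      ChartEval h (jBar N) r → ChartEval h (jInvBar N b) r →
      (∀ P Q, GoodAt A N (jBar N) P → EvalAt h (jBar N) P Q → r P = Q) →
      (∀ P Q, GoodAt A N (jInvBar N b) P → EvalAt h (jInvBar N b) P Q → r P = Q) →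
      (∀ P, GoodAt A N (jBar N) P ∨ GoodAt A N (jInvBar N b) P) →
      IsPlaceReductionModL A N r) :
    PlaceReductionData N p ℓ hℓ.out A := by
  have hℓN : ¬ ℓ ∣ N := fun hd => hℓNp (dvd_mul_of_dvd_left hd p)
  haveI : NeZero ℓ := ⟨hℓ.out.ne_zero⟩
  haveI : HasPrincipalDivisors Ω
      (laurentBaseChange Ω (modularFunctionFieldFull (N * ℓ))) := hasPrincipalDivisors_bar (N * ℓ)
  obtain ⟨r, hev₁, hev₂, hu₁, hu₂, hcover, hequiv⟩ :=
    exists_placeReduction_residue hA N hℓN b hsep₁ hsep₂
  have hr : IsPlaceReductionModL A N r := hO1 r hev₁ hev₂ hu₁ hu₂ hcover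
  have hgen : PrincipalGeneratedByIntegral A (IsLocalRing.residue ↥A) N :=
    principalGeneratedByIntegral_residue hA N hℓN
  refine placeReductionData_of_exists_data N p ℓ hℓ.out hℓNp A hA ⟨r, hr, hgen, hequiv, ?_⟩
  intro σ₀ hσ₀ x
  have hα := heckeAlphaBarIntegral_bar N ℓ
  have hβ := heckeBetaBarIntegral_bar N ℓ
  refine es_pic_of_es_place hr hgen hℓ.out hα hβ
    (coeffAutC (IsLocalRing.ResidueField ↥A) N (resAut A σ₀)) (fun P => ?_) x
  refine es_place_all_of_gauss hA hℓN h hα hβ r σ₀ hσ₀ b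
    (fun Q => deg_eq_one_fullC_residue hA N hℓN Q) hev₁ ?_ ?_ ?_ P
  · rw [jG_eq_jGauss]
    exact hsep₁
  · rw [← jInvBar_eq]
    exact hev₂
  · rw [← jInvBar_eq, vG_eq_jInvGauss]
    exact hsep₂

end Final

end Fermat.Agent.JA
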