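/-
J-A, S37 end assembly (helper7), part 7: `PlaceReductionData` for `A | ℓ` from (SEP) for the cusp
chart and (O1) only; (SEP) for the `j`-chart is helper6's `chartSep_jBar`.
-/
import Mathlib
import Fermat.Agent.JA.S37Asm_helper7_Final
import Fermat.Agent.JA.SEP_helper6_Omega

set_option autoImplicit false
set_option linter.unusedSectionVars false
set_option linter.style.haveILetI false

open HahnSeries IntermediateField AlgebraicCurve

namespace Fermat.Agent.JA

open ModularCurve Fermat.Agent.X0N

set_option synthInstance.maxHeartbeats 400000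
set_option maxHeartbeats 1600000

local notation "Ω" => AlgebraicClosure ℚ

variable {ℓ : ℕ} [hℓ : Fact ℓ.Prime] (N p : ℕ) [NeZero N] {A : ValuationSubring Ω}

/-- (SEP) for the `j`-chart in the shape of `exists_placeReduction_residue`. -/
theorem chartSep_jBar_gauss (hA : A.LiesOverPrime ℓ) (hℓN : ¬ ℓ ∣ N)
    (h : GaussRes A N (IsLocalRing.residue ↥A)) :
    ChartSep h (jBar N) (fun Q => gaussρF h (jGauss A N) ∈ Q.toValuationSubring) := by
  rw [gaussρF_jGauss]
  exact chartSep_jBar hA N hℓN h

/-- **`PlaceReductionData` from (SEP) for the cusp chart and (O1).** -/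
theorem placeReductionData_of_sepV_of_O1 (hℓNp : ¬ ℓ ∣ N * p) (hA : A.LiesOverPrime ℓ)
    (h : GaussRes A N (IsLocalRing.residue ↥A)) (b : ℤ)
    (hsep₂ : ChartSep h (jInvBar N b)
      (fun Q => gaussρF h (jInvGauss A N b) ∈ Q.toValuationSubring))
    (hO1 : ∀ r : Place Ω ↥(modularFunctionFieldBar N) →
        Place (IsLocalRing.ResidueField ↥A)
          ↥(modularFunctionFieldFullC (IsLocalRing.ResidueField ↥A) N),
      ChartEval h (jBar N) r → ChartEval h (jInvBar N b) r →
      (∀ P Q, GoodAt A N (jBar N) P → EvalAt h (jBar N) P Q → r P = Q) →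
      (∀ P Q, GoodAt A N (jInvBar N b) P → EvalAt h (jInvBar N b) P Q → r P = Q) →
      (∀ P, GoodAt A N (jBar N) P ∨ GoodAt A N (jInvBar N b) P) →
      IsPlaceReductionModL A N r) :
    PlaceReductionData N p ℓ hℓ.out A :=
  placeReductionData_of_sep_of_O1 N p hℓNp hA h b
    (chartSep_jBar_gauss N hA (fun hd => hℓNp (dvd_mul_of_dvd_left hd p)) h) hsep₂ hO1

end Fermat.Agent.JA
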