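/-
J-A — helper6 — package SEP (R2), cusp chart, part 1: **transformation of the line data**.
Given a line `j = A(t)/B(t)` over a domain `R` (`U A + V B = 1`, `deg B < deg A = n`, unit leading
coefficient of `A`), a constant `b` and a root `r ∈ R` of `A - b B` with `B(r)` a unit, the function
`(j - b)⁻¹` is `P'(t')/Q'(t')` in the coordinate `t' = (t - r)⁻¹`, where
`P' = reflect n (B(X + r))`, `Q' = reflect n ((A - b B)(X + r))`, and `(P', Q')` satisfies the same
list of hypotheses (Bezout, unit leading coefficient `B(r)` of `P'`, `deg Q' < deg P' = n`,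
unit constant coefficient of `Q'`).
-/
import Mathlib

set_option autoImplicit false
set_option linter.unusedSectionVars false
set_option linter.style.haveILetI false

open Polynomial

namespace Fermat.Agent.JA

section CuspLine

variable {R : Type*} [CommRing R] [IsDomain R]

/-- the numerator of `(j - b)⁻¹` in the coordinate `t' = (t - r)⁻¹`. -/
noncomputable def cuspLineP (n : ℕ) (B : R[X]) (r : R) : R[X] := reflect n (B.comp (X + C r))

/-- the denominator of `(j - b)⁻¹` in the coordinate `t' = (t - r)⁻¹`. -/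
noncomputable def cuspLineQ (n : ℕ) (A B : R[X]) (b r : R) : R[X] :=
  reflect n ((A - C b * B).comp (X + C r))

theorem natDegree_comp_X_add_C (f : R[X]) (r : R) : (f.comp (X + C r)).natDegree = f.natDegree := by
  rw [natDegree_comp, natDegree_X_add_C, mul_one]

theorem coeff_zero_comp_X_add_C (f : R[X]) (r : R) : (f.comp (X + C r)).coeff 0 = f.eval r := by
  rw [coeff_zero_eq_eval_zero, eval_comp, eval_add, eval_X, eval_C, zero_add]

variable (n : ℕ) (A B : R[X]) (b r : R)

theorem coeff_cuspLineP_self : (cuspLineP n B r).coeff n = B.eval r := by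
  rw [cuspLineP, coeff_reflect, revAt_le le_rfl, Nat.sub_self, coeff_zero_comp_X_add_C]

theorem natDegree_cuspLineP_le (hB : B.natDegree ≤ n) : (cuspLineP n B r).natDegree ≤ n := by
  refine le_trans natDegree_reflect_le ?_
  rw [natDegree_comp_X_add_C]
  exact max_le le_rfl hB

theorem natDegree_cuspLineP (hB : B.natDegree ≤ n) (h0 : B.eval r ≠ 0) :
    (cuspLineP n B r).natDegree = n :=
  natDegree_eq_of_le_of_coeff_ne_zero (natDegree_cuspLineP_le n B r hB)
    (by rw [coeff_cuspLineP_self]; exact h0)

theorem leadingCoeff_cuspLineP (hB : B.natDegree ≤ n) (h0 : B.eval r ≠ 0) :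
    (cuspLineP n B r).leadingCoeff = B.eval r := by
  rw [leadingCoeff, natDegree_cuspLineP n B r hB h0, coeff_cuspLineP_self]

theorem natDegree_sub_C_mul_le (hA : A.natDegree ≤ n) (hB : B.natDegree ≤ n) :
    (A - C b * B).natDegree ≤ n :=
  le_trans (natDegree_sub_le _ _) (max_le hA (le_trans (natDegree_C_mul_le _ _) hB))

theorem natDegree_cuspLineQ_lt (hn : 0 < n) (hA : A.natDegree ≤ n) (hB : B.natDegree ≤ n)
    (hroot : A.eval r = b * B.eval r) : (cuspLineQ n A B b r).natDegree < n := by
  have hle : (cuspLineQ n A B b r).natDegree ≤ n := by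
    refine le_trans natDegree_reflect_le ?_
    rw [natDegree_comp_X_add_C]
    exact max_le le_rfl (natDegree_sub_C_mul_le n A B b hA hB)
  have hc : (cuspLineQ n A B b r).coeff n = 0 := by
    rw [cuspLineQ, coeff_reflect, revAt_le le_rfl, Nat.sub_self, coeff_zero_comp_X_add_C, eval_sub,
      eval_mul, eval_C, hroot, sub_self]
  rcases lt_or_eq_of_le hle with h | h
  · exact h
  · exfalso
    have h1 : (cuspLineQ n A B b r).leadingCoeff = 0 := by rw [leadingCoeff, h, hc]
    rw [leadingCoeff_eq_zero] at h1
    rw [h1, natDegree_zero] at h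
    omega

theorem coeff_zero_cuspLineQ (hA : A.natDegree = n) (hB : B.natDegree < n) :
    (cuspLineQ n A B b r).coeff 0 = A.leadingCoeff := by
  rw [cuspLineQ, coeff_reflect, revAt_zero, sub_comp, mul_comp, C_comp, coeff_sub, coeff_C_mul]
  have h1 : (B.comp (X + C r)).coeff n = 0 :=
    coeff_eq_zero_of_natDegree_lt (by rw [natDegree_comp_X_add_C]; exact hB)
  have h2 : (A.comp (X + C r)).coeff n = A.leadingCoeff := by
    have h3 : (A.comp (X + C r)).natDegree = n := by rw [natDegree_comp_X_add_C, hA]
    rw [← h3, coeff_natDegree, leadingCoeff_comp (by rw [natDegree_X_add_C]; exact one_ne_zero),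
      leadingCoeff_X_add_C, one_pow, mul_one]
  rw [h1, h2, mul_zero, sub_zero]

/-- a polynomial with unit constant coefficient is coprime to `X`. -/
theorem isCoprime_X_of_isUnit_coeff_zero_h6 {Q : R[X]} (h : IsUnit (Q.coeff 0)) : IsCoprime X Q := by
  obtain ⟨c, hc⟩ := h.exists_left_inv
  refine ⟨-(C c * divX Q), C c, ?_⟩
  have h1 := X_mul_divX_add Q
  have h2 : (C c * C (Q.coeff 0) : R[X]) = 1 := by rw [← C_mul, hc, C_1]
  linear_combination (-(C c)) * h1 + h2

/-- **Bezout for the transformed line data.** -/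
theorem cuspLine_bezout (U V : R[X]) (hA : A.natDegree ≤ n) (hB : B.natDegree ≤ n)
    (hbez : U * A + V * B = 1) (hunit : IsUnit ((cuspLineQ n A B b r).coeff 0)) :
    ∃ U' V' : R[X], U' * cuspLineP n B r + V' * cuspLineQ n A B b r = 1 := by
  set G : R[X] := A - C b * B with hG
  set W : R[X] := V + C b * U with hW
  have h1 : U * G + W * B = 1 := by rw [hG, hW]; linear_combination hbez
  set U₁ := U.comp (X + C r) with hU₁
  set W₁ := W.comp (X + C r) with hW₁
  set G₁ := G.comp (X + C r) with hG₁
  set B₁ := B.comp (X + C r) with hB₁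
  have h2 : U₁ * G₁ + W₁ * B₁ = 1 := by
    have := congrArg (fun p : R[X] => p.comp (X + C r)) h1
    simpa [add_comp, mul_comp, one_comp] using this
  set m : ℕ := max U₁.natDegree W₁.natDegree with hm
  have hG₁n : G₁.natDegree ≤ n := by
    rw [hG₁, natDegree_comp_X_add_C]; exact natDegree_sub_C_mul_le n A B b hA hB
  have hB₁n : B₁.natDegree ≤ n := by rw [hB₁, natDegree_comp_X_add_C]; exact hB
  have h3 : reflect m U₁ * cuspLineQ n A B b r + reflect m W₁ * cuspLineP n B r = X ^ (m + n) := by
    have := congrArg (reflect (m + n)) h2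
    rw [reflect_add, reflect_mul U₁ G₁ (le_max_left _ _) hG₁n,
      reflect_mul W₁ B₁ (le_max_right _ _) hB₁n, reflect_one] at this
    exact this
  obtain ⟨a, c, hac⟩ := (isCoprime_X_of_isUnit_coeff_zero_h6 hunit).pow_left (m := m + n)
  refine ⟨a * reflect m W₁, a * reflect m U₁ + c, ?_⟩
  linear_combination a * h3 + hac

end CuspLine

section Eval

variable {R : Type*} [CommRing R] {K : Type*} [Field K] [Algebra R K]

/-- the value of a reflected translated polynomial at `(t - r)⁻¹`. -/
theorem aeval_inv_reflect_comp (n : ℕ) (f : R[X]) {r : R}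
    (hf : (f.comp (X + C r)).natDegree ≤ n) (t : K) (hne : t - algebraMap R K r ≠ 0) :
    aeval (t - algebraMap R K r)⁻¹ (reflect n (f.comp (X + C r))) =
      ((t - algebraMap R K r)⁻¹) ^ n * aeval t f := by
  letI := invertibleOfNonzero hne
  have h1 := eval₂_reflect_mul_pow (algebraMap R K) (t - algebraMap R K r) n
    (f.comp (X + C r)) hf
  rw [invOf_eq_inv] at h1
  have h2 : eval₂ (algebraMap R K) (t - algebraMap R K r) (f.comp (X + C r)) = aeval t f := by
    rw [← aeval_def, aeval_comp]
    congr 1
    simp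
  rw [h2] at h1
  rw [aeval_def, ← h1, inv_pow, mul_comm, mul_inv_cancel_right₀ (pow_ne_zero n hne)]

end Eval

end Fermat.Agent.JA
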