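/-
J-A — helper6 — package SEP (R2), final plug: with (SEP) for both charts (`chartSep_jBar`,
`chartSep_jInvBar`) helper7's `PlaceReductionData` for `A | ℓ` follows from (O1) alone.
-/
import Mathlib
import Fermat.Agent.JA.SEP_helper6_CuspInst
import Fermat.Agent.JA.S37Asm_helper7_Final2

set_option autoImplicit false
set_option synthInstance.maxHeartbeats 400000
set_option maxHeartbeats 1600000

open HahnSeries IntermediateField AlgebraicCurve

namespace Fermat.Agent.JA

open ModularCurve Fermat.Agent.X0N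

local notation "Ω" => AlgebraicClosure ℚ

variable {ℓ : ℕ} [hℓ : Fact ℓ.Prime] (N p : ℕ) [NeZero N] {A : ValuationSubring Ω}

/-- **`PlaceReductionData` from (O1) only.** -/
theorem placeReductionData_of_O1_h6 (hℓNp : ¬ ℓ ∣ N * p) (hA : A.LiesOverPrime ℓ)
    (h : GaussRes A N (IsLocalRing.residue ↥A)) (b : ℤ)
    (hO1 : ∀ r : Place Ω ↥(modularFunctionFieldBar N) →
        Place (IsLocalRing.ResidueField ↥A)
          ↥(modularFunctionFieldFullC (IsLocalRing.ResidueField ↥A) N),
      ChartEval h (jBar N) r → ChartEval h (jInvBar N b) r →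
      (∀ P Q, GoodAt A N (jBar N) P → EvalAt h (jBar N) P Q → r P = Q) →
      (∀ P Q, GoodAt A N (jInvBar N b) P → EvalAt h (jInvBar N b) P Q → r P = Q) →
      (∀ P, GoodAt A N (jBar N) P ∨ GoodAt A N (jInvBar N b) P) →
      IsPlaceReductionModL A N r) :
    PlaceReductionData N p ℓ hℓ.out A :=
  placeReductionData_of_sepV_of_O1 N p hℓNp hA h b
    (chartSep_jInvBar hA N (fun hd => hℓNp (dvd_mul_of_dvd_left hd p)) h b) hO1

end Fermat.Agent.JA
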