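/-
J-A — helper6 — (O1) FINAL: the Ω-level glue.  From the base-level assemblies
`legE_base_mapDomain_eq_ord` / `hesE_base_mapDomain_eq_ord` (O1_helper6_LegAsm), helper9's (P4)
`exists_isBase_o1_legE/_hesE` and helper2's `deg_eq_of_residue`:
`isPlaceReductionModL_of_chartEval_h6` (every map of places evaluating both charts `j`,
`(j - b)⁻¹` is a place reduction mod `ℓ`) and hence `placeReductionData_h6`
(`PlaceReductionData N p ℓ _ A` with no hypothesis beyond (RES)).
-/
import Mathlib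
import Fermat.Agent.JA.O1_helper6_LegAsm
import Fermat.Agent.JA.SEP_helper6_Plug

set_option autoImplicit false
set_option linter.unusedSectionVars false
set_option linter.style.haveILetI false
set_option synthInstance.maxHeartbeats 400000

open HahnSeries IntermediateField AlgebraicCurve ModularCurve Fermat.Agent.Igusa Polynomial
  Fermat.Agent.X0N Fermat.Agent.FF
open scoped MatrixGroups
open CongruenceSubgroup

namespace Fermat.Agent.JA

open scoped Fermat.Agent.JA.Host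

/-- `Ω = AlgebraicClosure ℚ`. -/
local notation "Ω" => AlgebraicClosure ℚ

section Glue

variable {ℓ : ℕ} [Fact ℓ.Prime] {A : ValuationSubring Ω} (hA : A.LiesOverPrime ℓ)
  (N : ℕ) [NeZero N] {K₁ : IntermediateField ℚ Ω} [IsDiscreteValuationRing ↥(baseRing A K₁)]

/-- the `V`-element attached to a Gauss-integral series over the base ring. -/
noncomputable def o1Vy (y₁ : LaurentSeries ↥(baseRing A K₁))
    (hy₁ : coeffMap (baseRing A K₁).subtype y₁ ∈
      laurentBaseChange ↥K₁ (modularFunctionFieldFull N)) :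
    ↥(baseV (baseRing A K₁) N (hFq_baseRing N)) :=
  ⟨gaussι (baseRing A K₁) N ⟨y₁, mem_gaussRing_iff.mpr hy₁⟩,
    gaussι_mem_baseV (baseRing A K₁) N (hFq_baseRing N) _⟩

theorem baseToBar_o1Vy (y₁ : LaurentSeries ↥(baseRing A K₁))
    (hy₁ : coeffMap (baseRing A K₁).subtype y₁ ∈
      laurentBaseChange ↥K₁ (modularFunctionFieldFull N))
    {y : LaurentSeries ↥A} (hy₁y : coeffMap (baseIncl A K₁) y₁ = y)
    (hy : coeffMap A.subtype y ∈ laurentBaseChange Ω (modularFunctionFieldFull N)) :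
    baseToBar N K₁ ((o1Vy N y₁ hy₁ : ↥(baseV (baseRing A K₁) N (hFq_baseRing N))) :
      ↥(keyFq ↥K₁ N)) = ⟨coeffMap A.subtype y, hy⟩ := by
  apply Subtype.ext
  show coeffMap (algebraMap ↥K₁ Ω) (coeffMap (baseRing A K₁).subtype y₁) = coeffMap A.subtype y
  rw [← hy₁y]
  exact (coeffMap_subtype_coeffMap_baseIncl y₁).symm

include hA in
theorem baseResV_o1Vy (hℓN : ¬ ℓ ∣ N) (hK₁ : IsBase ℓ K₁)
    (h : GaussRes A N (IsLocalRing.residue ↥A))
    (y₁ : LaurentSeries ↥(baseRing A K₁))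
    (hy₁ : coeffMap (baseRing A K₁).subtype y₁ ∈
      laurentBaseChange ↥K₁ (modularFunctionFieldFull N))
    {y : LaurentSeries ↥A} (hy₁y : coeffMap (baseIncl A K₁) y₁ = y)
    (hyk : coeffMap (IsLocalRing.residue ↥A) y ∈
      modularFunctionFieldFullC (IsLocalRing.ResidueField ↥A) N) :
    baseResV (baseRing A K₁) N (hFq_baseRing N) (baseResidueMap A K₁)
      (hRES_baseRing hA N hℓN hK₁) (o1Vy N y₁ hy₁) = ⟨coeffMap (IsLocalRing.residue ↥A) y, hyk⟩ := by
  unfold o1Vy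
  rw [baseResV_gaussι (baseRing A K₁) N (hFq_baseRing N) (baseResidueMap A K₁)
    (hRES_baseRing hA N hℓN hK₁) (gaussRes_baseRing (K₁ := K₁) N h)]
  apply Subtype.ext
  rw [coe_gaussρF]
  show coeffMap _ y₁ = coeffMap (IsLocalRing.residue ↥A) y
  rw [← hy₁y, coeffMap_coeffMap]
  rfl

end Glue

section Main

variable {ℓ : ℕ} [hℓ : Fact ℓ.Prime] {A : ValuationSubring Ω} (hA : A.LiesOverPrime ℓ)
  (N : ℕ) [NeZero N]

include hA in
/-- **(O1)**: a map of places which evaluates both charts `j`, `(j - b)⁻¹` is a place reduction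
mod `ℓ`. -/
theorem isPlaceReductionModL_of_chartEval_h6 (hℓN : ¬ ℓ ∣ N)
    (h : GaussRes A N (IsLocalRing.residue ↥A)) (b : ℤ)
    (r : Place Ω ↥(modularFunctionFieldBar N) →
      Place (IsLocalRing.ResidueField ↥A)
        ↥(modularFunctionFieldFullC (IsLocalRing.ResidueField ↥A) N))
    (hev₁ : ChartEval h (jBar N) r) (hev₂ : ChartEval h (jInvBar N b) r) :
    IsPlaceReductionModL A N r := by
  refine ⟨deg_eq_of_residue hA N hℓN r, ?_⟩
  intro y hy hyk hne D hD Q
  by_cases hℓ2 : ℓ = 2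
  · have hℓ3 : ℓ ≠ 3 := by omega
    obtain ⟨K₁, hK₁, ⟨r₀, hroot, hr⟩, y₁, hy₁y, hy₁, hrat⟩ :=
      exists_isBase_o1_hesE hA N hℓ3 b hy
    haveI := hK₁.isDiscreteValuationRing hA
    have hbar := baseToBar_o1Vy N y₁ hy₁ hy₁y hy
    have hres := baseResV_o1Vy hA N hℓN hK₁ h y₁ hy₁ hy₁y hyk
    have key := hesE_base_mapDomain_eq_ord hA N hℓN hK₁ hℓ3 h b r₀ hroot hr r hev₁ hev₂
      (o1Vy N y₁ hy₁) (by rw [hres]; exact fun h0 => hne (congrArg Subtype.val h0))
      (by rw [hbar]; exact hrat) D (by rw [hbar]; exact hD) Q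
    rw [hres] at key
    exact key
  · obtain ⟨K₁, hK₁, ⟨r₀, hroot, hr0, hr1⟩, y₁, hy₁y, hy₁, hrat⟩ :=
      exists_isBase_o1_legE hA N hℓ2 b hy
    haveI := hK₁.isDiscreteValuationRing hA
    have hbar := baseToBar_o1Vy N y₁ hy₁ hy₁y hy
    have hres := baseResV_o1Vy hA N hℓN hK₁ h y₁ hy₁ hy₁y hyk
    have key := legE_base_mapDomain_eq_ord hA N hℓN hK₁ hℓ2 h b r₀ hroot hr0 hr1 r hev₁ hev₂
      (o1Vy N y₁ hy₁) (by rw [hres]; exact fun h0 => hne (congrArg Subtype.val h0))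
      (by rw [hbar]; exact hrat) D (by rw [hbar]; exact hD) Q
    rw [hres] at key
    exact key

include hA in
/-- **`PlaceReductionData` for `A | ℓ`, hypothesis-free.** -/
theorem placeReductionData_h6 (p : ℕ) (hℓNp : ¬ ℓ ∣ N * p)
    (h : GaussRes A N (IsLocalRing.residue ↥A)) (b : ℤ) :
    PlaceReductionData N p ℓ hℓ.out A :=
  placeReductionData_of_O1_h6 N p hℓNp hA h b
    (fun r hev₁ hev₂ _ _ _ =>
      isPlaceReductionModL_of_chartEval_h6 hA N (fun hd => hℓNp (dvd_mul_of_dvd_left hd p)) h b r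
        hev₁ hev₂)

end Main

end Fermat.Agent.JA
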