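/-
J-A third wave, (O1) — helper1: the CONCRETE (host tower) form of the assembly, generic in the
exponent `w` and the host coordinate `t` (Legendre: `w = 2`, `t = λ`; Hesse: `w = 3`, `t = μ`).
-/
import Mathlib
import Fermat.Agent.JA.REDO_helper1_Assembly
import Fermat.Agent.JA.SEP_helper6_CuspInst
import Fermat.Agent.JA.UP_helper7_Coord
import Fermat.Agent.JA.BCD_helper9_HostRat
import Fermat.Agent.JA.RED_helper7_Coords
import Fermat.Agent.JA.O1_helper3_Coords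

set_option autoImplicit false
set_option linter.unusedSectionVars false
set_option linter.style.haveILetI false
set_option synthInstance.maxHeartbeats 400000

open HahnSeries IntermediateField AlgebraicCurve ModularCurve Fermat.Agent.Igusa Polynomial
  Fermat.Agent.X0N

namespace Fermat.Agent.JA

open scoped Fermat.Agent.JA.Host

open Fermat.Agent.FF

/-- `Ω = AlgebraicClosure ℚ`. -/
local notation "Ω" => AlgebraicClosure ℚ


section Towers

variable {K₁ : Type*} [Field K₁] [Algebra ℚ K₁] (R : ValuationSubring K₁)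
  (E : IntermediateField K₁ (LaurentSeries K₁)) (t : LaurentSeries K₁)

/-- the tower `R → K₁ → E` for an intermediate field of the host. -/
theorem o1_tower_base : IsScalarTower ↥R K₁ ↥E :=
  IsScalarTower.of_algebraMap_eq fun r => by
    apply Subtype.ext
    exact IsScalarTower.algebraMap_apply ↥R K₁ (LaurentSeries K₁) r

/-- the tower `R → K₁(t) → E` for an intermediate field of the host containing `t`. -/
theorem o1_tower_mid [Fact (K₁⟮t⟯ ≤ E)] : IsScalarTower ↥R ↥K₁⟮t⟯ ↥E :=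
  IsScalarTower.of_algebraMap_eq fun r => by
    apply Subtype.ext
    rfl

end Towers

section Concrete

variable {ℓ : ℕ} [Fact ℓ.Prime] {A : ValuationSubring Ω}
  (N : ℕ) [NeZero N] {K₁ : IntermediateField ℚ Ω} [IsDiscreteValuationRing ↥(baseRing A K₁)]
  (w : ℕ) [NeZero w] (t₁ : LaurentSeries ↥K₁) (tΩ : LaurentSeries Ω)

/-- shortcut instance: `𝒱 ⊆ K(t)` acts on the host tower field. -/
@[reducible] noncomputable def o1AlgVE {K : Type*} [Field K] [Algebra ℚ K] (N w : ℕ) [NeZero N]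
    [NeZero w] (t : LaurentSeries K) (𝒱 : ValuationSubring ↥K⟮t⟯) :
    Algebra ↥𝒱 ↥(Host.Etu (keyFw K N w) t 1) := inferInstance

attribute [local instance] o1_tower_base o1_tower_mid

attribute [local instance 2000] o1AlgVE

/-- the algebra structure `F_K → E_K` of the host tower. -/
@[reducible] noncomputable def etuAlg (K : Type*) [Field K] [Algebra ℚ K] (N w : ℕ) [NeZero N]
    [NeZero w] (t : LaurentSeries K) :
    Algebra ↥(keyFq K N) ↥(Host.Etu (keyFw K N w) t 1) :=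
  (fullToEtu K N w t).toRingHom.toAlgebra

set_option quotPrecheck false

local notation "R₁" => ↥(baseRing A K₁)
local notation "E₁" => ↥(Host.Etu (keyFw ↥K₁ N w) t₁ 1)
local notation "EΩ" => ↥(Host.Etu (keyFw Ω N w) tΩ 1)
local notation "Fq₁" => ↥(keyFq ↥K₁ N)
local notation "FΩ" => ↥(modularFunctionFieldBar N)
local notation "kA" => IsLocalRing.ResidueField ↥A
local notation "Ft" => ↥(modularFunctionFieldFullC (IsLocalRing.ResidueField ↥A) N)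
local notation "Bt" => ↥(integralClosure ↥(Algebra.adjoin ↥(baseRing A K₁) {AdjoinSimple.gen ↥K₁ t₁})
  ↥(Host.Etu (keyFw ↥K₁ N w) t₁ 1))
local notation "Bt'" => ↥(integralClosure
  ↥(Algebra.adjoin ↥(baseRing A K₁) {(AdjoinSimple.gen ↥K₁ t₁)⁻¹})
  ↥(Host.Etu (keyFw ↥K₁ N w) t₁ 1))

/-- the constants `R₁ → F_{K₁}`. -/
noncomputable def o1cR (A : ValuationSubring Ω) (N : ℕ) [NeZero N] (K₁ : IntermediateField ℚ Ω) :
    ↥(baseRing A K₁) →+* ↥(keyFq ↥K₁ N) :=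
  (algebraMap ↥K₁ ↥(keyFq ↥K₁ N)).comp (baseRing A K₁).subtype

/-- the residue map `R₁ → κ(A)`. -/
noncomputable def o1res (A : ValuationSubring Ω) (K₁ : IntermediateField ℚ Ω) :
    ↥(baseRing A K₁) →+* IsLocalRing.ResidueField ↥A :=
  (baseResidueMap A K₁).comp (IsLocalRing.residue ↥(baseRing A K₁))

set_option maxHeartbeats 6400000 in
/-- **the concrete assembly of (O1)**, generic in `(w, t)`. -/
theorem o1_concrete {ϖ : R₁} {S S' : Finset R₁}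
    (hgeo : GeoHyps ↥K₁ (K := ↥(↥K₁)⟮t₁⟯) ϖ (AdjoinSimple.gen ↥K₁ t₁) E₁ N S)
    (hgeo' : GeoHyps ↥K₁ (K := ↥(↥K₁)⟮t₁⟯) ϖ (AdjoinSimple.gen ↥K₁ t₁)⁻¹ E₁ N S')
    (𝒱 : ValuationSubring ↥(↥K₁)⟮t₁⟯)
    (h𝒱 : IsGaussAt R₁ ϖ (AdjoinSimple.gen ↥K₁ t₁) 𝒱)
    (h𝒱' : IsGaussAt R₁ ϖ (AdjoinSimple.gen ↥K₁ t₁)⁻¹ 𝒱)
    [IsLocalRing ↥(integralClosure ↥𝒱 E₁)]
    (hσ : Function.Surjective (baseResidueMap A K₁))
    (h : GaussRes A N (IsLocalRing.residue ↥A))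
    -- the DOWN package
    (V : ValuationSubring Fq₁)
    (hV : letI := etuAlg ↥K₁ N w t₁
      ∀ x : Fq₁, x ∈ V ↔ IsIntegral ↥𝒱 (algebraMap Fq₁ E₁ x))
    (resV : ↥V →+* Ft) (hresV : Function.Surjective resV)
    (hVmem : ∀ x : Fq₁, x ∈ V ↔ (x : LaurentSeries ↥K₁) ∈ gaussInt R₁ ↥K₁)
    (hresVρ : ∀ (y : ↥(gaussRing (baseRing A K₁) N)) (hy : gaussι (baseRing A K₁) N y ∈ V),
      resV ⟨gaussι (baseRing A K₁) N y, hy⟩ = gaussρF (gaussRes_baseRing (K₁ := K₁) N h) y)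
    (htower :
      letI := etuAlg ↥K₁ N w t₁
      letI := geoAlgKEt hgeo.irreducible 𝒱 (fun r => h𝒱.algebraMap_mem r)
        (residue_gaussConst_pi hgeo 𝒱 h𝒱) (o1res A K₁)
        (hσ.comp IsLocalRing.residue_surjective)
      letI := downAlg 𝒱 V hV resV hresV
      IsScalarTower kA Ft (IsLocalRing.ResidueField ↥(integralClosure ↥𝒱 E₁)))
    (hintd :
      letI := etuAlg ↥K₁ N w t₁
      letI := downAlg 𝒱 V hV resV hresV
      Algebra.IsIntegral Ft (IsLocalRing.ResidueField ↥(integralClosure ↥𝒱 E₁)))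
    (hdown :
      letI := etuAlg ↥K₁ N w t₁
      letI := geoAlgKEt hgeo.irreducible 𝒱 (fun r => h𝒱.algebraMap_mem r)
        (residue_gaussConst_pi hgeo 𝒱 h𝒱) (o1res A K₁)
        (hσ.comp IsLocalRing.residue_surjective)
      letI := downAlg 𝒱 V hV resV hresV
      haveI := htower
      haveI := hintd
      ∀ Q : Place kA Ft,
        ∃ T : Finset (Place kA (IsLocalRing.ResidueField ↥(integralClosure ↥𝒱 E₁))),
          (∀ w', w' ∈ T ↔ w'.restrict Ft = Q) ∧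
          ∑ w' ∈ T, (w'.ramificationIndex Ft : ℤ) = (Module.finrank Fq₁ E₁ : ℤ))
    -- the level of `Ω`
    (htΩ : IsIntegral ↥Ω⟮jqNModC Ω w⟯ tΩ)
    (hmem : ∀ x ∈ Host.Etu (keyFw ↥K₁ N w) t₁ 1,
      coeffMap (algebraMap ↥K₁ Ω) x ∈ Host.Etu (keyFw Ω N w) tΩ 1)
    (hgenBC : Subfield.closure (Set.range (coeffHom (algebraMap ↥K₁ Ω)
      (Host.Etu (keyFw ↥K₁ N w) t₁ 1) (Host.Etu (keyFw Ω N w) tΩ 1) hmem) ∪
      Set.range (algebraMap Ω EΩ)) = ⊤)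
    (hdegBC :
      letI := etuAlg ↥K₁ N w t₁
      letI := etuAlg Ω N w tΩ
      Module.finrank FΩ EΩ = Module.finrank Fq₁ E₁)
    (r : Place Ω FΩ → Place kA Ft) (b : ℤ)
    -- the two F-coordinates and their fraction data in the two charts
    (z₁ z₂ : ↥V) (hz₁ : (z₁ : Fq₁) = jBase ↥K₁ N)
    (hz₂ : (z₂ : Fq₁) = gaussι (baseRing A K₁) N (jInvGaussR (baseRing A K₁) N b))
    (a₁₁ b₁₁ : Bt) (hcop₁₁ : IsCoprime a₁₁ b₁₁)
    (hz₁₁ : (fullToEtu ↥K₁ N w t₁ (z₁ : Fq₁) : E₁) * algebraMap Bt E₁ b₁₁ = algebraMap Bt E₁ a₁₁)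
    (a₂₁ b₂₁ : Bt) (hcop₂₁ : IsCoprime a₂₁ b₂₁)
    (hz₂₁ : (fullToEtu ↥K₁ N w t₁ (z₂ : Fq₁) : E₁) * algebraMap Bt E₁ b₂₁ = algebraMap Bt E₁ a₂₁)
    (a₁₂ b₁₂ : Bt') (hcop₁₂ : IsCoprime a₁₂ b₁₂)
    (hz₁₂ : (fullToEtu ↥K₁ N w t₁ (z₁ : Fq₁) : E₁) * algebraMap Bt' E₁ b₁₂ =
      algebraMap Bt' E₁ a₁₂)
    (a₂₂ b₂₂ : Bt') (hcop₂₂ : IsCoprime a₂₂ b₂₂)
    (hz₂₂ : (fullToEtu ↥K₁ N w t₁ (z₂ : Fq₁) : E₁) * algebraMap Bt' E₁ b₂₂ =
      algebraMap Bt' E₁ a₂₂)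
    -- (SEP) and (EVAL)
    (hSEP₁ : ∀ Q Q' : Place kA Ft, resV z₁ ∈ Q.toValuationSubring →
      resV z₁ ∈ Q'.toValuationSubring → Q' ≠ Q →
      ∃ v : ↥V, IsIntegral ↥(Subring.closure (Set.range (o1cR A N K₁) ∪ {(z₁ : Fq₁)})) (v : Fq₁) ∧
        HasValueAt Q (resV v) 0 ∧ ¬ HasValueAt Q' (resV v) 0)
    (hSEP₂ : ∀ Q Q' : Place kA Ft, resV z₂ ∈ Q.toValuationSubring →
      resV z₂ ∈ Q'.toValuationSubring → Q' ≠ Q →
      ∃ v : ↥V, IsIntegral ↥(Subring.closure (Set.range (o1cR A N K₁) ∪ {(z₂ : Fq₁)})) (v : Fq₁) ∧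
        HasValueAt Q (resV v) 0 ∧ ¬ HasValueAt Q' (resV v) 0)
    (hEVAL₁ : ∀ (P_F : Place Ω FΩ) (c : R₁),
      HasValueAt P_F (baseToBar N K₁ (z₁ : Fq₁)) (algebraMap ↥K₁ Ω (algebraMap R₁ ↥K₁ c)) →
      resV z₁ ∈ (r P_F).toValuationSubring ∧
      ∀ v : ↥V, IsIntegral ↥(Subring.closure (Set.range (o1cR A N K₁) ∪ {(z₁ : Fq₁)})) (v : Fq₁) →
        ∀ c' : R₁, HasValueAt P_F (baseToBar N K₁ (v : Fq₁))
            (algebraMap ↥K₁ Ω (algebraMap R₁ ↥K₁ c')) →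
          HasValueAt (r P_F) (resV v) (o1res A K₁ c'))
    (hEVAL₂ : ∀ (P_F : Place Ω FΩ) (c : R₁),
      HasValueAt P_F (baseToBar N K₁ (z₂ : Fq₁)) (algebraMap ↥K₁ Ω (algebraMap R₁ ↥K₁ c)) →
      resV z₂ ∈ (r P_F).toValuationSubring ∧
      ∀ v : ↥V, IsIntegral ↥(Subring.closure (Set.range (o1cR A N K₁) ∪ {(z₂ : Fq₁)})) (v : Fq₁) →
        ∀ c' : R₁, HasValueAt P_F (baseToBar N K₁ (v : Fq₁))
            (algebraMap ↥K₁ Ω (algebraMap R₁ ↥K₁ c')) →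
          HasValueAt (r P_F) (resV v) (o1res A K₁ c'))
    -- the function `y`
    (vy : ↥V) (hvy : resV vy ≠ 0)
    (hrat : ∀ P : Place Ω EΩ,
      P.ord (fullToEtu Ω N w tΩ (baseToBar N K₁ (vy : Fq₁))) ≠ 0 →
      IsRationalPlace (restrictBC (coeffHom (algebraMap ↥K₁ Ω)
        (Host.Etu (keyFw ↥K₁ N w) t₁ 1) (Host.Etu (keyFw Ω N w) tΩ 1) hmem)
        (coeffHom_algebraMap _ _ _ hmem) hgenBC P))
    (D : Divisor Ω FΩ) (hD : ∀ P, D P = P.ord (baseToBar N K₁ (vy : Fq₁))) (Q : Place kA Ft) :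
    Finsupp.mapDomain r D Q = Q.ord (resV vy) := by
  classical
  letI := etuAlg ↥K₁ N w t₁
  letI algΩ := etuAlg Ω N w tΩ
  haveI : IsScalarTower Ω FΩ EΩ := isScalarTower_along (fullToEtu Ω N w tΩ)
  have hfinΩ := finiteAlong_fullToEtu N w tΩ htΩ
  haveI : Algebra.IsIntegral FΩ EΩ :=
    isIntegral_along (fullToEtu Ω N w tΩ) (isIntegral_of_finiteAlong _ hfinΩ)
  haveI : HasPrincipalDivisors Ω EΩ := hasPrincipalDivisors_Etu N w tΩ htΩ
  haveI : CharZero EΩ := charZero_of_injective_algebraMap (algebraMap Ω EΩ).injective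
  haveI : Module.Finite FΩ EΩ := hfinΩ
  have hup := (upstairs_of_coord (jCoordBar N) (fullToEtu Ω N w tΩ) hfinΩ).2.2
  -- `m ≠ 0`
  have hm : ((Module.finrank Fq₁ E₁ : ℕ) : ℤ) ≠ 0 := by
    rw [← hdegBC]
    exact_mod_cast (Module.finrank_pos (R := FΩ) (M := EΩ)).ne'
  -- the residue map
  have hres : Function.Surjective (o1res A K₁) := hσ.comp IsLocalRing.residue_surjective
  have hπres : o1res A K₁ ϖ = 0 := by
    show baseResidueMap A K₁ (IsLocalRing.residue _ ϖ) = 0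
    rw [(IsLocalRing.residue_eq_zero_iff _).mpr
      ((IsLocalRing.mem_maximalIdeal _).mpr hgeo.irreducible.not_isUnit), map_zero]
  -- constants
  have hcR : ∀ c : R₁, algebraMap Fq₁ E₁ (o1cR A N K₁ c) =
      algebraMap ↥(↥K₁)⟮t₁⟯ E₁ (algebraMap R₁ ↥(↥K₁)⟮t₁⟯ c) := by
    intro c
    rw [← IsScalarTower.algebraMap_apply R₁ ↥(↥K₁)⟮t₁⟯ E₁,
      IsScalarTower.algebraMap_apply R₁ ↥K₁ E₁]
    exact (fullToEtu ↥K₁ N w t₁).commutes _
  have hresRV : ∀ (c : R₁) (v : ↥V), (v : Fq₁) = o1cR A N K₁ c →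
      resV v = algebraMap kA Ft (o1res A K₁ c) := by
    intro c v hv
    have h1 : v = ⟨gaussι (baseRing A K₁) N (gaussC (baseRing A K₁) N c),
        by rw [gaussι_gaussC]; exact hv ▸ v.2⟩ :=
      Subtype.ext (hv.trans (gaussι_gaussC (baseRing A K₁) N c).symm)
    rw [h1, hresVρ]
    apply Subtype.ext
    rw [coe_gaussρF]
    exact gaussρ_gaussC (baseRing A K₁) N _ c
  -- the base change maps
  have hbcF : ∀ x : Fq₁, coeffHom (algebraMap ↥K₁ Ω) (Host.Etu (keyFw ↥K₁ N w) t₁ 1)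
      (Host.Etu (keyFw Ω N w) tΩ 1) hmem (algebraMap Fq₁ E₁ x) =
      algebraMap FΩ EΩ (baseToBar N K₁ x) := by
    intro x
    apply Subtype.ext
    exact coeffMap_fullToEtu (algebraMap ↥K₁ Ω) N w t₁ tΩ x
  -- reductions of the coordinates
  have hρ₁ : resV z₁ = jTildeElt kA N := by
    have h1 : z₁ = ⟨gaussι (baseRing A K₁) N (jGaussR (baseRing A K₁) N),
        by rw [gaussι_jGaussR, ← hz₁]; exact z₁.2⟩ :=
      Subtype.ext (hz₁.trans (gaussι_jGaussR (baseRing A K₁) N).symm)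
    rw [h1, hresVρ, gaussρF_jGaussR]
  have hρ₂ : resV z₂ * (jTildeElt kA N - algebraMap kA Ft (b : kA)) = 1 := by
    have h1 : z₂ = ⟨gaussι (baseRing A K₁) N (jInvGaussR (baseRing A K₁) N b),
        by rw [← hz₂]; exact z₂.2⟩ := Subtype.ext hz₂
    rw [h1, hresVρ]
    exact gaussρF_jInvGaussR_mul _ b
  have hcover : ∀ Q : Place kA Ft,
      resV z₁ ∈ Q.toValuationSubring ∨ resV z₂ ∈ Q.toValuationSubring := by
    intro Q
    by_cases hj : jTildeElt kA N ∈ Q.toValuationSubring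
    · left; rw [hρ₁]; exact hj
    · right
      have hb : algebraMap kA Ft (b : kA) ∈ Q.toValuationSubring := Q.algebraMap_mem' _
      have hjb : jTildeElt kA N - algebraMap kA Ft (b : kA) ∉ Q.toValuationSubring := by
        intro h1
        apply hj
        have := Q.toValuationSubring.add_mem _ _ h1 hb
        rwa [sub_add_cancel] at this
      have hinv : (jTildeElt kA N - algebraMap kA Ft (b : kA))⁻¹ ∈ Q.toValuationSubring :=
        (Q.toValuationSubring.mem_or_inv_mem _).resolve_left hjb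
      have h2 : resV z₂ = (jTildeElt kA N - algebraMap kA Ft (b : kA))⁻¹ :=
        eq_inv_of_mul_eq_one_left hρ₂
      rw [h2]
      exact hinv
  have hup' : ∀ P : Place Ω FΩ, ∑ w' ∈ P.fiber EΩ, (w'.ramificationIndex FΩ : ℤ) =
      ((Module.finrank Fq₁ E₁ : ℕ) : ℤ) := by
    intro P
    rw [← hdegBC]
    exact hup P
  have hrat' : ∀ P : Place Ω EΩ,
      P.ord (coeffHom (algebraMap ↥K₁ Ω) (Host.Etu (keyFw ↥K₁ N w) t₁ 1)
        (Host.Etu (keyFw Ω N w) tΩ 1) hmem (algebraMap Fq₁ E₁ (vy : Fq₁))) ≠ 0 →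
      IsRationalPlace (restrictBC (coeffHom (algebraMap ↥K₁ Ω)
        (Host.Etu (keyFw ↥K₁ N w) t₁ 1) (Host.Etu (keyFw Ω N w) tΩ 1) hmem)
        (coeffHom_algebraMap _ _ _ hmem) hgenBC P) := by
    intro P hP
    apply hrat P
    rw [hbcF] at hP
    exact hP
  exact geo_mapDomain_eq_ord hgeo hgeo' 𝒱 h𝒱 h𝒱' (o1res A K₁) hres hπres V hV resV hresV
    (o1cR A N K₁) hcR hresRV (coeffHom_algebraMap _ _ _ hmem) hgenBC (baseToBar N K₁) hbcF hintd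
    r _ hm hup' hdown z₁ z₂ hcover a₁₁ b₁₁ hcop₁₁ hz₁₁ a₂₁ b₂₁ hcop₂₁ hz₂₁ a₁₂ b₁₂ hcop₁₂ hz₁₂
    a₂₂ b₂₂ hcop₂₂ hz₂₂ hSEP₁ hSEP₂ hEVAL₁ hEVAL₂ vy hvy hrat' D hD Q

end Concrete

end Fermat.Agent.JA
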