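/-
J-A third wave, package REDO (helper1) — the pair of charts `t`, `t⁻¹` of lead's GEO setting as an
instance of `TwoChartHyps`.
-/
import Fermat.Agent.JA.REDO_helper1_GeoChart

set_option autoImplicit false
set_option linter.unusedSectionVars false
set_option linter.style.haveILetI false

open AlgebraicCurve IsLocalRing IsDedekindDomain Polynomial

namespace Fermat.Agent.JA

open Fermat.Agent.FF

section GeoTwo

variable {R : Type*} [CommRing R] [IsDomain R] [IsDiscreteValuationRing R] [CharZero R]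
  {K₁ : Type*} [Field K₁] [Algebra R K₁] [IsFractionRing R K₁]
  {K : Type*} [Field K] [Algebra K₁ K] [Algebra R K] [IsScalarTower R K₁ K]
  {E : Type*} [Field E] [Algebra K E] [Algebra K₁ E] [IsScalarTower K₁ K E]
  [Algebra R E] [IsScalarTower R K E] [IsScalarTower R K₁ E]
  {π : R} {t : K} {n : ℕ} {S S' : Finset R}
  {k : Type*} [Field k]
  (h : GeoHyps K₁ π t E n S) (h' : GeoHyps K₁ π t⁻¹ E n S')
  (𝒱 : ValuationSubring K) (h𝒱 : IsGaussAt R π t 𝒱) (h𝒱' : IsGaussAt R π t⁻¹ 𝒱)
  [IsLocalRing ↥(integralClosure ↥𝒱 E)]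
  (res : R →+* k) (hres : Function.Surjective res)

set_option maxHeartbeats 1600000 in
/-- **the two charts `t`, `t⁻¹` of GEO satisfy `TwoChartHyps`.** -/
theorem geoTwoChartHyps (hπres : res π = 0) :
    letI := geoAlgKEt h.irreducible 𝒱 (fun r => h𝒱.algebraMap_mem r)
      (residue_gaussConst_pi h 𝒱 h𝒱) res hres
    letI := geoAlgKBbar E h.irreducible res hres t
    letI := geoAlgKBbar E h.irreducible res hres t⁻¹
    letI := (geoIota h 𝒱 h𝒱).toAlgebra
    letI := (geoIota h' 𝒱 h𝒱').toAlgebra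
    haveI := h.chart_instances.1
    haveI := h'.chart_instances.1
    haveI := h.chart_instances.2.1
    haveI := h'.chart_instances.2.1
    haveI := h.isDedekindDomain
    haveI := h'.isDedekindDomain
    haveI := geoChart_isFractionRing_Bbar h 𝒱 h𝒱
    haveI := geoChart_isFractionRing_Bbar h' 𝒱 h𝒱'
    haveI := geoChart_isScalarTower h 𝒱 h𝒱 res hres
    haveI := geoChart_isScalarTower h' 𝒱 h𝒱' res hres
    TwoChartHyps K₁ E (IsLocalRing.ResidueField ↥(integralClosure ↥𝒱 E)) π res
      (mkB (A := ↥(Algebra.adjoin R {t})) (B := ↥(integralClosure ↥(Algebra.adjoin R {t}) E))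
        (algebraMap R ↥(Algebra.adjoin R {t}) π))
      (mkB (A := ↥(Algebra.adjoin R {t⁻¹})) (B := ↥(integralClosure ↥(Algebra.adjoin R {t⁻¹}) E))
        (algebraMap R ↥(Algebra.adjoin R {t⁻¹}) π))
      (geoCoord E t) (geoCoord E t⁻¹) := by
  letI := geoAlgKEt h.irreducible 𝒱 (fun r => h𝒱.algebraMap_mem r)
    (residue_gaussConst_pi h 𝒱 h𝒱) res hres
  letI := geoAlgKBbar E h.irreducible res hres t
  letI := geoAlgKBbar E h.irreducible res hres t⁻¹
  letI := (geoIota h 𝒱 h𝒱).toAlgebra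
  letI := (geoIota h' 𝒱 h𝒱').toAlgebra
  haveI := h.chart_instances.1
  haveI := h'.chart_instances.1
  haveI := h.chart_instances.2.1
  haveI := h'.chart_instances.2.1
  haveI := h.isDedekindDomain
  haveI := h'.isDedekindDomain
  haveI := geoChart_isFractionRing_Bbar h 𝒱 h𝒱
  haveI := geoChart_isFractionRing_Bbar h' 𝒱 h𝒱'
  haveI := geoChart_isScalarTower h 𝒱 h𝒱 res hres
  haveI := geoChart_isScalarTower h' 𝒱 h𝒱' res hres
  have ht0 : t ≠ 0 := h.ne_zero
  refine
    { irr := h.irreducible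
      res_pi := hπres
      surj₁ := Ideal.Quotient.mk_surjective
      ker₁ := geoChart_ker_mkB
      prime₁ := h.chart_prime
      res₁ := fun r => (geoAlgKBbar_algebraMap_res h.irreducible res hres t r).symm
      nf₁ := h.chart_not_isField
      surj₂ := Ideal.Quotient.mk_surjective
      ker₂ := geoChart_ker_mkB
      prime₂ := h'.chart_prime
      res₂ := fun r => (geoAlgKBbar_algebraMap_res h.irreducible res hres t⁻¹ r).symm
      nf₂ := h'.chart_not_isField
      coord := ?_
      coordt := ?_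
      cov₁ := geoChart_cov h 𝒱 h𝒱 res hres
      cov₂ := geoChart_cov h' 𝒱 h𝒱' res hres
      val₁ := fun P₁ hrat hs => geoChart_val P₁ hrat hs
      val₂ := fun P₁ hrat hs => geoChart_val P₁ hrat hs }
  · rw [algebraMap_geoCoord, algebraMap_geoCoord, ← map_mul, mul_inv_cancel₀ ht0, map_one]
  · change geoIota h 𝒱 h𝒱 _ * geoIota h' 𝒱 h𝒱' _ = 1
    rw [geoIota_mkB h 𝒱 h𝒱 _ (isIntegral_gauss_of_mem_chart h 𝒱 h𝒱 _),
      geoIota_mkB h' 𝒱 h𝒱' _ (isIntegral_gauss_of_mem_chart h' 𝒱 h𝒱' _), ← map_mul]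
    rw [← map_one (IsLocalRing.residue ↥(integralClosure ↥𝒱 E))]
    congr 1
    apply Subtype.ext
    change algebraMap K E t * algebraMap K E t⁻¹ = 1
    rw [← map_mul, mul_inv_cancel₀ ht0, map_one]

end GeoTwo

end Fermat.Agent.JA
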