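/-
J-A programme, package RED (helper7), part 1: **the composite valuation ring** of a place `P` of
degree one with a valuation subring `A` of the constant field: the functions regular at `P` with
value in `A`.  It is a valuation subring, hence integrally closed: a function integral over a ring
of functions with values in `A` has its value in `A`.
-/
import Mathlib
import Fermat.Agent.FF.Zeros
import Fermat.Agent.JA.ES_helper4_Value

set_option autoImplicit false
set_option linter.unusedSectionVars false

open AlgebraicCurve

namespace Fermat.Agent.JA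

section CompVal

variable {K F : Type*} [Field K] [Field F] [Algebra K F]

/-- the composite of a place of degree one with a valuation subring of the constant field. -/
def compVal (A : ValuationSubring K) (P : Place K F) (hdeg : P.deg = 1) : ValuationSubring F where
  carrier := {f | ∃ a : ↥A, HasValueAt P f (a : K)}
  mul_mem' := by
    rintro f g ⟨a, ha⟩ ⟨b, hb⟩
    exact ⟨a * b, ha.mul hb⟩
  one_mem' := ⟨1, HasValueAt.one' P⟩
  add_mem' := by
    rintro f g ⟨a, ha⟩ ⟨b, hb⟩
    exact ⟨a + b, ha.add hb⟩
  zero_mem' := ⟨0, HasValueAt.zero' P⟩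
  neg_mem' := by
    rintro f ⟨a, ha⟩
    exact ⟨-a, ha.neg⟩
  mem_or_inv_mem' := by
    intro f
    by_cases hf : f ∈ P.toValuationSubring
    · obtain ⟨c, hc⟩ := HasValueAt.exists_of_mem hdeg hf
      by_cases hc0 : c = 0
      · left
        refine ⟨0, ?_⟩
        rw [hc0] at hc
        exact hc
      · rcases A.mem_or_inv_mem c with h | h
        · left; exact ⟨⟨c, h⟩, hc⟩
        · right; exact ⟨⟨c⁻¹, h⟩, hc.inv hc0⟩
    · right
      refine ⟨0, ?_⟩
      have hf0 : f ≠ 0 := fun h => hf (h ▸ P.toValuationSubring.zero_mem)
      have h1 : ¬ (0 ≤ P.ord f) := fun h =>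
        hf ((Fermat.Agent.FF.PlaceAux.mem_iff_ord_nonneg' P hf0).mpr h)
      change HasValueAt P f⁻¹ ((0 : K))
      rw [HasValueAt.zero_iff]
      right
      rw [P.ord_inv]
      omega

theorem mem_compVal_iff {A : ValuationSubring K} {P : Place K F} {hdeg : P.deg = 1} {f : F} :
    f ∈ compVal A P hdeg ↔ ∃ a : ↥A, HasValueAt P f (a : K) := Iff.rfl

/-- a function integral over a subring of functions with values in `A` has its value in `A`. -/
theorem exists_hasValueAt_of_isIntegral (A : ValuationSubring K) (P : Place K F)
    (hdeg : P.deg = 1) (S : Subring F) (hS : ∀ s ∈ S, ∃ a : ↥A, HasValueAt P s (a : K))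
    {y : F} (hy : IsIntegral ↥S y) : ∃ a : ↥A, HasValueAt P y (a : K) :=
  Fermat.Agent.FF.mem_of_isIntegral_of_forall_mem (A := ↥S) (compVal A P hdeg)
    (fun s : ↥S => hS (s : F) s.2) hy

end CompVal

end Fermat.Agent.JA
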