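/-
J-A package ES / C3 (helper4), part 5: **(ES2) the Kronecker congruence, abstract form**.

If a Laurent series `ν` over `Ω` satisfies the norm formula
`ν(q^ℓ) = ∏_{b<ℓ} (c - y(ζ^b q)) · (c - y(q^{ℓ²}))` with `y` and `c` defined over a subring `A`
whose residue ring `k` has characteristic `ℓ`, then `ν` is defined over `A` and its reduction is
`(c̃^ℓ - ỹ^φ) (c̃ - ỹ(q^ℓ))`.
-/
import Mathlib
import Fermat.Agent.JA.ES_helper4_Frob
import Fermat.Agent.Igusa.A_helper2_Twist

set_option autoImplicit false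
set_option linter.unusedSectionVars false

open HahnSeries

namespace Fermat.Agent.JA

open ModularCurve Fermat.Agent.Igusa

section Contract

variable {R : Type*} [CommRing R] (N : ℕ) [NeZero N]

/-- the support of `m ↦ x.coeff (N * m)` is bounded below. -/
theorem bddBelow_support_contract (x : LaurentSeries R) :
    BddBelow (Function.support fun m : ℤ => x.coeff ((N : ℤ) * m)) := by
  refine ⟨-|x.order|, fun m hm => ?_⟩
  by_contra hlt
  rw [not_le] at hlt
  apply hm
  apply HahnSeries.coeff_eq_zero_of_lt_order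
  have hN : (1 : ℤ) ≤ (N : ℤ) := by exact_mod_cast Nat.one_le_iff_ne_zero.mpr (NeZero.ne N)
  have hm0 : m < 0 := lt_of_lt_of_le hlt (neg_nonpos.mpr (abs_nonneg _))
  have h1 : (N : ℤ) * m ≤ m := by nlinarith
  have h2 : -|x.order| ≤ x.order := neg_abs_le _
  linarith

/-- `x(q) ↦ x(q^{1/N})`: keep the coefficients of the exponents divisible by `N`. -/
noncomputable def qContract (x : LaurentSeries R) : LaurentSeries R :=
  HahnSeries.ofSuppBddBelow (fun m : ℤ => x.coeff ((N : ℤ) * m)) (bddBelow_support_contract N x)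

@[simp]
theorem qContract_coeff (x : LaurentSeries R) (m : ℤ) :
    (qContract N x).coeff m = x.coeff ((N : ℤ) * m) := rfl

theorem qContract_qExpand (x : LaurentSeries R) : qContract N (qExpand R N x) = x := by
  ext m
  rw [qContract_coeff, qExpand_coeff_mul]

theorem qExpand_qContract (x : LaurentSeries R)
    (h : ∀ n : ℤ, ¬ (N : ℤ) ∣ n → x.coeff n = 0) : qExpand R N (qContract N x) = x := by
  ext n
  by_cases hn : (N : ℤ) ∣ n
  · obtain ⟨m, rfl⟩ := hn
    rw [qExpand_coeff_mul, qContract_coeff]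
  · rw [qExpand_coeff_of_not_dvd N _ hn, h n hn]

theorem coeffMap_qContract {S : Type*} [CommRing S] (f : R →+* S) (x : LaurentSeries R) :
    coeffMap f (qContract N x) = qContract N (coeffMap f x) := by
  ext m
  rfl

end Contract

section Kron

theorem coeffMap_C {R S : Type*} [CommRing R] [CommRing S] (f : R →+* S) (a : R) :
    coeffMap f (HahnSeries.C a) = HahnSeries.C (f a) := by
  rw [HahnSeries.C_apply, coeffMap_single, HahnSeries.C_apply]

variable {A Ω k : Type*} [CommRing A] [CommRing Ω] [Field k]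
  (sub : A →+* Ω) (res : A →+* k)
  (ℓ : ℕ) [NeZero ℓ] [ExpChar k ℓ]

/-- an `ℓ`-th root of unity reduces to `1` in characteristic `ℓ`. -/
theorem res_eq_one_of_pow_eq_one (ζ : Aˣ) (hζ : ζ ^ ℓ = 1) :
    Units.map (res : A →* k) ζ = 1 := by
  have h1 : (Units.map (res : A →* k) ζ) ^ ℓ = 1 := by rw [← map_pow, hζ, map_one]
  have h2 : ((Units.map (res : A →* k) ζ : kˣ) : k) ^ ℓ = 1 := by
    rw [← Units.val_pow_eq_pow_val, h1, Units.val_one]
  have h3 : (((Units.map (res : A →* k) ζ : kˣ) : k) - 1) ^ ℓ = 0 := by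
    have := sub_pow_expChar (((Units.map (res : A →* k) ζ : kˣ) : k)) 1 (p := ℓ)
    rw [this, h2, one_pow, sub_self]
  have h4 := pow_eq_zero_iff (NeZero.ne ℓ) |>.mp h3
  exact Units.ext (sub_eq_zero.mp h4)

/-- **(ES2), abstract Kronecker congruence.** -/
theorem exists_kron_of_norm_formula (hsub : Function.Injective sub) (ζ : Aˣ) (hζ : ζ ^ ℓ = 1)
    (y : LaurentSeries A) (c : A)
    (ν : LaurentSeries Ω)
    (hν : qExpand Ω ℓ ν
      = (∏ b ∈ Finset.range ℓ, twist (Units.map (sub : A →* Ω) ζ ^ b)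
            (HahnSeries.C (sub c) - coeffMap sub y))
        * (HahnSeries.C (sub c) - qExpand Ω (ℓ ^ 2) (coeffMap sub y))) :
    ∃ n : LaurentSeries A, coeffMap sub n = ν ∧
      coeffMap res n = (HahnSeries.C (res c ^ ℓ) - coeffMap (frobenius k ℓ) (coeffMap res y))
        * (HahnSeries.C (res c) - qExpand k ℓ (coeffMap res y)) := by
  -- the product over `A`
  set PA : LaurentSeries A :=
    (∏ b ∈ Finset.range ℓ, twist (ζ ^ b) (HahnSeries.C c - y))
      * (HahnSeries.C c - qExpand A (ℓ ^ 2) y) with hPA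
  have hsubPA : coeffMap sub PA = qExpand Ω ℓ ν := by
    rw [hν, hPA, map_mul, map_prod]
    congr 1
    · refine Finset.prod_congr rfl fun b _ => ?_
      rw [coeffMap_twist, map_sub, coeffMap_C, map_pow]
    · rw [map_sub, coeffMap_C, coeffMap_qExpand]
  -- coefficients of `PA` off `ℓ ℤ` vanish
  have hvan : ∀ n : ℤ, ¬ (ℓ : ℤ) ∣ n → PA.coeff n = 0 := by
    intro n hn
    apply hsub
    rw [map_zero, ← coeffMap_coeff, hsubPA, qExpand_coeff_of_not_dvd ℓ _ hn]
  refine ⟨qContract ℓ PA, ?_, ?_⟩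
  · rw [coeffMap_qContract, hsubPA, qContract_qExpand]
  · apply qExpand_injective (R := k) ℓ
    rw [← coeffMap_qExpand, qExpand_qContract ℓ PA hvan, hPA, map_mul, map_prod]
    have h1 : ∀ b ∈ Finset.range ℓ,
        coeffMap res (twist (ζ ^ b) (HahnSeries.C c - y))
          = HahnSeries.C (res c) - coeffMap res y := by
      intro b _
      rw [coeffMap_twist, map_pow, res_eq_one_of_pow_eq_one res ℓ ζ hζ, one_pow, twist_one,
        map_sub, coeffMap_C]
    have hA : coeffMap (frobenius k ℓ) (HahnSeries.C (res c) - coeffMap res y)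
        = HahnSeries.C (res c ^ ℓ) - coeffMap (frobenius k ℓ) (coeffMap res y) := by
      rw [map_sub, coeffMap_C, frobenius_def]
    have hB : coeffMap res (HahnSeries.C c - qExpand A (ℓ ^ 2) y)
        = qExpand k ℓ (HahnSeries.C (res c) - qExpand k ℓ (coeffMap res y)) := by
      have : NeZero (ℓ * ℓ) := ⟨Nat.mul_ne_zero (NeZero.ne ℓ) (NeZero.ne ℓ)⟩
      have e : qExpand k (ℓ ^ 2) (coeffMap res y) = qExpand k (ℓ * ℓ) (coeffMap res y) :=
        qExpand_congr (by ring) _
      rw [map_sub, map_sub, coeffMap_C, coeffMap_qExpand, qExpand_C, e, qExpand_qExpand]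
    rw [Finset.prod_congr rfl h1, Finset.prod_const, Finset.card_range, laurent_pow_char ℓ,
      hA, hB, map_mul]

end Kron

end Fermat.Agent.JA
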