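/-
J-A third wave, (O1) piece (P3), part 3 (helper3): `hcover`, `hSEP₁`, `hSEP₂`, `hEVAL₁`, `hEVAL₂`
of helper1's `geo_mapDomain_eq_ord` for helper6's BASE-PKG (`V = baseV`, `resV = baseResV`,
`cR = baseφ`) at the base `R₁ = A ∩ K₁`, `σ = baseResidueMap A K₁`; the two proofs `hFq`, `hRES`
are arbitrary (proof irrelevance), so the statements apply to any choice made by the assembly.
-/
import Mathlib
import Fermat.Agent.JA.O1_helper3_Coords
import Fermat.Agent.JA.O1_helper6_BasePkg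

set_option autoImplicit false
set_option linter.unusedSectionVars false
set_option linter.style.haveILetI false
set_option synthInstance.maxHeartbeats 400000

open HahnSeries IntermediateField AlgebraicCurve ModularCurve Fermat.Agent.Igusa Polynomial
  Fermat.Agent.X0N

namespace Fermat.Agent.JA

section BaseInst

/-- `Ω = AlgebraicClosure ℚ`. -/
local notation "Ω" => AlgebraicClosure ℚ

variable {ℓ : ℕ} [Fact ℓ.Prime] {A : ValuationSubring Ω} (hA : A.LiesOverPrime ℓ)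
  (N : ℕ) [NeZero N] {K₁ : IntermediateField ℚ Ω} [IsDiscreteValuationRing ↥(baseRing A K₁)]
  (h : GaussRes A N (IsLocalRing.residue ↥A))
  (hFq : keyFq ↥K₁ N ≤ gaussField ↥(baseRing A K₁) ↥K₁)
  (hRES : ∀ (z : LaurentSeries ↥K₁) (_ : z ∈ keyFq ↥K₁ N)
    (hzi : z ∈ gaussInt ↥(baseRing A K₁) ↥K₁),
    coeffMap (baseResidueMap A K₁) (gaussRed ↥(baseRing A K₁) ↥K₁ ⟨z, hzi⟩) ∈
      modularFunctionFieldFullC (IsLocalRing.ResidueField ↥A) N)

/-- the F-coordinate `z₁ = j` as an element of `baseV`. -/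
noncomputable def baseZj : ↥(baseV (baseRing A K₁) N hFq) :=
  ⟨gaussι (baseRing A K₁) N (jGaussR (baseRing A K₁) N), gaussι_mem_baseV _ N hFq _⟩

/-- the F-coordinate `z₂ = (j - b)⁻¹` as an element of `baseV`. -/
noncomputable def baseZjInv (b : ℤ) : ↥(baseV (baseRing A K₁) N hFq) :=
  ⟨gaussι (baseRing A K₁) N (jInvGaussR (baseRing A K₁) N b), gaussι_mem_baseV _ N hFq _⟩

@[simp] theorem coe_baseZj :
    ((baseZj N hFq : ↥(baseV (baseRing A K₁) N hFq)) : ↥(keyFq ↥K₁ N)) = jBase ↥K₁ N :=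
  gaussι_jGaussR _ N

@[simp] theorem coe_baseZjInv (b : ℤ) :
    ((baseZjInv N hFq b : ↥(baseV (baseRing A K₁) N hFq)) : ↥(keyFq ↥K₁ N)) =
      gaussι (baseRing A K₁) N (jInvGaussR (baseRing A K₁) N b) := rfl

include h in
theorem baseResV_baseZj :
    baseResV (baseRing A K₁) N hFq (baseResidueMap A K₁) hRES (baseZj N hFq) =
      jTildeElt (IsLocalRing.ResidueField ↥A) N := by
  rw [baseZj, baseResV_gaussι (baseRing A K₁) N hFq (baseResidueMap A K₁) hRES
    (gaussRes_baseRing (K₁ := K₁) N h), gaussρF_jGaussR]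

theorem baseResV_baseZjInv (b : ℤ) :
    baseResV (baseRing A K₁) N hFq (baseResidueMap A K₁) hRES (baseZjInv N hFq b) =
      gaussρF (gaussRes_baseRing (K₁ := K₁) N h) (jInvGaussR (baseRing A K₁) N b) := by
  rw [baseZjInv, baseResV_gaussι (baseRing A K₁) N hFq (baseResidueMap A K₁) hRES
    (gaussRes_baseRing (K₁ := K₁) N h)]

theorem baseToBar_baseZj :
    baseToBar N K₁ ((baseZj N hFq : ↥(baseV (baseRing A K₁) N hFq)) : ↥(keyFq ↥K₁ N)) =
      jBar N := by
  rw [coe_baseZj, baseToBar_jBase]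

theorem baseToBar_baseZjInv (b : ℤ) :
    baseToBar N K₁ ((baseZjInv N hFq b : ↥(baseV (baseRing A K₁) N hFq)) : ↥(keyFq ↥K₁ N)) =
      jInvBar N b := by
  rw [coe_baseZjInv, baseToBar_gaussι_jInvGaussR]

include h in
/-- **`hcover`** for the BASE-PKG. -/
theorem base_hcover (b : ℤ) (Q : Place (IsLocalRing.ResidueField ↥A)
      ↥(modularFunctionFieldFullC (IsLocalRing.ResidueField ↥A) N)) :
    baseResV (baseRing A K₁) N hFq (baseResidueMap A K₁) hRES (baseZj N hFq) ∈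
        Q.toValuationSubring ∨
      baseResV (baseRing A K₁) N hFq (baseResidueMap A K₁) hRES (baseZjInv N hFq b) ∈
        Q.toValuationSubring :=
  o1_hcover N h (baseV (baseRing A K₁) N hFq) (mem_baseV_iff _ N hFq)
    (baseResV (baseRing A K₁) N hFq (baseResidueMap A K₁) hRES)
    (fun y _ => baseResV_gaussι (baseRing A K₁) N hFq (baseResidueMap A K₁) hRES
      (gaussRes_baseRing (K₁ := K₁) N h) y) b Q

include hA h in
/-- **`hSEP₁`** for the BASE-PKG (chart of `j`). -/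
theorem base_hSEP_j (hℓN : ¬ ℓ ∣ N) (hK₁ : IsBase ℓ K₁) :
    ∀ Q Q' : Place (IsLocalRing.ResidueField ↥A)
        ↥(modularFunctionFieldFullC (IsLocalRing.ResidueField ↥A) N),
      baseResV (baseRing A K₁) N hFq (baseResidueMap A K₁) hRES (baseZj N hFq) ∈
        Q.toValuationSubring →
      baseResV (baseRing A K₁) N hFq (baseResidueMap A K₁) hRES (baseZj N hFq) ∈
        Q'.toValuationSubring → Q' ≠ Q →
      ∃ v : ↥(baseV (baseRing A K₁) N hFq),
        IsIntegral ↥(Subring.closure (Set.range (baseφ (baseRing A K₁) N) ∪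
            {((baseZj N hFq : ↥(baseV (baseRing A K₁) N hFq)) : ↥(keyFq ↥K₁ N))}))
          (v : ↥(keyFq ↥K₁ N)) ∧
        HasValueAt Q (baseResV (baseRing A K₁) N hFq (baseResidueMap A K₁) hRES v) 0 ∧
        ¬ HasValueAt Q' (baseResV (baseRing A K₁) N hFq (baseResidueMap A K₁) hRES v) 0 :=
  o1_hSEP_j hA N h (baseV (baseRing A K₁) N hFq) (mem_baseV_iff _ N hFq)
    (baseResV (baseRing A K₁) N hFq (baseResidueMap A K₁) hRES)
    (fun y _ => baseResV_gaussι (baseRing A K₁) N hFq (baseResidueMap A K₁) hRES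
      (gaussRes_baseRing (K₁ := K₁) N h) y) hℓN hK₁

include hA h in
/-- **`hSEP₂`** for the BASE-PKG (chart of `(j - b)⁻¹`), Legendre case `ℓ ≠ 2`. -/
theorem base_hSEP_jInv_of_ne_two (hℓN : ¬ ℓ ∣ N) (hK₁ : IsBase ℓ K₁) (hℓ2 : ℓ ≠ 2) (b : ℤ)
    (r : ↥(baseRing A K₁))
    (hroot : 256 * (r ^ 2 - r + 1) ^ 3 = (b : ↥(baseRing A K₁)) * (r ^ 2 * (r - 1) ^ 2))
    (hr0 : IsUnit r) (hr1 : IsUnit (r - 1)) :
    ∀ Q Q' : Place (IsLocalRing.ResidueField ↥A)
        ↥(modularFunctionFieldFullC (IsLocalRing.ResidueField ↥A) N),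
      baseResV (baseRing A K₁) N hFq (baseResidueMap A K₁) hRES (baseZjInv N hFq b) ∈
        Q.toValuationSubring →
      baseResV (baseRing A K₁) N hFq (baseResidueMap A K₁) hRES (baseZjInv N hFq b) ∈
        Q'.toValuationSubring → Q' ≠ Q →
      ∃ v : ↥(baseV (baseRing A K₁) N hFq),
        IsIntegral ↥(Subring.closure (Set.range (baseφ (baseRing A K₁) N) ∪
            {((baseZjInv N hFq b : ↥(baseV (baseRing A K₁) N hFq)) : ↥(keyFq ↥K₁ N))}))
          (v : ↥(keyFq ↥K₁ N)) ∧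
        HasValueAt Q (baseResV (baseRing A K₁) N hFq (baseResidueMap A K₁) hRES v) 0 ∧
        ¬ HasValueAt Q' (baseResV (baseRing A K₁) N hFq (baseResidueMap A K₁) hRES v) 0 :=
  o1_hSEP_jInv_of_ne_two hA N h (baseV (baseRing A K₁) N hFq) (mem_baseV_iff _ N hFq)
    (baseResV (baseRing A K₁) N hFq (baseResidueMap A K₁) hRES)
    (fun y _ => baseResV_gaussι (baseRing A K₁) N hFq (baseResidueMap A K₁) hRES
      (gaussRes_baseRing (K₁ := K₁) N h) y) hℓN hK₁ hℓ2 b r hroot hr0 hr1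

include hA h in
/-- **`hSEP₂`** for the BASE-PKG (chart of `(j - b)⁻¹`), Hesse case `ℓ ≠ 3`. -/
theorem base_hSEP_jInv_of_ne_three (hℓN : ¬ ℓ ∣ N) (hK₁ : IsBase ℓ K₁) (hℓ3 : ℓ ≠ 3) (b : ℤ)
    (r : ↥(baseRing A K₁))
    (hroot : 27 * r ^ 3 * (r ^ 3 + 8) ^ 3 = (b : ↥(baseRing A K₁)) * (r ^ 3 - 1) ^ 3)
    (hr : ∀ c : ↥(baseRing A K₁), c ^ 3 = 1 → IsUnit (c - r)) :
    ∀ Q Q' : Place (IsLocalRing.ResidueField ↥A)
        ↥(modularFunctionFieldFullC (IsLocalRing.ResidueField ↥A) N),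
      baseResV (baseRing A K₁) N hFq (baseResidueMap A K₁) hRES (baseZjInv N hFq b) ∈
        Q.toValuationSubring →
      baseResV (baseRing A K₁) N hFq (baseResidueMap A K₁) hRES (baseZjInv N hFq b) ∈
        Q'.toValuationSubring → Q' ≠ Q →
      ∃ v : ↥(baseV (baseRing A K₁) N hFq),
        IsIntegral ↥(Subring.closure (Set.range (baseφ (baseRing A K₁) N) ∪
            {((baseZjInv N hFq b : ↥(baseV (baseRing A K₁) N hFq)) : ↥(keyFq ↥K₁ N))}))
          (v : ↥(keyFq ↥K₁ N)) ∧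
        HasValueAt Q (baseResV (baseRing A K₁) N hFq (baseResidueMap A K₁) hRES v) 0 ∧
        ¬ HasValueAt Q' (baseResV (baseRing A K₁) N hFq (baseResidueMap A K₁) hRES v) 0 :=
  o1_hSEP_jInv_of_ne_three hA N h (baseV (baseRing A K₁) N hFq) (mem_baseV_iff _ N hFq)
    (baseResV (baseRing A K₁) N hFq (baseResidueMap A K₁) hRES)
    (fun y _ => baseResV_gaussι (baseRing A K₁) N hFq (baseResidueMap A K₁) hRES
      (gaussRes_baseRing (K₁ := K₁) N h) y) hℓN hK₁ hℓ3 b r hroot hr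

variable (r : Place Ω ↥(modularFunctionFieldBar N) →
  Place (IsLocalRing.ResidueField ↥A)
    ↥(modularFunctionFieldFullC (IsLocalRing.ResidueField ↥A) N))

/-- **`hEVAL₁`** for the BASE-PKG (chart of `j`). -/
theorem base_hEVAL_j (hev : ChartEval h (jBar N) r) :
    ∀ (P_F : Place Ω ↥(modularFunctionFieldBar N)) (c : ↥(baseRing A K₁)),
      HasValueAt P_F
        (baseToBar N K₁ ((baseZj N hFq : ↥(baseV (baseRing A K₁) N hFq)) : ↥(keyFq ↥K₁ N)))
        (algebraMap ↥K₁ Ω (algebraMap ↥(baseRing A K₁) ↥K₁ c)) →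
      baseResV (baseRing A K₁) N hFq (baseResidueMap A K₁) hRES (baseZj N hFq) ∈
        (r P_F).toValuationSubring ∧
      ∀ v : ↥(baseV (baseRing A K₁) N hFq),
        IsIntegral ↥(Subring.closure (Set.range (baseφ (baseRing A K₁) N) ∪
            {((baseZj N hFq : ↥(baseV (baseRing A K₁) N hFq)) : ↥(keyFq ↥K₁ N))}))
          (v : ↥(keyFq ↥K₁ N)) →
        ∀ c' : ↥(baseRing A K₁), HasValueAt P_F (baseToBar N K₁ (v : ↥(keyFq ↥K₁ N)))
            (algebraMap ↥K₁ Ω (algebraMap ↥(baseRing A K₁) ↥K₁ c')) →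
          HasValueAt (r P_F) (baseResV (baseRing A K₁) N hFq (baseResidueMap A K₁) hRES v)
            (((baseResidueMap A K₁).comp (IsLocalRing.residue ↥(baseRing A K₁))) c') :=
  o1_hEVAL_j N h (baseV (baseRing A K₁) N hFq) (mem_baseV_iff _ N hFq)
    (baseResV (baseRing A K₁) N hFq (baseResidueMap A K₁) hRES)
    (fun y _ => baseResV_gaussι (baseRing A K₁) N hFq (baseResidueMap A K₁) hRES
      (gaussRes_baseRing (K₁ := K₁) N h) y) r hev

/-- **`hEVAL₂`** for the BASE-PKG (chart of `(j - b)⁻¹`). -/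
theorem base_hEVAL_jInv (b : ℤ) (hev : ChartEval h (jInvBar N b) r) :
    ∀ (P_F : Place Ω ↥(modularFunctionFieldBar N)) (c : ↥(baseRing A K₁)),
      HasValueAt P_F
        (baseToBar N K₁ ((baseZjInv N hFq b : ↥(baseV (baseRing A K₁) N hFq)) : ↥(keyFq ↥K₁ N)))
        (algebraMap ↥K₁ Ω (algebraMap ↥(baseRing A K₁) ↥K₁ c)) →
      baseResV (baseRing A K₁) N hFq (baseResidueMap A K₁) hRES (baseZjInv N hFq b) ∈
        (r P_F).toValuationSubring ∧
      ∀ v : ↥(baseV (baseRing A K₁) N hFq),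
        IsIntegral ↥(Subring.closure (Set.range (baseφ (baseRing A K₁) N) ∪
            {((baseZjInv N hFq b : ↥(baseV (baseRing A K₁) N hFq)) : ↥(keyFq ↥K₁ N))}))
          (v : ↥(keyFq ↥K₁ N)) →
        ∀ c' : ↥(baseRing A K₁), HasValueAt P_F (baseToBar N K₁ (v : ↥(keyFq ↥K₁ N)))
            (algebraMap ↥K₁ Ω (algebraMap ↥(baseRing A K₁) ↥K₁ c')) →
          HasValueAt (r P_F) (baseResV (baseRing A K₁) N hFq (baseResidueMap A K₁) hRES v)
            (((baseResidueMap A K₁).comp (IsLocalRing.residue ↥(baseRing A K₁))) c') :=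
  o1_hEVAL_jInv N h (baseV (baseRing A K₁) N hFq) (mem_baseV_iff _ N hFq)
    (baseResV (baseRing A K₁) N hFq (baseResidueMap A K₁) hRES)
    (fun y _ => baseResV_gaussι (baseRing A K₁) N hFq (baseResidueMap A K₁) hRES
      (gaussRes_baseRing (K₁ := K₁) N h) y) r b hev

end BaseInst

end Fermat.Agent.JA
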