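/-
J-A third wave, (O1) piece (P3) (helper3): the concrete hypotheses `hSEP` and `hEVAL` of helper1's
`chartSepEvalOn_of_fchart`.

* `hSEP` from helper6's base-level `ChartSep h₁ (gaussι R N zG) good`;
* `hEVAL` from helper7's `Ω`-level `ChartEval h z r` via helper6's transfer lemmas
  (`coeffMap_baseIncl_mem_chartRing`, `gaussRes_baseRing`).

The valuation ring `V`, its residue map `resV` and the constants `cR` are kept abstract, with the
hypotheses characterising them (`hV`, `hresV`, `hcR`), so that the statements apply verbatim to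
the concrete choices of the BASE-PKG.
-/
import Mathlib
import Fermat.Agent.JA.SEP_helper6_CuspInst
import Fermat.Agent.JA.REDO_helper1_FChart

set_option autoImplicit false
set_option linter.unusedSectionVars false
set_option linter.style.haveILetI false
set_option synthInstance.maxHeartbeats 400000

open HahnSeries IntermediateField AlgebraicCurve ModularCurve Fermat.Agent.Igusa Polynomial
  Fermat.Agent.X0N

namespace Fermat.Agent.JA

section BaseLevel

variable {K₁ : Type*} [Field K₁] [Algebra ℚ K₁] (R : ValuationSubring K₁)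
  [IsDiscreteValuationRing ↥R] (N : ℕ) [NeZero N]

/-- the subring `R[z]` in the shape used by `chartSepEvalOn_of_fchart`. -/
theorem coeffSubring_eq_closure_range (z : ↥(keyFq K₁ N)) (cR : ↥R →+* ↥(keyFq K₁ N))
    (hcR : ∀ a : ↥R, cR a = algebraMap K₁ ↥(keyFq K₁ N) (a : K₁)) :
    coeffSubring R N z = Subring.closure (Set.range cR ∪ {z}) := by
  have h : Set.range (fun a : ↥R => algebraMap K₁ ↥(keyFq K₁ N) (a : K₁)) = Set.range cR := by
    congr 1
    funext a
    exact (hcR a).symm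
  rw [coeffSubring, h]

/-- a function which is integral over `R[z]` (`z` Gauss-integral) is the function of a series
with coefficients in `R`, lying in the chart ring of `z`. -/
theorem exists_chartRing_of_isIntegral_coeffSubring (zG : ↥(gaussRing R N)) (x : ↥(keyFq K₁ N))
    (hx : IsIntegral ↥(coeffSubring R N (gaussι R N zG)) x) :
    ∃ y : ↥(chartRing R N (gaussι R N zG)), chartι R N (gaussι R N zG) y = x := by
  have hFq : keyFq K₁ N ≤ gaussField ↥R K₁ := laurentBaseChange_full_le_gaussField ↥R K₁ N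
  set A₀ : Subring ↥(keyFq K₁ N) := coeffSubring R N (gaussι R N zG) with hA₀
  have hA₀emb : ∀ a : ↥A₀, ∃ s : LaurentSeries ↥R,
      emb ↥R K₁ s = ((a : ↥(keyFq K₁ N)) : LaurentSeries K₁) := by
    have hle : A₀ ≤ ((emb ↥R K₁).range).comap
        ((keyFq K₁ N).val : ↥(keyFq K₁ N) →+* LaurentSeries K₁) := by
      rw [hA₀, coeffSubring, Subring.closure_le]
      rintro x (⟨r, rfl⟩ | hx)
      · refine ⟨HahnSeries.C r, ?_⟩
        rw [emb_C]
        show _ = algebraMap K₁ (LaurentSeries K₁) (r : K₁)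
        rw [algebraMap_laurentSeries_eq_single]
        rfl
      · rw [Set.mem_singleton_iff] at hx
        rw [hx]
        exact ⟨(zG : LaurentSeries ↥R), rfl⟩
    intro a
    exact hle a.2
  have hvser : ∃ y : LaurentSeries ↥R, emb ↥R K₁ y = (x : LaurentSeries K₁) := by
    apply exists_emb_eq_of_isIntegralElem (hFq x.2)
    letI algemb : Algebra (LaurentSeries ↥R) (LaurentSeries K₁) := (emb ↥R K₁).toAlgebra
    have h1 : IsIntegral ↥A₀ (x : LaurentSeries K₁) := by
      refine IsIntegral.map_of_comp_eq (RingHom.id ↥A₀)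
        ((keyFq K₁ N).val : ↥(keyFq K₁ N) →+* LaurentSeries K₁) ?_ hx
      refine RingHom.ext fun r => ?_
      rfl
    have h2 : IsIntegral (LaurentSeries ↥R) (x : LaurentSeries K₁) := by
      refine isIntegral_of_isIntegral_of_forall_exists (S₁ := ↥A₀) (S₂ := LaurentSeries ↥R) ?_ h1
      intro a
      obtain ⟨s', hs'⟩ := hA₀emb a
      exact ⟨s', hs'⟩
    exact h2
  obtain ⟨y, hy⟩ := hvser
  have hyF : y ∈ gaussRing R N := by
    show coeffMap R.subtype y ∈ laurentBaseChange K₁ (modularFunctionFieldFull N)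
    have h1 : coeffMap R.subtype y = emb ↥R K₁ y := rfl
    rw [h1, hy]
    exact x.2
  have hιy : gaussι R N ⟨y, hyF⟩ = x := Subtype.ext hy
  have hychart : y ∈ chartRing R N (gaussι R N zG) := by
    refine ⟨hyF, ?_⟩
    rw [hιy]
    exact hx
  exact ⟨⟨y, hychart⟩, hιy⟩

variable {k : Type*} [Field k] {π : ↥R →+* k}

/-- **`hSEP`** of `chartSepEvalOn_of_fchart` from the base-level `ChartSep`. -/
theorem fchart_hSEP_of_chartSep (h₁ : GaussRes R N π) (zG : ↥(gaussRing R N))
    (hsep : ChartSep h₁ (gaussι R N zG) (fun Q => gaussρF h₁ zG ∈ Q.toValuationSubring))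
    (V : ValuationSubring ↥(keyFq K₁ N)) (hV : ∀ y : ↥(gaussRing R N), gaussι R N y ∈ V)
    (resV : ↥V →+* ↥(modularFunctionFieldFullC k N))
    (hresV : ∀ y : ↥(gaussRing R N), resV ⟨gaussι R N y, hV y⟩ = gaussρF h₁ y)
    (cR : ↥R →+* ↥(keyFq K₁ N))
    (hcR : ∀ a : ↥R, cR a = algebraMap K₁ ↥(keyFq K₁ N) (a : K₁))
    (zV : ↥V) (hzV : (zV : ↥(keyFq K₁ N)) = gaussι R N zG) :
    ∀ Q Q' : Place k ↥(modularFunctionFieldFullC k N), resV zV ∈ Q.toValuationSubring →
      resV zV ∈ Q'.toValuationSubring → Q' ≠ Q →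
      ∃ v : ↥V, IsIntegral ↥(Subring.closure (Set.range cR ∪ {(zV : ↥(keyFq K₁ N))}))
          (v : ↥(keyFq K₁ N)) ∧
        HasValueAt Q (resV v) 0 ∧ ¬ HasValueAt Q' (resV v) 0 := by
  classical
  intro Q Q' hQ hQ' hne
  have hzres : resV zV = gaussρF h₁ zG := by
    have h1 : zV = ⟨gaussι R N zG, hV zG⟩ := Subtype.ext hzV
    rw [h1, hresV]
  rw [hzres] at hQ hQ'
  obtain ⟨y, h0, hne'⟩ := hsep {Q, Q'} (by
    intro Q'' hQ''
    rw [Finset.mem_insert, Finset.mem_singleton] at hQ''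
    rcases hQ'' with rfl | rfl
    · exact hQ
    · exact hQ') Q (Finset.mem_insert_self _ _)
  set yg : ↥(gaussRing R N) := Subring.inclusion (chartRing_le_gaussRing (gaussι R N zG)) y
    with hyg
  refine ⟨⟨gaussι R N yg, hV yg⟩, ?_, ?_, ?_⟩
  · rw [hzV, ← coeffSubring_eq_closure_range R N (gaussι R N zG) cR hcR]
    exact isIntegral_chartι (gaussι R N zG) y
  · rw [hresV]
    exact h0
  · rw [hresV]
    exact hne' Q' (Finset.mem_insert_of_mem (Finset.mem_singleton_self _)) hne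

/-- **`hSEP`, helper1's literal** (`cR := (algebraMap K₁ F₁).comp R.subtype`,
`zV := ⟨gaussι R N zG, hzV⟩`). -/
theorem o1_hSEP (h₁ : GaussRes R N π)
    (V : ValuationSubring ↥(laurentBaseChange K₁ (modularFunctionFieldFull N)))
    (hVmem : ∀ x : ↥(laurentBaseChange K₁ (modularFunctionFieldFull N)),
      x ∈ V ↔ (x : LaurentSeries K₁) ∈ gaussInt ↥R K₁)
    (resV : ↥V →+* ↥(modularFunctionFieldFullC k N))
    (hresV : ∀ (y : ↥(gaussRing R N)) (hy : gaussι R N y ∈ V),
      resV ⟨gaussι R N y, hy⟩ = gaussρF h₁ y)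
    (zG : ↥(gaussRing R N)) (hzV : gaussι R N zG ∈ V)
    (hsep : ChartSep h₁ (gaussι R N zG) (fun Q => gaussρF h₁ zG ∈ Q.toValuationSubring)) :
    ∀ Q Q' : Place k ↥(modularFunctionFieldFullC k N),
      resV ⟨gaussι R N zG, hzV⟩ ∈ Q.toValuationSubring →
      resV ⟨gaussι R N zG, hzV⟩ ∈ Q'.toValuationSubring → Q' ≠ Q →
      ∃ v : ↥V, IsIntegral ↥(Subring.closure (Set.range
            ((algebraMap K₁ ↥(laurentBaseChange K₁ (modularFunctionFieldFull N))).comp R.subtype) ∪
            {gaussι R N zG}))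
          (v : ↥(laurentBaseChange K₁ (modularFunctionFieldFull N))) ∧
        HasValueAt Q (resV v) 0 ∧ ¬ HasValueAt Q' (resV v) 0 := by
  have hV : ∀ y : ↥(gaussRing R N), gaussι R N y ∈ V := fun y =>
    (hVmem _).mpr (emb_mem_gaussInt ↥R K₁ (y : LaurentSeries ↥R))
  exact fchart_hSEP_of_chartSep R N h₁ zG hsep V hV resV (fun y => hresV y (hV y))
    ((algebraMap K₁ ↥(laurentBaseChange K₁ (modularFunctionFieldFull N))).comp R.subtype)
    (fun a => rfl) ⟨gaussι R N zG, hzV⟩ rfl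

end BaseLevel

section OmegaLevel

/-- `Ω = AlgebraicClosure ℚ`. -/
local notation "Ω" => AlgebraicClosure ℚ

variable {A : ValuationSubring Ω} (N : ℕ) [NeZero N] {K₁ : IntermediateField ℚ Ω}
  [IsDiscreteValuationRing ↥(baseRing A K₁)]

/-- the reduction over `A` of the base change of a chart function over `R₁`. -/
theorem chartρF_coeffMap_baseIncl (h : GaussRes A N (IsLocalRing.residue ↥A))
    (z₁ : ↥(laurentBaseChange ↥K₁ (modularFunctionFieldFull N)))
    (y : ↥(chartRing (baseRing A K₁) N z₁)) :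
    chartρF h (baseToBar N K₁ z₁)
        ⟨coeffMap (baseIncl A K₁) (y : LaurentSeries ↥(baseRing A K₁)),
          coeffMap_baseIncl_mem_chartRing N z₁ y.2⟩ =
      chartρF (gaussRes_baseRing (K₁ := K₁) N h) z₁ y := by
  apply Subtype.ext
  rw [coe_chartρF, coe_chartρF, coeffMap_coeffMap]
  rfl

/-- the function over `Ω` of the base change of a chart function over `R₁`. -/
theorem chartι_coeffMap_baseIncl
    (z₁ : ↥(laurentBaseChange ↥K₁ (modularFunctionFieldFull N)))
    (y : ↥(chartRing (baseRing A K₁) N z₁)) :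
    chartι A N (baseToBar N K₁ z₁)
        ⟨coeffMap (baseIncl A K₁) (y : LaurentSeries ↥(baseRing A K₁)),
          coeffMap_baseIncl_mem_chartRing N z₁ y.2⟩ =
      baseToBar N K₁ (chartι (baseRing A K₁) N z₁ y) :=
  gaussι_coeffMap_baseIncl N y.2.1

/-- **`hEVAL`** of `chartSepEvalOn_of_fchart` from the `Ω`-level `ChartEval`. -/
theorem fchart_hEVAL_of_chartEval (h : GaussRes A N (IsLocalRing.residue ↥A))
    (zG : ↥(gaussRing (baseRing A K₁) N))
    (r : Place Ω ↥(modularFunctionFieldBar N) →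
      Place (IsLocalRing.ResidueField ↥A)
        ↥(modularFunctionFieldFullC (IsLocalRing.ResidueField ↥A) N))
    (hev : ChartEval h (baseToBar N K₁ (gaussι (baseRing A K₁) N zG)) r)
    (V : ValuationSubring ↥(keyFq ↥K₁ N))
    (hV : ∀ y : ↥(gaussRing (baseRing A K₁) N), gaussι (baseRing A K₁) N y ∈ V)
    (resV : ↥V →+* ↥(modularFunctionFieldFullC (IsLocalRing.ResidueField ↥A) N))
    (hresV : ∀ y : ↥(gaussRing (baseRing A K₁) N),
      resV ⟨gaussι (baseRing A K₁) N y, hV y⟩ = gaussρF (gaussRes_baseRing (K₁ := K₁) N h) y)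
    (cR : ↥(baseRing A K₁) →+* ↥(keyFq ↥K₁ N))
    (hcR : ∀ a : ↥(baseRing A K₁), cR a = algebraMap ↥K₁ ↥(keyFq ↥K₁ N) (a : ↥K₁))
    (zV : ↥V) (hzV : (zV : ↥(keyFq ↥K₁ N)) = gaussι (baseRing A K₁) N zG)
    (bcF : ↥(keyFq ↥K₁ N) →+* ↥(modularFunctionFieldBar N))
    (hbcF : ∀ x, bcF x = baseToBar N K₁ x) :
    ∀ (P_F : Place Ω ↥(modularFunctionFieldBar N)) (c : ↥(baseRing A K₁)),
      HasValueAt P_F (bcF (zV : ↥(keyFq ↥K₁ N)))
        (algebraMap ↥K₁ Ω (algebraMap ↥(baseRing A K₁) ↥K₁ c)) →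
      resV zV ∈ (r P_F).toValuationSubring ∧
      ∀ v : ↥V, IsIntegral ↥(Subring.closure (Set.range cR ∪ {(zV : ↥(keyFq ↥K₁ N))}))
          (v : ↥(keyFq ↥K₁ N)) →
        ∀ c' : ↥(baseRing A K₁), HasValueAt P_F (bcF (v : ↥(keyFq ↥K₁ N)))
            (algebraMap ↥K₁ Ω (algebraMap ↥(baseRing A K₁) ↥K₁ c')) →
          HasValueAt (r P_F) (resV v)
            (((baseResidueMap A K₁).comp (IsLocalRing.residue ↥(baseRing A K₁))) c') := by
  intro P c hc
  set z₁ := gaussι (baseRing A K₁) N zG with hz₁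
  have hgood : GoodAt A N (baseToBar N K₁ z₁) P := by
    refine ⟨baseIncl A K₁ c, ?_⟩
    rw [hbcF, hzV] at hc
    exact hc
  have hzchart : (zG : LaurentSeries ↥(baseRing A K₁)) ∈ chartRing (baseRing A K₁) N z₁ := by
    refine ⟨zG.2, ?_⟩
    have h1 : gaussι (baseRing A K₁) N ⟨(zG : LaurentSeries ↥(baseRing A K₁)), zG.2⟩ =
        algebraMap ↥(coeffSubring (baseRing A K₁) N z₁) _ ⟨z₁, self_mem_coeffSubring z₁⟩ := rfl
    rw [h1]
    exact isIntegral_algebraMap
  have hresz : resV zV = gaussρF (gaussRes_baseRing (K₁ := K₁) N h) zG := by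
    have h1 : zV = ⟨gaussι (baseRing A K₁) N zG, hV zG⟩ := Subtype.ext hzV
    rw [h1, hresV]
  refine ⟨?_, ?_⟩
  · obtain ⟨a, -, ha2⟩ := hev P hgood ⟨_, coeffMap_baseIncl_mem_chartRing N z₁ hzchart⟩
    have h1 := ha2.mem
    rw [chartρF_coeffMap_baseIncl N h z₁ ⟨_, hzchart⟩] at h1
    rw [hresz]
    exact h1
  · intro v hvint c' hc'
    rw [hzV, ← coeffSubring_eq_closure_range (baseRing A K₁) N z₁ cR hcR] at hvint
    obtain ⟨y, hy⟩ := exists_chartRing_of_isIntegral_coeffSubring (baseRing A K₁) N zG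
      (v : ↥(keyFq ↥K₁ N)) hvint
    obtain ⟨a, ha1, ha2⟩ := hev P hgood ⟨_, coeffMap_baseIncl_mem_chartRing N z₁ y.2⟩
    rw [chartι_coeffMap_baseIncl N z₁ y, hy] at ha1
    rw [chartρF_coeffMap_baseIncl N h z₁ y] at ha2
    rw [hbcF] at hc'
    have haeq : a = baseIncl A K₁ c' := Subtype.ext (ha1.unique hc')
    set yg : ↥(gaussRing (baseRing A K₁) N) :=
      Subring.inclusion (chartRing_le_gaussRing z₁) y with hyg
    have hv : v = ⟨gaussι (baseRing A K₁) N yg, hV yg⟩ := Subtype.ext hy.symm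
    have hres : resV v = chartρF (gaussRes_baseRing (K₁ := K₁) N h) z₁ y := by
      rw [hv, hresV]
      rfl
    rw [hres, RingHom.comp_apply, baseResidueMap_residue, ← haeq]
    exact ha2

/-- **`hEVAL`, helper1's literal** (`cR := (algebraMap K₁ F₁).comp R₁.subtype`,
`zV := ⟨gaussι R₁ N zG, hzV⟩`, `bcF := baseToBar N K₁`). -/
theorem o1_hEVAL (h : GaussRes A N (IsLocalRing.residue ↥A))
    (V : ValuationSubring ↥(laurentBaseChange ↥K₁ (modularFunctionFieldFull N)))
    (hVmem : ∀ x : ↥(laurentBaseChange ↥K₁ (modularFunctionFieldFull N)),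
      x ∈ V ↔ (x : LaurentSeries ↥K₁) ∈ gaussInt ↥(baseRing A K₁) ↥K₁)
    (resV : ↥V →+* ↥(modularFunctionFieldFullC (IsLocalRing.ResidueField ↥A) N))
    (hresV : ∀ (y : ↥(gaussRing (baseRing A K₁) N)) (hy : gaussι (baseRing A K₁) N y ∈ V),
      resV ⟨gaussι (baseRing A K₁) N y, hy⟩ = gaussρF (gaussRes_baseRing (K₁ := K₁) N h) y)
    (r : Place Ω ↥(modularFunctionFieldBar N) →
      Place (IsLocalRing.ResidueField ↥A)
        ↥(modularFunctionFieldFullC (IsLocalRing.ResidueField ↥A) N))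
    (zG : ↥(gaussRing (baseRing A K₁) N)) (hzV : gaussι (baseRing A K₁) N zG ∈ V)
    (hev : ChartEval h (baseToBar N K₁ (gaussι (baseRing A K₁) N zG)) r) :
    ∀ (P_F : Place Ω ↥(modularFunctionFieldBar N)) (c : ↥(baseRing A K₁)),
      HasValueAt P_F (baseToBar N K₁ (gaussι (baseRing A K₁) N zG))
        (algebraMap ↥K₁ Ω (algebraMap ↥(baseRing A K₁) ↥K₁ c)) →
      resV ⟨gaussι (baseRing A K₁) N zG, hzV⟩ ∈ (r P_F).toValuationSubring ∧
      ∀ v : ↥V, IsIntegral ↥(Subring.closure (Set.range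
            ((algebraMap ↥K₁ ↥(laurentBaseChange ↥K₁ (modularFunctionFieldFull N))).comp
              (baseRing A K₁).subtype) ∪ {gaussι (baseRing A K₁) N zG}))
          (v : ↥(laurentBaseChange ↥K₁ (modularFunctionFieldFull N))) →
        ∀ c' : ↥(baseRing A K₁), HasValueAt P_F
            (baseToBar N K₁ (v : ↥(laurentBaseChange ↥K₁ (modularFunctionFieldFull N))))
            (algebraMap ↥K₁ Ω (algebraMap ↥(baseRing A K₁) ↥K₁ c')) →
          HasValueAt (r P_F) (resV v)
            (baseResidueMap A K₁ (IsLocalRing.residue ↥(baseRing A K₁) c')) := by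
  have hV : ∀ y : ↥(gaussRing (baseRing A K₁) N), gaussι (baseRing A K₁) N y ∈ V := fun y =>
    (hVmem _).mpr (emb_mem_gaussInt ↥(baseRing A K₁) ↥K₁ (y : LaurentSeries ↥(baseRing A K₁)))
  exact fchart_hEVAL_of_chartEval N h zG r hev V hV resV (fun y => hresV y (hV y))
    ((algebraMap ↥K₁ ↥(laurentBaseChange ↥K₁ (modularFunctionFieldFull N))).comp
      (baseRing A K₁).subtype) (fun a => rfl) ⟨gaussι (baseRing A K₁) N zG, hzV⟩ rfl
    (baseToBar N K₁) (fun x => rfl)

end OmegaLevel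

end Fermat.Agent.JA
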