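/-
J-A package ABH+EBC — helper4.
(EBC-const) constant field extensions are unramified: `W` a Dedekind domain containing a field
`K₀`, `K₀' / K₀` finite separable, `E' = E·K₀'` (`E = Frac W`). Then the integral closure `W'` of `W`
in `E'` is `W·K₀'` (the image of `W ⊗[K₀] K₀'`), finite and unramified over `W`.
-/
import Fermat.Agent.JA.EBC_helper4_Core

set_option autoImplicit false
set_option linter.style.haveILetI false
set_option linter.unusedSectionVars false

open scoped TensorProduct

namespace Fermat.Agent.JA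

section EBCConst

variable {K₀ K₀' W E E' W' : Type*} [Field K₀] [Field K₀'] [Algebra K₀ K₀']
  [FiniteDimensional K₀ K₀'] [Algebra.IsSeparable K₀ K₀']
  [CommRing W] [IsDedekindDomain W] [Algebra K₀ W] [Field E] [Algebra W E] [IsFractionRing W E]
  [Field E'] [Algebra E E'] [Algebra W E'] [IsScalarTower W E E'] [Algebra K₀' E'] [Algebra K₀ E']
  [IsScalarTower K₀ K₀' E'] [IsScalarTower K₀ W E']
  [CommRing W'] [Algebra W W'] [Algebra W' E'] [IsScalarTower W W' E'] [IsIntegralClosure W' W E']

include K₀ in
theorem isIntegral_algebraMap_const (k : K₀') : IsIntegral W (algebraMap K₀' E' k) := by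
  have h1 : IsIntegral K₀ k := (Algebra.IsIntegral.of_finite K₀ K₀').isIntegral k
  have h2 : IsIntegral K₀ (algebraMap K₀' E' k) := h1.map (IsScalarTower.toAlgHom K₀ K₀' E')
  exact h2.tower_top

variable (K₀ K₀' W E' W') in
/-- the canonical map `K₀' → W'`. -/
noncomputable def constMap : K₀' →+* W' where
  toFun := fun k => IsIntegralClosure.mk' W' (algebraMap K₀' E' k)
    (isIntegral_algebraMap_const (K₀ := K₀) (W := W) k)
  map_one' := by
    apply IsIntegralClosure.algebraMap_injective W' W E'
    rw [IsIntegralClosure.algebraMap_mk', map_one, map_one]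
  map_mul' := fun a b => by
    apply IsIntegralClosure.algebraMap_injective W' W E'
    rw [IsIntegralClosure.algebraMap_mk', map_mul, map_mul,
      IsIntegralClosure.algebraMap_mk', IsIntegralClosure.algebraMap_mk']
  map_zero' := by
    apply IsIntegralClosure.algebraMap_injective W' W E'
    rw [IsIntegralClosure.algebraMap_mk', map_zero, map_zero]
  map_add' := fun a b => by
    apply IsIntegralClosure.algebraMap_injective W' W E'
    rw [IsIntegralClosure.algebraMap_mk', map_add, map_add,
      IsIntegralClosure.algebraMap_mk', IsIntegralClosure.algebraMap_mk']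

theorem algebraMap_constMap (k : K₀') :
    algebraMap W' E' (constMap K₀ K₀' W E' W' k) = algebraMap K₀' E' k :=
  IsIntegralClosure.algebraMap_mk' (R := W) W' _ (isIntegral_algebraMap_const (K₀ := K₀) k)

include K₀ K₀' E in
/-- **(EBC-const)** constant field extensions are unramified. -/
theorem ebc_const (hgen : Algebra.adjoin E (Set.range (algebraMap K₀' E')) = ⊤) :
    Module.Finite W W' ∧ Algebra.FormallyUnramified W W' := by
  classical
  have hinjW' : Function.Injective (algebraMap W' E') :=
    IsIntegralClosure.algebraMap_injective W' W E'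
  have hinjWE : Function.Injective (algebraMap W E) := IsFractionRing.injective W E
  have hinjWE' : Function.Injective (algebraMap W E') := by
    rw [IsScalarTower.algebraMap_eq W E E']
    exact (algebraMap E E').injective.comp hinjWE
  letI algK₀W' : Algebra K₀ W' := ((algebraMap W W').comp (algebraMap K₀ W)).toAlgebra
  haveI : IsScalarTower K₀ W W' := IsScalarTower.of_algebraMap_eq (fun _ => rfl)
  let g : K₀' →ₐ[K₀] W' :=
    { constMap K₀ K₀' W E' W' with
      commutes' := fun a => by
        apply hinjW'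
        show algebraMap W' E' (constMap K₀ K₀' W E' W' (algebraMap K₀ K₀' a)) =
          algebraMap W' E' (algebraMap W W' (algebraMap K₀ W a))
        rw [algebraMap_constMap, ← IsScalarTower.algebraMap_apply K₀ K₀' E',
          ← IsScalarTower.algebraMap_apply W W' E', ← IsScalarTower.algebraMap_apply K₀ W E'] }
  have hg : ∀ k : K₀', algebraMap W' E' (g k) = algebraMap K₀' E' k := fun k =>
    algebraMap_constMap (K₀ := K₀) k
  let ψ : W ⊗[K₀] K₀' →ₐ[W] W' :=
    Algebra.TensorProduct.productLeftAlgHom (Algebra.ofId W W') g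
  have hψ : ∀ (w : W) (k : K₀'), ψ (w ⊗ₜ[K₀] k) = algebraMap W W' w * g k := fun w k => by
    simp [ψ, Algebra.ofId_apply]
  haveI : Algebra.FormallyUnramified K₀ K₀' := Algebra.FormallyUnramified.of_isSeparable K₀ K₀'
  -- fractions
  have hfrac : ∀ x : E', ∃ (t : W ⊗[K₀] K₀') (s : W), s ≠ 0 ∧
      x * algebraMap W E' s = algebraMap W' E' (ψ t) := by
    intro x
    have hx : x ∈ Algebra.adjoin E (Set.range (algebraMap K₀' E')) := by
      rw [hgen]; exact Algebra.mem_top
    induction hx using Algebra.adjoin_induction with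
    | mem x hx =>
      obtain ⟨k, rfl⟩ := hx
      refine ⟨1 ⊗ₜ[K₀] k, 1, one_ne_zero, ?_⟩
      rw [hψ, map_one, map_one, one_mul, mul_one, hg]
    | algebraMap e =>
      obtain ⟨a, b, hb, rfl⟩ := IsFractionRing.div_surjective (A := W) e
      have hb0 : b ≠ 0 := nonZeroDivisors.ne_zero hb
      refine ⟨a ⊗ₜ[K₀] 1, b, hb0, ?_⟩
      rw [hψ, map_one, mul_one, ← IsScalarTower.algebraMap_apply W W' E',
        IsScalarTower.algebraMap_apply W E E' b, IsScalarTower.algebraMap_apply W E E' a,
        ← map_mul, div_mul_cancel₀ _ ((map_ne_zero_iff _ hinjWE).mpr hb0)]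
    | add x y _ _ hx hy =>
      obtain ⟨t₁, s₁, hs₁, h₁⟩ := hx
      obtain ⟨t₂, s₂, hs₂, h₂⟩ := hy
      refine ⟨s₂ • t₁ + s₁ • t₂, s₁ * s₂, mul_ne_zero hs₁ hs₂, ?_⟩
      have e1 : algebraMap W' E' (ψ (s₂ • t₁ + s₁ • t₂)) =
          algebraMap W E' s₂ * algebraMap W' E' (ψ t₁) +
            algebraMap W E' s₁ * algebraMap W' E' (ψ t₂) := by
        simp only [map_add, Algebra.smul_def, map_mul, AlgHom.commutes,
          ← IsScalarTower.algebraMap_apply W W' E']
      rw [e1, ← h₁, ← h₂, map_mul]
      ring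
    | mul x y _ _ hx hy =>
      obtain ⟨t₁, s₁, hs₁, h₁⟩ := hx
      obtain ⟨t₂, s₂, hs₂, h₂⟩ := hy
      refine ⟨t₁ * t₂, s₁ * s₂, mul_ne_zero hs₁ hs₂, ?_⟩
      have e1 : algebraMap W' E' (ψ (t₁ * t₂)) =
          algebraMap W' E' (ψ t₁) * algebraMap W' E' (ψ t₂) := by
        simp only [map_mul]
      rw [e1, ← h₁, ← h₂, map_mul]
      ring
  obtain ⟨hsurj, hfu⟩ := range_eq_top_of_unramified (D := W) (A := W ⊗[K₀] K₀') (E' := E') ψ
    (fun x => by
      obtain ⟨t, s, hs, h⟩ := hfrac x
      refine ⟨t, algebraMap W (W ⊗[K₀] K₀') s, ?_, ?_⟩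
      · rw [AlgHom.commutes, ← IsScalarTower.algebraMap_apply W W' E']
        exact (map_ne_zero_iff _ hinjWE').mpr hs
      · rw [AlgHom.commutes, ← IsScalarTower.algebraMap_apply W W' E']
        exact h)
  exact ⟨Module.Finite.of_surjective ψ.toLinearMap hsurj, hfu⟩

end EBCConst

end Fermat.Agent.JA
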