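/-
J-A project, package (ES1) (helper2), part 6: the norm formula in the literal shape consumed by
the abstract Kronecker congruence (product over `Finset.range ℓ`, `q ↦ q^(ℓ^2)`).
-/
import Mathlib
import Fermat.Agent.JA.ES1_helper2_Norm

set_option autoImplicit false
set_option linter.style.haveILetI false

namespace Fermat.Agent.JA

open ModularCurve AlgebraicCurve IntermediateField Fermat.Agent.X0N Fermat.Agent.Igusa

local notation "Ω" => AlgebraicClosure ℚ

variable {N ℓ : ℕ} [NeZero N] [NeZero ℓ] (hℓ : ℓ.Prime) (hℓN : ¬ ℓ ∣ N)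

include hℓ hℓN in
/-- **the norm formula for `F' / β F`**, product over `Finset.range ℓ`. -/
theorem qExpand_norm_heckeBetaBar_range (ζ : Ωˣ) (hζ : IsPrimitiveRoot ζ ℓ)
    (z : ↥(laurentBaseChange Ω (modularFunctionFieldFull (N * ℓ)))) :
    letI := algebraAlong (heckeBetaBar Ω N ℓ)
    qExpand Ω ℓ ((Algebra.norm ↥(laurentBaseChange Ω (modularFunctionFieldFull N)) z :
        ↥(laurentBaseChange Ω (modularFunctionFieldFull N))) : LaurentSeries Ω) =
      (∏ b ∈ Finset.range ℓ, twist (ζ ^ b) (z : LaurentSeries Ω)) * sigmaInf hℓ hℓN z := by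
  rw [qExpand_norm_heckeBetaBar hℓ hℓN ζ hζ z,
    Fin.prod_univ_eq_prod_range (fun b => twist (ζ ^ b) (z : LaurentSeries Ω)) ℓ]

include hℓ hℓN in
/-- **the norm formula for `c − y`** in the shape of the abstract Kronecker congruence:
`(N_{F'/βF} (c − y))(q^ℓ) = ∏_{b ∈ range ℓ} (q ↦ ζ^b q)(c − y) · (c − y(q^(ℓ^2)))`. -/
theorem qExpand_norm_sub_heckeAlphaBar_range (ζ : Ωˣ) (hζ : IsPrimitiveRoot ζ ℓ) (c : Ω)
    (y : ↥(laurentBaseChange Ω (modularFunctionFieldFull N))) :
    letI := algebraAlong (heckeBetaBar Ω N ℓ)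
    qExpand Ω ℓ ((Algebra.norm ↥(laurentBaseChange Ω (modularFunctionFieldFull N))
        (algebraMap Ω ↥(laurentBaseChange Ω (modularFunctionFieldFull (N * ℓ))) c -
          heckeAlphaBar Ω N ℓ y) :
        ↥(laurentBaseChange Ω (modularFunctionFieldFull N))) : LaurentSeries Ω) =
      (∏ b ∈ Finset.range ℓ, twist (ζ ^ b) (HahnSeries.C c - (y : LaurentSeries Ω))) *
        (HahnSeries.C c - qExpand Ω (ℓ ^ 2) (y : LaurentSeries Ω)) := by
  have h := qExpand_norm_heckeBetaBar_range hℓ hℓN ζ hζ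
    (algebraMap Ω ↥(laurentBaseChange Ω (modularFunctionFieldFull (N * ℓ))) c -
      heckeAlphaBar Ω N ℓ y)
  have h1 : ((algebraMap Ω ↥(laurentBaseChange Ω (modularFunctionFieldFull (N * ℓ))) c -
      heckeAlphaBar Ω N ℓ y : ↥(laurentBaseChange Ω (modularFunctionFieldFull (N * ℓ)))) :
      LaurentSeries Ω) = HahnSeries.C c - (y : LaurentSeries Ω) := by
    rw [AddSubgroupClass.coe_sub, coe_heckeAlphaBar]
    congr 1
    show algebraMap Ω (LaurentSeries Ω) c = HahnSeries.C c
    rw [algebraMap_laurentSeries_eq_single]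
    rfl
  rw [h, h1, map_sub, sigmaInf_algebraMap, sigmaInf_alpha]
  congr 2
  exact qExpand_congr (sq ℓ).symm _

end Fermat.Agent.JA
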