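/-
J-A — helper1 — backup of the A1 abstract glue: in helper3's host tower
`K₁(j) ⊂ K₁(t)`, `K₁(j) ⊂ F ⊂ F(u)`, `E = K₁(t) · F(u)` inside `K₁⸨x⸩`, the hypotheses `LineHyp`
(for the `t`-line over the `j`-line) and `JLineHyp` (for `F(u)` over the `j`-line) give, through
`gm` and lead's `geo_isLocalRing`, that the integral closure of the Gauss valuation ring of `K₁(t)`
in `E` is local.
-/
import Mathlib
import Fermat.Agent.JA.GEO_lead_Main
import Fermat.Agent.JA.GM_helper1_Main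
import Fermat.Agent.JA.HOST_helper3_Main

set_option autoImplicit false
set_option linter.style.haveILetI false
set_option linter.unusedSectionVars false
set_option synthInstance.maxHeartbeats 400000

open IntermediateField

namespace Fermat.Agent.JA

open scoped Fermat.Agent.JA.Host
open Fermat.Agent.JA.Host

section Glue

variable {R : Type*} [CommRing R] [IsDomain R] [IsDiscreteValuationRing R] [CharZero R]
  {K₁ : Type*} [Field K₁] [Algebra R K₁] [IsFractionRing R K₁]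
  (F : IntermediateField K₁ (LaurentSeries K₁)) (j t u : LaurentSeries K₁)
  [Fact (K₁⟮j⟯ ≤ F)] [Module.Finite ↥K₁⟮j⟯ ↥F] [Fact (K₁⟮j⟯ ≤ K₁⟮t⟯)]

/-- **A1 abstract glue**: `LineHyp` + `JLineHyp` for `F(u)` ⇒ the integral closure of the Gauss
valuation ring of `K₁(t)` in `E = K₁(t) · F(u)` is a local ring. -/
theorem geoglue_isLocalRing_h1 (π : R) (hπ : Irreducible π) (ht' : Transcendental K₁ t)
    (ht : IsIntegral ↥K₁⟮j⟯ t) (hu : IsIntegral ↥F u)
    (n : ℕ) (hn : IsUnit (n : R)) (hζ : ∃ ζ : R, IsPrimitiveRoot ζ n)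
    (S : Finset R) (hS : ∀ a ∈ S, ∀ b ∈ S, a ≠ b → IsUnit (a - b))
    (hS0 : ∀ a ∈ S, a = 0 ∨ IsUnit a)
    (hL : LineHyp (K₁ := K₁) (K₀ := ↥K₁⟮j⟯) (K := ↥K₁⟮t⟯) π (AdjoinSimple.gen K₁ j)
      (AdjoinSimple.gen K₁ t) S)
    (hJ : JLineHyp (K₁ := K₁) π (AdjoinSimple.gen K₁ j) ↥(Fu F u) n)
    (𝒢t : ValuationSubring ↥K₁⟮t⟯) (h𝒢t : IsGaussAt R π (AdjoinSimple.gen K₁ t) 𝒢t) :
    IsLocalRing ↥(integralClosure ↥𝒢t ↥(Etu F t u)) := by
  haveI := finite_Kt_Etu F j t u ht hu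
  haveI := finite_Kj_Fu F j u hu
  have hn0 : 0 < n := by
    rcases Nat.eq_zero_or_pos n with h0 | h0
    · exfalso
      rw [h0, Nat.cast_zero] at hn
      exact not_isUnit_zero hn
    · exact h0
  obtain ⟨hM1, hM2, hM3⟩ := gm (R := R) (K₁ := K₁) (K₀ := ↥K₁⟮j⟯) (K := ↥K₁⟮t⟯)
    (F' := ↥(Fu F u)) (E := ↥(Etu F t u)) π (AdjoinSimple.gen K₁ j) (AdjoinSimple.gen K₁ t) S n hn0
    (adjoin_range_Fu_eq_top F t u) hL hJ
  exact geo_isLocalRing (R := R) (K₁ := K₁) (K := ↥K₁⟮t⟯) (E := ↥(Etu F t u)) π hπ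
    (AdjoinSimple.gen K₁ t) (transcendental_gen ht') (adjoin_gen_eq_top t) n hn hζ S hS hS0
    hM1 hM2 hM3
    (mem_range_algebraMap_of_isAlgebraic
      (fun x hx => laurentSeries_mem_range_algebraMap_of_isAlgebraic x hx) _)
    𝒢t h𝒢t

end Glue

end Fermat.Agent.JA
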