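/-
J-A package GEO-glue (A1) — helper3.
All hypotheses of the abstract GEO theorem (`geo_isLocalRing`, lead, D2) for the concrete tower
inside the Laurent series host `H = K₁((x))`:
`K₀ = K₁(j) ⊆ K = K₁(t)`, `F' = F(u)`, `E = K₁(t)·F(u)`, from the line hypotheses `LineHyp`
(LINE) and the `j`-line hypotheses `JLineHyp` on `F(u)` via `gm` (helper1) and the HOST facts.
-/
import Mathlib
import Fermat.Agent.JA.HOST_helper3_Main
import Fermat.Agent.JA.GM_helper1_Main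

set_option autoImplicit false
set_option linter.style.haveILetI false
set_option linter.unusedSectionVars false

open IntermediateField Polynomial

namespace Fermat.Agent.JA.Host

open scoped Fermat.Agent.JA.Host

section Kit

variable {R : Type*} [CommRing R] {K₁ H : Type*} [Field K₁] [Field H] [Algebra K₁ H]
  [Algebra R K₁] [Algebra R H] [IsScalarTower R K₁ H] (A B : IntermediateField K₁ H)

/-- the `R`-level tower over an inclusion of intermediate fields. -/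
theorem isScalarTower_of_fact_le [Fact (A ≤ B)] : IsScalarTower R ↥A ↥B :=
  IsScalarTower.of_algebraMap_eq fun r => Subtype.ext (by
    rw [coe_algebraMap]
    rfl)

end Kit

section Glue

variable {R : Type*} [CommRing R] [IsDomain R] [IsDiscreteValuationRing R] [CharZero R]
  {K₁ : Type*} [Field K₁] [Algebra R K₁] [IsFractionRing R K₁]
  (F : IntermediateField K₁ (LaurentSeries K₁)) (j t u : LaurentSeries K₁)
  [Fact (K₁⟮j⟯ ≤ F)] [Module.Finite ↥K₁⟮j⟯ ↥F] [Fact (K₁⟮j⟯ ≤ K₁⟮t⟯)]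

/-- **GEO-glue, hypotheses**: `ht`, `hK`, `hM1`–`hM4` of `geo_isLocalRing` for
`K := K₁(t)`, `E := K₁(t)·F(u)` inside the host. -/
theorem geo_hyps_Etu (π : R) (ht' : Transcendental K₁ t) (ht : IsIntegral ↥K₁⟮j⟯ t)
    (hu : IsIntegral ↥F u) (S : Finset R) (N : ℕ) (hN : 0 < N)
    (hL : LineHyp (K₁ := K₁) π (AdjoinSimple.gen K₁ j) (AdjoinSimple.gen K₁ t) S)
    (hJ : JLineHyp (K₁ := K₁) π (AdjoinSimple.gen K₁ j) ↥(Fu F u) N) :
    Transcendental K₁ (AdjoinSimple.gen K₁ t) ∧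
    IntermediateField.adjoin K₁ {AdjoinSimple.gen K₁ t} = ⊤ ∧
    Module.Finite ↥K₁⟮t⟯ ↥(Etu F t u) ∧
    (∀ 𝒱 : ValuationSubring ↥K₁⟮t⟯, 𝒱 ≠ ⊤ → (∀ a : K₁, algebraMap K₁ ↥K₁⟮t⟯ a ∈ 𝒱) →
      AdjoinSimple.gen K₁ t ∈ 𝒱 →
      (∀ a ∈ S, (AdjoinSimple.gen K₁ t - algebraMap R ↥K₁⟮t⟯ a)⁻¹ ∈ 𝒱) →
      Unr 𝒱 ↥(Etu F t u)) ∧
    (∀ 𝒱 : ValuationSubring ↥K₁⟮t⟯, 𝒱 ≠ ⊤ → (∀ a : K₁, algebraMap K₁ ↥K₁⟮t⟯ a ∈ 𝒱) →
      TameAt 𝒱 ↥(Etu F t u) N) ∧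
    (∀ 𝒱 : ValuationSubring ↥K₁⟮t⟯, IsGaussAt R π (AdjoinSimple.gen K₁ t) 𝒱 →
      Unr 𝒱 ↥(Etu F t u)) ∧
    (∀ x : ↥(Etu F t u), IsAlgebraic K₁ x → x ∈ Set.range (algebraMap K₁ ↥(Etu F t u))) := by
  haveI := finite_Kt_Etu F j t u ht hu
  haveI := finite_Kj_Fu F j u hu
  obtain ⟨h1, h2, h3⟩ := gm (R := R) (K₁ := K₁) (K₀ := ↥K₁⟮j⟯) (K := ↥K₁⟮t⟯) (F' := ↥(Fu F u))
    (E := ↥(Etu F t u)) π (AdjoinSimple.gen K₁ j) (AdjoinSimple.gen K₁ t) S N hN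
    (adjoin_range_Fu_eq_top F t u) hL hJ
  exact ⟨transcendental_gen ht', adjoin_gen_eq_top t, inferInstance, h1, h2, h3,
    mem_range_algebraMap_of_isAlgebraic
      (fun x hx => laurentSeries_mem_range_algebraMap_of_isAlgebraic x hx) _⟩

end Glue

end Fermat.Agent.JA.Host
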