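/-
J-A package GEO-glue (A1) — helper3.
**(I1)**: uniqueness of the extension of the Gauss valuation of `K₁(t)` to `E = K₁(t)·F(u)` inside
the Laurent series host, from `LineHyp` (LINE) and `JLineHyp` on `F(u)` via `gm` (helper1) and
`geo_isLocalRing` (lead).
-/
import Mathlib
import Fermat.Agent.JA.GEOGLUE_helper3_Hyps
import Fermat.Agent.JA.GEO_lead_Main

set_option autoImplicit false
set_option linter.style.haveILetI false
set_option linter.unusedSectionVars false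

open IntermediateField Polynomial ModularCurve

namespace Fermat.Agent.JA.Host

open scoped Fermat.Agent.JA.Host

section Abstract

variable {R : Type*} [CommRing R] [IsDomain R] [IsDiscreteValuationRing R] [CharZero R]
  {K₁ : Type*} [Field K₁] [Algebra R K₁] [IsFractionRing R K₁]
  (F : IntermediateField K₁ (LaurentSeries K₁)) (j t u : LaurentSeries K₁)
  [Fact (K₁⟮j⟯ ≤ F)] [Module.Finite ↥K₁⟮j⟯ ↥F] [Fact (K₁⟮j⟯ ≤ K₁⟮t⟯)]

/-- **GEO-glue (abstract)**: the Gauss valuation subring of `K₁(t)` has a unique extension to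
`E = K₁(t)·F(u)`. -/
theorem isLocalRing_Etu (π : R) (hπ : Irreducible π) (ht' : Transcendental K₁ t)
    (ht : IsIntegral ↥K₁⟮j⟯ t) (hu : IsIntegral ↥F u) (n : ℕ) (hn : IsUnit (n : R))
    (hζ : ∃ ζ : R, IsPrimitiveRoot ζ n) (S : Finset R)
    (hS : ∀ a ∈ S, ∀ b ∈ S, a ≠ b → IsUnit (a - b)) (hS0 : ∀ a ∈ S, a = 0 ∨ IsUnit a)
    (hL : LineHyp (K₁ := K₁) π (AdjoinSimple.gen K₁ j) (AdjoinSimple.gen K₁ t) S)
    (hJ : JLineHyp (K₁ := K₁) π (AdjoinSimple.gen K₁ j) ↥(Fu F u) n)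
    (𝒢t : ValuationSubring ↥K₁⟮t⟯) (h𝒢t : IsGaussAt R π (AdjoinSimple.gen K₁ t) 𝒢t) :
    IsLocalRing ↥(integralClosure ↥𝒢t ↥(Etu F t u)) := by
  have hn0 : 0 < n := by
    rcases Nat.eq_zero_or_pos n with h | h
    · subst h
      rw [Nat.cast_zero] at hn
      exact absurd hn not_isUnit_zero
    · exact h
  obtain ⟨h1, h2, hfin, hM1, hM2, hM3, hM4⟩ := geo_hyps_Etu F j t u π ht' ht hu S n hn0 hL hJ
  haveI := hfin
  exact geo_isLocalRing (R := R) (K₁ := K₁) (K := ↥K₁⟮t⟯) (E := ↥(Etu F t u)) π hπ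
    (AdjoinSimple.gen K₁ t) h1 h2 n hn hζ S hS hS0 hM1 hM2 hM3 hM4 𝒢t h𝒢t

end Abstract

section Concrete

variable {R : Type*} [CommRing R] [IsDomain R] [IsDiscreteValuationRing R] [CharZero R]
  {K₁ : Type*} [Field K₁] [Algebra R K₁] [IsFractionRing R K₁]
  (w : ℕ) [NeZero w] (Fq : IntermediateField K₁ (LaurentSeries K₁))

/-- **GEO-glue at `F_w = hostImage K₁ w F_q`**, `u ^ m = g(x^w)`, `g ∈ F_q`. -/
theorem isLocalRing_Etu_hostImage (j t u : LaurentSeries K₁)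
    [Fact (K₁⟮j⟯ ≤ hostImage K₁ w Fq)] [Module.Finite ↥K₁⟮j⟯ ↥(hostImage K₁ w Fq)]
    [Fact (K₁⟮j⟯ ≤ K₁⟮t⟯)]
    (π : R) (hπ : Irreducible π) (ht' : Transcendental K₁ t) (ht : IsIntegral ↥K₁⟮j⟯ t)
    (m : ℕ) (hm : m ≠ 0) (g : ↥Fq) (hu : u ^ m = qExpand K₁ w (g : LaurentSeries K₁))
    (n : ℕ) (hn : IsUnit (n : R)) (hζ : ∃ ζ : R, IsPrimitiveRoot ζ n) (S : Finset R)
    (hS : ∀ a ∈ S, ∀ b ∈ S, a ≠ b → IsUnit (a - b)) (hS0 : ∀ a ∈ S, a = 0 ∨ IsUnit a)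
    (hL : LineHyp (K₁ := K₁) π (AdjoinSimple.gen K₁ j) (AdjoinSimple.gen K₁ t) S)
    (hJ : JLineHyp (K₁ := K₁) π (AdjoinSimple.gen K₁ j) ↥(Fu (hostImage K₁ w Fq) u) n)
    (𝒢t : ValuationSubring ↥K₁⟮t⟯) (h𝒢t : IsGaussAt R π (AdjoinSimple.gen K₁ t) 𝒢t) :
    IsLocalRing ↥(integralClosure ↥𝒢t ↥(Etu (hostImage K₁ w Fq) t u)) := by
  have hu' : IsIntegral ↥(hostImage K₁ w Fq) u :=
    isIntegral_of_pow_mem (hostImage K₁ w Fq) u hm (by
      rw [hu]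
      exact qExpand_mem_hostImage g.2)
  exact isLocalRing_Etu (hostImage K₁ w Fq) j t u π hπ ht' ht hu' n hn hζ S hS hS0 hL hJ 𝒢t h𝒢t

end Concrete

end Fermat.Agent.JA.Host
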