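/-
J-A package GEO-glue (A1) — helper3.  End-to-end usage example: the contract (I1) of helper8 at
the Legendre coordinate, `F_q` the function field of `X₀(N)` over a base `ℚ ⊆ K₁ ⊆ ℂ`.
-/
import Mathlib
import Fermat.Agent.JA.GEOGLUE_helper3_Main
import Fermat.Agent.JA.GM_helper1_JLineHost

set_option autoImplicit false
set_option linter.style.haveILetI false
set_option linter.unusedSectionVars false
set_option linter.unusedVariables false

open IntermediateField Polynomial ModularCurve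

namespace Fermat.Agent.JA.Host

open scoped Fermat.Agent.JA.Host

variable {R : Type*} [CommRing R] [IsDomain R] [IsDiscreteValuationRing R] [CharZero R]
  {K₁ : Type*} [Field K₁] [Algebra R K₁] [IsFractionRing R K₁]
  [Algebra ℚ K₁] [Algebra K₁ ℂ] [IsScalarTower ℚ K₁ ℂ] (N : ℕ) [NeZero N]

/-- (I1) at the Legendre coordinate. -/
theorem i1_legendre_example (h2 : (2 : K₁) ≠ 0) (π : R) (hπ : Irreducible π)
    (n : ℕ) (hn : IsUnit (n : R)) (hζ : ∃ ζ : R, IsPrimitiveRoot ζ n) (S : Finset R)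
    (hS : ∀ a ∈ S, ∀ b ∈ S, a ≠ b → IsUnit (a - b)) (hS0 : ∀ a ∈ S, a = 0 ∨ IsUnit a)
    (m : ℕ) (hm : m ≠ 0) :
    ∃ t : LaurentSeries K₁, Transcendental K₁ t ∧
      jqNModC K₁ 2 * aeval t (legB K₁) = aeval t (legA K₁) ∧
      ∃ _ : Fact (K₁⟮jqNModC K₁ 2⟯ ≤ K₁⟮t⟯),
      ∃ _ : Fact (K₁⟮jqNModC K₁ 2⟯ ≤
        hostImage K₁ 2 (laurentBaseChange K₁ (modularFunctionFieldFull N))),
      ∀ (hL : LineHyp (K₁ := K₁) π (AdjoinSimple.gen K₁ (jqNModC K₁ 2))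
          (AdjoinSimple.gen K₁ t) S)
        (g : ↥(laurentBaseChange K₁ (modularFunctionFieldFull N))) (u : LaurentSeries K₁)
        (hu : u ^ m = qExpand K₁ 2 (g : LaurentSeries K₁))
        (hJ : JLineHyp (K₁ := K₁) π (AdjoinSimple.gen K₁ (jqNModC K₁ 2))
          ↥(Fu (hostImage K₁ 2 (laurentBaseChange K₁ (modularFunctionFieldFull N))) u) n)
        (𝒢t : ValuationSubring ↥K₁⟮t⟯) (h𝒢t : IsGaussAt R π (AdjoinSimple.gen K₁ t) 𝒢t),
        IsLocalRing ↥(integralClosure ↥𝒢t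
          ↥(Etu (hostImage K₁ 2 (laurentBaseChange K₁ (modularFunctionFieldFull N))) t u)) := by
  obtain ⟨t, ht', hB, hrel, hjt, ht, hjtr⟩ := exists_legendre_host (K₁ := K₁) h2
  haveI hF1 : Fact (K₁⟮jqNModC K₁ 2⟯ ≤ K₁⟮t⟯) := ⟨adjoin_simple_le_of_mem hjt⟩
  haveI hF2 : Fact (K₁⟮jqNModC K₁ 2⟯ ≤
      hostImage K₁ 2 (laurentBaseChange K₁ (modularFunctionFieldFull N))) :=
    ⟨adjoin_jqNModC_le_hostImage N 2⟩
  haveI := finite_hostImage_full (K₁ := K₁) N 2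
  refine ⟨t, ht', hrel, hF1, hF2, ?_⟩
  intro hL g u hu hJ 𝒢t h𝒢t
  exact isLocalRing_Etu_hostImage 2 _ (jqNModC K₁ 2) t u π hπ ht' ht m hm g hu n hn hζ S hS hS0
    hL hJ 𝒢t h𝒢t

end Fermat.Agent.JA.Host
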