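/-
J-A programme, GEO (lead): **bridge** from the valuation-subring currency to the trace-form
currency of the purity theorem.

`A` a noetherian UFD of characteristic zero, `K = Frac A`, `E / K` finite, `B = integralClosure A E`,
`p ∈ A` prime, `𝒱_p ⊆ K` its valuation subring.  If `E / K` is unramified over `𝒱_p`
(`Unr (primeValSubring K hp) E`) then the trace form of `B / A` is non-degenerate at `p`.
-/
import Mathlib
import Fermat.Agent.JA.GEO_lead_ValPrime
import Fermat.Agent.JA.GEO_lead_Spec
import Fermat.Agent.JA.PUR_lead_Bridge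

set_option autoImplicit false

namespace Fermat.Agent.JA

variable {A : Type*} [CommRing A] [IsDomain A] [UniqueFactorizationMonoid A] [CharZero A]
  {K : Type*} [Field K] [Algebra A K] [IsFractionRing A K]
  {E : Type*} [Field E] [Algebra K E] [FiniteDimensional K E] [Algebra A E] [IsScalarTower A K E]

theorem trNondeg_of_unr {p : A} (hp : Prime p)
    [IsIntegrallyClosed ↥(integralClosure A E)] [Module.Finite A ↥(integralClosure A E)]
    [Module.IsTorsionFree A ↥(integralClosure A E)]
    (h : Unr (primeValSubring K hp) E) : TrNondeg A ↥(integralClosure A E) p := by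
  have hP : (Ideal.span {p}).IsPrime := (Ideal.span_singleton_prime hp.ne_zero).mpr hp
  set P : Ideal A := Ideal.span {p} with hPdef
  set 𝒱 : ValuationSubring K := primeValSubring K hp with h𝒱
  let algAV : Algebra A ↥𝒱 := primeValSubringAlgebra (K := K) hp
  have towAVK : IsScalarTower A ↥𝒱 K := primeValSubring_isScalarTower hp
  have towAVE : IsScalarTower A ↥𝒱 E := by
    refine IsScalarTower.of_algebraMap_eq (fun a => ?_)
    rw [IsScalarTower.algebraMap_apply A K E, IsScalarTower.algebraMap_apply ↥𝒱 K E]
    rfl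
  have locV : IsLocalization.AtPrime ↥𝒱 P := primeValSubring_isLocalization hp P rfl
  have hK0 : CharZero K := charZero_of_injective_algebraMap (IsFractionRing.injective A K)
  have dvrV : IsDiscreteValuationRing ↥𝒱 := isDiscreteValuationRing_of_prime hp P rfl ↥𝒱
  -- the map `B → W`
  let ι : ↥(integralClosure A E) →+* ↥(integralClosure ↥𝒱 E) :=
    (algebraMap ↥(integralClosure A E) E).codRestrict (integralClosure ↥𝒱 E).toSubring
      (fun x => IsIntegral.tower_top (A := ↥𝒱) x.2)
  let algBW : Algebra ↥(integralClosure A E) ↥(integralClosure ↥𝒱 E) := ι.toAlgebra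
  have towBWE : IsScalarTower ↥(integralClosure A E) ↥(integralClosure ↥𝒱 E) E :=
    IsScalarTower.of_algebraMap_eq (fun _ => rfl)
  have towAVW : IsScalarTower A ↥𝒱 ↥(integralClosure ↥𝒱 E) := by
    refine IsScalarTower.of_algebraMap_eq (fun a => ?_)
    apply Subtype.ext
    change algebraMap A E a = algebraMap ↥𝒱 E (algebraMap A ↥𝒱 a)
    rw [← IsScalarTower.algebraMap_apply A ↥𝒱 E]
  have towABW : IsScalarTower A ↥(integralClosure A E) ↥(integralClosure ↥𝒱 E) := by
    refine IsScalarTower.of_algebraMap_eq (fun a => ?_)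
    apply Subtype.ext
    rfl
  -- `E` is its own localisation
  have locE : IsLocalization (Algebra.algebraMapSubmonoid E P.primeCompl) E := by
    apply IsLocalization.of_le_isUnit
    rintro _ ⟨s, hs, rfl⟩
    apply IsUnit.mk0
    rw [IsScalarTower.algebraMap_apply A K E, Ne, map_eq_zero, map_eq_zero_iff _
      (IsFractionRing.injective A K)]
    rintro rfl
    exact hs P.zero_mem
  have locW : IsLocalization (Algebra.algebraMapSubmonoid ↥(integralClosure A E) P.primeCompl)
      ↥(integralClosure ↥𝒱 E) :=
    IsLocalization.integralClosure (R := A) (S := E) (Rf := ↥𝒱) (Sf := E) P.primeCompl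
  have dedW : IsDedekindDomain ↥(integralClosure ↥𝒱 E) :=
    IsIntegralClosure.isDedekindDomain ↥𝒱 K E _
  have finW : Module.Finite ↥𝒱 ↥(integralClosure ↥𝒱 E) := IsIntegralClosure.finite ↥𝒱 K E _
  have tfW : Module.IsTorsionFree ↥𝒱 ↥(integralClosure ↥𝒱 E) := by
    apply Module.IsTorsionFree.of_smul_eq_zero
    intro r m hrm
    rw [Algebra.smul_def, mul_eq_zero] at hrm
    rcases hrm with hr | hm
    · left
      have h1 : algebraMap ↥𝒱 E r = 0 := congrArg Subtype.val hr
      rw [IsScalarTower.algebraMap_apply ↥𝒱 K E, map_eq_zero] at h1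
      exact Subtype.ext h1
    · exact Or.inr hm
  have cz : CharZero ↥𝒱 := inferInstance
  have unr : Algebra.FormallyUnramified ↥𝒱 ↥(integralClosure ↥𝒱 E) := h
  exact trNondeg_of_formallyUnramified P ↥𝒱 ↥(integralClosure ↥𝒱 E) p rfl hp.ne_zero

end Fermat.Agent.JA
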