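/-
J-A programme, package PUR (lead): bridge from Mathlib's `Algebra.FormallyUnramified`
(for the localisations at a prime element `p`) to the fraction-free trace-form condition
`TrNondeg A B p` used by `PUR_lead_Main`.
-/
import Mathlib
import Fermat.Agent.JA.PUR_lead_Disc

set_option autoImplicit false
open Module

namespace Fermat.Agent.JA

attribute [local instance] FractionRing.liftAlgebra FractionRing.isScalarTower_liftAlgebra

section Loc

variable {V W : Type*} [CommRing V] [IsDedekindDomain V]
  [CommRing W] [IsDedekindDomain W]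
  [Algebra V W] [Module.Finite V W] [Module.IsTorsionFree V W]

theorem differentIdeal_eq_top_of_formallyUnramified
    [Algebra.IsSeparable (FractionRing V) (FractionRing W)] [Algebra.FormallyUnramified V W] :
    differentIdeal V W = ⊤ := by
  by_contra hne
  obtain ⟨P, hP, hle⟩ := Ideal.exists_le_maximal _ hne
  have hPprime : P.IsPrime := hP.isPrime
  have : Algebra.FormallyUnramified W (Localization.AtPrime P) :=
    Algebra.FormallyUnramified.of_isLocalization P.primeCompl
  have hun : Algebra.IsUnramifiedAt V P := Algebra.FormallyUnramified.comp V W _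
  exact (not_dvd_differentIdeal_iff.mpr hun) (Ideal.dvd_iff_le.mpr hle)

theorem exists_eq_smul_of_dual_one (K L : Type*) [Field K] [Field L] [Algebra V K]
    [IsFractionRing V K] [Algebra W L] [IsFractionRing W L] [Algebra K L] [Algebra V L]
    [IsScalarTower V K L] [IsScalarTower V W L] [FiniteDimensional K L] [Algebra.IsSeparable K L]
    [IsIntegralClosure W V L]
    (hdual : FractionalIdeal.dual V K (1 : FractionalIdeal (nonZeroDivisors W) L) = 1)
    (p : V) (hp : p ≠ 0)
    (x : W) (h : ∀ y : W, p ∣ Algebra.intTrace V W (x * y)) : ∃ z : W, x = p • z := by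
  have hpL : algebraMap V L p ≠ 0 := by
    rw [IsScalarTower.algebraMap_apply V K L, Ne, map_eq_zero,
      map_eq_zero_iff _ (IsFractionRing.injective V K)]
    exact hp
  have hpK : algebraMap V K p ≠ 0 := by
    rw [Ne, map_eq_zero_iff _ (IsFractionRing.injective V K)]
    exact hp
  set ξ : L := algebraMap W L x / algebraMap V L p with hξ
  have hmem : ξ ∈ FractionalIdeal.dual V K (1 : FractionalIdeal (nonZeroDivisors W) L) := by
    rw [FractionalIdeal.mem_dual (one_ne_zero : (1 : FractionalIdeal (nonZeroDivisors W) L) ≠ 0)]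
    intro a ha
    obtain ⟨y, rfl⟩ := (FractionalIdeal.mem_one_iff _).mp ha
    obtain ⟨d, hd⟩ := h y
    refine ⟨d, ?_⟩
    rw [Algebra.traceForm_apply]
    have h2 : ξ * algebraMap W L y = (algebraMap V K p)⁻¹ • algebraMap W L (x * y) := by
      rw [hξ, Algebra.smul_def, map_inv₀, ← IsScalarTower.algebraMap_apply, map_mul]
      field_simp
    rw [h2, map_smul, ← Algebra.algebraMap_intTrace (A := V) (K := K) (L := L) (B := W), hd,
      map_mul, smul_eq_mul]
    field_simp
  rw [hdual] at hmem
  obtain ⟨z, hz⟩ := (FractionalIdeal.mem_one_iff _).mp hmem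
  refine ⟨z, ?_⟩
  apply IsFractionRing.injective W L
  rw [Algebra.smul_def, map_mul, ← IsScalarTower.algebraMap_apply, hz, hξ,
    mul_div_cancel₀ _ hpL]

theorem exists_eq_smul_of_dvd_intTrace
    [Algebra.IsSeparable (FractionRing V) (FractionRing W)] [Algebra.FormallyUnramified V W]
    (p : V) (hp : p ≠ 0)
    (x : W) (h : ∀ y : W, p ∣ Algebra.intTrace V W (x * y)) : ∃ z : W, x = p • z := by
  refine exists_eq_smul_of_dual_one (FractionRing V) (FractionRing W) ?_ p hp x h
  have h1 := coeIdeal_differentIdeal V (FractionRing V) (FractionRing W) W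
  rw [differentIdeal_eq_top_of_formallyUnramified, FractionalIdeal.coeIdeal_top] at h1
  exact inv_eq_one.mp h1.symm

/-- characteristic-zero variant: separability is automatic. -/
theorem exists_eq_smul_of_dvd_intTrace_charZero [CharZero V] [Algebra.FormallyUnramified V W]
    (p : V) (hp : p ≠ 0)
    (x : W) (h : ∀ y : W, p ∣ Algebra.intTrace V W (x * y)) : ∃ z : W, x = p • z := by
  have : CharZero (FractionRing V) :=
    charZero_of_injective_algebraMap (IsFractionRing.injective V (FractionRing V))
  have hVW : Algebra.IsAlgebraic V W := Algebra.IsAlgebraic.of_finite V W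
  have hVL : Algebra.IsAlgebraic V (FractionRing W) :=
    (IsFractionRing.isAlgebraic_iff' V W (FractionRing W)).mp hVW
  have : Algebra.IsAlgebraic (FractionRing V) (FractionRing W) :=
    IsFractionRing.comap_isAlgebraic_iff.mp hVL
  have : Algebra.IsSeparable (FractionRing V) (FractionRing W) :=
    Algebra.IsAlgebraic.isSeparable_of_perfectField
  exact exists_eq_smul_of_dvd_intTrace p hp x h

end Loc

section Glob

variable {A B : Type*} [CommRing A] [IsDomain A] [IsIntegrallyClosed A]
  [CommRing B] [IsDomain B] [IsIntegrallyClosed B] [Algebra A B]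
  [Module.Finite A B] [Module.IsTorsionFree A B]
  (P : Ideal A) [P.IsPrime]
  (V W : Type*) [CommRing V] [IsDedekindDomain V] [CommRing W] [IsDedekindDomain W]
  [Algebra A V] [Algebra B W] [Algebra V W] [Algebra A W]
  [IsScalarTower A V W] [IsScalarTower A B W]
  [IsLocalization.AtPrime V P]
  [IsLocalization (Algebra.algebraMapSubmonoid B P.primeCompl) W]
  [Module.Finite V W] [Module.IsTorsionFree V W]

/-- **Bridge**: if the localisation `W = B_P` is formally unramified over the DVR `V = A_P`
(`P = (p)`, characteristic zero), then the trace form of `B / A` is non-degenerate at `p`. -/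
theorem trNondeg_of_formallyUnramified [CharZero V] [Algebra.FormallyUnramified V W]
    (p : A) (hP : P = Ideal.span {p}) (hp0 : p ≠ 0) : TrNondeg A B p := by
  intro x hx
  have hinjAV : Function.Injective (algebraMap A V) :=
    IsLocalization.injective V (P.primeCompl_le_nonZeroDivisors)
  have hMle : Algebra.algebraMapSubmonoid B P.primeCompl ≤ nonZeroDivisors B := by
    rintro _ ⟨s, hs, rfl⟩
    apply mem_nonZeroDivisors_of_ne_zero
    rw [Ne, map_eq_zero_iff _ (FaithfulSMul.algebraMap_injective A B)]
    rintro rfl
    exact hs P.zero_mem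
  have hinjBW : Function.Injective (algebraMap B W) := IsLocalization.injective W hMle
  have hp' : algebraMap A V p ≠ 0 := by rwa [Ne, map_eq_zero_iff _ hinjAV]
  -- the trace condition over `V`
  have hW : ∀ w : W, algebraMap A V p ∣
      Algebra.intTrace V W (algebraMap B W x * w) := by
    intro w
    obtain ⟨⟨y, s⟩, hys⟩ := IsLocalization.surj (Algebra.algebraMapSubmonoid B P.primeCompl) w
    obtain ⟨s₀, hs₀, hs⟩ := s.2
    obtain ⟨d, hd⟩ := hx y
    have hunit : IsUnit (algebraMap A V s₀) :=
      (IsLocalization.AtPrime.isUnit_to_map_iff V P s₀).mpr hs₀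
    have h1 : algebraMap A V s₀ * Algebra.intTrace V W (algebraMap B W x * w) =
        algebraMap A V p * algebraMap A V d := by
      rw [← map_mul, ← hd, Algebra.intTrace_eq_of_isLocalization A B P.primeCompl
        (Aₘ := V) (Bₘ := W), ← smul_eq_mul, ← map_smul]
      congr 1
      have hys' : w * algebraMap B W ↑s = algebraMap B W y := hys
      rw [map_mul, ← hys', Algebra.smul_def, ← hs,
        ← IsScalarTower.algebraMap_apply A B W, IsScalarTower.algebraMap_apply A V W]
      ring
    obtain ⟨u, hu⟩ := hunit
    refine ⟨↑u⁻¹ * algebraMap A V d, ?_⟩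
    have h2 : Algebra.intTrace V W (algebraMap B W x * w) =
        ↑u⁻¹ * (algebraMap A V s₀ * Algebra.intTrace V W (algebraMap B W x * w)) := by
      rw [← hu, ← mul_assoc, Units.inv_mul, one_mul]
    rw [h2, h1]
    ring
  obtain ⟨z', hz'⟩ := exists_eq_smul_of_dvd_intTrace_charZero (algebraMap A V p) hp' _ hW
  obtain ⟨⟨z, s⟩, hzs⟩ := IsLocalization.surj (Algebra.algebraMapSubmonoid B P.primeCompl) z'
  obtain ⟨s₀, hs₀, hs⟩ := s.2
  refine ⟨s₀, ?_, z, ?_⟩
  · intro hdvd
    apply hs₀
    rw [hP]
    exact Ideal.mem_span_singleton.mpr hdvd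
  · apply hinjBW
    have hzs' : z' * algebraMap B W ↑s = algebraMap B W z := hzs
    rw [Algebra.smul_def, Algebra.smul_def, map_mul, map_mul, hz', ← hzs', hs, Algebra.smul_def,
      ← IsScalarTower.algebraMap_apply A B W, IsScalarTower.algebraMap_apply A V W p]
    ring

end Glob

end Fermat.Agent.JA
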