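/-
J-A programme, GEO (lead): the abstract chart theorem.

`A` a UFD of characteristic zero, `π ∈ A` prime with `A / π` a PID, `B` an integrally closed domain,
finite and torsion-free over `A`, `c ∈ A`.  If `B / A` is unramified (semi-local form `UnramOver`)
over every prime element `p` with `(p, π) ≠ 1` and `p ∤ c`, then `B / π B` is normal away from `c`.
-/
import Mathlib
import Fermat.Agent.JA.PUR_lead_Main
import Fermat.Agent.JA.PUR_lead_Bridge
import Fermat.Agent.JA.PUR_lead_DVR

set_option autoImplicit false

open Module

namespace Fermat.Agent.JA

/-- `B / A` is unramified over the prime `P` of `A` (semi-local form: the localisation of `B` at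
`A ∖ P` is formally unramified over the local ring `A_P`). -/
def UnramOver (A B : Type*) [CommRing A] [CommRing B] [Algebra A B] (P : Ideal A) [P.IsPrime] :
    Prop :=
  Algebra.FormallyUnramified (Localization.AtPrime P)
    (Localization (Algebra.algebraMapSubmonoid B P.primeCompl))

variable {A B : Type*} [CommRing A] [IsDomain A] [UniqueFactorizationMonoid A] [CharZero A]
  [CommRing B] [IsDomain B] [IsIntegrallyClosed B] [Algebra A B]
  [Module.Finite A B] [Module.IsTorsionFree A B]

theorem trNondeg_of_unramOver {p : A} (hp : Prime p) [hP : (Ideal.span {p}).IsPrime]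
    (h : UnramOver A B (Ideal.span {p})) : TrNondeg A B p := by
  set P : Ideal A := Ideal.span {p} with hPdef
  let V := Localization.AtPrime P
  let W := Localization (Algebra.algebraMapSubmonoid B P.primeCompl)
  have : Algebra.FormallyUnramified V W := h
  have hinjAV : Function.Injective (algebraMap A V) :=
    IsLocalization.injective V (P.primeCompl_le_nonZeroDivisors)
  have hMle : Algebra.algebraMapSubmonoid B P.primeCompl ≤ nonZeroDivisors B := by
    rintro _ ⟨s, hs, rfl⟩
    apply mem_nonZeroDivisors_of_ne_zero
    rw [Ne, map_eq_zero_iff _ (FaithfulSMul.algebraMap_injective A B)]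
    rintro rfl
    exact hs P.zero_mem
  have : IsDomain W := IsLocalization.isDomain_localization hMle
  have : IsDiscreteValuationRing V := isDiscreteValuationRing_of_prime hp P rfl V
  have : Module.Finite V W := Module.Finite.of_isLocalization A B P.primeCompl
  have : CharZero V := charZero_of_injective_algebraMap hinjAV
  have : IsDedekindDomain W := isDedekindDomain.of_formallyUnramified V W
  have hinjBW : Function.Injective (algebraMap B W) := IsLocalization.injective W hMle
  have hinjVW : Function.Injective (algebraMap V W) := by
    rw [injective_iff_map_eq_zero]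
    intro x hx
    obtain ⟨⟨a, s⟩, has⟩ := IsLocalization.surj P.primeCompl x
    have has' : x * algebraMap A V ↑s = algebraMap A V a := has
    have h0 : algebraMap A W a = 0 := by
      rw [IsScalarTower.algebraMap_apply A V W, ← has', map_mul, hx, zero_mul]
    rw [IsScalarTower.algebraMap_apply A B W, map_eq_zero_iff _ hinjBW,
      map_eq_zero_iff _ (FaithfulSMul.algebraMap_injective A B)] at h0
    rw [h0, map_zero] at has'
    exact ((IsLocalization.map_units V s).mul_left_eq_zero).mp has'
  have : Module.IsTorsionFree V W := by
    apply Module.IsTorsionFree.of_smul_eq_zero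
    intro r m hrm
    rw [Algebra.smul_def, mul_eq_zero, map_eq_zero_iff _ hinjVW] at hrm
    exact hrm
  exact trNondeg_of_formallyUnramified P V W p rfl hp.ne_zero

/-- **Abstract chart theorem.** -/
theorem normalOverAway_of_unramOver {π : A} (hπ : Prime π) [IsPrincipalIdealRing (Abar A π)]
    (c : A)
    (H : ∀ p : A, Prime p → Ideal.span {p, π} ≠ ⊤ → ¬ p ∣ c →
      ∀ hP : (Ideal.span {p}).IsPrime, UnramOver A B (Ideal.span {p})) :
    NormalOverAway (Abar A π) (Bbar A B π) (mkA π c) := by
  refine normalOverAway_Bbar hπ c ?_
  intro p hp hs hc
  have hP : (Ideal.span {p}).IsPrime := (Ideal.span_singleton_prime hp.ne_zero).mpr hp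
  exact trNondeg_of_unramOver hp (H p hp hs hc hP)

end Fermat.Agent.JA
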