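/-
J-A package GM — helper1.
(UnrEquiv) transport of `Unr` along an isomorphism of the top field.
-/
import Fermat.Agent.JA.GEO_lead_Spec

set_option autoImplicit false
set_option linter.style.haveILetI false
set_option linter.unusedSectionVars false

namespace Fermat.Agent.JA

section UnrEquiv

variable {K : Type*} [Field K] (𝒱 : ValuationSubring K) {E E' : Type*} [Field E] [Field E']
  [Algebra K E] [Algebra K E']

/-- the isomorphism of integral closures induced by an isomorphism of the top fields. -/
noncomputable def integralClosureEquivOfAlgEquiv (e : E ≃ₐ[K] E') :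
    ↥(integralClosure ↥𝒱 E) ≃ₐ[↥𝒱] ↥(integralClosure ↥𝒱 E') :=
  (e.restrictScalars ↥𝒱).mapIntegralClosure

theorem coe_integralClosureEquivOfAlgEquiv (e : E ≃ₐ[K] E') (x : ↥(integralClosure ↥𝒱 E)) :
    ((integralClosureEquivOfAlgEquiv 𝒱 e x : ↥(integralClosure ↥𝒱 E')) : E') = e (x : E) := rfl

/-- `Unr` is invariant under isomorphisms of the top field. -/
theorem Unr.of_algEquiv {𝒱 : ValuationSubring K} (e : E ≃ₐ[K] E') (h : Unr 𝒱 E) : Unr 𝒱 E' := by
  unfold Unr at h ⊢
  exact Algebra.FormallyUnramified.of_equiv (integralClosureEquivOfAlgEquiv 𝒱 e)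

end UnrEquiv

end Fermat.Agent.JA
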