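/-
J-A third wave, (O1) (helper3): the concrete **`hup`** of `geo_mapDomain_eq_ord(_of_down)` for the
Legendre and Hesse towers: for every place `P` of `F_Ω` the ramification indices of the places of
`E_Ω` over `P` sum to `[E_{K₁} : F_{K₁}]` (helper7's `upstairs_legE/_hesE` + (BCDEG)), with the
base-side algebra in helper6's shape `baseAlgFE`.
-/
import Mathlib
import Fermat.Agent.JA.BCDEG_helper7
import Fermat.Agent.JA.O1_helper6_BasePkg

set_option autoImplicit false
set_option linter.unusedSectionVars false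
set_option linter.style.haveILetI false
set_option synthInstance.maxHeartbeats 400000

open HahnSeries IntermediateField AlgebraicCurve ModularCurve Fermat.Agent.Igusa Polynomial
  Fermat.Agent.X0N

namespace Fermat.Agent.JA

open scoped Fermat.Agent.JA.Host

section Hup

/-- `Ω = AlgebraicClosure ℚ`. -/
local notation "Ω" => AlgebraicClosure ℚ

variable (N : ℕ) [NeZero N] (K₁ : IntermediateField ℚ Ω)

/-- **`hup`** for the Legendre tower. -/
theorem o1_hup_legE :
    letI : Algebra ↥(modularFunctionFieldBar N) ↥(legE Ω N) :=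
      (fullToLegE Ω N).toRingHom.toAlgebra
    letI := baseAlgFE (K₁ := ↥K₁) N 2 (legT ↥K₁)
    haveI : HasPrincipalDivisors Ω ↥(legE Ω N) := up_hasPrincipalDivisors_legE N
    haveI : IsScalarTower Ω ↥(modularFunctionFieldBar N) ↥(legE Ω N) :=
      isScalarTower_along (fullToLegE Ω N)
    haveI : Algebra.IsIntegral ↥(modularFunctionFieldBar N) ↥(legE Ω N) :=
      isIntegral_along (fullToLegE Ω N) (isIntegral_of_finiteAlong _ (finiteAlong_fullToLegE N))
    ∀ P : Place Ω ↥(modularFunctionFieldBar N),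
      ∑ w ∈ P.fiber ↥(legE Ω N), (w.ramificationIndex ↥(modularFunctionFieldBar N) : ℤ) =
        (Module.finrank ↥(keyFq ↥K₁ N) ↥(legE ↥K₁ N) : ℤ) := by
  letI : Algebra ↥(modularFunctionFieldBar N) ↥(legE Ω N) :=
    (fullToLegE Ω N).toRingHom.toAlgebra
  letI := baseAlgFE (K₁ := ↥K₁) N 2 (legT ↥K₁)
  haveI : HasPrincipalDivisors Ω ↥(legE Ω N) := up_hasPrincipalDivisors_legE N
  intro P
  obtain ⟨_, _, -, -, -, h⟩ := upstairs_legE N
  have h1 := h P
  have h2 := finrank_legE_base N K₁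
  rw [h2] at h1
  exact h1

/-- **`hup`** for the Hesse tower. -/
theorem o1_hup_hesE :
    letI : Algebra ↥(modularFunctionFieldBar N) ↥(hesE Ω N) :=
      (fullToHesE Ω N).toRingHom.toAlgebra
    letI := baseAlgFE (K₁ := ↥K₁) N 3 (hesT ↥K₁)
    haveI : HasPrincipalDivisors Ω ↥(hesE Ω N) := up_hasPrincipalDivisors_hesE N
    haveI : IsScalarTower Ω ↥(modularFunctionFieldBar N) ↥(hesE Ω N) :=
      isScalarTower_along (fullToHesE Ω N)
    haveI : Algebra.IsIntegral ↥(modularFunctionFieldBar N) ↥(hesE Ω N) :=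
      isIntegral_along (fullToHesE Ω N) (isIntegral_of_finiteAlong _ (finiteAlong_fullToHesE N))
    ∀ P : Place Ω ↥(modularFunctionFieldBar N),
      ∑ w ∈ P.fiber ↥(hesE Ω N), (w.ramificationIndex ↥(modularFunctionFieldBar N) : ℤ) =
        (Module.finrank ↥(keyFq ↥K₁ N) ↥(hesE ↥K₁ N) : ℤ) := by
  letI : Algebra ↥(modularFunctionFieldBar N) ↥(hesE Ω N) :=
    (fullToHesE Ω N).toRingHom.toAlgebra
  letI := baseAlgFE (K₁ := ↥K₁) N 3 (hesT ↥K₁)
  haveI : HasPrincipalDivisors Ω ↥(hesE Ω N) := up_hasPrincipalDivisors_hesE N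
  intro P
  obtain ⟨_, _, -, -, -, h⟩ := upstairs_hesE N
  have h1 := h P
  have h2 := finrank_hesE_base N K₁
  rw [h2] at h1
  exact h1

end Hup

end Fermat.Agent.JA
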