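/-
J-A third wave, (O1) package (P2), part 4 — helper8 — the coprime fraction data of helper1's
`geo_mapDomain_eq_ord_of_down` at the base `R₁ = A ∩ K₁` (`A` over `ℓ`), HYPOTHESIS-FREE, for
helper3's F-coordinates `z₁ = baseZj N hFq`, `z₂ = baseZjInv N hFq b`: Legendre tower (`ℓ ≠ 2`) and
Hesse tower (`ℓ ≠ 3`).
-/
import Mathlib
import Fermat.Agent.JA.O1_helper8_FChartConc
import Fermat.Agent.JA.O1_helper3_BaseInst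

set_option autoImplicit false
set_option linter.unusedSectionVars false
set_option linter.style.haveILetI false
set_option synthInstance.maxHeartbeats 400000

open HahnSeries IntermediateField AlgebraicCurve ModularCurve Fermat.Agent.Igusa Polynomial
  Fermat.Agent.X0N

namespace Fermat.Agent.JA

open scoped Fermat.Agent.JA.Host

section BaseFChart

/-- `Ω = AlgebraicClosure ℚ`. -/
local notation "Ω" => AlgebraicClosure ℚ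

variable {ℓ : ℕ} [Fact ℓ.Prime] {A : ValuationSubring Ω} (hA : A.LiesOverPrime ℓ)
  (N : ℕ) [NeZero N] {K₁ : IntermediateField ℚ Ω} [IsDiscreteValuationRing ↥(baseRing A K₁)]
  (hFq : keyFq ↥K₁ N ≤ gaussField ↥(baseRing A K₁) ↥K₁)

include hA in
theorem exists_inv_256_baseRing (hℓ2 : ℓ ≠ 2) : ∃ c : ↥(baseRing A K₁), 256 * c = 1 := by
  have hℓ2' : ¬ ℓ ∣ 2 := fun h =>
    hℓ2 ((Nat.prime_dvd_prime_iff_eq (Fact.out : ℓ.Prime) Nat.prime_two).mp h)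
  have hℓ256 : ¬ ℓ ∣ 256 := fun h =>
    hℓ2' ((Fact.out : ℓ.Prime).dvd_of_dvd_pow (show ℓ ∣ 2 ^ 8 by norm_num; exact h))
  have h256 : IsUnit (256 : ↥(baseRing A K₁)) := by
    have := isUnit_natCast_baseRing hA (K₁ := K₁) hℓ256
    exact_mod_cast this
  exact h256.exists_right_inv

include hA in
theorem exists_inv_27_baseRing (hℓ3 : ℓ ≠ 3) : ∃ e : ↥(baseRing A K₁), 27 * e = 1 := by
  have hℓ3' : ¬ ℓ ∣ 3 := fun h =>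
    hℓ3 ((Nat.prime_dvd_prime_iff_eq (Fact.out : ℓ.Prime) Nat.prime_three).mp h)
  have hℓ27 : ¬ ℓ ∣ 27 := fun h =>
    hℓ3' ((Fact.out : ℓ.Prime).dvd_of_dvd_pow (show ℓ ∣ 3 ^ 3 by norm_num; exact h))
  have h27 : IsUnit (27 : ↥(baseRing A K₁)) := by
    have := isUnit_natCast_baseRing hA (K₁ := K₁) hℓ27
    exact_mod_cast this
  exact h27.exists_right_inv

include hA in
theorem exists_inv_19683_baseRing (hℓ3 : ℓ ≠ 3) : ∃ d : ↥(baseRing A K₁), 19683 * d = 1 := by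
  have hℓ3' : ¬ ℓ ∣ 3 := fun h =>
    hℓ3 ((Nat.prime_dvd_prime_iff_eq (Fact.out : ℓ.Prime) Nat.prime_three).mp h)
  have hℓ19683 : ¬ ℓ ∣ 19683 := fun h =>
    hℓ3' ((Fact.out : ℓ.Prime).dvd_of_dvd_pow (show ℓ ∣ 3 ^ 9 by norm_num; exact h))
  have h19683 : IsUnit (19683 : ↥(baseRing A K₁)) := by
    have := isUnit_natCast_baseRing hA (K₁ := K₁) hℓ19683
    exact_mod_cast this
  exact h19683.exists_right_inv

set_option maxHeartbeats 800000 in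
include hA in
/-- **the four coprime fraction data at a base, Legendre tower (`ℓ ≠ 2`)**, in the order
`(z₁, τ)`, `(z₂, τ)`, `(z₁, τ⁻¹)`, `(z₂, τ⁻¹)`. -/
theorem base_fchart_legE (hℓ2 : ℓ ≠ 2) (b : ℤ) :
    letI := baseAlgFE (K₁ := ↥K₁) N 2 (legT ↥K₁)
    (∃ a c : ↥(integralClosure ↥(Algebra.adjoin ↥(baseRing A K₁)
        {AdjoinSimple.gen ↥K₁ (legT ↥K₁)}) ↥(legE ↥K₁ N)), IsCoprime a c ∧
      algebraMap ↥(keyFq ↥K₁ N) ↥(legE ↥K₁ N)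
          ((baseZj N hFq : ↥(baseV (baseRing A K₁) N hFq)) : ↥(keyFq ↥K₁ N)) *
          algebraMap ↥(integralClosure ↥(Algebra.adjoin ↥(baseRing A K₁) {AdjoinSimple.gen ↥K₁ (legT ↥K₁)}) ↥(legE ↥K₁ N)) ↥(legE ↥K₁ N) c =
        algebraMap ↥(integralClosure ↥(Algebra.adjoin ↥(baseRing A K₁) {AdjoinSimple.gen ↥K₁ (legT ↥K₁)}) ↥(legE ↥K₁ N)) ↥(legE ↥K₁ N) a) ∧
    (∃ a c : ↥(integralClosure ↥(Algebra.adjoin ↥(baseRing A K₁)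
        {AdjoinSimple.gen ↥K₁ (legT ↥K₁)}) ↥(legE ↥K₁ N)), IsCoprime a c ∧
      algebraMap ↥(keyFq ↥K₁ N) ↥(legE ↥K₁ N)
          ((baseZjInv N hFq b : ↥(baseV (baseRing A K₁) N hFq)) : ↥(keyFq ↥K₁ N)) *
          algebraMap ↥(integralClosure ↥(Algebra.adjoin ↥(baseRing A K₁) {AdjoinSimple.gen ↥K₁ (legT ↥K₁)}) ↥(legE ↥K₁ N)) ↥(legE ↥K₁ N) c =
        algebraMap ↥(integralClosure ↥(Algebra.adjoin ↥(baseRing A K₁) {AdjoinSimple.gen ↥K₁ (legT ↥K₁)}) ↥(legE ↥K₁ N)) ↥(legE ↥K₁ N) a) ∧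
    (∃ a c : ↥(integralClosure ↥(Algebra.adjoin ↥(baseRing A K₁)
        {(AdjoinSimple.gen ↥K₁ (legT ↥K₁))⁻¹}) ↥(legE ↥K₁ N)), IsCoprime a c ∧
      algebraMap ↥(keyFq ↥K₁ N) ↥(legE ↥K₁ N)
          ((baseZj N hFq : ↥(baseV (baseRing A K₁) N hFq)) : ↥(keyFq ↥K₁ N)) *
          algebraMap ↥(integralClosure ↥(Algebra.adjoin ↥(baseRing A K₁) {(AdjoinSimple.gen ↥K₁ (legT ↥K₁))⁻¹}) ↥(legE ↥K₁ N)) ↥(legE ↥K₁ N) c =
        algebraMap ↥(integralClosure ↥(Algebra.adjoin ↥(baseRing A K₁) {(AdjoinSimple.gen ↥K₁ (legT ↥K₁))⁻¹}) ↥(legE ↥K₁ N)) ↥(legE ↥K₁ N) a) ∧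
    (∃ a c : ↥(integralClosure ↥(Algebra.adjoin ↥(baseRing A K₁)
        {(AdjoinSimple.gen ↥K₁ (legT ↥K₁))⁻¹}) ↥(legE ↥K₁ N)), IsCoprime a c ∧
      algebraMap ↥(keyFq ↥K₁ N) ↥(legE ↥K₁ N)
          ((baseZjInv N hFq b : ↥(baseV (baseRing A K₁) N hFq)) : ↥(keyFq ↥K₁ N)) *
          algebraMap ↥(integralClosure ↥(Algebra.adjoin ↥(baseRing A K₁) {(AdjoinSimple.gen ↥K₁ (legT ↥K₁))⁻¹}) ↥(legE ↥K₁ N)) ↥(legE ↥K₁ N) c =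
        algebraMap ↥(integralClosure ↥(Algebra.adjoin ↥(baseRing A K₁) {(AdjoinSimple.gen ↥K₁ (legT ↥K₁))⁻¹}) ↥(legE ↥K₁ N)) ↥(legE ↥K₁ N) a) := by
  exact o1_fchart_legE (baseRing A K₁) N (exists_inv_256_baseRing hA hℓ2).choose
    (exists_inv_256_baseRing hA hℓ2).choose_spec b

set_option maxHeartbeats 800000 in
include hA in
/-- **the four coprime fraction data at a base, Hesse tower (`ℓ ≠ 3`)**, in the order
`(z₁, τ)`, `(z₂, τ)`, `(z₁, τ⁻¹)`, `(z₂, τ⁻¹)`. -/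
theorem base_fchart_hesE (hℓ3 : ℓ ≠ 3) (b : ℤ) :
    letI := baseAlgFE (K₁ := ↥K₁) N 3 (hesT ↥K₁)
    (∃ a c : ↥(integralClosure ↥(Algebra.adjoin ↥(baseRing A K₁)
        {AdjoinSimple.gen ↥K₁ (hesT ↥K₁)}) ↥(hesE ↥K₁ N)), IsCoprime a c ∧
      algebraMap ↥(keyFq ↥K₁ N) ↥(hesE ↥K₁ N)
          ((baseZj N hFq : ↥(baseV (baseRing A K₁) N hFq)) : ↥(keyFq ↥K₁ N)) *
          algebraMap ↥(integralClosure ↥(Algebra.adjoin ↥(baseRing A K₁) {AdjoinSimple.gen ↥K₁ (hesT ↥K₁)}) ↥(hesE ↥K₁ N)) ↥(hesE ↥K₁ N) c =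
        algebraMap ↥(integralClosure ↥(Algebra.adjoin ↥(baseRing A K₁) {AdjoinSimple.gen ↥K₁ (hesT ↥K₁)}) ↥(hesE ↥K₁ N)) ↥(hesE ↥K₁ N) a) ∧
    (∃ a c : ↥(integralClosure ↥(Algebra.adjoin ↥(baseRing A K₁)
        {AdjoinSimple.gen ↥K₁ (hesT ↥K₁)}) ↥(hesE ↥K₁ N)), IsCoprime a c ∧
      algebraMap ↥(keyFq ↥K₁ N) ↥(hesE ↥K₁ N)
          ((baseZjInv N hFq b : ↥(baseV (baseRing A K₁) N hFq)) : ↥(keyFq ↥K₁ N)) *
          algebraMap ↥(integralClosure ↥(Algebra.adjoin ↥(baseRing A K₁) {AdjoinSimple.gen ↥K₁ (hesT ↥K₁)}) ↥(hesE ↥K₁ N)) ↥(hesE ↥K₁ N) c =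
        algebraMap ↥(integralClosure ↥(Algebra.adjoin ↥(baseRing A K₁) {AdjoinSimple.gen ↥K₁ (hesT ↥K₁)}) ↥(hesE ↥K₁ N)) ↥(hesE ↥K₁ N) a) ∧
    (∃ a c : ↥(integralClosure ↥(Algebra.adjoin ↥(baseRing A K₁)
        {(AdjoinSimple.gen ↥K₁ (hesT ↥K₁))⁻¹}) ↥(hesE ↥K₁ N)), IsCoprime a c ∧
      algebraMap ↥(keyFq ↥K₁ N) ↥(hesE ↥K₁ N)
          ((baseZj N hFq : ↥(baseV (baseRing A K₁) N hFq)) : ↥(keyFq ↥K₁ N)) *
          algebraMap ↥(integralClosure ↥(Algebra.adjoin ↥(baseRing A K₁) {(AdjoinSimple.gen ↥K₁ (hesT ↥K₁))⁻¹}) ↥(hesE ↥K₁ N)) ↥(hesE ↥K₁ N) c =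
        algebraMap ↥(integralClosure ↥(Algebra.adjoin ↥(baseRing A K₁) {(AdjoinSimple.gen ↥K₁ (hesT ↥K₁))⁻¹}) ↥(hesE ↥K₁ N)) ↥(hesE ↥K₁ N) a) ∧
    (∃ a c : ↥(integralClosure ↥(Algebra.adjoin ↥(baseRing A K₁)
        {(AdjoinSimple.gen ↥K₁ (hesT ↥K₁))⁻¹}) ↥(hesE ↥K₁ N)), IsCoprime a c ∧
      algebraMap ↥(keyFq ↥K₁ N) ↥(hesE ↥K₁ N)
          ((baseZjInv N hFq b : ↥(baseV (baseRing A K₁) N hFq)) : ↥(keyFq ↥K₁ N)) *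
          algebraMap ↥(integralClosure ↥(Algebra.adjoin ↥(baseRing A K₁) {(AdjoinSimple.gen ↥K₁ (hesT ↥K₁))⁻¹}) ↥(hesE ↥K₁ N)) ↥(hesE ↥K₁ N) c =
        algebraMap ↥(integralClosure ↥(Algebra.adjoin ↥(baseRing A K₁) {(AdjoinSimple.gen ↥K₁ (hesT ↥K₁))⁻¹}) ↥(hesE ↥K₁ N)) ↥(hesE ↥K₁ N) a) := by
  exact o1_fchart_hesE (baseRing A K₁) N (exists_inv_19683_baseRing hA hℓ3).choose
    (exists_inv_27_baseRing hA hℓ3).choose (exists_inv_19683_baseRing hA hℓ3).choose_spec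
    (exists_inv_27_baseRing hA hℓ3).choose_spec b

end BaseFChart

end Fermat.Agent.JA
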